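/-
S18 (reduction mod ℓ is injective on prime-to-ℓ torsion of J₀(N)) — SHARED TOP-LEVEL INTERFACE FILE.

Shared definitions and statement-`Prop`s exchanged between the two halves of the S18 team; no proofs of
the statements here.  Namespace `Fermat.Agent.S18`.

ABSTRACT SETTING (plan §2).  `L` a field of characteristic 0 (`[Algebra ℚ L]`), `W : ValuationSubring L`
a discrete valuation ring (`[IsDiscreteValuationRing ↥W]`) with uniformiser `ϖ : ↥W`, `k` an
algebraically closed field of characteristic `ℓ`, `res : ↥W →+* k` surjective with kernel `(ϖ)`,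
`W` contains primitive roots of unity of every order prime to `ℓ`, `ℓ ∤ N`  (`BaseData N ℓ W res ϖ`).
Instantiation: `L` a subfield of `AlgebraicClosure ℚ`, `W = A ∩ L`, `k` the residue field of `A`.

Objects (all q-series are FORMAL; `F = ↥(FL L N)` is a subfield of `LaurentSeries L`, used as a type):
* `FL L N = laurentBaseChange L (modularFunctionFieldFull N)`, `Fk k N = modularFunctionFieldFullC k N`;
* `jF L N : F` the series `j`; `cW W N : ↥W →+* F` the constants; `evW W N t : (↥W)[T] →+* F`, `P ↦ P(t)`;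
* `baseRing W N S = W[S] ⊆ F`, `chart W N S` = integral closure of `W[S]` in `F`;
  `chart1 = chart {j}` (`A₁`), `chart2 = chart {j⁻¹}` (`A₂`), `chart12 = chart {j, j⁻¹}` (`A₁₂`);
* `gaussO W res N` = the Gauss valuation ring `O₀` of `L(j)`: the subring generated by the fractions
  `f(j)/g(j)`, `f, g ∈ W[T]`, `g ≢ 0 mod ϖ` (these fractions already form a subring);
* `gaussV W res N` = `V`, the integral closure of `O₀` in `F` (block G: `V = ∑ O₀ mᵢ`, a DVR with
  uniformiser `ϖ`, residue field `F_k` via `ρ`).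
-/
import Fermat.Statements.S18
import Fermat.Agent.S28.Interfaces

set_option autoImplicit false

open ModularCurve AlgebraicCurve

namespace Fermat.Agent.S18

noncomputable section

/-! ## Shared definitions -/

/-- `F_L = L(j(q^d) : d ∣ N) ⊆ L((q))`, as defined by the prelude. -/
abbrev FL (L : Type) [Field L] [Algebra ℚ L] (N : ℕ) : IntermediateField L (LaurentSeries L) :=
  laurentBaseChange L (modularFunctionFieldFull N)

/-- `F_k = k(j(q^d) : d ∣ N) ⊆ k((q))`. -/
abbrev Fk (k : Type) [Field k] (N : ℕ) : IntermediateField k (LaurentSeries k) :=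
  modularFunctionFieldFullC k N

theorem coeffEmb_jq (L : Type) [Field L] [Algebra ℚ L] : coeffEmb L jq = jqModC L := by
  rw [coeffEmb, ← jqModC_rat, coeffMap_jqModC]

theorem jqModC_mem_FL (L : Type) [Field L] [Algebra ℚ L] (N : ℕ) [NeZero N] :
    jqModC L ∈ FL L N := by
  rw [← coeffEmb_jq]
  exact coeffEmb_mem_laurentBaseChange L (modularFunctionField_le_full N (jq_mem N))

/-- The series `j` as an element of `F_L`. -/
def jF (L : Type) [Field L] [Algebra ℚ L] (N : ℕ) [NeZero N] : ↥(FL L N) :=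
  ⟨jqModC L, jqModC_mem_FL L N⟩

@[simp] theorem coe_jF (L : Type) [Field L] [Algebra ℚ L] (N : ℕ) [NeZero N] :
    ((jF L N : ↥(FL L N)) : LaurentSeries L) = jqModC L := rfl

/-- The DATA of plan §2 (besides the instance arguments `[Algebra ℚ L]`,
`[IsDiscreteValuationRing ↥W]`, `[IsAlgClosed k]`, `[CharP k ℓ]`). -/
structure BaseData (N ℓ : ℕ) {L : Type} [Field L] (W : ValuationSubring L) {k : Type} [Field k]
    (res : ↥W →+* k) (ϖ : ↥W) : Prop where
  not_dvd : ¬ ℓ ∣ N
  irreducible : Irreducible ϖ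
  res_surjective : Function.Surjective res
  ker_res : RingHom.ker res = Ideal.span {ϖ}
  roots : ∀ m : ℕ, ¬ ℓ ∣ m → ∃ ζ : ↥W, IsPrimitiveRoot (ζ : L) m

section Objects

variable {L : Type} [Field L] [Algebra ℚ L] (W : ValuationSubring L) {k : Type} [Field k]
  (res : ↥W →+* k) (N : ℕ)

/-- Constants: `W → L → F_L`. -/
def cW : ↥W →+* ↥(FL L N) := (algebraMap L ↥(FL L N)).comp W.subtype

/-- `P ↦ P(t)` for `P ∈ W[T]`, `t ∈ F_L`. -/
def evW (t : ↥(FL L N)) : Polynomial ↥W →+* ↥(FL L N) := Polynomial.eval₂RingHom (cW W N) t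

/-- `W[S] ⊆ F_L`. -/
def baseRing (S : Set ↥(FL L N)) : Subring ↥(FL L N) := Subring.closure (Set.range (cW W N) ∪ S)

/-- The integral closure of `W[S]` in `F_L`. -/
def chart (S : Set ↥(FL L N)) : Subring ↥(FL L N) :=
  (integralClosure ↥(baseRing W N S) ↥(FL L N)).toSubring

theorem mem_chart_iff (S : Set ↥(FL L N)) (x : ↥(FL L N)) :
    x ∈ chart W N S ↔ IsIntegral ↥(baseRing W N S) x := Iff.rfl

variable [NeZero N]

/-- `A₁`: the integral closure of `W[j]` in `F_L`. -/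
abbrev chart1 : Subring ↥(FL L N) := chart W N {jF L N}

/-- `A₂`: the integral closure of `W[1/j]` in `F_L`. -/
abbrev chart2 : Subring ↥(FL L N) := chart W N {(jF L N)⁻¹}

/-- `A₁₂`: the integral closure of `W[j, 1/j]` in `F_L`. -/
abbrev chart12 : Subring ↥(FL L N) := chart W N {jF L N, (jF L N)⁻¹}

/-- The fractions `f(j)/g(j)` with `f, g ∈ W[T]`, `g ≢ 0` modulo `ϖ`. -/
def gaussSet : Set ↥(FL L N) :=
  {c | ∃ f g : Polynomial ↥W, g.map res ≠ 0 ∧ evW W N (jF L N) g * c = evW W N (jF L N) f}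

/-- `O₀`: the Gauss valuation ring of `L(j)` (generated by `gaussSet`, which is already a subring). -/
def gaussO : Subring ↥(FL L N) := Subring.closure (gaussSet W res N)

/-- `V`: the integral closure of `O₀` in `F_L`. -/
def gaussV : Subring ↥(FL L N) := (integralClosure ↥(gaussO W res N) ↥(FL L N)).toSubring

theorem mem_gaussV_iff (x : ↥(FL L N)) :
    x ∈ gaussV W res N ↔ IsIntegral ↥(gaussO W res N) x := Iff.rfl

/-- The properties of the reduction map `ρ : V → k((q))` (plan (G2)). -/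
structure IsGaussRed (ϖ : ↥W) (ρ : ↥(gaussV W res N) →+* LaurentSeries k) : Prop where
  /-- on `F ∩ W((q))` the map `ρ` is the coefficientwise reduction -/
  red : ∀ (y : LaurentSeries ↥W) (hy : coeffMap W.subtype y ∈ FL L N)
    (hV : (⟨coeffMap W.subtype y, hy⟩ : ↥(FL L N)) ∈ gaussV W res N),
    ρ ⟨⟨coeffMap W.subtype y, hy⟩, hV⟩ = coeffMap res y
  /-- `ker ρ = ϖ V` -/
  ker : ∀ x : ↥(gaussV W res N), ρ x = 0 ↔ ∃ x' : ↥(gaussV W res N),
    (x : ↥(FL L N)) = cW W N ϖ * (x' : ↥(FL L N))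
  /-- `ρ(V) = F_k` -/
  range : ∀ z : LaurentSeries k, z ∈ Fk k N ↔ ∃ x : ↥(gaussV W res N), ρ x = z

end Objects

/-- `R / x R` is a discrete valuation ring. -/
def IsDVRQuot (R : Type*) [CommRing R] (x : R) : Prop :=
  ∃ _h : IsDomain (R ⧸ Ideal.span {x}), IsDiscreteValuationRing (R ⧸ Ideal.span {x})

/-! ## Block G (Gauss valuation ring over `W`) — outputs consumed by blocks E and S -/

/-- (G2) `V ⊇ F ∩ W((q))`, `V` is a valuation ring of `F` in which `ϖ` is not a unit, it is the unique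
valuation ring of `F` containing `O₀` in which `ϖ` is not a unit, and there is a reduction map `ρ`. -/
def GaussStatement : Prop :=
  ∀ (N : ℕ) [NeZero N] (ℓ : ℕ) [Fact ℓ.Prime] (L : Type) [Field L] [Algebra ℚ L]
    (W : ValuationSubring L) [IsDiscreteValuationRing ↥W] (k : Type) [Field k] [IsAlgClosed k]
    [CharP k ℓ] (res : ↥W →+* k) (ϖ : ↥W), BaseData N ℓ W res ϖ →
    (∀ (y : LaurentSeries ↥W) (hy : coeffMap W.subtype y ∈ FL L N),
      (⟨coeffMap W.subtype y, hy⟩ : ↥(FL L N)) ∈ gaussV W res N) ∧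
    (∀ x : ↥(FL L N), x ∈ gaussV W res N ∨ x⁻¹ ∈ gaussV W res N) ∧
    (cW W N ϖ)⁻¹ ∉ gaussV W res N ∧
    (∀ V' : ValuationSubring ↥(FL L N), gaussO W res N ≤ V'.toSubring → (cW W N ϖ)⁻¹ ∉ V' →
      V'.toSubring = gaussV W res N) ∧
    ∃ ρ : ↥(gaussV W res N) →+* LaurentSeries k, IsGaussRed W res N ϖ ρ

/-- (G3) `Aᵢ ⊆ V` and `Aᵢ ∩ ϖ V = ϖ Aᵢ` for the three charts. -/
def ChartGaussStatement : Prop :=
  ∀ (N : ℕ) [NeZero N] (ℓ : ℕ) [Fact ℓ.Prime] (L : Type) [Field L] [Algebra ℚ L]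
    (W : ValuationSubring L) [IsDiscreteValuationRing ↥W] (k : Type) [Field k] [IsAlgClosed k]
    [CharP k ℓ] (res : ↥W →+* k) (ϖ : ↥W), BaseData N ℓ W res ϖ →
    ∀ S : Set ↥(FL L N), (S = {jF L N} ∨ S = {(jF L N)⁻¹} ∨ S = {jF L N, (jF L N)⁻¹}) →
      chart W N S ≤ gaussV W res N ∧
      ∀ x ∈ chart W N S, (cW W N ϖ)⁻¹ * x ∈ gaussV W res N → (cW W N ϖ)⁻¹ * x ∈ chart W N S

/-- (G4) `F_k / k(j̄)` is separable (elementwise form; in particular algebraic). -/
def FkSepStatement : Prop :=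
  ∀ (N : ℕ) [NeZero N] (ℓ : ℕ) [Fact ℓ.Prime], ¬ ℓ ∣ N →
    ∀ (k : Type) [Field k] [CharP k ℓ] [IsAlgClosed k],
      ∀ x ∈ Fk k N, IsSeparable ↥(IntermediateField.adjoin k {jqModC k}) x

/-! ## Block H (characteristic 0) — input of block S -/

/-- (H) Horizontal ramification of `F_L / L(j)`: at a place `P` of `F_L / L`, poles of `j` have order
dividing `N`, zeros of `j` have order dividing `3`, zeros of `j - 1728` have order dividing `2`, and
`g(j)` has order at most `1` for every irreducible `g ∈ L[T]` not associated to `T` or `T - 1728`. -/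
def HorizAt (L : Type) [Field L] [Algebra ℚ L] (N : ℕ) [NeZero N] : Prop :=
  ∀ P : Place L ↥(FL L N),
    (P.ord (jF L N) < 0 → -(P.ord (jF L N)) ∣ (N : ℤ)) ∧
    (0 < P.ord (jF L N) → P.ord (jF L N) ∣ 3) ∧
    (0 < P.ord (jF L N - 1728) → P.ord (jF L N - 1728) ∣ 2) ∧
    ∀ g : Polynomial L, Irreducible g → ¬ g ∣ Polynomial.X * (Polynomial.X - Polynomial.C 1728) →
      P.ord (Polynomial.aeval (jF L N) g) ≤ 1

/-- (H) for every subfield of `AlgebraicClosure ℚ`. -/
def HorizStatement : Prop :=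
  ∀ (N : ℕ) [NeZero N] (L : IntermediateField ℚ (AlgebraicClosure ℚ)), HorizAt ↥L N

/-! ## Block S (smoothness) — output consumed by block E -/

/-- (Sm) at given data: for `i = 1, 2` and every maximal ideal `m` of `Aᵢ` containing `ϖ`, the ring
`(Aᵢ)_m / ϖ` is a discrete valuation ring. -/
def SmAt (N : ℕ) [NeZero N] {L : Type} [Field L] [Algebra ℚ L] (W : ValuationSubring L)
    (ϖ : ↥W) : Prop :=
  ∀ S : Set ↥(FL L N), (S = {jF L N} ∨ S = {(jF L N)⁻¹}) →
    ∀ (m : Ideal ↥(chart W N S)) [m.IsMaximal] (ϖc : ↥(chart W N S)),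
      (ϖc : ↥(FL L N)) = cW W N ϖ → ϖc ∈ m →
      IsDVRQuot (Localization.AtPrime m) (algebraMap ↥(chart W N S) (Localization.AtPrime m) ϖc)

/-- (Sm) Smoothness of the two charts over `W`, given the horizontal ramification input. -/
def SmStatement : Prop :=
  ∀ (N : ℕ) [NeZero N] (ℓ : ℕ) [Fact ℓ.Prime] (L : Type) [Field L] [Algebra ℚ L]
    (W : ValuationSubring L) [IsDiscreteValuationRing ↥W] (k : Type) [Field k] [IsAlgClosed k]
    [CharP k ℓ] (res : ↥W →+* k) (ϖ : ↥W), BaseData N ℓ W res ϖ → HorizAt L N → SmAt N W ϖ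

/-! ## Block E — the core statement (plan §0, CORE (*)) -/

/-- CORE (*): `y ∈ A((q))` with image in `F_{ℚ̄}`, reduction a nonzero `p`-th power in `F_k`, all orders
divisible by `p` (`p` prime, `p ≠ ℓ`)  ⟹  `y` is a `p`-th power in `F_{ℚ̄}`. -/
def CoreStatement : Prop :=
  ∀ (N : ℕ) [NeZero N] (ℓ : ℕ) [Fact ℓ.Prime], ¬ ℓ ∣ N →
    ∀ (A : ValuationSubring (AlgebraicClosure ℚ)), A.LiesOverPrime ℓ →
    ∀ p : ℕ, p.Prime → p ≠ ℓ →
    ∀ (y : LaurentSeries ↥A) (hy : coeffMap A.subtype y ∈ modularFunctionFieldBar N),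
      (∃ h ∈ modularFunctionFieldFullC (IsLocalRing.ResidueField ↥A) N, h ≠ 0 ∧
        coeffMap (IsLocalRing.residue ↥A) y = h ^ p) →
      (∀ P : Place (AlgebraicClosure ℚ) ↥(modularFunctionFieldBar N),
        (p : ℤ) ∣ P.ord (⟨coeffMap A.subtype y, hy⟩ : ↥(modularFunctionFieldBar N))) →
      ∃ g ∈ modularFunctionFieldBar N, g ^ p = coeffMap A.subtype y

end

end Fermat.Agent.S18
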