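/-
S18, blocks E and H (co-lead helper22) — BLOCK INTERFACE FILE, part 1.

Statement-`Prop`s of the work packages of blocks E (reduction to CORE, base ring, descent, constant
field extension, endgame) and H (horizontal ramification).  Proofs are in the files
`Fermat/Agent/S18/E<Package>.lean` / `H<Package>.lean`; names carry the prefixes `e_` / `h_`.

Notation: `Qbar = AlgebraicClosure ℚ`, `A` a valuation subring of `Qbar` above `ℓ`, `k` its residue
field; for `L : IntermediateField ℚ Qbar`: `e_WL A L = A ∩ L` (a valuation subring of `L`),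
`e_res A L : A ∩ L → k` the residue map, `FL ↥L N ⊆ L((q))` the function field over `L`, and
`coeffMap (algebraMap ↥L Qbar)` the coefficientwise embedding `L((q)) → Qbar((q))`.
-/
import Fermat.Agent.S18.Interfaces

set_option autoImplicit false

open ModularCurve AlgebraicCurve

namespace Fermat.Agent.S18

noncomputable section

/-! ## Top level -/

/-- The statement S18 itself. -/
def e_ResultStatement : Prop :=
  ∀ (N : ℕ) [NeZero N] {ℓ : ℕ} [Fact ℓ.Prime], ¬ ℓ ∣ N →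
    ∀ (A : ValuationSubring (AlgebraicClosure ℚ)), A.LiesOverPrime ℓ →
    ModularCurve.ReductionInputsModL A N → ∀ m : ℕ, ¬ ℓ ∣ m → ∀ z : ModularCurve.JZero N,
      m • z = 0 → ModularCurve.reductionModL A N z = 0 → z = 0

/-- (K1) A function in `F_k` without zeros and poles is constant (`k` algebraically closed of
characteristic `ℓ ∤ N`). -/
def e_K1Statement : Prop :=
  ∀ (N : ℕ) [NeZero N] (ℓ : ℕ) [Fact ℓ.Prime], ¬ ℓ ∣ N →
    ∀ (k : Type) [Field k] [CharP k ℓ] [IsAlgClosed k] (u : ↥(Fk k N)), u ≠ 0 →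
      (∀ Q : Place k ↥(Fk k N), Q.ord u = 0) → ∃ c : k, u = algebraMap k ↥(Fk k N) c

/-! ## The base ring (E2) -/

/-- `W = A ∩ L`, a valuation subring of `L`. -/
abbrev e_WL (A : ValuationSubring (AlgebraicClosure ℚ))
    (L : IntermediateField ℚ (AlgebraicClosure ℚ)) : ValuationSubring ↥L :=
  A.comap (algebraMap ↥L (AlgebraicClosure ℚ))

/-- The inclusion `A ∩ L → A`. -/
def e_incl (A : ValuationSubring (AlgebraicClosure ℚ))
    (L : IntermediateField ℚ (AlgebraicClosure ℚ)) : ↥(e_WL A L) →+* ↥A where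
  toFun x := ⟨algebraMap ↥L (AlgebraicClosure ℚ) (x : ↥L), x.2⟩
  map_one' := rfl
  map_mul' _ _ := rfl
  map_zero' := rfl
  map_add' _ _ := rfl

@[simp] theorem e_incl_coe (A : ValuationSubring (AlgebraicClosure ℚ))
    (L : IntermediateField ℚ (AlgebraicClosure ℚ)) (x : ↥(e_WL A L)) :
    ((e_incl A L x : ↥A) : AlgebraicClosure ℚ) = ((x : ↥L) : AlgebraicClosure ℚ) := rfl

/-- The residue map `A ∩ L → k = A / m_A`. -/
def e_res (A : ValuationSubring (AlgebraicClosure ℚ))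
    (L : IntermediateField ℚ (AlgebraicClosure ℚ)) :
    ↥(e_WL A L) →+* IsLocalRing.ResidueField ↥A :=
  (IsLocalRing.residue ↥A).comp (e_incl A L)

/-- (E2) The residue field of `A` is algebraically closed of characteristic `ℓ`, and every finite
subset of `Qbar` lies in a subfield `L` such that `A ∩ L` is a discrete valuation ring satisfying
`BaseData` (residue map onto `k`, all roots of unity of order prime to `ℓ`). -/
def e_BaseRingStatement : Prop :=
  ∀ (N ℓ : ℕ) [Fact ℓ.Prime], ¬ ℓ ∣ N →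
    ∀ (A : ValuationSubring (AlgebraicClosure ℚ)), A.LiesOverPrime ℓ →
      IsAlgClosed (IsLocalRing.ResidueField ↥A) ∧ CharP (IsLocalRing.ResidueField ↥A) ℓ ∧
      ∀ S : Finset (AlgebraicClosure ℚ),
        ∃ L : IntermediateField ℚ (AlgebraicClosure ℚ),
          (∀ s ∈ S, s ∈ L) ∧ IsDiscreteValuationRing ↥(e_WL A L) ∧
          ∃ ϖ : ↥(e_WL A L), BaseData N ℓ (e_WL A L) (e_res A L) ϖ

/-! ## Descent to `L` (E3)

In E3 and E4 the field `L` is an ABSTRACT field of characteristic zero with a ring homomorphism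
`ι : L →+* Qbar` (this avoids expensive instance searches on `↥L` for `L : IntermediateField ℚ Qbar`;
the statements are applied with `ι = algebraMap ↥L Qbar`). -/

/-- (E3a) The coefficientwise embedding maps `F_L` into `F_Qbar`. -/
def e_IotaStatement : Prop :=
  ∀ (N : ℕ) [NeZero N] (L : Type) [Field L] [Algebra ℚ L] (ι : L →+* AlgebraicClosure ℚ)
    (x : LaurentSeries L), x ∈ FL L N → coeffMap ι x ∈ FL (AlgebraicClosure ℚ) N

/-- (E3b) Every element of `F_Qbar` comes from `F_L` as soon as `ι(L)` contains a suitable finite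
set. -/
def e_DescentStatement : Prop :=
  ∀ (N : ℕ) [NeZero N] (x : LaurentSeries (AlgebraicClosure ℚ)), x ∈ FL (AlgebraicClosure ℚ) N →
    ∃ S : Finset (AlgebraicClosure ℚ), ∀ (L : Type) [Field L] [Algebra ℚ L]
      (ι : L →+* AlgebraicClosure ℚ), (∀ s ∈ S, ∃ c : L, ι c = s) →
      ∃ xL : LaurentSeries L, xL ∈ FL L N ∧ coeffMap ι xL = x

/-- The polynomial `T^p - y`. -/
def e_pol (F : Type) [Field F] (p : ℕ) (y : F) : Polynomial F :=
  Polynomial.X ^ p - Polynomial.C y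

/-- The ring `F' = F[T]/(T^p - y)` (a field when `T^p - y` is irreducible, which is provided as an
instance `Fact (Irreducible (e_pol F p y))`). -/
abbrev e_Fp (F : Type) [Field F] (p : ℕ) (y : F) : Type := AdjoinRoot (e_pol F p y)

/-- "`L` is algebraically closed in `F' = F_L[T]/(T^p - y)`": every element of `F'` which is a root
of a nonzero polynomial over `L` is a constant from `L`. -/
def e_AlgClosedIn (L : Type) [Field L] [Algebra ℚ L] (N : ℕ) (p : ℕ) (y : ↥(FL L N)) : Prop :=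
  ∀ z : e_Fp ↥(FL L N) p y,
    (∃ P : Polynomial L, P ≠ 0 ∧ Polynomial.eval₂
      ((AdjoinRoot.of (e_pol ↥(FL L N) p y)).comp (algebraMap L ↥(FL L N))) z P = 0) →
    ∃ c : L, z = AdjoinRoot.of (e_pol ↥(FL L N) p y) (algebraMap L ↥(FL L N) c)

/-- (E3c) GeomConn: if `y ∈ F_L` is not a `p`-th power in `F_Qbar`, then `T^p - y` is irreducible
over `F_L` and `L` is algebraically closed in `F' = F_L[T]/(T^p - y)`. -/
def e_GeomConnStatement : Prop :=
  ∀ (N : ℕ) [NeZero N] (L : Type) [Field L] [Algebra ℚ L] (ι : L →+* AlgebraicClosure ℚ)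
    (p : ℕ), p.Prime → ∀ y : ↥(FL L N),
      (¬ ∃ g ∈ FL (AlgebraicClosure ℚ) N, g ^ p = coeffMap ι (y : LaurentSeries L)) →
      Irreducible (e_pol ↥(FL L N) p y) ∧ e_AlgClosedIn L N p y

/-! ## Constant field extension (E4) -/

/-- (E4) ConstExt: every place of `F_L / L` extends to a place of `F_Qbar / Qbar` with the same
order function on `F_L`. -/
def e_ConstExtStatement : Prop :=
  ∀ (N : ℕ) [NeZero N] (L : Type) [Field L] [Algebra ℚ L] (ι : L →+* AlgebraicClosure ℚ)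
    (P' : Place L ↥(FL L N)),
    ∃ P : Place (AlgebraicClosure ℚ) ↥(FL (AlgebraicClosure ℚ) N),
      ∀ (x : ↥(FL L N)) (hx : coeffMap ι (x : LaurentSeries L) ∈ FL (AlgebraicClosure ℚ) N),
        P.ord (⟨_, hx⟩ : ↥(FL (AlgebraicClosure ℚ) N)) = P'.ord x

/-! ## Block H: horizontal ramification over `Qbar` (from S24) -/

/-- (H over `Qbar`) At a place `P` of `F_Qbar`: poles of `j` have order dividing `N`, zeros of `j`
have order dividing `3`, zeros of `j - 1728` order dividing `2`, and `j - c` has order at most `1`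
for `c ≠ 0, 1728`. -/
def h_QbarStatement : Prop :=
  ∀ (N : ℕ) [NeZero N] (P : Place (AlgebraicClosure ℚ) ↥(FL (AlgebraicClosure ℚ) N)),
    (P.ord (jF (AlgebraicClosure ℚ) N) < 0 → -(P.ord (jF (AlgebraicClosure ℚ) N)) ∣ (N : ℤ)) ∧
    (0 < P.ord (jF (AlgebraicClosure ℚ) N) → P.ord (jF (AlgebraicClosure ℚ) N) ∣ 3) ∧
    (0 < P.ord (jF (AlgebraicClosure ℚ) N - 1728) →
      P.ord (jF (AlgebraicClosure ℚ) N - 1728) ∣ 2) ∧
    ∀ c : AlgebraicClosure ℚ, c ≠ 0 → c ≠ 1728 →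
      P.ord (jF (AlgebraicClosure ℚ) N - algebraMap (AlgebraicClosure ℚ) _ c) ≤ 1

/-- (H, abstract form) `HorizAt L N` for every field `L` of characteristic zero that embeds into
`Qbar`. -/
def h_HorizAbsStatement : Prop :=
  ∀ (N : ℕ) [NeZero N] (L : Type) [Field L] [Algebra ℚ L] (_ι : L →+* AlgebraicClosure ℚ),
    HorizAt L N

/-! ## Pure commutative algebra for the endgame -/

/-- (E5a) LocalUFD: a noetherian local domain `R` with `x ∈ m_R` such that `R / x` is a discrete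
valuation ring is a unique factorisation domain (and `x` is prime if `x ≠ 0`). -/
def e_LocalUFDStatement : Prop :=
  ∀ (R : Type) [CommRing R] [IsDomain R] [IsLocalRing R] [IsNoetherianRing R] (x : R),
    x ∈ IsLocalRing.maximalIdeal R → IsDVRQuot R x →
    UniqueFactorizationMonoid R ∧ (x ≠ 0 → Prime x)

/-- `R` has fraction field `F` (for a subring `R` of a field `F`). -/
def e_IsFrac {F : Type} [Field F] (R : Subring F) : Prop :=
  ∀ z : F, ∃ a b : ↥R, b ≠ 0 ∧ z * (b : F) = (a : F)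

/-- (E5b) UFDLoc: the localisation of a factorial subring `R` of its fraction field `F` at a prime
element `g` is a discrete valuation ring of `F`: a valuation subring `O ⊇ R`, `O ≠ F`, principal,
in which `g` is not a unit, and whose elements are the fractions `a / b` with `g ∤ b`. -/
def e_UFDLocStatement : Prop :=
  ∀ (F : Type) [Field F] (R : Subring F), e_IsFrac R → UniqueFactorizationMonoid ↥R →
    ∀ g : ↥R, Prime g →
      ∃ O : ValuationSubring F, R ≤ O.toSubring ∧ O ≠ ⊤ ∧ IsPrincipalIdealRing ↥O ∧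
        (g : F)⁻¹ ∉ O ∧
        (∀ z : F, z ∈ O ↔ ∃ a b : ↥R, ¬ g ∣ b ∧ z * (b : F) = (a : F))

/-- (E5c) UFDPow: in the fraction field `F` of a factorial ring `R`, an element `y ≠ 0` whose order
at every prime element `g` of `R` is divisible by `p` (in the form: `y * z ^ p` is a fraction of
two elements prime to `g`, for some `z ≠ 0`) is a unit of `R` times a `p`-th power. -/
def e_UFDPowStatement : Prop :=
  ∀ (F : Type) [Field F] (R : Subring F), e_IsFrac R → UniqueFactorizationMonoid ↥R →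
    ∀ p : ℕ, 0 < p → ∀ y : F, y ≠ 0 →
      (∀ g : ↥R, Prime g → ∃ (z : F) (a b : ↥R), z ≠ 0 ∧ ¬ g ∣ a ∧ ¬ g ∣ b ∧
        y * z ^ p * (b : F) = (a : F)) →
      ∃ (u : ↥R) (h : F), IsUnit u ∧ h ≠ 0 ∧ y = (u : F) * h ^ p

/-- (E9) Conn: the connectedness lemma.  `W₀ ⊆ B₁, B₂ ⊆ B₁₂` subrings of a commutative ring `Ω`,
`W₀` a local ring with maximal ideal `(ϖ)`, noetherian; `ϖ` a nonzerodivisor on `Ω`;
`B₁ ∩ B₂ = W₀`; `1 ∉ ϖ B₁`; `B₁₂ = B₁ + B₂ + ∑ W₀ mᵢ` for finitely many `mᵢ`; `eᵢ ∈ Bᵢ` with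
`eᵢ² - eᵢ ∈ ϖ Bᵢ` and `e₁ - e₂ ∈ ϖ B₁₂`.  Then `e₁ ∈ ϖ B₁` or `1 - e₁ ∈ ϖ B₁`. -/
def e_ConnStatement : Prop :=
  ∀ (Ω : Type) [CommRing Ω] (W₀ B₁ B₂ B₁₂ : Subring Ω) (ϖ : Ω),
    W₀ ≤ B₁ → W₀ ≤ B₂ → B₁ ≤ B₁₂ → B₂ ≤ B₁₂ → ϖ ∈ W₀ →
    IsNoetherianRing ↥W₀ →
    (∀ w ∈ W₀, (∃ w' ∈ W₀, w = ϖ * w') ∨ (∃ w' ∈ W₀, w * w' = 1)) →
    (∀ x : Ω, ϖ * x = 0 → x = 0) →
    (∀ x : Ω, x ∈ B₁ → x ∈ B₂ → x ∈ W₀) →
    (¬ ∃ b ∈ B₁, (1 : Ω) = ϖ * b) →
    (∃ (r : ℕ) (m : Fin r → Ω), ∀ x ∈ B₁₂, ∃ b₁ ∈ B₁, ∃ b₂ ∈ B₂, ∃ w : Fin r → Ω,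
      (∀ i, w i ∈ W₀) ∧ x = b₁ + b₂ + ∑ i, w i * m i) →
    ∀ e₁ e₂ : Ω, e₁ ∈ B₁ → e₂ ∈ B₂ →
      (∃ b ∈ B₁, e₁ ^ 2 - e₁ = ϖ * b) → (∃ b ∈ B₂, e₂ ^ 2 - e₂ = ϖ * b) →
      (∃ b ∈ B₁₂, e₁ - e₂ = ϖ * b) →
      (∃ b ∈ B₁, e₁ = ϖ * b) ∨ (∃ b ∈ B₁, 1 - e₁ = ϖ * b)

end

end Fermat.Agent.S18
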