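/-
S18, blocks E and H (co-lead helper22) — BLOCK INTERFACE FILE, part 2: two valuation-theoretic lemmas
shared by the packages BaseRing (E2) and ConstExt (E4).

Setting: `Ω` a field, `O` a valuation subring of `Ω`, `E` a subfield of `Ω`.  "`O` induces on `E` a
discrete valuation with uniformiser `π`" is expressed as: every nonzero `x ∈ E` is `π ^ n * u` with
`n : ℤ` and `u` a unit of `O` (`u ∈ O`, `u⁻¹ ∈ O`).
-/
import Fermat.Agent.S18.EInterfaces

set_option autoImplicit false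

namespace Fermat.Agent.S18

/-- (Unram) Unramified simple extensions.  If `O` induces on `E` a discrete valuation with
uniformiser `π`, and `c ∈ O` is a root of a monic polynomial `g` with coefficients in `O ∩ E` such
that `g'(c)` is a unit of `O`, then `O` induces on `E(c)` a discrete valuation with the SAME
uniformiser `π`. -/
def e_UnramStatement : Prop :=
  ∀ (Ω : Type) [Field Ω] (O : ValuationSubring Ω) (E : Subfield Ω) (π : Ω),
    π ∈ E → π ≠ 0 → π ∈ O.nonunits →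
    (∀ x ∈ E, x ≠ 0 → ∃ (n : ℤ) (u : Ω), u ∈ O ∧ u⁻¹ ∈ O ∧ x = π ^ n * u) →
    ∀ (c : Ω) (g : Polynomial Ω), g.Monic → (∀ i, g.coeff i ∈ E) → (∀ i, g.coeff i ∈ O) →
      c ∈ O → Polynomial.eval c g = 0 →
      (Polynomial.eval c (Polynomial.derivative g))⁻¹ ∈ O →
      ∀ x ∈ Subfield.closure ((E : Set Ω) ∪ {c}), x ≠ 0 →
        ∃ (n : ℤ) (u : Ω), u ∈ O ∧ u⁻¹ ∈ O ∧ x = π ^ n * u

/-- (ValFin) Finite extensions of discretely valued fields are discretely valued.  If `O` induces on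
`E` a discrete valuation with uniformiser `π` and `E'` is a subfield of `Ω` which is a finitely
generated `E`-vector space, then `O` induces on `E'` a discrete valuation with some uniformiser
`ϖ ∈ E'`. -/
def e_ValFinStatement : Prop :=
  ∀ (Ω : Type) [Field Ω] (O : ValuationSubring Ω) (E E' : Subfield Ω) (π : Ω),
    E ≤ E' → π ∈ E → π ≠ 0 → π ∈ O.nonunits →
    (∀ x ∈ E, x ≠ 0 → ∃ (n : ℤ) (u : Ω), u ∈ O ∧ u⁻¹ ∈ O ∧ x = π ^ n * u) →
    (∃ (r : ℕ) (b : Fin r → Ω), ∀ x ∈ E', ∃ a : Fin r → Ω, (∀ i, a i ∈ E) ∧ x = ∑ i, a i * b i) →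
    ∃ ϖ ∈ E', ϖ ≠ 0 ∧ ϖ ∈ O.nonunits ∧
      ∀ x ∈ E', x ≠ 0 → ∃ (n : ℤ) (u : Ω), u ∈ O ∧ u⁻¹ ∈ O ∧ x = ϖ ^ n * u

end Fermat.Agent.S18
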