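/-
S18, blocks E and H (co-lead helper22) — BLOCK INTERFACE FILE, part 3: CORRECTED versions of the
unramified-extension lemma.  (`e_UnramStatement` of `EInterfaces2.lean` is false as written, because
`0⁻¹ = 0 ∈ O` makes its hypothesis "`g'(c)` is a unit" vacuous when `g'(c) = 0`; do not use it.)

Setting as in `EInterfaces2.lean`: `Ω` a field, `O` a valuation subring of `Ω`, `E` a subfield of `Ω`;
"`O` induces on `E` a discrete valuation with uniformiser `π`" means: every nonzero `x ∈ E` is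
`π ^ n * u` with `n : ℤ` and `u` a unit of `O`.
-/
import Fermat.Agent.S18.EInterfaces2

set_option autoImplicit false

namespace Fermat.Agent.S18

/-- (Unram', corrected) Unramified simple extensions, monic case.  If `O` induces on `E` a discrete
valuation with uniformiser `π`, and `c ∈ O` is a root of a monic polynomial `g` with coefficients in
`O ∩ E` such that `g'(c)` is a unit of `O` (`g'(c) ≠ 0` and `g'(c)⁻¹ ∈ O`), then `O` induces on `E(c)` a
discrete valuation with the SAME uniformiser `π`. -/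
def e_UnramStatement' : Prop :=
  ∀ (Ω : Type) [Field Ω] (O : ValuationSubring Ω) (E : Subfield Ω) (π : Ω),
    π ∈ E → π ≠ 0 → π ∈ O.nonunits →
    (∀ x ∈ E, x ≠ 0 → ∃ (n : ℤ) (u : Ω), u ∈ O ∧ u⁻¹ ∈ O ∧ x = π ^ n * u) →
    ∀ (c : Ω) (g : Polynomial Ω), g.Monic → (∀ i, g.coeff i ∈ E) → (∀ i, g.coeff i ∈ O) →
      c ∈ O → Polynomial.eval c g = 0 →
      Polynomial.eval c (Polynomial.derivative g) ≠ 0 →
      (Polynomial.eval c (Polynomial.derivative g))⁻¹ ∈ O →
      ∀ x ∈ Subfield.closure ((E : Set Ω) ∪ {c}), x ≠ 0 →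
        ∃ (n : ℤ) (u : Ω), u ∈ O ∧ u⁻¹ ∈ O ∧ x = π ^ n * u

/-- (UnramGen) Unramified simple extensions, general (not necessarily monic) case, residue
characteristic `0` (all nonzero integers are units of `O`).  Same as `e_UnramStatement'` without the
hypothesis `g.Monic` (so `c` need not be integral over `O ∩ E`). -/
def e_UnramGenStatement : Prop :=
  ∀ (Ω : Type) [Field Ω] (O : ValuationSubring Ω) (E : Subfield Ω) (π : Ω),
    (∀ n : ℕ, n ≠ 0 → ((n : Ω))⁻¹ ∈ O) → (∀ n : ℕ, n ≠ 0 → (n : Ω) ≠ 0) →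
    π ∈ E → π ≠ 0 → π ∈ O.nonunits →
    (∀ x ∈ E, x ≠ 0 → ∃ (n : ℤ) (u : Ω), u ∈ O ∧ u⁻¹ ∈ O ∧ x = π ^ n * u) →
    ∀ (c : Ω) (g : Polynomial Ω), (∀ i, g.coeff i ∈ E) → (∀ i, g.coeff i ∈ O) →
      c ∈ O → Polynomial.eval c g = 0 →
      Polynomial.eval c (Polynomial.derivative g) ≠ 0 →
      (Polynomial.eval c (Polynomial.derivative g))⁻¹ ∈ O →
      ∀ x ∈ Subfield.closure ((E : Set Ω) ∪ {c}), x ≠ 0 →
        ∃ (n : ℤ) (u : Ω), u ∈ O ∧ u⁻¹ ∈ O ∧ x = π ^ n * u

end Fermat.Agent.S18
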