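/-
S18 — INTERFACE FILE of the smoothness half (blocks G4b, P, C, S) and of the H → S input.

Shared definitions and statement-`Prop`s only.  Namespace `Fermat.Agent.S18`.

Conventions ("subring of an ambient field" style).  `E` is an ambient field (a type); rings are
`Subring E`, fields `Subfield E`; "`K₁` is the fraction field of `Λ`" is stated elementwise;
localisations at primes appear through `Localization.AtPrime` inside `IsDVRQuot`, or as the subring
`locSub A P` of the ambient field (`LocSubStatement` translates between the two).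
For the covers: `F = ↥(FL L N)`, `E` is a field with an `F`-algebra structure, generated over `F` by one
element `t` (`E = F(t)`), `K₁ = L(t)`, `Λ = W[t, 1/h(t)]` (`coverRing`), `j = jE L N E ∈ E`.
-/
import Fermat.Agent.S18.Interfaces

set_option autoImplicit false

open ModularCurve AlgebraicCurve Polynomial

namespace Fermat.Agent.S18

noncomputable section

/-! ## Unramifiedness in discriminant form -/

/-- `E / K₁` is unramified at the prime `𝔭` of `Λ` (`K₁ = Frac Λ ⊆ E`): there is a `K₁`-basis `c` of `E`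
consisting of elements integral over `Λ_𝔭` whose discriminant is a unit of `Λ_𝔭`. -/
def UnramAtPrime {E : Type} [Field E] (Λ : Subring E) (K₁ : Subfield E) (𝔭 : Ideal ↥Λ) : Prop :=
  ∃ (r : ℕ) (c : Fin r → E), LinearIndependent ↥K₁ c ∧ Submodule.span ↥K₁ (Set.range c) = ⊤ ∧
    (∀ i, ∃ s : ↥Λ, s ∉ 𝔭 ∧ IsIntegral ↥Λ ((s : E) * c i)) ∧
    ∃ a s : ↥Λ, a ∉ 𝔭 ∧ s ∉ 𝔭 ∧ (s : E) * ((Algebra.discr ↥K₁ c : ↥K₁) : E) = (a : E)

/-- `x ∈ L[t]_(g)`: `x = p(t)/q(t)` with `g ∤ q`. -/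
def RegAt {L E : Type} [Field L] [Field E] [Algebra L E] (t : E) (g : L[X]) (x : E) : Prop :=
  ∃ p q : L[X], ¬ g ∣ q ∧ aeval t q * x = aeval t p

/-- `E / L(t)` is unramified at the place `g` of `L(t)` (`g ∈ L[T]` irreducible): there is an
`L(t)`-basis of `E` of elements integral over `L[t]_(g)` whose discriminant is a unit of `L[t]_(g)`. -/
def UnramAtPoly {L E : Type} [Field L] [Field E] [Algebra L E] (t : E) (g : L[X]) : Prop :=
  ∃ (r : ℕ) (c : Fin r → E), LinearIndependent ↥(IntermediateField.adjoin L {t}) c ∧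
    Submodule.span ↥(IntermediateField.adjoin L {t}) (Set.range c) = ⊤ ∧
    (∀ i, ∃ s : L[X], ¬ g ∣ s ∧ IsIntegral ↥(Algebra.adjoin L {t}) (aeval t s * c i)) ∧
    ∃ a s : L[X], ¬ g ∣ a ∧ ¬ g ∣ s ∧
      aeval t s * ((Algebra.discr ↥(IntermediateField.adjoin L {t}) c :
        ↥(IntermediateField.adjoin L {t})) : E) = aeval t a

/-! ## Toolkit: localisation at a prime as a subring of the ambient field -/

/-- The localisation of `A ⊆ F` at the prime `P`, as a subring of `F`: the `x` with `x * s = a`,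
`a, s ∈ A`, `s ∉ P`. -/
def locSub {F : Type*} [Field F] (A : Subring F) (P : Ideal ↥A) [hP : P.IsPrime] : Subring F where
  carrier := {x | ∃ a s : ↥A, s ∉ P ∧ x * (s : F) = (a : F)}
  mul_mem' := by
    rintro x y ⟨a, s, hs, h⟩ ⟨a', s', hs', h'⟩
    refine ⟨a * a', s * s', fun hmem => (hP.mem_or_mem hmem).elim hs hs', ?_⟩
    push_cast
    rw [← h, ← h']; ring
  one_mem' := ⟨1, 1, fun h => hP.ne_top ((Ideal.eq_top_iff_one P).2 h), by simp⟩
  add_mem' := by
    rintro x y ⟨a, s, hs, h⟩ ⟨a', s', hs', h'⟩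
    refine ⟨a * s' + a' * s, s * s', fun hmem => (hP.mem_or_mem hmem).elim hs hs', ?_⟩
    push_cast
    rw [← h, ← h']; ring
  zero_mem' := ⟨0, 1, fun h => hP.ne_top ((Ideal.eq_top_iff_one P).2 h), by simp⟩
  neg_mem' := by
    rintro x ⟨a, s, hs, h⟩
    refine ⟨-a, s, hs, ?_⟩
    push_cast
    rw [← h]; ring

theorem mem_locSub_iff {F : Type*} [Field F] (A : Subring F) (P : Ideal ↥A) [P.IsPrime] (x : F) :
    x ∈ locSub A P ↔ ∃ a s : ↥A, s ∉ P ∧ x * (s : F) = (a : F) := Iff.rfl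

theorem le_locSub {F : Type*} [Field F] (A : Subring F) (P : Ideal ↥A) [hP : P.IsPrime] :
    A ≤ locSub A P := fun x hx =>
  ⟨⟨x, hx⟩, 1, fun h => hP.ne_top ((Ideal.eq_top_iff_one P).2 h), by simp⟩

/-- (T) `A_P / x` is a DVR iff `(locSub A P) / x` is (`Localization.AtPrime P ≃+* ↥(locSub A P)`). -/
def LocSubStatement : Prop :=
  ∀ (F : Type) [Field F] (A : Subring F) (P : Ideal ↥A) [P.IsPrime] (x : ↥A)
    (hx : (x : F) ∈ locSub A P),
    IsDVRQuot (Localization.AtPrime P) (algebraMap ↥A (Localization.AtPrime P) x) ↔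
      IsDVRQuot ↥(locSub A P) ⟨(x : F), hx⟩

/-! ## Block P: pure commutative algebra -/

/-- (P1+P2) PURITY.  `Λ ⊆ K₁ = Frac Λ ⊆ E`, `E / K₁` finite, characteristic 0, `Λ` noetherian; `𝔫 = (ϖ, x)`
a maximal ideal of `Λ` with `ϖ Λ` a nonzero prime ideal and `x ∉ ϖ Λ` (so `Λ_𝔫` is regular local of
dimension 2).  If `E / K₁` is unramified at every nonzero prime of `Λ` strictly contained in `𝔫`, then for
every maximal ideal `M` of the integral closure `B` of `Λ` in `E` lying over `𝔫`, the ring `B_M / ϖ` is a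
DVR. -/
def PurityStatement : Prop :=
  ∀ (E : Type) [Field E] [CharZero E] (Λ : Subring E) (K₁ : Subfield E),
    Λ ≤ K₁.toSubring → (∀ x ∈ K₁, ∃ a ∈ Λ, ∃ b ∈ Λ, b ≠ 0 ∧ x * b = a) →
    FiniteDimensional ↥K₁ E → IsNoetherianRing ↥Λ →
    ∀ (𝔫 : Ideal ↥Λ) [𝔫.IsMaximal] (ϖ x : ↥Λ), ϖ ≠ 0 → (Ideal.span {ϖ} : Ideal ↥Λ).IsPrime →
      x ∉ (Ideal.span {ϖ} : Ideal ↥Λ) → 𝔫 = Ideal.span {ϖ, x} →
      (∀ 𝔭 : Ideal ↥Λ, 𝔭.IsPrime → 𝔭 ≠ ⊥ → 𝔭 < 𝔫 → UnramAtPrime Λ K₁ 𝔭) →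
      ∀ (M : Ideal ↥(integralClosure ↥Λ E).toSubring) [M.IsMaximal]
        (ϖB : ↥(integralClosure ↥Λ E).toSubring), (ϖB : E) = (ϖ : E) →
        (∀ (a : ↥Λ) (b : ↥(integralClosure ↥Λ E).toSubring), a ∈ 𝔫 → (b : E) = (a : E) → b ∈ M) →
        IsDVRQuot (Localization.AtPrime M)
          (algebraMap ↥(integralClosure ↥Λ E).toSubring (Localization.AtPrime M) ϖB)

/-- (P3) QUOTIENT LEMMA.  `E / F₀` finite Galois (characteristic 0), `B ⊆ E` integrally closed with
fraction field `E`, stable under `Gal(E / F₀)`, `C := B ∩ F₀` noetherian; `n` a maximal ideal of `C`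
containing `ϖ ≠ 0` with algebraically closed residue field (every monic non-constant polynomial over `C`
has a root modulo `n`).  If `B_M / ϖ` is a DVR for every maximal ideal `M` of `B` over `n`, then `C_n / ϖ`
is a DVR. -/
def QuotientStatement : Prop :=
  ∀ (F₀ E : Type) [Field F₀] [Field E] [CharZero F₀] [Algebra F₀ E] [FiniteDimensional F₀ E]
    [IsGalois F₀ E] (B : Subring E),
    (∀ x : E, IsIntegral ↥B x → x ∈ B) → (∀ x : E, ∃ a ∈ B, ∃ b ∈ B, b ≠ 0 ∧ x * b = a) →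
    (∀ (σ : E ≃ₐ[F₀] E), ∀ x ∈ B, σ x ∈ B) →
    IsNoetherianRing ↥(B.comap (algebraMap F₀ E)) →
    ∀ (n : Ideal ↥(B.comap (algebraMap F₀ E))) [n.IsMaximal] (ϖ : ↥(B.comap (algebraMap F₀ E))),
      ϖ ≠ 0 → ϖ ∈ n →
      (∀ p : Polynomial ↥(B.comap (algebraMap F₀ E)), p.Monic → 0 < p.natDegree →
        ∃ a : ↥(B.comap (algebraMap F₀ E)), p.eval a ∈ n) →
      (∀ (M : Ideal ↥B) [M.IsMaximal] (ϖB : ↥B), (ϖB : E) = algebraMap F₀ E (ϖ : F₀) →
        (∀ (c : ↥(B.comap (algebraMap F₀ E))) (b : ↥B), c ∈ n →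
          (b : E) = algebraMap F₀ E (c : F₀) → b ∈ M) →
        IsDVRQuot (Localization.AtPrime M) (algebraMap ↥B (Localization.AtPrime M) ϖB)) →
      IsDVRQuot (Localization.AtPrime n)
        (algebraMap ↥(B.comap (algebraMap F₀ E)) (Localization.AtPrime n) ϖ)

/-! ## Block H → S: horizontal unramifiedness of `F(t) / L(t)` (Kummer–Abhyankar + `HorizAt`) -/

/-- (H/Ab) Let `E = F(t)` with `t` transcendental over `L` and `j ∈ L(t)`, and let `g ∈ L[T]` be
irreducible.  If at the place `g` of `L(t)`: `j = unit * cube` and `j - 1728 = unit * square` whenever `j`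
is regular at `g`, and `1/j = unit * N-th power` whenever `j` is not regular at `g`, then (by `HorizAt`
and Abhyankar's lemma in characteristic 0) `E / L(t)` is unramified at `g`. -/
def HorizUnramStatement : Prop :=
  ∀ (N : ℕ) [NeZero N] (L : Type) [Field L] [Algebra ℚ L], HorizAt L N →
    ∀ (E : Type) [Field E] [Algebra L E] [Algebra ↥(FL L N) E] [IsScalarTower L ↥(FL L N) E] (t : E),
      IntermediateField.adjoin ↥(FL L N) {t} = ⊤ →
      (∀ p : L[X], aeval t p = 0 → p = 0) →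
      (∃ p q : L[X], q ≠ 0 ∧ aeval t q * algebraMap ↥(FL L N) E (jF L N) = aeval t p) →
      ∀ g : L[X], Irreducible g →
        (RegAt t g (algebraMap ↥(FL L N) E (jF L N)) → ∃ a u v : E, RegAt t g a ∧ RegAt t g u ∧
          RegAt t g v ∧ u * v = 1 ∧ algebraMap ↥(FL L N) E (jF L N) = u * a ^ 3) →
        (RegAt t g (algebraMap ↥(FL L N) E (jF L N)) → ∃ b u v : E, RegAt t g b ∧ RegAt t g u ∧
          RegAt t g v ∧ u * v = 1 ∧ algebraMap ↥(FL L N) E (jF L N) - 1728 = u * b ^ 2) →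
        (¬ RegAt t g (algebraMap ↥(FL L N) E (jF L N)) → ∃ a u v : E, RegAt t g a ∧ RegAt t g u ∧
          RegAt t g v ∧ u * v = 1 ∧ (algebraMap ↥(FL L N) E (jF L N))⁻¹ = u * a ^ N) →
        UnramAtPoly t g

/-! ## Block G → S, E: finiteness; the Gauss ring is monogenic étale over `O₀` -/

/-- (G0) `j` is transcendental over `L` and `F_L` is finite over `L(j)`. -/
def FinLStatement : Prop :=
  ∀ (N : ℕ) [NeZero N] (L : Type) [Field L] [Algebra ℚ L],
    Transcendental L (jF L N) ∧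
      FiniteDimensional ↥(IntermediateField.adjoin L {jF L N}) ↥(FL L N)


/-- (G4b) `V = O₀[θ]` is étale over `O₀`: there are `θ ∈ F` with `F = L(j)(θ)`, a monic `f ∈ O₀[X]` with
`f(θ) = 0`, and `A, B, C ∈ O₀[X]` with `A f + B f' = 1 + ϖ C` (Bézout certificate of separability of
`f mod ϖ`). -/
def MonogenicStatement : Prop :=
  ∀ (N : ℕ) [NeZero N] (ℓ : ℕ) [Fact ℓ.Prime] (L : Type) [Field L] [Algebra ℚ L]
    (W : ValuationSubring L) [IsDiscreteValuationRing ↥W] (k : Type) [Field k] [IsAlgClosed k]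
    [CharP k ℓ] (res : ↥W →+* k) (ϖ : ↥W), BaseData N ℓ W res ϖ →
    ∃ (θ : ↥(FL L N)) (f A B C : Polynomial ↥(FL L N)),
      (∀ n, f.coeff n ∈ gaussO W res N) ∧ (∀ n, A.coeff n ∈ gaussO W res N) ∧
      (∀ n, B.coeff n ∈ gaussO W res N) ∧ (∀ n, C.coeff n ∈ gaussO W res N) ∧
      f.Monic ∧ f.eval θ = 0 ∧
      IntermediateField.adjoin ↥(IntermediateField.adjoin L {jF L N}) {θ} = ⊤ ∧
      A * f + B * derivative f = 1 + Polynomial.C (cW W N ϖ) * C

/-! ## Block C: the covers -/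

section Cover

variable {L : Type} [Field L] [Algebra ℚ L] (W : ValuationSubring L) {k : Type} [Field k]
  (res : ↥W →+* k) (N : ℕ) [NeZero N] (E : Type) [Field E] [Algebra ↥(FL L N) E]

/-- The image of `j` in `E` (`L` explicit). -/
def jE (L : Type) [Field L] [Algebra ℚ L] (N : ℕ) [NeZero N] (E : Type) [Field E]
    [Algebra ↥(FL L N) E] : E := algebraMap ↥(FL L N) E (jF L N)

/-- Constants `W → F → E`. -/
def cWE : ↥W →+* E := (algebraMap ↥(FL L N) E).comp (cW W N)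

/-- `P ↦ P(t)` for `P ∈ W[T]`, `t ∈ E`. -/
def evWE (t : E) : Polynomial ↥W →+* E := Polynomial.eval₂RingHom (cWE W N E) t

/-- `W[S] ⊆ E`. -/
def baseRingE (S : Set E) : Subring E := Subring.closure (Set.range (cWE W N E) ∪ S)

/-- `Λ = W[t, 1/h(t)] ⊆ E`. -/
def coverRing (t : E) (h : Polynomial ↥W) : Subring E :=
  baseRingE W N E {t, (evWE W N E t h)⁻¹}

/-- Common part of the cover data: `E = F(t)` is Galois over `F`, `Λ = W[t, 1/h(t)]` is stable under
`Gal(E / F)`, `h ≢ 0` mod `ϖ`, and `j = p(t)/q(t)` with `p, q ∈ W[T]`, `q ≢ 0` mod `ϖ`, whose reduction is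
a non-constant rational function. -/
structure IsCoverBase (t : E) (h : Polynomial ↥W) : Prop where
  gen : IntermediateField.adjoin ↥(FL L N) {t} = ⊤
  h_res : h.map res ≠ 0
  galois : IsGalois ↥(FL L N) E
  stab : ∀ (σ : E ≃ₐ[↥(FL L N)] E), ∀ x ∈ coverRing W N E t h, σ x ∈ coverRing W N E t h
  jrat : ∃ p q : Polynomial ↥W, q.map res ≠ 0 ∧
    (∀ c : k, p.map res ≠ Polynomial.C c * q.map res) ∧
    evWE W N E t q * jE L N E = evWE W N E t p

/-- A cover of the chart `A₁` (Legendre for `ℓ` odd, Hesse for `ℓ = 2`): `W[j] ⊆ Λ`, `Λ` integral over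
`W[j]`, `j = unit * cube` and `j - 1728 = unit * square` in `Λ`. -/
structure IsCover1 (t : E) (h : Polynomial ↥W) : Prop extends IsCoverBase W res N E t h where
  j_mem : jE L N E ∈ coverRing W N E t h
  int_t : IsIntegral ↥(baseRingE W N E {jE L N E}) t
  int_h : IsIntegral ↥(baseRingE W N E {jE L N E}) (evWE W N E t h)⁻¹
  ram0 : ∃ a ∈ coverRing W N E t h, ∃ u ∈ coverRing W N E t h, ∃ v ∈ coverRing W N E t h,
    u * v = 1 ∧ jE L N E = u * a ^ 3
  ram1728 : ∃ b ∈ coverRing W N E t h, ∃ u ∈ coverRing W N E t h, ∃ v ∈ coverRing W N E t h,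
    u * v = 1 ∧ jE L N E - 1728 = u * b ^ 2

/-- A cover of the cuspidal part of the chart `A₂` (Kummer: `t ^ N = 1/j`): `W[1/j, j/(j-1728)] ⊆ Λ`,
`Λ` integral over it, `1/j = unit * N-th power` in `Λ`. -/
structure IsCover2 (t : E) (h : Polynomial ↥W) : Prop extends IsCoverBase W res N E t h where
  jinv_mem : (jE L N E)⁻¹ ∈ coverRing W N E t h
  jfrac_mem : jE L N E / (jE L N E - 1728) ∈ coverRing W N E t h
  int_t : IsIntegral ↥(baseRingE W N E {(jE L N E)⁻¹, jE L N E / (jE L N E - 1728)}) t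
  int_h : IsIntegral ↥(baseRingE W N E {(jE L N E)⁻¹, jE L N E / (jE L N E - 1728)}) (evWE W N E t h)⁻¹
  raminf : ∃ a ∈ coverRing W N E t h, ∃ u ∈ coverRing W N E t h, ∃ v ∈ coverRing W N E t h,
    u * v = 1 ∧ (jE L N E)⁻¹ = u * a ^ N

end Cover

/-- (C2/C3) Existence of a cover of `A₁`. -/
def ExistsCover1Statement : Prop :=
  ∀ (N : ℕ) [NeZero N] (ℓ : ℕ) [Fact ℓ.Prime] (L : Type) [Field L] [Algebra ℚ L]
    (W : ValuationSubring L) [IsDiscreteValuationRing ↥W] (k : Type) [Field k] [IsAlgClosed k]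
    [CharP k ℓ] (res : ↥W →+* k) (ϖ : ↥W), BaseData N ℓ W res ϖ →
    ∃ (E : Type) (_ : Field E) (_ : Algebra ↥(FL L N) E) (t : E) (h : Polynomial ↥W),
      IsCover1 W res N E t h

/-- (C2) The Legendre cover (`t = λ`, `h = T (T - 1)`) exists for `ℓ ≠ 2`. -/
def ExistsCoverLegendreStatement : Prop :=
  ∀ (N : ℕ) [NeZero N] (ℓ : ℕ) [Fact ℓ.Prime] (L : Type) [Field L] [Algebra ℚ L]
    (W : ValuationSubring L) [IsDiscreteValuationRing ↥W] (k : Type) [Field k] [IsAlgClosed k]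
    [CharP k ℓ] (res : ↥W →+* k) (ϖ : ↥W), BaseData N ℓ W res ϖ → ℓ ≠ 2 →
    ∃ (E : Type) (_ : Field E) (_ : Algebra ↥(FL L N) E) (t : E) (h : Polynomial ↥W),
      IsCover1 W res N E t h

/-- (C3) The Hesse cover (`t = μ`, `h = T ^ 3 - 1`) exists for `ℓ ≠ 3`. -/
def ExistsCoverHesseStatement : Prop :=
  ∀ (N : ℕ) [NeZero N] (ℓ : ℕ) [Fact ℓ.Prime] (L : Type) [Field L] [Algebra ℚ L]
    (W : ValuationSubring L) [IsDiscreteValuationRing ↥W] (k : Type) [Field k] [IsAlgClosed k]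
    [CharP k ℓ] (res : ↥W →+* k) (ϖ : ↥W), BaseData N ℓ W res ϖ → ℓ ≠ 3 →
    ∃ (E : Type) (_ : Field E) (_ : Algebra ↥(FL L N) E) (t : E) (h : Polynomial ↥W),
      IsCover1 W res N E t h

theorem existsCover1_of (hL : ExistsCoverLegendreStatement) (hH : ExistsCoverHesseStatement) :
    ExistsCover1Statement := by
  intro N _ ℓ _ L _ _ W _ k _ _ _ res ϖ hD
  by_cases h2 : ℓ = 2
  · exact hH N ℓ L W k res ϖ hD (by omega)
  · exact hL N ℓ L W k res ϖ hD h2

/-- (C1) Existence of a cover of the cuspidal part of `A₂`. -/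
def ExistsCover2Statement : Prop :=
  ∀ (N : ℕ) [NeZero N] (ℓ : ℕ) [Fact ℓ.Prime] (L : Type) [Field L] [Algebra ℚ L]
    (W : ValuationSubring L) [IsDiscreteValuationRing ↥W] (k : Type) [Field k] [IsAlgClosed k]
    [CharP k ℓ] (res : ↥W →+* k) (ϖ : ↥W), BaseData N ℓ W res ϖ →
    ∃ (E : Type) (_ : Field E) (_ : Algebra ↥(FL L N) E) (t : E) (h : Polynomial ↥W),
      IsCover2 W res N E t h

/-! ## Block S: smoothness from a cover -/

/-- (S1) A cover of `A₁` gives smoothness of `A₁` at every maximal ideal containing `ϖ`. -/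
def SmCover1Statement : Prop :=
  ∀ (N : ℕ) [NeZero N] (ℓ : ℕ) [Fact ℓ.Prime] (L : Type) [Field L] [Algebra ℚ L]
    (W : ValuationSubring L) [IsDiscreteValuationRing ↥W] (k : Type) [Field k] [IsAlgClosed k]
    [CharP k ℓ] (res : ↥W →+* k) (ϖ : ↥W), BaseData N ℓ W res ϖ → HorizAt L N →
    ∀ (E : Type) [Field E] [Algebra ↥(FL L N) E] (t : E) (h : Polynomial ↥W),
      IsCover1 W res N E t h →
      ∀ (m : Ideal ↥(chart1 W N)) [m.IsMaximal] (ϖc : ↥(chart1 W N)),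
        (ϖc : ↥(FL L N)) = cW W N ϖ → ϖc ∈ m →
        IsDVRQuot (Localization.AtPrime m) (algebraMap ↥(chart1 W N) (Localization.AtPrime m) ϖc)

/-- (S2) A cuspidal cover gives smoothness of `A₂` at every maximal ideal containing `ϖ` and `1/j`. -/
def SmCover2Statement : Prop :=
  ∀ (N : ℕ) [NeZero N] (ℓ : ℕ) [Fact ℓ.Prime] (L : Type) [Field L] [Algebra ℚ L]
    (W : ValuationSubring L) [IsDiscreteValuationRing ↥W] (k : Type) [Field k] [IsAlgClosed k]
    [CharP k ℓ] (res : ↥W →+* k) (ϖ : ↥W), BaseData N ℓ W res ϖ → HorizAt L N →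
    ∀ (E : Type) [Field E] [Algebra ↥(FL L N) E] (t : E) (h : Polynomial ↥W),
      IsCover2 W res N E t h →
      ∀ (m : Ideal ↥(chart2 W N)) [m.IsMaximal] (ϖc ji : ↥(chart2 W N)),
        (ϖc : ↥(FL L N)) = cW W N ϖ → ϖc ∈ m → (ji : ↥(FL L N)) = (jF L N)⁻¹ → ji ∈ m →
        IsDVRQuot (Localization.AtPrime m) (algebraMap ↥(chart2 W N) (Localization.AtPrime m) ϖc)

/-- (S3) Glueing: smoothness of `A₁` everywhere and of `A₂` at the cusps gives `SmAt`
(a maximal ideal of `A₂` not containing `1/j` has the same local ring as a maximal ideal of `A₁`). -/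
def SmGlueStatement : Prop :=
  ∀ (N : ℕ) [NeZero N] (ℓ : ℕ) [Fact ℓ.Prime] (L : Type) [Field L] [Algebra ℚ L]
    (W : ValuationSubring L) [IsDiscreteValuationRing ↥W] (k : Type) [Field k] [IsAlgClosed k]
    [CharP k ℓ] (res : ↥W →+* k) (ϖ : ↥W), BaseData N ℓ W res ϖ →
    (∀ (m : Ideal ↥(chart1 W N)) [m.IsMaximal] (ϖc : ↥(chart1 W N)),
        (ϖc : ↥(FL L N)) = cW W N ϖ → ϖc ∈ m →
        IsDVRQuot (Localization.AtPrime m) (algebraMap ↥(chart1 W N) (Localization.AtPrime m) ϖc)) →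
    (∀ (m : Ideal ↥(chart2 W N)) [m.IsMaximal] (ϖc ji : ↥(chart2 W N)),
        (ϖc : ↥(FL L N)) = cW W N ϖ → ϖc ∈ m → (ji : ↥(FL L N)) = (jF L N)⁻¹ → ji ∈ m →
        IsDVRQuot (Localization.AtPrime m) (algebraMap ↥(chart2 W N) (Localization.AtPrime m) ϖc)) →
    SmAt N W ϖ

/-- Assembly of `SmStatement` from the block statements. -/
theorem sm_of_blocks (h1 : SmCover1Statement) (h2 : SmCover2Statement) (hg : SmGlueStatement)
    (c1 : ExistsCover1Statement) (c2 : ExistsCover2Statement) : SmStatement := by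
  intro N _ ℓ _ L _ _ W _ k _ _ _ res ϖ hD hH
  obtain ⟨E1, i1, i2, t1, hh1, hc1⟩ := c1 N ℓ L W k res ϖ hD
  obtain ⟨E2, i3, i4, t2, hh2, hc2⟩ := c2 N ℓ L W k res ϖ hD
  refine hg N ℓ L W k res ϖ hD ?_ ?_
  · intro m _ ϖc h1' h2'
    exact h1 N ℓ L W k res ϖ hD hH E1 t1 hh1 hc1 m ϖc h1' h2'
  · intro m _ ϖc ji h1' h2' h3' h4'
    exact h2 N ℓ L W k res ϖ hD hH E2 t2 hh2 hc2 m ϖc ji h1' h2' h3' h4'

end

end Fermat.Agent.S18
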