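/-
S18, block E (co-lead helper22) — BLOCK INTERFACE FILE, part 4: the ENDGAME (plan §4, E5–E9).

Abstract setting ("two-level"): `F` a field, `p` a prime, `y ∈ F` with `T ^ p - y` irreducible,
`F' = e_Fp F p y = F[T]/(T ^ p - y)`, `e_of p y : F →+* F'` the inclusion, `e_rt p y ∈ F'` the root `t`
(`t ^ p = y`).  For a subring `A ⊆ F`, `e_IsInt p y A z` says that `z ∈ F'` is integral over `A`.
"`u` is a unit of the subring `R`" is written `u ∈ R ∧ u⁻¹ ∈ R` (with `u ≠ 0`);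
"`x ∈ ϖ V`" is written `ϖ⁻¹ * x ∈ V` (with `ϖ ≠ 0`).
-/
import Fermat.Agent.S18.SInterfaces
import Fermat.Agent.S18.EInterfaces3

set_option autoImplicit false

open ModularCurve AlgebraicCurve

namespace Fermat.Agent.S18

noncomputable section

/-- The inclusion `F → F' = F[T]/(T ^ p - y)`. -/
abbrev e_of {F : Type} [Field F] (p : ℕ) (y : F) : F →+* e_Fp F p y := AdjoinRoot.of (e_pol F p y)

/-- The root `t` of `T ^ p - y` in `F'`. -/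
abbrev e_rt {F : Type} [Field F] (p : ℕ) (y : F) : e_Fp F p y := AdjoinRoot.root (e_pol F p y)

/-- `z ∈ F'` is integral over the subring `A` of `F`. -/
def e_IsInt {F : Type} [Field F] (p : ℕ) (y : F) (A : Subring F) (z : e_Fp F p y) : Prop :=
  ((e_of p y).comp A.subtype).IsIntegralElem z

/-- (IntCl) Kummer integral closure.  `R ⊆ F` integrally closed in `F`, `1/p ∈ R`, `ζ_p ∈ R`,
`y = u * h ^ p` with `u` a unit of `R`, `τ := t / h` (so `τ ^ p = u`).  Then `1, τ, …, τ^(p-1)` span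
`F'` over `F`, and `∑ c_a τ^a` is integral over `R` iff all `c_a ∈ R`. -/
def e_IntClStatement : Prop :=
  ∀ (F : Type) [Field F] (p : ℕ) (y : F) (R : Subring F) (h u ζ : F),
    p.Prime → Irreducible (e_pol F p y) → (p : F) ≠ 0 → ((p : F))⁻¹ ∈ R → ζ ∈ R →
    IsPrimitiveRoot ζ p → (∀ x : F, IsIntegral ↥R x → x ∈ R) →
    h ≠ 0 → u ≠ 0 → u ∈ R → u⁻¹ ∈ R → y = u * h ^ p →
    (∀ z : e_Fp F p y, ∃ c : Fin p → F,
      z = ∑ a : Fin p, e_of p y (c a) * (e_of p y h⁻¹ * e_rt p y) ^ (a : ℕ)) ∧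
    (∀ c : Fin p → F,
      e_IsInt p y R (∑ a : Fin p, e_of p y (c a) * (e_of p y h⁻¹ * e_rt p y) ^ (a : ℕ)) ↔
        ∀ a, c a ∈ R)

/-- (LSFact) Local factorisation.  `V ⊆ F` a valuation ring with maximal ideal `ϖ V`; `R ⊆ V` a
noetherian local subring with fraction field `F`, `R ∩ ϖ V = ϖ R`, `R / ϖ` a DVR; `y` a unit of `V`;
and for every DVR `O ⊇ R` of `F` in which `ϖ` is a unit, `y` is a unit times a `p`-th power.
Then `R` is integrally closed in `F`, `y = u * h ^ p` with `u` a unit of `R`, and `V = R_(ϖ)`. -/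
def e_LSFactStatement : Prop :=
  ∀ (F : Type) [Field F] (p : ℕ) (y ϖ : F) (V R : Subring F),
    p.Prime → y ≠ 0 →
    (∀ x : F, x ∈ V ∨ x⁻¹ ∈ V) → ϖ ≠ 0 → ϖ⁻¹ ∉ V → (∀ x ∈ V, x⁻¹ ∉ V → ϖ⁻¹ * x ∈ V) →
    R ≤ V → ∀ hϖ : ϖ ∈ R, (∀ x ∈ R, ϖ⁻¹ * x ∈ V → ϖ⁻¹ * x ∈ R) →
    IsLocalRing ↥R → IsNoetherianRing ↥R → e_IsFrac R → IsDVRQuot ↥R (⟨ϖ, hϖ⟩ : ↥R) →
    y ∈ V → y⁻¹ ∈ V →
    (∀ O : ValuationSubring F, R ≤ O.toSubring → ϖ⁻¹ ∈ O → O ≠ ⊤ → IsPrincipalIdealRing ↥O →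
      ∃ z : F, z ≠ 0 ∧ y * z ^ p ∈ O ∧ (y * z ^ p)⁻¹ ∈ O) →
    (∀ x : F, IsIntegral ↥R x → x ∈ R) ∧
    (∃ u h : F, u ≠ 0 ∧ u ∈ R ∧ u⁻¹ ∈ R ∧ h ≠ 0 ∧ y = u * h ^ p) ∧
    (∀ x ∈ V, ∃ a ∈ R, ∃ b ∈ R, ϖ⁻¹ * b ∉ V ∧ x * b = a)

/-- (LSInt) Local structure of the integral closure.  With `R ⊆ V` as in (LSFact) and its
conclusions, and `h₀` a unit of `V` with `y ≡ h₀ ^ p` modulo `ϖ V`:
(LS1) if `z` is `R`-integral and `z / ϖ` is `V`-integral then `z / ϖ` is `R`-integral;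
(LS2) there is an `R`-integral `b` with `(t / h₀ - b) / ϖ` `V`-integral. -/
def e_LSIntStatement : Prop :=
  ∀ (F : Type) [Field F] (p : ℕ) (y ϖ ζ h₀ : F) (V R : Subring F),
    p.Prime → Irreducible (e_pol F p y) → (p : F) ≠ 0 → ((p : F))⁻¹ ∈ R → ζ ∈ R →
    IsPrimitiveRoot ζ p →
    (∀ x : F, x ∈ V ∨ x⁻¹ ∈ V) → ϖ ≠ 0 → ϖ⁻¹ ∉ V → (∀ x ∈ V, x⁻¹ ∉ V → ϖ⁻¹ * x ∈ V) →
    R ≤ V → ∀ hϖ : ϖ ∈ R, (∀ x ∈ R, ϖ⁻¹ * x ∈ V → ϖ⁻¹ * x ∈ R) →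
    IsDVRQuot ↥R (⟨ϖ, hϖ⟩ : ↥R) →
    (∀ x : F, IsIntegral ↥R x → x ∈ R) →
    (∃ u h : F, u ≠ 0 ∧ u ∈ R ∧ u⁻¹ ∈ R ∧ h ≠ 0 ∧ y = u * h ^ p) →
    (∀ x ∈ V, ∃ a ∈ R, ∃ b ∈ R, ϖ⁻¹ * b ∉ V ∧ x * b = a) →
    h₀ ≠ 0 → h₀ ∈ V → h₀⁻¹ ∈ V → ϖ⁻¹ * (y * h₀⁻¹ ^ p - 1) ∈ V →
    (∀ z : e_Fp F p y, e_IsInt p y R z → e_IsInt p y V (e_of p y ϖ⁻¹ * z) →
      e_IsInt p y R (e_of p y ϖ⁻¹ * z)) ∧
    (∃ b : e_Fp F p y, e_IsInt p y R b ∧
      e_IsInt p y V (e_of p y ϖ⁻¹ * (e_of p y h₀⁻¹ * e_rt p y - b)))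

/-- (Global) Local-to-global by denominator ideals.  `A ⊆ V` subrings of `F`, `ϖ ∈ A`, `x₀ ∈ F'`
integral over `V`.  If (LS1) and (LS2) (for `x₀`) hold for the localisation `locSub A m` at every
maximal ideal `m ∋ ϖ` of `A`, they hold for `A`. -/
def e_GlobalStatement : Prop :=
  ∀ (F : Type) [Field F] (p : ℕ) (y ϖ : F) (V A : Subring F) (x₀ : e_Fp F p y),
    A ≤ V → ϖ ≠ 0 → ∀ hϖ : ϖ ∈ A, e_IsInt p y V x₀ →
    (∀ (m : Ideal ↥A) [m.IsMaximal], (⟨ϖ, hϖ⟩ : ↥A) ∈ m →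
      (∀ z : e_Fp F p y, e_IsInt p y (locSub A m) z → e_IsInt p y V (e_of p y ϖ⁻¹ * z) →
        e_IsInt p y (locSub A m) (e_of p y ϖ⁻¹ * z)) ∧
      (∃ b : e_Fp F p y, e_IsInt p y (locSub A m) b ∧
        e_IsInt p y V (e_of p y ϖ⁻¹ * (x₀ - b)))) →
    (∀ z : e_Fp F p y, e_IsInt p y A z → e_IsInt p y V (e_of p y ϖ⁻¹ * z) →
      e_IsInt p y A (e_of p y ϖ⁻¹ * z)) ∧
    (∃ b : e_Fp F p y, e_IsInt p y A b ∧ e_IsInt p y V (e_of p y ϖ⁻¹ * (x₀ - b)))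

/-- (IntFin) Finiteness of integral closures.  `W` a DVR, `Φ` a field of characteristic `0`,
`f : W →+* Φ` injective, `x₀ ∈ Φ` transcendental over `W`, `Φ` finite over the subfield generated by
`f(W)` and `x₀`.  Then the integral closure of `W[x₀]` in `Φ` is a finitely generated `W[x₀]`-module
and a noetherian ring. -/
def e_IntFinStatement : Prop :=
  ∀ (W Φ : Type) [CommRing W] [IsDomain W] [IsDiscreteValuationRing W] [Field Φ] [CharZero Φ]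
    (f : W →+* Φ) (x₀ : Φ),
    Function.Injective f →
    (∀ P : Polynomial W, P ≠ 0 → Polynomial.eval₂ f x₀ P ≠ 0) →
    (∃ (r : ℕ) (b : Fin r → Φ), ∀ z : Φ, ∃ c : Fin r → Φ,
      (∀ i, c i ∈ Subfield.closure (Set.range f ∪ {x₀})) ∧ z = ∑ i, c i * b i) →
    (∃ (r : ℕ) (c : Fin r → Φ), (∀ i, (Polynomial.eval₂RingHom f x₀).IsIntegralElem (c i)) ∧
      ∀ z : Φ, (Polynomial.eval₂RingHom f x₀).IsIntegralElem z →
        ∃ P : Fin r → Polynomial W, z = ∑ i, Polynomial.eval₂ f x₀ (P i) * c i) ∧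
    IsNoetherianRing ↥(integralClosure ↥(Subring.closure (Set.range f ∪ {x₀})) Φ).toSubring

/-- (H1Gen) `H¹`-finiteness.  `W₀ ⊆ F` a subring, `j ∈ F` nonzero; `B₁, B₂, B₁₂ ⊆ F'` the integral
closures of `W₀[j]`, `W₀[1/j]`, `W₀[j, 1/j]`.  If `B₁` is a finitely generated `W₀[j]`-module then
`B₁₂ = B₁[1/j]` and `B₁₂ = B₁ + B₂ + ∑ W₀ mᵢ` for finitely many `mᵢ`. -/
def e_H1GenStatement : Prop :=
  ∀ (F : Type) [Field F] (p : ℕ) (y : F) (W₀ : Subring F) (j : F), j ≠ 0 →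
    (∃ (r : ℕ) (c : Fin r → e_Fp F p y),
      (∀ i, e_IsInt p y (Subring.closure ((W₀ : Set F) ∪ {j})) (c i)) ∧
      ∀ z : e_Fp F p y, e_IsInt p y (Subring.closure ((W₀ : Set F) ∪ {j})) z →
        ∃ a : Fin r → F, (∀ i, a i ∈ Subring.closure ((W₀ : Set F) ∪ {j})) ∧
          z = ∑ i, e_of p y (a i) * c i) →
    (∀ z : e_Fp F p y, e_IsInt p y (Subring.closure ((W₀ : Set F) ∪ {j, j⁻¹})) z →
      ∃ n : ℕ, e_IsInt p y (Subring.closure ((W₀ : Set F) ∪ {j})) (e_of p y j ^ n * z)) ∧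
    (∃ (r : ℕ) (m : Fin r → e_Fp F p y),
      ∀ z : e_Fp F p y, e_IsInt p y (Subring.closure ((W₀ : Set F) ∪ {j, j⁻¹})) z →
        ∃ (b₁ b₂ : e_Fp F p y) (w : Fin r → F),
          e_IsInt p y (Subring.closure ((W₀ : Set F) ∪ {j})) b₁ ∧
          e_IsInt p y (Subring.closure ((W₀ : Set F) ∪ {j⁻¹})) b₂ ∧ (∀ i, w i ∈ W₀) ∧
          z = b₁ + b₂ + ∑ i, e_of p y (w i) * m i)

/-- (Cap) `B₁ ∩ B₂` consists of constants.  `ι : L →+* F` a field of constants which is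
algebraically closed in `F'`, `W₀ ⊆ ι(L)` a subring, `j ∈ F`.  An element of `F'` integral over
`W₀[j]` and over `W₀[1/j]` is a constant `ι c`, and `ι c` is integral over `W₀[j]` in `F`. -/
def e_CapStatement : Prop :=
  ∀ (F L : Type) [Field F] [Field L] (p : ℕ) (y : F) (ι : L →+* F) (W₀ : Subring F) (j : F),
    Irreducible (e_pol F p y) → (∀ w ∈ W₀, ∃ c : L, ι c = w) →
    (∀ z : e_Fp F p y,
      (∃ P : Polynomial L, P ≠ 0 ∧ Polynomial.eval₂ ((e_of p y).comp ι) z P = 0) →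
      ∃ c : L, z = e_of p y (ι c)) →
    ∀ z : e_Fp F p y, e_IsInt p y (Subring.closure ((W₀ : Set F) ∪ {j})) z →
      e_IsInt p y (Subring.closure ((W₀ : Set F) ∪ {j⁻¹})) z →
      ∃ c : L, z = e_of p y (ι c) ∧ IsIntegral ↥(Subring.closure ((W₀ : Set F) ∪ {j})) (ι c)

/-- (Endgame) In the abstract setting of plan §2 with smoothness (Sm): there is no `y ∈ F ∩ W((q))`
whose reduction is a nonzero `p`-th power in `F_k`, with all orders divisible by `p`, such that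
`T ^ p - y` is irreducible over `F` and `L` is algebraically closed in `F[T]/(T ^ p - y)`. -/
def e_EndgameStatement : Prop :=
  ∀ (N : ℕ) [NeZero N] (ℓ : ℕ) [Fact ℓ.Prime] (L : Type) [Field L] [Algebra ℚ L]
    (W : ValuationSubring L) [IsDiscreteValuationRing ↥W] (k : Type) [Field k] [IsAlgClosed k]
    [CharP k ℓ] (res : ↥W →+* k) (ϖ : ↥W), BaseData N ℓ W res ϖ → SmAt N W ϖ →
    ∀ p : ℕ, p.Prime → p ≠ ℓ →
    ∀ (y : LaurentSeries ↥W) (hy : coeffMap W.subtype y ∈ FL L N),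
      (∃ h ∈ Fk k N, h ≠ 0 ∧ coeffMap res y = h ^ p) →
      (∀ P : Place L ↥(FL L N), (p : ℤ) ∣ P.ord (⟨coeffMap W.subtype y, hy⟩ : ↥(FL L N))) →
      Irreducible (e_pol ↥(FL L N) p ⟨coeffMap W.subtype y, hy⟩) →
      e_AlgClosedIn L N p ⟨coeffMap W.subtype y, hy⟩ → False

end

end Fermat.Agent.S18
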