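/-
S18, block E, package Cap: `B₁ ∩ B₂` consists of constants (`e_CapStatement`).
-/
import Fermat.Agent.S18.EInterfaces4

set_option autoImplicit false

namespace Fermat.Agent.S18

/-- An element integral (via a ring hom `f : A →+* K` with image inside a valuation subring `V`)
lies in `V`. -/
theorem e_cap_mem_valuationSubring {A K : Type} [CommRing A] [Field K] (f : A →+* K)
    (V : ValuationSubring K) (hf : ∀ a, f a ∈ V) (z : K) (hz : f.IsIntegralElem z) : z ∈ V := by
  obtain ⟨P, hP, hz⟩ := hz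
  let g : A →+* ↥V := f.codRestrict V.toSubring hf
  have hint : IsIntegral ↥V z := by
    refine ⟨P.map g, hP.map g, ?_⟩
    rw [Polynomial.eval₂_map]
    exact hz
  obtain ⟨v, hv⟩ := (IsIntegrallyClosed.isIntegral_iff (R := ↥V) (K := K)).1 hint
  rw [← hv]
  exact v.2

/-- The image of `W₀[x]` lies in a valuation subring containing the constants and `φ x`. -/
theorem e_cap_closure_le {F L K : Type} [Field F] [Field L] [Field K] (φ : F →+* K)
    (ι : L →+* F) (W₀ : Subring F) (x : F) (hW : ∀ w ∈ W₀, ∃ c : L, ι c = w)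
    (V : ValuationSubring K) (hV : Set.range (φ.comp ι) ⊆ V.toSubring) (hx : φ x ∈ V)
    (a : ↥(Subring.closure ((W₀ : Set F) ∪ {x}))) :
    (φ.comp (Subring.closure ((W₀ : Set F) ∪ {x})).subtype) a ∈ V := by
  have hle : Subring.closure ((W₀ : Set F) ∪ {x}) ≤ V.toSubring.comap φ := by
    rw [Subring.closure_le]
    rintro w (hw | hw)
    · obtain ⟨c, rfl⟩ := hW w hw
      exact hV ⟨c, rfl⟩
    · rw [Set.mem_singleton_iff] at hw
      subst hw
      exact hx
  exact hle a.2

/-- An element integral over `W₀[j]` and over `W₀[j⁻¹]` is algebraic over the constants. -/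
theorem e_cap_algebraic {F L K : Type} [Field F] [Field L] [Field K] (φ : F →+* K)
    (ι : L →+* F) (W₀ : Subring F) (j : F) (hW : ∀ w ∈ W₀, ∃ c : L, ι c = w) (z : K)
    (h1 : (φ.comp (Subring.closure ((W₀ : Set F) ∪ {j})).subtype).IsIntegralElem z)
    (h2 : (φ.comp (Subring.closure ((W₀ : Set F) ∪ {j⁻¹})).subtype).IsIntegralElem z) :
    ∃ P : Polynomial L, P ≠ 0 ∧ Polynomial.eval₂ (φ.comp ι) z P = 0 := by
  have hmem : z ∈ (integralClosure (Subring.closure (Set.range (φ.comp ι))) K).toSubring := by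
    rw [← iInf_valuationSubring_superset, Subring.mem_iInf]
    rintro ⟨V, hV⟩
    change z ∈ V
    rcases V.mem_or_inv_mem (φ j) with hj | hj
    · exact e_cap_mem_valuationSubring _ V (e_cap_closure_le φ ι W₀ j hW V hV hj) z h1
    · rw [← map_inv₀] at hj
      exact e_cap_mem_valuationSubring _ V (e_cap_closure_le φ ι W₀ j⁻¹ hW V hV hj) z h2
  obtain ⟨Q, hQ, hQz⟩ : IsIntegral ↥(Subring.closure (Set.range (φ.comp ι))) z := hmem
  have hcl : ∀ a : L, (φ.comp ι) a ∈ Subring.closure (Set.range (φ.comp ι)) :=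
    fun a => Subring.subset_closure ⟨a, rfl⟩
  let g : L →+* ↥(Subring.closure (Set.range (φ.comp ι))) :=
    (φ.comp ι).codRestrict _ hcl
  have hg : Function.Surjective g := by
    rintro ⟨b, hb⟩
    have hle : Subring.closure (Set.range (φ.comp ι)) ≤ (φ.comp ι).range := by
      rw [Subring.closure_le]
      rintro _ ⟨a, rfl⟩
      exact ⟨a, rfl⟩
    obtain ⟨a, ha⟩ := hle hb
    exact ⟨a, Subtype.ext ha⟩
  obtain ⟨P, hP⟩ := Polynomial.map_surjective g hg Q
  refine ⟨P, ?_, ?_⟩
  · rintro rfl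
    rw [Polynomial.map_zero] at hP
    exact hQ.ne_zero hP.symm
  · rw [← hP, Polynomial.eval₂_map] at hQz
    exact hQz

theorem e_cap_main : e_CapStatement := by
  intro F L _ _ p y ι W₀ j hirr hW hAC z h1 h2
  have : Fact (Irreducible (e_pol F p y)) := ⟨hirr⟩
  obtain ⟨c, rfl⟩ := hAC z (e_cap_algebraic (e_of p y) ι W₀ j hW z h1 h2)
  refine ⟨c, rfl, ?_⟩
  obtain ⟨Q, hQ, hQz⟩ := h1
  refine ⟨Q, hQ, ?_⟩
  have h := Polynomial.hom_eval₂ Q (Subring.closure ((W₀ : Set F) ∪ {j})).subtype (e_of p y) (ι c)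
  rw [hQz] at h
  exact (e_of p y).injective (h.trans (map_zero _).symm)

end Fermat.Agent.S18
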