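import Fermat.Agent.S18.EInterfaces
set_option autoImplicit false

/-!
# S18 / block E9: the connectedness lemma (`e_ConnStatement`)

Pure commutative algebra: bounded `ϖ`-torsion of `B₁₂ / (B₁ + B₂)` (noetherianity of `W₀`),
lifting of idempotents modulo powers of `ϖ`, and the local ring property of `W₀`.
-/

namespace Fermat.Agent.S18

/-- The `n`-th torsion submodule: coefficient vectors `w` with `ϖ ^ n * ∑ wᵢ mᵢ ∈ B₁ + B₂`. -/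
def e_conn_T {Ω : Type} [CommRing Ω] (W₀ B₁ B₂ : Subring Ω) (h1 : W₀ ≤ B₁) (h2 : W₀ ≤ B₂)
    (ϖ : Ω) {r : ℕ} (m : Fin r → Ω) (n : ℕ) : Submodule ↥W₀ (Fin r → ↥W₀) where
  carrier := {w | ∃ b₁ ∈ B₁, ∃ b₂ ∈ B₂, ϖ ^ n * ∑ i, (w i : Ω) * m i = b₁ + b₂}
  add_mem' := by
    rintro w w' ⟨b₁, hb₁, b₂, hb₂, h⟩ ⟨b₁', hb₁', b₂', hb₂', h'⟩
    refine ⟨b₁ + b₁', B₁.add_mem hb₁ hb₁', b₂ + b₂', B₂.add_mem hb₂ hb₂', ?_⟩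
    simp only [Pi.add_apply, Subring.coe_add, add_mul, Finset.sum_add_distrib, mul_add, h, h']
    ring
  zero_mem' := ⟨0, B₁.zero_mem, 0, B₂.zero_mem, by simp⟩
  smul_mem' := by
    rintro c w ⟨b₁, hb₁, b₂, hb₂, h⟩
    refine ⟨c * b₁, B₁.mul_mem (h1 c.2) hb₁, c * b₂, B₂.mul_mem (h2 c.2) hb₂, ?_⟩
    have : ∑ i, ((c • w) i : Ω) * m i = c * ∑ i, (w i : Ω) * m i := by
      rw [Finset.mul_sum]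
      refine Finset.sum_congr rfl fun i _ => ?_
      simp [mul_assoc]
    rw [this, mul_left_comm, h]
    ring

/-- (1) Bounded `ϖ`-torsion of `B₁₂` modulo `B₁ + B₂`. -/
theorem e_conn_bounded {Ω : Type} [CommRing Ω] (W₀ B₁ B₂ B₁₂ : Subring Ω) (ϖ : Ω)
    (h1 : W₀ ≤ B₁) (h2 : W₀ ≤ B₂) (hϖ : ϖ ∈ W₀) (hN : IsNoetherianRing ↥W₀)
    (hgen : ∃ (r : ℕ) (m : Fin r → Ω), ∀ x ∈ B₁₂, ∃ b₁ ∈ B₁, ∃ b₂ ∈ B₂, ∃ w : Fin r → Ω,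
      (∀ i, w i ∈ W₀) ∧ x = b₁ + b₂ + ∑ i, w i * m i) :
    ∃ a : ℕ, ∀ c ∈ B₁₂, ∀ n : ℕ, (∃ b₁ ∈ B₁, ∃ b₂ ∈ B₂, ϖ ^ n * c = b₁ + b₂) →
      ∃ b₁ ∈ B₁, ∃ b₂ ∈ B₂, ϖ ^ a * c = b₁ + b₂ := by
  obtain ⟨r, m, hm⟩ := hgen
  have hmono : Monotone (e_conn_T W₀ B₁ B₂ h1 h2 ϖ m) := by
    refine monotone_nat_of_le_succ fun n w hw => ?_
    obtain ⟨b₁, hb₁, b₂, hb₂, h⟩ := hw
    refine ⟨ϖ * b₁, B₁.mul_mem (h1 hϖ) hb₁, ϖ * b₂, B₂.mul_mem (h2 hϖ) hb₂, ?_⟩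
    rw [pow_succ', mul_assoc, h]
    ring
  obtain ⟨a, ha⟩ := (monotone_stabilizes_iff_noetherian (R := ↥W₀) (M := Fin r → ↥W₀)).2
    inferInstance ⟨_, hmono⟩
  refine ⟨a, fun c hc n hn => ?_⟩
  obtain ⟨b₁, hb₁, b₂, hb₂, h⟩ := hn
  obtain ⟨c₁, hc₁, c₂, hc₂, w, hw, rfl⟩ := hm c hc
  have hϖ₁ : ∀ k : ℕ, ϖ ^ k ∈ B₁ := fun k => B₁.pow_mem (h1 hϖ) k
  have hϖ₂ : ∀ k : ℕ, ϖ ^ k ∈ B₂ := fun k => B₂.pow_mem (h2 hϖ) k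
  have hn : (fun i => (⟨w i, hw i⟩ : ↥W₀)) ∈ e_conn_T W₀ B₁ B₂ h1 h2 ϖ m n := by
    refine ⟨b₁ - ϖ ^ n * c₁, B₁.sub_mem hb₁ (B₁.mul_mem (hϖ₁ n) hc₁),
      b₂ - ϖ ^ n * c₂, B₂.sub_mem hb₂ (B₂.mul_mem (hϖ₂ n) hc₂), ?_⟩
    linear_combination h
  have ha' : (fun i => (⟨w i, hw i⟩ : ↥W₀)) ∈ e_conn_T W₀ B₁ B₂ h1 h2 ϖ m a := by
    rcases le_total n a with hna | han
    · exact hmono hna hn
    · have := ha n han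
      simp only [OrderHom.coe_mk] at this
      rw [this]
      exact hn
  obtain ⟨d₁, hd₁, d₂, hd₂, hd⟩ := ha'
  refine ⟨d₁ + ϖ ^ a * c₁, B₁.add_mem hd₁ (B₁.mul_mem (hϖ₁ a) hc₁),
    d₂ + ϖ ^ a * c₂, B₂.add_mem hd₂ (B₂.mul_mem (hϖ₂ a) hc₂), ?_⟩
  linear_combination hd

/-- (2) Lifting of idempotents modulo powers of `ϖ` inside a subring `B`. -/
theorem e_conn_lift {Ω : Type} [CommRing Ω] (B : Subring Ω) (ϖ : Ω) (hϖ : ϖ ∈ B)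
    (e : Ω) (he : e ∈ B) (hid : ∃ b ∈ B, e ^ 2 - e = ϖ * b) (n : ℕ) :
    ∃ e' ∈ B, (∃ b ∈ B, e' - e = ϖ * b) ∧ (∃ b ∈ B, e' ^ 2 - e' = ϖ ^ (n + 1) * b) := by
  induction n with
  | zero =>
    obtain ⟨b, hb, h⟩ := hid
    exact ⟨e, he, ⟨0, B.zero_mem, by simp⟩, ⟨b, hb, by simpa using h⟩⟩
  | succ n ih =>
    obtain ⟨e', he', ⟨x, hx, hx'⟩, ⟨b, hb, hb'⟩⟩ := ih
    have h2 : (2 : Ω) ∈ B := by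
      have : (2 : Ω) = 1 + 1 := by norm_num
      rw [this]; exact B.add_mem B.one_mem B.one_mem
    have h3 : (3 : Ω) ∈ B := by
      have : (3 : Ω) = 2 + 1 := by norm_num
      rw [this]; exact B.add_mem h2 B.one_mem
    have h4 : (4 : Ω) ∈ B := by
      have : (4 : Ω) = 2 + 2 := by norm_num
      rw [this]; exact B.add_mem h2 h2
    refine ⟨3 * e' ^ 2 - 2 * e' ^ 3,
      B.sub_mem (B.mul_mem h3 (B.pow_mem he' 2)) (B.mul_mem h2 (B.pow_mem he' 3)),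
      ⟨x + ϖ ^ n * b * (1 - 2 * e'), B.add_mem hx (B.mul_mem (B.mul_mem (B.pow_mem hϖ n) hb)
        (B.sub_mem B.one_mem (B.mul_mem h2 he'))), ?_⟩,
      ⟨ϖ ^ n * b ^ 2 * (4 * e' ^ 2 - 4 * e' - 3),
        B.mul_mem (B.mul_mem (B.pow_mem hϖ n) (B.pow_mem hb 2))
          (B.sub_mem (B.sub_mem (B.mul_mem h4 (B.pow_mem he' 2)) (B.mul_mem h4 he')) h3), ?_⟩⟩
    · have : 3 * e' ^ 2 - 2 * e' ^ 3 - e = (e' ^ 2 - e') * (1 - 2 * e') + (e' - e) := by ring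
      rw [this, hb', hx']
      ring
    · have : (3 * e' ^ 2 - 2 * e' ^ 3) ^ 2 - (3 * e' ^ 2 - 2 * e' ^ 3)
          = (e' ^ 2 - e') ^ 2 * (4 * e' ^ 2 - 4 * e' - 3) := by ring
      rw [this, hb']
      ring

/-- (3) If `d³ - d ∈ ϖ^(a+1) B` and `d ∈ ϖ B` then `d ∈ ϖ^(a+1) B`. -/
theorem e_conn_cube {Ω : Type} [CommRing Ω] (B : Subring Ω) (ϖ : Ω) (hϖ : ϖ ∈ B) (a : ℕ)
    (d : Ω) (hd : ∃ c ∈ B, d = ϖ * c) (hd3 : ∃ g ∈ B, d ^ 3 - d = ϖ ^ (a + 1) * g) :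
    ∃ c ∈ B, d = ϖ ^ (a + 1) * c := by
  obtain ⟨g, hg, hg'⟩ := hd3
  have key : ∀ k : ℕ, k ≤ a → ∃ c ∈ B, d = ϖ ^ (k + 1) * c := by
    intro k
    induction k with
    | zero =>
      intro _
      obtain ⟨c, hc, h⟩ := hd
      exact ⟨c, hc, by simpa using h⟩
    | succ k ih =>
      intro hk
      obtain ⟨c, hc, h⟩ := ih (by omega)
      obtain ⟨j, rfl⟩ : ∃ j, a = k + 1 + j := ⟨a - (k + 1), by omega⟩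
      refine ⟨ϖ ^ (2 * k + 1) * c ^ 3 - ϖ ^ j * g,
        B.sub_mem (B.mul_mem (B.pow_mem hϖ _) (B.pow_mem hc 3)) (B.mul_mem (B.pow_mem hϖ _) hg), ?_⟩
      have e1 : d = d ^ 3 - (d ^ 3 - d) := by ring
      have e2 : d ^ 3 = ϖ ^ (k + 1 + 1) * (ϖ ^ (2 * k + 1) * c ^ 3) := by
        rw [h]; ring
      rw [hg'] at e1
      rw [e2] at e1
      rw [e1]
      ring
  exact key a le_rfl

/-- (E9) The connectedness lemma. -/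
theorem e_conn_main : e_ConnStatement := by
  intro Ω _ W₀ B₁ B₂ B₁₂ ϖ h1 h2 h1' h2' hϖ hN hloc _ hint hone hgen e₁ e₂ he₁ he₂ hid₁ hid₂ hdiff
  obtain ⟨a, ha⟩ := e_conn_bounded W₀ B₁ B₂ B₁₂ ϖ h1 h2 hϖ hN hgen
  obtain ⟨f₁, hf₁, ⟨x₁, hx₁, hx₁'⟩, ⟨u₁, hu₁, hu₁'⟩⟩ := e_conn_lift B₁ ϖ (h1 hϖ) e₁ he₁ hid₁ a
  obtain ⟨f₂, hf₂, ⟨x₂, hx₂, hx₂'⟩, ⟨u₂, hu₂, hu₂'⟩⟩ := e_conn_lift B₂ ϖ (h2 hϖ) e₂ he₂ hid₂ a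
  obtain ⟨y, hy, hy'⟩ := hdiff
  have hϖ₁₂ : ϖ ∈ B₁₂ := h1' (h1 hϖ)
  have h3 : (3 : Ω) ∈ B₁₂ := by
    have : (3 : Ω) = 1 + 1 + 1 := by norm_num
    rw [this]; exact B₁₂.add_mem (B₁₂.add_mem B₁₂.one_mem B₁₂.one_mem) B₁₂.one_mem
  -- d = f₁ - f₂
  have hd : ∃ c ∈ B₁₂, f₁ - f₂ = ϖ * c :=
    ⟨x₁ + y - x₂, B₁₂.sub_mem (B₁₂.add_mem (h1' hx₁) hy) (h2' hx₂), by
      linear_combination hx₁' + hy' - hx₂'⟩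
  have hd3 : ∃ g ∈ B₁₂, (f₁ - f₂) ^ 3 - (f₁ - f₂) = ϖ ^ (a + 1) * g := by
    refine ⟨u₁ * (f₁ + 1 - 3 * f₂) + u₂ * (3 * f₁ - f₂ - 1), ?_, ?_⟩
    · exact B₁₂.add_mem
        (B₁₂.mul_mem (h1' hu₁) (B₁₂.sub_mem (B₁₂.add_mem (h1' hf₁) B₁₂.one_mem)
          (B₁₂.mul_mem h3 (h2' hf₂))))
        (B₁₂.mul_mem (h2' hu₂) (B₁₂.sub_mem (B₁₂.sub_mem (B₁₂.mul_mem h3 (h1' hf₁)) (h2' hf₂))
          B₁₂.one_mem))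
    · linear_combination (f₁ + 1 - 3 * f₂) * hu₁' + (3 * f₁ - f₂ - 1) * hu₂'
  obtain ⟨c, hc, hc'⟩ := e_conn_cube B₁₂ ϖ hϖ₁₂ a (f₁ - f₂) hd hd3
  obtain ⟨b₁, hb₁, b₂, hb₂, hb⟩ := ha c hc (a + 1)
    ⟨f₁, hf₁, -f₂, B₂.neg_mem hf₂, by rw [← hc']; ring⟩
  -- w := f₁ - ϖ b₁ = f₂ + ϖ b₂
  have hw₁ : f₁ - ϖ * b₁ ∈ B₁ := B₁.sub_mem hf₁ (B₁.mul_mem (h1 hϖ) hb₁)
  have hw₂ : f₁ - ϖ * b₁ ∈ B₂ := by
    have : f₁ - ϖ * b₁ = f₂ + ϖ * b₂ := by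
      have : f₁ - f₂ = ϖ * (ϖ ^ a * c) := by rw [hc']; ring
      rw [hb] at this
      linear_combination this
    rw [this]
    exact B₂.add_mem hf₂ (B₂.mul_mem (h2 hϖ) hb₂)
  have hw : f₁ - ϖ * b₁ ∈ W₀ := hint _ hw₁ hw₂
  set w := f₁ - ϖ * b₁ with hwdef
  -- w ≡ e₁ mod ϖ B₁
  have hwe : w - e₁ = ϖ * (x₁ - b₁) := by rw [hwdef]; linear_combination hx₁'
  have h2B : (2 : Ω) ∈ B₁ := by
    have : (2 : Ω) = 1 + 1 := by norm_num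
    rw [this]; exact B₁.add_mem B₁.one_mem B₁.one_mem
  have hww : ∃ g ∈ B₁, w ^ 2 - w = ϖ * g := by
    refine ⟨ϖ ^ a * u₁ - 2 * b₁ * f₁ + ϖ * b₁ ^ 2 + b₁, ?_, ?_⟩
    · exact B₁.add_mem (B₁.add_mem (B₁.sub_mem (B₁.mul_mem (B₁.pow_mem (h1 hϖ) a) hu₁)
        (B₁.mul_mem (B₁.mul_mem h2B hb₁) hf₁)) (B₁.mul_mem (h1 hϖ) (B₁.pow_mem hb₁ 2))) hb₁
    · rw [hwdef]; linear_combination hu₁'
  rcases hloc w hw with ⟨w', hw', hww'⟩ | ⟨w', hw', hww'⟩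
  · left
    refine ⟨w' - x₁ + b₁, B₁.add_mem (B₁.sub_mem (h1 hw') hx₁) hb₁, ?_⟩
    linear_combination hww' - hwe
  · rcases hloc (1 - w) (W₀.sub_mem W₀.one_mem hw) with ⟨v, hv, hv'⟩ | ⟨v, hv, hv'⟩
    · right
      refine ⟨v + x₁ - b₁, B₁.sub_mem (B₁.add_mem (h1 hv) hx₁) hb₁, ?_⟩
      linear_combination hv' + hwe
    · exfalso
      obtain ⟨g, hg, hg'⟩ := hww
      refine hone ⟨-(g * w' * v), B₁.neg_mem (B₁.mul_mem (B₁.mul_mem hg (h1 hw')) (h1 hv)), ?_⟩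
      linear_combination (-1 : Ω) * hv' * (w * w') - hww' - (w' * v) * hg'

end Fermat.Agent.S18
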