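import Fermat.Agent.S18.EEGMainTDefs

set_option autoImplicit false

open ModularCurve AlgebraicCurve

namespace Fermat.Agent.S18

/-- In a valuation ring `V` in which `ϖ` is not a unit, `1 + ϖ v` is a unit. -/
theorem e_egmainTA_one_add {F : Type} [Field F] (V : Subring F) (ϖ : F)
    (hval : ∀ x : F, x ∈ V ∨ x⁻¹ ∈ V) (hϖ : ϖ⁻¹ ∉ V) (v : F) (hv : v ∈ V) :
    (1 + ϖ * v)⁻¹ ∈ V := by
  by_contra hw
  have hϖ0 : ϖ ≠ 0 := by
    rintro rfl
    exact hϖ (by simp)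
  by_cases hw0 : 1 + ϖ * v = 0
  · exact hw (by rw [hw0]; simp)
  by_cases hv0 : v = 0
  · apply hw
    rw [hv0]; simp
  have hϖv : ϖ * v ≠ 0 := mul_ne_zero hϖ0 hv0
  rcases hval ((ϖ * v) / (1 + ϖ * v)) with h | h
  · apply hw
    have : (1 + ϖ * v)⁻¹ = 1 - (ϖ * v) / (1 + ϖ * v) := by
      field_simp
      ring
    rw [this]
    exact V.sub_mem V.one_mem h
  · apply hϖ
    have : ϖ⁻¹ = v * (((ϖ * v) / (1 + ϖ * v))⁻¹ - 1) := by
      field_simp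
      ring
    rw [this]
    exact V.mul_mem hv (V.sub_mem h V.one_mem)

/-- `1 + ϖ v ≠ 0` for `v ∈ V` when `ϖ` is not a unit of `V`. -/
theorem e_egmainTA_ne_zero {F : Type} [Field F] (V : Subring F) (ϖ : F) (hϖ : ϖ⁻¹ ∉ V)
    (v : F) (hv : v ∈ V) : 1 + ϖ * v ≠ 0 := by
  intro h
  apply hϖ
  have hϖ0 : ϖ ≠ 0 := by
    rintro rfl
    exact hϖ (by simp)
  have : ϖ⁻¹ = -v := by
    apply inv_eq_of_mul_eq_one_right
    linear_combination -h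
  rw [this]
  exact V.neg_mem hv

/-- Elements of `V` with nonzero reduction are units of `V`. -/
theorem e_egmainTA_unit {F K : Type} [Field F] [Field K] (V : Subring F) (ϖ : F)
    (hval : ∀ x : F, x ∈ V ∨ x⁻¹ ∈ V) (hϖ : ϖ⁻¹ ∉ V) (ρ : ↥V →+* K)
    (hker : ∀ x : ↥V, ρ x = 0 ↔ ∃ x' : ↥V, (x : F) = ϖ * (x' : F))
    (hrange : ∀ x : ↥V, ρ x ≠ 0 → ∃ x' : ↥V, ρ x' = (ρ x)⁻¹)
    (x : ↥V) (hx : ρ x ≠ 0) : (x : F)⁻¹ ∈ V := by
  obtain ⟨x', hx'⟩ := hrange x hx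
  have h0 : ρ (x * x' - 1) = 0 := by
    rw [map_sub, map_mul, map_one, hx', mul_inv_cancel₀ hx, sub_self]
  obtain ⟨v, hv⟩ := (hker _).1 h0
  have hw := e_egmainTA_one_add V ϖ hval hϖ v v.2
  have hxx : (x : F) * (x' : F) = 1 + ϖ * v := by
    have : ((x * x' - 1 : ↥V) : F) = (x : F) * (x' : F) - 1 := by push_cast; ring
    rw [this] at hv
    rw [← hv]; ring
  have hx0 : (x : F) ≠ 0 := by
    intro h
    apply hx
    have : x = 0 := Subtype.ext h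
    rw [this, map_zero]
  have : (x : F)⁻¹ = x' * (1 + ϖ * v)⁻¹ := by
    apply inv_eq_of_mul_eq_one_right
    rw [← mul_assoc, hxx, mul_inv_cancel₀]
    intro h
    rw [h, inv_zero] at hw
    rw [h] at hxx
    exact hx0 (by
      have := e_egmainTA_ne_zero V ϖ hϖ v v.2
      exact absurd h this)
  rw [this]
  exact V.mul_mem x'.2 hw

/-- Non-units of `V` lie in `ϖ V`. -/
theorem e_egmainTA_nonunit {F K : Type} [Field F] [Field K] (V : Subring F) (ϖ : F)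
    (hval : ∀ x : F, x ∈ V ∨ x⁻¹ ∈ V) (hϖ : ϖ⁻¹ ∉ V) (ρ : ↥V →+* K)
    (hker : ∀ x : ↥V, ρ x = 0 ↔ ∃ x' : ↥V, (x : F) = ϖ * (x' : F))
    (hrange : ∀ x : ↥V, ρ x ≠ 0 → ∃ x' : ↥V, ρ x' = (ρ x)⁻¹) :
    e_egmainT_VData V ϖ := by
  have hϖ0 : ϖ ≠ 0 := by
    rintro rfl
    exact hϖ (by simp)
  refine ⟨hval, hϖ0, hϖ, ?_⟩
  intro x hx hxi
  by_cases h : ρ ⟨x, hx⟩ = 0
  · obtain ⟨x', hx'⟩ := (hker _).1 h
    have : ϖ⁻¹ * x = x' := by
      change x = ϖ * (x' : F) at hx'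
      rw [hx', ← mul_assoc, inv_mul_cancel₀ hϖ0, one_mul]
    rw [this]
    exact x'.2
  · exact absurd (e_egmainTA_unit V ϖ hval hϖ ρ hker hrange ⟨x, hx⟩ h) hxi

/-- The data attached to `y` with `ρ y = (ρ h₀) ^ p ≠ 0`. -/
theorem e_egmainTA_ydata {F K : Type} [Field F] [Field K] (V : Subring F) (ϖ : F)
    (hval : ∀ x : F, x ∈ V ∨ x⁻¹ ∈ V) (hϖ : ϖ⁻¹ ∉ V) (ρ : ↥V →+* K)
    (hker : ∀ x : ↥V, ρ x = 0 ↔ ∃ x' : ↥V, (x : F) = ϖ * (x' : F))
    (hrange : ∀ x : ↥V, ρ x ≠ 0 → ∃ x' : ↥V, ρ x' = (ρ x)⁻¹)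
    (p : ℕ) (y h₀ : ↥V) (hh : ρ h₀ ≠ 0) (hy : ρ y = ρ h₀ ^ p) :
    (y : F) ≠ 0 ∧ (y : F)⁻¹ ∈ V ∧ (h₀ : F) ≠ 0 ∧ (h₀ : F)⁻¹ ∈ V ∧
      ϖ⁻¹ * ((y : F) * (h₀ : F)⁻¹ ^ p - 1) ∈ V := by
  have hϖ0 : ϖ ≠ 0 := by
    rintro rfl
    exact hϖ (by simp)
  have hy0 : ρ y ≠ 0 := by
    rw [hy]
    exact pow_ne_zero _ hh
  have hne : ∀ x : ↥V, ρ x ≠ 0 → (x : F) ≠ 0 := by
    intro x hx h
    apply hx
    have : x = 0 := Subtype.ext h
    rw [this, map_zero]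
  have hyi := e_egmainTA_unit V ϖ hval hϖ ρ hker hrange y hy0
  have hhi := e_egmainTA_unit V ϖ hval hϖ ρ hker hrange h₀ hh
  refine ⟨hne y hy0, hyi, hne h₀ hh, hhi, ?_⟩
  have h1 : ρ ⟨(h₀ : F)⁻¹, hhi⟩ * ρ h₀ = 1 := by
    rw [← map_mul, ← map_one ρ]
    congr 1
    apply Subtype.ext
    change (h₀ : F)⁻¹ * (h₀ : F) = 1
    exact inv_mul_cancel₀ (hne h₀ hh)
  have h0 : ρ (y * ⟨(h₀ : F)⁻¹, hhi⟩ ^ p - 1) = 0 := by
    rw [map_sub, map_mul, map_pow, map_one, hy, ← mul_pow, mul_comm, h1, one_pow, sub_self]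
  obtain ⟨x', hx'⟩ := (hker _).1 h0
  have : ϖ⁻¹ * ((y : F) * (h₀ : F)⁻¹ ^ p - 1) = x' := by
    change (y : F) * (h₀ : F)⁻¹ ^ p - 1 = ϖ * (x' : F) at hx'
    rw [hx', ← mul_assoc, inv_mul_cancel₀ hϖ0, one_mul]
  rw [this]
  exact x'.2

/-- In a discrete valuation ring with uniformiser `ϖ`, every element is a multiple of `ϖ` or a
unit. -/
theorem e_egmainTA_dvr {W : Type} [CommRing W] [IsDomain W] [IsDiscreteValuationRing W] (ϖ : W)
    (hirr : Irreducible ϖ) (w : W) : (∃ w' : W, w = ϖ * w') ∨ (∃ w' : W, w * w' = 1) := by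
  by_cases hu : IsUnit w
  · right
    obtain ⟨u, rfl⟩ := hu
    exact ⟨((u⁻¹ : Wˣ) : W), by simp⟩
  · left
    have hm : w ∈ IsLocalRing.maximalIdeal W := (IsLocalRing.mem_maximalIdeal w).2 hu
    rw [hirr.maximalIdeal_eq, Ideal.mem_span_singleton'] at hm
    obtain ⟨a, ha⟩ := hm
    exact ⟨a, by rw [← ha, mul_comm]⟩

/-- A natural number prime to the residue characteristic is a unit of `W`. -/
theorem e_egmainTA_punit {W k : Type} [CommRing W] [IsDomain W] [IsDiscreteValuationRing W]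
    [Field k] (ℓ : ℕ) [CharP k ℓ] (res : W →+* k) (ϖ : W)
    (hirr : Irreducible ϖ) (hker : RingHom.ker res = Ideal.span {ϖ}) (p : ℕ) (hp : ¬ ℓ ∣ p) :
    ∃ c : W, (p : W) * c = 1 := by
  rcases e_egmainTA_dvr ϖ hirr (p : W) with ⟨w', hw'⟩ | h
  · exfalso
    have h1 : (p : W) ∈ RingHom.ker res := by
      rw [hker, Ideal.mem_span_singleton']
      exact ⟨w', by rw [hw', mul_comm]⟩
    rw [RingHom.mem_ker, map_natCast, CharP.cast_eq_zero_iff k ℓ] at h1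
    exact hp h1
  · exact h

/-- Constants of `L` lying in `V` lie in `W`. -/
theorem e_egmainTA_const {L F : Type} [Field L] [Field F] [Algebra L F] (W : ValuationSubring L)
    [IsDiscreteValuationRing ↥W] (ϖ : ↥W) (hirr : Irreducible ϖ) (V : Subring F)
    (hW : ∀ w : ↥W, algebraMap L F (w : L) ∈ V) (hϖ : (algebraMap L F (ϖ : L))⁻¹ ∉ V)
    (c : L) (hc : algebraMap L F c ∈ V) : c ∈ W := by
  by_contra hcW
  have hc0 : c ≠ 0 := by
    rintro rfl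
    exact hcW W.zero_mem
  have hci : c⁻¹ ∈ W := (W.mem_or_inv_mem c).resolve_left hcW
  have hϖ0 : (ϖ : L) ≠ 0 := by
    intro h
    exact hirr.ne_zero (Subtype.ext h)
  rcases e_egmainTA_dvr ϖ hirr ⟨c⁻¹, hci⟩ with ⟨w', hw'⟩ | ⟨w', hw'⟩
  · apply hϖ
    have h1 : c⁻¹ = (ϖ : L) * (w' : L) := congrArg Subtype.val hw'
    have h2 : (ϖ : L)⁻¹ = c * (w' : L) := by
      field_simp
      field_simp at h1
      linear_combination h1
    rw [← map_inv₀, h2, map_mul]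
    exact V.mul_mem hc (hW w')
  · apply hcW
    have h1 : c⁻¹ * (w' : L) = 1 := congrArg Subtype.val hw'
    have h2 : c = (w' : L) := by
      field_simp at h1
      exact h1.symm
    rw [h2]
    exact w'.2

/-- Constants of `W` lie in `V` (from property (i) of the Gauss statement). -/
theorem e_egmainTA_cW_mem {L : Type} [Field L] [Algebra ℚ L] (W : ValuationSubring L)
    (N : ℕ) (V : Subring ↥(FL L N))
    (hi : ∀ (y : LaurentSeries ↥W) (hy : coeffMap W.subtype y ∈ FL L N),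
      (⟨coeffMap W.subtype y, hy⟩ : ↥(FL L N)) ∈ V) (w : ↥W) : cW W N w ∈ V := by
  have h1 : coeffMap W.subtype (HahnSeries.single 0 w) =
      algebraMap L (LaurentSeries L) (w : L) := by
    rw [coeffMap_single, algebraMap_laurentSeries_eq_single]
    rfl
  have h2 : coeffMap W.subtype (HahnSeries.single 0 w) ∈ FL L N := by
    rw [h1]
    exact (FL L N).algebraMap_mem _
  have h3 := hi _ h2
  have h4 : (⟨coeffMap W.subtype (HahnSeries.single 0 w), h2⟩ : ↥(FL L N)) = cW W N w := by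
    apply Subtype.ext
    exact h1
  rw [← h4]
  exact h3

/-- (A) The `V`-data in the concrete setting. -/
theorem e_egmainTA_main : GaussStatement → e_egmainT_AStatement := by
  intro hG N _ ℓ _ L _ _ W _ k _ _ _ res ϖ hD p hp hpℓ y hy hh
  obtain ⟨hi, hval, hϖ, -, ρ, hρ⟩ := hG N ℓ L W k res ϖ hD
  obtain ⟨hbar, hbarF, hbar0, hyh⟩ := hh
  have hrange : ∀ x : ↥(gaussV W res N), ρ x ≠ 0 → ∃ x' : ↥(gaussV W res N), ρ x' = (ρ x)⁻¹ := by
    intro x _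
    have h1 : ρ x ∈ Fk k N := (hρ.range _).2 ⟨x, rfl⟩
    exact (hρ.range _).1 ((Fk k N).inv_mem h1)
  have hVD := e_egmainTA_nonunit (gaussV W res N) (cW W N ϖ) hval hϖ ρ hρ.ker hrange
  have hcW := e_egmainTA_cW_mem W N (gaussV W res N) hi
  have hℓp : ¬ ℓ ∣ p := by
    intro h
    rcases (Nat.dvd_prime hp).1 h with h1 | h1
    · exact (Fact.out : ℓ.Prime).ne_one h1
    · exact hpℓ h1.symm
  refine ⟨hVD, ?_, ?_, ?_, ?_⟩
  · obtain ⟨h₀, hh₀⟩ := (hρ.range _).1 hbarF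
    have hyV := hi y hy
    have hρy : ρ ⟨⟨coeffMap W.subtype y, hy⟩, hyV⟩ = ρ h₀ ^ p := by
      rw [hρ.red y hy hyV, hyh, hh₀]
    have hh₀0 : ρ h₀ ≠ 0 := by rw [hh₀]; exact hbar0
    obtain ⟨a1, a2, a3, a4, a5⟩ := e_egmainTA_ydata (gaussV W res N) (cW W N ϖ) hval hϖ ρ hρ.ker
      hrange p ⟨⟨coeffMap W.subtype y, hy⟩, hyV⟩ h₀ hh₀0 hρy
    exact ⟨a1, hyV, a2, (h₀ : ↥(FL L N)), a3, h₀.2, a4, a5⟩
  · have : CharZero L := algebraRat.charZero L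
    have : CharZero ↥(FL L N) :=
      charZero_of_injective_algebraMap (algebraMap L ↥(FL L N)).injective
    have hp0 : (p : ↥(FL L N)) ≠ 0 := Nat.cast_ne_zero.2 hp.ne_zero
    refine ⟨hp0, ?_, ?_⟩
    · obtain ⟨c, hc⟩ := e_egmainTA_punit ℓ res ϖ hD.irreducible hD.ker_res p hℓp
      refine ⟨c, ?_⟩
      have h1 : (p : ↥(FL L N)) * cW W N c = 1 := by
        rw [← map_natCast (cW W N) p, ← map_mul, hc, map_one]
      exact (inv_eq_of_mul_eq_one_right h1).symm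
    · obtain ⟨ζ, hζ⟩ := hD.roots p hℓp
      exact ⟨ζ, hζ.map_of_injective (algebraMap L ↥(FL L N)).injective⟩
  · intro c hc
    exact e_egmainTA_const W ϖ hD.irreducible (gaussV W res N) hcW hϖ c hc
  · exact e_egmainTA_dvr ϖ hD.irreducible

end Fermat.Agent.S18
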