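/-
S18 — package LocSub (T), twin B: localisation at a prime as a subring of the ambient field, and
DVR criteria.  Prefix `locSubB_`.
-/
import Fermat.Agent.S18.SInterfaces

set_option autoImplicit false

namespace Fermat.Agent.S18

/-- T2: transport of `IsDVRQuot` along a ring isomorphism. -/
theorem locSubB_ringEquiv {R S : Type*} [CommRing R] [CommRing S] (e : R ≃+* S) (x : R) :
    IsDVRQuot R x → IsDVRQuot S (e x) := by
  rintro ⟨hdom, hdvr⟩
  have hmap : Ideal.span {e x} = Ideal.map (e : R →+* S) (Ideal.span {x}) := by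
    rw [Ideal.map_span, Set.image_singleton]; rfl
  let e' : R ⧸ Ideal.span {x} ≃+* S ⧸ Ideal.span {e x} := Ideal.quotientEquiv _ _ e hmap
  have hdomS : IsDomain (S ⧸ Ideal.span {e x}) := e'.symm.toMulEquiv.isDomain
  exact ⟨hdomS, IsDiscreteValuationRing.RingEquivClass.isDiscreteValuationRing e'⟩

/-- `locSub A P` with its `A`-algebra structure is a localisation of `A` at `P`. -/
theorem locSubB_isLocalization {F : Type*} [Field F] (A : Subring F) (P : Ideal ↥A) [P.IsPrime] :
    letI : Algebra ↥A ↥(locSub A P) := (Subring.inclusion (le_locSub A P)).toAlgebra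
    IsLocalization.AtPrime ↥(locSub A P) P := by
  let _ : Algebra ↥A ↥(locSub A P) := (Subring.inclusion (le_locSub A P)).toAlgebra
  have halg : ∀ a : ↥A, ((algebraMap ↥A ↥(locSub A P) a : ↥(locSub A P)) : F) = (a : F) :=
    fun a => rfl
  refine (isLocalization_iff (M := P.primeCompl) (S := ↥(locSub A P))).mpr ⟨?_, ?_, ?_⟩
  · rintro ⟨s, hs⟩
    have hs' : s ∉ P := hs
    have hs0 : (s : F) ≠ 0 := by
      intro h0
      apply hs'
      have : s = 0 := Subtype.ext h0
      rw [this]; exact P.zero_mem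
    have hinv : (s : F)⁻¹ ∈ locSub A P :=
      ⟨1, s, hs', by simp [inv_mul_cancel₀ hs0]⟩
    refine IsUnit.of_mul_eq_one ⟨(s : F)⁻¹, hinv⟩ ?_
    apply Subtype.ext
    simp [halg, mul_inv_cancel₀ hs0]
  · rintro ⟨z, a, s, hs, h⟩
    refine ⟨(a, ⟨s, hs⟩), ?_⟩
    apply Subtype.ext
    simpa [halg] using h
  · intro x y hxy
    refine ⟨1, ?_⟩
    have : (x : F) = (y : F) := by
      have := congrArg (fun z : ↥(locSub A P) => (z : F)) hxy
      simpa [halg] using this
    have hxy' : x = y := Subtype.ext this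
    rw [hxy']

/-- T1 -/
theorem locSubB_main : LocSubStatement := by
  intro F _ A P _ x hx
  let _ : Algebra ↥A ↥(locSub A P) := (Subring.inclusion (le_locSub A P)).toAlgebra
  have : IsLocalization.AtPrime ↥(locSub A P) P := locSubB_isLocalization A P
  let e : Localization.AtPrime P ≃ₐ[↥A] ↥(locSub A P) :=
    IsLocalization.algEquiv P.primeCompl (Localization.AtPrime P) ↥(locSub A P)
  have he : e (algebraMap ↥A (Localization.AtPrime P) x) = ⟨(x : F), hx⟩ := by
    rw [AlgEquiv.commutes]
    rfl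
  have he' : e.symm ⟨(x : F), hx⟩ = algebraMap ↥A (Localization.AtPrime P) x := by
    rw [← he, AlgEquiv.symm_apply_apply]
  constructor
  · intro h
    have := locSubB_ringEquiv e.toRingEquiv _ h
    rwa [show e.toRingEquiv (algebraMap ↥A (Localization.AtPrime P) x) = ⟨(x : F), hx⟩ from he]
      at this
  · intro h
    have := locSubB_ringEquiv e.symm.toRingEquiv _ h
    rwa [show e.symm.toRingEquiv ⟨(x : F), hx⟩ = algebraMap ↥A (Localization.AtPrime P) x
      from he'] at this

/-! ## T5: `locSub A P` is local, noetherian; its maximal ideal -/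

/-- T5: `locSub A P` is a local ring. -/
theorem locSubB_isLocalRing {F : Type*} [Field F] (A : Subring F) (P : Ideal ↥A) [P.IsPrime] :
    IsLocalRing ↥(locSub A P) := by
  let _ : Algebra ↥A ↥(locSub A P) := (Subring.inclusion (le_locSub A P)).toAlgebra
  have : IsLocalization.AtPrime ↥(locSub A P) P := locSubB_isLocalization A P
  exact IsLocalization.AtPrime.isLocalRing ↥(locSub A P) P

/-- T5: `locSub A P` is noetherian if `A` is. -/
theorem locSubB_isNoetherianRing {F : Type*} [Field F] (A : Subring F) (P : Ideal ↥A) [P.IsPrime]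
    [IsNoetherianRing ↥A] : IsNoetherianRing ↥(locSub A P) := by
  let _ : Algebra ↥A ↥(locSub A P) := (Subring.inclusion (le_locSub A P)).toAlgebra
  have : IsLocalization.AtPrime ↥(locSub A P) P := locSubB_isLocalization A P
  exact IsLocalization.isNoetherianRing P.primeCompl ↥(locSub A P) inferInstance

/-- Units of `locSub A P`: `y` is a unit iff `y * s = a` with `a, s ∉ P`. -/
theorem locSubB_isUnit_iff {F : Type*} [Field F] (A : Subring F) (P : Ideal ↥A) [hP : P.IsPrime]
    (y : ↥(locSub A P)) :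
    IsUnit y ↔ ∃ a s : ↥A, a ∉ P ∧ s ∉ P ∧ (y : F) * (s : F) = (a : F) := by
  constructor
  · intro hu
    obtain ⟨z, hz⟩ := isUnit_iff_exists_inv.1 hu
    obtain ⟨a, s, hs, h⟩ := y.2
    obtain ⟨a', s', hs', h'⟩ := z.2
    refine ⟨a, s, ?_, hs, h⟩
    intro ha
    have h1 : (y : F) * (z : F) = 1 := by
      have := congrArg (fun w : ↥(locSub A P) => (w : F)) hz
      simpa using this
    have h2 : ((a * a' : ↥A) : F) = ((s * s' : ↥A) : F) := by
      push_cast
      rw [← h, ← h']
      linear_combination ((s : F) * (s' : F)) * h1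
    have h3 : a * a' = s * s' := Subtype.ext h2
    have h4 : s * s' ∈ P := h3 ▸ P.mul_mem_right a' ha
    exact (hP.mem_or_mem h4).elim hs hs'
  · rintro ⟨a, s, ha, hs, h⟩
    have ha0 : (a : F) ≠ 0 := by
      intro h0
      apply ha
      have : a = 0 := Subtype.ext h0
      rw [this]; exact P.zero_mem
    have hs0 : (s : F) ≠ 0 := by
      intro h0
      apply hs
      have : s = 0 := Subtype.ext h0
      rw [this]; exact P.zero_mem
    have hy : (y : F) = (a : F) / (s : F) := by
      rw [eq_div_iff hs0]; exact h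
    have hinv : (s : F) / (a : F) ∈ locSub A P :=
      ⟨s, a, ha, by field_simp⟩
    refine IsUnit.of_mul_eq_one ⟨(s : F) / (a : F), hinv⟩ ?_
    apply Subtype.ext
    push_cast
    rw [hy]
    field_simp

/-- T5: the maximal ideal of `locSub A P` is `{y | ∃ a ∈ P, ∃ s ∉ P, y * s = a}`. -/
theorem locSubB_mem_maximalIdeal_iff {F : Type*} [Field F] (A : Subring F) (P : Ideal ↥A)
    [hP : P.IsPrime] (y : ↥(locSub A P)) :
    y ∈ @IsLocalRing.maximalIdeal ↥(locSub A P) _ (locSubB_isLocalRing A P) ↔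
      ∃ a s : ↥A, a ∈ P ∧ s ∉ P ∧ (y : F) * (s : F) = (a : F) := by
  have hloc : IsLocalRing ↥(locSub A P) := locSubB_isLocalRing A P
  rw [IsLocalRing.mem_maximalIdeal, mem_nonunits_iff, locSubB_isUnit_iff]
  constructor
  · intro hnu
    obtain ⟨a, s, hs, h⟩ := y.2
    refine ⟨a, s, ?_, hs, h⟩
    by_contra ha
    exact hnu ⟨a, s, ha, hs, h⟩
  · rintro ⟨a, s, ha, hs, h⟩ ⟨a', s', ha', hs', h'⟩
    have h2 : ((a * s' : ↥A) : F) = ((a' * s : ↥A) : F) := by
      push_cast
      rw [← h, ← h']
      ring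
    have h3 : a * s' = a' * s := Subtype.ext h2
    have h4 : a' * s ∈ P := h3 ▸ P.mul_mem_right s' ha
    exact (hP.mem_or_mem h4).elim ha' hs

/-- The maximal ideal of `locSub A P` is generated by the image of `P`. -/
theorem locSubB_maximalIdeal_eq_map {F : Type*} [Field F] (A : Subring F) (P : Ideal ↥A)
    [hP : P.IsPrime] :
    @IsLocalRing.maximalIdeal ↥(locSub A P) _ (locSubB_isLocalRing A P) =
      Ideal.map (Subring.inclusion (le_locSub A P)) P := by
  have hloc : IsLocalRing ↥(locSub A P) := locSubB_isLocalRing A P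
  apply le_antisymm
  · intro y hy
    obtain ⟨a, s, ha, hs, h⟩ := (locSubB_mem_maximalIdeal_iff A P y).1 hy
    have hu : IsUnit (Subring.inclusion (le_locSub A P) s) := by
      rw [locSubB_isUnit_iff]
      exact ⟨s, 1, hs, fun h1 => hP.ne_top ((Ideal.eq_top_iff_one P).2 h1), by simp⟩
    have hmem : y * Subring.inclusion (le_locSub A P) s ∈
        Ideal.map (Subring.inclusion (le_locSub A P)) P := by
      have : y * Subring.inclusion (le_locSub A P) s = Subring.inclusion (le_locSub A P) a :=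
        Subtype.ext (by simpa using h)
      rw [this]
      exact Ideal.mem_map_of_mem _ ha
    exact (Ideal.unit_mul_mem_iff_mem _ hu).1 (by rwa [mul_comm] at hmem)
  · rw [Ideal.map_le_iff_le_comap]
    intro a ha
    rw [Ideal.mem_comap, locSubB_mem_maximalIdeal_iff]
    exact ⟨a, 1, ha, fun h1 => hP.ne_top ((Ideal.eq_top_iff_one P).2 h1), by simp⟩

/-! ## T3: DVR criterion -/

/-- In a noetherian local ring with principal maximal ideal `(π)`, every nonzero element is a unit
times a power of `π`. -/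
theorem locSubB_unit_mul_pow {S : Type*} [CommRing S] [IsLocalRing S] [IsNoetherianRing S] (π : S)
    (hmax : IsLocalRing.maximalIdeal S = Ideal.span {π}) (a : S) (ha : a ≠ 0) :
    ∃ (n : ℕ) (u : S), IsUnit u ∧ a = u * π ^ n := by
  classical
  have hkrull : ⨅ i, IsLocalRing.maximalIdeal S ^ i = ⊥ :=
    Ideal.iInf_pow_eq_bot_of_isLocalRing (IsLocalRing.maximalIdeal S) Ideal.IsPrime.ne_top'
  have hex : ∃ n : ℕ, a ∉ IsLocalRing.maximalIdeal S ^ n := by
    by_contra hcon
    have : a ∈ ⨅ i, IsLocalRing.maximalIdeal S ^ i := by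
      rw [Ideal.mem_iInf]
      exact fun i => by_contra fun h => hcon ⟨i, h⟩
    rw [hkrull] at this
    exact ha (by simpa using this)
  have hn := Nat.find_spec hex
  have hmin := fun m (hm : m < Nat.find hex) => Nat.find_min hex hm
  set n := Nat.find hex with hn_def
  have hn0 : n ≠ 0 := by
    intro h0
    rw [h0, pow_zero, Ideal.one_eq_top] at hn
    exact hn Submodule.mem_top
  obtain ⟨m, hm⟩ : ∃ m, n = m + 1 := Nat.exists_eq_succ_of_ne_zero hn0
  have hmem : a ∈ IsLocalRing.maximalIdeal S ^ m := by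
    have := hmin m (by omega)
    simpa using this
  rw [hmax, Ideal.span_singleton_pow, Ideal.mem_span_singleton] at hmem
  obtain ⟨u, hu⟩ := hmem
  refine ⟨m, u, ?_, by rw [hu, mul_comm]⟩
  by_contra hnu
  have humem : u ∈ IsLocalRing.maximalIdeal S := by
    rwa [IsLocalRing.mem_maximalIdeal, mem_nonunits_iff]
  rw [hmax, Ideal.mem_span_singleton] at humem
  obtain ⟨v, hv⟩ := humem
  apply hn
  rw [hm, hmax, Ideal.span_singleton_pow, Ideal.mem_span_singleton]
  exact ⟨v, by rw [hu, hv]; ring⟩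

/-- T3: a noetherian local ring whose maximal ideal is principal, generated by a non-nilpotent
element, is a DVR. -/
theorem locSubB_dvr {S : Type*} [CommRing S] [IsLocalRing S] [IsNoetherianRing S] (π : S)
    (hmax : IsLocalRing.maximalIdeal S = Ideal.span {π}) (hnil : ¬ IsNilpotent π) :
    ∃ _ : IsDomain S, IsDiscreteValuationRing S := by
  have hpow : ∀ n : ℕ, π ^ n ≠ 0 := fun n h => hnil ⟨n, h⟩
  have hnzd : NoZeroDivisors S := by
    refine ⟨fun {a b} hab => ?_⟩
    by_contra hcon
    rw [not_or] at hcon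
    obtain ⟨n, u, hu, rfl⟩ := locSubB_unit_mul_pow π hmax a hcon.1
    obtain ⟨m, v, hv, rfl⟩ := locSubB_unit_mul_pow π hmax b hcon.2
    have h1 : (u * v) * π ^ (n + m) = 0 := by
      rw [← hab, pow_add]; ring
    have h2 : π ^ (n + m) = 0 := by
      have := (hu.mul hv).mul_right_eq_zero.1 h1
      exact this
    exact hpow _ h2
  have hdom : IsDomain S := NoZeroDivisors.to_isDomain S
  refine ⟨hdom, ?_⟩
  have hnf : ¬ IsField S := by
    rw [IsLocalRing.isField_iff_maximalIdeal_eq, hmax]
    intro h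
    have : π = 0 := by
      have := Ideal.span_singleton_eq_bot.1 h
      exact this
    exact hpow 1 (by simpa using this)
  have hprin : (IsLocalRing.maximalIdeal S).IsPrincipal := ⟨⟨π, hmax⟩⟩
  exact ((IsDiscreteValuationRing.TFAE S hnf).out 0 4).mpr hprin

/-! ## T4: criterion for a local noetherian ring with maximal ideal `(ϖ, x)` -/

/-- T4: elementwise criterion for a local noetherian ring `O` with maximal ideal `(ϖ, x)`. -/
theorem locSubB_crit {O : Type*} [CommRing O] [IsLocalRing O] [IsNoetherianRing O] (ϖ x : O)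
    (hmax : IsLocalRing.maximalIdeal O = Ideal.span {ϖ, x})
    (hx : ∀ n : ℕ, x ^ n ∉ Ideal.span {ϖ}) :
    IsDVRQuot O ϖ := by
  have hne : (Ideal.span {ϖ} : Ideal O) ≠ ⊤ := by
    intro h
    apply hx 0
    rw [h]; exact Submodule.mem_top
  have hnt : Nontrivial (O ⧸ Ideal.span {ϖ}) := Ideal.Quotient.nontrivial_iff.2 hne
  have hloc : IsLocalRing (O ⧸ Ideal.span {ϖ}) :=
    IsLocalRing.of_surjective' (Ideal.Quotient.mk _) Ideal.Quotient.mk_surjective
  have hϖm : ϖ ∈ IsLocalRing.maximalIdeal O := by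
    rw [hmax]; exact Ideal.subset_span (by simp)
  have hxm : x ∈ IsLocalRing.maximalIdeal O := by
    rw [hmax]; exact Ideal.subset_span (by simp)
  have hmaxq : IsLocalRing.maximalIdeal (O ⧸ Ideal.span {ϖ}) =
      Ideal.span {Ideal.Quotient.mk (Ideal.span {ϖ}) x} := by
    apply le_antisymm
    · intro y hy
      obtain ⟨a, rfl⟩ := Ideal.Quotient.mk_surjective y
      have ha : a ∈ IsLocalRing.maximalIdeal O := by
        rw [IsLocalRing.mem_maximalIdeal, mem_nonunits_iff] at hy ⊢
        exact fun hu => hy (hu.map _)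
      rw [hmax, Ideal.mem_span_pair] at ha
      obtain ⟨c, d, rfl⟩ := ha
      rw [Ideal.mem_span_singleton]
      refine ⟨Ideal.Quotient.mk _ d, ?_⟩
      rw [map_add, map_mul, map_mul,
        Ideal.Quotient.eq_zero_iff_mem.2 (Ideal.mem_span_singleton_self ϖ)]
      ring
    · rw [Ideal.span_le, Set.singleton_subset_iff, SetLike.mem_coe, IsLocalRing.mem_maximalIdeal,
        mem_nonunits_iff]
      intro hu
      obtain ⟨z, hz⟩ := isUnit_iff_exists_inv.1 hu
      obtain ⟨b, rfl⟩ := Ideal.Quotient.mk_surjective z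
      rw [← map_mul, ← map_one (Ideal.Quotient.mk (Ideal.span {ϖ})), Ideal.Quotient.eq] at hz
      have hle : (Ideal.span {ϖ} : Ideal O) ≤ IsLocalRing.maximalIdeal O := by
        rw [Ideal.span_le, Set.singleton_subset_iff]; exact hϖm
      have h1 : x * b - 1 ∈ IsLocalRing.maximalIdeal O := hle hz
      have h2 : x * b ∈ IsLocalRing.maximalIdeal O := Ideal.mul_mem_right _ _ hxm
      have h3 : (1 : O) ∈ IsLocalRing.maximalIdeal O := by
        have := Ideal.sub_mem _ h2 h1
        rwa [sub_sub_cancel] at this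
      exact (IsLocalRing.maximalIdeal.isMaximal O).ne_top ((Ideal.eq_top_iff_one _).2 h3)
  have hnil : ¬ IsNilpotent (Ideal.Quotient.mk (Ideal.span {ϖ}) x) := by
    rintro ⟨n, hn⟩
    rw [← map_pow, Ideal.Quotient.eq_zero_iff_mem] at hn
    exact hx n hn
  exact locSubB_dvr _ hmaxq hnil

/-! ## Combinations -/

/-- Combination of T1, T4, T5 (subring form): if `A` is noetherian, `P = (ϖ, x)` is prime and no
power of `x` lies in `ϖ · A_P`, then `(locSub A P) / ϖ` is a DVR. -/
theorem locSubB_crit_locSub {F : Type*} [Field F] (A : Subring F) [IsNoetherianRing ↥A]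
    (P : Ideal ↥A) [P.IsPrime] (ϖ x : ↥A) (hP : P = Ideal.span {ϖ, x})
    (hx : ∀ n : ℕ, ∀ y ∈ locSub A P, (x : F) ^ n ≠ (ϖ : F) * y) :
    IsDVRQuot ↥(locSub A P) ⟨(ϖ : F), le_locSub A P ϖ.2⟩ := by
  have hloc : IsLocalRing ↥(locSub A P) := locSubB_isLocalRing A P
  have hnoeth : IsNoetherianRing ↥(locSub A P) := locSubB_isNoetherianRing A P
  refine locSubB_crit (O := ↥(locSub A P)) ⟨(ϖ : F), le_locSub A P ϖ.2⟩
    ⟨(x : F), le_locSub A P x.2⟩ ?_ ?_
  · have h2 : Ideal.map (Subring.inclusion (le_locSub A P)) P =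
        Ideal.map (Subring.inclusion (le_locSub A P)) (Ideal.span {ϖ, x}) :=
      congrArg (Ideal.map (Subring.inclusion (le_locSub A P))) hP
    rw [locSubB_maximalIdeal_eq_map, h2, Ideal.map_span, Set.image_pair]
    rfl
  · intro n hn
    rw [Ideal.mem_span_singleton'] at hn
    obtain ⟨y, hy⟩ := hn
    refine hx n (y : F) y.2 ?_
    have := congrArg (fun w : ↥(locSub A P) => (w : F)) hy
    simp only [Subring.coe_mul, Subring.coe_pow] at this
    rw [← this, mul_comm]

/-- Combination of T1, T4, T5 (`Localization.AtPrime` form): if `A` is noetherian, `P = (ϖ, x)` is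
prime and no power of `x` lies in `ϖ · A_P`, then `A_P / ϖ` is a DVR. -/
theorem locSubB_crit_atPrime {F : Type} [Field F] (A : Subring F) [IsNoetherianRing ↥A]
    (P : Ideal ↥A) [P.IsPrime] (ϖ x : ↥A) (hP : P = Ideal.span {ϖ, x})
    (hx : ∀ n : ℕ, ∀ y ∈ locSub A P, (x : F) ^ n ≠ (ϖ : F) * y) :
    IsDVRQuot (Localization.AtPrime P) (algebraMap ↥A (Localization.AtPrime P) ϖ) :=
  (locSubB_main F A P ϖ (le_locSub A P ϖ.2)).2 (locSubB_crit_locSub A P ϖ x hP hx)

/-- The same criterion with the hypothesis stated in `A`: `s * x ^ n ∉ ϖ A` for all `s ∉ P`. -/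
theorem locSubB_crit_atPrime' {F : Type} [Field F] (A : Subring F) [IsNoetherianRing ↥A]
    (P : Ideal ↥A) [P.IsPrime] (ϖ x : ↥A) (hP : P = Ideal.span {ϖ, x})
    (hx : ∀ (n : ℕ) (s a : ↥A), s ∉ P → s * x ^ n ≠ ϖ * a) :
    IsDVRQuot (Localization.AtPrime P) (algebraMap ↥A (Localization.AtPrime P) ϖ) := by
  refine locSubB_crit_atPrime A P ϖ x hP ?_
  rintro n y ⟨a, s, hs, h⟩ hxy
  refine hx n s a hs (Subtype.ext ?_)
  push_cast
  rw [hxy, ← h]
  ring

end Fermat.Agent.S18
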