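/-
S18, block E — package EGMain (twin T): INTERNAL INTERFACE of the endgame assembly (plan §4, E6–E9).

Statement-`Prop`s of the parts (A), (B), (C), (LG), (E2), (F2), (F1); the proofs are in the files
`EEGMainT<Part>.lean`; the final theorem `e_egmainT_main` is in `EEGMainT.lean`.
Notation: `F` a field, `F' = e_Fp F p y`, `of = e_of p y`, `t = e_rt p y`, `τ = of h₀⁻¹ * t`;
"`z ∈ ϖ V'`" is written `e_IsInt p y V (of ϖ⁻¹ * z)`.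
-/
import Fermat.Agent.S18.EInterfaces4
import Fermat.Agent.S18.LocSubB

set_option autoImplicit false

open ModularCurve AlgebraicCurve

namespace Fermat.Agent.S18

noncomputable section

/-- `V ⊆ F` is a valuation ring, `ϖ ≠ 0` is not a unit of `V`, and every non-unit of `V` lies in
`ϖ V`. -/
def e_egmainT_VData {F : Type} [Field F] (V : Subring F) (ϖ : F) : Prop :=
  (∀ x : F, x ∈ V ∨ x⁻¹ ∈ V) ∧ ϖ ≠ 0 ∧ ϖ⁻¹ ∉ V ∧ (∀ x ∈ V, x⁻¹ ∉ V → ϖ⁻¹ * x ∈ V)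

/-- `E(z) = (1/p) * ∑_{a<p} z^a ∈ F'`. -/
def e_egmainT_E {F : Type} [Field F] (p : ℕ) (y : F) (z : e_Fp F p y) : e_Fp F p y :=
  e_of p y ((p : F))⁻¹ * ∑ a ∈ Finset.range p, z ^ a

/-- (A) The `V`-data in the concrete setting (from `GaussStatement`). -/
def e_egmainT_AStatement : Prop :=
  ∀ (N : ℕ) [NeZero N] (ℓ : ℕ) [Fact ℓ.Prime] (L : Type) [Field L] [Algebra ℚ L]
    (W : ValuationSubring L) [IsDiscreteValuationRing ↥W] (k : Type) [Field k] [IsAlgClosed k]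
    [CharP k ℓ] (res : ↥W →+* k) (ϖ : ↥W), BaseData N ℓ W res ϖ →
    ∀ p : ℕ, p.Prime → p ≠ ℓ →
    ∀ (y : LaurentSeries ↥W) (hy : coeffMap W.subtype y ∈ FL L N),
      (∃ h ∈ Fk k N, h ≠ 0 ∧ coeffMap res y = h ^ p) →
      e_egmainT_VData (gaussV W res N) (cW W N ϖ) ∧
      ((⟨coeffMap W.subtype y, hy⟩ : ↥(FL L N)) ≠ 0 ∧
        (⟨coeffMap W.subtype y, hy⟩ : ↥(FL L N)) ∈ gaussV W res N ∧
        (⟨coeffMap W.subtype y, hy⟩ : ↥(FL L N))⁻¹ ∈ gaussV W res N ∧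
        ∃ h₀ : ↥(FL L N), h₀ ≠ 0 ∧ h₀ ∈ gaussV W res N ∧ h₀⁻¹ ∈ gaussV W res N ∧
          (cW W N ϖ)⁻¹ * ((⟨coeffMap W.subtype y, hy⟩ : ↥(FL L N)) * h₀⁻¹ ^ p - 1) ∈
            gaussV W res N) ∧
      ((p : ↥(FL L N)) ≠ 0 ∧ (∃ c : ↥W, cW W N c = ((p : ↥(FL L N)))⁻¹) ∧
        ∃ ζ : ↥W, IsPrimitiveRoot (cW W N ζ) p) ∧
      (∀ c : L, algebraMap L ↥(FL L N) c ∈ gaussV W res N → c ∈ W) ∧
      (∀ w : ↥W, (∃ w' : ↥W, w = ϖ * w') ∨ (∃ w' : ↥W, w * w' = 1))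

/-- (B) The charts `A = chart W N {x₀}`, `x₀ = j` or `x₀ = 1/j`: `x₀` is transcendental over `W`,
`F` is finite over the field generated by `W` and `x₀`, `A` is noetherian with fraction field `F`. -/
def e_egmainT_BStatement : Prop :=
  ∀ (N : ℕ) [NeZero N] (L : Type) [Field L] [Algebra ℚ L]
    (W : ValuationSubring L) [IsDiscreteValuationRing ↥W] (x₀ : ↥(FL L N)),
    (x₀ = jF L N ∨ x₀ = (jF L N)⁻¹) →
    Function.Injective (cW W N) ∧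
    (∀ P : Polynomial ↥W, P ≠ 0 → Polynomial.eval₂ (cW W N) x₀ P ≠ 0) ∧
    (∃ (r : ℕ) (b : Fin r → ↥(FL L N)), ∀ z : ↥(FL L N), ∃ c : Fin r → ↥(FL L N),
      (∀ i, c i ∈ Subfield.closure (Set.range (cW W N) ∪ {x₀})) ∧ z = ∑ i, c i * b i) ∧
    IsNoetherianRing ↥(chart W N {x₀}) ∧ e_IsFrac (chart W N {x₀})

/-- (C) Hypothesis (H2): in a discrete valuation ring `O` of `F` containing `W` and `1/ϖ`, an element
all of whose orders at the places of `F / L` are divisible by `p` is a unit times a `p`-th power. -/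
def e_egmainT_CStatement : Prop :=
  ∀ (L F : Type) [Field L] [Field F] [Algebra L F] (W : ValuationSubring L)
    [IsDiscreteValuationRing ↥W] (ϖ : ↥W), Irreducible ϖ →
    ∀ (p : ℕ) (y : F), y ≠ 0 → (∀ P : Place L F, (p : ℤ) ∣ P.ord y) →
    ∀ O : ValuationSubring F, (∀ w : ↥W, algebraMap L F (w : L) ∈ O) →
      (algebraMap L F (ϖ : L))⁻¹ ∈ O → O ≠ ⊤ → IsPrincipalIdealRing ↥O →
      ∃ z : F, z ≠ 0 ∧ y * z ^ p ∈ O ∧ (y * z ^ p)⁻¹ ∈ O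

/-- (LG) Local ⟹ global (plan (B3) + (D)), abstract form: `A ⊆ V` noetherian with fraction field `F`,
`A ∩ ϖ V = ϖ A`, `A_m / ϖ` a DVR for all maximal `m ∋ ϖ`, (H2) for `A`, `y ≡ h₀ ^ p` mod `ϖ V`.  Then
(GL1) and (GL2) hold for `A`. -/
def e_egmainT_LGStatement : Prop :=
  ∀ (F : Type) [Field F] (p : ℕ) (y ϖ ζ h₀ : F) (V A : Subring F),
    p.Prime → Irreducible (e_pol F p y) → (p : F) ≠ 0 → ((p : F))⁻¹ ∈ A → ζ ∈ A →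
    IsPrimitiveRoot ζ p → e_egmainT_VData V ϖ →
    A ≤ V → ∀ hϖ : ϖ ∈ A, (∀ x ∈ A, ϖ⁻¹ * x ∈ V → ϖ⁻¹ * x ∈ A) →
    IsNoetherianRing ↥A → e_IsFrac A →
    (∀ (m : Ideal ↥A) [m.IsMaximal], (⟨ϖ, hϖ⟩ : ↥A) ∈ m →
      IsDVRQuot (Localization.AtPrime m) (algebraMap ↥A (Localization.AtPrime m) ⟨ϖ, hϖ⟩)) →
    y ≠ 0 → y ∈ V → y⁻¹ ∈ V →
    (∀ O : ValuationSubring F, A ≤ O.toSubring → ϖ⁻¹ ∈ O → O ≠ ⊤ → IsPrincipalIdealRing ↥O →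
      ∃ z : F, z ≠ 0 ∧ y * z ^ p ∈ O ∧ (y * z ^ p)⁻¹ ∈ O) →
    h₀ ≠ 0 → h₀ ∈ V → h₀⁻¹ ∈ V → ϖ⁻¹ * (y * h₀⁻¹ ^ p - 1) ∈ V →
    (∀ z : e_Fp F p y, e_IsInt p y A z → e_IsInt p y V (e_of p y ϖ⁻¹ * z) →
      e_IsInt p y A (e_of p y ϖ⁻¹ * z)) ∧
    (∃ b : e_Fp F p y, e_IsInt p y A b ∧
      e_IsInt p y V (e_of p y ϖ⁻¹ * (e_of p y h₀⁻¹ * e_rt p y - b)))

/-- (E2) Finiteness of `B₁`: the integral closure of `W₀[j]` (`W₀ = f(W)`) in `F'` is a finitely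
generated `W₀[j]`-module (the hypothesis of `e_H1GenStatement`). -/
def e_egmainT_E2Statement : Prop :=
  ∀ (W F : Type) [CommRing W] [IsDomain W] [IsDiscreteValuationRing W] [Field F] [CharZero F]
    (p : ℕ) (y : F) (f : W →+* F) (j : F),
    p.Prime → Irreducible (e_pol F p y) → Function.Injective f →
    (∀ P : Polynomial W, P ≠ 0 → Polynomial.eval₂ f j P ≠ 0) →
    (∃ (r : ℕ) (b : Fin r → F), ∀ z : F, ∃ c : Fin r → F,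
      (∀ i, c i ∈ Subfield.closure (Set.range f ∪ {j})) ∧ z = ∑ i, c i * b i) →
    ∃ (r : ℕ) (c : Fin r → e_Fp F p y),
      (∀ i, e_IsInt p y (Subring.closure ((f.range : Set F) ∪ {j})) (c i)) ∧
      ∀ z : e_Fp F p y, e_IsInt p y (Subring.closure ((f.range : Set F) ∪ {j})) z →
        ∃ a : Fin r → F, (∀ i, a i ∈ Subring.closure ((f.range : Set F) ∪ {j})) ∧
          z = ∑ i, e_of p y (a i) * c i

/-- (F2) The final contradiction from (IntCl): neither `E(τ)` nor `1 - E(τ)` lies in `ϖ V'`. -/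
def e_egmainT_F2Statement : Prop :=
  ∀ (F : Type) [Field F] (p : ℕ) (y ϖ ζ h₀ : F) (V : Subring F),
    p.Prime → Irreducible (e_pol F p y) → (p : F) ≠ 0 → ((p : F))⁻¹ ∈ V → ζ ∈ V →
    IsPrimitiveRoot ζ p → (∀ x : F, x ∈ V ∨ x⁻¹ ∈ V) → ϖ ≠ 0 → ϖ⁻¹ ∉ V →
    h₀ ≠ 0 → h₀ ∈ V → h₀⁻¹ ∈ V → y ≠ 0 → y ∈ V → y⁻¹ ∈ V →
    ¬ e_IsInt p y V (e_of p y ϖ⁻¹ * e_egmainT_E p y (e_of p y h₀⁻¹ * e_rt p y)) ∧
    ¬ e_IsInt p y V (e_of p y ϖ⁻¹ * (1 - e_egmainT_E p y (e_of p y h₀⁻¹ * e_rt p y)))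

/-- (F1) The connectedness argument, abstract form (plan (E3) + (F)). -/
def e_egmainT_F1Statement : Prop :=
  ∀ (F : Type) [Field F] (p : ℕ) (y ϖ h₀ : F) (V W₀ : Subring F) (j : F),
    p.Prime → Irreducible (e_pol F p y) → (p : F) ≠ 0 → ((p : F))⁻¹ ∈ W₀ →
    e_egmainT_VData V ϖ → y ∈ V →
    h₀ ≠ 0 → h₀ ∈ V → h₀⁻¹ ∈ V → ϖ⁻¹ * (y * h₀⁻¹ ^ p - 1) ∈ V →
    j ≠ 0 → Subring.closure ((W₀ : Set F) ∪ {j}) ≤ V →
    Subring.closure ((W₀ : Set F) ∪ {j⁻¹}) ≤ V →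
    ϖ ∈ W₀ → IsNoetherianRing ↥W₀ →
    (∀ w ∈ W₀, (∃ w' ∈ W₀, w = ϖ * w') ∨ (∃ w' ∈ W₀, w * w' = 1)) →
    (∀ z : e_Fp F p y, e_IsInt p y (Subring.closure ((W₀ : Set F) ∪ {j})) z →
      e_IsInt p y (Subring.closure ((W₀ : Set F) ∪ {j⁻¹})) z → ∃ w ∈ W₀, z = e_of p y w) →
    (∃ (r : ℕ) (c : Fin r → e_Fp F p y),
      (∀ i, e_IsInt p y (Subring.closure ((W₀ : Set F) ∪ {j})) (c i)) ∧
      ∀ z : e_Fp F p y, e_IsInt p y (Subring.closure ((W₀ : Set F) ∪ {j})) z →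
        ∃ a : Fin r → F, (∀ i, a i ∈ Subring.closure ((W₀ : Set F) ∪ {j})) ∧
          z = ∑ i, e_of p y (a i) * c i) →
    (∀ x₀ : F, (x₀ = j ∨ x₀ = j⁻¹) →
      (∀ z : e_Fp F p y, e_IsInt p y (Subring.closure ((W₀ : Set F) ∪ {x₀})) z →
        e_IsInt p y V (e_of p y ϖ⁻¹ * z) →
        e_IsInt p y (Subring.closure ((W₀ : Set F) ∪ {x₀})) (e_of p y ϖ⁻¹ * z)) ∧
      (∃ b : e_Fp F p y, e_IsInt p y (Subring.closure ((W₀ : Set F) ∪ {x₀})) b ∧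
        e_IsInt p y V (e_of p y ϖ⁻¹ * (e_of p y h₀⁻¹ * e_rt p y - b)))) →
    ¬ e_IsInt p y V (e_of p y ϖ⁻¹ * e_egmainT_E p y (e_of p y h₀⁻¹ * e_rt p y)) →
    ¬ e_IsInt p y V (e_of p y ϖ⁻¹ * (1 - e_egmainT_E p y (e_of p y h₀⁻¹ * e_rt p y))) →
    False

end

end Fermat.Agent.S18
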