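/-
S18, block E — package EGMain (twin T): toolkit for the final assembly (integrality over subrings
of `F` of elements of `F' = F[T]/(T^p - y)`, as subrings of `F'`).  Prefix `e_egmainT_`.
-/
import Fermat.Agent.S18.EEGMainTDefs

set_option autoImplicit false

open ModularCurve AlgebraicCurve

namespace Fermat.Agent.S18

noncomputable section

/-- Integrality along a ring homomorphism is integrality over its range. -/
theorem e_egmainT_isIntegralElem_iff_range {R S : Type*} [CommRing R] [CommRing S] (g : R →+* S)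
    (z : S) : g.IsIntegralElem z ↔ IsIntegral ↥g.range z := by
  constructor
  · intro h
    have h' : (g.range.subtype.comp g.rangeRestrict).IsIntegralElem z := h
    exact RingHom.IsIntegralElem.of_comp h'
  · rintro ⟨P, hP, hz⟩
    have hl : P ∈ Polynomial.lifts g.rangeRestrict :=
      (Polynomial.mem_lifts P).2 (Polynomial.map_surjective _ g.rangeRestrict_surjective P)
    obtain ⟨Q, hQ, -, hQm⟩ := Polynomial.lifts_and_natDegree_eq_and_monic hl hP
    refine ⟨Q, hQm, ?_⟩
    have : Polynomial.eval₂ (algebraMap ↥g.range S) z (Q.map g.rangeRestrict) = 0 := by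
      rw [hQ]; exact hz
    rw [Polynomial.eval₂_map] at this
    exact this

/-- `e_IsInt` is integrality over the image subring. -/
theorem e_egmainT_isInt_iff {F : Type} [Field F] (p : ℕ) (y : F) (A : Subring F)
    (z : e_Fp F p y) : e_IsInt p y A z ↔ IsIntegral ↥(A.map (e_of p y)) z := by
  unfold e_IsInt
  rw [e_egmainT_isIntegralElem_iff_range]
  have : ((e_of p y).comp A.subtype).range = A.map (e_of p y) := by
    rw [← RingHom.map_range, Subring.range_subtype]
  rw [this]

/-- The integral closure in `F'` of (the image of) a subring `A` of `F`, as a subring of `F'`. -/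
def e_egmainT_cl {F : Type} [Field F] (p : ℕ) (y : F) (A : Subring F) : Subring (e_Fp F p y) :=
  (integralClosure ↥(A.map (e_of p y)) (e_Fp F p y)).toSubring

theorem e_egmainT_mem_cl {F : Type} [Field F] (p : ℕ) (y : F) (A : Subring F)
    (z : e_Fp F p y) : z ∈ e_egmainT_cl p y A ↔ e_IsInt p y A z :=
  (e_egmainT_isInt_iff p y A z).symm

theorem e_egmainT_isInt_mono {F : Type} [Field F] (p : ℕ) (y : F) {A A' : Subring F}
    (h : A ≤ A') {z : e_Fp F p y} (hz : e_IsInt p y A z) : e_IsInt p y A' z := by
  have h' : (((e_of p y).comp A'.subtype).comp (Subring.inclusion h)).IsIntegralElem z := hz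
  exact RingHom.IsIntegralElem.of_comp h'

theorem e_egmainT_cl_mono {F : Type} [Field F] (p : ℕ) (y : F) {A A' : Subring F}
    (h : A ≤ A') : e_egmainT_cl p y A ≤ e_egmainT_cl p y A' := fun z hz =>
  (e_egmainT_mem_cl p y A' z).2 (e_egmainT_isInt_mono p y h ((e_egmainT_mem_cl p y A z).1 hz))

/-- `of x` is `A`-integral iff `x` is integral over `A`. -/
theorem e_egmainT_isInt_of_iff {F : Type} [Field F] (p : ℕ) (y : F)
    (hirr : Irreducible (e_pol F p y)) (A : Subring F) (x : F) :
    e_IsInt p y A (e_of p y x) ↔ IsIntegral ↥A x := by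
  have : Fact (Irreducible (e_pol F p y)) := ⟨hirr⟩
  constructor
  · rintro ⟨P, hP, hz⟩
    refine ⟨P, hP, ?_⟩
    have h1 : Polynomial.eval₂ ((e_of p y).comp A.subtype) (e_of p y x) P =
        e_of p y (Polynomial.eval₂ A.subtype x P) := (Polynomial.hom_eval₂ P _ _ x).symm
    rw [h1] at hz
    have hinj : Function.Injective (e_of p y) := (e_of p y).injective
    exact hinj (hz.trans (map_zero _).symm)
  · rintro ⟨P, hP, hz⟩
    refine ⟨P, hP, ?_⟩
    have h1 : Polynomial.eval₂ ((e_of p y).comp A.subtype) (e_of p y x) P =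
        e_of p y (Polynomial.eval₂ A.subtype x P) := (Polynomial.hom_eval₂ P _ _ x).symm
    rw [h1]
    have : Polynomial.eval₂ A.subtype x P = 0 := hz
    rw [this, map_zero]

theorem e_egmainT_of_mem_cl {F : Type} [Field F] (p : ℕ) (y : F) (A : Subring F) {x : F}
    (hx : x ∈ A) : e_of p y x ∈ e_egmainT_cl p y A := by
  rw [e_egmainT_mem_cl]
  refine ⟨Polynomial.X - Polynomial.C ⟨x, hx⟩, Polynomial.monic_X_sub_C _, ?_⟩
  simp

/-- (E0) transitivity: integral over the integral closure of `A` in `F` ⟹ integral over `A`. -/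
theorem e_egmainT_isInt_trans {F : Type} [Field F] (p : ℕ) (y : F) (A : Subring F)
    {z : e_Fp F p y} (hz : e_IsInt p y (integralClosure ↥A F).toSubring z) : e_IsInt p y A z := by
  rw [e_egmainT_isInt_iff] at hz ⊢
  set A' : Subring (e_Fp F p y) := A.map (e_of p y) with hA'
  set C' : Subring (e_Fp F p y) := ((integralClosure ↥A F).toSubring).map (e_of p y) with hC'
  have hle : C' ≤ (integralClosure ↥A' (e_Fp F p y)).toSubring := by
    rintro _ ⟨c, hc, rfl⟩
    have hc' : IsIntegral ↥A c := hc
    obtain ⟨P, hP, hPz⟩ := hc'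
    have : e_IsInt p y A (e_of p y c) := by
      refine ⟨P, hP, ?_⟩
      have h1 : Polynomial.eval₂ ((e_of p y).comp A.subtype) (e_of p y c) P =
          e_of p y (Polynomial.eval₂ A.subtype c P) := (Polynomial.hom_eval₂ P _ _ c).symm
      rw [h1]
      have : Polynomial.eval₂ A.subtype c P = 0 := hPz
      rw [this, map_zero]
    exact (e_egmainT_isInt_iff p y A _).1 this
  have h1 : ((integralClosure ↥A' (e_Fp F p y)).toSubring.subtype.comp
      (Subring.inclusion hle)).IsIntegralElem z := hz
  have h2 : IsIntegral ↥(integralClosure ↥A' (e_Fp F p y)) z := RingHom.IsIntegralElem.of_comp h1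
  exact isIntegral_trans (R := ↥A') (A := ↥(integralClosure ↥A' (e_Fp F p y))) z h2

/-- A valuation ring of `F` is integrally closed in `F`. -/
theorem e_egmainT_intClosed {F : Type} [Field F] (V : Subring F)
    (hval : ∀ x : F, x ∈ V ∨ x⁻¹ ∈ V) (x : F) (hx : IsIntegral ↥V x) : x ∈ V := by
  let O : ValuationSubring F := { V with mem_or_inv_mem' := hval }
  have hx' : IsIntegral ↥O x := hx
  obtain ⟨w, hw⟩ := (IsIntegrallyClosed.isIntegral_iff (R := ↥O) (K := F)).1 hx'
  rw [← hw]
  exact w.2

end

end Fermat.Agent.S18
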