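/-
S18, block E — package EGMain (twin T): assembly of the endgame from the parts of the internal
interface `EEGMainTDefs.lean`.  Prefix `e_egmainT_`.
-/
import Fermat.Agent.S18.EEGMainTTools

set_option autoImplicit false

open ModularCurve AlgebraicCurve

namespace Fermat.Agent.S18

noncomputable section

/-- One chart `A = chart W N {x₀}` (`x₀ = j` or `1/j`): (GL1), (GL2) in base-ring form and
`W[x₀] ⊆ V`. -/
theorem e_egmainT_chart_side (hB : e_egmainT_BStatement) (hC : e_egmainT_CStatement)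
    (hLG : e_egmainT_LGStatement) (hCG : ChartGaussStatement)
    (N : ℕ) [NeZero N] (ℓ : ℕ) [Fact ℓ.Prime] (L : Type) [Field L] [Algebra ℚ L]
    (W : ValuationSubring L) [IsDiscreteValuationRing ↥W] (k : Type) [Field k] [IsAlgClosed k]
    [CharP k ℓ] (res : ↥W →+* k) (ϖ : ↥W) (hD : BaseData N ℓ W res ϖ) (hSm : SmAt N W ϖ)
    (p : ℕ) (hp : p.Prime) (yF h₀ : ↥(FL L N)) (ζ pinv : ↥W)
    (hord : ∀ P : Place L ↥(FL L N), (p : ℤ) ∣ P.ord yF)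
    (hirr : Irreducible (e_pol ↥(FL L N) p yF))
    (hVD : e_egmainT_VData (gaussV W res N) (cW W N ϖ))
    (hy0 : yF ≠ 0) (hyV : yF ∈ gaussV W res N) (hyiV : yF⁻¹ ∈ gaussV W res N)
    (hh0 : h₀ ≠ 0) (hh0V : h₀ ∈ gaussV W res N) (hh0iV : h₀⁻¹ ∈ gaussV W res N)
    (hcong : (cW W N ϖ)⁻¹ * (yF * h₀⁻¹ ^ p - 1) ∈ gaussV W res N)
    (hp0 : (p : ↥(FL L N)) ≠ 0) (hpinv : cW W N pinv = ((p : ↥(FL L N)))⁻¹)
    (hζ : IsPrimitiveRoot (cW W N ζ) p)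
    (x₀ : ↥(FL L N)) (hx₀ : x₀ = jF L N ∨ x₀ = (jF L N)⁻¹) :
    ((∀ z : e_Fp ↥(FL L N) p yF,
        e_IsInt p yF (Subring.closure (((cW W N).range : Set ↥(FL L N)) ∪ {x₀})) z →
        e_IsInt p yF (gaussV W res N) (e_of p yF (cW W N ϖ)⁻¹ * z) →
        e_IsInt p yF (Subring.closure (((cW W N).range : Set ↥(FL L N)) ∪ {x₀}))
          (e_of p yF (cW W N ϖ)⁻¹ * z)) ∧
      (∃ b : e_Fp ↥(FL L N) p yF,
        e_IsInt p yF (Subring.closure (((cW W N).range : Set ↥(FL L N)) ∪ {x₀})) b ∧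
        e_IsInt p yF (gaussV W res N)
          (e_of p yF (cW W N ϖ)⁻¹ * (e_of p yF h₀⁻¹ * e_rt p yF - b)))) ∧
    Subring.closure (((cW W N).range : Set ↥(FL L N)) ∪ {x₀}) ≤ gaussV W res N := by
  obtain ⟨-, -, -, hNoe, hFrac⟩ := hB N L W x₀ hx₀
  have hS : ({x₀} : Set ↥(FL L N)) = {jF L N} ∨ ({x₀} : Set ↥(FL L N)) = {(jF L N)⁻¹} := by
    rcases hx₀ with rfl | rfl
    · exact Or.inl rfl
    · exact Or.inr rfl
  have hS' : ({x₀} : Set ↥(FL L N)) = {jF L N} ∨ ({x₀} : Set ↥(FL L N)) = {(jF L N)⁻¹} ∨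
      ({x₀} : Set ↥(FL L N)) = {jF L N, (jF L N)⁻¹} := by
    rcases hS with h | h
    · exact Or.inl h
    · exact Or.inr (Or.inl h)
  obtain ⟨hAV, hsat⟩ := hCG N ℓ L W k res ϖ hD {x₀} hS'
  have hbr : Subring.closure (((cW W N).range : Set ↥(FL L N)) ∪ {x₀}) = baseRing W N {x₀} := rfl
  rw [hbr]
  have hbase : baseRing W N {x₀} ≤ chart W N {x₀} := fun x hx =>
    isIntegral_algebraMap (R := ↥(baseRing W N {x₀})) (A := ↥(FL L N)) (x := ⟨x, hx⟩)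
  have hrange : ∀ w : ↥W, cW W N w ∈ chart W N {x₀} := fun w =>
    hbase (Subring.subset_closure (Or.inl ⟨w, rfl⟩))
  have hpinvA : ((p : ↥(FL L N)))⁻¹ ∈ chart W N {x₀} := hpinv ▸ hrange pinv
  obtain ⟨hGL1, b, hb, hbτ⟩ := hLG ↥(FL L N) p yF (cW W N ϖ) (cW W N ζ) h₀ (gaussV W res N)
    (chart W N {x₀}) hp hirr hp0 hpinvA (hrange ζ) hζ hVD hAV (hrange ϖ) hsat hNoe hFrac
    (fun m _ hm => hSm {x₀} hS m ⟨cW W N ϖ, hrange ϖ⟩ rfl hm) hy0 hyV hyiV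
    (fun O hAO hϖO hOtop hPID => hC L ↥(FL L N) W ϖ hD.irreducible p yF hy0 hord O
      (fun w => hAO (hrange w)) hϖO hOtop hPID) hh0 hh0V hh0iV hcong
  refine ⟨⟨fun z hz hzV => ?_, b, ?_, hbτ⟩, hbase.trans hAV⟩
  · exact e_egmainT_isInt_trans p yF (baseRing W N {x₀})
      (hGL1 z (e_egmainT_isInt_mono p yF hbase hz) hzV)
  · exact e_egmainT_isInt_trans p yF (baseRing W N {x₀}) hb

/-- (E1) `B₁ ∩ B₂` consists of constants from `W`. -/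
theorem e_egmainT_cap_side (hCG : ChartGaussStatement) (hCap : e_CapStatement)
    (N : ℕ) [NeZero N] (ℓ : ℕ) [Fact ℓ.Prime] (L : Type) [Field L] [Algebra ℚ L]
    (W : ValuationSubring L) [IsDiscreteValuationRing ↥W] (k : Type) [Field k] [IsAlgClosed k]
    [CharP k ℓ] (res : ↥W →+* k) (ϖ : ↥W) (hD : BaseData N ℓ W res ϖ)
    (p : ℕ) (yF : ↥(FL L N))
    (hirr : Irreducible (e_pol ↥(FL L N) p yF))
    (hAC : e_AlgClosedIn L N p yF)
    (hA4 : ∀ c : L, algebraMap L ↥(FL L N) c ∈ gaussV W res N → c ∈ W)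
    (z : e_Fp ↥(FL L N) p yF)
    (h1 : e_IsInt p yF (Subring.closure (((cW W N).range : Set ↥(FL L N)) ∪ {jF L N})) z)
    (h2 : e_IsInt p yF (Subring.closure (((cW W N).range : Set ↥(FL L N)) ∪ {(jF L N)⁻¹})) z) :
    ∃ w ∈ (cW W N).range, z = e_of p yF w := by
  have hW₀ : ∀ w ∈ (cW W N).range, ∃ c : L, algebraMap L ↥(FL L N) c = w := by
    rintro _ ⟨w, rfl⟩; exact ⟨(w : L), rfl⟩
  obtain ⟨c, hzc, hc⟩ := hCap ↥(FL L N) L p yF
      (algebraMap L ↥(FL L N)) (cW W N).range (jF L N) hirr hW₀ hAC z h1 h2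
  have hc' : algebraMap L ↥(FL L N) c ∈ chart W N {jF L N} := hc
  have hcV : algebraMap L ↥(FL L N) c ∈ gaussV W res N :=
    (hCG N ℓ L W k res ϖ hD {jF L N} (Or.inl rfl)).1 hc'
  refine ⟨algebraMap L ↥(FL L N) c, ⟨⟨c, hA4 c hcV⟩, rfl⟩, hzc⟩

/-- The endgame from the parts of the internal interface. -/
theorem e_egmainT_assemble (hA : e_egmainT_AStatement) (hB : e_egmainT_BStatement)
    (hC : e_egmainT_CStatement) (hLG : e_egmainT_LGStatement) (hE2 : e_egmainT_E2Statement)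
    (hF2 : e_egmainT_F2Statement) (hF1 : e_egmainT_F1Statement)
    (hCG : ChartGaussStatement) (hCap : e_CapStatement) : e_EndgameStatement := by
  intro N _ ℓ _ L _ _ W _ k _ _ _ res ϖ hD hSm p hp hpℓ y hy hred hord hirr hAC
  obtain ⟨hVD, ⟨hy0, hyV, hyiV, h₀, hh0, hh0V, hh0iV, hcong⟩, ⟨hp0, ⟨pinv, hpinv⟩, ζ, hζ⟩,
    hA4, hA5⟩ := hA N ℓ L W k res ϖ hD p hp hpℓ y hy hred
  have key := e_egmainT_chart_side hB hC hLG hCG N ℓ L W k res ϖ hD hSm p hp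
    ⟨coeffMap W.subtype y, hy⟩ h₀ ζ pinv hord hirr hVD hy0 hyV hyiV hh0 hh0V hh0iV hcong hp0
    hpinv hζ
  obtain ⟨hinj, htr, hspan, -, -⟩ := hB N L W (jF L N) (Or.inl rfl)
  have hj : jF L N ≠ 0 := by
    have := htr Polynomial.X Polynomial.X_ne_zero
    rwa [Polynomial.eval₂_X] at this
  have hS1V := (key (jF L N) (Or.inl rfl)).2
  have hS2V := (key (jF L N)⁻¹ (Or.inr rfl)).2
  have hW₀V : ∀ w : ↥W, cW W N w ∈ gaussV W res N := fun w =>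
    hS1V (Subring.subset_closure (Or.inl ⟨w, rfl⟩))
  have : CharZero L := algebraRat.charZero L
  have : CharZero ↥(FL L N) :=
    charZero_of_injective_algebraMap (algebraMap L ↥(FL L N)).injective
  have hfin := hE2 ↥W ↥(FL L N) p ⟨coeffMap W.subtype y, hy⟩ (cW W N) (jF L N) hp hirr hinj htr
    hspan
  have hNoeth : IsNoetherianRing ↥(cW W N).range :=
    isNoetherianRing_of_surjective ↥W ↥(cW W N).range (cW W N).rangeRestrict
      (cW W N).rangeRestrict_surjective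
  have hloc : ∀ w ∈ (cW W N).range, (∃ w' ∈ (cW W N).range, w = cW W N ϖ * w') ∨
      (∃ w' ∈ (cW W N).range, w * w' = 1) := by
    rintro _ ⟨w, rfl⟩
    rcases hA5 w with ⟨w', rfl⟩ | ⟨w', h⟩
    · exact Or.inl ⟨cW W N w', ⟨w', rfl⟩, map_mul _ _ _⟩
    · exact Or.inr ⟨cW W N w', ⟨w', rfl⟩, by rw [← map_mul, h, map_one]⟩
  have hcap := e_egmainT_cap_side hCG hCap N ℓ L W k res ϖ hD p ⟨coeffMap W.subtype y, hy⟩ hirr
    hAC hA4
  obtain ⟨hF2a, hF2b⟩ := hF2 ↥(FL L N) p ⟨coeffMap W.subtype y, hy⟩ (cW W N ϖ) (cW W N ζ) h₀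
    (gaussV W res N) hp hirr hp0 (hpinv ▸ hW₀V pinv) (hW₀V ζ) hζ hVD.1 hVD.2.1 hVD.2.2.1
    hh0 hh0V hh0iV hy0 hyV hyiV
  exact hF1 ↥(FL L N) p ⟨coeffMap W.subtype y, hy⟩ (cW W N ϖ) h₀ (gaussV W res N)
    (cW W N).range (jF L N) hp hirr hp0 ⟨pinv, hpinv⟩ hVD hyV hh0 hh0V hh0iV hcong hj hS1V hS2V
    ⟨ϖ, rfl⟩ hNoeth hloc hcap hfin (fun x₀ hx₀ => (key x₀ hx₀).1) hF2a hF2b

end

end Fermat.Agent.S18
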