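/-
S18, block E — package EGMain (twin T): part (B), the charts are noetherian with fraction field `F`
(sub-lead's own version).  Prefix `e_egmainT_balt_`.
-/
import Fermat.Agent.S18.EEGMainTDefs

set_option autoImplicit false

open ModularCurve AlgebraicCurve

namespace Fermat.Agent.S18

noncomputable section

/-- If a field `Φ` is finitely spanned over the subfield generated by a subring `R₀`, then the
integral closure of `R₀` in `Φ` has fraction field `Φ`. -/
theorem e_egmainT_balt_isFrac {Φ : Type} [Field Φ] (R₀ : Subring Φ)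
    (hspan : ∃ (r : ℕ) (b : Fin r → Φ), ∀ z : Φ, ∃ c : Fin r → Φ,
      (∀ i, c i ∈ Subfield.closure (R₀ : Set Φ)) ∧ z = ∑ i, c i * b i) :
    e_IsFrac (integralClosure ↥R₀ Φ).toSubring := by
  classical
  obtain ⟨r, b, hb⟩ := hspan
  set K₀ : Subfield Φ := Subfield.closure (R₀ : Set Φ) with hK₀
  have hfin : Module.Finite ↥K₀ Φ := by
    refine Module.finite_def.2 ⟨Finset.univ.image b, top_unique fun z _ => ?_⟩
    obtain ⟨c, hc, rfl⟩ := hb z
    refine Submodule.sum_mem _ fun i _ => ?_
    have : c i * b i = (⟨c i, hc i⟩ : ↥K₀) • b i := rfl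
    rw [this]
    exact Submodule.smul_mem _ _ (Submodule.subset_span (by simp))
  have halg : Algebra.IsAlgebraic ↥K₀ Φ := Algebra.IsAlgebraic.of_finite ↥K₀ Φ
  have hle : R₀ ≤ K₀.toSubring := fun x hx => Subfield.subset_closure hx
  let _ : Algebra ↥R₀ ↥K₀ := (Subring.inclusion hle).toAlgebra
  have : IsScalarTower ↥R₀ ↥K₀ Φ := IsScalarTower.of_algebraMap_eq (fun _ => rfl)
  have : FaithfulSMul ↥R₀ ↥K₀ :=
    (faithfulSMul_iff_algebraMap_injective _ _).2 (Subring.inclusion_injective hle)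
  have : IsFractionRing ↥R₀ ↥K₀ := IsFractionRing.of_field ↥R₀ ↥K₀ (by
    rintro ⟨z, hz⟩
    obtain ⟨a, ha, d, hd, rfl⟩ := Subfield.mem_closure_iff.1 hz
    rw [Subring.closure_eq] at ha hd
    exact ⟨⟨a, ha⟩, ⟨d, hd⟩, Subtype.ext rfl⟩)
  intro z
  have hz : IsAlgebraic ↥R₀ z := (IsFractionRing.isAlgebraic_iff ↥R₀ ↥K₀ Φ).2 (halg.isAlgebraic z)
  obtain ⟨d, hd0, hd⟩ := hz.exists_integral_multiple
  refine ⟨⟨z * (d : Φ), ?_⟩, ⟨(d : Φ), isIntegral_algebraMap⟩, ?_, rfl⟩
  · have : z * (d : Φ) = d • z := by rw [mul_comm]; rfl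
    rw [this]; exact hd
  · intro h
    have h' : (d : Φ) = 0 := congrArg Subtype.val h
    exact hd0 (Subtype.ext h')

set_option synthInstance.maxHeartbeats 400000 in
/-- (B) -/
theorem e_egmainT_balt_main (hFin : FinLStatement) (hIF : e_IntFinStatement) :
    e_egmainT_BStatement := by
  intro N _ L _ _ W _ x₀ hx₀
  obtain ⟨htrj, hfd⟩ := hFin N L
  have hinj : Function.Injective (cW W N) :=
    (algebraMap L ↥(FL L N)).injective.comp Subtype.val_injective
  have htrx : Transcendental L x₀ := by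
    rcases hx₀ with rfl | rfl
    · exact htrj
    · intro h
      exact htrj (inv_inv (jF L N) ▸ h.inv)
  have htr : ∀ P : Polynomial ↥W, P ≠ 0 → Polynomial.eval₂ (cW W N) x₀ P ≠ 0 := by
    intro P hP h
    have h1 : Polynomial.aeval x₀ (P.map W.subtype) = 0 := by
      rw [Polynomial.aeval_def, Polynomial.eval₂_map]; exact h
    have h2 := transcendental_iff.1 htrx _ h1
    exact hP (Polynomial.map_injective _ Subtype.val_injective
      (by rw [h2, Polynomial.map_zero]))
  have hle : (IntermediateField.adjoin L {jF L N}).toSubfield ≤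
      Subfield.closure (Set.range (cW W N) ∪ {x₀}) := by
    rw [IntermediateField.adjoin_toSubfield, Subfield.closure_le]
    rintro _ (⟨c, rfl⟩ | h)
    · rcases W.mem_or_inv_mem c with hc | hc
      · exact Subfield.subset_closure (Or.inl ⟨⟨c, hc⟩, rfl⟩)
      · have : algebraMap L ↥(FL L N) c = (cW W N ⟨c⁻¹, hc⟩)⁻¹ := by
          show _ = (algebraMap L ↥(FL L N) c⁻¹)⁻¹
          rw [map_inv₀, inv_inv]
        rw [this]
        exact Subfield.inv_mem _ (Subfield.subset_closure (Or.inl ⟨_, rfl⟩))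
    · rw [Set.mem_singleton_iff] at h
      rw [h]
      rcases hx₀ with rfl | rfl
      · exact Subfield.subset_closure (Or.inr rfl)
      · have h0 : (jF L N)⁻¹ ∈ Subfield.closure (Set.range (cW W N) ∪ {(jF L N)⁻¹}) :=
          Subfield.subset_closure (Or.inr rfl)
        have := Subfield.inv_mem _ h0
        rwa [inv_inv] at this
  have hspan : ∃ (r : ℕ) (b : Fin r → ↥(FL L N)), ∀ z : ↥(FL L N), ∃ c : Fin r → ↥(FL L N),
      (∀ i, c i ∈ Subfield.closure (Set.range (cW W N) ∪ {x₀})) ∧ z = ∑ i, c i * b i := by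
    have := hfd
    let B := Module.finBasis ↥(IntermediateField.adjoin L {jF L N}) ↥(FL L N)
    refine ⟨_, fun i => B i, fun z => ⟨fun i => ((B.repr z i : ↥(IntermediateField.adjoin L
      {jF L N})) : ↥(FL L N)), fun i => hle (B.repr z i).2, ?_⟩⟩
    conv_lhs => rw [← B.sum_repr z]
    rfl
  refine ⟨hinj, htr, hspan, ?_, ?_⟩
  · have : CharZero L := algebraRat.charZero L
    have : CharZero ↥(FL L N) :=
      charZero_of_injective_algebraMap (algebraMap L ↥(FL L N)).injective
    exact (hIF ↥W ↥(FL L N) (cW W N) x₀ hinj htr hspan).2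
  · apply e_egmainT_balt_isFrac (baseRing W N {x₀})
    obtain ⟨r, b, hb⟩ := hspan
    refine ⟨r, b, fun z => ?_⟩
    obtain ⟨c, hc, rfl⟩ := hb z
    exact ⟨c, fun i => Subfield.closure_mono (fun x hx => Subring.subset_closure hx) (hc i), rfl⟩

end

end Fermat.Agent.S18
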