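/-
S18, block E — package EGMain (twin T), PART C: hypothesis (H2).
In a discrete valuation ring `O` of `F` containing `W` and `1/ϖ`, an element all of whose orders at
the places of `F / L` are divisible by `p` is a unit times a `p`-th power.
-/
import Fermat.Agent.S18.EEGMainTDefs

set_option autoImplicit false

open ModularCurve AlgebraicCurve

namespace Fermat.Agent.S18

/-- (C1) A valuation subring of `F` containing `W` and `1/ϖ` contains all of `L`. -/
theorem e_egmainTC_algebraMap_mem (L F : Type) [Field L] [Field F] [Algebra L F]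
    (W : ValuationSubring L) [IsDiscreteValuationRing ↥W] (ϖ : ↥W) (hϖ : Irreducible ϖ)
    (O : ValuationSubring F) (hW : ∀ w : ↥W, algebraMap L F (w : L) ∈ O)
    (hinv : (algebraMap L F (ϖ : L))⁻¹ ∈ O) (c : L) : algebraMap L F c ∈ O := by
  rcases W.mem_or_inv_mem c with hc | hc
  · exact hW ⟨c, hc⟩
  · by_cases hc0 : c = 0
    · subst hc0; simp
    have hw0 : (⟨c⁻¹, hc⟩ : ↥W) ≠ 0 := by
      intro h
      have h' := congrArg Subtype.val h
      exact inv_ne_zero hc0 h'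
    obtain ⟨n, u, hu⟩ := IsDiscreteValuationRing.eq_unit_mul_pow_irreducible hw0 hϖ
    have hu' : c⁻¹ = ((u : ↥W) : L) * (ϖ : L) ^ n := by
      have h' := congrArg Subtype.val hu
      simpa using h'
    have huinv : ((u : ↥W) : L) * (((u⁻¹ : (↥W)ˣ) : ↥W) : L) = 1 :=
      congrArg Subtype.val (u.mul_inv)
    have hu0 : ((u : ↥W) : L) ≠ 0 := left_ne_zero_of_mul_eq_one huinv
    have hc' : c = (((u⁻¹ : (↥W)ˣ) : ↥W) : L) * ((ϖ : L)⁻¹) ^ n := by
      have h1 : c = (((u : ↥W) : L) * (ϖ : L) ^ n)⁻¹ := by rw [← hu', inv_inv]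
      rw [h1, mul_inv, inv_pow]
      rw [inv_eq_of_mul_eq_one_right huinv]
    rw [hc', map_mul, map_pow, map_inv₀]
    exact O.mul_mem _ _ (hW _) (O.pow_mem hinv n)

theorem e_egmainTC_main : e_egmainT_CStatement := by
  intro L F _ _ _ W _ ϖ hϖ p y hy hdiv O hW hinv hne hPID
  obtain ⟨P, rfl⟩ : ∃ P : Place L F, P.toValuationSubring = O :=
    ⟨⟨O, e_egmainTC_algebraMap_mem L F W ϖ hϖ O hW hinv, hne, hPID⟩, rfl⟩
  obtain ⟨n', hn'⟩ := hdiv P
  obtain ⟨π, hπ⟩ := IsDiscreteValuationRing.exists_irreducible (↥P.toValuationSubring)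
  obtain ⟨u, hu⟩ := P.exists_unit_mul_zpow hy hπ
  have hπ0 : (π : F) ≠ 0 := by
    simpa [ne_eq, ZeroMemClass.coe_eq_zero] using hπ.ne_zero
  refine ⟨(π : F) ^ (-n'), zpow_ne_zero _ hπ0, ?_⟩
  have key : y * ((π : F) ^ (-n')) ^ p = ((u : ↥P.toValuationSubring) : F) := by
    have h1 : ((π : F) ^ (-n')) ^ p = (π : F) ^ (-(P.ord y)) := by
      rw [← zpow_natCast, ← zpow_mul, hn']
      congr 1
      ring
    rw [h1]
    nth_rewrite 1 [hu]
    rw [mul_assoc, ← zpow_add₀ hπ0, add_neg_cancel, zpow_zero, mul_one]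
  rw [key]
  refine ⟨(u : ↥P.toValuationSubring).2, ?_⟩
  have huinv : ((u : ↥P.toValuationSubring) : F) *
      (((u⁻¹ : (↥P.toValuationSubring)ˣ) : ↥P.toValuationSubring) : F) = 1 :=
    congrArg Subtype.val (u.mul_inv)
  rw [inv_eq_of_mul_eq_one_right huinv]
  exact ((u⁻¹ : (↥P.toValuationSubring)ˣ) : ↥P.toValuationSubring).2

end Fermat.Agent.S18
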