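import Fermat.Agent.S18.EEGMainTDefs

set_option autoImplicit false

namespace Fermat.Agent.S18

noncomputable section

/-- Values of polynomials over `W` at `j` lie in `W₀[j]`. -/
theorem e_egmainTE2_range {W F : Type} [CommRing W] [Field F] (f : W →+* F) (j : F)
    (P : Polynomial W) :
    Polynomial.eval₂ f j P ∈ Subring.closure ((f.range : Set F) ∪ {j}) := by
  rw [Polynomial.eval₂_eq_sum_range]
  refine Subring.sum_mem _ fun i _ => Subring.mul_mem _ ?_ (Subring.pow_mem _ ?_ _)
  · exact Subring.subset_closure (Or.inl ⟨_, rfl⟩)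
  · exact Subring.subset_closure (Or.inr rfl)

/-- Every element of `W₀[j]` is the value of a polynomial over `W` at `j`. -/
theorem e_egmainTE2_range' {W F : Type} [CommRing W] [Field F] (f : W →+* F) (j : F)
    (a : F) (ha : a ∈ Subring.closure ((f.range : Set F) ∪ {j})) :
    ∃ P : Polynomial W, Polynomial.eval₂ f j P = a := by
  have h : Subring.closure ((f.range : Set F) ∪ {j}) ≤ (Polynomial.eval₂RingHom f j).range := by
    rw [Subring.closure_le]
    rintro x (⟨w, rfl⟩ | rfl)
    · exact ⟨Polynomial.C w, by simp⟩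
    · exact ⟨Polynomial.X, by simp⟩
  obtain ⟨P, hP⟩ := h ha
  exact ⟨P, hP⟩

/-- Transfer of integrality along ring homs with comparable ranges. -/
theorem e_egmainTE2_transfer {R₁ R₂ S : Type} [CommRing R₁] [CommRing R₂] [CommRing S]
    (g₁ : R₁ →+* S) (g₂ : R₂ →+* S) (h : ∀ r₁, ∃ r₂, g₂ r₂ = g₁ r₁) (z : S)
    (hz : g₁.IsIntegralElem z) : g₂.IsIntegralElem z := by
  obtain ⟨P, hP, hPz⟩ := hz
  have hl : P.map g₁ ∈ Polynomial.lifts g₂ := by
    rw [Polynomial.lifts_iff_coeff_lifts]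
    intro n
    rw [Polynomial.coeff_map]
    obtain ⟨r₂, hr₂⟩ := h (P.coeff n)
    exact ⟨r₂, hr₂⟩
  obtain ⟨Q, hQ, -, hQm⟩ := Polynomial.lifts_and_natDegree_eq_and_monic hl (hP.map g₁)
  refine ⟨Q, hQm, ?_⟩
  rw [← Polynomial.eval_map, hQ, Polynomial.eval_map, hPz]

/-- Every element of `F'` is an `F`-combination of `1, t, …, t^(p-1)`. -/
theorem e_egmainTE2_decomp {F : Type} [Field F] (p : ℕ) (hp : p ≠ 0) (y : F) (z : e_Fp F p y) :
    ∃ g : Fin p → F, z = ∑ a : Fin p, e_of p y (g a) * e_rt p y ^ (a : ℕ) := by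
  have hm : (e_pol F p y).Monic := Polynomial.monic_X_pow_sub_C y hp
  have hdeg : (e_pol F p y).natDegree = p := Polynomial.natDegree_X_pow_sub_C
  obtain ⟨q, rfl⟩ := AdjoinRoot.mk_surjective z
  have h1 : AdjoinRoot.mk (e_pol F p y) q = AdjoinRoot.mk (e_pol F p y) (q %ₘ e_pol F p y) := by
    rw [AdjoinRoot.mk_eq_mk]
    exact ⟨q /ₘ e_pol F p y,
      sub_eq_iff_eq_add'.mpr (Polynomial.modByMonic_add_div q (e_pol F p y)).symm⟩
  have h2 : (q %ₘ e_pol F p y).natDegree < p := by
    have := Polynomial.natDegree_modByMonic_lt q hm (fun h1 => hp (by rw [← hdeg, h1, Polynomial.natDegree_one]))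
    rwa [hdeg] at this
  refine ⟨fun a => (q %ₘ e_pol F p y).coeff a, ?_⟩
  rw [h1]
  conv_lhs => rw [Polynomial.as_sum_range' (q %ₘ e_pol F p y) p h2]
  rw [map_sum, Fin.sum_univ_eq_sum_range
    (fun a => e_of p y ((q %ₘ e_pol F p y).coeff a) * e_rt p y ^ a) p]
  refine Finset.sum_congr rfl fun a _ => ?_
  rw [← Polynomial.C_mul_X_pow_eq_monomial, map_mul, map_pow, AdjoinRoot.mk_C, AdjoinRoot.mk_X]

theorem e_egmainTE2_main : e_IntFinStatement → e_egmainT_E2Statement := by
  intro hIF W F _ _ _ _ _ p y f j hp hirr hf htr hfin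
  have : Fact (Irreducible (e_pol F p y)) := ⟨hirr⟩
  have : CharZero (e_Fp F p y) := charZero_of_injective_ringHom (e_of p y).injective
  have hof : Function.Injective (e_of p y) := (e_of p y).injective
  have hev : ∀ P : Polynomial W, Polynomial.eval₂ ((e_of p y).comp f) (e_of p y j) P
      = e_of p y (Polynomial.eval₂ f j P) := fun P => (Polynomial.hom_eval₂ P f (e_of p y) j).symm
  have hspan : ∃ (r : ℕ) (b : Fin r → e_Fp F p y), ∀ z : e_Fp F p y, ∃ c : Fin r → e_Fp F p y,
      (∀ i, c i ∈ Subfield.closure (Set.range ((e_of p y).comp f) ∪ {e_of p y j})) ∧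
        z = ∑ i, c i * b i := by
    obtain ⟨r, b, hb⟩ := hfin
    have hcl : ∀ x ∈ Subfield.closure (Set.range f ∪ {j}), e_of p y x ∈
        Subfield.closure (Set.range ((e_of p y).comp f) ∪ {e_of p y j}) := by
      have hle : Subfield.closure (Set.range f ∪ {j}) ≤
          (Subfield.closure (Set.range ((e_of p y).comp f) ∪ {e_of p y j})).comap (e_of p y) := by
        rw [Subfield.closure_le]
        rintro x (⟨w, rfl⟩ | rfl)
        · exact Subfield.subset_closure (Or.inl ⟨w, rfl⟩)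
        · exact Subfield.subset_closure (Or.inr rfl)
      exact fun x hx => hle hx
    refine ⟨r * p, fun k => e_of p y (b (finProdFinEquiv.symm k).1) *
      e_rt p y ^ ((finProdFinEquiv.symm k).2 : ℕ), fun z => ?_⟩
    obtain ⟨g, rfl⟩ := e_egmainTE2_decomp p hp.ne_zero y z
    choose c hc hg using fun a => hb (g a)
    refine ⟨fun k => e_of p y (c (finProdFinEquiv.symm k).2 (finProdFinEquiv.symm k).1),
      fun k => hcl _ (hc _ _), ?_⟩
    rw [← Equiv.sum_comp finProdFinEquiv, Fintype.sum_prod_type, Finset.sum_comm]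
    refine Finset.sum_congr rfl fun a _ => ?_
    simp only [Equiv.symm_apply_apply]
    conv_lhs => rw [hg a, map_sum, Finset.sum_mul]
    refine Finset.sum_congr rfl fun i _ => ?_
    rw [map_mul]; ring
  obtain ⟨⟨r', c, hc, hgen⟩, -⟩ := hIF W (e_Fp F p y) ((e_of p y).comp f) (e_of p y j)
    (hof.comp hf) (fun P hP => by
      rw [hev]; exact fun h0 => htr P hP (hof (by rw [h0, map_zero]))) hspan
  have h12 : ∀ z : e_Fp F p y,
      (Polynomial.eval₂RingHom ((e_of p y).comp f) (e_of p y j)).IsIntegralElem z →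
      e_IsInt p y (Subring.closure ((f.range : Set F) ∪ {j})) z := by
    intro z hz
    refine e_egmainTE2_transfer _ _ (fun P => ?_) z hz
    exact ⟨⟨_, e_egmainTE2_range f j P⟩, by
      rw [Polynomial.coe_eval₂RingHom, hev]; rfl⟩
  have h21 : ∀ z : e_Fp F p y, e_IsInt p y (Subring.closure ((f.range : Set F) ∪ {j})) z →
      (Polynomial.eval₂RingHom ((e_of p y).comp f) (e_of p y j)).IsIntegralElem z := by
    intro z hz
    refine e_egmainTE2_transfer _ _ (fun a => ?_) z hz
    obtain ⟨P, hP⟩ := e_egmainTE2_range' f j a.1 a.2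
    exact ⟨P, by rw [Polynomial.coe_eval₂RingHom, hev, hP]; rfl⟩
  refine ⟨r', c, fun i => h12 _ (hc i), fun z hz => ?_⟩
  obtain ⟨P, hP⟩ := hgen z (h21 z hz)
  refine ⟨fun i => Polynomial.eval₂ f j (P i), fun i => e_egmainTE2_range f j (P i), ?_⟩
  rw [hP]
  exact Finset.sum_congr rfl fun i _ => by rw [hev]

end

end Fermat.Agent.S18
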