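/-
S18, block E — package EGMain (twin T): part (F1), the connectedness argument in abstract form
(plan (E3) + (F)).  Prefix `e_egmainT_`.
-/
import Fermat.Agent.S18.EEGMainTTools

set_option autoImplicit false

open ModularCurve AlgebraicCurve

namespace Fermat.Agent.S18

noncomputable section

/-! ### Congruences modulo `ϖ V'` (written `u * z ∈ V'`, `u = 1/ϖ`) -/

theorem e_egmainT_D_pow {Ω : Type*} [CommRing Ω] (V' : Subring Ω) (u a b : Ω) (ha : a ∈ V')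
    (hb : b ∈ V') (h : u * (a - b) ∈ V') (n : ℕ) : u * (a ^ n - b ^ n) ∈ V' := by
  rw [← geom_sum₂_mul a b n]
  have h1 : (∑ i ∈ Finset.range n, a ^ i * b ^ (n - 1 - i)) ∈ V' :=
    V'.sum_mem fun i _ => V'.mul_mem (V'.pow_mem ha _) (V'.pow_mem hb _)
  have h2 : u * ((∑ i ∈ Finset.range n, a ^ i * b ^ (n - 1 - i)) * (a - b)) =
      (∑ i ∈ Finset.range n, a ^ i * b ^ (n - 1 - i)) * (u * (a - b)) := by ring
  rw [h2]
  exact V'.mul_mem h1 h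

theorem e_egmainT_D_E {Ω : Type*} [CommRing Ω] (V' : Subring Ω) (u c a b : Ω) (hc : c ∈ V')
    (ha : a ∈ V') (hb : b ∈ V') (h : u * (a - b) ∈ V') (p : ℕ) :
    u * (c * ∑ i ∈ Finset.range p, a ^ i - c * ∑ i ∈ Finset.range p, b ^ i) ∈ V' := by
  have h2 : u * (c * ∑ i ∈ Finset.range p, a ^ i - c * ∑ i ∈ Finset.range p, b ^ i) =
      c * ∑ i ∈ Finset.range p, u * (a ^ i - b ^ i) := by
    rw [← mul_sub, ← Finset.sum_sub_distrib, ← Finset.mul_sum]; ring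
  rw [h2]
  exact V'.mul_mem hc (V'.sum_mem fun i _ => e_egmainT_D_pow V' u a b ha hb h i)

/-- The ring identity `E(z)² - E(z) = c² (z^p - 1) Q(z)` for `E(z) = c ∑_{a<p} z^a`, `p c = 1`. -/
theorem e_egmainT_idem_identity {Ω : Type*} [CommRing Ω] (c z : Ω) (p : ℕ)
    (hc : (p : Ω) * c = 1) :
    (c * ∑ a ∈ Finset.range p, z ^ a) ^ 2 - c * ∑ a ∈ Finset.range p, z ^ a =
      c ^ 2 * (z ^ p - 1) * ∑ a ∈ Finset.range p, ∑ i ∈ Finset.range a, z ^ i := by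
  have h1 : (∑ a ∈ Finset.range p, z ^ a) * (z - 1) = z ^ p - 1 := geom_sum_mul z p
  have h2 : (∑ a ∈ Finset.range p, z ^ a) - (p : Ω) =
      (∑ a ∈ Finset.range p, ∑ i ∈ Finset.range a, z ^ i) * (z - 1) := by
    rw [Finset.sum_mul]
    simp only [geom_sum_mul, Finset.sum_sub_distrib, Finset.sum_const, Finset.card_range,
      nsmul_eq_mul, mul_one]
  linear_combination (c * ∑ a ∈ Finset.range p, z ^ a) * hc +
    c ^ 2 * (∑ a ∈ Finset.range p, ∑ i ∈ Finset.range a, z ^ i) * h1 +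
    c ^ 2 * (∑ a ∈ Finset.range p, z ^ a) * h2

/-! ### The element `τ = t / h₀` -/

theorem e_egmainT_rt_pow {F : Type} [Field F] (p : ℕ) (y : F) :
    e_rt p y ^ p = e_of p y y := by
  have h := AdjoinRoot.eval₂_root (e_pol F p y)
  unfold e_pol at h
  rw [Polynomial.eval₂_sub, Polynomial.eval₂_pow, Polynomial.eval₂_X, Polynomial.eval₂_C] at h
  exact sub_eq_zero.1 h

theorem e_egmainT_tau_pow {F : Type} [Field F] (p : ℕ) (y h₀ : F) :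
    (e_of p y h₀⁻¹ * e_rt p y) ^ p = e_of p y (y * h₀⁻¹ ^ p) := by
  rw [mul_pow, e_egmainT_rt_pow, map_mul, map_pow, mul_comm]

theorem e_egmainT_tau_int {F : Type} [Field F] (p : ℕ) (hp : p ≠ 0) (y h₀ : F) (V : Subring F)
    (h : y * h₀⁻¹ ^ p ∈ V) : e_IsInt p y V (e_of p y h₀⁻¹ * e_rt p y) := by
  refine ⟨Polynomial.X ^ p - Polynomial.C ⟨y * h₀⁻¹ ^ p, h⟩,
    Polynomial.monic_X_pow_sub_C _ hp, ?_⟩
  rw [Polynomial.eval₂_sub, Polynomial.eval₂_pow, Polynomial.eval₂_X, Polynomial.eval₂_C,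
    e_egmainT_tau_pow]
  exact sub_self _

/-! ### One chart -/

theorem e_egmainT_F1_side {F : Type} [Field F] (p : ℕ) (y ϖ h₀ : F) (V A : Subring F)
    (hp : p.Prime) (hp0 : (p : F) ≠ 0) (hpinv : ((p : F))⁻¹ ∈ A)
    (hϖ0 : ϖ ≠ 0) (hyh : y * h₀⁻¹ ^ p ∈ V) (hcong : ϖ⁻¹ * (y * h₀⁻¹ ^ p - 1) ∈ V) (hAV : A ≤ V)
    (hGL1 : ∀ z : e_Fp F p y, e_IsInt p y A z → e_IsInt p y V (e_of p y ϖ⁻¹ * z) →
      e_IsInt p y A (e_of p y ϖ⁻¹ * z))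
    (b : e_Fp F p y) (hb : e_IsInt p y A b)
    (hbτ : e_IsInt p y V (e_of p y ϖ⁻¹ * (e_of p y h₀⁻¹ * e_rt p y - b))) :
    e_egmainT_E p y b ∈ e_egmainT_cl p y A ∧
    (∃ b' ∈ e_egmainT_cl p y A, e_egmainT_E p y b ^ 2 - e_egmainT_E p y b = e_of p y ϖ * b') ∧
    e_of p y ϖ⁻¹ * (e_egmainT_E p y b - e_egmainT_E p y (e_of p y h₀⁻¹ * e_rt p y)) ∈
      e_egmainT_cl p y V := by
  set B := e_egmainT_cl p y A with hB
  set V' := e_egmainT_cl p y V with hV'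
  set u := e_of p y ϖ⁻¹ with hu
  set τ := e_of p y h₀⁻¹ * e_rt p y with hτ
  set c := e_of p y ((p : F))⁻¹ with hc
  have hBV : B ≤ V' := e_egmainT_cl_mono p y hAV
  have hbB : b ∈ B := (e_egmainT_mem_cl p y A b).2 hb
  have hbV : b ∈ V' := hBV hbB
  have hτV : τ ∈ V' := (e_egmainT_mem_cl p y V τ).2 (e_egmainT_tau_int p hp.ne_zero y h₀ V hyh)
  have hcB : c ∈ B := e_egmainT_of_mem_cl p y A hpinv
  have hcV : c ∈ V' := hBV hcB
  have hpc : ((p : ℕ) : e_Fp F p y) * c = 1 := by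
    rw [hc, ← map_natCast (e_of p y) p, ← map_mul, mul_inv_cancel₀ hp0, map_one]
  have hϖu : e_of p y ϖ * u = 1 := by
    rw [hu, ← map_mul, mul_inv_cancel₀ hϖ0, map_one]
  have hEb : e_egmainT_E p y b ∈ B :=
    B.mul_mem hcB (B.sum_mem fun i _ => B.pow_mem hbB i)
  have hD0 : u * (τ - b) ∈ V' := (e_egmainT_mem_cl p y V _).2 hbτ
  have hD1 : u * (b - τ) ∈ V' := by
    have : u * (b - τ) = -(u * (τ - b)) := by ring
    rw [this]; exact V'.neg_mem hD0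
  have hD2 : u * (b ^ p - τ ^ p) ∈ V' := e_egmainT_D_pow V' u b τ hbV hτV hD1 p
  have hD3 : u * (τ ^ p - 1) ∈ V' := by
    have : u * (τ ^ p - 1) = e_of p y (ϖ⁻¹ * (y * h₀⁻¹ ^ p - 1)) := by
      rw [hτ, e_egmainT_tau_pow, hu]
      simp only [map_mul, map_sub, map_one]
    rw [this]
    exact e_egmainT_of_mem_cl p y V hcong
  have hD4 : u * (b ^ p - 1) ∈ V' := by
    have : u * (b ^ p - 1) = u * (b ^ p - τ ^ p) + u * (τ ^ p - 1) := by ring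
    rw [this]; exact V'.add_mem hD2 hD3
  have hbp : b ^ p - 1 ∈ B := B.sub_mem (B.pow_mem hbB p) B.one_mem
  have hD5 : u * (b ^ p - 1) ∈ B :=
    (e_egmainT_mem_cl p y A _).2
      (hGL1 _ ((e_egmainT_mem_cl p y A _).1 hbp) ((e_egmainT_mem_cl p y V _).1 hD4))
  refine ⟨hEb, ⟨c ^ 2 * (u * (b ^ p - 1)) *
      ∑ a ∈ Finset.range p, ∑ i ∈ Finset.range a, b ^ i, ?_, ?_⟩, ?_⟩
  · exact B.mul_mem (B.mul_mem (B.pow_mem hcB 2) hD5)
      (B.sum_mem fun a _ => B.sum_mem fun i _ => B.pow_mem hbB i)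
  · unfold e_egmainT_E
    rw [e_egmainT_idem_identity c b p hpc]
    linear_combination (-(c ^ 2 * (b ^ p - 1) *
      ∑ a ∈ Finset.range p, ∑ i ∈ Finset.range a, b ^ i)) * hϖu
  · unfold e_egmainT_E
    exact e_egmainT_D_E V' u c b τ hcV hbV hτV hD1 p

/-! ### The connectedness argument -/

theorem e_egmainT_F1_main (hConn : e_ConnStatement) (hH1 : e_H1GenStatement) :
    e_egmainT_F1Statement := by
  intro F _ p y ϖ h₀ V W₀ j hp hirr hp0 hpinv hVD hyV hh0 hh0V hh0iV hcong hj hS1V hS2V hϖW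
    hNoeth hloc hcap hfin hGL hF2a hF2b
  have : Fact (Irreducible (e_pol F p y)) := ⟨hirr⟩
  obtain ⟨hval, hϖ0, hϖinv, -⟩ := hVD
  have hofinj : Function.Injective (e_of p y) := (e_of p y).injective
  set A₁ : Subring F := Subring.closure ((W₀ : Set F) ∪ {j}) with hA₁
  set A₂ : Subring F := Subring.closure ((W₀ : Set F) ∪ {j⁻¹}) with hA₂
  set A₁₂ : Subring F := Subring.closure ((W₀ : Set F) ∪ {j, j⁻¹}) with hA₁₂
  set B₁ := e_egmainT_cl p y A₁ with hB₁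
  set B₂ := e_egmainT_cl p y A₂ with hB₂
  set B₁₂ := e_egmainT_cl p y A₁₂ with hB₁₂
  set V' := e_egmainT_cl p y V with hV'
  set u := e_of p y ϖ⁻¹ with hu
  set τ := e_of p y h₀⁻¹ * e_rt p y with hτ
  have hW₁ : W₀ ≤ A₁ := fun w hw => Subring.subset_closure (Or.inl hw)
  have hW₂ : W₀ ≤ A₂ := fun w hw => Subring.subset_closure (Or.inl hw)
  have hA₁A₁₂ : A₁ ≤ A₁₂ := Subring.closure_mono (Set.union_subset_union_right _ (by simp))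
  have hA₂A₁₂ : A₂ ≤ A₁₂ := Subring.closure_mono (Set.union_subset_union_right _ (by simp))
  have hjA₁ : j ∈ A₁ := Subring.subset_closure (Or.inr rfl)
  have hjiA₁₂ : j⁻¹ ∈ A₁₂ := Subring.subset_closure (Or.inr (by simp))
  have hB₁V : B₁ ≤ V' := e_egmainT_cl_mono p y hS1V
  have hB₂V : B₂ ≤ V' := e_egmainT_cl_mono p y hS2V
  have hB₁B₁₂ : B₁ ≤ B₁₂ := e_egmainT_cl_mono p y hA₁A₁₂
  have hB₂B₁₂ : B₂ ≤ B₁₂ := e_egmainT_cl_mono p y hA₂A₁₂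
  have hϖu : e_of p y ϖ * u = 1 := by
    rw [hu, ← map_mul, mul_inv_cancel₀ hϖ0, map_one]
  have hyh : y * h₀⁻¹ ^ p ∈ V := V.mul_mem hyV (V.pow_mem hh0iV p)
  obtain ⟨hH1loc, hH1gen⟩ := hH1 F p y W₀ j hj hfin
  -- the two charts
  obtain ⟨hGL1₁, b₁, hb₁, hb₁τ⟩ := hGL j (Or.inl rfl)
  obtain ⟨hGL1₂, b₂, hb₂, hb₂τ⟩ := hGL j⁻¹ (Or.inr rfl)
  obtain ⟨he₁, hid₁, hd₁⟩ := e_egmainT_F1_side p y ϖ h₀ V A₁ hp hp0 (hW₁ hpinv) hϖ0 hyh hcong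
    hS1V hGL1₁ b₁ hb₁ hb₁τ
  obtain ⟨he₂, hid₂, hd₂⟩ := e_egmainT_F1_side p y ϖ h₀ V A₂ hp hp0 (hW₂ hpinv) hϖ0 hyh hcong
    hS2V hGL1₂ b₂ hb₂ hb₂τ
  set e₁ := e_egmainT_E p y b₁ with he₁def
  set e₂ := e_egmainT_E p y b₂ with he₂def
  -- (E3)
  have hE3 : ∀ z ∈ B₁₂, u * z ∈ V' → u * z ∈ B₁₂ := by
    intro z hz hzV
    obtain ⟨n, hn⟩ := hH1loc z ((e_egmainT_mem_cl p y A₁₂ z).1 hz)
    have hjV : e_of p y j ∈ V' := e_egmainT_of_mem_cl p y V (hS1V hjA₁)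
    have h1 : u * (e_of p y j ^ n * z) ∈ V' := by
      have : u * (e_of p y j ^ n * z) = e_of p y j ^ n * (u * z) := by ring
      rw [this]; exact V'.mul_mem (V'.pow_mem hjV n) hzV
    have h2 : u * (e_of p y j ^ n * z) ∈ B₁ :=
      (e_egmainT_mem_cl p y A₁ _).2 (hGL1₁ _ hn ((e_egmainT_mem_cl p y V _).1 h1))
    have hji : e_of p y j⁻¹ ∈ B₁₂ := e_egmainT_of_mem_cl p y A₁₂ hjiA₁₂
    have h3 : e_of p y j⁻¹ * e_of p y j = 1 := by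
      rw [← map_mul, inv_mul_cancel₀ hj, map_one]
    have h4 : u * z = e_of p y j⁻¹ ^ n * (u * (e_of p y j ^ n * z)) := by
      have : e_of p y j⁻¹ ^ n * (u * (e_of p y j ^ n * z)) =
          (e_of p y j⁻¹ * e_of p y j) ^ n * (u * z) := by ring
      rw [this, h3, one_pow, one_mul]
    rw [h4]
    exact B₁₂.mul_mem (B₁₂.pow_mem hji n) (hB₁B₁₂ h2)
  -- e₁ - e₂ ∈ ϖ B₁₂
  have hdiff : ∃ b ∈ B₁₂, e₁ - e₂ = e_of p y ϖ * b := by
    have h1 : u * (e₁ - e₂) ∈ V' := by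
      have : u * (e₁ - e₂) = u * (e₁ - e_egmainT_E p y τ) - u * (e₂ - e_egmainT_E p y τ) := by
        ring
      rw [this]; exact V'.sub_mem hd₁ hd₂
    have h2 : e₁ - e₂ ∈ B₁₂ := B₁₂.sub_mem (hB₁B₁₂ he₁) (hB₂B₁₂ he₂)
    refine ⟨u * (e₁ - e₂), hE3 _ h2 h1, ?_⟩
    rw [← mul_assoc, hϖu, one_mul]
  -- the hypotheses of (Conn)
  have hW₀B₁ : W₀.map (e_of p y) ≤ B₁ := by
    rintro _ ⟨w, hw, rfl⟩
    exact e_egmainT_of_mem_cl p y A₁ (hW₁ hw)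
  have hW₀B₂ : W₀.map (e_of p y) ≤ B₂ := by
    rintro _ ⟨w, hw, rfl⟩
    exact e_egmainT_of_mem_cl p y A₂ (hW₂ hw)
  have hNoeth' : IsNoetherianRing ↥(W₀.map (e_of p y)) :=
    isNoetherianRing_of_ringEquiv ↥W₀ (W₀.equivMapOfInjective (e_of p y) hofinj)
  have hloc' : ∀ w ∈ W₀.map (e_of p y),
      (∃ w' ∈ W₀.map (e_of p y), w = e_of p y ϖ * w') ∨
        (∃ w' ∈ W₀.map (e_of p y), w * w' = 1) := by
    rintro _ ⟨w, hw, rfl⟩
    rcases hloc w hw with ⟨w', hw', rfl⟩ | ⟨w', hw', h⟩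
    · exact Or.inl ⟨e_of p y w', ⟨w', hw', rfl⟩, map_mul _ _ _⟩
    · exact Or.inr ⟨e_of p y w', ⟨w', hw', rfl⟩, by rw [← map_mul, h, map_one]⟩
  have hnzd : ∀ x : e_Fp F p y, e_of p y ϖ * x = 0 → x = 0 := by
    intro x hx
    have : u * (e_of p y ϖ * x) = x := by
      rw [← mul_assoc, mul_comm u, hϖu, one_mul]
    rw [← this, hx, mul_zero]
  have hcap' : ∀ x : e_Fp F p y, x ∈ B₁ → x ∈ B₂ → x ∈ W₀.map (e_of p y) := by
    intro x hx₁ hx₂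
    obtain ⟨w, hw, rfl⟩ := hcap x ((e_egmainT_mem_cl p y A₁ x).1 hx₁)
      ((e_egmainT_mem_cl p y A₂ x).1 hx₂)
    exact ⟨w, hw, rfl⟩
  have hnot : ¬ ∃ b ∈ B₁, (1 : e_Fp F p y) = e_of p y ϖ * b := by
    rintro ⟨b, hb, h⟩
    have hbu : b = u := by
      have : u * (e_of p y ϖ * b) = b := by
        rw [← mul_assoc, mul_comm u, hϖu, one_mul]
      rw [← this, ← h, mul_one]
    rw [hbu] at hb
    have h1 : e_IsInt p y V (e_of p y ϖ⁻¹) := (e_egmainT_mem_cl p y V _).1 (hB₁V hb)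
    exact hϖinv (e_egmainT_intClosed V hval _ ((e_egmainT_isInt_of_iff p y hirr V _).1 h1))
  have hgen : ∃ (r : ℕ) (m : Fin r → e_Fp F p y), ∀ x ∈ B₁₂, ∃ b₁ ∈ B₁, ∃ b₂ ∈ B₂,
      ∃ w : Fin r → e_Fp F p y, (∀ i, w i ∈ W₀.map (e_of p y)) ∧
        x = b₁ + b₂ + ∑ i, w i * m i := by
    obtain ⟨r, m, hm⟩ := hH1gen
    refine ⟨r, m, fun x hx => ?_⟩
    obtain ⟨c₁, c₂, w, hc₁, hc₂, hw, rfl⟩ := hm x ((e_egmainT_mem_cl p y A₁₂ x).1 hx)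
    exact ⟨c₁, (e_egmainT_mem_cl p y A₁ _).2 hc₁, c₂, (e_egmainT_mem_cl p y A₂ _).2 hc₂,
      fun i => e_of p y (w i), fun i => ⟨w i, hw i, rfl⟩, rfl⟩
  have hϖ' : e_of p y ϖ ∈ W₀.map (e_of p y) := ⟨ϖ, hϖW, rfl⟩
  rcases hConn (e_Fp F p y) (W₀.map (e_of p y)) B₁ B₂ B₁₂ (e_of p y ϖ) hW₀B₁ hW₀B₂ hB₁B₁₂
    hB₂B₁₂ hϖ' hNoeth' hloc' hnzd hcap' hnot hgen e₁ e₂ he₁ he₂ hid₁ hid₂ hdiff with
    ⟨b, hb, h⟩ | ⟨b, hb, h⟩
  · apply hF2a
    rw [← e_egmainT_mem_cl]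
    have : u * e_egmainT_E p y τ = b - u * (e₁ - e_egmainT_E p y τ) := by
      have h' : u * e₁ = b := by rw [h, ← mul_assoc, mul_comm u, hϖu, one_mul]
      rw [← h']; ring
    rw [this]
    exact V'.sub_mem (hB₁V hb) hd₁
  · apply hF2b
    rw [← e_egmainT_mem_cl]
    have : u * (1 - e_egmainT_E p y τ) = b + u * (e₁ - e_egmainT_E p y τ) := by
      have h' : u * (1 - e₁) = b := by rw [h, ← mul_assoc, mul_comm u, hϖu, one_mul]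
      rw [← h']; ring
    rw [this]
    exact V'.add_mem (hB₁V hb) hd₁

end

end Fermat.Agent.S18
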