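/-
S18, block E — package EGMain (twin T), PART F2: the final contradiction from Kummer integral
closure: neither `E(τ)` nor `1 - E(τ)` lies in `ϖ V'`.
-/
import Fermat.Agent.S18.EEGMainTDefs

set_option autoImplicit false

namespace Fermat.Agent.S18

noncomputable section

/-- A subring `V` of a field with `x ∈ V ∨ x⁻¹ ∈ V` for all `x` is integrally closed. -/
theorem e_egmainTF2_intClosed {F : Type} [Field F] (V : Subring F)
    (hval : ∀ x : F, x ∈ V ∨ x⁻¹ ∈ V) : ∀ x : F, IsIntegral ↥V x → x ∈ V := by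
  intro x hx
  let O : ValuationSubring F := { V with mem_or_inv_mem' := hval }
  have h1 : IsIntegral ↥O x := hx
  obtain ⟨z, hz⟩ := (IsIntegrallyClosed.isIntegral_iff (R := ↥O) (K := F)).1 h1
  rw [← hz]
  exact z.2

theorem e_egmainTF2_sumE {F : Type} [Field F] (p : ℕ) (y c : F) (z : e_Fp F p y) :
    e_of p y c * e_egmainT_E p y z =
      ∑ a : Fin p, e_of p y (c * ((p : F))⁻¹) * z ^ (a : ℕ) := by
  unfold e_egmainT_E
  rw [Fin.sum_univ_eq_sum_range (fun a => e_of p y (c * ((p : F))⁻¹) * z ^ a) p,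
    ← Finset.mul_sum, map_mul, mul_assoc]

theorem e_egmainTF2_sumOne {F : Type} [Field F] (p : ℕ) (hp : 0 < p) (y c : F)
    (z : e_Fp F p y) :
    e_of p y c =
      ∑ a : Fin p, e_of p y (if (a : ℕ) = 0 then c else 0) * z ^ (a : ℕ) := by
  rw [Fin.sum_univ_eq_sum_range (fun a => e_of p y (if a = 0 then c else 0) * z ^ a) p]
  rw [Finset.sum_eq_single 0]
  · simp
  · intro b _ hb
    simp [hb]
  · intro h
    exact absurd (Finset.mem_range.2 hp) h

theorem e_egmainTF2_sumOneSubE {F : Type} [Field F] (p : ℕ) (hp : 0 < p) (y c : F)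
    (z : e_Fp F p y) :
    e_of p y c * (1 - e_egmainT_E p y z) =
      ∑ a : Fin p, e_of p y (if (a : ℕ) = 0 then c * (1 - ((p : F))⁻¹) else -(c * ((p : F))⁻¹)) *
        z ^ (a : ℕ) := by
  rw [mul_sub, mul_one, e_egmainTF2_sumE, e_egmainTF2_sumOne p hp y c z, ← Finset.sum_sub_distrib]
  refine Finset.sum_congr rfl fun a _ => ?_
  split_ifs with h
  · rw [← sub_mul, ← map_sub]
    congr 2
    ring
  · rw [map_zero, zero_mul, zero_sub, map_neg, neg_mul]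

theorem e_egmainTF2_main : e_IntClStatement → e_egmainT_F2Statement := by
  intro hIC F _ p y ϖ ζ h₀ V hp hirr hpF hpV hζV hζ hval hϖ hϖV hh₀ hh₀V hh₀V' hy hyV hyV'
  have hcl := e_egmainTF2_intClosed V hval
  have hh₀p : h₀ ^ p ≠ 0 := pow_ne_zero _ hh₀
  have hu : y = y * h₀⁻¹ ^ p * h₀ ^ p := by
    rw [inv_pow, mul_assoc, inv_mul_cancel₀ hh₀p, mul_one]
  have hu0 : y * h₀⁻¹ ^ p ≠ 0 := mul_ne_zero hy (pow_ne_zero _ (inv_ne_zero hh₀))
  have huV : y * h₀⁻¹ ^ p ∈ V := V.mul_mem hyV (V.pow_mem hh₀V' _)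
  have huV' : (y * h₀⁻¹ ^ p)⁻¹ ∈ V := by
    have : (y * h₀⁻¹ ^ p)⁻¹ = y⁻¹ * h₀ ^ p := by
      rw [mul_inv, inv_pow, inv_inv]
    rw [this]
    exact V.mul_mem hyV' (V.pow_mem hh₀V _)
  obtain ⟨-, H⟩ := hIC F p y V h₀ (y * h₀⁻¹ ^ p) ζ hp hirr hpF hpV hζV hζ hcl hh₀ hu0 huV huV' hu
  have hpV2 : (p : F) ∈ V := natCast_mem V p
  constructor
  · intro hint
    rw [e_egmainTF2_sumE] at hint
    have h1 := (H (fun _ => ϖ⁻¹ * ((p : F))⁻¹)).1 hint ⟨0, hp.pos⟩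
    apply hϖV
    have : ϖ⁻¹ = (p : F) * (ϖ⁻¹ * ((p : F))⁻¹) := by
      field_simp
    rw [this]
    exact V.mul_mem hpV2 h1
  · intro hint
    rw [e_egmainTF2_sumOneSubE p hp.pos] at hint
    have h1 := (H (fun a : Fin p => if (a : ℕ) = 0 then ϖ⁻¹ * (1 - ((p : F))⁻¹)
      else -(ϖ⁻¹ * ((p : F))⁻¹))).1 hint ⟨1, hp.one_lt⟩
    simp only [one_ne_zero, if_false] at h1
    apply hϖV
    have : ϖ⁻¹ = -((p : F) * -(ϖ⁻¹ * ((p : F))⁻¹)) := by
      field_simp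
    rw [this]
    exact V.neg_mem (V.mul_mem hpV2 h1)

end

end Fermat.Agent.S18
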