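import Fermat.Agent.S18.EEGMainTDefs
set_option autoImplicit false

/-!
S18, block E — package EGMain (twin T), part (LG): local ⟹ global, abstract form.
-/

namespace Fermat.Agent.S18

noncomputable section

/-- `τ = t / h₀` is integral over `V`: it is a root of `X ^ p - y / h₀ ^ p`. -/
theorem e_egmainTLG_isInt_tau {F : Type} [Field F] (p : ℕ) (y h₀ : F) (V : Subring F)
    (hp : p.Prime) (hy : y ∈ V) (hh : h₀⁻¹ ∈ V) :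
    e_IsInt p y V (e_of p y h₀⁻¹ * e_rt p y) := by
  have hc : y * h₀⁻¹ ^ p ∈ V := V.mul_mem hy (V.pow_mem hh p)
  refine ⟨Polynomial.X ^ p - Polynomial.C (⟨y * h₀⁻¹ ^ p, hc⟩ : ↥V),
    Polynomial.monic_X_pow_sub_C _ hp.ne_zero, ?_⟩
  have ht : (e_rt p y) ^ p = e_of p y y := by
    have h := AdjoinRoot.eval₂_root (e_pol F p y)
    unfold e_pol at h
    rw [Polynomial.eval₂_sub, Polynomial.eval₂_pow, Polynomial.eval₂_X, Polynomial.eval₂_C,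
      sub_eq_zero] at h
    exact h
  rw [Polynomial.eval₂_sub, Polynomial.eval₂_pow, Polynomial.eval₂_X, Polynomial.eval₂_C,
    mul_pow, ht]
  simp only [RingHom.comp_apply, Subring.coe_subtype, map_mul, map_pow]
  ring

/-- Elements of `A` outside a maximal ideal containing `ϖ` are units of `V`. -/
theorem e_egmainTLG_inv_mem {F : Type} [Field F] (ϖ : F) (V A : Subring F)
    (hV : e_egmainT_VData V ϖ) (hAV : A ≤ V) (hϖ : ϖ ∈ A)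
    (hsat : ∀ x ∈ A, ϖ⁻¹ * x ∈ V → ϖ⁻¹ * x ∈ A)
    (m : Ideal ↥A) [m.IsMaximal] (hm : (⟨ϖ, hϖ⟩ : ↥A) ∈ m) (s : ↥A) (hs : s ∉ m) :
    ((s : F))⁻¹ ∈ V := by
  obtain ⟨-, hϖ0, -, hnu⟩ := hV
  by_contra hcon
  have h1 : ϖ⁻¹ * (s : F) ∈ V := hnu _ (hAV s.2) hcon
  have h2 : ϖ⁻¹ * (s : F) ∈ A := hsat _ s.2 h1
  apply hs
  have : s = (⟨ϖ, hϖ⟩ : ↥A) * ⟨ϖ⁻¹ * (s : F), h2⟩ := by
    apply Subtype.ext
    simp only [Subring.coe_mul]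
    field_simp
  rw [this]
  exact m.mul_mem_right _ hm

/-- `locSub A m ≤ V`. -/
theorem e_egmainTLG_locSub_le {F : Type} [Field F] (ϖ : F) (V A : Subring F)
    (hV : e_egmainT_VData V ϖ) (hAV : A ≤ V) (hϖ : ϖ ∈ A)
    (hsat : ∀ x ∈ A, ϖ⁻¹ * x ∈ V → ϖ⁻¹ * x ∈ A)
    (m : Ideal ↥A) [m.IsMaximal] (hm : (⟨ϖ, hϖ⟩ : ↥A) ∈ m) :
    locSub A m ≤ V := by
  rintro x ⟨a, s, hs, hx⟩
  have hsinv := e_egmainTLG_inv_mem ϖ V A hV hAV hϖ hsat m hm s hs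
  have hs0 : (s : F) ≠ 0 := by
    intro h0
    apply hs
    have : s = 0 := Subtype.ext h0
    rw [this]; exact m.zero_mem
  have : x = (a : F) * ((s : F))⁻¹ := by
    rw [← hx]; field_simp
  rw [this]
  exact V.mul_mem (hAV a.2) hsinv

/-- Saturation for `locSub A m`. -/
theorem e_egmainTLG_locSub_sat {F : Type} [Field F] (ϖ : F) (V A : Subring F)
    (hAV : A ≤ V) (hsat : ∀ x ∈ A, ϖ⁻¹ * x ∈ V → ϖ⁻¹ * x ∈ A)
    (m : Ideal ↥A) [m.IsMaximal] :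
    ∀ x ∈ locSub A m, ϖ⁻¹ * x ∈ V → ϖ⁻¹ * x ∈ locSub A m := by
  rintro x ⟨a, s, hs, hx⟩ hxV
  have h1 : ϖ⁻¹ * (a : F) ∈ V := by
    have : ϖ⁻¹ * (a : F) = (ϖ⁻¹ * x) * (s : F) := by rw [← hx]; ring
    rw [this]
    exact V.mul_mem hxV (hAV s.2)
  have h2 : ϖ⁻¹ * (a : F) ∈ A := hsat _ a.2 h1
  refine ⟨⟨ϖ⁻¹ * (a : F), h2⟩, s, hs, ?_⟩
  simp only
  rw [← hx]; ring

/-- `locSub A m` has fraction field `F` if `A` does. -/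
theorem e_egmainTLG_locSub_isFrac {F : Type} [Field F] (A : Subring F) (hfrac : e_IsFrac A)
    (m : Ideal ↥A) [m.IsMaximal] : e_IsFrac (locSub A m) := by
  intro z
  obtain ⟨a, b, hb, h⟩ := hfrac z
  refine ⟨⟨(a : F), le_locSub A m a.2⟩, ⟨(b : F), le_locSub A m b.2⟩, ?_, h⟩
  intro h0
  apply hb
  apply Subtype.ext
  have h1 := congrArg Subtype.val h0
  simpa using h1

/-- The local statement at a maximal ideal `m ∋ ϖ`. -/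
theorem e_egmainTLG_local (hFact : e_LSFactStatement) (hInt : e_LSIntStatement)
    (F : Type) [Field F] (p : ℕ) (y ϖ ζ h₀ : F) (V A : Subring F)
    (hp : p.Prime) (hirr : Irreducible (e_pol F p y)) (hp0 : (p : F) ≠ 0)
    (hpinv : ((p : F))⁻¹ ∈ A) (hζ : ζ ∈ A) (hζp : IsPrimitiveRoot ζ p)
    (hV : e_egmainT_VData V ϖ) (hAV : A ≤ V) (hϖ : ϖ ∈ A)
    (hsat : ∀ x ∈ A, ϖ⁻¹ * x ∈ V → ϖ⁻¹ * x ∈ A)
    (hnoeth : IsNoetherianRing ↥A) (hfrac : e_IsFrac A)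
    (hDVR : ∀ (m : Ideal ↥A) [m.IsMaximal], (⟨ϖ, hϖ⟩ : ↥A) ∈ m →
      IsDVRQuot (Localization.AtPrime m) (algebraMap ↥A (Localization.AtPrime m) ⟨ϖ, hϖ⟩))
    (hy0 : y ≠ 0) (hyV : y ∈ V) (hyV' : y⁻¹ ∈ V)
    (hH2 : ∀ O : ValuationSubring F, A ≤ O.toSubring → ϖ⁻¹ ∈ O → O ≠ ⊤ →
      IsPrincipalIdealRing ↥O → ∃ z : F, z ≠ 0 ∧ y * z ^ p ∈ O ∧ (y * z ^ p)⁻¹ ∈ O)
    (hh0 : h₀ ≠ 0) (hhV : h₀ ∈ V) (hhV' : h₀⁻¹ ∈ V) (hcong : ϖ⁻¹ * (y * h₀⁻¹ ^ p - 1) ∈ V)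
    (m : Ideal ↥A) [m.IsMaximal] (hm : (⟨ϖ, hϖ⟩ : ↥A) ∈ m) :
    (∀ z : e_Fp F p y, e_IsInt p y (locSub A m) z → e_IsInt p y V (e_of p y ϖ⁻¹ * z) →
      e_IsInt p y (locSub A m) (e_of p y ϖ⁻¹ * z)) ∧
    (∃ b : e_Fp F p y, e_IsInt p y (locSub A m) b ∧
      e_IsInt p y V (e_of p y ϖ⁻¹ * (e_of p y h₀⁻¹ * e_rt p y - b))) := by
  have hRV : locSub A m ≤ V := e_egmainTLG_locSub_le ϖ V A hV hAV hϖ hsat m hm
  have hϖR : ϖ ∈ locSub A m := le_locSub A m hϖ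
  have hsatR := e_egmainTLG_locSub_sat ϖ V A hAV hsat m
  have hdvr : IsDVRQuot ↥(locSub A m) (⟨ϖ, hϖR⟩ : ↥(locSub A m)) :=
    (locSubB_main F A m ⟨ϖ, hϖ⟩ hϖR).1 (hDVR m hm)
  obtain ⟨hval, hϖ0, hϖV, hnu⟩ := hV
  obtain ⟨hic, hfac, hden⟩ := hFact F p y ϖ V (locSub A m) hp hy0 hval hϖ0 hϖV hnu hRV hϖR hsatR
    (locSubB_isLocalRing A m) (locSubB_isNoetherianRing A m)
    (e_egmainTLG_locSub_isFrac A hfrac m) hdvr hyV hyV'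
    (fun O hO => hH2 O (le_trans (le_locSub A m) hO))
  exact hInt F p y ϖ ζ h₀ V (locSub A m) hp hirr hp0 (le_locSub A m hpinv) (le_locSub A m hζ) hζp
    hval hϖ0 hϖV hnu hRV hϖR hsatR hdvr hic hfac hden hh0 hhV hhV' hcong

/-- (LG) Local ⟹ global, abstract form. -/
theorem e_egmainTLG_main :
    e_LSFactStatement → e_LSIntStatement → e_GlobalStatement → e_egmainT_LGStatement := by
  intro hFact hInt hGlob F _ p y ϖ ζ h₀ V A hp hirr hp0 hpinv hζ hζp hV hAV hϖ hsat hnoeth hfrac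
    hDVR hy0 hyV hyV' hH2 hh0 hhV hhV' hcong
  refine hGlob F p y ϖ V A (e_of p y h₀⁻¹ * e_rt p y) hAV hV.2.1 hϖ
    (e_egmainTLG_isInt_tau p y h₀ V hp hyV hhV') ?_
  intro m _ hm
  exact e_egmainTLG_local hFact hInt F p y ϖ ζ h₀ V A hp hirr hp0 hpinv hζ hζp hV hAV hϖ hsat
    hnoeth hfrac hDVR hy0 hyV hyV' hH2 hh0 hhV hhV' hcong m hm

end

end Fermat.Agent.S18
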