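/-
S18, block E — package EGMain (twin T): the ENDGAME (plan §4, E6–E9) in the concrete setting,
assembled from the parts `EEGMainT{A,BAlt,C,LG,E2,F2,F1,Asm}.lean`.  Prefix `e_egmainT_`.
-/
import Fermat.Agent.S18.EEGMainTA
import Fermat.Agent.S18.EEGMainTBAlt
import Fermat.Agent.S18.EEGMainTC
import Fermat.Agent.S18.EEGMainTLG
import Fermat.Agent.S18.EEGMainTE2
import Fermat.Agent.S18.EEGMainTF2
import Fermat.Agent.S18.EEGMainTF1
import Fermat.Agent.S18.EEGMainTAsm

set_option autoImplicit false

namespace Fermat.Agent.S18

/-- (Endgame) from the frozen statements of the other packages. -/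
theorem e_egmainT_main : GaussStatement → ChartGaussStatement → FinLStatement →
    e_IntClStatement → e_LSFactStatement → e_LSIntStatement → e_GlobalStatement →
    e_IntFinStatement → e_H1GenStatement → e_CapStatement → e_ConnStatement →
    e_EndgameStatement :=
  fun hGauss hCG hFinL hIntCl hLSFact hLSInt hGlobal hIntFin hH1 hCap hConn =>
    e_egmainT_assemble (e_egmainTA_main hGauss) (e_egmainT_balt_main hFinL hIntFin) e_egmainTC_main
      (e_egmainTLG_main hLSFact hLSInt hGlobal) (e_egmainTE2_main hIntFin)
      (e_egmainTF2_main hIntCl) (e_egmainT_F1_main hConn hH1) hCG hCap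

end Fermat.Agent.S18
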