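/-
S18, block E — package Global: local-to-global for integral closures by denominator ideals.
Deliverable: `e_global_main : e_GlobalStatement`.
-/
import Fermat.Agent.S18.EInterfaces4

set_option autoImplicit false

open Polynomial

namespace Fermat.Agent.S18

section

variable {F S : Type} [Field F] [CommRing S] (φ : F →+* S)

/-- Integrality over a subring is monotone in the subring. -/
theorem e_global_mono {B B' : Subring F} (h : B ≤ B') {z : S}
    (hz : (φ.comp B.subtype).IsIntegralElem z) : (φ.comp B'.subtype).IsIntegralElem z := by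
  obtain ⟨P, hP, hPz⟩ := hz
  refine ⟨P.map (Subring.inclusion h), hP.map _, ?_⟩
  rw [Polynomial.eval₂_map]
  exact hPz

/-- Elements of the image of the subring are integral. -/
theorem e_global_of_mem {B : Subring F} {c : F} (hc : c ∈ B) :
    (φ.comp B.subtype).IsIntegralElem (φ c) :=
  (φ.comp B.subtype).isIntegralElem_map (x := ⟨c, hc⟩)

/-- Common denominators for finitely many elements of `locSub A m`. -/
theorem e_global_denom (A : Subring F) (m : Ideal ↥A) [hm : m.IsPrime] (t : Finset F)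
    (ht : ∀ c ∈ t, c ∈ locSub A m) :
    ∃ s : ↥A, s ∉ m ∧ ∀ c ∈ t, c * (s : F) ∈ A := by
  classical
  induction t using Finset.induction_on with
  | empty => exact ⟨1, fun h => hm.ne_top ((Ideal.eq_top_iff_one m).2 h), by simp⟩
  | insert c t hc ih =>
    obtain ⟨s, hs, hst⟩ := ih (fun c hc => ht c (Finset.mem_insert_of_mem hc))
    obtain ⟨a, s', hs', h⟩ := ht c (Finset.mem_insert_self _ _)
    refine ⟨s' * s, fun hmem => (hm.mem_or_mem hmem).elim hs' hs, ?_⟩
    intro d hd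
    rcases Finset.mem_insert.1 hd with rfl | hd
    · push_cast
      rw [← mul_assoc, h]
      exact A.mul_mem a.2 s.2
    · have := hst d hd
      push_cast
      rw [mul_left_comm]
      exact A.mul_mem s'.2 this

/-- (D) Clearing denominators. -/
theorem e_global_clear (A : Subring F) (m : Ideal ↥A) [hm : m.IsPrime] {z : S}
    (hz : (φ.comp (locSub A m).subtype).IsIntegralElem z) :
    ∃ s : ↥A, s ∉ m ∧ (φ.comp A.subtype).IsIntegralElem (φ (s : F) * z) := by
  classical
  obtain ⟨P, hP, hPz⟩ := hz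
  obtain ⟨s, hs, hst⟩ := e_global_denom A m
    ((Finset.range P.natDegree).image (fun i => ((P.coeff i : ↥(locSub A m)) : F))) (by
      intro c hc
      obtain ⟨i, -, rfl⟩ := Finset.mem_image.1 hc
      exact (P.coeff i).2)
  refine ⟨s, hs, ?_⟩
  set s' : ↥(locSub A m) := ⟨(s : F), le_locSub A m s.2⟩ with hs'
  have hQ : (scaleRoots P s') ∈ Polynomial.lifts (Subring.inclusion (le_locSub A m)) := by
    rw [Polynomial.lifts_iff_coeff_lifts]
    intro n
    rw [coeff_scaleRoots]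
    rcases lt_trichotomy n P.natDegree with hn | hn | hn
    · have h1 : ((P.coeff n : ↥(locSub A m)) : F) * (s : F) ∈ A :=
        hst _ (Finset.mem_image.2 ⟨n, Finset.mem_range.2 hn, rfl⟩)
      obtain ⟨k, hk⟩ : ∃ k, P.natDegree - n = k + 1 := ⟨P.natDegree - n - 1, by omega⟩
      refine ⟨⟨((P.coeff n : ↥(locSub A m)) : F) * (s : F) * (s : F) ^ k,
        A.mul_mem h1 (A.pow_mem s.2 k)⟩, ?_⟩
      apply Subtype.ext
      rw [hk, pow_succ']
      simp [hs', mul_assoc]
    · subst hn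
      refine ⟨1, ?_⟩
      have : P.coeff P.natDegree = 1 := hP
      simp [this]
    · refine ⟨0, ?_⟩
      simp [Polynomial.coeff_eq_zero_of_natDegree_lt hn]
  obtain ⟨Q, hQmap, -, hQmonic⟩ :=
    Polynomial.lifts_and_natDegree_eq_and_monic hQ ((monic_scaleRoots_iff s').2 hP)
  refine ⟨Q, hQmonic, ?_⟩
  have h1 : eval₂ (φ.comp A.subtype) (φ (s : F) * z) Q =
      eval₂ (φ.comp (locSub A m).subtype) (φ (s : F) * z)
        (Q.map (Subring.inclusion (le_locSub A m))) := by
    rw [eval₂_map]; rfl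
  rw [h1, hQmap]
  have h2 := scaleRoots_eval₂_mul (p := P) (φ.comp (locSub A m).subtype) z s'
  rw [hPz, mul_zero] at h2
  exact h2

/-- The denominator ideal for (GL1). -/
def e_global_ideal1 (A : Subring F) (w : S) : Ideal ↥A where
  carrier := {a | (φ.comp A.subtype).IsIntegralElem (φ (a : F) * w)}
  add_mem' := by
    intro a b ha hb
    show (φ.comp A.subtype).IsIntegralElem (φ ((a + b : ↥A) : F) * w)
    have := RingHom.IsIntegralElem.add _ ha hb
    simpa [add_mul] using this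
  zero_mem' := by
    show (φ.comp A.subtype).IsIntegralElem (φ ((0 : ↥A) : F) * w)
    simpa using (φ.comp A.subtype).isIntegralElem_zero
  smul_mem' := by
    intro c a ha
    show (φ.comp A.subtype).IsIntegralElem (φ ((c * a : ↥A) : F) * w)
    have := RingHom.IsIntegralElem.mul _ (e_global_of_mem φ c.2) ha
    simpa [mul_assoc] using this

/-- The denominator ideal for (GL2). -/
def e_global_ideal2 (V A : Subring F) (hAV : A ≤ V) (ϖ : F) (x₀ : S) : Ideal ↥A where
  carrier := {a | ∃ b : S, (φ.comp A.subtype).IsIntegralElem b ∧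
    (φ.comp V.subtype).IsIntegralElem (φ ϖ⁻¹ * (φ (a : F) * x₀ - b))}
  add_mem' := by
    rintro a a' ⟨b, hb, hbV⟩ ⟨b', hb', hbV'⟩
    refine ⟨b + b', RingHom.IsIntegralElem.add _ hb hb', ?_⟩
    have := RingHom.IsIntegralElem.add _ hbV hbV'
    have e : φ ϖ⁻¹ * (φ ((a + a' : ↥A) : F) * x₀ - (b + b')) =
        φ ϖ⁻¹ * (φ (a : F) * x₀ - b) + φ ϖ⁻¹ * (φ (a' : F) * x₀ - b') := by
      push_cast
      rw [map_add]
      ring
    rw [e]
    exact this
  zero_mem' := by
    refine ⟨0, (φ.comp A.subtype).isIntegralElem_zero, ?_⟩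
    simpa using (φ.comp V.subtype).isIntegralElem_zero
  smul_mem' := by
    rintro c a ⟨b, hb, hbV⟩
    refine ⟨φ (c : F) * b, RingHom.IsIntegralElem.mul _ (e_global_of_mem φ c.2) hb, ?_⟩
    have := RingHom.IsIntegralElem.mul _ (e_global_of_mem φ (hAV c.2)) hbV
    have e : φ ϖ⁻¹ * (φ ((c • a : ↥A) : F) * x₀ - φ (c : F) * b) =
        φ (c : F) * (φ ϖ⁻¹ * (φ (a : F) * x₀ - b)) := by
      rw [smul_eq_mul]
      push_cast
      rw [map_mul]
      ring
    rw [e]
    exact this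

/-- The abstract form of the (Global) statement. -/
theorem e_global_abstract (ϖ : F) (V A : Subring F) (x₀ : S)
    (hAV : A ≤ V) (hϖ0 : ϖ ≠ 0) (hϖ : ϖ ∈ A) (hx₀ : (φ.comp V.subtype).IsIntegralElem x₀)
    (hloc : ∀ (m : Ideal ↥A) [m.IsMaximal], (⟨ϖ, hϖ⟩ : ↥A) ∈ m →
      (∀ z : S, (φ.comp (locSub A m).subtype).IsIntegralElem z →
        (φ.comp V.subtype).IsIntegralElem (φ ϖ⁻¹ * z) →
        (φ.comp (locSub A m).subtype).IsIntegralElem (φ ϖ⁻¹ * z)) ∧
      (∃ b : S, (φ.comp (locSub A m).subtype).IsIntegralElem b ∧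
        (φ.comp V.subtype).IsIntegralElem (φ ϖ⁻¹ * (x₀ - b)))) :
    (∀ z : S, (φ.comp A.subtype).IsIntegralElem z →
      (φ.comp V.subtype).IsIntegralElem (φ ϖ⁻¹ * z) →
      (φ.comp A.subtype).IsIntegralElem (φ ϖ⁻¹ * z)) ∧
    (∃ b : S, (φ.comp A.subtype).IsIntegralElem b ∧
      (φ.comp V.subtype).IsIntegralElem (φ ϖ⁻¹ * (x₀ - b))) := by
  have hinv : φ ϖ * φ ϖ⁻¹ = 1 := by
    rw [← map_mul, mul_inv_cancel₀ hϖ0, map_one]
  constructor
  · intro z hz hzV
    by_contra hcon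
    have hne : e_global_ideal1 φ A (φ ϖ⁻¹ * z) ≠ ⊤ := by
      intro htop
      have h1 : (1 : ↥A) ∈ e_global_ideal1 φ A (φ ϖ⁻¹ * z) := htop ▸ Submodule.mem_top
      apply hcon
      have h1' : (φ.comp A.subtype).IsIntegralElem (φ ((1 : ↥A) : F) * (φ ϖ⁻¹ * z)) := h1
      simpa using h1'
    obtain ⟨m, hm, hIm⟩ := Ideal.exists_le_maximal _ hne
    have hϖm : (⟨ϖ, hϖ⟩ : ↥A) ∈ m := by
      apply hIm
      show (φ.comp A.subtype).IsIntegralElem (φ ϖ * (φ ϖ⁻¹ * z))
      rw [← mul_assoc, hinv, one_mul]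
      exact hz
    obtain ⟨hLS1, -⟩ := hloc m hϖm
    obtain ⟨s, hs, hsint⟩ := e_global_clear φ A m
      (hLS1 z (e_global_mono φ (le_locSub A m) hz) hzV)
    exact hs (hIm hsint)
  · by_contra hcon
    have hne : e_global_ideal2 φ V A hAV ϖ x₀ ≠ ⊤ := by
      intro htop
      have h1 : (1 : ↥A) ∈ e_global_ideal2 φ V A hAV ϖ x₀ := htop ▸ Submodule.mem_top
      apply hcon
      obtain ⟨b, hb, hbV⟩ := h1
      refine ⟨b, hb, ?_⟩
      simpa using hbV
    obtain ⟨m, hm, hIm⟩ := Ideal.exists_le_maximal _ hne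
    have hϖm : (⟨ϖ, hϖ⟩ : ↥A) ∈ m := by
      apply hIm
      refine ⟨0, (φ.comp A.subtype).isIntegralElem_zero, ?_⟩
      show (φ.comp V.subtype).IsIntegralElem (φ ϖ⁻¹ * (φ ϖ * x₀ - 0))
      rw [sub_zero, ← mul_assoc, mul_comm (φ ϖ⁻¹), hinv, one_mul]
      exact hx₀
    obtain ⟨-, b, hb, hbV⟩ := hloc m hϖm
    obtain ⟨s, hs, hsint⟩ := e_global_clear φ A m hb
    apply hs
    apply hIm
    refine ⟨φ (s : F) * b, hsint, ?_⟩
    have := RingHom.IsIntegralElem.mul _ (e_global_of_mem φ (hAV s.2)) hbV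
    have e : φ ϖ⁻¹ * (φ (s : F) * x₀ - φ (s : F) * b) =
        φ (s : F) * (φ ϖ⁻¹ * (x₀ - b)) := by ring
    rw [e]
    exact this

end

/-- (Global) Local-to-global by denominator ideals. -/
theorem e_global_main : e_GlobalStatement := by
  intro F _ p y ϖ V A x₀ hAV hϖ0 hϖ hx₀ hloc
  exact e_global_abstract (e_of p y) ϖ V A x₀ hAV hϖ0 hϖ hx₀ hloc

end Fermat.Agent.S18
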