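/-
S18, block E, package H1Gen: `B₁₂ = B₁[1/j]` and `B₁₂ = B₁ + B₂ + ∑ W₀ mᵢ`.

Everything is proved for an abstract ring homomorphism `φ : F →+* S` from a field to a commutative
ring and then specialised to `e_of p y : F →+* e_Fp F p y`.
-/
import Fermat.Agent.S18.EInterfaces4

set_option autoImplicit false

open Polynomial

namespace Fermat.Agent.S18

section e_h1gen_abstract

variable {F S : Type} [Field F] [CommRing S] (φ : F →+* S)

/-- `z ∈ S` is integral over the subring `A` of `F` (via `φ`). -/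
def e_h1gen_Int (A : Subring F) (z : S) : Prop := (φ.comp A.subtype).IsIntegralElem z

theorem e_h1gen_int_iff (A : Subring F) (z : S) :
    e_h1gen_Int φ A z ↔ ∃ P : F[X], P.Monic ∧ (∀ i, P.coeff i ∈ A) ∧ P.eval₂ φ z = 0 := by
  constructor
  · rintro ⟨q, hq, h0⟩
    refine ⟨q.map A.subtype, hq.map _, fun i => ?_, ?_⟩
    · rw [coeff_map]; exact (q.coeff i).2
    · rw [eval₂_map]; exact h0
  · rintro ⟨P, hP, hc, h0⟩
    have hsub : (↑P.coeffs : Set F) ⊆ A := by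
      intro c hc'
      obtain ⟨n, -, rfl⟩ := mem_coeffs_iff.mp hc'
      exact hc n
    refine ⟨P.toSubring A hsub, (monic_toSubring P A hsub).mpr hP, ?_⟩
    rw [← eval₂_map, map_toSubring]; exact h0

theorem e_h1gen_int_add {A : Subring F} {z z' : S} (h : e_h1gen_Int φ A z)
    (h' : e_h1gen_Int φ A z') : e_h1gen_Int φ A (z + z') :=
  RingHom.IsIntegralElem.add _ h h'

theorem e_h1gen_int_mul {A : Subring F} {z z' : S} (h : e_h1gen_Int φ A z)
    (h' : e_h1gen_Int φ A z') : e_h1gen_Int φ A (z * z') :=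
  RingHom.IsIntegralElem.mul _ h h'

theorem e_h1gen_int_neg {A : Subring F} {z : S} (h : e_h1gen_Int φ A z) :
    e_h1gen_Int φ A (-z) :=
  RingHom.IsIntegralElem.neg _ h

theorem e_h1gen_int_of_mem {A : Subring F} {a : F} (ha : a ∈ A) : e_h1gen_Int φ A (φ a) :=
  (φ.comp A.subtype).isIntegralElem_map (x := ⟨a, ha⟩)

theorem e_h1gen_int_zero (A : Subring F) : e_h1gen_Int φ A (0 : S) := by
  simpa using e_h1gen_int_of_mem φ (zero_mem A)

omit [CommRing S] in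
/-- If `u ∈ B` and high powers of `u` multiply every element of `s` into `B`, the same holds for
every element of the subring generated by `s`. -/
theorem e_h1gen_shift (B : Subring F) (u : F) (hu : u ∈ B) (s : Set F)
    (hs : ∀ x ∈ s, ∃ m : ℕ, ∀ m' ≥ m, u ^ m' * x ∈ B) :
    ∀ x ∈ Subring.closure s, ∃ m : ℕ, ∀ m' ≥ m, u ^ m' * x ∈ B := by
  intro x hx
  induction hx using Subring.closure_induction with
  | mem x hx => exact hs x hx
  | zero => exact ⟨0, fun m' _ => by simp⟩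
  | one => exact ⟨0, fun m' _ => by simpa using pow_mem hu m'⟩
  | add x y _ _ hx hy =>
    obtain ⟨m1, h1⟩ := hx
    obtain ⟨m2, h2⟩ := hy
    exact ⟨max m1 m2, fun m' hm' => by
      rw [mul_add]
      exact add_mem (h1 m' (le_of_max_le_left hm')) (h2 m' (le_of_max_le_right hm'))⟩
  | neg x _ hx =>
    obtain ⟨m, h⟩ := hx
    exact ⟨m, fun m' hm' => by rw [mul_neg]; exact neg_mem (h m' hm')⟩
  | mul x y _ _ hx hy =>
    obtain ⟨m1, h1⟩ := hx
    obtain ⟨m2, h2⟩ := hy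
    refine ⟨m1 + m2, fun m' hm' => ?_⟩
    obtain ⟨k, rfl⟩ := Nat.exists_eq_add_of_le (le_trans (Nat.le_add_right m1 m2) hm')
    have hk : m2 ≤ k := by omega
    have : u ^ (m1 + k) * (x * y) = (u ^ m1 * x) * (u ^ k * y) := by rw [pow_add]; ring
    rw [this]
    exact mul_mem (h1 m1 le_rfl) (h2 k hk)

/-- Scaling: if high powers of `u` multiply `A` into `A'`, then for `z` integral over `A` the
elements `φ u ^ n * z` are integral over `A'` for all large `n`. -/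
theorem e_h1gen_scale (A A' : Subring F) (u : F)
    (hshift : ∀ x ∈ A, ∃ m : ℕ, ∀ m' ≥ m, u ^ m' * x ∈ A') (z : S) (hz : e_h1gen_Int φ A z) :
    ∃ m : ℕ, ∀ n ≥ m, e_h1gen_Int φ A' (φ u ^ n * z) := by
  obtain ⟨P, hP, hc, h0⟩ := (e_h1gen_int_iff φ A z).mp hz
  choose mi hmi using fun i => hshift (P.coeff i) (hc i)
  refine ⟨(Finset.range P.natDegree).sup mi, fun n hn => ?_⟩
  rw [e_h1gen_int_iff]
  refine ⟨scaleRoots P (u ^ n), (monic_scaleRoots_iff _).mpr hP, fun i => ?_, ?_⟩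
  · rw [coeff_scaleRoots]
    rcases lt_trichotomy i P.natDegree with hi | hi | hi
    · rw [← pow_mul, mul_comm]
      apply hmi
      have h1 : mi i ≤ n := le_trans (Finset.le_sup (Finset.mem_range.mpr hi)) hn
      have h2 : 1 ≤ P.natDegree - i := by omega
      calc mi i ≤ n := h1
        _ = n * 1 := (mul_one n).symm
        _ ≤ n * (P.natDegree - i) := Nat.mul_le_mul_left n h2
    · subst hi
      rw [hP.coeff_natDegree, Nat.sub_self, pow_zero, mul_one]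
      exact one_mem _
    · rw [coeff_eq_zero_of_natDegree_lt hi, zero_mul]
      exact zero_mem _
  · rw [← map_pow, scaleRoots_eval₂_mul, h0, mul_zero]

/-- The set `B₁ + B₂ + ∑ W₀ mᵢ`. -/
def e_h1gen_T (A₁ A₂ W₀ : Subring F) {r : ℕ} (m : Fin r → S) (z : S) : Prop :=
  ∃ (b₁ b₂ : S) (w : Fin r → F), e_h1gen_Int φ A₁ b₁ ∧ e_h1gen_Int φ A₂ b₂ ∧ (∀ i, w i ∈ W₀) ∧
    z = b₁ + b₂ + ∑ i, φ (w i) * m i

theorem e_h1gen_T_zero (A₁ A₂ W₀ : Subring F) {r : ℕ} (m : Fin r → S) :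
    e_h1gen_T φ A₁ A₂ W₀ m 0 :=
  ⟨0, 0, fun _ => 0, e_h1gen_int_zero φ A₁, e_h1gen_int_zero φ A₂, fun _ => zero_mem _, by simp⟩

theorem e_h1gen_T_add {A₁ A₂ W₀ : Subring F} {r : ℕ} {m : Fin r → S} {z z' : S}
    (h : e_h1gen_T φ A₁ A₂ W₀ m z) (h' : e_h1gen_T φ A₁ A₂ W₀ m z') :
    e_h1gen_T φ A₁ A₂ W₀ m (z + z') := by
  obtain ⟨b₁, b₂, w, h1, h2, hw, rfl⟩ := h
  obtain ⟨b₁', b₂', w', h1', h2', hw', rfl⟩ := h'
  refine ⟨b₁ + b₁', b₂ + b₂', fun i => w i + w' i, e_h1gen_int_add φ h1 h1',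
    e_h1gen_int_add φ h2 h2', fun i => add_mem (hw i) (hw' i), ?_⟩
  simp only [map_add, add_mul, Finset.sum_add_distrib]
  ring

theorem e_h1gen_T_neg {A₁ A₂ W₀ : Subring F} {r : ℕ} {m : Fin r → S} {z : S}
    (h : e_h1gen_T φ A₁ A₂ W₀ m z) : e_h1gen_T φ A₁ A₂ W₀ m (-z) := by
  obtain ⟨b₁, b₂, w, h1, h2, hw, rfl⟩ := h
  refine ⟨-b₁, -b₂, fun i => -w i, e_h1gen_int_neg φ h1, e_h1gen_int_neg φ h2,
    fun i => neg_mem (hw i), ?_⟩
  simp only [map_neg, neg_mul, Finset.sum_neg_distrib]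
  ring

theorem e_h1gen_T_sum {A₁ A₂ W₀ : Subring F} {r : ℕ} {m : Fin r → S} {ι : Type}
    (s : Finset ι) (f : ι → S) (h : ∀ i ∈ s, e_h1gen_T φ A₁ A₂ W₀ m (f i)) :
    e_h1gen_T φ A₁ A₂ W₀ m (∑ i ∈ s, f i) :=
  Finset.sum_induction f (e_h1gen_T φ A₁ A₂ W₀ m) (fun _ _ => e_h1gen_T_add φ)
    (e_h1gen_T_zero φ A₁ A₂ W₀ m) h

theorem e_h1gen_T_of_int1 {A₁ : Subring F} (A₂ W₀ : Subring F) {r : ℕ} (m : Fin r → S) {z : S}
    (h : e_h1gen_Int φ A₁ z) : e_h1gen_T φ A₁ A₂ W₀ m z :=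
  ⟨z, 0, fun _ => 0, h, e_h1gen_int_zero φ A₂, fun _ => zero_mem _, by simp⟩

theorem e_h1gen_T_of_int2 (A₁ : Subring F) {A₂ : Subring F} (W₀ : Subring F) {r : ℕ}
    (m : Fin r → S) {z : S} (h : e_h1gen_Int φ A₂ z) : e_h1gen_T φ A₁ A₂ W₀ m z :=
  ⟨0, z, fun _ => 0, e_h1gen_int_zero φ A₁, h, fun _ => zero_mem _, by simp⟩

theorem e_h1gen_T_of_gen (A₁ A₂ : Subring F) {W₀ : Subring F} {r : ℕ} (m : Fin r → S) {w : F}
    (hw : w ∈ W₀) (i : Fin r) : e_h1gen_T φ A₁ A₂ W₀ m (φ w * m i) := by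
  classical
  refine ⟨0, 0, fun i' => if i' = i then w else 0, e_h1gen_int_zero φ A₁, e_h1gen_int_zero φ A₂,
    fun i' => ?_, ?_⟩
  · by_cases h : i' = i
    · simp only [h, if_true]; exact hw
    · simp only [h, if_false]; exact zero_mem _
  · rw [zero_add, zero_add, Finset.sum_eq_single i]
    · simp
    · intro b _ hb; simp [hb]
    · intro h; exact absurd (Finset.mem_univ i) h

/-- Abstract form of (H1Gen). -/
theorem e_h1gen_abs (W₀ : Subring F) (j : F) (hj : j ≠ 0)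
    (hfin : ∃ (r : ℕ) (c : Fin r → S),
      (∀ i, e_h1gen_Int φ (Subring.closure ((W₀ : Set F) ∪ {j})) (c i)) ∧
      ∀ z : S, e_h1gen_Int φ (Subring.closure ((W₀ : Set F) ∪ {j})) z →
        ∃ a : Fin r → F, (∀ i, a i ∈ Subring.closure ((W₀ : Set F) ∪ {j})) ∧
          z = ∑ i, φ (a i) * c i) :
    (∀ z : S, e_h1gen_Int φ (Subring.closure ((W₀ : Set F) ∪ {j, j⁻¹})) z →
      ∃ n : ℕ, e_h1gen_Int φ (Subring.closure ((W₀ : Set F) ∪ {j})) (φ j ^ n * z)) ∧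
    (∃ (r : ℕ) (m : Fin r → S),
      ∀ z : S, e_h1gen_Int φ (Subring.closure ((W₀ : Set F) ∪ {j, j⁻¹})) z →
        ∃ (b₁ b₂ : S) (w : Fin r → F),
          e_h1gen_Int φ (Subring.closure ((W₀ : Set F) ∪ {j})) b₁ ∧
          e_h1gen_Int φ (Subring.closure ((W₀ : Set F) ∪ {j⁻¹})) b₂ ∧ (∀ i, w i ∈ W₀) ∧
          z = b₁ + b₂ + ∑ i, φ (w i) * m i) := by
  have hW1 : ∀ w ∈ W₀, w ∈ Subring.closure ((W₀ : Set F) ∪ {j}) :=
    fun w hw => Subring.subset_closure (Or.inl hw)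
  have hj1 : j ∈ Subring.closure ((W₀ : Set F) ∪ {j}) := Subring.subset_closure (Or.inr rfl)
  have hW2 : ∀ w ∈ W₀, w ∈ Subring.closure ((W₀ : Set F) ∪ {j⁻¹}) :=
    fun w hw => Subring.subset_closure (Or.inl hw)
  have hj2 : j⁻¹ ∈ Subring.closure ((W₀ : Set F) ∪ {j⁻¹}) := Subring.subset_closure (Or.inr rfl)
  have hji : j⁻¹ ≠ 0 := inv_ne_zero hj
  -- high powers of `j` multiply `W₀[j, j⁻¹]` into `W₀[j]`
  have hshift12 : ∀ x ∈ Subring.closure ((W₀ : Set F) ∪ {j, j⁻¹}),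
      ∃ m : ℕ, ∀ m' ≥ m, j ^ m' * x ∈ Subring.closure ((W₀ : Set F) ∪ {j}) := by
    refine e_h1gen_shift _ j hj1 _ ?_
    rintro x (hx | hx | hx)
    · exact ⟨0, fun m' _ => mul_mem (pow_mem hj1 m') (hW1 x hx)⟩
    · rw [hx]
      exact ⟨0, fun m' _ => mul_mem (pow_mem hj1 m') hj1⟩
    · rw [Set.mem_singleton_iff.mp hx]
      refine ⟨1, fun m' hm' => ?_⟩
      obtain ⟨k, rfl⟩ := Nat.exists_eq_add_of_le hm'
      rw [add_comm, pow_succ, mul_assoc, mul_inv_cancel₀ hj, mul_one]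
      exact pow_mem hj1 k
  -- high powers of `j⁻¹` multiply `W₀[j]` into `W₀[j⁻¹]`
  have hshift1_2 : ∀ x ∈ Subring.closure ((W₀ : Set F) ∪ {j}),
      ∃ m : ℕ, ∀ m' ≥ m, j⁻¹ ^ m' * x ∈ Subring.closure ((W₀ : Set F) ∪ {j⁻¹}) := by
    refine e_h1gen_shift _ j⁻¹ hj2 _ ?_
    rintro x (hx | hx)
    · exact ⟨0, fun m' _ => mul_mem (pow_mem hj2 m') (hW2 x hx)⟩
    · rw [Set.mem_singleton_iff.mp hx]
      refine ⟨1, fun m' hm' => ?_⟩
      obtain ⟨k, rfl⟩ := Nat.exists_eq_add_of_le hm'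
      rw [add_comm, pow_succ, mul_assoc, inv_mul_cancel₀ hj, mul_one]
      exact pow_mem hj2 k
  have hloc : ∀ z : S, e_h1gen_Int φ (Subring.closure ((W₀ : Set F) ∪ {j, j⁻¹})) z →
      ∃ n : ℕ, e_h1gen_Int φ (Subring.closure ((W₀ : Set F) ∪ {j})) (φ j ^ n * z) := by
    intro z hz
    obtain ⟨m, hm⟩ := e_h1gen_scale φ _ _ j hshift12 z hz
    exact ⟨m, hm m le_rfl⟩
  refine ⟨hloc, ?_⟩
  obtain ⟨r, c, hc, hgen⟩ := hfin
  choose ni hni using fun i => e_h1gen_scale φ _ _ j⁻¹ hshift1_2 (c i) (hc i)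
  obtain ⟨n₀, hn₀⟩ : ∃ n₀ : ℕ, ∀ i,
      e_h1gen_Int φ (Subring.closure ((W₀ : Set F) ∪ {j⁻¹})) (φ j⁻¹ ^ n₀ * c i) :=
    ⟨Finset.univ.sup ni, fun i => hni i _ (Finset.le_sup (Finset.mem_univ i))⟩
  refine ⟨n₀ * r, fun idx => φ j⁻¹ ^ ((finProdFinEquiv.symm idx).1 : ℕ) *
    c (finProdFinEquiv.symm idx).2, ?_⟩
  set m : Fin (n₀ * r) → S := fun idx => φ j⁻¹ ^ ((finProdFinEquiv.symm idx).1 : ℕ) *
    c (finProdFinEquiv.symm idx).2 with hm
  change ∀ z : S, e_h1gen_Int φ (Subring.closure ((W₀ : Set F) ∪ {j, j⁻¹})) z →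
    e_h1gen_T φ (Subring.closure ((W₀ : Set F) ∪ {j})) (Subring.closure ((W₀ : Set F) ∪ {j⁻¹}))
      W₀ m z
  -- the monomial case
  have key : ∀ w ∈ W₀, ∀ (k n : ℕ) (i : Fin r),
      e_h1gen_T φ (Subring.closure ((W₀ : Set F) ∪ {j})) (Subring.closure ((W₀ : Set F) ∪ {j⁻¹}))
        W₀ m (φ (j⁻¹ ^ n * (w * j ^ k)) * c i) := by
    intro w hw k n i
    by_cases hkn : n ≤ k
    · obtain ⟨e, rfl⟩ := Nat.exists_eq_add_of_le hkn
      have h1 : j⁻¹ ^ n * (w * j ^ (n + e)) = w * j ^ e := by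
        rw [pow_add, inv_pow]; field_simp
      rw [h1]
      exact e_h1gen_T_of_int1 φ _ _ _
        (e_h1gen_int_mul φ (e_h1gen_int_of_mem φ (mul_mem (hW1 w hw) (pow_mem hj1 e))) (hc i))
    · obtain ⟨e, rfl⟩ := Nat.exists_eq_add_of_le (le_of_not_ge hkn)
      have h1 : j⁻¹ ^ (k + e) * (w * j ^ k) = w * j⁻¹ ^ e := by
        rw [pow_add, inv_pow, inv_pow]; field_simp
      rw [h1]
      by_cases he : n₀ ≤ e
      · obtain ⟨e', rfl⟩ := Nat.exists_eq_add_of_le he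
        have h2 : φ (w * j⁻¹ ^ (n₀ + e')) * c i = φ (w * j⁻¹ ^ e') * (φ j⁻¹ ^ n₀ * c i) := by
          rw [pow_add, map_mul, map_mul, map_mul, map_pow, map_pow]; ring
        rw [h2]
        exact e_h1gen_T_of_int2 φ _ _ _
          (e_h1gen_int_mul φ (e_h1gen_int_of_mem φ (mul_mem (hW2 w hw) (pow_mem hj2 e'))) (hn₀ i))
      · have he' : e < n₀ := not_le.mp he
        have h2 : φ (w * j⁻¹ ^ e) * c i = φ w * m (finProdFinEquiv (⟨e, he'⟩, i)) := by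
          rw [hm]
          simp only [Equiv.symm_apply_apply]
          rw [map_mul, map_pow, mul_assoc]
        rw [h2]
        exact e_h1gen_T_of_gen φ _ _ m hw _
  have hmon : ∀ x ∈ Submonoid.closure ((W₀ : Set F) ∪ {j}), ∃ w ∈ W₀, ∃ k : ℕ, x = w * j ^ k := by
    intro x hx
    induction hx using Submonoid.closure_induction with
    | mem x hx =>
      rcases hx with hx | hx
      · exact ⟨x, hx, 0, by simp⟩
      · exact ⟨1, one_mem _, 1, by rw [Set.mem_singleton_iff.mp hx]; simp⟩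
    | one => exact ⟨1, one_mem _, 0, by simp⟩
    | mul x y _ _ hx hy =>
      obtain ⟨w, hw, k, rfl⟩ := hx
      obtain ⟨w', hw', k', rfl⟩ := hy
      exact ⟨w * w', mul_mem hw hw', k + k', by rw [pow_add]; ring⟩
  have hall : ∀ x ∈ Subring.closure ((W₀ : Set F) ∪ {j}), ∀ (n : ℕ) (i : Fin r),
      e_h1gen_T φ (Subring.closure ((W₀ : Set F) ∪ {j})) (Subring.closure ((W₀ : Set F) ∪ {j⁻¹}))
        W₀ m (φ (j⁻¹ ^ n * x) * c i) := by
    intro x hx n i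
    rw [Subring.mem_closure_iff] at hx
    induction hx using AddSubgroup.closure_induction with
    | mem x hx =>
      obtain ⟨w, hw, k, rfl⟩ := hmon x hx
      exact key w hw k n i
    | zero =>
      rw [mul_zero, map_zero, zero_mul]
      exact e_h1gen_T_zero φ _ _ _ m
    | add x y _ _ hx hy =>
      rw [mul_add, map_add, add_mul]
      exact e_h1gen_T_add φ hx hy
    | neg x _ hx =>
      rw [mul_neg, map_neg, neg_mul]
      exact e_h1gen_T_neg φ hx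
  intro z hz
  obtain ⟨n, hn⟩ := hloc z hz
  obtain ⟨a, ha, hza⟩ := hgen _ hn
  have hz' : z = φ j⁻¹ ^ n * (φ j ^ n * z) := by
    rw [← mul_assoc, ← mul_pow, ← map_mul, inv_mul_cancel₀ hj, map_one, one_pow, one_mul]
  rw [hz', hza, Finset.mul_sum]
  refine e_h1gen_T_sum φ _ _ (fun i _ => ?_)
  rw [← mul_assoc, ← map_pow, ← map_mul]
  exact hall (a i) (ha i) n i

end e_h1gen_abstract

/-- (H1Gen): `B₁₂ = B₁[1/j]` and `B₁₂ = B₁ + B₂ + ∑ W₀ mᵢ`. -/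
theorem e_h1gen_main : e_H1GenStatement := by
  intro F _ p y W₀ j hj hfin
  exact e_h1gen_abs (e_of p y) W₀ j hj hfin

end Fermat.Agent.S18
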