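/-
S18, block E — package IntCl (twin T): Kummer integral closure, abstract.
`e_intclT_main : e_IntClStatement`.
-/
import Fermat.Agent.S18.EInterfaces4

set_option autoImplicit false

open Polynomial

namespace Fermat.Agent.S18

noncomputable section

theorem e_intclT_eval₂ {F S : Type} [Field F] [CommRing S] (g : F →+* S) (x : S) (p : ℕ) (y : F) :
    (e_pol F p y).eval₂ g x = x ^ p - g y := by
  simp [e_pol]

theorem e_intclT_monic {F : Type} [Field F] (p : ℕ) (y : F) (hp : p ≠ 0) : (e_pol F p y).Monic := by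
  unfold e_pol; exact monic_X_pow_sub_C y hp

theorem e_intclT_natDegree {F : Type} [Field F] (p : ℕ) (y : F) :
    (e_pol F p y).natDegree = p := by
  unfold e_pol; exact natDegree_X_pow_sub_C

theorem e_intclT_rt_pow {F : Type} [Field F] (p : ℕ) (y : F) : e_rt p y ^ p = e_of p y y := by
  have h := AdjoinRoot.eval₂_root (e_pol F p y)
  rw [e_intclT_eval₂] at h
  exact sub_eq_zero.mp h

theorem e_intclT_of_inj {F : Type} [Field F] (p : ℕ) (y : F) (hp : p ≠ 0) :
    Function.Injective (e_of p y) := by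
  apply AdjoinRoot.of.injective_of_degree_ne_zero
  rw [degree_eq_natDegree (e_intclT_monic p y hp).ne_zero, e_intclT_natDegree p y]
  exact_mod_cast hp

/-- The automorphism `t ↦ ξ t` for `ξ ^ p = 1`. -/
def e_intclT_sigma {F : Type} [Field F] (p : ℕ) (y ξ : F) (hξ : ξ ^ p = 1) :
    e_Fp F p y →+* e_Fp F p y :=
  AdjoinRoot.lift (e_of p y) (e_of p y ξ * e_rt p y) (by
    rw [e_intclT_eval₂, mul_pow, ← map_pow, hξ, map_one, one_mul, e_intclT_rt_pow, sub_self])

theorem e_intclT_sigma_of {F : Type} [Field F] (p : ℕ) (y ξ : F) (hξ : ξ ^ p = 1) (x : F) :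
    e_intclT_sigma p y ξ hξ (e_of p y x) = e_of p y x :=
  AdjoinRoot.lift_of _

theorem e_intclT_sigma_rt {F : Type} [Field F] (p : ℕ) (y ξ : F) (hξ : ξ ^ p = 1) :
    e_intclT_sigma p y ξ hξ (e_rt p y) = e_of p y ξ * e_rt p y :=
  AdjoinRoot.lift_root _

/-! ### Basic closure properties of `e_IsInt` -/

theorem e_intclT_isInt_of {F : Type} [Field F] (p : ℕ) (y : F) (R : Subring F) {x : F}
    (hx : x ∈ R) : e_IsInt p y R (e_of p y x) :=
  RingHom.isIntegralElem_map ((e_of p y).comp R.subtype) (x := ⟨x, hx⟩)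

theorem e_intclT_isInt_add {F : Type} [Field F] (p : ℕ) (y : F) (R : Subring F)
    {z w : e_Fp F p y} (hz : e_IsInt p y R z) (hw : e_IsInt p y R w) : e_IsInt p y R (z + w) :=
  RingHom.IsIntegralElem.add _ hz hw

theorem e_intclT_isInt_mul {F : Type} [Field F] (p : ℕ) (y : F) (R : Subring F)
    {z w : e_Fp F p y} (hz : e_IsInt p y R z) (hw : e_IsInt p y R w) : e_IsInt p y R (z * w) :=
  RingHom.IsIntegralElem.mul _ hz hw

theorem e_intclT_isInt_pow {F : Type} [Field F] (p : ℕ) (y : F) (R : Subring F)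
    {z : e_Fp F p y} (hz : e_IsInt p y R z) (n : ℕ) : e_IsInt p y R (z ^ n) := by
  induction n with
  | zero =>
    rw [pow_zero, ← map_one (e_of p y)]
    exact e_intclT_isInt_of p y R R.one_mem
  | succ n ih => rw [pow_succ]; exact e_intclT_isInt_mul p y R ih hz

theorem e_intclT_isInt_sum {F : Type} [Field F] (p : ℕ) (y : F) (R : Subring F) {ι : Type}
    (s : Finset ι) (f : ι → e_Fp F p y) (hf : ∀ i ∈ s, e_IsInt p y R (f i)) :
    e_IsInt p y R (∑ i ∈ s, f i) := by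
  refine Finset.sum_induction f (e_IsInt p y R) (fun _ _ => e_intclT_isInt_add p y R) ?_ hf
  rw [← map_zero (e_of p y)]
  exact e_intclT_isInt_of p y R R.zero_mem

theorem e_intclT_isInt_of_pow {F : Type} [Field F] (p : ℕ) (y : F) (R : Subring F)
    {z : e_Fp F p y} {n : ℕ} (hn : 0 < n) (hz : e_IsInt p y R (z ^ n)) : e_IsInt p y R z := by
  let _ : Algebra ↥R (e_Fp F p y) := ((e_of p y).comp R.subtype).toAlgebra
  have h1 : IsIntegral ↥R (z ^ n) := hz
  exact IsIntegral.of_pow hn h1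

theorem e_intclT_isInt_sigma {F : Type} [Field F] (p : ℕ) (y ξ : F) (hξ : ξ ^ p = 1)
    (R : Subring F) {z : e_Fp F p y} (hz : e_IsInt p y R z) :
    e_IsInt p y R (e_intclT_sigma p y ξ hξ z) := by
  obtain ⟨P, hm, hP⟩ := hz
  refine ⟨P, hm, ?_⟩
  have h1 := congrArg (e_intclT_sigma p y ξ hξ) hP
  rw [hom_eval₂, map_zero] at h1
  have h2 : (e_intclT_sigma p y ξ hξ).comp ((e_of p y).comp R.subtype)
      = (e_of p y).comp R.subtype := by
    ext x
    exact e_intclT_sigma_of p y ξ hξ _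
  rw [h2] at h1
  exact h1

theorem e_intclT_isInt_of_iff {F : Type} [Field F] (p : ℕ) (y : F) (hp : p ≠ 0) (R : Subring F)
    {x : F} (hx : e_IsInt p y R (e_of p y x)) : IsIntegral ↥R x := by
  obtain ⟨P, hm, hP⟩ := hx
  refine ⟨P, hm, ?_⟩
  apply e_intclT_of_inj p y hp
  rw [map_zero, hom_eval₂]
  exact hP

/-! ### Spanning -/

theorem e_intclT_span {F : Type} [Field F] (p : ℕ) (y h : F) (hp : p ≠ 0) (hh : h ≠ 0)
    (z : e_Fp F p y) :
    ∃ c : Fin p → F,
      z = ∑ a : Fin p, e_of p y (c a) * (e_of p y h⁻¹ * e_rt p y) ^ (a : ℕ) := by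
  obtain ⟨g, rfl⟩ := AdjoinRoot.mk_surjective z
  have hm := e_intclT_monic p y hp
  set q := g %ₘ e_pol F p y with hq
  have hdeg : q.natDegree < p := by
    have := natDegree_modByMonic_lt g hm (by
      intro h1
      have := e_intclT_natDegree p y
      rw [h1, natDegree_one] at this
      exact hp this.symm)
    rwa [e_intclT_natDegree p y] at this
  have hgq : AdjoinRoot.mk (e_pol F p y) g = AdjoinRoot.mk (e_pol F p y) q := by
    rw [AdjoinRoot.mk_eq_mk]
    refine ⟨g /ₘ e_pol F p y, ?_⟩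
    have := modByMonic_add_div g (e_pol F p y)
    rw [hq]
    linear_combination this.symm
  refine ⟨fun a => q.coeff a * h ^ (a : ℕ), ?_⟩
  rw [hgq]
  conv_lhs => rw [as_sum_range' q p hdeg]
  rw [map_sum, ← Fin.sum_univ_eq_sum_range
    (fun a => AdjoinRoot.mk (e_pol F p y) (monomial a (q.coeff a)))]
  refine Finset.sum_congr rfl fun a _ => ?_
  rw [← C_mul_X_pow_eq_monomial, map_mul, map_pow, AdjoinRoot.mk_C, AdjoinRoot.mk_X, mul_pow,
    ← map_pow, map_mul, mul_assoc, ← mul_assoc (e_of p y (h ^ (a : ℕ))), ← map_mul,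
    inv_pow, mul_inv_cancel₀ (pow_ne_zero _ hh), map_one, one_mul]

/-! ### The main computation -/

theorem e_intclT_geom {F : Type} [Field F] (p : ℕ) (hp : p.Prime) (ζ : F)
    (hζ : IsPrimitiveRoot ζ p) (a b : Fin p) :
    ∑ i ∈ Finset.range p, (ζ ^ ((a : ℕ) + p - (b : ℕ))) ^ i = if a = b then (p : F) else 0 := by
  have ha := a.2
  have hb := b.2
  split_ifs with hab
  · subst hab
    rw [Nat.add_sub_cancel_left, hζ.pow_eq_one]
    simp
  · have hab' : (a : ℕ) ≠ (b : ℕ) := fun h => hab (Fin.ext h)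
    have hnd : ¬ p ∣ (a : ℕ) + p - (b : ℕ) := by
      intro hd
      rcases lt_or_gt_of_ne hab' with h1 | h1
      · have := Nat.eq_zero_of_dvd_of_lt hd (by omega)
        omega
      · have h2 : (a : ℕ) + p - (b : ℕ) = p + ((a : ℕ) - (b : ℕ)) := by omega
        rw [h2] at hd
        have h3 := (Nat.dvd_add_right (dvd_refl p)).mp hd
        have := Nat.eq_zero_of_dvd_of_lt h3 (by omega)
        omega
    have hprim : IsPrimitiveRoot (ζ ^ ((a : ℕ) + p - (b : ℕ))) p :=
      hζ.pow_of_coprime _ ((Nat.Prime.coprime_iff_not_dvd hp).2 hnd).symm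
    exact hprim.geom_sum_eq_zero hp.one_lt

theorem e_intclT_proj {F : Type} [Field F] (p : ℕ) (hp : p.Prime) (y ζ : F)
    (hζ : IsPrimitiveRoot ζ p) (τ : e_Fp F p y)
    (hσ : ∀ (ξ : F) (hξ : ξ ^ p = 1), e_intclT_sigma p y ξ hξ τ = e_of p y ξ * τ)
    (c : Fin p → F) (b : Fin p) :
    ∑ i ∈ Finset.range p, e_of p y (ζ ^ (i * (p - (b : ℕ)))) *
      e_intclT_sigma p y (ζ ^ i) (by rw [← pow_mul, mul_comm, pow_mul, hζ.pow_eq_one, one_pow])
        (∑ a : Fin p, e_of p y (c a) * τ ^ (a : ℕ))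
      = e_of p y ((p : F) * c b) * τ ^ (b : ℕ) := by
  have hb := b.2
  have h1 : ∀ i ∈ Finset.range p, e_of p y (ζ ^ (i * (p - (b : ℕ)))) *
      e_intclT_sigma p y (ζ ^ i) (by rw [← pow_mul, mul_comm, pow_mul, hζ.pow_eq_one, one_pow])
        (∑ a : Fin p, e_of p y (c a) * τ ^ (a : ℕ))
      = ∑ a : Fin p, e_of p y (c a * (ζ ^ ((a : ℕ) + p - (b : ℕ))) ^ i) * τ ^ (a : ℕ) := by
    intro i _
    rw [map_sum, Finset.mul_sum]
    refine Finset.sum_congr rfl fun a _ => ?_
    rw [map_mul (e_intclT_sigma p y (ζ ^ i) _), map_pow (e_intclT_sigma p y (ζ ^ i) _) τ, hσ,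
      e_intclT_sigma_of, mul_pow, ← map_pow, ← mul_assoc, ← mul_assoc,
      ← map_mul, ← map_mul]
    congr 2
    have h2 : (a : ℕ) + p - (b : ℕ) = (a : ℕ) + (p - (b : ℕ)) := by omega
    rw [h2, ← pow_mul, ← pow_mul, mul_comm _ (c a), mul_assoc, ← pow_add]
    congr 2
    ring
  rw [Finset.sum_congr rfl h1, Finset.sum_comm]
  have h3 : ∀ a : Fin p, ∑ i ∈ Finset.range p,
      e_of p y (c a * (ζ ^ ((a : ℕ) + p - (b : ℕ))) ^ i) * τ ^ (a : ℕ)
      = if a = b then e_of p y ((p : F) * c b) * τ ^ (b : ℕ) else 0 := by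
    intro a
    rw [← Finset.sum_mul, ← map_sum, ← Finset.mul_sum, e_intclT_geom p hp ζ hζ a b]
    split_ifs with hab
    · subst hab; rw [mul_comm (c _) (p : F)]
    · rw [mul_zero, map_zero, zero_mul]
  rw [Finset.sum_congr rfl fun a _ => h3 a]
  simp

theorem e_intclT_main : e_IntClStatement := by
  intro F _ p y R h u ζ hp hirr hpF hpinv hζR hζ hR hh hu huR huinvR hy
  have hp0 : p ≠ 0 := hp.ne_zero
  set τ : e_Fp F p y := e_of p y h⁻¹ * e_rt p y with hτ
  have hτp : τ ^ p = e_of p y u := by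
    rw [hτ, mul_pow, e_intclT_rt_pow, ← map_pow, ← map_mul, hy]
    congr 1
    rw [inv_pow, mul_comm u, ← mul_assoc, inv_mul_cancel₀ (pow_ne_zero _ hh), one_mul]
  have hσ : ∀ (ξ : F) (hξ : ξ ^ p = 1), e_intclT_sigma p y ξ hξ τ = e_of p y ξ * τ := by
    intro ξ hξ
    rw [hτ, map_mul, e_intclT_sigma_of, e_intclT_sigma_rt]
    ring
  have hτint : e_IsInt p y R τ := by
    apply e_intclT_isInt_of_pow p y R hp.pos
    rw [hτp]
    exact e_intclT_isInt_of p y R huR
  refine ⟨e_intclT_span p y h hp0 hh, fun c => ⟨fun hz b => ?_, fun hc => ?_⟩⟩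
  · -- (⇒)
    have hw : e_IsInt p y R (e_of p y ((p : F) * c b) * τ ^ (b : ℕ)) := by
      rw [← e_intclT_proj p hp y ζ hζ τ hσ c b]
      refine e_intclT_isInt_sum p y R _ _ fun i _ => ?_
      exact e_intclT_isInt_mul p y R (e_intclT_isInt_of p y R (R.pow_mem hζR _))
        (e_intclT_isInt_sigma p y _ _ R hz)
    have hwp := e_intclT_isInt_pow p y R hw p
    have h1 : (e_of p y ((p : F) * c b) * τ ^ (b : ℕ)) ^ p
        = e_of p y (((p : F) * c b) ^ p * u ^ (b : ℕ)) := by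
      rw [mul_pow, ← pow_mul, mul_comm (b : ℕ) p, pow_mul, hτp, ← map_pow, ← map_pow, ← map_mul]
    rw [h1] at hwp
    have h2 : ((p : F) * c b) ^ p * u ^ (b : ℕ) ∈ R := hR _ (e_intclT_isInt_of_iff p y hp0 R hwp)
    have h3 : ((p : F) * c b) ^ p ∈ R := by
      have h4 := R.mul_mem h2 (R.pow_mem huinvR (b : ℕ))
      have h5 : ((p : F) * c b) ^ p * u ^ (b : ℕ) * u⁻¹ ^ (b : ℕ) = ((p : F) * c b) ^ p := by
        rw [mul_assoc, ← mul_pow, mul_inv_cancel₀ hu, one_pow, mul_one]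
      rwa [h5] at h4
    have h6 : (p : F) * c b ∈ R := by
      apply hR
      apply IsIntegral.of_pow hp.pos
      exact isIntegral_algebraMap (R := ↥R) (x := ⟨_, h3⟩)
    have h7 := R.mul_mem hpinv h6
    rwa [← mul_assoc, inv_mul_cancel₀ hpF, one_mul] at h7
  · -- (⇐)
    refine e_intclT_isInt_sum p y R _ _ fun a _ => ?_
    exact e_intclT_isInt_mul p y R (e_intclT_isInt_of p y R (hc a)) (e_intclT_isInt_pow p y R hτint _)

end

end Fermat.Agent.S18
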