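/-
S18, block E — package IntFin (twin T): finiteness of the integral closure of `W[x₀]` in a finite
extension of `Frac(W)(x₀)`.
-/
import Fermat.Agent.S18.EInterfaces4

set_option autoImplicit false
set_option linter.style.haveILetI false

namespace Fermat.Agent.S18

/-- Abstract finiteness: `A` a noetherian integrally closed domain, `g : A →+* Φ` injective into a
field of characteristic `0` which is spanned by finitely many elements over a subfield contained
in the fraction field of `g(A)`.  Then the integral closure of `A` in `Φ` is a finite `A`-module. -/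
theorem e_intfinT_finite (A Φ : Type) [CommRing A] [IsDomain A] [IsNoetherianRing A]
    [IsIntegrallyClosed A] [Field Φ] [CharZero Φ] (g : A →+* Φ) (hg : Function.Injective g)
    (K₀ : Subfield Φ) (hK₀ : ∀ z ∈ K₀, ∃ a b : A, b ≠ 0 ∧ z = g a / g b)
    (hfin : ∃ (r : ℕ) (b : Fin r → Φ), ∀ z : Φ, ∃ c : Fin r → Φ,
      (∀ i, c i ∈ K₀) ∧ z = ∑ i, c i * b i) :
    letI := g.toAlgebra
    Module.Finite A (integralClosure A Φ) := by
  letI : Algebra A Φ := g.toAlgebra
  have hinj : Function.Injective (algebraMap A Φ) := hg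
  letI : Algebra (FractionRing A) Φ := (IsFractionRing.lift hinj).toAlgebra
  haveI : IsScalarTower A (FractionRing A) Φ :=
    IsScalarTower.of_algebraMap_eq (fun x => (IsFractionRing.lift_algebraMap hinj x).symm)
  haveI : CharZero (FractionRing A) :=
    ⟨fun m n h => by
      have h2 := congrArg (algebraMap (FractionRing A) Φ) h
      simpa using h2⟩
  have hrange : ∀ z ∈ K₀, ∃ k : FractionRing A, algebraMap (FractionRing A) Φ k = z := by
    intro z hz
    obtain ⟨a, b, hb, rfl⟩ := hK₀ z hz
    refine ⟨algebraMap A (FractionRing A) a / algebraMap A (FractionRing A) b, ?_⟩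
    rw [map_div₀, ← IsScalarTower.algebraMap_apply, ← IsScalarTower.algebraMap_apply]
    rfl
  haveI : FiniteDimensional (FractionRing A) Φ := by
    obtain ⟨r, b, hb⟩ := hfin
    have hspan : Submodule.span (FractionRing A) (Set.range b) = ⊤ := by
      rw [eq_top_iff]
      intro z _
      obtain ⟨c, hc, rfl⟩ := hb z
      refine Submodule.sum_mem _ (fun i _ => ?_)
      obtain ⟨k, hk⟩ := hrange (c i) (hc i)
      rw [← hk, ← Algebra.smul_def]
      exact Submodule.smul_mem _ _ (Submodule.subset_span ⟨i, rfl⟩)
    exact ⟨⟨(Set.finite_range b).toFinset, by simpa using hspan⟩⟩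
  haveI : Algebra.IsSeparable (FractionRing A) Φ := inferInstance
  exact IsIntegralClosure.finite A (FractionRing A) Φ (integralClosure A Φ)

open Polynomial in
/-- Main theorem of package IntFin (twin T). -/
theorem e_intfinT_main : e_IntFinStatement := by
  intro W Φ _ _ _ _ _ f x₀ hf htr hfin
  set g : W[X] →+* Φ := Polynomial.eval₂RingHom f x₀ with hgdef
  have hg : Function.Injective g := by
    rw [injective_iff_map_eq_zero]
    intro P hP
    by_contra hne
    exact htr P hne hP
  haveI : IsIntegrallyClosed W[X] := inferInstance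
  haveI : IsNoetherianRing W[X] := inferInstance
  -- the subfield generated by `f(W)` and `x₀` lies in the fraction field of `g(W[X])`
  have hK₀ : ∀ z ∈ Subfield.closure (Set.range f ∪ {x₀}),
      ∃ a b : W[X], b ≠ 0 ∧ z = g a / g b := by
    intro z hz
    induction hz using Subfield.closure_induction with
    | mem x hx =>
      rcases hx with ⟨w, rfl⟩ | rfl
      · exact ⟨C w, 1, one_ne_zero, by simp [hgdef]⟩
      · exact ⟨X, 1, one_ne_zero, by simp [hgdef]⟩
    | one => exact ⟨1, 1, one_ne_zero, by simp⟩
    | add x y _ _ hx hy =>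
      obtain ⟨a, b, hb, rfl⟩ := hx
      obtain ⟨c, d, hd, rfl⟩ := hy
      have h1 : g b ≠ 0 := fun h => hb (hg (by rw [h, map_zero]))
      have h2 : g d ≠ 0 := fun h => hd (hg (by rw [h, map_zero]))
      refine ⟨a * d + c * b, b * d, mul_ne_zero hb hd, ?_⟩
      simp only [map_add, map_mul]
      field_simp
    | neg x _ hx =>
      obtain ⟨a, b, hb, rfl⟩ := hx
      exact ⟨-a, b, hb, by simp [neg_div]⟩
    | inv x _ hx =>
      obtain ⟨a, b, hb, rfl⟩ := hx
      by_cases ha : a = 0
      · exact ⟨0, 1, one_ne_zero, by simp [ha]⟩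
      · exact ⟨b, a, ha, by simp [inv_div]⟩
    | mul x y _ _ hx hy =>
      obtain ⟨a, b, hb, rfl⟩ := hx
      obtain ⟨c, d, hd, rfl⟩ := hy
      exact ⟨a * c, b * d, mul_ne_zero hb hd, by simp [div_mul_div_comm]⟩
  have hFin := e_intfinT_finite W[X] Φ g hg (Subfield.closure (Set.range f ∪ {x₀})) hK₀ hfin
  letI : Algebra W[X] Φ := g.toAlgebra
  haveI : Module.Finite W[X] (integralClosure W[X] Φ) := hFin
  refine ⟨?_, ?_⟩
  · obtain ⟨n, s, hs⟩ := Module.Finite.exists_fin (R := W[X]) (M := integralClosure W[X] Φ)
    refine ⟨n, fun i => (s i : Φ), fun i => (s i).2, ?_⟩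
    intro z hz
    have hmem : (⟨z, hz⟩ : integralClosure W[X] Φ) ∈ Submodule.span W[X] (Set.range s) := by
      rw [hs]; trivial
    obtain ⟨P, hP⟩ := (Submodule.mem_span_range_iff_exists_fun W[X]).1 hmem
    refine ⟨P, ?_⟩
    have h2 : ((∑ i, P i • s i : ↥(integralClosure W[X] Φ)) : Φ) = z := congrArg Subtype.val hP
    rw [← h2, AddSubmonoidClass.coe_finsetSum]
    refine Finset.sum_congr rfl (fun i _ => ?_)
    rw [SetLike.val_smul, Algebra.smul_def]
    rfl
  · -- the subring generated by `f(W)` and `x₀` is the range of `g`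
    have hS : Subring.closure (Set.range f ∪ {x₀}) = g.range := by
      apply le_antisymm
      · rw [Subring.closure_le]
        rintro x (⟨w, rfl⟩ | rfl)
        · exact ⟨C w, by simp [hgdef]⟩
        · exact ⟨X, by simp [hgdef]⟩
      · rintro _ ⟨P, rfl⟩
        rw [hgdef, Polynomial.coe_eval₂RingHom, Polynomial.eval₂_eq_sum_range]
        refine sum_mem (fun i _ => ?_)
        have h1 : f (P.coeff i) ∈ Subring.closure (Set.range f ∪ {x₀}) :=
          Subring.subset_closure (Or.inl ⟨_, rfl⟩)
        have h2 : x₀ ∈ Subring.closure (Set.range f ∪ {x₀}) :=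
          Subring.subset_closure (Or.inr rfl)
        exact mul_mem h1 (pow_mem h2 i)
    rw [hS]
    letI : Algebra W[X] ↥g.range := g.rangeRestrict.toAlgebra
    haveI : IsScalarTower W[X] ↥g.range Φ := IsScalarTower.of_algebraMap_eq (fun x => rfl)
    haveI : Algebra.IsIntegral W[X] ↥g.range :=
      Algebra.isIntegral_of_surjective g.rangeRestrict_surjective
    have hEq : (integralClosure ↥g.range Φ).toSubring = (integralClosure W[X] Φ).toSubring := by
      ext z
      constructor
      · intro hz
        exact isIntegral_trans (A := ↥g.range) z hz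
      · intro hz
        exact IsIntegral.tower_top (A := ↥g.range) hz
    rw [hEq]
    exact IsNoetherianRing.of_finite W[X] (integralClosure W[X] Φ)

end Fermat.Agent.S18
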