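/-
S18, block E — package LSFact (twin T): local factorisation `y = u * h ^ p` in a local UFD,
integral closedness of `R` in `F`, and `V = R_(ϖ)`.
-/
import Fermat.Agent.S18.EInterfaces4

set_option autoImplicit false

namespace Fermat.Agent.S18

/-- In a subring `R` of a field, `g ∣ b` iff `g⁻¹ * b ∈ R` (for `g ≠ 0`). -/
theorem e_lsfactT_dvd_iff {F : Type} [Field F] (R : Subring F) (g b : ↥R) (hg : (g : F) ≠ 0) :
    g ∣ b ↔ (g : F)⁻¹ * (b : F) ∈ R := by
  constructor
  · rintro ⟨c, rfl⟩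
    have : (g : F)⁻¹ * ((g * c : ↥R) : F) = (c : F) := by
      push_cast
      field_simp
    rw [this]
    exact c.2
  · intro h
    refine ⟨⟨_, h⟩, ?_⟩
    apply Subtype.ext
    push_cast
    field_simp

/-- A factorial subring `R` of a field `F` with fraction field `F` is integrally closed in `F`. -/
theorem e_lsfactT_intClosed {F : Type} [Field F] (R : Subring F) (hfrac : e_IsFrac R)
    (hufd : UniqueFactorizationMonoid ↥R) :
    ∀ x : F, IsIntegral ↥R x → x ∈ R := by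
  have : IsFractionRing ↥R F := by
    apply IsFractionRing.of_field
    intro z
    obtain ⟨a, b, hb, hzb⟩ := hfrac z
    refine ⟨a, b, ?_⟩
    have hb' : (b : F) ≠ 0 := fun h => hb (Subtype.ext h)
    change z = (a : F) / (b : F)
    rw [eq_div_iff hb']
    exact hzb
  have := hufd
  intro x hx
  obtain ⟨r, hr⟩ := IsIntegrallyClosed.algebraMap_eq_of_integral hx
  rw [← hr]
  exact r.2

theorem e_lsfactT_main :
    e_LocalUFDStatement → e_UFDLocStatement → e_UFDPowStatement → e_LSFactStatement := by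
  intro hLocalUFD hUFDLoc hUFDPow
  intro F _ p y ϖ V R hp hy hVval hϖ0 hϖV hVmax hRV hϖ hRcap hloc hnoeth hfrac hdvr hyV hyV' hH2
  have := hloc
  have := hnoeth
  set g0 : ↥R := ⟨ϖ, hϖ⟩ with hg0
  have hg0F : (g0 : F) = ϖ := rfl
  -- Step 1
  have hg0ne : g0 ≠ 0 := fun h => hϖ0 (congrArg Subtype.val h)
  have hg0nu : ¬ IsUnit g0 := by
    intro hu
    obtain ⟨v, hv⟩ := hu.exists_right_inv
    have hv' : ϖ * (v : F) = 1 := by
      have := congrArg Subtype.val hv
      simpa using this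
    have : ϖ⁻¹ = (v : F) := by
      rw [inv_eq_iff_eq_inv]
      exact eq_inv_of_mul_eq_one_left hv'
    exact hϖV (this ▸ hRV v.2)
  have hg0m : g0 ∈ IsLocalRing.maximalIdeal ↥R := by
    rw [IsLocalRing.mem_maximalIdeal]
    exact hg0nu
  obtain ⟨hufd, hprime0⟩ := hLocalUFD ↥R g0 hg0m hdvr
  have hg0prime : Prime g0 := hprime0 hg0ne
  -- divisibility by `g0`
  have hdvdR : ∀ b : ↥R, g0 ∣ b ↔ ϖ⁻¹ * (b : F) ∈ R := fun b =>
    e_lsfactT_dvd_iff R g0 b hϖ0
  have hdvdV : ∀ b : ↥R, g0 ∣ b ↔ ϖ⁻¹ * (b : F) ∈ V := fun b =>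
    ⟨fun h => hRV ((hdvdR b).1 h), fun h => (hdvdR b).2 (hRcap b b.2 h)⟩
  have hunitV : ∀ b : ↥R, ¬ g0 ∣ b → (b : F) ≠ 0 ∧ (b : F)⁻¹ ∈ V := by
    intro b hb
    refine ⟨?_, ?_⟩
    · intro h0
      apply hb
      have : b = 0 := Subtype.ext h0
      rw [this]
      exact dvd_zero _
    · by_contra hcon
      exact hb ((hdvdV b).2 (hVmax b (hRV b.2) hcon))
  -- Step 3
  obtain ⟨O, hRO, hOtop, hOpid, hOg, hOmem⟩ := hUFDLoc F R hfrac hufd g0 hg0prime
  have hVO : ∀ x ∈ V, x ∈ O := by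
    intro x hxV
    by_cases hx0 : x = 0
    · rw [hx0]; exact O.zero_mem
    rcases O.mem_or_inv_mem x with hxO | hxO
    · exact hxO
    · obtain ⟨a, b, hb, hab⟩ := (hOmem x⁻¹).1 hxO
      by_cases ha : g0 ∣ a
      · exfalso
        obtain ⟨c, rfl⟩ := ha
        apply hb
        rw [hdvdV]
        have : ϖ⁻¹ * (b : F) = x * (c : F) := by
          have h1 : (b : F) = x * (ϖ * (c : F)) := by
            have h2 : x⁻¹ * (b : F) = ϖ * (c : F) := by simpa using hab
            rw [← h2, ← mul_assoc, mul_inv_cancel₀ hx0, one_mul]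
          rw [h1]
          field_simp
        rw [this]
        exact V.mul_mem hxV (hRV c.2)
      · rw [hOmem]
        refine ⟨b, a, ha, ?_⟩
        rw [← hab]
        field_simp
  have hthird : ∀ x ∈ V, ∃ a ∈ R, ∃ b ∈ R, ϖ⁻¹ * b ∉ V ∧ x * b = a := by
    intro x hxV
    obtain ⟨a, b, hb, hab⟩ := (hOmem x).1 (hVO x hxV)
    exact ⟨a, a.2, b, b.2, fun h => hb ((hdvdV b).2 h), hab⟩
  refine ⟨e_lsfactT_intClosed R hfrac hufd, ?_, hthird⟩
  -- Step 4
  have hpow : ∀ g : ↥R, Prime g → ∃ (z : F) (a b : ↥R), z ≠ 0 ∧ ¬ g ∣ a ∧ ¬ g ∣ b ∧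
      y * z ^ p * (b : F) = (a : F) := by
    intro g hg
    by_cases hgg : g ∣ g0
    · -- `g` is associated to `g0`
      have hassoc : Associated g g0 := hg.irreducible.associated_of_dvd hg0prime.irreducible hgg
      have hiff : ∀ x : ↥R, g ∣ x ↔ g0 ∣ x := fun x => hassoc.dvd_iff_dvd_left
      obtain ⟨a, b, hb, hab⟩ := (hOmem y).1 (hVO y hyV)
      refine ⟨1, a, b, one_ne_zero, ?_, ?_, ?_⟩
      · rw [hiff]
        intro ha
        obtain ⟨r, rfl⟩ := ha
        apply hb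
        rw [hdvdV]
        have : ϖ⁻¹ * (b : F) = y⁻¹ * (r : F) := by
          have h1 : (b : F) = y⁻¹ * (ϖ * (r : F)) := by
            have h2 : y * (b : F) = ϖ * (r : F) := by simpa using hab
            rw [← h2, ← mul_assoc, inv_mul_cancel₀ hy, one_mul]
          rw [h1]
          field_simp
        rw [this]
        exact V.mul_mem hyV' (hRV r.2)
      · rw [hiff]; exact hb
      · simpa using hab
    · obtain ⟨Og, hROg, hOgtop, hOgpid, _, hOgmem⟩ := hUFDLoc F R hfrac hufd g hg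
      have hϖOg : ϖ⁻¹ ∈ Og := by
        rw [hOgmem]
        refine ⟨1, g0, hgg, ?_⟩
        rw [hg0F]
        simp [hϖ0]
      obtain ⟨z, hz0, hw, hw'⟩ := hH2 Og hROg hϖOg hOgtop hOgpid
      obtain ⟨a, b, hb, hab⟩ := (hOgmem _).1 hw
      obtain ⟨c, d, hd, hcd⟩ := (hOgmem _).1 hw'
      have hw0 : y * z ^ p ≠ 0 := mul_ne_zero hy (pow_ne_zero _ hz0)
      refine ⟨z, a, b, hz0, ?_, hb, hab⟩
      intro ha
      have hmul : a * c = b * d := by
        apply Subtype.ext
        push_cast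
        rw [← hab, ← hcd]
        field_simp
      have : g ∣ b * d := hmul ▸ dvd_mul_of_dvd_left ha c
      rcases hg.dvd_or_dvd this with h | h
      · exact hb h
      · exact hd h
  -- Step 5
  obtain ⟨u, h, hu, hh0, hyuh⟩ := hUFDPow F R hfrac hufd p hp.pos y hy hpow
  obtain ⟨v, hv⟩ := hu.exists_right_inv
  have hv' : (u : F) * (v : F) = 1 := by
    have := congrArg Subtype.val hv
    simpa using this
  have hu0 : (u : F) ≠ 0 := left_ne_zero_of_mul_eq_one hv'
  refine ⟨u, h, hu0, u.2, ?_, hh0, hyuh⟩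
  have : (u : F)⁻¹ = (v : F) := by
    rw [inv_eq_iff_eq_inv]
    exact eq_inv_of_mul_eq_one_left hv'
  rw [this]
  exact v.2

end Fermat.Agent.S18
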