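/-
S18, block E, package LSInt: local structure of the integral closure in `F' = F[T]/(T^p - y)`.
Deliverable: `e_lsint_main : e_IntClStatement → e_LSIntStatement`.
-/
import Fermat.Agent.S18.EInterfaces4

set_option autoImplicit false

namespace Fermat.Agent.S18

noncomputable section

/-- Elements of `of(A)` are integral over `A`. -/
theorem e_lsint_isInt_of {F : Type} [Field F] (p : ℕ) (y : F) (A : Subring F) {x : F}
    (hx : x ∈ A) : e_IsInt p y A (e_of p y x) :=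
  RingHom.isIntegralElem_map (f := (e_of p y).comp A.subtype) (x := (⟨x, hx⟩ : ↥A))

/-- Products of integral elements are integral. -/
theorem e_lsint_isInt_mul {F : Type} [Field F] (p : ℕ) (y : F) (A : Subring F)
    {z w : e_Fp F p y} (hz : e_IsInt p y A z) (hw : e_IsInt p y A w) : e_IsInt p y A (z * w) :=
  RingHom.IsIntegralElem.mul _ hz hw

/-- Integrality is monotone in the base subring. -/
theorem e_lsint_isInt_mono {F : Type} [Field F] (p : ℕ) (y : F) {A B : Subring F} (hAB : A ≤ B)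
    {z : e_Fp F p y} (hz : e_IsInt p y A z) : e_IsInt p y B z := by
  obtain ⟨P, hP, hPz⟩ := hz
  refine ⟨P.map (Subring.inclusion hAB), hP.map _, ?_⟩
  rw [Polynomial.eval₂_map]
  exact hPz

/-- A valuation ring (given as a subring of a field) is integrally closed. -/
theorem e_lsint_val_intClosed {F : Type} [Field F] (V : Subring F)
    (hV : ∀ x : F, x ∈ V ∨ x⁻¹ ∈ V) (x : F) (hx : IsIntegral ↥V x) : x ∈ V := by
  let A : ValuationSubring F := { V with mem_or_inv_mem' := hV }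
  have hx' : IsIntegral ↥A x := hx
  obtain ⟨w, hw⟩ := (IsIntegrallyClosed.isIntegral_iff (R := ↥A) (K := F)).mp hx'
  rw [← hw]
  exact w.2

/-- In a valuation domain, `a ^ p * u = b ^ p` with `u` a unit and `b ≠ 0` forces `b ∣ a`. -/
theorem e_lsint_dvd_of_pow {D : Type*} [CommRing D] [IsDomain D] [ValuationRing D] (p : ℕ)
    (hp : p ≠ 0) (a b u : D) (hu : IsUnit u) (hb : b ≠ 0) (h : a ^ p * u = b ^ p) : b ∣ a := by
  rcases ValuationRing.dvd_total a b with ⟨d, hd⟩ | h'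
  · have ha : a ≠ 0 := by
      rintro rfl
      exact hb (by rw [hd, zero_mul])
    have h1 : a ^ p * u = a ^ p * d ^ p := by rw [h, hd, mul_pow]
    have h2 : u = d ^ p := mul_left_cancel₀ (pow_ne_zero p ha) h1
    have hd' : IsUnit d := (isUnit_pow_iff hp).mp (h2 ▸ hu)
    rw [hd]
    exact (IsUnit.mul_right_dvd hd').mpr (dvd_refl a)
  · exact h'

/-- The residue claim: there is `r ∈ R` with `c ≡ r` modulo `ϖ V`. -/
theorem e_lsint_claim {F : Type} [Field F] (p : ℕ) (ϖ : F) (V R : Subring F) (hp : p ≠ 0)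
    (hϖ0 : ϖ ≠ 0) (hmax : ∀ x ∈ V, x⁻¹ ∉ V → ϖ⁻¹ * x ∈ V)
    (hRV : R ≤ V) (hϖ : ϖ ∈ R) (hcap : ∀ x ∈ R, ϖ⁻¹ * x ∈ V → ϖ⁻¹ * x ∈ R)
    (hD : IsDVRQuot ↥R (⟨ϖ, hϖ⟩ : ↥R))
    (hloc : ∀ x ∈ V, ∃ a ∈ R, ∃ b ∈ R, ϖ⁻¹ * b ∉ V ∧ x * b = a)
    (c u u₀ : F) (hcV : c ∈ V) (huR : u ∈ R) (huR' : u⁻¹ ∈ R) (hu0 : u ≠ 0)
    (hu₀ : ϖ⁻¹ * (u₀ - 1) ∈ V) (hcp : c ^ p * u = u₀) :
    ∃ r ∈ R, ϖ⁻¹ * (c - r) ∈ V := by
  obtain ⟨a, haR, b₀, hbR, hb₀, hab⟩ := hloc c hcV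
  have hb0 : b₀ ≠ 0 := by
    rintro rfl
    exact hb₀ (by rw [mul_zero]; exact V.zero_mem)
  have hbV' : b₀⁻¹ ∈ V := by
    by_contra hcon
    exact hb₀ (hmax b₀ (hRV hbR) hcon)
  -- the key congruence
  have hkey : a ^ p * u - b₀ ^ p = (u₀ - 1) * b₀ ^ p := by
    rw [← hab, ← hcp]; ring
  have hR1 : a ^ p * u - b₀ ^ p ∈ R :=
    R.sub_mem (R.mul_mem (R.pow_mem haR p) huR) (R.pow_mem hbR p)
  have hV1 : ϖ⁻¹ * (a ^ p * u - b₀ ^ p) ∈ V := by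
    rw [hkey, ← mul_assoc]
    exact V.mul_mem hu₀ (V.pow_mem (hRV hbR) p)
  have hR2 : ϖ⁻¹ * (a ^ p * u - b₀ ^ p) ∈ R := hcap _ hR1 hV1
  obtain ⟨hdom, hdvr⟩ := hD
  have := hdom
  have := hdvr
  set I : Ideal ↥R := Ideal.span {(⟨ϖ, hϖ⟩ : ↥R)} with hI
  let mk : ↥R →+* ↥R ⧸ I := Ideal.Quotient.mk I
  have hmk : mk (⟨a, haR⟩ : ↥R) ^ p * mk (⟨u, huR⟩ : ↥R) = mk (⟨b₀, hbR⟩ : ↥R) ^ p := by
    rw [← map_pow, ← map_pow, ← map_mul]
    refine (Ideal.Quotient.eq).mpr ?_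
    rw [hI, Ideal.mem_span_singleton]
    refine ⟨⟨_, hR2⟩, ?_⟩
    apply Subtype.ext
    show (a ^ p * u - b₀ ^ p : F) = ϖ * (ϖ⁻¹ * (a ^ p * u - b₀ ^ p))
    rw [mul_inv_cancel_left₀ hϖ0]
  have hmku : IsUnit (mk (⟨u, huR⟩ : ↥R)) := by
    refine IsUnit.map mk ?_
    refine ⟨⟨⟨u, huR⟩, ⟨u⁻¹, huR'⟩, ?_, ?_⟩, rfl⟩
    · apply Subtype.ext; simp [hu0]
    · apply Subtype.ext; simp [hu0]
  have hmkb : mk (⟨b₀, hbR⟩ : ↥R) ≠ 0 := by
    intro h0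
    have h1 : (⟨b₀, hbR⟩ : ↥R) ∈ I := (Ideal.Quotient.eq_zero_iff_mem).mp h0
    rw [hI, Ideal.mem_span_singleton] at h1
    obtain ⟨s, hs⟩ := h1
    have hs' : b₀ = ϖ * (s : F) := congrArg Subtype.val hs
    apply hb₀
    rw [hs', inv_mul_cancel_left₀ hϖ0]
    exact hRV s.2
  obtain ⟨rbar, hrbar⟩ := e_lsint_dvd_of_pow p hp _ _ _ hmku hmkb hmk
  obtain ⟨r, rfl⟩ := Ideal.Quotient.mk_surjective rbar
  have h2 : (⟨a, haR⟩ : ↥R) - ⟨b₀, hbR⟩ * r ∈ I := by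
    refine (Ideal.Quotient.eq).mp ?_
    rw [map_mul]
    exact hrbar
  rw [hI, Ideal.mem_span_singleton] at h2
  obtain ⟨s, hs⟩ := h2
  have hs' : a - b₀ * (r : F) = ϖ * (s : F) := congrArg Subtype.val hs
  refine ⟨(r : F), r.2, ?_⟩
  have h3 : ϖ⁻¹ * (c - (r : F)) = (s : F) * b₀⁻¹ := by
    have h4 : c = a * b₀⁻¹ := by rw [← hab, mul_inv_cancel_right₀ hb0]
    rw [h4]
    field_simp
    linear_combination hs'
  rw [h3]
  exact V.mul_mem (hRV s.2) hbV'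

/-- Main theorem of package LSInt. -/
theorem e_lsint_main : e_IntClStatement → e_LSIntStatement := by
  intro hIntCl F _ p y ϖ ζ h₀ V R hp hirr hpF hpR hζ hprim hV hϖ0 hϖV hmax hRV hϖ hcap hD hRic
    hfact hloc hh₀0 hh₀V hh₀V' hcong
  obtain ⟨u, h, hu0, huR, huR', hh0, hy⟩ := hfact
  have hϖV' : ϖ ∈ V := hRV hϖ
  have hVic : ∀ x : F, IsIntegral ↥V x → x ∈ V := e_lsint_val_intClosed V hV
  -- the unit `u₀` of `V`
  set u₀ : F := y * h₀⁻¹ ^ p with hu₀def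
  have hy0 : y ≠ 0 := by rw [hy]; exact mul_ne_zero hu0 (pow_ne_zero p hh0)
  have hu₀0 : u₀ ≠ 0 := mul_ne_zero hy0 (pow_ne_zero p (inv_ne_zero hh₀0))
  have hu₀V : u₀ ∈ V := by
    have h1 : u₀ = ϖ * (ϖ⁻¹ * (u₀ - 1)) + 1 := by
      rw [mul_inv_cancel_left₀ hϖ0]; ring
    rw [h1]
    exact V.add_mem (V.mul_mem hϖV' hcong) V.one_mem
  have hu₀V' : u₀⁻¹ ∈ V := by
    by_contra hcon
    have h1 := hmax u₀ hu₀V hcon
    apply hϖV
    have h2 : ϖ⁻¹ = ϖ⁻¹ * u₀ - ϖ⁻¹ * (u₀ - 1) := by ring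
    rw [h2]
    exact V.sub_mem h1 hcong
  have hy' : y = u₀ * h₀ ^ p := by
    rw [hu₀def, inv_pow, inv_mul_cancel_right₀ (pow_ne_zero p hh₀0)]
  -- the comparison unit `c`
  set c : F := h * h₀⁻¹ with hcdef
  have hc0 : c ≠ 0 := mul_ne_zero hh0 (inv_ne_zero hh₀0)
  have hcp : c ^ p * u = u₀ := by
    rw [hcdef, hu₀def, hy]; ring
  have hcpV : c ^ p ∈ V := by
    have h1 : c ^ p = u₀ * u⁻¹ := by rw [← hcp, mul_inv_cancel_right₀ hu0]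
    rw [h1]
    exact V.mul_mem hu₀V (hRV huR')
  have hcpV' : c⁻¹ ^ p ∈ V := by
    have h1 : c⁻¹ ^ p = u * u₀⁻¹ := by
      rw [← hcp, inv_pow]
      field_simp
    rw [h1]
    exact V.mul_mem (hRV huR) hu₀V'
  have hpow : ∀ d : F, d ≠ 0 → d ^ p ∈ V → d⁻¹ ^ p ∈ V → d ∈ V := by
    intro d hd0 h1 h2
    rcases hV d with h3 | h3
    · exact h3
    · have h4 : d = d ^ p * d⁻¹ ^ (p - 1) := by
        have h5 : d ^ p = d ^ (p - 1) * d := by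
          rw [← pow_succ, Nat.sub_add_cancel hp.one_le]
        rw [h5, inv_pow]
        field_simp
      rw [h4]
      exact V.mul_mem h1 (V.pow_mem h3 _)
  have hcV : c ∈ V := hpow c hc0 hcpV hcpV'
  have hcV' : c⁻¹ ∈ V := hpow c⁻¹ (inv_ne_zero hc0) hcpV' (by rw [inv_inv]; exact hcpV)
  -- the two applications of (IntCl)
  obtain ⟨hspanR, hiffR⟩ := hIntCl F p y R h u ζ hp hirr hpF hpR hζ hprim hRic hh0 hu0 huR huR' hy
  obtain ⟨-, hiffV⟩ := hIntCl F p y V h₀ u₀ ζ hp hirr hpF (hRV hpR) (hRV hζ) hprim hVic hh₀0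
    hu₀0 hu₀V hu₀V' hy'
  have hτ : e_of p y h⁻¹ * e_rt p y = e_of p y c⁻¹ * (e_of p y h₀⁻¹ * e_rt p y) := by
    rw [← mul_assoc, ← map_mul]
    congr 2
    rw [hcdef]
    field_simp
  have hτ' : e_of p y h₀⁻¹ * e_rt p y = e_of p y c * (e_of p y h⁻¹ * e_rt p y) := by
    rw [← mul_assoc, ← map_mul]
    congr 2
    rw [hcdef]
    field_simp
  -- `τ_R` is `R`-integral
  have hτR : e_IsInt p y R (e_of p y h⁻¹ * e_rt p y) := by
    have h1 := (hiffR (Pi.single (⟨1, hp.one_lt⟩ : Fin p) 1)).mpr (by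
      intro a
      by_cases ha : a = ⟨1, hp.one_lt⟩
      · rw [ha, Pi.single_eq_same]; exact R.one_mem
      · rw [Pi.single_eq_of_ne ha]; exact R.zero_mem)
    rw [Fintype.sum_eq_single (⟨1, hp.one_lt⟩ : Fin p) (by
      intro a ha
      rw [Pi.single_eq_of_ne ha, map_zero, zero_mul])] at h1
    simpa using h1
  refine ⟨?_, ?_⟩
  · -- (LS1)
    intro z hzR hzV
    obtain ⟨r, hr⟩ := hspanR z
    have hrR : ∀ a, r a ∈ R := (hiffR r).mp (hr ▸ hzR)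
    have h1 : e_of p y ϖ⁻¹ * z = ∑ a : Fin p, e_of p y (ϖ⁻¹ * r a * c⁻¹ ^ (a : ℕ)) *
        (e_of p y h₀⁻¹ * e_rt p y) ^ (a : ℕ) := by
      rw [hr, Finset.mul_sum]
      refine Finset.sum_congr rfl (fun a _ => ?_)
      rw [hτ, mul_pow, map_mul, map_mul, map_pow]
      ring
    have h2 : ∀ a, ϖ⁻¹ * r a * c⁻¹ ^ (a : ℕ) ∈ V := (hiffV _).mp (h1 ▸ hzV)
    have h3 : ∀ a, ϖ⁻¹ * r a ∈ R := by
      intro a
      refine hcap _ (hrR a) ?_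
      have h4 : ϖ⁻¹ * r a = ϖ⁻¹ * r a * c⁻¹ ^ (a : ℕ) * c ^ (a : ℕ) := by
        rw [inv_pow, inv_mul_cancel_right₀ (pow_ne_zero _ hc0)]
      rw [h4]
      exact V.mul_mem (h2 a) (V.pow_mem hcV _)
    have h5 : e_of p y ϖ⁻¹ * z = ∑ a : Fin p, e_of p y (ϖ⁻¹ * r a) *
        (e_of p y h⁻¹ * e_rt p y) ^ (a : ℕ) := by
      rw [hr, Finset.mul_sum]
      refine Finset.sum_congr rfl (fun a _ => ?_)
      rw [map_mul]
      ring
    rw [h5]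
    exact (hiffR _).mpr h3
  · -- (LS2)
    obtain ⟨r, hrR, hr⟩ := e_lsint_claim p ϖ V R hp.ne_zero hϖ0 hmax hRV hϖ hcap hD hloc c u u₀
      hcV huR huR' hu0 hcong hcp
    refine ⟨e_of p y r * (e_of p y h⁻¹ * e_rt p y),
      e_lsint_isInt_mul p y R (e_lsint_isInt_of p y R hrR) hτR, ?_⟩
    have h1 : e_of p y ϖ⁻¹ * (e_of p y h₀⁻¹ * e_rt p y - e_of p y r * (e_of p y h⁻¹ * e_rt p y))
        = e_of p y (ϖ⁻¹ * (c - r)) * (e_of p y h⁻¹ * e_rt p y) := by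
      rw [hτ', map_mul (e_of p y) ϖ⁻¹, map_sub]
      ring
    rw [h1]
    exact e_lsint_isInt_mul p y V (e_lsint_isInt_of p y V hr) (e_lsint_isInt_mono p y hRV hτR)

end

end Fermat.Agent.S18
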