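import Fermat.Agent.S18.EInterfaces
set_option autoImplicit false

/-!
# S18 / block E5a: LocalUFD

A noetherian local domain `R` with `x ∈ m_R` such that `R / x` is a discrete valuation ring is a
unique factorisation domain, and `x` is prime if `x ≠ 0` (Kaplansky's criterion + Nakayama).
-/

namespace Fermat.Agent.S18

/-- If `R ⧸ (x)` is a domain then `(x)` is a prime ideal. -/
theorem e_localufd_span_isPrime (R : Type) [CommRing R] (x : R) (h : IsDVRQuot R x) :
    (Ideal.span ({x} : Set R)).IsPrime := by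
  obtain ⟨hd, -⟩ := h
  exact (Ideal.Quotient.isDomain_iff_prime _).mp hd

/-- A nonzero prime ideal not containing `x` is principal, generated by a prime element. -/
theorem e_localufd_prime_of_notMem (R : Type) [CommRing R] [IsDomain R] [IsLocalRing R]
    [IsNoetherianRing R] (x : R) (hx : x ∈ IsLocalRing.maximalIdeal R) (h : IsDVRQuot R x)
    (q : Ideal R) (hq0 : q ≠ ⊥) (hq : q.IsPrime) (hxq : x ∉ q) : ∃ g ∈ q, Prime g := by
  obtain ⟨hd, hdvr⟩ := h
  have hsurj : Function.Surjective (Ideal.Quotient.mk (Ideal.span ({x} : Set R))) :=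
    Ideal.Quotient.mk_surjective
  obtain ⟨c, hc⟩ := (IsPrincipalIdealRing.principal
    (q.map (Ideal.Quotient.mk (Ideal.span ({x} : Set R))))).principal
  have hc' : q.map (Ideal.Quotient.mk (Ideal.span ({x} : Set R))) = Ideal.span {c} := hc
  have hcmem : c ∈ q.map (Ideal.Quotient.mk (Ideal.span ({x} : Set R))) := by
    rw [hc']; exact Ideal.mem_span_singleton_self c
  obtain ⟨g, hgq, rfl⟩ := (Ideal.mem_map_iff_of_surjective _ hsurj).mp hcmem
  have hle : q ≤ Ideal.span {g} ⊔ (IsLocalRing.maximalIdeal R) • q := by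
    intro y hy
    have hy' : Ideal.Quotient.mk (Ideal.span ({x} : Set R)) y ∈
        Ideal.span {Ideal.Quotient.mk (Ideal.span ({x} : Set R)) g} := by
      rw [← hc']; exact Ideal.mem_map_of_mem _ hy
    obtain ⟨r', hr'⟩ := Ideal.mem_span_singleton'.mp hy'
    obtain ⟨r, rfl⟩ := hsurj r'
    have hdiff : y - r * g ∈ Ideal.span ({x} : Set R) := by
      rw [← Ideal.Quotient.eq, map_mul, hr']
    obtain ⟨s, hs⟩ := Ideal.mem_span_singleton'.mp hdiff
    have hsq : s ∈ q := by
      have hmem : s * x ∈ q := by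
        rw [hs]; exact q.sub_mem hy (q.mul_mem_left r hgq)
      exact (hq.mem_or_mem hmem).resolve_right hxq
    have hyeq : y = r * g + x * s := by rw [mul_comm x s, hs]; ring
    rw [hyeq]
    refine Submodule.add_mem_sup (Ideal.mem_span_singleton'.mpr ⟨r, rfl⟩) ?_
    exact Submodule.smul_mem_smul hx hsq
  have hfg : (q : Submodule R R).FG := IsNoetherian.noetherian q
  have hjac : IsLocalRing.maximalIdeal R ≤ Ideal.jacobson ⊥ :=
    (IsLocalRing.jacobson_eq_maximalIdeal ⊥ bot_ne_top).ge
  have hqle : q ≤ Ideal.span {g} :=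
    Submodule.le_of_le_smul_of_le_jacobson_bot hfg hjac hle
  have hqeq : q = Ideal.span {g} :=
    le_antisymm hqle ((Ideal.span_singleton_le_iff_mem q).mpr hgq)
  have hg0 : g ≠ 0 := by
    rintro rfl
    apply hq0
    rw [hqeq]; simp
  refine ⟨g, hgq, (Ideal.span_singleton_prime hg0).mp ?_⟩
  rw [← hqeq]; exact hq

/-- (E5a) LocalUFD. -/
theorem e_localufd_main : e_LocalUFDStatement := by
  intro R _ _ _ _ x hx h
  have hP := e_localufd_span_isPrime R x h
  have hprime : x ≠ 0 → Prime x := fun hx0 => (Ideal.span_singleton_prime hx0).mp hP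
  refine ⟨?_, hprime⟩
  by_cases hx0 : x = 0
  · subst hx0
    obtain ⟨hd, hdvr⟩ := h
    have hbot : Ideal.span ({(0 : R)} : Set R) = ⊥ := by simp
    let e : R ≃+* (R ⧸ Ideal.span ({(0 : R)} : Set R)) :=
      (RingEquiv.quotientBot R).symm.trans (Ideal.quotEquivOfEq hbot.symm)
    exact e.symm.toMulEquiv.uniqueFactorizationMonoid inferInstance
  · rw [UniqueFactorizationMonoid.iff_exists_prime_mem_of_isPrime]
    intro q hq0 hq
    by_cases hxq : x ∈ q
    · exact ⟨x, hxq, hprime hx0⟩
    · exact e_localufd_prime_of_notMem R x hx h q hq0 hq hxq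

end Fermat.Agent.S18
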