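import Fermat.Agent.S18.EInterfaces2

set_option autoImplicit false

namespace Fermat.Agent.S18

open Polynomial in
/-- Every element of a characteristic-zero field algebraic over `ℚ` is a root of a primitive
integer polynomial. -/
theorem e_baseringTB_primitive (a : AlgebraicClosure ℚ) :
    ∃ p : Polynomial ℤ, p.IsPrimitive ∧ Polynomial.eval₂ (Int.castRingHom (AlgebraicClosure ℚ)) a p = 0 := by
  have ha : IsAlgebraic ℚ a := (AlgebraicClosure.isAlgebraic ℚ).isAlgebraic a
  have ha' : IsAlgebraic ℤ a := (IsFractionRing.isAlgebraic_iff ℤ ℚ (AlgebraicClosure ℚ)).mpr ha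
  obtain ⟨p, hp0, hp⟩ := ha'
  refine ⟨p.primPart, p.isPrimitive_primPart, ?_⟩
  have h1 : p = C p.content * p.primPart := p.eq_C_content_mul_primPart
  have hc : p.content ≠ 0 := by
    intro h
    exact hp0 (Polynomial.content_eq_zero_iff.mp h)
  rw [Polynomial.aeval_def] at hp
  have h2 : (algebraMap ℤ (AlgebraicClosure ℚ)) = Int.castRingHom (AlgebraicClosure ℚ) := rfl
  rw [h2, h1, Polynomial.eval₂_mul, Polynomial.eval₂_C] at hp
  rcases mul_eq_zero.mp hp with h | h
  · exfalso
    exact hc (by simpa using h)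
  · exact h

open Polynomial in
/-- A nonzero element of a field of characteristic `ℓ` which is a root of a primitive integer
polynomial has finite order prime to `ℓ`. -/
theorem e_baseringTB_finorder (ℓ : ℕ) [Fact ℓ.Prime] (k : Type) [Field k] [CharP k ℓ]
    (x : k) (hx : x ≠ 0) (p : Polynomial ℤ) (hp : p.IsPrimitive)
    (h : Polynomial.eval₂ (Int.castRingHom k) x p = 0) :
    ∃ m : ℕ, 0 < m ∧ ¬ ℓ ∣ m ∧ x ^ m = 1 := by
  let : Algebra (ZMod ℓ) k := ZMod.algebra k ℓ
  have hq0 : p.map (Int.castRingHom (ZMod ℓ)) ≠ 0 := by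
    intro h0
    have hdvd : C (ℓ : ℤ) ∣ p := by
      rw [Polynomial.C_dvd_iff_dvd_coeff]
      intro i
      have := congrArg (fun q => q.coeff i) h0
      simp only [Polynomial.coeff_map, Polynomial.coeff_zero] at this
      exact (ZMod.intCast_zmod_eq_zero_iff_dvd _ _).mp this
    have hu := hp _ hdvd
    have := Int.isUnit_iff.mp hu
    have hl : 2 ≤ ℓ := (Fact.out : ℓ.Prime).two_le
    omega
  have halg : IsAlgebraic (ZMod ℓ) x := by
    refine ⟨p.map (Int.castRingHom (ZMod ℓ)), hq0, ?_⟩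
    rw [Polynomial.aeval_def, Polynomial.eval₂_map]
    have : (algebraMap (ZMod ℓ) k).comp (Int.castRingHom (ZMod ℓ)) = Int.castRingHom k :=
      RingHom.ext_int _ _
    rw [this]; exact h
  have hfd : FiniteDimensional (ZMod ℓ) (IntermediateField.adjoin (ZMod ℓ) {x}) :=
    IntermediateField.adjoin.finiteDimensional halg.isIntegral
  have : Finite (IntermediateField.adjoin (ZMod ℓ) {x}) := Module.finite_of_finite (ZMod ℓ)
  let : Fintype (IntermediateField.adjoin (ZMod ℓ) {x}) := Fintype.ofFinite _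
  let y : IntermediateField.adjoin (ZMod ℓ) {x} := ⟨x, IntermediateField.mem_adjoin_simple_self _ x⟩
  have hy : y ≠ 0 := by
    intro h0
    exact hx (congrArg Subtype.val h0)
  have hpow := FiniteField.pow_card_sub_one_eq_one y hy
  have : CharP (IntermediateField.adjoin (ZMod ℓ) {x}) ℓ :=
    charP_of_injective_algebraMap (algebraMap (ZMod ℓ) _).injective ℓ
  obtain ⟨n, hprime, hcard⟩ := FiniteField.card (IntermediateField.adjoin (ZMod ℓ) {x}) ℓ
  have hl : 2 ≤ ℓ := (Fact.out : ℓ.Prime).two_le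
  have hdvd : ℓ ∣ Fintype.card (IntermediateField.adjoin (ZMod ℓ) {x}) := by
    rw [hcard]; exact dvd_pow_self _ n.ne_zero
  have hcard2 : 2 ≤ Fintype.card (IntermediateField.adjoin (ZMod ℓ) {x}) :=
    le_trans hl (Nat.le_of_dvd Fintype.card_pos hdvd)
  refine ⟨Fintype.card (IntermediateField.adjoin (ZMod ℓ) {x}) - 1, by omega, ?_, ?_⟩
  · intro hd
    have : ℓ ∣ 1 := by
      have := Nat.dvd_sub hdvd hd
      rwa [Nat.sub_sub_self (by omega)] at this
    have := Nat.le_of_dvd one_pos this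
    omega
  · have := congrArg Subtype.val hpow
    simpa [y] using this

/-- Lifting roots of unity along the residue map of a valuation ring, when the fraction field
contains a primitive `m`-th root of unity. -/
theorem e_baseringTB_lift (K : Type) [Field K] (A : ValuationSubring K) (m : ℕ) (hm : 0 < m)
    (ζ₀ : K) (hζ₀ : IsPrimitiveRoot ζ₀ m) (a : ↥A)
    (ha : IsLocalRing.residue ↥A a ^ m = 1) :
    ∃ ζ : ↥A, (ζ : K) ^ m = 1 ∧ IsLocalRing.residue ↥A ζ = IsLocalRing.residue ↥A a := by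
  classical
  -- roots of unity lie in `A`
  have hmem : ∀ ζ : K, ζ ^ m = 1 → ζ ∈ A := by
    intro ζ hζ
    rcases A.mem_or_inv_mem ζ with h | h
    · exact h
    · have : ζ = (ζ⁻¹) ^ (m - 1) := by
        have hz : ζ ≠ 0 := by
          intro h0
          rw [h0, zero_pow hm.ne'] at hζ
          exact zero_ne_one hζ
        have h1 : ζ * ζ ^ (m - 1) = 1 := by
          rw [← pow_succ', Nat.sub_add_cancel hm, hζ]
        rw [inv_pow]
        exact eq_inv_of_mul_eq_one_left h1
      rw [this]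
      exact pow_mem h _
  let f : K → ↥A := fun ζ => if h : ζ ∈ A then ⟨ζ, h⟩ else 0
  have hf : ∀ ζ : K, ζ ^ m = 1 → ((f ζ : ↥A) : K) = ζ := by
    intro ζ hζ
    simp only [f, dif_pos (hmem ζ hζ)]
  have hprod := Polynomial.X_pow_sub_one_eq_prod hm hζ₀
  have hev := congrArg (Polynomial.eval (a : K)) hprod
  rw [Polynomial.eval_prod] at hev
  simp only [Polynomial.eval_sub, Polynomial.eval_pow, Polynomial.eval_X, Polynomial.eval_one,
    Polynomial.eval_C] at hev
  have hA : a ^ m - 1 = ∏ ζ ∈ Polynomial.nthRootsFinset m (1 : K), (a - f ζ) := by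
    apply Subtype.ext
    push_cast
    rw [hev]
    refine Finset.prod_congr rfl ?_
    intro ζ hζ
    rw [hf ζ ((Polynomial.mem_nthRootsFinset hm 1).mp hζ)]
  have hres := congrArg (IsLocalRing.residue ↥A) hA
  rw [map_sub, map_pow, map_one, ha, sub_self, map_prod] at hres
  obtain ⟨ζ, hζ, hz⟩ := Finset.prod_eq_zero_iff.mp hres.symm
  refine ⟨f ζ, ?_, ?_⟩
  · have h1 := (Polynomial.mem_nthRootsFinset hm 1).mp hζ
    rw [hf ζ h1, h1]
  · rw [map_sub, sub_eq_zero] at hz
    exact hz.symm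

set_option synthInstance.maxHeartbeats 400000 in
theorem e_baseringTB_main (ℓ : ℕ) [Fact ℓ.Prime] (A : ValuationSubring (AlgebraicClosure ℚ))
    (hA : (ℓ : AlgebraicClosure ℚ) ∈ A.nonunits) (x : IsLocalRing.ResidueField ↥A) (hx : x ≠ 0) :
    ∃ (m : ℕ) (ζ : ↥A), ¬ ℓ ∣ m ∧ (ζ : AlgebraicClosure ℚ) ^ m = 1 ∧ IsLocalRing.residue ↥A ζ = x := by
  obtain ⟨a, rfl⟩ := IsLocalRing.residue_surjective x
  -- characteristic of the residue field
  have hℓ0 : ((ℓ : ℕ) : IsLocalRing.ResidueField ↥A) = 0 := by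
    have h1 : ((ℓ : ↥A) : AlgebraicClosure ℚ) ∈ A.nonunits := by
      simpa using hA
    have h2 := ValuationSubring.coe_mem_nonunits_iff.mp h1
    have h3 := (IsLocalRing.residue_eq_zero_iff (ℓ : ↥A)).mpr h2
    simpa using h3
  have : CharP (IsLocalRing.ResidueField ↥A) ℓ := by
    have := CharP.exists (IsLocalRing.ResidueField ↥A)
    obtain ⟨c, hc⟩ := this
    have hdvd : c ∣ ℓ := (CharP.cast_eq_zero_iff (IsLocalRing.ResidueField ↥A) c ℓ).mp hℓ0
    rcases (Nat.dvd_prime (Fact.out : ℓ.Prime)).mp hdvd with h | h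
    · subst h
      have h1 : ((1 : ℕ) : IsLocalRing.ResidueField ↥A) = 0 := CharP.cast_eq_zero _ 1
      rw [Nat.cast_one] at h1
      exact absurd h1 one_ne_zero
    · subst h; exact hc
  obtain ⟨p, hp, hpa⟩ := e_baseringTB_primitive (a : AlgebraicClosure ℚ)
  have hpa' : Polynomial.eval₂ (Int.castRingHom ↥A) a p = 0 := by
    apply Subtype.ext
    have := Polynomial.hom_eval₂ p (Int.castRingHom ↥A) A.subtype a
    have h2 : A.subtype.comp (Int.castRingHom ↥A) = Int.castRingHom (AlgebraicClosure ℚ) :=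
      RingHom.ext_int _ _
    rw [h2] at this
    change A.subtype _ = _
    rw [this]
    exact hpa
  have hpx : Polynomial.eval₂ (Int.castRingHom (IsLocalRing.ResidueField ↥A))
      (IsLocalRing.residue ↥A a) p = 0 := by
    have := Polynomial.hom_eval₂ p (Int.castRingHom ↥A) (IsLocalRing.residue ↥A) a
    have h2 : (IsLocalRing.residue ↥A).comp (Int.castRingHom ↥A) =
        Int.castRingHom (IsLocalRing.ResidueField ↥A) := RingHom.ext_int _ _
    rw [h2, hpa', map_zero] at this
    exact this.symm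
  obtain ⟨m, hm, hℓm, hxm⟩ := e_baseringTB_finorder ℓ (IsLocalRing.ResidueField ↥A)
    (IsLocalRing.residue ↥A a) hx p hp hpx
  have : NeZero (m : ℚ) := ⟨by exact_mod_cast hm.ne'⟩
  obtain ⟨ζ₀, hζ₀⟩ := HasEnoughRootsOfUnity.exists_primitiveRoot (AlgebraicClosure ℚ) m
  obtain ⟨ζ, hζ, hres⟩ := e_baseringTB_lift (AlgebraicClosure ℚ) A m hm ζ₀ hζ₀ a hxm
  exact ⟨m, ζ, hℓm, hζ, hres⟩

end Fermat.Agent.S18
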