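import Fermat.Agent.S18.EInterfaces2
set_option autoImplicit false

namespace Fermat.Agent.S18

/-- An integer not divisible by `ℓ` is a unit of `A`. -/
theorem e_baseringTC_int_unit (ℓ : ℕ) [Fact ℓ.Prime]
    (A : ValuationSubring (AlgebraicClosure ℚ)) (hA : (ℓ : AlgebraicClosure ℚ) ∈ A.nonunits)
    (a : ℤ) (ha : ¬ (ℓ : ℤ) ∣ a) :
    (a : AlgebraicClosure ℚ) ∈ A ∧ ((a : AlgebraicClosure ℚ))⁻¹ ∈ A := by
  have haA : (a : AlgebraicClosure ℚ) ∈ A := intCast_mem A a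
  refine ⟨haA, ?_⟩
  by_contra hinv
  have hℓ : A.valuation (ℓ : AlgebraicClosure ℚ) < 1 := A.mem_nonunits_iff.1 hA
  have hle : A.valuation (a : AlgebraicClosure ℚ) ≤ 1 := (A.valuation_le_one_iff _).2 haA
  have hlt : A.valuation (a : AlgebraicClosure ℚ) < 1 := by
    rcases lt_or_eq_of_le hle with h | h
    · exact h
    · exfalso
      apply hinv
      apply (A.valuation_le_one_iff _).1
      rw [map_inv₀, h, inv_one]
  have hcop : IsCoprime a (ℓ : ℤ) := by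
    have hp : Prime (ℓ : ℤ) := Nat.prime_iff_prime_int.mp (Fact.out : ℓ.Prime)
    exact ((hp.coprime_iff_not_dvd).2 ha).symm
  obtain ⟨s, t, hst⟩ := hcop
  have h1 : (s : AlgebraicClosure ℚ) * a + t * ℓ = 1 := by exact_mod_cast congrArg (Int.cast : ℤ → AlgebraicClosure ℚ) hst
  have hs : A.valuation (s : AlgebraicClosure ℚ) ≤ 1 := (A.valuation_le_one_iff _).2 (intCast_mem A s)
  have ht : A.valuation (t : AlgebraicClosure ℚ) ≤ 1 := (A.valuation_le_one_iff _).2 (intCast_mem A t)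
  have h2 : A.valuation ((s : AlgebraicClosure ℚ) * a + t * ℓ) < 1 := by
    apply Valuation.map_add_lt
    · rw [map_mul]
      exact mul_lt_one_of_nonneg_of_lt_one_right hs zero_le hlt
    · rw [map_mul]
      exact mul_lt_one_of_nonneg_of_lt_one_right ht zero_le hℓ
  rw [h1, map_one] at h2
  exact lt_irrefl _ h2

/-- A natural number not divisible by `ℓ` is a unit of `A`. -/
theorem e_baseringTC_nat_unit (ℓ : ℕ) [Fact ℓ.Prime]
    (A : ValuationSubring (AlgebraicClosure ℚ)) (hA : (ℓ : AlgebraicClosure ℚ) ∈ A.nonunits)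
    (a : ℕ) (ha : ¬ ℓ ∣ a) :
    (a : AlgebraicClosure ℚ) ∈ A ∧ ((a : AlgebraicClosure ℚ))⁻¹ ∈ A := by
  have h := e_baseringTC_int_unit ℓ A hA (a : ℤ) (by rwa [Int.natCast_dvd_natCast])
  simpa using h

/-- Every nonzero rational is `ℓ^n * u` with `u` a unit of `A`. -/
theorem e_baseringTC_rat (ℓ : ℕ) [Fact ℓ.Prime]
    (A : ValuationSubring (AlgebraicClosure ℚ)) (hA : (ℓ : AlgebraicClosure ℚ) ∈ A.nonunits)
    (q : ℚ) (hq : q ≠ 0) :
    ∃ (n : ℤ) (u : AlgebraicClosure ℚ), u ∈ A ∧ u⁻¹ ∈ A ∧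
      (algebraMap ℚ (AlgebraicClosure ℚ) q) = (ℓ : AlgebraicClosure ℚ) ^ n * u := by
  have hℓ : ℓ.Prime := Fact.out
  have hℓ0 : (ℓ : AlgebraicClosure ℚ) ≠ 0 := by exact_mod_cast hℓ.ne_zero
  have hnum : q.num.natAbs ≠ 0 := by simpa using hq
  obtain ⟨i, a, ha, hia⟩ := Nat.exists_eq_pow_mul_and_not_dvd hnum ℓ hℓ.ne_one
  obtain ⟨j, b, hb, hjb⟩ := Nat.exists_eq_pow_mul_and_not_dvd q.den_ne_zero ℓ hℓ.ne_one
  obtain ⟨haA, haI⟩ := e_baseringTC_nat_unit ℓ A hA a ha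
  obtain ⟨hbA, hbI⟩ := e_baseringTC_nat_unit ℓ A hA b hb
  have ha0 : (a : AlgebraicClosure ℚ) ≠ 0 := by
    have : a ≠ 0 := by rintro rfl; exact ha (dvd_zero _)
    exact_mod_cast this
  have hb0 : (b : AlgebraicClosure ℚ) ≠ 0 := by
    have : b ≠ 0 := by rintro rfl; exact hb (dvd_zero _)
    exact_mod_cast this
  have hqeq : (algebraMap ℚ (AlgebraicClosure ℚ) q)
      = (q.num : AlgebraicClosure ℚ) / (q.den : AlgebraicClosure ℚ) := by
    conv_lhs => rw [← Rat.num_div_den q]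
    simp
  have hden : (q.den : AlgebraicClosure ℚ) = (ℓ : AlgebraicClosure ℚ) ^ j * b := by
    exact_mod_cast congrArg (Nat.cast : ℕ → AlgebraicClosure ℚ) hjb
  have habs : ((q.num.natAbs : ℕ) : AlgebraicClosure ℚ) = (ℓ : AlgebraicClosure ℚ) ^ i * a := by
    exact_mod_cast congrArg (Nat.cast : ℕ → AlgebraicClosure ℚ) hia
  have hnumcase : (q.num : AlgebraicClosure ℚ) = (ℓ : AlgebraicClosure ℚ) ^ i * a ∨
      (q.num : AlgebraicClosure ℚ) = (ℓ : AlgebraicClosure ℚ) ^ i * (-a) := by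
    rcases Int.natAbs_eq q.num with h | h
    · left
      rw [← habs]
      conv_lhs => rw [h]
      simp
    · right
      rw [mul_neg, ← habs]
      conv_lhs => rw [h]
      simp
  rcases hnumcase with h | h
  · refine ⟨(i : ℤ) - j, (a : AlgebraicClosure ℚ) * (b : AlgebraicClosure ℚ)⁻¹,
      A.mul_mem _ _ haA hbI, ?_, ?_⟩
    · rw [mul_inv, inv_inv]
      exact A.mul_mem _ _ haI hbA
    · rw [hqeq, h, hden, zpow_sub₀ hℓ0, zpow_natCast, zpow_natCast]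
      field_simp
  · refine ⟨(i : ℤ) - j, (-(a : AlgebraicClosure ℚ)) * (b : AlgebraicClosure ℚ)⁻¹,
      A.mul_mem _ _ (A.neg_mem _ haA) hbI, ?_, ?_⟩
    · rw [mul_inv, inv_inv, inv_neg]
      exact A.mul_mem _ _ (A.neg_mem _ haI) hbA
    · rw [hqeq, h, hden, zpow_sub₀ hℓ0, zpow_natCast, zpow_natCast]
      field_simp

theorem e_baseringTC_main (hU : e_UnramStatement) (ℓ : ℕ) [Fact ℓ.Prime]
    (A : ValuationSubring (AlgebraicClosure ℚ)) (hA : (ℓ : AlgebraicClosure ℚ) ∈ A.nonunits)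
    (m : ℕ) (hm : ¬ ℓ ∣ m) (ζ : AlgebraicClosure ℚ) (hζ : ζ ^ m = 1) :
    ∀ x ∈ Subfield.closure ({ζ} : Set (AlgebraicClosure ℚ)), x ≠ 0 →
      ∃ (n : ℤ) (u : AlgebraicClosure ℚ), u ∈ A ∧ u⁻¹ ∈ A ∧ x = (ℓ : AlgebraicClosure ℚ) ^ n * u := by
  have hℓ : ℓ.Prime := Fact.out
  have hℓ0 : (ℓ : AlgebraicClosure ℚ) ≠ 0 := by exact_mod_cast hℓ.ne_zero
  have hm0 : m ≠ 0 := by rintro rfl; exact hm (dvd_zero _)
  obtain ⟨k, rfl⟩ : ∃ k, m = k + 1 := Nat.exists_eq_succ_of_ne_zero hm0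
  obtain ⟨hmA, hmI⟩ := e_baseringTC_nat_unit ℓ A hA (k + 1) hm
  have hζ0 : ζ ≠ 0 := by
    rintro rfl
    simp at hζ
  have hζk : ζ * ζ ^ k = 1 := by rw [← pow_succ', hζ]
  have hζinv : ζ⁻¹ = ζ ^ k := inv_eq_of_mul_eq_one_right hζk
  have hζeq : ζ = (ζ⁻¹) ^ k := by
    rw [inv_pow]
    exact eq_inv_of_mul_eq_one_left hζk
  have hζA : ζ ∈ A := by
    rcases A.mem_or_inv_mem ζ with h | h
    · exact h
    · rw [hζeq]; exact pow_mem h k
  have hζIA : ζ⁻¹ ∈ A := by rw [hζinv]; exact pow_mem hζA k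
  set E₀ : Subfield (AlgebraicClosure ℚ) := (algebraMap ℚ (AlgebraicClosure ℚ)).fieldRange with hE₀
  have hcoeffE : ∀ i, ((Polynomial.X ^ (k + 1) - 1 : Polynomial (AlgebraicClosure ℚ))).coeff i ∈ E₀ := by
    intro i
    rw [Polynomial.coeff_sub, Polynomial.coeff_X_pow, Polynomial.coeff_one]
    split_ifs <;> simp [E₀.one_mem, E₀.zero_mem, E₀.neg_mem]
  have hcoeffA : ∀ i, ((Polynomial.X ^ (k + 1) - 1 : Polynomial (AlgebraicClosure ℚ))).coeff i ∈ A := by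
    intro i
    rw [Polynomial.coeff_sub, Polynomial.coeff_X_pow, Polynomial.coeff_one]
    split_ifs <;> simp [A.one_mem, A.zero_mem, A.neg_mem]
  have key := hU (AlgebraicClosure ℚ) A E₀ (ℓ : AlgebraicClosure ℚ)
    ⟨(ℓ : ℚ), by simp⟩ hℓ0 hA
    (by
      rintro x ⟨q, rfl⟩ hx
      have hq : q ≠ 0 := by rintro rfl; simp at hx
      exact e_baseringTC_rat ℓ A hA q hq)
    ζ (Polynomial.X ^ (k + 1) - 1)
    (Polynomial.monic_X_pow_sub_C (1 : AlgebraicClosure ℚ) (Nat.succ_ne_zero k))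
    hcoeffE hcoeffA hζA (by simp [hζ])
    (by
      have : Polynomial.eval ζ (Polynomial.derivative
          (Polynomial.X ^ (k + 1) - 1 : Polynomial (AlgebraicClosure ℚ)))
          = ((k + 1 : ℕ) : AlgebraicClosure ℚ) * ζ ^ k := by
        simp
      rw [this, mul_inv, ← hζinv, inv_inv]
      exact A.mul_mem _ _ hmI hζA)
  intro x hx hx0
  exact key x (Subfield.closure_mono (Set.subset_union_right) hx) hx0

end Fermat.Agent.S18
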