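/-
S18, package BaseRing (twin T), part D: abstract lemmas.
* `e_baseringTD_dvr`: if a valuation ring `A` of `Ω` induces on a field `L` (via `ι : L →+* Ω`) a
  discrete valuation with uniformiser `ϖ`, then `A.comap ι` is a discrete valuation ring, `ϖ` is
  irreducible and divides exactly the elements mapping to nonunits of `A`.
* `e_baseringTD_oneRoot`: an element of the field generated by roots of unity of order prime to `ℓ`
  lies in the field generated by one such root of unity.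
* `e_baseringTD_fingen`: finite generation of `E(S)` over `E`.
-/
import Fermat.Agent.S18.EInterfaces2

set_option autoImplicit false

namespace Fermat.Agent.S18

section Abstract

variable {Ω : Type} [Field Ω] (A : ValuationSubring Ω) {L : Type} [Field L] (ι : L →+* Ω)

theorem e_baseringTD_val_unit (u : Ω) (hu : u ∈ A) (hu' : u⁻¹ ∈ A) (hu0 : u ≠ 0) :
    A.valuation u = 1 := by
  have h1 : A.valuation u ≤ 1 := (A.valuation_le_one_iff u).mpr hu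
  have h2 : A.valuation u⁻¹ ≤ 1 := (A.valuation_le_one_iff _).mpr hu'
  rw [map_inv₀] at h2
  have h0 : A.valuation u ≠ 0 := (map_ne_zero _).mpr hu0
  have h3 : 1 ≤ A.valuation u := by
    rwa [inv_le_one₀ (zero_lt_iff.mpr h0)] at h2
  exact le_antisymm h1 h3

theorem e_baseringTD_factor (ϖ : ↥(A.comap ι)) (hϖ0 : ϖ ≠ 0) (hϖ : ι (ϖ : L) ∈ A.nonunits)
    (hd : ∀ x : L, x ≠ 0 → ∃ (n : ℤ) (u : Ω), u ∈ A ∧ u⁻¹ ∈ A ∧ ι x = ι (ϖ : L) ^ n * u)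
    (x : ↥(A.comap ι)) (hx : x ≠ 0) : ∃ (n : ℕ) (u : (↥(A.comap ι))ˣ), x = ϖ ^ n * u := by
  have hx' : (x : L) ≠ 0 := fun h => hx (Subtype.ext h)
  have hϖ' : (ϖ : L) ≠ 0 := fun h => hϖ0 (Subtype.ext h)
  obtain ⟨n, u, hu, hu', hxe⟩ := hd x hx'
  have hιx : ι (x : L) ≠ 0 := (map_ne_zero ι).mpr hx'
  have hιϖ : ι (ϖ : L) ≠ 0 := (map_ne_zero ι).mpr hϖ'
  have hu0 : u ≠ 0 := by
    rintro rfl
    rw [mul_zero] at hxe
    exact hιx hxe
  have hvu : A.valuation u = 1 := e_baseringTD_val_unit A u hu hu' hu0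
  have hvϖ : A.valuation (ι (ϖ : L)) < 1 := (A.mem_nonunits_iff).mp hϖ
  have hvϖ0 : 0 < A.valuation (ι (ϖ : L)) := zero_lt_iff.mpr ((map_ne_zero _).mpr hιϖ)
  have hvx : A.valuation (ι (x : L)) ≤ 1 := (A.valuation_le_one_iff _).mpr x.2
  have hn : 0 ≤ n := by
    by_contra hneg
    rw [not_le] at hneg
    have h1 := one_lt_zpow_of_neg₀ hvϖ0 hvϖ hneg
    rw [hxe, map_mul, map_zpow₀, hvu, mul_one] at hvx
    exact absurd hvx (not_le.mpr h1)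
  obtain ⟨k, rfl⟩ := Int.eq_ofNat_of_zero_le hn
  -- the unit
  have hιu : ι ((x : L) / (ϖ : L) ^ k) = u := by
    rw [map_div₀, map_pow, hxe, zpow_natCast, mul_comm, mul_div_assoc, div_self (pow_ne_zero _ hιϖ),
      mul_one]
  have hιu' : ι (((x : L) / (ϖ : L) ^ k)⁻¹) = u⁻¹ := by rw [map_inv₀, hιu]
  let v : ↥(A.comap ι) := ⟨(x : L) / (ϖ : L) ^ k, by
    show ι _ ∈ A
    rw [hιu]; exact hu⟩
  let v' : ↥(A.comap ι) := ⟨((x : L) / (ϖ : L) ^ k)⁻¹, by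
    show ι _ ∈ A
    rw [hιu']; exact hu'⟩
  have hvv' : v * v' = 1 := by
    apply Subtype.ext
    show (x : L) / (ϖ : L) ^ k * ((x : L) / (ϖ : L) ^ k)⁻¹ = 1
    exact mul_inv_cancel₀ (div_ne_zero hx' (pow_ne_zero _ hϖ'))
  refine ⟨k, ⟨v, v', hvv', by rw [mul_comm]; exact hvv'⟩, ?_⟩
  apply Subtype.ext
  show (x : L) = (ϖ : L) ^ k * ((x : L) / (ϖ : L) ^ k)
  rw [mul_div_cancel₀ _ (pow_ne_zero _ hϖ')]

theorem e_baseringTD_not_isUnit (ϖ : ↥(A.comap ι)) (hϖ : ι (ϖ : L) ∈ A.nonunits) :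
    ¬ IsUnit ϖ := by
  rintro ⟨⟨a, b, hab, hba⟩, rfl⟩
  have h1 : ι (a : L) * ι (b : L) = 1 := by
    rw [← map_mul]
    have := congrArg (fun z : ↥(A.comap ι) => ι (z : L)) hab
    simpa using this
  have hvϖ : A.valuation (ι (a : L)) < 1 := (A.mem_nonunits_iff).mp hϖ
  have hvb : A.valuation (ι (b : L)) ≤ 1 := (A.valuation_le_one_iff _).mpr b.2
  have := congrArg A.valuation h1
  rw [map_mul, map_one] at this
  have h2 : A.valuation (ι (a : L)) * A.valuation (ι (b : L)) < 1 := by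
    calc A.valuation (ι (a : L)) * A.valuation (ι (b : L))
        ≤ A.valuation (ι (a : L)) * 1 := mul_le_mul_right hvb _
      _ < 1 := by rwa [mul_one]
  exact absurd this (ne_of_lt h2)

theorem e_baseringTD_irreducible (ϖ : ↥(A.comap ι)) (hϖ0 : ϖ ≠ 0) (hϖ : ι (ϖ : L) ∈ A.nonunits)
    (hd : ∀ x : L, x ≠ 0 → ∃ (n : ℤ) (u : Ω), u ∈ A ∧ u⁻¹ ∈ A ∧ ι x = ι (ϖ : L) ^ n * u) :
    Irreducible ϖ := by
  have hnu := e_baseringTD_not_isUnit A ι ϖ hϖ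
  refine ⟨hnu, ?_⟩
  intro a b hab
  have ha0 : a ≠ 0 := by rintro rfl; exact hϖ0 (by rw [hab, zero_mul])
  have hb0 : b ≠ 0 := by rintro rfl; exact hϖ0 (by rw [hab, mul_zero])
  obtain ⟨i, u, rfl⟩ := e_baseringTD_factor A ι ϖ hϖ0 hϖ hd a ha0
  obtain ⟨j, w, rfl⟩ := e_baseringTD_factor A ι ϖ hϖ0 hϖ hd b hb0
  rcases Nat.eq_zero_or_pos i with rfl | hi
  · left; simp
  rcases Nat.eq_zero_or_pos j with rfl | hj
  · right; simp
  exfalso
  obtain ⟨i, rfl⟩ := Nat.exists_eq_succ_of_ne_zero hi.ne'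
  obtain ⟨j, rfl⟩ := Nat.exists_eq_succ_of_ne_zero hj.ne'
  have h1 : ϖ * 1 = ϖ * (ϖ * (ϖ ^ i * ϖ ^ j * (u * w : (↥(A.comap ι))ˣ))) := by
    rw [mul_one]
    conv_lhs => rw [hab]
    rw [Nat.succ_eq_add_one, Nat.succ_eq_add_one]
    push_cast
    ring
  have h2 := mul_left_cancel₀ hϖ0 h1
  exact hnu (IsUnit.of_mul_eq_one _ h2.symm)

theorem e_baseringTD_dvr (ϖ : ↥(A.comap ι)) (hϖ0 : ϖ ≠ 0) (hϖ : ι (ϖ : L) ∈ A.nonunits)
    (hd : ∀ x : L, x ≠ 0 → ∃ (n : ℤ) (u : Ω), u ∈ A ∧ u⁻¹ ∈ A ∧ ι x = ι (ϖ : L) ^ n * u) :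
    IsDiscreteValuationRing ↥(A.comap ι) := by
  apply IsDiscreteValuationRing.ofHasUnitMulPowIrreducibleFactorization
  refine ⟨ϖ, e_baseringTD_irreducible A ι ϖ hϖ0 hϖ hd, ?_⟩
  intro x hx
  obtain ⟨n, u, rfl⟩ := e_baseringTD_factor A ι ϖ hϖ0 hϖ hd x hx
  exact ⟨n, u, rfl⟩

theorem e_baseringTD_dvd_iff (ϖ : ↥(A.comap ι)) (hϖ0 : ϖ ≠ 0) (hϖ : ι (ϖ : L) ∈ A.nonunits)
    (hd : ∀ x : L, x ≠ 0 → ∃ (n : ℤ) (u : Ω), u ∈ A ∧ u⁻¹ ∈ A ∧ ι x = ι (ϖ : L) ^ n * u)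
    (x : ↥(A.comap ι)) : ι (x : L) ∈ A.nonunits ↔ ϖ ∣ x := by
  constructor
  · intro hx
    rcases eq_or_ne x 0 with rfl | hx0
    · exact dvd_zero _
    obtain ⟨n, u, rfl⟩ := e_baseringTD_factor A ι ϖ hϖ0 hϖ hd x hx0
    rcases Nat.eq_zero_or_pos n with rfl | hn
    · exfalso
      rw [pow_zero, one_mul] at hx
      exact e_baseringTD_not_isUnit A ι (u : ↥(A.comap ι)) hx u.isUnit
    · exact Dvd.dvd.mul_right (dvd_pow_self ϖ hn.ne') _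
  · rintro ⟨y, rfl⟩
    rw [A.mem_nonunits_iff]
    have hvϖ : A.valuation (ι (ϖ : L)) < 1 := (A.mem_nonunits_iff).mp hϖ
    have hvy : A.valuation (ι (y : L)) ≤ 1 := (A.valuation_le_one_iff _).mpr y.2
    show A.valuation (ι ((ϖ : L) * (y : L))) < 1
    rw [map_mul, map_mul]
    calc A.valuation (ι (ϖ : L)) * A.valuation (ι (y : L))
        ≤ A.valuation (ι (ϖ : L)) * 1 := mul_le_mul_right hvy _
      _ < 1 := by rwa [mul_one]

end Abstract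

section Roots

variable {K : Type} [Field K] [IsAlgClosed K] [CharZero K]

theorem e_baseringTD_join (m m' : ℕ) (hm : m ≠ 0) (hm' : m' ≠ 0) (ζ ζ' : K) (hζ : ζ ^ m = 1)
    (hζ' : ζ' ^ m' = 1) :
    ∃ ξ : K, ξ ^ (m * m') = 1 ∧ Subfield.closure ({ζ} : Set K) ≤ Subfield.closure ({ξ} : Set K) ∧
      Subfield.closure ({ζ'} : Set K) ≤ Subfield.closure ({ξ} : Set K) := by
  have : NeZero (m * m') := ⟨mul_ne_zero hm hm'⟩
  have : NeZero ((m * m' : ℕ) : K) := ⟨Nat.cast_ne_zero.mpr (mul_ne_zero hm hm')⟩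
  obtain ⟨ξ, hξ⟩ := HasEnoughRootsOfUnity.exists_primitiveRoot K (m * m')
  have h1 : ζ ^ (m * m') = 1 := by rw [pow_mul, hζ, one_pow]
  have h2 : ζ' ^ (m * m') = 1 := by rw [mul_comm, pow_mul, hζ', one_pow]
  obtain ⟨i, -, rfl⟩ := hξ.eq_pow_of_pow_eq_one h1
  obtain ⟨j, -, rfl⟩ := hξ.eq_pow_of_pow_eq_one h2
  have hξm : ξ ∈ Subfield.closure ({ξ} : Set K) := Subfield.subset_closure (Set.mem_singleton ξ)
  refine ⟨ξ, hξ.pow_eq_one, ?_, ?_⟩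
  · rw [Subfield.closure_le, Set.singleton_subset_iff]
    exact pow_mem hξm i
  · rw [Subfield.closure_le, Set.singleton_subset_iff]
    exact pow_mem hξm j

theorem e_baseringTD_oneRoot (ℓ : ℕ) [Fact ℓ.Prime] (x : K)
    (hx : x ∈ Subfield.closure {ζ : K | ∃ m : ℕ, ¬ ℓ ∣ m ∧ ζ ^ m = 1}) :
    ∃ (m : ℕ) (ζ : K), ¬ ℓ ∣ m ∧ ζ ^ m = 1 ∧ x ∈ Subfield.closure ({ζ} : Set K) := by
  have hℓ : ℓ.Prime := Fact.out
  have key : ∀ (m m' : ℕ) (ζ ζ' : K), ¬ ℓ ∣ m → ζ ^ m = 1 → ¬ ℓ ∣ m' → ζ' ^ m' = 1 →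
      ∃ (m'' : ℕ) (ξ : K), ¬ ℓ ∣ m'' ∧ ξ ^ m'' = 1 ∧
        Subfield.closure ({ζ} : Set K) ≤ Subfield.closure ({ξ} : Set K) ∧
        Subfield.closure ({ζ'} : Set K) ≤ Subfield.closure ({ξ} : Set K) := by
    intro m m' ζ ζ' hm hζ hm' hζ'
    have hm0 : m ≠ 0 := by rintro rfl; exact hm (dvd_zero _)
    have hm0' : m' ≠ 0 := by rintro rfl; exact hm' (dvd_zero _)
    obtain ⟨ξ, hξ, h1, h2⟩ := e_baseringTD_join m m' hm0 hm0' ζ ζ' hζ hζ'
    refine ⟨m * m', ξ, ?_, hξ, h1, h2⟩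
    intro h
    rcases (Nat.Prime.dvd_mul hℓ).mp h with h | h
    · exact hm h
    · exact hm' h
  induction hx using Subfield.closure_induction with
  | mem x hx =>
    obtain ⟨m, hm, hxm⟩ := hx
    exact ⟨m, x, hm, hxm, Subfield.subset_closure rfl⟩
  | one => exact ⟨1, 1, hℓ.one_lt.ne' ∘ Nat.dvd_one.mp, by simp, one_mem _⟩
  | add x y _ _ hx hy =>
    obtain ⟨m, ζ, hm, hζ, hxm⟩ := hx
    obtain ⟨m', ζ', hm', hζ', hym⟩ := hy
    obtain ⟨m'', ξ, hm'', hξ, h1, h2⟩ := key m m' ζ ζ' hm hζ hm' hζ'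
    exact ⟨m'', ξ, hm'', hξ, add_mem (h1 hxm) (h2 hym)⟩
  | neg x _ hx =>
    obtain ⟨m, ζ, hm, hζ, hxm⟩ := hx
    exact ⟨m, ζ, hm, hζ, neg_mem hxm⟩
  | inv x _ hx =>
    obtain ⟨m, ζ, hm, hζ, hxm⟩ := hx
    exact ⟨m, ζ, hm, hζ, inv_mem hxm⟩
  | mul x y _ _ hx hy =>
    obtain ⟨m, ζ, hm, hζ, hxm⟩ := hx
    obtain ⟨m', ζ', hm', hζ', hym⟩ := hy
    obtain ⟨m'', ξ, hm'', hξ, h1, h2⟩ := key m m' ζ ζ' hm hζ hm' hζ'
    exact ⟨m'', ξ, hm'', hξ, mul_mem (h1 hxm) (h2 hym)⟩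

/-- A root of unity lies in every valuation subring. -/
theorem e_baseringTD_root_mem {F : Type} [Field F] (A : ValuationSubring F) (m : ℕ) (hm : m ≠ 0)
    (ζ : F) (hζ : ζ ^ m = 1) : ζ ∈ A := by
  rcases A.mem_or_inv_mem ζ with h | h
  · exact h
  · obtain ⟨n, rfl⟩ := Nat.exists_eq_succ_of_ne_zero hm
    have : ζ = ζ⁻¹ ^ n := by
      have hζ0 : ζ ≠ 0 := by
        rintro rfl
        simp at hζ
      rw [inv_pow]
      exact eq_inv_of_mul_eq_one_left (by rw [← pow_succ']; exact hζ)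
    rw [this]
    exact pow_mem h _

end Roots

section FinGen

theorem e_baseringTD_fingen {K : Type} [Field K] (E : Subfield K) (S : Finset K)
    (hS : ∀ s ∈ S, IsIntegral ↥E s) :
    ∃ (r : ℕ) (b : Fin r → K), ∀ x ∈ Subfield.closure ((E : Set K) ∪ ↑S),
      ∃ a : Fin r → K, (∀ i, a i ∈ E) ∧ x = ∑ i, a i * b i := by
  have : FiniteDimensional ↥E ↥(IntermediateField.adjoin ↥E (S : Set K)) :=
    IntermediateField.finiteDimensional_adjoin (fun x hx => hS x hx)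
  let B := Module.finBasis ↥E ↥(IntermediateField.adjoin ↥E (S : Set K))
  refine ⟨_, fun i => ((B i : ↥(IntermediateField.adjoin ↥E (S : Set K))) : K), ?_⟩
  intro x hx
  have hx' : x ∈ IntermediateField.adjoin ↥E (S : Set K) := by
    have h1 : x ∈ (IntermediateField.adjoin ↥E (S : Set K)).toSubfield := by
      rw [IntermediateField.adjoin_toSubfield]
      have h2 : Set.range (algebraMap ↥E K) = (E : Set K) := Subtype.range_coe
      rw [h2]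
      exact hx
    exact h1
  refine ⟨fun i => ((B.repr ⟨x, hx'⟩ i : ↥E) : K), fun i => (B.repr ⟨x, hx'⟩ i).2, ?_⟩
  have h3 := congrArg (fun z : ↥(IntermediateField.adjoin ↥E (S : Set K)) => (z : K))
    (B.sum_repr ⟨x, hx'⟩)
  simp only [AddSubmonoidClass.coe_finsetSum] at h3
  exact h3.symm.trans (Finset.sum_congr rfl fun i _ => rfl)

end FinGen

end Fermat.Agent.S18
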