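/-
S18, package BaseRing (twin T): `e_baseringT_main : e_UnramStatement' → e_ValFinStatement →
e_BaseRingStatement`.  Uses the parts `EBaseRingTA` (residue field algebraically closed of
characteristic `ℓ`), `EBaseRingTB` (residues are roots of unity), `EBaseRingTC` (integers prime to
`ℓ` are units, rationals are discretely valued), `EBaseRingTD` (abstract lemmas).
-/
import Fermat.Agent.S18.EInterfaces3
import Fermat.Agent.S18.EBaseRingTA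
import Fermat.Agent.S18.EBaseRingTB
import Fermat.Agent.S18.EBaseRingTC
import Fermat.Agent.S18.EBaseRingTD

set_option autoImplicit false

namespace Fermat.Agent.S18

/-- (B2) `ℚ(ζ)` is discretely valued with uniformiser `ℓ`, for `ζ` a root of unity of order prime
to `ℓ`. -/
theorem e_baseringT_cyc (hU : e_UnramStatement') (ℓ : ℕ) [Fact ℓ.Prime]
    (A : ValuationSubring (AlgebraicClosure ℚ)) (hA : (ℓ : AlgebraicClosure ℚ) ∈ A.nonunits)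
    (m : ℕ) (hm : ¬ ℓ ∣ m) (ζ : AlgebraicClosure ℚ) (hζ : ζ ^ m = 1) :
    ∀ x ∈ Subfield.closure ({ζ} : Set (AlgebraicClosure ℚ)), x ≠ 0 →
      ∃ (n : ℤ) (u : AlgebraicClosure ℚ), u ∈ A ∧ u⁻¹ ∈ A ∧ x = (ℓ : AlgebraicClosure ℚ) ^ n * u := by
  have hℓ : ℓ.Prime := Fact.out
  have hℓ0 : (ℓ : AlgebraicClosure ℚ) ≠ 0 := by exact_mod_cast hℓ.ne_zero
  have hm0 : m ≠ 0 := by rintro rfl; exact hm (dvd_zero _)
  obtain ⟨k, rfl⟩ : ∃ k, m = k + 1 := Nat.exists_eq_succ_of_ne_zero hm0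
  obtain ⟨hmA, hmI⟩ := e_baseringTC_nat_unit ℓ A hA (k + 1) hm
  have hζ0 : ζ ≠ 0 := by
    rintro rfl
    simp at hζ
  have hζk : ζ * ζ ^ k = 1 := by rw [← pow_succ', hζ]
  have hζinv : ζ⁻¹ = ζ ^ k := inv_eq_of_mul_eq_one_right hζk
  have hζA : ζ ∈ A := e_baseringTD_root_mem A (k + 1) (Nat.succ_ne_zero k) ζ hζ
  set E₀ : Subfield (AlgebraicClosure ℚ) := (algebraMap ℚ (AlgebraicClosure ℚ)).fieldRange with hE₀
  have hcoeffE : ∀ i, ((Polynomial.X ^ (k + 1) - 1 : Polynomial (AlgebraicClosure ℚ))).coeff i ∈ E₀ := by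
    intro i
    rw [Polynomial.coeff_sub, Polynomial.coeff_X_pow, Polynomial.coeff_one]
    split_ifs <;> simp [E₀.one_mem, E₀.zero_mem, E₀.neg_mem]
  have hcoeffA : ∀ i, ((Polynomial.X ^ (k + 1) - 1 : Polynomial (AlgebraicClosure ℚ))).coeff i ∈ A := by
    intro i
    rw [Polynomial.coeff_sub, Polynomial.coeff_X_pow, Polynomial.coeff_one]
    split_ifs <;> simp [A.one_mem, A.zero_mem, A.neg_mem]
  have hder : Polynomial.eval ζ (Polynomial.derivative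
      (Polynomial.X ^ (k + 1) - 1 : Polynomial (AlgebraicClosure ℚ)))
      = ((k + 1 : ℕ) : AlgebraicClosure ℚ) * ζ ^ k := by
    simp
  have key := hU (AlgebraicClosure ℚ) A E₀ (ℓ : AlgebraicClosure ℚ)
    ⟨(ℓ : ℚ), by simp⟩ hℓ0 hA
    (by
      rintro x ⟨q, rfl⟩ hx
      have hq : q ≠ 0 := by rintro rfl; simp at hx
      exact e_baseringTC_rat ℓ A hA q hq)
    ζ (Polynomial.X ^ (k + 1) - 1)
    (Polynomial.monic_X_pow_sub_C (1 : AlgebraicClosure ℚ) (Nat.succ_ne_zero k))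
    hcoeffE hcoeffA hζA (by simp [hζ])
    (by
      rw [hder]
      exact mul_ne_zero (Nat.cast_ne_zero.mpr (Nat.succ_ne_zero k)) (pow_ne_zero _ hζ0))
    (by
      rw [hder, mul_inv, ← hζinv, inv_inv]
      exact A.mul_mem _ _ hmI hζA)
  intro x hx hx0
  exact key x (Subfield.closure_mono (Set.subset_union_right) hx) hx0

/-- (B3) The field generated by all roots of unity of order prime to `ℓ` is discretely valued
with uniformiser `ℓ`. -/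
theorem e_baseringT_L1 (hU : e_UnramStatement') (ℓ : ℕ) [Fact ℓ.Prime]
    (A : ValuationSubring (AlgebraicClosure ℚ)) (hA : (ℓ : AlgebraicClosure ℚ) ∈ A.nonunits) :
    ∀ x ∈ Subfield.closure {ζ : AlgebraicClosure ℚ | ∃ m : ℕ, ¬ ℓ ∣ m ∧ ζ ^ m = 1}, x ≠ 0 →
      ∃ (n : ℤ) (u : AlgebraicClosure ℚ), u ∈ A ∧ u⁻¹ ∈ A ∧ x = (ℓ : AlgebraicClosure ℚ) ^ n * u := by
  intro x hx hx0
  obtain ⟨m, ζ, hm, hζ, hxζ⟩ := e_baseringTD_oneRoot ℓ x hx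
  exact e_baseringT_cyc hU ℓ A hA m hm ζ hζ x hxζ hx0

set_option synthInstance.maxHeartbeats 400000 in
/-- (B5) -/
theorem e_baseringT_core (N ℓ : ℕ) [Fact ℓ.Prime] (hN : ¬ ℓ ∣ N)
    (A : ValuationSubring (AlgebraicClosure ℚ)) (hA : (ℓ : AlgebraicClosure ℚ) ∈ A.nonunits)
    (L : IntermediateField ℚ (AlgebraicClosure ℚ))
    (hR : ∀ (m : ℕ) (ζ : AlgebraicClosure ℚ), ¬ ℓ ∣ m → ζ ^ m = 1 → ζ ∈ L)
    (ϖ₀ : AlgebraicClosure ℚ) (hϖL : ϖ₀ ∈ L) (hϖ0 : ϖ₀ ≠ 0) (hϖnu : ϖ₀ ∈ A.nonunits)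
    (hdisc : ∀ x ∈ L, x ≠ 0 → ∃ (n : ℤ) (u : AlgebraicClosure ℚ), u ∈ A ∧ u⁻¹ ∈ A ∧ x = ϖ₀ ^ n * u) :
    IsDiscreteValuationRing ↥(e_WL A L) ∧
      ∃ ϖ : ↥(e_WL A L), BaseData N ℓ (e_WL A L) (e_res A L) ϖ := by
  let ϖ : ↥(e_WL A L) := ⟨⟨ϖ₀, hϖL⟩, A.nonunits_subset hϖnu⟩
  have hϖne : ϖ ≠ 0 := by
    intro h
    apply hϖ0
    have := congrArg (fun z : ↥(e_WL A L) => ((z : ↥L) : AlgebraicClosure ℚ)) h
    exact this
  have hϖ : algebraMap ↥L (AlgebraicClosure ℚ) (ϖ : ↥L) ∈ A.nonunits := hϖnu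
  have hd : ∀ x : ↥L, x ≠ 0 → ∃ (n : ℤ) (u : AlgebraicClosure ℚ), u ∈ A ∧ u⁻¹ ∈ A ∧
      algebraMap ↥L (AlgebraicClosure ℚ) x = algebraMap ↥L (AlgebraicClosure ℚ) (ϖ : ↥L) ^ n * u := by
    intro x hx
    exact hdisc x.1 x.2 (fun h => hx (Subtype.ext h))
  refine ⟨e_baseringTD_dvr A (algebraMap ↥L (AlgebraicClosure ℚ)) ϖ hϖne hϖ hd, ϖ, ?_⟩
  refine ⟨hN, e_baseringTD_irreducible A (algebraMap ↥L (AlgebraicClosure ℚ)) ϖ hϖne hϖ hd,
    ?_, ?_, ?_⟩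
  · -- surjectivity
    intro y
    by_cases hy : y = 0
    · exact ⟨0, by rw [map_zero, hy]⟩
    · obtain ⟨m, ζ, hm, hζ, hres⟩ := e_baseringTB_main ℓ A hA y hy
      refine ⟨⟨⟨(ζ : AlgebraicClosure ℚ), hR m _ hm hζ⟩, ζ.2⟩, ?_⟩
      rw [← hres]
      rfl
  · -- kernel
    ext x
    rw [RingHom.mem_ker, Ideal.mem_span_singleton,
      ← e_baseringTD_dvd_iff A (algebraMap ↥L (AlgebraicClosure ℚ)) ϖ hϖne hϖ hd x]
    show IsLocalRing.residue ↥A (e_incl A L x) = 0 ↔ _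
    rw [IsLocalRing.residue_eq_zero_iff, A.mem_nonunits_iff_exists_mem_maximalIdeal]
    constructor
    · intro h
      exact ⟨x.2, h⟩
    · rintro ⟨_, h⟩
      exact h
  · -- roots of unity
    intro m hm
    have hm0 : m ≠ 0 := by rintro rfl; exact hm (dvd_zero _)
    have : NeZero m := ⟨hm0⟩
    have : NeZero ((m : ℕ) : AlgebraicClosure ℚ) := ⟨Nat.cast_ne_zero.mpr hm0⟩
    obtain ⟨ζ, hζ⟩ := HasEnoughRootsOfUnity.exists_primitiveRoot (AlgebraicClosure ℚ) m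
    refine ⟨⟨⟨ζ, hR m ζ hm hζ.pow_eq_one⟩, e_baseringTD_root_mem A m hm0 ζ hζ.pow_eq_one⟩, ?_⟩
    exact IsPrimitiveRoot.of_map_of_injective (f := algebraMap ↥L (AlgebraicClosure ℚ)) hζ
      (algebraMap ↥L (AlgebraicClosure ℚ)).injective

theorem e_baseringT_main : e_UnramStatement' → e_ValFinStatement → e_BaseRingStatement := by
  intro hU hV N ℓ _ hN A hA
  have hℓ : ℓ.Prime := Fact.out
  have hA' : (ℓ : AlgebraicClosure ℚ) ∈ A.nonunits := hA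
  obtain ⟨hac, hcp⟩ := e_baseringTA_main ℓ A hA'
  refine ⟨hac, hcp, ?_⟩
  intro S
  have hfg := e_baseringTD_fingen
    (Subfield.closure {ζ : AlgebraicClosure ℚ | ∃ m : ℕ, ¬ ℓ ∣ m ∧ ζ ^ m = 1}) S
    (fun s _ => ((AlgebraicClosure.isAlgebraic ℚ).isIntegral.isIntegral s).tower_top)
  have hℓ0 : (ℓ : AlgebraicClosure ℚ) ≠ 0 := by exact_mod_cast hℓ.ne_zero
  obtain ⟨ϖ₀, hϖL, hϖ0, hϖnu, hdisc⟩ := hV (AlgebraicClosure ℚ) A
    (Subfield.closure {ζ : AlgebraicClosure ℚ | ∃ m : ℕ, ¬ ℓ ∣ m ∧ ζ ^ m = 1})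
    (Subfield.closure (((Subfield.closure
      {ζ : AlgebraicClosure ℚ | ∃ m : ℕ, ¬ ℓ ∣ m ∧ ζ ^ m = 1} : Subfield (AlgebraicClosure ℚ)) :
        Set (AlgebraicClosure ℚ)) ∪ ↑S))
    (ℓ : AlgebraicClosure ℚ)
    (fun x hx => Subfield.subset_closure (Or.inl hx))
    (natCast_mem _ ℓ) hℓ0 hA' (e_baseringT_L1 hU ℓ A hA') hfg
  let L : IntermediateField ℚ (AlgebraicClosure ℚ) :=
    Subfield.toIntermediateField (Subfield.closure (((Subfield.closure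
      {ζ : AlgebraicClosure ℚ | ∃ m : ℕ, ¬ ℓ ∣ m ∧ ζ ^ m = 1} : Subfield (AlgebraicClosure ℚ)) :
        Set (AlgebraicClosure ℚ)) ∪ ↑S))
      (fun x => by
        rw [eq_ratCast]
        exact SubfieldClass.ratCast_mem _ x)
  have hcore := e_baseringT_core N ℓ hN A hA' L
    (fun m ζ hm hζ => Subfield.subset_closure (Or.inl (Subfield.subset_closure ⟨m, hm, hζ⟩)))
    ϖ₀ hϖL hϖ0 hϖnu hdisc
  exact ⟨L, fun s hs => Subfield.subset_closure (Or.inr hs), hcore.1, hcore.2⟩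

end Fermat.Agent.S18
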