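/-
S18, block E (package Core, twin T): CORE (*) from the endgame, the base ring, descent to `L`,
geometric connectedness and constant field extension.
-/
import Fermat.Agent.S18.EInterfaces4

set_option autoImplicit false

open ModularCurve AlgebraicCurve

namespace Fermat.Agent.S18

noncomputable section

/-- A Laurent series over `L` whose image under `ι` has coefficients in the valuation subring `A`
comes from a Laurent series with coefficients in `A.comap ι`. -/
theorem e_coreT_lift {L K : Type} [Field L] [Field K] (ι : L →+* K) (A : ValuationSubring K)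
    (xL : LaurentSeries L) (y : LaurentSeries ↥A) (h : coeffMap ι xL = coeffMap A.subtype y) :
    ∃ yW : LaurentSeries ↥(A.comap ι), coeffMap (A.comap ι).subtype yW = xL := by
  have hmem : ∀ n, xL.coeff n ∈ A.comap ι := fun n => by
    have h1 : ι (xL.coeff n) = ((y.coeff n : ↥A) : K) := congrArg (fun z => z.coeff n) h
    show ι (xL.coeff n) ∈ A
    rw [h1]
    exact (y.coeff n).2
  refine ⟨HahnSeries.mk (fun n => ⟨xL.coeff n, hmem n⟩) (xL.isPWO_support.mono ?_), ?_⟩
  · intro n hn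
    rw [Function.mem_support] at hn
    rw [HahnSeries.mem_support]
    intro h0
    exact hn (Subtype.ext h0)
  · ext n
    rfl

/-- The reduction of the descended series agrees with the reduction of `y`. -/
theorem e_coreT_red (A : ValuationSubring (AlgebraicClosure ℚ))
    (L : IntermediateField ℚ (AlgebraicClosure ℚ)) (yW : LaurentSeries ↥(e_WL A L))
    (y : LaurentSeries ↥A)
    (h : coeffMap (algebraMap ↥L (AlgebraicClosure ℚ)) (coeffMap (e_WL A L).subtype yW) =
      coeffMap A.subtype y) :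
    coeffMap (e_res A L) yW = coeffMap (IsLocalRing.residue ↥A) y := by
  ext n
  rw [coeffMap_coeff, coeffMap_coeff]
  have h1 : algebraMap ↥L (AlgebraicClosure ℚ) ((yW.coeff n : ↥(e_WL A L)) : ↥L) =
      ((y.coeff n : ↥A) : AlgebraicClosure ℚ) := congrArg (fun z => z.coeff n) h
  have h2 : e_incl A L (yW.coeff n) = y.coeff n := Subtype.ext h1
  show IsLocalRing.residue ↥A (e_incl A L (yW.coeff n)) = _
  rw [h2]

set_option synthInstance.maxHeartbeats 400000 in
/-- CORE (*) from the endgame and the auxiliary packages. -/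
theorem e_coreT_main : e_EndgameStatement → SmStatement → HorizStatement → e_BaseRingStatement →
    e_DescentStatement → e_GeomConnStatement → e_ConstExtStatement → CoreStatement := by
  intro hEnd hSm hHoriz hBase hDesc hGeom hConst N _ ℓ _ hℓN A hA p hp hpℓ y hy hred hord
  by_contra hnot
  obtain ⟨S, hS⟩ := hDesc N (coeffMap A.subtype y) hy
  obtain ⟨hAC, hCh, hL⟩ := hBase N ℓ hℓN A hA
  have := hAC
  have := hCh
  obtain ⟨L, hSL, hDVR, ϖ, hBD⟩ := hL S
  have := hDVR
  obtain ⟨xL, hxL, hx⟩ := hS ↥L (algebraMap ↥L (AlgebraicClosure ℚ))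
    (fun s hs => ⟨⟨s, hSL s hs⟩, rfl⟩)
  obtain ⟨yW, hyW⟩ := e_coreT_lift (algebraMap ↥L (AlgebraicClosure ℚ)) A xL y hx
  subst hyW
  have hredW : coeffMap (e_res A L) yW = coeffMap (IsLocalRing.residue ↥A) y :=
    e_coreT_red A L yW y hx
  have hnot' : ¬ ∃ g ∈ FL (AlgebraicClosure ℚ) N, g ^ p =
      coeffMap (algebraMap ↥L (AlgebraicClosure ℚ))
        (((⟨coeffMap (e_WL A L).subtype yW, hxL⟩ : ↥(FL ↥L N)) : LaurentSeries ↥L)) := by
    rintro ⟨g, hg, hgp⟩
    exact hnot ⟨g, hg, hgp.trans hx⟩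
  obtain ⟨hirr, hac⟩ := hGeom N ↥L (algebraMap ↥L (AlgebraicClosure ℚ)) p hp
    ⟨coeffMap (e_WL A L).subtype yW, hxL⟩ hnot'
  have hSmAt : SmAt N (e_WL A L) ϖ :=
    hSm N ℓ ↥L (e_WL A L) (IsLocalRing.ResidueField ↥A) (e_res A L) ϖ hBD (hHoriz N L)
  have H2L : ∀ P' : Place ↥L ↥(FL ↥L N),
      (p : ℤ) ∣ P'.ord (⟨coeffMap (e_WL A L).subtype yW, hxL⟩ : ↥(FL ↥L N)) := by
    intro P'
    obtain ⟨P, hP⟩ := hConst N ↥L (algebraMap ↥L (AlgebraicClosure ℚ)) P'
    have hmem : coeffMap (algebraMap ↥L (AlgebraicClosure ℚ))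
        (((⟨coeffMap (e_WL A L).subtype yW, hxL⟩ : ↥(FL ↥L N)) : LaurentSeries ↥L)) ∈
        FL (AlgebraicClosure ℚ) N := by
      show coeffMap (algebraMap ↥L (AlgebraicClosure ℚ)) (coeffMap (e_WL A L).subtype yW) ∈ _
      rw [hx]
      exact hy
    have h1 := hP ⟨coeffMap (e_WL A L).subtype yW, hxL⟩ hmem
    rw [← h1]
    have h2 : (⟨_, hmem⟩ : ↥(FL (AlgebraicClosure ℚ) N)) = ⟨coeffMap A.subtype y, hy⟩ :=
      Subtype.ext hx
    rw [h2]
    exact hord P
  obtain ⟨h, hh, hh0, hhp⟩ := hred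
  exact hEnd N ℓ ↥L (e_WL A L) (IsLocalRing.ResidueField ↥A) (e_res A L) ϖ hBD hSmAt p hp hpℓ yW
    hxL ⟨h, hh, hh0, hredW.trans hhp⟩ H2L hirr hac

end

end Fermat.Agent.S18
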