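/-
S18, block E3c (GeomConn, twin file): if `y ∈ F_L` is not a `p`-th power in `F_Qbar`, then
`T^p - y` is irreducible over `F_L` and `L` is algebraically closed in `F_L[T]/(T^p - y)`.
-/
import Fermat.Agent.S18.EInterfaces

set_option autoImplicit false

open ModularCurve AlgebraicCurve Polynomial

namespace Fermat.Agent.S18

noncomputable section

theorem e_geomconnT_map_pol {F FQ : Type} [Field F] [Field FQ] (φ : F →+* FQ) (p : ℕ) (y : F) :
    (e_pol F p y).map φ = e_pol FQ p (φ y) := by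
  simp [e_pol]

theorem e_geomconnT_map_mk {F FQ : Type} [Field F] [Field FQ] (φ : F →+* FQ) (p : ℕ) (y : F)
    (h : e_pol FQ p (φ y) ∣ (e_pol F p y).map φ) (g : F[X]) :
    AdjoinRoot.map φ (e_pol F p y) (e_pol FQ p (φ y)) h (AdjoinRoot.mk _ g) =
      AdjoinRoot.mk _ (g.map φ) := by
  rw [AdjoinRoot.map, AdjoinRoot.lift_mk, ← Polynomial.eval₂_map, ← AdjoinRoot.aeval_eq,
    Polynomial.aeval_def, AdjoinRoot.algebraMap_eq]

/-- The abstract core: `φ : F → FQ` a homomorphism of fields compatible with constants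
`L → F`, `K → FQ`, `ι : L → K`, with `K` algebraically closed; if `φ y` is not a `p`-th power in
`FQ`, then every element of `F[T]/(T^p - y)` algebraic over `L` is (the image of) an element
`z0 ∈ F` with `φ z0` a constant from `K`. -/
theorem e_geomconnT_general {L K F FQ : Type} [Field L] [Field K] [IsAlgClosed K] [Field F]
    [Field FQ] (cL : L →+* F) (cQ : K →+* FQ) (ι : L →+* K) (φ : F →+* FQ)
    (hcomm : ∀ c, φ (cL c) = cQ (ι c)) (p : ℕ) (hp : p.Prime) (y : F)
    (hy : ∀ b : FQ, b ^ p ≠ φ y) (z : AdjoinRoot (e_pol F p y))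
    (P : L[X]) (hP : P ≠ 0)
    (hz : Polynomial.eval₂ ((AdjoinRoot.of (e_pol F p y)).comp cL) z P = 0) :
    ∃ z0 : F, z = AdjoinRoot.of (e_pol F p y) z0 ∧ ∃ c' : K, φ z0 = cQ c' := by
  have hirrQ : Irreducible (e_pol FQ p (φ y)) := (X_pow_sub_C_irreducible_iff_of_prime hp).2 hy
  have : Fact (Irreducible (e_pol FQ p (φ y))) := ⟨hirrQ⟩
  have hdvd : e_pol FQ p (φ y) ∣ (e_pol F p y).map φ := by rw [e_geomconnT_map_pol]
  set Φ : AdjoinRoot (e_pol F p y) →+* AdjoinRoot (e_pol FQ p (φ y)) :=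
    AdjoinRoot.map φ (e_pol F p y) (e_pol FQ p (φ y)) hdvd with hΦ
  let _ : Algebra K (AdjoinRoot (e_pol FQ p (φ y))) :=
    ((AdjoinRoot.of (e_pol FQ p (φ y))).comp cQ).toAlgebra
  have hcomp : Φ.comp ((AdjoinRoot.of (e_pol F p y)).comp cL) =
      (algebraMap K (AdjoinRoot (e_pol FQ p (φ y)))).comp ι := by
    ext c
    simp only [RingHom.comp_apply, hΦ, AdjoinRoot.map_of, hcomm]
    rfl
  have haeval : Polynomial.aeval (Φ z) (P.map ι) = 0 := by
    rw [Polynomial.aeval_def, Polynomial.eval₂_map, ← hcomp, ← Polynomial.hom_eval₂, hz, map_zero]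
  have hPι : P.map ι ≠ 0 := (Polynomial.map_ne_zero_iff ι.injective).2 hP
  have hint : IsIntegral K (Φ z) := IsAlgebraic.isIntegral ⟨P.map ι, hPι, haeval⟩
  have hdeg : (minpoly K (Φ z)).degree = 1 :=
    IsAlgClosed.degree_eq_one_of_irreducible K (minpoly.irreducible hint)
  obtain ⟨c', hc'⟩ := minpoly.mem_range_of_degree_eq_one K (Φ z) hdeg
  have hc'' : Φ z = AdjoinRoot.of (e_pol FQ p (φ y)) (cQ c') := hc'.symm
  -- coordinates
  have hmonic : (e_pol F p y).Monic := monic_X_pow_sub_C y hp.ne_zero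
  have hmonicQ : (e_pol FQ p (φ y)).Monic := monic_X_pow_sub_C (φ y) hp.ne_zero
  have hdegQ : (e_pol FQ p (φ y)).degree = p := degree_X_pow_sub_C hp.pos (φ y)
  have hdegL : (e_pol F p y).degree = p := degree_X_pow_sub_C hp.pos y
  obtain ⟨g, rfl⟩ := AdjoinRoot.mk_surjective z
  set g' := g %ₘ e_pol F p y with hg'
  have hzg' : AdjoinRoot.mk (e_pol F p y) g = AdjoinRoot.mk (e_pol F p y) g' := by
    rw [AdjoinRoot.mk_eq_mk]
    refine ⟨g /ₘ e_pol F p y, ?_⟩
    rw [hg', sub_eq_iff_eq_add, add_comm]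
    exact (Polynomial.modByMonic_add_div g (e_pol F p y)).symm
  have hg'deg : g'.degree < p := by
    rw [← hdegL]; exact Polynomial.degree_modByMonic_lt g hmonic
  have hΦg : AdjoinRoot.mk (e_pol FQ p (φ y)) (g'.map φ) =
      AdjoinRoot.mk (e_pol FQ p (φ y)) (C (cQ c')) := by
    rw [← e_geomconnT_map_mk φ p y hdvd, ← hΦ, ← hzg', hc'', AdjoinRoot.mk_C]
  rw [AdjoinRoot.mk_eq_mk] at hΦg
  have hlt : (g'.map φ - C (cQ c')).degree < (e_pol FQ p (φ y)).degree := by
    rw [hdegQ]
    refine lt_of_le_of_lt (Polynomial.degree_sub_le _ _) (max_lt ?_ ?_)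
    · exact lt_of_le_of_lt (Polynomial.degree_map_le) hg'deg
    · exact lt_of_le_of_lt Polynomial.degree_C_le (by exact_mod_cast hp.pos)
  have hzero : g'.map φ - C (cQ c') = 0 := Polynomial.eq_zero_of_dvd_of_degree_lt hΦg hlt
  have hmapeq : g'.map φ = C (cQ c') := sub_eq_zero.1 hzero
  have hg'C : g' = C (g'.coeff 0) := by
    ext n
    rcases Nat.eq_zero_or_pos n with rfl | hn
    · simp
    · have h1 := congrArg (fun q => q.coeff n) hmapeq
      simp only [Polynomial.coeff_map, Polynomial.coeff_C, hn.ne', if_false] at h1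
      rw [Polynomial.coeff_C, if_neg hn.ne']
      exact (map_eq_zero φ).1 h1
  refine ⟨g'.coeff 0, ?_, c', ?_⟩
  · rw [hzg', hg'C, AdjoinRoot.mk_C, Polynomial.coeff_C_zero]
  · have h1 := congrArg (fun q => q.coeff 0) hmapeq
    simpa using h1

/-- The coefficientwise embedding `F_L → F_Qbar` as a ring homomorphism (given (E3a)). -/
def e_geomconnT_iotaF (hι : e_IotaStatement) (N : ℕ) [NeZero N] (L : Type) [Field L] [Algebra ℚ L]
    (ι : L →+* AlgebraicClosure ℚ) : ↥(FL L N) →+* ↥(FL (AlgebraicClosure ℚ) N) :=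
  RingHom.codRestrict ((coeffMap ι).comp (FL L N).val.toRingHom) (FL (AlgebraicClosure ℚ) N)
    (fun x => hι N L ι _ x.2)

theorem e_geomconnT_iotaF_coe (hι : e_IotaStatement) (N : ℕ) [NeZero N] (L : Type) [Field L]
    [Algebra ℚ L] (ι : L →+* AlgebraicClosure ℚ) (x : ↥(FL L N)) :
    ((e_geomconnT_iotaF hι N L ι x : ↥(FL (AlgebraicClosure ℚ) N)) :
      LaurentSeries (AlgebraicClosure ℚ)) = coeffMap ι (x : LaurentSeries L) := rfl

theorem e_geomconnT_main : e_IotaStatement → e_GeomConnStatement := by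
  intro hι N _ L _ _ ι p hp y hy
  set φ := e_geomconnT_iotaF hι N L ι with hφ
  have hy' : ∀ b : ↥(FL (AlgebraicClosure ℚ) N), b ^ p ≠ φ y := by
    intro b hb
    exact hy ⟨(b : LaurentSeries (AlgebraicClosure ℚ)), b.2, by
      have := congrArg Subtype.val hb
      rw [e_geomconnT_iotaF_coe] at this
      simpa using this⟩
  refine ⟨(X_pow_sub_C_irreducible_iff_of_prime hp).2 fun b hb => hy' (φ b) ?_, ?_⟩
  · rw [← map_pow, hb]
  · rintro z ⟨P, hP, hz⟩
    have hcomm : ∀ c : L, φ (algebraMap L ↥(FL L N) c) =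
        algebraMap (AlgebraicClosure ℚ) ↥(FL (AlgebraicClosure ℚ) N) (ι c) := by
      intro c
      apply Subtype.ext
      change coeffMap ι (algebraMap L (LaurentSeries L) c) =
        algebraMap (AlgebraicClosure ℚ) (LaurentSeries (AlgebraicClosure ℚ)) (ι c)
      rw [algebraMap_laurentSeries_eq_single, algebraMap_laurentSeries_eq_single, coeffMap_single]
    obtain ⟨z0, rfl, c', hc'⟩ := e_geomconnT_general (algebraMap L ↥(FL L N))
      (algebraMap (AlgebraicClosure ℚ) ↥(FL (AlgebraicClosure ℚ) N)) ι φ hcomm p hp y hy' z P hP hz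
    have hc2 : coeffMap ι (z0 : LaurentSeries L) = HahnSeries.single 0 c' := by
      have := congrArg Subtype.val hc'
      rw [← algebraMap_laurentSeries_eq_single]
      exact this
    refine ⟨(z0 : LaurentSeries L).coeff 0, ?_⟩
    congr 1
    apply Subtype.ext
    change (z0 : LaurentSeries L) = algebraMap L (LaurentSeries L) _
    rw [algebraMap_laurentSeries_eq_single]
    ext n
    by_cases hn : n = 0
    · subst hn; simp
    · rw [HahnSeries.coeff_single_of_ne hn]
      have h1 := congrArg (fun s => s.coeff n) hc2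
      simp only [coeffMap_coeff, HahnSeries.coeff_single_of_ne hn] at h1
      exact (map_eq_zero ι).1 h1

end

end Fermat.Agent.S18
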