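/-
S18, block E, package K1 (twin): a function in `F_k` without zeros and poles is constant.
-/
import Fermat.Agent.S18.EInterfaces

set_option autoImplicit false

open ModularCurve AlgebraicCurve Polynomial

namespace Fermat.Agent.S18

noncomputable section

/-- An element of a field extension of an algebraically closed field `k` which is integral over `k`
is a constant. -/
theorem e_k1T_const_of_isIntegral (k F : Type) [Field k] [IsAlgClosed k] [Field F] [Algebra k F]
    (x : F) (hx : IsIntegral k x) : ∃ c : k, x = algebraMap k F c := by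
  have h1 : (minpoly k x).degree = 1 :=
    IsAlgClosed.degree_eq_one_of_irreducible k (minpoly.irreducible hx)
  obtain ⟨c, hc⟩ := minpoly.mem_range_of_degree_eq_one k x h1
  exact ⟨c, hc.symm⟩

/-- Order zero at a place implies membership in its valuation ring. -/
theorem e_k1T_mem_of_ord_eq_zero {k F : Type} [Field k] [Field F] [Algebra k F] (Q : Place k F)
    (u : F) (hu : u ≠ 0) (h : Q.ord u = 0) : u ∈ Q.toValuationSubring := by
  obtain ⟨π, hπ⟩ := IsDiscreteValuationRing.exists_irreducible Q.toValuationSubring
  obtain ⟨v, hv⟩ := Q.exists_unit_mul_zpow hu hπ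
  rw [h, zpow_zero, mul_one] at hv
  rw [hv]
  exact (v : Q.toValuationSubring).2

/-- An element lying in all valuation rings of places is integral over any Dedekind domain `R`
(containing `k`) over whose fraction field `F` is finite separable. -/
theorem e_k1T_integral_of_places (k R K0 F : Type) [Field k] [CommRing R]
    [IsDedekindDomain R] [Field K0] [Field F] [Algebra R K0] [IsFractionRing R K0] [Algebra K0 F]
    [Algebra R F] [IsScalarTower R K0 F] [FiniteDimensional K0 F] [Algebra.IsSeparable K0 F]
    [Algebra k R] [Algebra k F] [IsScalarTower k R F]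
    (u : F) (hu : ∀ Q : Place k F, u ∈ Q.toValuationSubring) : IsIntegral R u := by
  have : IsDedekindDomain (integralClosure R F) := integralClosure.isDedekindDomain R K0 F
  have : IsFractionRing (integralClosure R F) F :=
    integralClosure.isFractionRing_of_finite_extension K0 F
  have h : u ∈ (algebraMap (integralClosure R F) F).range := by
    refine IsDedekindDomain.HeightOneSpectrum.mem_integers_of_valuation_le_one F u (fun w => ?_)
    have := hu (Place.ofHeightOneSpectrum (K := k) w)
    rwa [Place.ofHeightOneSpectrum_toValuationSubring, Valuation.mem_valuationSubring_iff] at this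
  obtain ⟨b, rfl⟩ := h
  exact b.2

/-- `k[t] ∩ k[t⁻¹] = k` for `t` transcendental. -/
theorem e_k1T_inter (k F : Type) [Field k] [Field F] [Algebra k F] (t : F)
    (ht : Transcendental k t) (c : F) (h1 : c ∈ Algebra.adjoin k {t})
    (h2 : c ∈ Algebra.adjoin k {t⁻¹}) : ∃ a : k, c = algebraMap k F a := by
  rw [Algebra.adjoin_singleton_eq_range_aeval] at h1 h2
  obtain ⟨f, rfl⟩ := h1
  obtain ⟨g, hg⟩ := h2
  have ht0 : t ≠ 0 := by
    rintro rfl
    exact ht ⟨X, X_ne_zero, by simp⟩
  have hinj : Function.Injective (aeval t : k[X] →ₐ[k] F) := transcendental_iff_injective.mp ht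
  by_cases hf : f = 0
  · exact ⟨0, by simp [hf]⟩
  set n := g.natDegree with hn
  let _ : Invertible t := invertibleOfNonzero ht0
  have key : aeval t (f * X ^ n) = aeval t (g.reflect n) := by
    have h := eval₂_reflect_mul_pow (algebraMap k F) t n (g.reflect n)
      (natDegree_reflect_le.trans (by simp [hn]))
    rw [reflect_reflect, invOf_eq_inv] at h
    rw [map_mul, map_pow, aeval_X, aeval_def (p := g.reflect n), ← h]
    congr 1
    exact hg.symm
  have h3 := hinj key
  have h4 : (f * X ^ n).natDegree ≤ n := by
    rw [h3]; exact natDegree_reflect_le.trans (by simp [hn])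
  rw [natDegree_mul_X_pow n hf] at h4
  have h5 : f.natDegree = 0 := by omega
  rw [natDegree_eq_zero] at h5
  obtain ⟨a, rfl⟩ := h5
  exact ⟨a, by simp⟩

open scoped IntermediateField.algebraAdjoinAdjoin in
theorem e_k1T_coeff_mem (k F : Type) [Field k] [Field F] [Algebra k F] (t : F)
    (K0 : IntermediateField k F) (hK : K0 = IntermediateField.adjoin k {t})
    [FiniteDimensional K0 F] [Algebra.IsSeparable K0 F]
    (u : F) (hu : ∀ Q : Place k F, u ∈ Q.toValuationSubring) (i : ℕ) :
    (((minpoly K0 u).coeff i : K0) : F) ∈ Algebra.adjoin k {t} := by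
  subst hK
  have hsurj : Function.Surjective
      (aeval (⟨t, Algebra.self_mem_adjoin_singleton k t⟩ : Algebra.adjoin k {t}) :
        k[X] →ₐ[k] Algebra.adjoin k {t}) := by
    rintro ⟨x, hx⟩
    have hx' := hx
    rw [Algebra.adjoin_singleton_eq_range_aeval] at hx'
    obtain ⟨p, rfl⟩ := hx'
    refine ⟨p, Subtype.ext ?_⟩
    rw [aeval_subalgebra_coe]
    rfl
  have : IsPrincipalIdealRing (Algebra.adjoin k {t}) :=
    IsPrincipalIdealRing.of_surjective
      (aeval (⟨t, Algebra.self_mem_adjoin_singleton k t⟩ : Algebra.adjoin k {t}) :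
        k[X] →ₐ[k] Algebra.adjoin k {t}).toRingHom hsurj
  have hint : IsIntegral (Algebra.adjoin k {t}) u :=
    e_k1T_integral_of_places k (Algebra.adjoin k {t}) (IntermediateField.adjoin k {t}) F u hu
  rw [minpoly.isIntegrallyClosed_eq_field_fractions' (IntermediateField.adjoin k {t}) hint,
    coeff_map]
  exact ((minpoly (Algebra.adjoin k {t}) u).coeff i).2

theorem e_k1T_abstract (k F : Type) [Field k] [IsAlgClosed k] [Field F] [Algebra k F] (t : F)
    (ht : Transcendental k t) [FiniteDimensional (IntermediateField.adjoin k {t}) F]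
    [Algebra.IsSeparable (IntermediateField.adjoin k {t}) F]
    (u : F) (hu : ∀ Q : Place k F, u ∈ Q.toValuationSubring) : ∃ c : k, u = algebraMap k F c := by
  have hK : IntermediateField.adjoin k {t} = IntermediateField.adjoin k {t⁻¹} := by
    apply le_antisymm
    · rw [IntermediateField.adjoin_simple_le_iff]
      have := inv_mem (IntermediateField.mem_adjoin_simple_self k t⁻¹)
      rwa [inv_inv] at this
    · rw [IntermediateField.adjoin_simple_le_iff]
      exact inv_mem (IntermediateField.mem_adjoin_simple_self k t)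
  have hc : ∀ i, ((((minpoly (IntermediateField.adjoin k {t}) u).coeff i :
      IntermediateField.adjoin k {t}) : F)) ∈ Set.range (algebraMap k F) := by
    intro i
    obtain ⟨a, ha⟩ := e_k1T_inter k F t ht _
      (e_k1T_coeff_mem k F t _ rfl u hu i) (e_k1T_coeff_mem k F t⁻¹ _ hK u hu i)
    exact ⟨a, ha.symm⟩
  have hint : IsIntegral (IntermediateField.adjoin k {t}) u := Algebra.IsIntegral.isIntegral u
  have hl : (minpoly (IntermediateField.adjoin k {t}) u).map
      (algebraMap (IntermediateField.adjoin k {t}) F) ∈ Polynomial.lifts (algebraMap k F) := by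
    rw [lifts_iff_coeff_lifts]
    intro n
    rw [coeff_map]
    exact hc n
  obtain ⟨p, hp⟩ := hl
  rw [coe_mapRingHom] at hp
  apply e_k1T_const_of_isIntegral
  apply IsAlgebraic.isIntegral
  refine ⟨p, ?_, ?_⟩
  · rintro rfl
    rw [Polynomial.map_zero] at hp
    exact minpoly.ne_zero hint
      ((Polynomial.map_eq_zero _).mp hp.symm)
  · rw [aeval_def, ← eval_map, hp, eval_map, ← aeval_def, minpoly.aeval]

theorem e_k1T_transc_LS (k : Type) [Field k] [IsAlgClosed k] :
    Transcendental k (jqModC k) := by
  intro halg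
  obtain ⟨c, hc⟩ := e_k1T_const_of_isIntegral k (LaurentSeries k) _ halg.isIntegral
  have h1 := coeff_jqModC_neg_one k
  rw [hc, algebraMap_laurentSeries_eq_single] at h1
  simp at h1

theorem e_k1T_transc (k : Type) [Field k] [IsAlgClosed k] (N : ℕ) :
    Transcendental k (⟨jqModC k, jqModC_mem_full k N⟩ : ↥(Fk k N)) := by
  intro halg
  apply e_k1T_transc_LS k
  have := (isAlgebraic_algHom_iff (Fk k N).val (Subtype.val_injective)).mpr halg
  exact this

theorem e_k1T_finite_gens (k : Type) [Field k] (N : ℕ) [NeZero N] :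
    (divisorExpansionsC k N).Finite := by
  classical
  refine Set.Finite.subset (Set.Finite.image
    (fun d : ℕ => if h : d ≠ 0 then @qExpand k _ d ⟨h⟩ (jqModC k) else 0)
    (N.divisors.finite_toSet)) ?_
  rintro x ⟨d, hd, hdN, rfl⟩
  refine ⟨d, ?_, ?_⟩
  · simp [Nat.mem_divisors, hdN, NeZero.ne N]
  · simp [hd.out]

/-- Transport of separability from "subfields of `E`" to "`F` over its subfield `k(t)`". -/
theorem e_k1T_isSeparable_transport (k E : Type) [Field k] [Field E] [Algebra k E]
    (F : IntermediateField k E) (t : ↥F) (x : ↥F)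
    (hx : IsSeparable ↥(IntermediateField.adjoin k {(t : E)}) (x : E)) :
    IsSeparable ↥(IntermediateField.adjoin k {t}) x := by
  have hmap : (IntermediateField.adjoin k {t}).map F.val = IntermediateField.adjoin k {(t : E)} := by
    rw [IntermediateField.adjoin_map]
    simp
  let e : ↥(IntermediateField.adjoin k {t}) ≃ₐ[k] ↥(IntermediateField.adjoin k {(t : E)}) :=
    ((IntermediateField.adjoin k {t}).equivMap F.val).trans (IntermediateField.equivOfEq hmap)
  have he : ∀ z, ((e z : ↥(IntermediateField.adjoin k {(t : E)})) : E) = ((z : ↥F) : E) := by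
    intro z; rfl
  have he' : ∀ y, (((e.symm y : ↥(IntermediateField.adjoin k {t})) : ↥F) : E) = (y : E) := by
    intro y
    rw [← he, AlgEquiv.apply_symm_apply]
  set p := minpoly ↥(IntermediateField.adjoin k {(t : E)}) (x : E) with hp
  have hsep : (p.map (e.symm : ↥(IntermediateField.adjoin k {(t : E)}) →+*
      ↥(IntermediateField.adjoin k {t}))).Separable := Polynomial.Separable.map hx
  refine hsep.of_dvd (minpoly.dvd _ _ ?_)
  apply Subtype.val_injective
  have h1 : ((aeval x (p.map (e.symm : ↥(IntermediateField.adjoin k {(t : E)}) →+*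
      ↥(IntermediateField.adjoin k {t}))) : ↥F) : E) = aeval (x : E) p := by
    rw [aeval_def, eval₂_map, aeval_def]
    change (F.val : ↥F →+* E) (eval₂ _ x p) = _
    rw [Polynomial.hom_eval₂]
    congr 1
    ext y
    exact he' y
  rw [h1, hp, minpoly.aeval]
  rfl

theorem e_k1T_finiteDimensional_aux (k F : Type) [Field k] [Field F] [Algebra k F]
    (K0 : IntermediateField k F) (S : Set F) (hS : S.Finite)
    (htop : IntermediateField.adjoin k S = ⊤)
    (halg : ∀ x : F, IsIntegral ↥K0 x) : FiniteDimensional ↥K0 F := by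
  have h3 : IntermediateField.adjoin ↥K0 S = ⊤ := by
    rw [eq_top_iff]
    intro x _
    rw [← IntermediateField.mem_restrictScalars (K := k),
      IntermediateField.restrictScalars_adjoin]
    have hx : x ∈ IntermediateField.adjoin k S := htop ▸ IntermediateField.mem_top
    exact IntermediateField.adjoin.mono k S _ Set.subset_union_right hx
  have : Finite S := hS.to_subtype
  have h4 : FiniteDimensional ↥K0 ↥(IntermediateField.adjoin ↥K0 S) :=
    IntermediateField.finiteDimensional_adjoin (fun x _ => halg x)
  rw [h3] at h4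
  exact Module.Finite.equiv (IntermediateField.topEquiv).toLinearEquiv

theorem e_k1T_adjoin_top (k E : Type) [Field k] [Field E] [Algebra k E] (S : Set E) :
    IntermediateField.adjoin k
      ((Subtype.val : ↥(IntermediateField.adjoin k S) → E) ⁻¹' S) = ⊤ := by
  rw [eq_top_iff]
  intro x _
  have himg : (IntermediateField.adjoin k S).val ''
      ((Subtype.val : ↥(IntermediateField.adjoin k S) → E) ⁻¹' S) = S := by
    apply Set.image_preimage_eq_of_subset
    intro y hy
    exact ⟨⟨y, IntermediateField.subset_adjoin k S hy⟩, rfl⟩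
  have hx : (x : E) ∈ (IntermediateField.adjoin k
      ((Subtype.val : ↥(IntermediateField.adjoin k S) → E) ⁻¹' S)).map
        (IntermediateField.adjoin k S).val := by
    rw [IntermediateField.adjoin_map, himg]
    exact x.2
  obtain ⟨z, hz, hzx⟩ := hx
  have : z = x := Subtype.ext hzx
  rwa [← this]

/-- (K1) A function in `F_k` without zeros and poles is constant. -/
theorem e_k1T_main : FkSepStatement → e_K1Statement := by
  intro hsep N _ ℓ _ hℓ k _ _ _ u hu hord
  have htr : Transcendental k (⟨jqModC k, jqModC_mem_full k N⟩ : ↥(Fk k N)) := e_k1T_transc k N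
  have hsepF : ∀ x : ↥(Fk k N), IsSeparable
      ↥(IntermediateField.adjoin k {(⟨jqModC k, jqModC_mem_full k N⟩ : ↥(Fk k N))}) x := fun x =>
    e_k1T_isSeparable_transport k (LaurentSeries k) (Fk k N) _ x (hsep N ℓ hℓ k x.1 x.2)
  have : Algebra.IsSeparable
      ↥(IntermediateField.adjoin k {(⟨jqModC k, jqModC_mem_full k N⟩ : ↥(Fk k N))}) ↥(Fk k N) :=
    ⟨hsepF⟩
  have : FiniteDimensional
      ↥(IntermediateField.adjoin k {(⟨jqModC k, jqModC_mem_full k N⟩ : ↥(Fk k N))}) ↥(Fk k N) :=
    e_k1T_finiteDimensional_aux k ↥(Fk k N) _ _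
      ((e_k1T_finite_gens k N).preimage Subtype.val_injective.injOn)
      (e_k1T_adjoin_top k (LaurentSeries k) (divisorExpansionsC k N))
      (fun x => (hsepF x).isIntegral)
  exact e_k1T_abstract k ↥(Fk k N) _ htr u
    (fun Q => e_k1T_mem_of_ord_eq_zero Q u hu (hord Q))

end

end Fermat.Agent.S18
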