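/-
S18, block E1 (package Reduce): reduction of the statement S18 to CORE (*) and (K1).
-/
import Fermat.Agent.S18.EInterfaces

set_option autoImplicit false

open ModularCurve AlgebraicCurve

namespace Fermat.Agent.S18

noncomputable section

/-! ## The residue field of `A` -/

section Residue

set_option synthInstance.maxHeartbeats 400000

theorem e_reduce_charP (ℓ : ℕ) [Fact ℓ.Prime] (A : ValuationSubring (AlgebraicClosure ℚ))
    (hA : A.LiesOverPrime ℓ) : CharP (IsLocalRing.ResidueField ↥A) ℓ := by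
  rw [CharP.charP_iff_prime_eq_zero (Fact.out : ℓ.Prime)]
  obtain ⟨ha, hmem⟩ := ValuationSubring.mem_nonunits_iff_exists_mem_maximalIdeal.mp hA
  have h0 : IsLocalRing.residue ↥A ⟨(ℓ : AlgebraicClosure ℚ), ha⟩ = 0 :=
    (IsLocalRing.residue_eq_zero_iff _).mpr hmem
  have h1 : (⟨(ℓ : AlgebraicClosure ℚ), ha⟩ : ↥A) = ((ℓ : ℕ) : ↥A) := Subtype.ext (by simp)
  rw [h1, map_natCast] at h0
  exact h0

theorem e_reduce_isAlgClosed (A : ValuationSubring (AlgebraicClosure ℚ)) :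
    IsAlgClosed (IsLocalRing.ResidueField ↥A) := by
  refine IsAlgClosed.of_exists_root _ fun p hp hirr => ?_
  have hsurj : Function.Surjective (IsLocalRing.residue ↥A) := IsLocalRing.residue_surjective
  have hlift : p ∈ Polynomial.lifts (IsLocalRing.residue ↥A) :=
    (Polynomial.mem_lifts p).mpr (Polynomial.map_surjective _ hsurj p)
  obtain ⟨P, hPmap, hPdeg, hPmonic⟩ := Polynomial.lifts_and_degree_eq_and_monic hlift hp
  have hdeg : (P.map (algebraMap ↥A (AlgebraicClosure ℚ))).degree ≠ 0 := by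
    rw [Polynomial.degree_map_eq_of_injective (FaithfulSMul.algebraMap_injective _ _), hPdeg]
    exact Polynomial.degree_ne_of_natDegree_ne hirr.natDegree_pos.ne'
  obtain ⟨x, hx⟩ := IsAlgClosed.exists_root _ hdeg
  have hint : IsIntegral ↥A x := by
    refine ⟨P, hPmonic, ?_⟩
    rw [Polynomial.IsRoot.def, Polynomial.eval_map] at hx
    exact hx
  obtain ⟨a, rfl⟩ := IsIntegrallyClosed.isIntegral_iff.mp hint
  refine ⟨IsLocalRing.residue ↥A a, ?_⟩
  rw [Polynomial.IsRoot.def, Polynomial.eval_map, Polynomial.eval₂_at_apply] at hx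
  have hx' : Polynomial.eval a P = 0 :=
    FaithfulSMul.algebraMap_injective ↥A (AlgebraicClosure ℚ) (by rw [hx, map_zero])
  rw [← hPmap, Polynomial.eval_map, Polynomial.eval₂_at_apply, hx', map_zero]

end Residue

/-! ## Abstract setting -/

section Abstract

variable {L : Type} [Field L] [Algebra ℚ L] (A : ValuationSubring L) {k : Type} [Field k]
  (π : ↥A →+* k) (N : ℕ)

omit [Algebra ℚ L] in
theorem e_reduce_coeffMap_subtype_ne_zero {Y : LaurentSeries ↥A} (hY : Y ≠ 0) :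
    coeffMap A.subtype Y ≠ 0 := by
  intro h
  apply hY
  ext n
  have hn := congrArg (fun x => x.coeff n) h
  simp only [coeffMap_coeff, HahnSeries.coeff_zero] at hn
  rw [HahnSeries.coeff_zero]
  simpa using hn

omit [Algebra ℚ L] in
theorem e_reduce_ne_zero_of_coeffMap_ne_zero {Y : LaurentSeries ↥A} (hY : coeffMap π Y ≠ 0) :
    Y ≠ 0 := by
  rintro rfl
  exact hY (map_zero _)

/-- Divisors of the form `div(Y₊) - div(Y₋)` with `Y± ∈ A((q))` reducing to nonzero elements of `F_k`,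
whose reduction along `r` is `div(Ȳ₊) - div(Ȳ₋)`. -/
def e_reduce_Good (r : Place L ↥(FL L N) → Place k ↥(Fk k N)) (E : Divisor L ↥(FL L N)) : Prop :=
  ∃ (Yp Ym : LaurentSeries ↥A) (hp : coeffMap A.subtype Yp ∈ FL L N)
    (hm : coeffMap A.subtype Ym ∈ FL L N)
    (hkp : coeffMap π Yp ∈ Fk k N) (hkm : coeffMap π Ym ∈ Fk k N),
    coeffMap π Yp ≠ 0 ∧ coeffMap π Ym ≠ 0 ∧
    (∀ P : Place L ↥(FL L N), E P = P.ord (⟨_, hp⟩ : ↥(FL L N)) - P.ord (⟨_, hm⟩ : ↥(FL L N))) ∧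
    (∀ Q : Place k ↥(Fk k N), Finsupp.mapDomain r E Q =
      Q.ord (⟨_, hkp⟩ : ↥(Fk k N)) - Q.ord (⟨_, hkm⟩ : ↥(Fk k N)))

variable {A π N}

theorem e_reduce_good_of_mem {r : Place L ↥(FL L N) → Place k ↥(Fk k N)}
    (hr : IsPlaceReductionAlong A π N r) {E : Divisor L ↥(FL L N)}
    (hE : E ∈ integralPrincipalDivisors A π N) : e_reduce_Good A π N r E := by
  obtain ⟨y, hy, hyk, hne, hEy⟩ := hE
  have h1 : coeffMap A.subtype (1 : LaurentSeries ↥A) ∈ FL L N := by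
    rw [map_one]; exact one_mem _
  have h1k : coeffMap π (1 : LaurentSeries ↥A) ∈ Fk k N := by
    rw [map_one]; exact one_mem _
  have e1 : (⟨_, h1⟩ : ↥(FL L N)) = 1 := Subtype.ext (map_one _)
  have e1k : (⟨_, h1k⟩ : ↥(Fk k N)) = 1 := Subtype.ext (map_one _)
  refine ⟨y, 1, hy, h1, hyk, h1k, hne, ?_, fun P => ?_, fun Q => ?_⟩
  · rw [map_one]; exact one_ne_zero
  · rw [e1, Place.ord_one, sub_zero]; exact hEy P
  · rw [e1k, Place.ord_one, sub_zero]; exact hr.2 y hy hyk hne E hEy Q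

theorem e_reduce_good_zero (r : Place L ↥(FL L N) → Place k ↥(Fk k N)) :
    e_reduce_Good A π N r 0 := by
  have h1 : coeffMap A.subtype (1 : LaurentSeries ↥A) ∈ FL L N := by
    rw [map_one]; exact one_mem _
  have h1k : coeffMap π (1 : LaurentSeries ↥A) ∈ Fk k N := by
    rw [map_one]; exact one_mem _
  have hne : coeffMap π (1 : LaurentSeries ↥A) ≠ 0 := by
    rw [map_one]; exact one_ne_zero
  refine ⟨1, 1, h1, h1, h1k, h1k, hne, hne, fun P => ?_, fun Q => ?_⟩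
  · rw [sub_self, Finsupp.zero_apply]
  · rw [sub_self, Finsupp.mapDomain_zero, Finsupp.zero_apply]

theorem e_reduce_good_neg {r : Place L ↥(FL L N) → Place k ↥(Fk k N)} {E : Divisor L ↥(FL L N)}
    (hE : e_reduce_Good A π N r E) : e_reduce_Good A π N r (-E) := by
  obtain ⟨Yp, Ym, hp, hm, hkp, hkm, hnp, hnm, hP, hQ⟩ := hE
  refine ⟨Ym, Yp, hm, hp, hkm, hkp, hnm, hnp, fun P => ?_, fun Q => ?_⟩
  · rw [Finsupp.neg_apply, hP P, neg_sub]
  · rw [← Finsupp.mapDomain.addMonoidHom_apply, map_neg, Finsupp.mapDomain.addMonoidHom_apply,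
      Finsupp.neg_apply, hQ Q, neg_sub]

theorem e_reduce_good_add {r : Place L ↥(FL L N) → Place k ↥(Fk k N)}
    {E E' : Divisor L ↥(FL L N)}
    (hE : e_reduce_Good A π N r E) (hE' : e_reduce_Good A π N r E') :
    e_reduce_Good A π N r (E + E') := by
  obtain ⟨Yp, Ym, hp, hm, hkp, hkm, hnp, hnm, hP, hQ⟩ := hE
  obtain ⟨Yp', Ym', hp', hm', hkp', hkm', hnp', hnm', hP', hQ'⟩ := hE'
  have hpp : coeffMap A.subtype (Yp * Yp') ∈ FL L N := by rw [map_mul]; exact mul_mem hp hp'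
  have hmm : coeffMap A.subtype (Ym * Ym') ∈ FL L N := by rw [map_mul]; exact mul_mem hm hm'
  have hkpp : coeffMap π (Yp * Yp') ∈ Fk k N := by rw [map_mul]; exact mul_mem hkp hkp'
  have hkmm : coeffMap π (Ym * Ym') ∈ Fk k N := by rw [map_mul]; exact mul_mem hkm hkm'
  have epp : (⟨_, hpp⟩ : ↥(FL L N)) = ⟨_, hp⟩ * ⟨_, hp'⟩ := Subtype.ext (map_mul _ _ _)
  have emm : (⟨_, hmm⟩ : ↥(FL L N)) = ⟨_, hm⟩ * ⟨_, hm'⟩ := Subtype.ext (map_mul _ _ _)
  have ekpp : (⟨_, hkpp⟩ : ↥(Fk k N)) = ⟨_, hkp⟩ * ⟨_, hkp'⟩ := Subtype.ext (map_mul _ _ _)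
  have ekmm : (⟨_, hkmm⟩ : ↥(Fk k N)) = ⟨_, hkm⟩ * ⟨_, hkm'⟩ := Subtype.ext (map_mul _ _ _)
  have nz : ∀ {Y : LaurentSeries ↥A} (hY : coeffMap A.subtype Y ∈ FL L N), coeffMap π Y ≠ 0 →
      (⟨_, hY⟩ : ↥(FL L N)) ≠ 0 := fun {Y} hY hne h =>
    e_reduce_coeffMap_subtype_ne_zero A (e_reduce_ne_zero_of_coeffMap_ne_zero A π hne)
      (congrArg Subtype.val h)
  have nzk : ∀ {Y : LaurentSeries ↥A} (hY : coeffMap π Y ∈ Fk k N), coeffMap π Y ≠ 0 →
      (⟨_, hY⟩ : ↥(Fk k N)) ≠ 0 := fun {Y} hY hne h => hne (congrArg Subtype.val h)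
  refine ⟨Yp * Yp', Ym * Ym', hpp, hmm, hkpp, hkmm, ?_, ?_, fun P => ?_, fun Q => ?_⟩
  · rw [map_mul]; exact mul_ne_zero hnp hnp'
  · rw [map_mul]; exact mul_ne_zero hnm hnm'
  · rw [Finsupp.add_apply, hP P, hP' P, epp, emm, P.ord_mul (nz hp hnp) (nz hp' hnp'),
      P.ord_mul (nz hm hnm) (nz hm' hnm')]
    ring
  · rw [Finsupp.mapDomain_add, Finsupp.add_apply, hQ Q, hQ' Q, ekpp, ekmm,
      Q.ord_mul (nzk hkp hnp) (nzk hkp' hnp'), Q.ord_mul (nzk hkm hnm) (nzk hkm' hnm')]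
    ring

theorem e_reduce_good_of_principal {r : Place L ↥(FL L N) → Place k ↥(Fk k N)}
    (hr : IsPlaceReductionAlong A π N r) (hgen : PrincipalGeneratedByIntegral A π N)
    {E : Divisor L ↥(FL L N)} (hE : E ∈ Divisor.principal (K := L) (F := ↥(FL L N))) :
    e_reduce_Good A π N r E := by
  have hE' := hgen hE
  clear hE
  induction hE' using AddSubgroup.closure_induction with
  | mem E hE => exact e_reduce_good_of_mem hr hE
  | zero => exact e_reduce_good_zero r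
  | add E E' _ _ hE hE' => exact e_reduce_good_add hE hE'
  | neg E _ hE => exact e_reduce_good_neg hE

/-- The prime case, in the abstract setting: `p • D` principal and the reduction of `D` principal
imply `D` principal, given (K1) for `k` and CORE for `(A, π, p)`. -/
theorem e_reduce_prime_case [IsAlgClosed k] {r : Place L ↥(FL L N) → Place k ↥(Fk k N)}
    (hr : IsPlaceReductionAlong A π N r) (hgen : PrincipalGeneratedByIntegral A π N)
    (q : ℕ)
    (hK1 : ∀ u : ↥(Fk k N), u ≠ 0 → (∀ Q : Place k ↥(Fk k N), Q.ord u = 0) →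
      ∃ c : k, u = algebraMap k ↥(Fk k N) c)
    (hcore : ∀ (y : LaurentSeries ↥A) (hy : coeffMap A.subtype y ∈ FL L N),
      (∃ h ∈ Fk k N, h ≠ 0 ∧ coeffMap π y = h ^ (q + 1)) →
      (∀ P : Place L ↥(FL L N), ((q + 1 : ℕ) : ℤ) ∣ P.ord (⟨coeffMap A.subtype y, hy⟩ : ↥(FL L N))) →
      ∃ g ∈ FL L N, g ^ (q + 1) = coeffMap A.subtype y)
    (D : Divisor L ↥(FL L N))
    (hpD : (q + 1) • D ∈ Divisor.principal (K := L) (F := ↥(FL L N)))
    (hred : Finsupp.mapDomain r D ∈ Divisor.principal (K := k) (F := ↥(Fk k N))) :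
    D ∈ Divisor.principal (K := L) (F := ↥(FL L N)) := by
  obtain ⟨Yp, Ym, hp, hm, hkp, hkm, hnp, hnm, hP, hQ⟩ := e_reduce_good_of_principal hr hgen hpD
  obtain ⟨gbar, hgbar, hgQ⟩ := hred
  -- names
  set YpK : ↥(FL L N) := ⟨_, hp⟩ with hYpK
  set YmK : ↥(FL L N) := ⟨_, hm⟩ with hYmK
  set Ypk : ↥(Fk k N) := ⟨_, hkp⟩ with hYpk
  set Ymk : ↥(Fk k N) := ⟨_, hkm⟩ with hYmk
  have hYpK0 : YpK ≠ 0 := fun h =>
    e_reduce_coeffMap_subtype_ne_zero A (e_reduce_ne_zero_of_coeffMap_ne_zero A π hnp)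
      (congrArg Subtype.val h)
  have hYmK0 : YmK ≠ 0 := fun h =>
    e_reduce_coeffMap_subtype_ne_zero A (e_reduce_ne_zero_of_coeffMap_ne_zero A π hnm)
      (congrArg Subtype.val h)
  have hYpk0 : Ypk ≠ 0 := fun h => hnp (congrArg Subtype.val h)
  have hYmk0 : Ymk ≠ 0 := fun h => hnm (congrArg Subtype.val h)
  have hordpow : ∀ (Q : Place k ↥(Fk k N)) (f : ↥(Fk k N)) (n : ℕ),
      Q.ord (f ^ n) = (n : ℤ) * Q.ord f := fun Q f n => by
    rw [← zpow_natCast, Q.ord_zpow]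
  have hordpowK : ∀ (P : Place L ↥(FL L N)) (f : ↥(FL L N)) (n : ℕ),
      P.ord (f ^ n) = (n : ℤ) * P.ord f := fun P f n => by
    rw [← zpow_natCast, P.ord_zpow]
  -- (d) the unit `u`
  have hQ' : ∀ Q : Place k ↥(Fk k N), ((q + 1 : ℕ) : ℤ) * Q.ord gbar = Q.ord Ypk - Q.ord Ymk := by
    intro Q
    rw [← hQ Q, Finsupp.mapDomain_smul, Finsupp.smul_apply, hgQ Q, nsmul_eq_mul]
  set u : ↥(Fk k N) := Ypk * (Ymk * gbar ^ (q + 1))⁻¹ with hu
  have hden0 : Ymk * gbar ^ (q + 1) ≠ 0 := mul_ne_zero hYmk0 (pow_ne_zero _ hgbar)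
  have hu0 : u ≠ 0 := mul_ne_zero hYpk0 (inv_ne_zero hden0)
  have huQ : ∀ Q : Place k ↥(Fk k N), Q.ord u = 0 := by
    intro Q
    rw [hu, Q.ord_mul hYpk0 (inv_ne_zero hden0), Q.ord_inv,
      Q.ord_mul hYmk0 (pow_ne_zero _ hgbar), hordpow, hQ' Q]
    ring
  obtain ⟨c, hc⟩ := hK1 u hu0 huQ
  obtain ⟨d, hd⟩ := IsAlgClosed.exists_pow_nat_eq c (n := q + 1) (by omega)
  have hd0 : d ≠ 0 := by
    rintro rfl
    rw [zero_pow (Nat.succ_ne_zero q)] at hd
    rw [← hd, map_zero] at hc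
    exact hu0 hc
  have hYpk_eq : Ypk = (algebraMap k ↥(Fk k N) d * gbar) ^ (q + 1) * Ymk := by
    have h1 : Ypk = u * (Ymk * gbar ^ (q + 1)) := by
      rw [hu, mul_assoc, inv_mul_cancel₀ hden0, mul_one]
    rw [h1, hc, ← hd, map_pow]
    ring
  -- (e) the element `y`
  set hbar : ↥(Fk k N) := algebraMap k ↥(Fk k N) d * gbar * Ymk with hhbar
  have hhbar0 : hbar ≠ 0 :=
    mul_ne_zero (mul_ne_zero (by simpa using hd0) hgbar) hYmk0
  have hy : coeffMap A.subtype (Yp * Ym ^ q) ∈ FL L N := by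
    rw [map_mul, map_pow]; exact mul_mem hp (pow_mem hm q)
  have hyK : (⟨_, hy⟩ : ↥(FL L N)) = YpK * YmK ^ q :=
    Subtype.ext (by
      show coeffMap A.subtype (Yp * Ym ^ q) = coeffMap A.subtype Yp * (coeffMap A.subtype Ym) ^ q
      rw [map_mul, map_pow])
  have hyk : coeffMap π (Yp * Ym ^ q) = (hbar : LaurentSeries k) ^ (q + 1) := by
    have h2 : Ypk * Ymk ^ q = hbar ^ (q + 1) := by
      rw [hYpk_eq, hhbar]; ring
    have h3 := congrArg (Subtype.val : ↥(Fk k N) → LaurentSeries k) h2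
    rw [map_mul, map_pow]
    exact h3
  have hdvd : ∀ P : Place L ↥(FL L N), P.ord (⟨_, hy⟩ : ↥(FL L N)) =
      ((q + 1 : ℕ) : ℤ) * (D P + P.ord YmK) := by
    intro P
    have h4 : ((q + 1 : ℕ) : ℤ) * D P = P.ord YpK - P.ord YmK := by
      rw [← hP P, Finsupp.smul_apply, nsmul_eq_mul]
    rw [hyK, P.ord_mul hYpK0 (pow_ne_zero _ hYmK0), hordpowK]
    push_cast at h4 ⊢
    linear_combination (-1 : ℤ) * h4
  -- (f) CORE
  obtain ⟨g, hg, hgy⟩ := hcore (Yp * Ym ^ q) hy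
    ⟨hbar, hbar.2, fun h => hhbar0 (Subtype.ext h), hyk⟩ (fun P => ⟨_, hdvd P⟩)
  have hgK : (⟨g, hg⟩ : ↥(FL L N)) ^ (q + 1) = ⟨_, hy⟩ := Subtype.ext hgy
  have hy0 : (⟨_, hy⟩ : ↥(FL L N)) ≠ 0 := by
    rw [hyK]; exact mul_ne_zero hYpK0 (pow_ne_zero _ hYmK0)
  have hg0 : (⟨g, hg⟩ : ↥(FL L N)) ≠ 0 := by
    intro h
    rw [h, zero_pow (Nat.succ_ne_zero q)] at hgK
    exact hy0 hgK.symm
  refine ⟨⟨g, hg⟩ * YmK⁻¹, mul_ne_zero hg0 (inv_ne_zero hYmK0), fun P => ?_⟩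
  rw [P.ord_mul hg0 (inv_ne_zero hYmK0), P.ord_inv]
  have h5 : ((q + 1 : ℕ) : ℤ) * P.ord (⟨g, hg⟩ : ↥(FL L N)) =
      ((q + 1 : ℕ) : ℤ) * (D P + P.ord YmK) := by
    rw [← hordpowK, hgK, hdvd P]
  have h6 := mul_left_cancel₀ (by exact_mod_cast Nat.succ_ne_zero q) h5
  rw [h6]; ring

end Abstract

/-! ## The statement S18 -/

section Main

set_option synthInstance.maxHeartbeats 400000

/-- The prime case of S18. -/
theorem e_reduce_prime (hcore : CoreStatement) (hK1 : e_K1Statement) (N : ℕ) [NeZero N] {ℓ : ℕ}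
    [Fact ℓ.Prime] (hℓN : ¬ ℓ ∣ N) (A : ValuationSubring (AlgebraicClosure ℚ))
    (hA : A.LiesOverPrime ℓ) (h : ReductionInputsModL A N) (p : ℕ) (hp : p.Prime) (hpℓ : p ≠ ℓ)
    (z : JZero N) (hpz : p • z = 0) (hz : reductionModL A N z = 0) : z = 0 := by
  have := e_reduce_charP ℓ A hA
  have := e_reduce_isAlgClosed A
  obtain ⟨D, rfl⟩ := Pic0.mk_surjective z
  obtain ⟨q, rfl⟩ := Nat.exists_eq_succ_of_ne_zero hp.ne_zero
  have hpD : (q + 1) • (D : Divisor (AlgebraicClosure ℚ) ↥(FL (AlgebraicClosure ℚ) N)) ∈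
      Divisor.principal (K := AlgebraicClosure ℚ) (F := ↥(FL (AlgebraicClosure ℚ) N)) := by
    have h1 : ((q + 1) • D : Divisor.degZero (K := AlgebraicClosure ℚ)
        (F := ↥(FL (AlgebraicClosure ℚ) N))) ∈
        (Divisor.principal (K := AlgebraicClosure ℚ)
          (F := ↥(FL (AlgebraicClosure ℚ) N))).addSubgroupOf
          (Divisor.degZero (K := AlgebraicClosure ℚ) (F := ↥(FL (AlgebraicClosure ℚ) N))) :=
      (QuotientAddGroup.eq_zero_iff _).mp hpz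
    rw [AddSubgroup.mem_addSubgroupOf, AddSubgroupClass.coe_nsmul] at h1
    exact h1
  have hred : Finsupp.mapDomain (placeReductionModL h)
      (D : Divisor (AlgebraicClosure ℚ) ↥(FL (AlgebraicClosure ℚ) N)) ∈
      Divisor.principal (K := IsLocalRing.ResidueField ↥A)
        (F := ↥(Fk (IsLocalRing.ResidueField ↥A) N)) := by
    rw [reductionModL_mk h D] at hz
    have h2 := (QuotientAddGroup.eq_zero_iff _).mp hz
    rw [AddSubgroup.mem_addSubgroupOf] at h2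
    exact h2
  have hfin := e_reduce_prime_case (isPlaceReductionModL_placeReductionModL h) h.choose_spec.2 q
    (hK1 N ℓ hℓN (IsLocalRing.ResidueField ↥A)) (hcore N ℓ hℓN A hA (q + 1) hp hpℓ) D hpD hred
  exact (QuotientAddGroup.eq_zero_iff _).mpr (AddSubgroup.mem_addSubgroupOf.mpr hfin)

/-- S18 follows from CORE (*) and (K1). -/
theorem e_reduce_main : CoreStatement → e_K1Statement → e_ResultStatement := by
  intro hcore hK1 N _ ℓ _ hℓN A hA h m
  induction m using Nat.strong_induction_on with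
  | _ m ih =>
    intro hm z hmz hz
    rcases Nat.eq_zero_or_pos m with rfl | hpos
    · exact absurd (dvd_zero ℓ) hm
    rcases eq_or_ne m 1 with rfl | hm1
    · rwa [one_nsmul] at hmz
    obtain ⟨p, hp, m', rfl⟩ := Nat.exists_prime_and_dvd hm1
    have hm'0 : m' ≠ 0 := by
      rintro rfl
      simp at hpos
    have hpℓ : p ≠ ℓ := by
      rintro rfl
      exact hm (dvd_mul_right _ _)
    have hℓm' : ¬ ℓ ∣ m' := fun hd => hm (Dvd.dvd.mul_left hd p)
    have hz' : m' • z = 0 := by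
      apply e_reduce_prime hcore hK1 N hℓN A hA h p hp hpℓ (m' • z)
      · rw [← mul_nsmul']
        exact hmz
      · rw [map_nsmul, hz, nsmul_zero]
    refine ih m' ?_ hℓm' z hz' hz
    exact lt_mul_of_one_lt_left (Nat.pos_of_ne_zero hm'0) hp.one_lt

end Main

end

end Fermat.Agent.S18
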