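/-
S18, block E4 (ConstExt, twin T): every place of `F_L / L` extends to a place of `F_Qbar / Qbar`
with the same order function on `F_L`.
-/
import Fermat.Agent.S18.EInterfaces3

set_option autoImplicit false

open ModularCurve AlgebraicCurve

namespace Fermat.Agent.S18

/-- "`O` induces on `E` a discrete valuation with uniformiser `π`". -/
def e_constextT_DV {Ω : Type} [Field Ω] (O : ValuationSubring Ω) (π : Ω) (E : Subfield Ω) : Prop :=
  ∀ x ∈ E, x ≠ 0 → ∃ (n : ℤ) (u : Ω), u ∈ O ∧ u⁻¹ ∈ O ∧ x = π ^ n * u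

theorem e_constextT_closure_union {Ω : Type} [Field Ω] (A B : Set Ω) :
    Subfield.closure ((Subfield.closure A : Set Ω) ∪ B) = Subfield.closure (A ∪ B) := by
  apply le_antisymm
  · rw [Subfield.closure_le]
    rintro x (hx | hx)
    · exact Subfield.closure_mono Set.subset_union_left hx
    · exact Subfield.subset_closure (Or.inr hx)
  · apply Subfield.closure_mono
    rintro x (hx | hx)
    · exact Or.inl (Subfield.subset_closure hx)
    · exact Or.inr hx

/-- Adjoining finitely many algebraic constants keeps the valuation discrete with the same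
uniformiser. -/
theorem e_constextT_finset (hU : e_UnramStatement') {Ω : Type} [Field Ω] (O : ValuationSubring Ω)
    (E : Subfield Ω) (π : Ω) (hπE : π ∈ E) (hπ0 : π ≠ 0) (hπO : π ∈ O.nonunits)
    (hE : e_constextT_DV O π E)
    {K : Type} [Field K] [Algebra ℚ K] [Algebra.IsAlgebraic ℚ K] (f : K →+* Ω)
    (hQE : ∀ q : ℚ, f (algebraMap ℚ K q) ∈ E) (hKO : ∀ c : K, f c ∈ O) (s : Finset K) :
    e_constextT_DV O π (Subfield.closure ((E : Set Ω) ∪ f '' (s : Set K))) := by
  classical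
  induction s using Finset.induction_on with
  | empty =>
    simpa [Subfield.closure_eq] using hE
  | insert c s _ ih =>
    have hrw : Subfield.closure ((E : Set Ω) ∪ f '' ((insert c s : Finset K) : Set K)) =
        Subfield.closure ((Subfield.closure ((E : Set Ω) ∪ f '' (s : Set K)) : Set Ω) ∪ {f c}) := by
      rw [e_constextT_closure_union, Finset.coe_insert, Set.image_insert_eq,
        ← Set.union_singleton, Set.union_assoc]
    rw [hrw]
    set E₁ := Subfield.closure ((E : Set Ω) ∪ f '' (s : Set K)) with hE₁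
    have hEE₁ : E ≤ E₁ := fun x hx => Subfield.subset_closure (Or.inl hx)
    have hint : IsIntegral ℚ c := (Algebra.IsAlgebraic.isAlgebraic c).isIntegral
    have hsep : (minpoly ℚ c).Separable := (minpoly.irreducible hint).separable
    have hev : ∀ p : Polynomial ℚ, Polynomial.eval (f c)
        (p.map (f.comp (algebraMap ℚ K))) = f (Polynomial.aeval c p) := by
      intro p
      rw [Polynomial.eval_map, ← Polynomial.hom_eval₂, Polynomial.aeval_def]
    refine hU Ω O E₁ π (hEE₁ hπE) hπ0 hπO ih (f c)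
      ((minpoly ℚ c).map (f.comp (algebraMap ℚ K))) ((minpoly.monic hint).map _) ?_ ?_ (hKO c)
      ?_ ?_ ?_
    · intro i
      rw [Polynomial.coeff_map]
      exact hEE₁ (hQE _)
    · intro i
      rw [Polynomial.coeff_map]
      exact hKO _
    · rw [hev, minpoly.aeval, map_zero]
    · rw [Polynomial.derivative_map, hev]
      exact (map_ne_zero f).2 (hsep.aeval_derivative_ne_zero (minpoly.aeval ℚ c))
    · rw [Polynomial.derivative_map, hev, ← map_inv₀]
      exact hKO _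

/-- Every element of the field generated by `E` and the constants lies in the field generated by
`E` and finitely many constants. -/
theorem e_constextT_exists_finset {Ω : Type} [Field Ω] (E : Subfield Ω) {K : Type} [Field K]
    (f : K →+* Ω) (z : Ω) (hz : z ∈ Subfield.closure (Set.range f ∪ (E : Set Ω))) :
    ∃ s : Finset K, z ∈ Subfield.closure ((E : Set Ω) ∪ f '' (s : Set K)) := by
  classical
  have hmono : ∀ s t : Finset K, s ⊆ t →
      Subfield.closure ((E : Set Ω) ∪ f '' (s : Set K)) ≤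
        Subfield.closure ((E : Set Ω) ∪ f '' (t : Set K)) := by
    intro s t hst
    apply Subfield.closure_mono
    exact Set.union_subset_union_right _ (Set.image_mono (Finset.coe_subset.2 hst))
  induction hz using Subfield.closure_induction with
  | mem y hy =>
    rcases hy with ⟨c, rfl⟩ | hy
    · exact ⟨{c}, Subfield.subset_closure (Or.inr ⟨c, by simp, rfl⟩)⟩
    · exact ⟨∅, Subfield.subset_closure (Or.inl hy)⟩
  | one => exact ⟨∅, one_mem _⟩
  | add x y _ _ hx hy =>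
    obtain ⟨s, hs⟩ := hx
    obtain ⟨t, ht⟩ := hy
    exact ⟨s ∪ t, add_mem (hmono _ _ Finset.subset_union_left hs)
      (hmono _ _ Finset.subset_union_right ht)⟩
  | neg x _ hx =>
    obtain ⟨s, hs⟩ := hx
    exact ⟨s, neg_mem hs⟩
  | inv x _ hx =>
    obtain ⟨s, hs⟩ := hx
    exact ⟨s, inv_mem hs⟩
  | mul x y _ _ hx hy =>
    obtain ⟨s, hs⟩ := hx
    obtain ⟨t, ht⟩ := hy
    exact ⟨s ∪ t, mul_mem (hmono _ _ Finset.subset_union_left hs)
      (hmono _ _ Finset.subset_union_right ht)⟩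

/-- A valuation subring inducing on the whole field a discrete valuation with uniformiser `π` is a
discrete valuation ring with uniformiser `π`. -/
theorem e_constextT_dvr {Ω : Type} [Field Ω] (O : ValuationSubring Ω) (π : Ω) (hπ0 : π ≠ 0)
    (hπO : π ∈ O.nonunits)
    (hall : ∀ x : Ω, x ≠ 0 → ∃ (n : ℤ) (u : Ω), u ∈ O ∧ u⁻¹ ∈ O ∧ x = π ^ n * u) :
    O ≠ ⊤ ∧ IsPrincipalIdealRing ↥O ∧ ∃ h : π ∈ O, Irreducible (⟨π, h⟩ : ↥O) := by
  classical
  have hγ1 : O.valuation π < 1 := (O.mem_nonunits_iff).1 hπO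
  have hγ0 : O.valuation π ≠ 0 := (Valuation.ne_zero_iff _).2 hπ0
  have hγpos : 0 < O.valuation π := zero_lt_iff.2 hγ0
  set γ := O.valuation π with hγ
  have hπmem : π ∈ O := (O.valuation_le_one_iff π).1 hγ1.le
  have hval : ∀ x : Ω, x ≠ 0 → ∃ n : ℤ, O.valuation x = γ ^ n := by
    intro x hx
    obtain ⟨n, u, hu, hu', rfl⟩ := hall x hx
    have hu0 : u ≠ 0 := right_ne_zero_of_mul hx
    have h1 : O.valuation u ≤ 1 := (O.valuation_le_one_iff u).2 hu
    have h2 : O.valuation u⁻¹ ≤ 1 := (O.valuation_le_one_iff _).2 hu'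
    rw [map_inv₀, inv_le_one₀ (zero_lt_iff.2 ((Valuation.ne_zero_iff _).2 hu0))] at h2
    refine ⟨n, ?_⟩
    rw [map_mul, map_zpow₀, le_antisymm h1 h2, mul_one]
  have hmem : ∀ (x : Ω) (n : ℤ), O.valuation x = γ ^ n → (x ∈ O ↔ 0 ≤ n) := by
    intro x n hx
    rw [← O.valuation_le_one_iff, hx, zpow_le_one_iff_right_of_lt_one₀ hγpos hγ1]
  have hvalN : ∀ x : ↥O, x ≠ 0 → ∃ n : ℕ, O.valuation (x : Ω) = γ ^ n := by
    intro x hx
    have hx' : (x : Ω) ≠ 0 := fun h => hx (Subtype.ext h)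
    obtain ⟨n, hn⟩ := hval x hx'
    have h0 : 0 ≤ n := (hmem _ _ hn).1 x.2
    obtain ⟨k, rfl⟩ := Int.eq_ofNat_of_zero_le h0
    exact ⟨k, by rw [hn, zpow_natCast]⟩
  refine ⟨?_, ?_, hπmem, ?_⟩
  · intro htop
    have h : π⁻¹ ∈ O := htop ▸ ValuationSubring.mem_top _
    rw [← O.valuation_le_one_iff, map_inv₀, inv_le_one₀ hγpos] at h
    exact absurd hγ1 (not_lt.2 h)
  · refine ⟨fun I => ?_⟩
    by_cases hI : I = ⊥
    · rw [hI]; exact bot_isPrincipal
    obtain ⟨x, hxI, hx0⟩ := Submodule.exists_mem_ne_zero_of_ne_bot hI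
    have hS : ∃ n : ℕ, ∃ y ∈ I, O.valuation (y : Ω) = γ ^ n := by
      obtain ⟨n, hn⟩ := hvalN x hx0
      exact ⟨n, x, hxI, hn⟩
    obtain ⟨y₀, hy₀I, hy₀⟩ := Nat.find_spec hS
    have hy₀0 : (y₀ : Ω) ≠ 0 := by
      intro h
      rw [h, map_zero] at hy₀
      exact pow_ne_zero _ hγ0 hy₀.symm
    refine ⟨⟨y₀, le_antisymm ?_ ?_⟩⟩
    · intro y hy
      rw [Submodule.mem_span_singleton]
      by_cases hy0 : y = 0
      · exact ⟨0, by simp [hy0]⟩
      obtain ⟨k, hk⟩ := hvalN y hy0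
      have hle : Nat.find hS ≤ k := Nat.find_min' hS ⟨y, hy, hk⟩
      have hdiv : (y : Ω) / (y₀ : Ω) ∈ O := by
        rw [← O.valuation_le_one_iff, map_div₀, hk, hy₀,
          div_le_one₀ (pow_pos hγpos _)]
        exact pow_le_pow_of_le_one hγpos.le hγ1.le hle
      refine ⟨⟨_, hdiv⟩, Subtype.ext ?_⟩
      simp only [smul_eq_mul, MulMemClass.coe_mul]
      field_simp
    · rw [Submodule.span_singleton_le_iff_mem]
      exact hy₀I
  · rw [irreducible_iff]
    constructor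
    · rw [O.valuation_eq_one_iff]
      exact hγ1.ne
    · intro a b hab
      have hab' : π = (a : Ω) * (b : Ω) := congrArg Subtype.val hab
      have ha0 : a ≠ 0 := by
        rintro rfl
        exact hπ0 (by simpa using hab')
      have hb0 : b ≠ 0 := by
        rintro rfl
        exact hπ0 (by simpa using hab')
      obtain ⟨m, hm⟩ := hvalN a ha0
      obtain ⟨k, hk⟩ := hvalN b hb0
      have h1 : γ ^ (1 : ℕ) = γ ^ (m + k) := by
        rw [pow_one, pow_add, ← hm, ← hk, ← map_mul, ← hab']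
      have h2 : 1 = m + k := by
        have := zpow_right_injective₀ hγpos hγ1.ne
          (show γ ^ ((1 : ℕ) : ℤ) = γ ^ ((m + k : ℕ) : ℤ) by
            rw [zpow_natCast, zpow_natCast]; exact h1)
        exact_mod_cast this
      rcases Nat.eq_zero_or_pos m with h | h
      · left
        rw [O.valuation_eq_one_iff, hm, h, pow_zero]
      · right
        have hk0 : k = 0 := by omega
        rw [O.valuation_eq_one_iff, hk, hk0, pow_zero]

/-- Abstract form of the constant field extension of a place. -/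
theorem e_constextT_abs (hU : e_UnramStatement') {K Ω F' : Type} [Field K] [Field Ω] [Field F']
    [Algebra ℚ K] [Algebra.IsAlgebraic ℚ K] (f : K →+* Ω) (φ : F' →+* Ω)
    (O' : ValuationSubring F') (hQ : ∀ q : ℚ, (q : F') ∈ O')
    (π' : ↥O') (hπ' : ¬ IsUnit π') (hπ'0 : (π' : F') ≠ 0)
    (hO' : ∀ x : F', x ≠ 0 → ∃ (n : ℤ) (u : F'), u ∈ O' ∧ u⁻¹ ∈ O' ∧ x = (π' : F') ^ n * u)
    (hgen : ∀ z : Ω, z ∈ Subfield.closure (Set.range f ∪ Set.range φ)) :
    ∃ O : ValuationSubring Ω, (∀ c : K, f c ∈ O) ∧ O ≠ ⊤ ∧ IsPrincipalIdealRing ↥O ∧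
      (∀ x ∈ O', φ x ∈ O) ∧ ∃ h : φ (π' : F') ∈ O, Irreducible (⟨φ (π' : F'), h⟩ : ↥O) := by
  obtain ⟨O, hO, hloc⟩ := IsLocalRing.exists_factor_valuationRing (φ.comp O'.subtype)
  have hOmem : ∀ x ∈ O', φ x ∈ O := fun x hx => hO ⟨x, hx⟩
  have hfQ : ∀ q : ℚ, f (algebraMap ℚ K q) = φ (q : F') := by
    intro q
    rw [eq_ratCast, map_ratCast, map_ratCast]
  have hQO : ∀ q : ℚ, f (algebraMap ℚ K q) ∈ O := fun q => by
    rw [hfQ]; exact hOmem _ (hQ q)
  have hKO : ∀ c : K, f c ∈ O := by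
    intro c
    have hint : IsIntegral ℚ c := (Algebra.IsAlgebraic.isAlgebraic c).isIntegral
    let ρ : ℚ →+* ↥O := (f.comp (algebraMap ℚ K)).codRestrict O.toSubring hQO
    have hρ : (algebraMap ↥O Ω).comp ρ = f.comp (algebraMap ℚ K) := rfl
    have hint' : IsIntegral ↥O (f c) := by
      refine ⟨(minpoly ℚ c).map ρ, (minpoly.monic hint).map _, ?_⟩
      rw [Polynomial.eval₂_map, hρ, ← Polynomial.hom_eval₂, ← Polynomial.aeval_def,
        minpoly.aeval, map_zero]
    obtain ⟨y, hy⟩ := IsIntegrallyClosed.isIntegral_iff.1 hint'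
    rw [← hy]
    exact y.2
  have hπ0 : φ (π' : F') ≠ 0 := (map_ne_zero φ).2 hπ'0
  have hπO : φ (π' : F') ∈ O.nonunits := by
    rw [O.mem_nonunits_iff_exists_mem_maximalIdeal]
    refine ⟨hOmem _ π'.2, ?_⟩
    rw [IsLocalRing.mem_maximalIdeal, mem_nonunits_iff]
    intro hu
    exact hπ' (hloc.map_nonunit π' hu)
  have hE : e_constextT_DV O (φ (π' : F')) φ.fieldRange := by
    rintro x ⟨x', rfl⟩ hx
    obtain ⟨n, u, hu, hu', hxu⟩ := hO' x' (fun h => hx (by rw [h, map_zero]))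
    refine ⟨n, φ u, hOmem _ hu, ?_, ?_⟩
    · rw [← map_inv₀]; exact hOmem _ hu'
    · rw [hxu, map_mul, map_zpow₀]
  have hall : ∀ z : Ω, z ≠ 0 → ∃ (n : ℤ) (u : Ω), u ∈ O ∧ u⁻¹ ∈ O ∧ z = φ (π' : F') ^ n * u := by
    intro z hz
    have hz' : z ∈ Subfield.closure (Set.range f ∪ (φ.fieldRange : Set Ω)) := by
      rw [RingHom.coe_fieldRange]; exact hgen z
    obtain ⟨s, hs⟩ := e_constextT_exists_finset φ.fieldRange f z hz'
    exact e_constextT_finset hU O φ.fieldRange (φ (π' : F')) ⟨_, rfl⟩ hπ0 hπO hE f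
      (fun q => ⟨_, (hfQ q).symm⟩) hKO s z hs hz
  obtain ⟨h1, h2, h3⟩ := e_constextT_dvr O (φ (π' : F')) hπ0 hπO hall
  exact ⟨O, hKO, h1, h2, hOmem, h3⟩

theorem e_constextT_coeffMap_coeffEmb {L M : Type} [Field L] [Field M] [Algebra ℚ L]
    [Algebra ℚ M] (ι : L →+* M) (x : LaurentSeries ℚ) :
    coeffMap ι (coeffEmb L x) = coeffEmb M x := by
  rw [coeffEmb, coeffMap_coeffMap]
  exact coeffMap_congr (RingHom.ext fun q => ι.map_rat_algebraMap q) x

theorem e_constextT_coeffMap_algebraMap {L M : Type} [Field L] [Field M] (ι : L →+* M) (c : L) :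
    coeffMap ι (algebraMap L (LaurentSeries L) c) = algebraMap M (LaurentSeries M) (ι c) := by
  rw [algebraMap_laurentSeries_eq_single, algebraMap_laurentSeries_eq_single, coeffMap_single]

theorem e_constextT_main : e_UnramStatement' → e_IotaStatement → e_ConstExtStatement := by
  intro hU hι N _ L _ _ ι P'
  let φ : ↥(FL L N) →+* ↥(FL (AlgebraicClosure ℚ) N) :=
    RingHom.codRestrict ((coeffMap ι).comp (FL L N).val.toRingHom) (FL (AlgebraicClosure ℚ) N)
      (fun x => hι N L ι _ x.2)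
  have hφ : ∀ x : ↥(FL L N), ((φ x : ↥(FL (AlgebraicClosure ℚ) N)) :
      LaurentSeries (AlgebraicClosure ℚ)) = coeffMap ι (x : LaurentSeries L) := fun _ => rfl
  obtain ⟨π', hπ'⟩ := IsDiscreteValuationRing.exists_irreducible ↥P'.toValuationSubring
  have hπ'0 : (π' : ↥(FL L N)) ≠ 0 := fun h => hπ'.ne_zero (Subtype.ext h)
  have hQ : ∀ q : ℚ, (q : ↥(FL L N)) ∈ P'.toValuationSubring := by
    intro q
    rw [← map_ratCast (algebraMap L ↥(FL L N)) q]
    exact P'.algebraMap_mem' _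
  have hO' : ∀ x : ↥(FL L N), x ≠ 0 → ∃ (n : ℤ) (u : ↥(FL L N)), u ∈ P'.toValuationSubring ∧
      u⁻¹ ∈ P'.toValuationSubring ∧ x = (π' : ↥(FL L N)) ^ n * u := by
    intro x hx
    obtain ⟨u, hu⟩ := P'.exists_unit_mul_zpow hx hπ'
    refine ⟨P'.ord x, ((u : ↥P'.toValuationSubring) : ↥(FL L N)), (u : ↥P'.toValuationSubring).2,
      ?_, by rw [mul_comm]; exact hu⟩
    have : (((u⁻¹ : (↥P'.toValuationSubring)ˣ) : ↥P'.toValuationSubring) : ↥(FL L N)) =
        ((u : ↥P'.toValuationSubring) : ↥(FL L N))⁻¹ := by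
      apply eq_inv_of_mul_eq_one_left
      rw [← MulMemClass.coe_mul, Units.inv_mul, OneMemClass.coe_one]
    rw [← this]
    exact ((u⁻¹ : (↥P'.toValuationSubring)ˣ) : ↥P'.toValuationSubring).2
  have hgen : ∀ z : ↥(FL (AlgebraicClosure ℚ) N), z ∈ Subfield.closure
      (Set.range (algebraMap (AlgebraicClosure ℚ) ↥(FL (AlgebraicClosure ℚ) N)) ∪ Set.range φ) := by
    intro z
    set S := Subfield.closure
      (Set.range (algebraMap (AlgebraicClosure ℚ) ↥(FL (AlgebraicClosure ℚ) N)) ∪ Set.range φ)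
      with hS
    have hle : Subfield.closure
        (Set.range (algebraMap (AlgebraicClosure ℚ) (LaurentSeries (AlgebraicClosure ℚ))) ∪
          (⇑(coeffEmb (AlgebraicClosure ℚ)) '' (modularFunctionFieldFull N : Set (LaurentSeries ℚ))))
        ≤ S.map (FL (AlgebraicClosure ℚ) N).val.toRingHom := by
      rw [Subfield.closure_le]
      rintro y (⟨c, rfl⟩ | ⟨x₀, hx₀, rfl⟩)
      · exact ⟨algebraMap (AlgebraicClosure ℚ) ↥(FL (AlgebraicClosure ℚ) N) c,
          Subfield.subset_closure (Or.inl ⟨c, rfl⟩), rfl⟩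
      · refine ⟨φ ⟨coeffEmb L x₀, coeffEmb_mem_laurentBaseChange L hx₀⟩,
          Subfield.subset_closure (Or.inr ⟨_, rfl⟩), ?_⟩
        exact e_constextT_coeffMap_coeffEmb ι x₀
    obtain ⟨y, hy, hyz⟩ := hle (mem_laurentBaseChange_iff.1 z.2)
    have : y = z := Subtype.ext hyz
    rw [← this]
    exact hy
  obtain ⟨O, hc, htop, hpir, hmem, hπO, hirr⟩ := @e_constextT_abs hU (AlgebraicClosure ℚ) _ _ _ _ _
    (AlgebraicClosure.instAlgebra ℚ) (AlgebraicClosure.isAlgebraic ℚ)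
    (algebraMap (AlgebraicClosure ℚ) ↥(FL (AlgebraicClosure ℚ) N)) φ P'.toValuationSubring hQ π'
    hπ'.not_isUnit hπ'0 hO' hgen
  refine ⟨⟨O, hc, htop, hpir⟩, ?_⟩
  intro x hx
  set P : Place (AlgebraicClosure ℚ) ↥(FL (AlgebraicClosure ℚ) N) := ⟨O, hc, htop, hpir⟩ with hP
  change P.ord (φ x) = P'.ord x
  rcases eq_or_ne x 0 with rfl | hx0
  · rw [map_zero, Place.ord_zero, Place.ord_zero]
  obtain ⟨u, hu⟩ := P'.exists_unit_mul_zpow hx0 hπ'
  let U : (↥P.toValuationSubring)ˣ :=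
    ⟨⟨φ ((u : ↥P'.toValuationSubring) : ↥(FL L N)), hmem _ (u : ↥P'.toValuationSubring).2⟩,
     ⟨φ (((u⁻¹ : (↥P'.toValuationSubring)ˣ) : ↥P'.toValuationSubring) : ↥(FL L N)),
       hmem _ ((u⁻¹ : (↥P'.toValuationSubring)ˣ) : ↥P'.toValuationSubring).2⟩,
     Subtype.ext (by
      change φ _ * φ _ = 1
      rw [← map_mul, ← MulMemClass.coe_mul, Units.mul_inv, OneMemClass.coe_one, map_one]),
     Subtype.ext (by
      change φ _ * φ _ = 1
      rw [← map_mul, ← MulMemClass.coe_mul, Units.inv_mul, OneMemClass.coe_one, map_one])⟩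
  have key : φ x = ((U : ↥P.toValuationSubring) : ↥(FL (AlgebraicClosure ℚ) N)) *
      (((⟨φ (π' : ↥(FL L N)), hπO⟩ : ↥P.toValuationSubring) :
        ↥(FL (AlgebraicClosure ℚ) N)) ^ (P'.ord x)) := by
    conv_lhs => rw [hu, map_mul, map_zpow₀]
  rw [key]
  exact P.ord_unit_smul_zpow U hirr _

end Fermat.Agent.S18
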