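/-
S18, block E3a + E3b (twin T): the coefficientwise embedding `coeffMap ι : L((q)) → Qbar((q))`
maps `F_L` into `F_Qbar`, and every element of `F_Qbar` descends to `F_L` as soon as `ι(L)`
contains a suitable finite set.
-/
import Fermat.Agent.S18.EInterfaces

set_option autoImplicit false

open ModularCurve AlgebraicCurve

namespace Fermat.Agent.S18

noncomputable section

/-- `coeffMap ι` of a constant is the constant `ι c`. -/
theorem e_descentT_coeffMap_algebraMap {L M : Type} [Field L] [Field M] (ι : L →+* M) (c : L) :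
    coeffMap ι (algebraMap L (LaurentSeries L) c) = algebraMap M (LaurentSeries M) (ι c) := by
  rw [algebraMap_laurentSeries_eq_single, algebraMap_laurentSeries_eq_single, coeffMap_single]

/-- `coeffMap ι` is compatible with the coefficient embeddings from `ℚ((q))`. -/
theorem e_descentT_coeffMap_coeffEmb {L M : Type} [Field L] [Field M] [Algebra ℚ L] [Algebra ℚ M]
    (ι : L →+* M) (z : LaurentSeries ℚ) :
    coeffMap ι (coeffEmb L z) = coeffEmb M z := by
  rw [coeffEmb, coeffMap_coeffMap]
  exact coeffMap_congr (Subsingleton.elim _ _) z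

/-- General form of (E3a). -/
theorem e_descentT_iota_gen {L M : Type} [Field L] [Field M] [Algebra ℚ L] [Algebra ℚ M]
    (ι : L →+* M) (F₀ : IntermediateField ℚ (LaurentSeries ℚ)) {x : LaurentSeries L}
    (hx : x ∈ laurentBaseChange L F₀) : coeffMap ι x ∈ laurentBaseChange M F₀ := by
  rw [mem_laurentBaseChange_iff] at hx
  induction hx using Subfield.closure_induction with
  | mem y hy =>
      rcases hy with ⟨a, rfl⟩ | ⟨z, hz, rfl⟩
      · rw [e_descentT_coeffMap_algebraMap]
        exact (laurentBaseChange M F₀).algebraMap_mem _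
      · rw [e_descentT_coeffMap_coeffEmb]
        exact coeffEmb_mem_laurentBaseChange M hz
  | one => rw [map_one]; exact one_mem _
  | add x y _ _ hx hy => rw [map_add]; exact add_mem hx hy
  | neg x _ hx => rw [map_neg]; exact neg_mem hx
  | inv x _ hx => rw [map_inv₀]; exact inv_mem hx
  | mul x y _ _ hx hy => rw [map_mul]; exact mul_mem hx hy

/-- (E3a) The coefficientwise embedding maps `F_L` into `F_Qbar`. -/
theorem e_descentT_iota : e_IotaStatement := by
  intro N _ L _ _ ι x hx
  exact e_descentT_iota_gen ι _ hx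

/-- General form of (E3b). -/
theorem e_descentT_main_gen (M : Type) [Field M] [Algebra ℚ M]
    (F₀ : IntermediateField ℚ (LaurentSeries ℚ)) {x : LaurentSeries M}
    (hx : x ∈ laurentBaseChange M F₀) :
    ∃ S : Finset M, ∀ (L : Type) [Field L] [Algebra ℚ L] (ι : L →+* M),
      (∀ s ∈ S, ∃ c : L, ι c = s) →
      ∃ xL : LaurentSeries L, xL ∈ laurentBaseChange L F₀ ∧ coeffMap ι xL = x := by
  classical
  rw [mem_laurentBaseChange_iff] at hx
  induction hx using Subfield.closure_induction with
  | mem y hy =>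
      rcases hy with ⟨a, rfl⟩ | ⟨z, hz, rfl⟩
      · refine ⟨{a}, fun L _ _ ι h => ?_⟩
        obtain ⟨c, hc⟩ := h a (Finset.mem_singleton_self a)
        refine ⟨algebraMap L (LaurentSeries L) c, (laurentBaseChange L F₀).algebraMap_mem _, ?_⟩
        rw [e_descentT_coeffMap_algebraMap, hc]
      · refine ⟨∅, fun L _ _ ι _ => ?_⟩
        exact ⟨coeffEmb L z, coeffEmb_mem_laurentBaseChange L hz,
          e_descentT_coeffMap_coeffEmb ι z⟩
  | one =>
      refine ⟨∅, fun L _ _ ι _ => ⟨1, one_mem _, map_one _⟩⟩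
  | add x y _ _ hx hy =>
      obtain ⟨S, hS⟩ := hx
      obtain ⟨T, hT⟩ := hy
      refine ⟨S ∪ T, fun L _ _ ι h => ?_⟩
      obtain ⟨a, ha, rfl⟩ := hS L ι (fun s hs => h s (Finset.mem_union_left _ hs))
      obtain ⟨b, hb, rfl⟩ := hT L ι (fun s hs => h s (Finset.mem_union_right _ hs))
      exact ⟨a + b, add_mem ha hb, map_add _ _ _⟩
  | neg x _ hx =>
      obtain ⟨S, hS⟩ := hx
      refine ⟨S, fun L _ _ ι h => ?_⟩
      obtain ⟨a, ha, rfl⟩ := hS L ι h
      exact ⟨-a, neg_mem ha, map_neg _ _⟩
  | inv x _ hx =>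
      obtain ⟨S, hS⟩ := hx
      refine ⟨S, fun L _ _ ι h => ?_⟩
      obtain ⟨a, ha, rfl⟩ := hS L ι h
      exact ⟨a⁻¹, inv_mem ha, map_inv₀ _ _⟩
  | mul x y _ _ hx hy =>
      obtain ⟨S, hS⟩ := hx
      obtain ⟨T, hT⟩ := hy
      refine ⟨S ∪ T, fun L _ _ ι h => ?_⟩
      obtain ⟨a, ha, rfl⟩ := hS L ι (fun s hs => h s (Finset.mem_union_left _ hs))
      obtain ⟨b, hb, rfl⟩ := hT L ι (fun s hs => h s (Finset.mem_union_right _ hs))
      exact ⟨a * b, mul_mem ha hb, map_mul _ _ _⟩

/-- (E3b) Every element of `F_Qbar` comes from `F_L` as soon as `ι(L)` contains a suitable finite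
set. -/
theorem e_descentT_main : e_DescentStatement := by
  intro N _ x hx
  exact e_descentT_main_gen (AlgebraicClosure ℚ) _ hx

end

end Fermat.Agent.S18
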