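/-
S18, block H/Ab (co-lead helper22) — INTERFACE FILE for the proof of `HorizUnramStatement`
(Kummer–Abhyankar: `F(t) / L(t)` is unramified at every place `g` of `L(t)`).

Statement-`Prop`s only.  Conventions as in `EInterfaces2/3.lean`: `Ω` a field, `O` a valuation subring
of `Ω`; "`O` induces on the subfield `E` a discrete valuation with uniformiser `π`" means: every nonzero
`x ∈ E` is `π ^ n * u` with `n : ℤ` and `u` a unit of `O` (`u ∈ O`, `u⁻¹ ∈ O`).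
-/
import Fermat.Agent.S18.SInterfaces
import Fermat.Agent.S18.EInterfaces3

set_option autoImplicit false

open ModularCurve AlgebraicCurve Polynomial

namespace Fermat.Agent.S18

noncomputable section

/-- (Eis) Purely ramified radical extensions.  If `O` induces on `E` a discrete valuation with
uniformiser `π` and `s ^ k = π` (`k ≥ 1`), then `O` induces on `E(s)` a discrete valuation with
uniformiser `s`. -/
def e_EisStatement : Prop :=
  ∀ (Ω : Type) [Field Ω] (O : ValuationSubring Ω) (E : Subfield Ω) (π s : Ω) (k : ℕ),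
    π ∈ E → π ≠ 0 → π ∈ O.nonunits →
    (∀ x ∈ E, x ≠ 0 → ∃ (n : ℤ) (u : Ω), u ∈ O ∧ u⁻¹ ∈ O ∧ x = π ^ n * u) →
    0 < k → s ^ k = π →
    ∀ x ∈ Subfield.closure ((E : Set Ω) ∪ {s}), x ≠ 0 →
      ∃ (n : ℤ) (u : Ω), u ∈ O ∧ u⁻¹ ∈ O ∧ x = s ^ n * u

/-- (SubDisc) A subfield `E₀` of a discretely valued field `E` on which the valuation is nontrivial is
discretely valued. -/
def e_SubDiscStatement : Prop :=
  ∀ (Ω : Type) [Field Ω] (O : ValuationSubring Ω) (E₀ E : Subfield Ω) (π : Ω),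
    E₀ ≤ E → π ∈ E → π ≠ 0 → π ∈ O.nonunits →
    (∀ x ∈ E, x ≠ 0 → ∃ (n : ℤ) (u : Ω), u ∈ O ∧ u⁻¹ ∈ O ∧ x = π ^ n * u) →
    (∃ y ∈ E₀, y ≠ 0 ∧ y ∈ O.nonunits) →
    ∃ ϖ ∈ E₀, ϖ ≠ 0 ∧ ϖ ∈ O.nonunits ∧
      ∀ x ∈ E₀, x ≠ 0 → ∃ (n : ℤ) (u : Ω), u ∈ O ∧ u⁻¹ ∈ O ∧ x = ϖ ^ n * u

/-- (RatRep) Every element of `L(t) ⊆ Ω` is a quotient `p(t) / q(t)`. -/
def h_RatRepStatement : Prop :=
  ∀ (L Ω : Type) [Field L] [Field Ω] [Algebra L Ω] (t : Ω),
    ∀ x ∈ Subfield.closure (Set.range (algebraMap L Ω) ∪ {t}),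
      ∃ p q : L[X], aeval t q ≠ 0 ∧ x * aeval t q = aeval t p

/-- (AbhBase) The `g`-adic structure of `L(t)`: if `O ⊇ L`, `t ∈ O` and `g(t)` is a nonzero non-unit of
`O` (`g ∈ L[T]` irreducible), then `p(t)` is a unit of `O` for every `p` prime to `g`, and every nonzero
`x ∈ L(t)` is `g(t) ^ n * p(t) / q(t)` with `p, q` prime to `g`. -/
def h_AbhBaseStatement : Prop :=
  ∀ (L Ω : Type) [Field L] [Field Ω] [Algebra L Ω] (O : ValuationSubring Ω) (t : Ω) (g : L[X]),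
    (∀ a : L, algebraMap L Ω a ∈ O) → t ∈ O → Irreducible g → aeval t g ∈ O.nonunits →
    aeval t g ≠ 0 →
    (∀ p : L[X], ¬ g ∣ p → aeval t p ≠ 0 ∧ (aeval t p)⁻¹ ∈ O) ∧
    (∀ x ∈ Subfield.closure (Set.range (algebraMap L Ω) ∪ {t}), x ≠ 0 →
      ∃ (n : ℤ) (p q : L[X]), ¬ g ∣ p ∧ ¬ g ∣ q ∧ x * aeval t q = aeval t g ^ n * aeval t p)

/-- (AbhCore) Abhyankar's lemma, core computation.  `Ω` algebraically closed of characteristic `0`,
`O ⊇ L` a valuation subring, `F ⊇ L` a subfield on which `O` is discrete with uniformiser `πw`,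
`g(t)` a nonzero non-unit of `O`.  If some `ϑ ∈ F` is `πw ^ m * unit` and also
`ϑ = g(t) ^ e * A₁(t) / B(t)` with `A₁, B` prime to `g` and `m ∣ e` (`m, e ≥ 1`), then `O` is discrete on
`F(t)` with uniformiser `g(t)`. -/
def h_AbhCoreStatement : Prop :=
  ∀ (L Ω : Type) [Field L] [CharZero L] [Field Ω] [IsAlgClosed Ω] [Algebra L Ω]
    (O : ValuationSubring Ω) (F : Subfield Ω) (t : Ω) (g A₁ B : L[X]) (πw ϑ : Ω) (m e : ℕ),
    (∀ a : L, algebraMap L Ω a ∈ O) → (∀ a : L, algebraMap L Ω a ∈ F) →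
    t ∈ O → Irreducible g → aeval t g ∈ O.nonunits → aeval t g ≠ 0 →
    πw ∈ F → πw ≠ 0 → πw ∈ O.nonunits →
    (∀ x ∈ F, x ≠ 0 → ∃ (n : ℤ) (u : Ω), u ∈ O ∧ u⁻¹ ∈ O ∧ x = πw ^ n * u) →
    ϑ ∈ F → 0 < m → 0 < e → m ∣ e →
    (∃ u : Ω, u ∈ O ∧ u⁻¹ ∈ O ∧ ϑ = πw ^ m * u) →
    ¬ g ∣ A₁ → ¬ g ∣ B → ϑ * aeval t B = aeval t g ^ e * aeval t A₁ →
    ∀ x ∈ Subfield.closure ((F : Set Ω) ∪ {t}), x ≠ 0 →
      ∃ (n : ℤ) (u : Ω), u ∈ O ∧ u⁻¹ ∈ O ∧ x = aeval t g ^ n * u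

/-- (AbhMid) The Kummer–Abhyankar argument inside an algebraically closed valued field `(Ω, O)`:
`F ⊇ L(j)` finite, `j ∈ L(t)` transcendental over `L`, the elementwise form of `HorizAt` at the place
`O ∩ F` of `F`, and the three ramification hypotheses on `L(t) / L(j)` at `g`; conclusion: `O` is
discrete on `F(t)` with uniformiser `g(t)`. -/
def h_AbhMidStatement : Prop :=
  ∀ (N : ℕ) (L Ω : Type) [Field L] [CharZero L] [Field Ω] [IsAlgClosed Ω] [Algebra L Ω]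
    (O : ValuationSubring Ω) (F : Subfield Ω) (t j : Ω) (g : L[X]),
    0 < N →
    (∀ a : L, algebraMap L Ω a ∈ O) → (∀ a : L, algebraMap L Ω a ∈ F) →
    t ∈ O → Irreducible g → aeval t g ∈ O.nonunits → (∀ p : L[X], aeval t p = 0 → p = 0) →
    j ∈ F → (∀ p : L[X], aeval j p = 0 → p = 0) →
    (∃ p q : L[X], q ≠ 0 ∧ aeval t q * j = aeval t p) →
    (∃ (r : ℕ) (b : Fin r → Ω), ∀ x ∈ F, ∃ a : Fin r → Ω,
      (∀ i, a i ∈ Subfield.closure (Set.range (algebraMap L Ω) ∪ {j})) ∧ x = ∑ i, a i * b i) →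
    (∀ πw ∈ F, πw ≠ 0 → πw ∈ O.nonunits →
      (∀ x ∈ F, x ≠ 0 → ∃ (n : ℤ) (u : Ω), u ∈ O ∧ u⁻¹ ∈ O ∧ x = πw ^ n * u) →
      (j ∉ O → ∃ (m : ℕ) (u : Ω), m ∣ N ∧ u ∈ O ∧ u⁻¹ ∈ O ∧ j⁻¹ = πw ^ m * u) ∧
      (j ∈ O.nonunits → ∃ (m : ℕ) (u : Ω), m ∣ 3 ∧ u ∈ O ∧ u⁻¹ ∈ O ∧ j = πw ^ m * u) ∧
      (j - 1728 ∈ O.nonunits →
        ∃ (m : ℕ) (u : Ω), m ∣ 2 ∧ u ∈ O ∧ u⁻¹ ∈ O ∧ j - 1728 = πw ^ m * u) ∧
      (∀ π : L[X], Irreducible π → ¬ π ∣ X * (X - C 1728) → aeval j π ∈ O.nonunits →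
        ∃ u : Ω, u ∈ O ∧ u⁻¹ ∈ O ∧ aeval j π = πw * u)) →
    (RegAt t g j → ∃ a u v : Ω, RegAt t g a ∧ RegAt t g u ∧ RegAt t g v ∧ u * v = 1 ∧
      j = u * a ^ 3) →
    (RegAt t g j → ∃ b u v : Ω, RegAt t g b ∧ RegAt t g u ∧ RegAt t g v ∧ u * v = 1 ∧
      j - 1728 = u * b ^ 2) →
    (¬ RegAt t g j → ∃ a u v : Ω, RegAt t g a ∧ RegAt t g u ∧ RegAt t g v ∧ u * v = 1 ∧
      j⁻¹ = u * a ^ N) →
    ∀ x ∈ Subfield.closure ((F : Set Ω) ∪ {t}), x ≠ 0 →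
      ∃ (n : ℤ) (u : Ω), u ∈ O ∧ u⁻¹ ∈ O ∧ x = aeval t g ^ n * u

/-- (AbhVal) In the setting of `HorizUnramStatement`: every valuation subring `V` of `E = F(t)`
dominating `L[t]_(g)` (i.e. `V ⊇ L`, `t ∈ V`, `g(t)` a non-unit of `V`) is discrete with uniformiser
`g(t)`. -/
def h_AbhValStatement : Prop :=
  ∀ (N : ℕ) [NeZero N] (L : Type) [Field L] [Algebra ℚ L], HorizAt L N →
    ∀ (E : Type) [Field E] [Algebra L E] [Algebra ↥(FL L N) E] [IsScalarTower L ↥(FL L N) E] (t : E),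
      IntermediateField.adjoin ↥(FL L N) {t} = ⊤ →
      (∀ p : L[X], aeval t p = 0 → p = 0) →
      (∃ p q : L[X], q ≠ 0 ∧ aeval t q * algebraMap ↥(FL L N) E (jF L N) = aeval t p) →
      ∀ g : L[X], Irreducible g →
        (RegAt t g (algebraMap ↥(FL L N) E (jF L N)) → ∃ a u v : E, RegAt t g a ∧ RegAt t g u ∧
          RegAt t g v ∧ u * v = 1 ∧ algebraMap ↥(FL L N) E (jF L N) = u * a ^ 3) →
        (RegAt t g (algebraMap ↥(FL L N) E (jF L N)) → ∃ b u v : E, RegAt t g b ∧ RegAt t g u ∧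
          RegAt t g v ∧ u * v = 1 ∧ algebraMap ↥(FL L N) E (jF L N) - 1728 = u * b ^ 2) →
        (¬ RegAt t g (algebraMap ↥(FL L N) E (jF L N)) → ∃ a u v : E, RegAt t g a ∧ RegAt t g u ∧
          RegAt t g v ∧ u * v = 1 ∧ (algebraMap ↥(FL L N) E (jF L N))⁻¹ = u * a ^ N) →
        ∀ V : ValuationSubring E, (∀ a : L, algebraMap L E a ∈ V) → t ∈ V →
          aeval t g ∈ V.nonunits →
          ∀ x : E, x ≠ 0 → ∃ (n : ℤ) (u : E), u ∈ V ∧ u⁻¹ ∈ V ∧ x = aeval t g ^ n * u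

/-- (DiscRed) Discriminant criterion.  `R` a DVR with uniformiser `ϖ` and residue characteristic `0`,
`S` a finite free `R`-algebra with `S / ϖ S` reduced.  Then the discriminant of every `R`-basis of `S`
is a unit of `R`. -/
def h_DiscRedStatement : Prop :=
  ∀ (R S : Type) [CommRing R] [IsDomain R] [IsDiscreteValuationRing R] [CommRing S] [Algebra R S]
    [Module.Free R S] [Module.Finite R S] (ϖ : R), Irreducible ϖ →
    (∀ n : ℕ, n ≠ 0 → IsUnit (n : R)) →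
    (∀ (x : S) (n : ℕ), (∃ y : S, x ^ n = algebraMap R S ϖ * y) →
      ∃ y : S, x = algebraMap R S ϖ * y) →
    ∀ (r : ℕ) (b : Module.Basis (Fin r) R S), IsUnit (Algebra.discr R b)

/-- (DiscAbs) `R` a DVR with fraction field `K` (characteristic `0`, residue characteristic `0`),
`E / K` finite.  If every valuation subring of `E` dominating `R` is discrete with uniformiser `ϖ`, then
`E` has a `K`-basis of elements integral over `R` whose discriminant is a unit of `R`. -/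
def h_DiscAbsStatement : Prop :=
  ∀ (R K E : Type) [CommRing R] [IsDomain R] [IsDiscreteValuationRing R] [Field K] [Field E]
    [Algebra R K] [IsFractionRing R K] [Algebra K E] [Algebra R E] [IsScalarTower R K E]
    [CharZero K] [FiniteDimensional K E] (ϖ : R), Irreducible ϖ →
    (∀ n : ℕ, n ≠ 0 → IsUnit (n : R)) →
    (∀ V : ValuationSubring E, (∀ r : R, algebraMap R E r ∈ V) → algebraMap R E ϖ ∈ V.nonunits →
      ∀ x : E, x ≠ 0 → ∃ (n : ℤ) (u : E), u ∈ V ∧ u⁻¹ ∈ V ∧ x = algebraMap R E ϖ ^ n * u) →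
    ∃ (r : ℕ) (c : Fin r → E), LinearIndependent K c ∧ Submodule.span K (Set.range c) = ⊤ ∧
      (∀ i, IsIntegral R (c i)) ∧ ∃ d : R, IsUnit d ∧ algebraMap R K d = Algebra.discr K c

/-- (DiscUnit) Concrete form: `t ∈ E` transcendental over `L` (characteristic `0`), `E / L(t)` finite,
`g ∈ L[T]` irreducible.  If every valuation subring of `E` dominating `L[t]_(g)` is discrete with
uniformiser `g(t)`, then `E / L(t)` is unramified at `g` in the discriminant form `UnramAtPoly`. -/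
def h_DiscUnitStatement : Prop :=
  ∀ (L E : Type) [Field L] [CharZero L] [Field E] [Algebra L E] (t : E) (g : L[X]),
    Irreducible g → (∀ p : L[X], aeval t p = 0 → p = 0) →
    FiniteDimensional ↥(IntermediateField.adjoin L {t}) E →
    (∀ V : ValuationSubring E, (∀ a : L, algebraMap L E a ∈ V) → t ∈ V → aeval t g ∈ V.nonunits →
      ∀ x : E, x ≠ 0 → ∃ (n : ℤ) (u : E), u ∈ V ∧ u⁻¹ ∈ V ∧ x = aeval t g ^ n * u) →
    UnramAtPoly t g

end

end Fermat.Agent.S18
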