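/-
S18, block H/Ab — package Eis: purely ramified radical extensions of a discretely valued field.
Deliverable: `e_eis_main : e_EisStatement`.
-/
import Fermat.Agent.S18.HInterfaces

set_option autoImplicit false

namespace Fermat.Agent.S18

/-- Ultrametric principle: in a finite sum whose nonzero terms have pairwise distinct valuations,
either all terms vanish or the valuation of the sum is the valuation of one nonzero term. -/
theorem e_eis_sum_distinct {Ω Γ ι : Type} [Field Ω] [LinearOrderedCommGroupWithZero Γ]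
    [DecidableEq ι] (v : Valuation Ω Γ) (f : ι → Ω) (t : Finset ι)
    (hd : ∀ i ∈ t, ∀ j ∈ t, f i ≠ 0 → f j ≠ 0 → v (f i) = v (f j) → i = j) :
    (∀ i ∈ t, f i = 0) ∨ ∃ i ∈ t, f i ≠ 0 ∧ v (∑ j ∈ t, f j) = v (f i) := by
  induction t using Finset.induction_on with
  | empty => left; simp
  | insert a t hat ih =>
    have hd' : ∀ i ∈ t, ∀ j ∈ t, f i ≠ 0 → f j ≠ 0 → v (f i) = v (f j) → i = j :=
      fun i hi j hj => hd i (Finset.mem_insert_of_mem hi) j (Finset.mem_insert_of_mem hj)
    rw [Finset.sum_insert hat]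
    rcases ih hd' with h0 | ⟨i, hi, hi0, hiv⟩
    · by_cases ha : f a = 0
      · left
        intro j hj
        rcases Finset.mem_insert.1 hj with rfl | hj
        · exact ha
        · exact h0 j hj
      · right
        refine ⟨a, Finset.mem_insert_self _ _, ha, ?_⟩
        rw [Finset.sum_eq_zero h0, add_zero]
    · right
      by_cases ha : f a = 0
      · refine ⟨i, Finset.mem_insert_of_mem hi, hi0, ?_⟩
        rw [ha, zero_add, hiv]
      · have hne : v (f a) ≠ v (∑ j ∈ t, f j) := by
          rw [hiv]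
          intro h
          have := hd a (Finset.mem_insert_self _ _) i (Finset.mem_insert_of_mem hi) ha hi0 h
          exact hat (this ▸ hi)
        rw [Valuation.map_add_of_distinct_val v hne]
        rcases max_choice (v (f a)) (v (∑ j ∈ t, f j)) with h | h
        · exact ⟨a, Finset.mem_insert_self _ _, ha, h⟩
        · exact ⟨i, Finset.mem_insert_of_mem hi, hi0, h.trans hiv⟩

/-- Elements of the subring generated by `E` and `s` (with `s ^ k = π ∈ E`) are `E`-combinations
of `1, s, …, s ^ (k - 1)`. -/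
theorem e_eis_repr {Ω : Type} [Field Ω] (E : Subfield Ω) (π s : Ω) (k : ℕ)
    (hπ : π ∈ E) (hk : 0 < k) (hs : s ^ k = π) :
    ∀ x ∈ Subring.closure ((E : Set Ω) ∪ {s}),
      ∃ a : ℕ → Ω, (∀ i, a i ∈ E) ∧ x = ∑ i ∈ Finset.range k, a i * s ^ i := by
  classical
  set P : Ω → Prop := fun x =>
    ∃ a : ℕ → Ω, (∀ i, a i ∈ E) ∧ x = ∑ i ∈ Finset.range k, a i * s ^ i with hP
  have P0 : P 0 := ⟨fun _ => 0, fun _ => E.zero_mem, by simp⟩
  have Padd : ∀ x y, P x → P y → P (x + y) := by
    rintro x y ⟨a, ha, rfl⟩ ⟨b, hb, rfl⟩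
    refine ⟨fun i => a i + b i, fun i => E.add_mem (ha i) (hb i), ?_⟩
    rw [← Finset.sum_add_distrib]
    exact Finset.sum_congr rfl fun i _ => by ring
  have PE : ∀ e ∈ E, ∀ x, P x → P (e * x) := by
    rintro e he x ⟨a, ha, rfl⟩
    refine ⟨fun i => e * a i, fun i => E.mul_mem he (ha i), ?_⟩
    rw [Finset.mul_sum]
    exact Finset.sum_congr rfl fun i _ => by ring
  have Ps : ∀ x, P x → P (s * x) := by
    rintro x ⟨a, ha, rfl⟩
    obtain ⟨m, rfl⟩ : ∃ m, k = m + 1 := ⟨k - 1, by omega⟩
    refine ⟨fun i => if i = 0 then a m * π else a (i - 1), fun i => ?_, ?_⟩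
    · by_cases h : i = 0
      · simp only [h, if_true]; exact E.mul_mem (ha m) hπ
      · simp only [h, if_false]; exact ha _
    · rw [Finset.sum_range_succ, Finset.sum_range_succ' (fun i =>
        (if i = 0 then a m * π else a (i - 1)) * s ^ i)]
      simp only [Nat.add_eq_zero_iff, one_ne_zero, and_false, if_false, if_true, Nat.add_sub_cancel,
        pow_zero, mul_one]
      rw [mul_add, Finset.mul_sum, ← hs]
      congr 1
      · exact Finset.sum_congr rfl fun i _ => by ring
      · ring
  have Pspow : ∀ (j : ℕ) x, P x → P (s ^ j * x) := by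
    intro j
    induction j with
    | zero => intro x hx; simpa using hx
    | succ j ih =>
      intro x hx
      have := Ps _ (ih x hx)
      rwa [← mul_assoc, ← pow_succ'] at this
  have Psum : ∀ (t : Finset ℕ) (g : ℕ → Ω), (∀ i ∈ t, P (g i)) → P (∑ i ∈ t, g i) := by
    intro t g
    induction t using Finset.induction_on with
    | empty => intro _; simpa using P0
    | insert b t hbt ih =>
      intro h
      rw [Finset.sum_insert hbt]
      exact Padd _ _ (h b (Finset.mem_insert_self _ _))
        (ih fun i hi => h i (Finset.mem_insert_of_mem hi))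
  have PofE : ∀ e ∈ E, P e := by
    intro e he
    refine ⟨fun i => if i = 0 then e else 0, fun i => ?_, ?_⟩
    · by_cases h : i = 0
      · simp only [h, if_true]; exact he
      · simp only [h, if_false]; exact E.zero_mem
    · rw [Finset.sum_eq_single 0]
      · simp
      · intro b _ hb; simp [hb]
      · intro h; exact absurd (Finset.mem_range.2 hk) h
  have Pmul : ∀ x y, P x → P y → P (x * y) := by
    rintro x y hx ⟨b, hb, rfl⟩
    rw [Finset.mul_sum]
    refine Psum _ _ fun j _ => ?_
    have := PE (b j) (hb j) _ (Pspow j x hx)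
    have e : x * (b j * s ^ j) = b j * (s ^ j * x) := by ring
    rw [e]; exact this
  have Pneg : ∀ x, P x → P (-x) := by
    intro x hx
    have := PE (-1) (E.neg_mem E.one_mem) x hx
    simpa using this
  intro x hx
  induction hx using Subring.closure_induction with
  | mem y hy =>
    rcases hy with hy | hy
    · exact PofE y hy
    · rw [Set.mem_singleton_iff] at hy
      subst hy
      have := Ps 1 (PofE 1 E.one_mem)
      rwa [mul_one] at this
  | zero => exact P0
  | one => exact PofE 1 E.one_mem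
  | add x y _ _ hx hy => exact Padd x y hx hy
  | neg x _ hx => exact Pneg x hx
  | mul x y _ _ hx hy => exact Pmul x y hx hy

/-- (Eis) Purely ramified radical extensions. -/
theorem e_eis_main : e_EisStatement := by
  classical
  intro Ω _ O E π s k hπE hπ0 hπO HE hk hs x hx hx0
  set v := O.valuation with hv
  have hvπ : v π < 1 := (ValuationSubring.mem_nonunits_iff O).1 hπO
  have hs0 : s ≠ 0 := by
    rintro rfl
    rw [zero_pow hk.ne'] at hs
    exact hπ0 hs.symm
  have hvs0 : 0 < v s := zero_lt_iff.2 ((Valuation.ne_zero_iff v).2 hs0)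
  have hvs1 : v s < 1 := by
    by_contra h
    have h1 : 1 ≤ v s := not_lt.1 h
    have : 1 ≤ v π := by
      rw [← hs, map_pow]
      exact one_le_pow₀ h1
    exact absurd hvπ (not_lt.2 this)
  have hinj : Function.Injective fun n : ℤ => v s ^ n := zpow_right_injective₀ hvs0 hvs1.ne
  have hunit : ∀ u : Ω, u ≠ 0 → u ∈ O → u⁻¹ ∈ O → v u = 1 := by
    intro u hu0 hu hu'
    have h1 : v u ≤ 1 := (ValuationSubring.valuation_le_one_iff O u).2 hu
    have h2 : v u⁻¹ ≤ 1 := (ValuationSubring.valuation_le_one_iff O u⁻¹).2 hu'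
    rw [map_inv₀] at h2
    have hu0' : v u ≠ 0 := (Valuation.ne_zero_iff v).2 hu0
    exact le_antisymm h1 ((inv_le_one₀ (zero_lt_iff.2 hu0')).1 h2)
  -- valuations of nonzero elements of `E`
  have hE : ∀ a ∈ E, a ≠ 0 → ∃ n : ℤ, v a = v s ^ ((k : ℤ) * n) := by
    intro a ha ha0
    obtain ⟨n, u, hu, hu', rfl⟩ := HE a ha ha0
    refine ⟨n, ?_⟩
    rw [map_mul, map_zpow₀, hunit u (right_ne_zero_of_mul ha0) hu hu', mul_one, ← hs, map_pow, zpow_mul, zpow_natCast]
  -- valuations of nonzero elements of the subring `E[s]`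
  have hring : ∀ y ∈ Subring.closure ((E : Set Ω) ∪ {s}), y ≠ 0 → ∃ n : ℤ, v y = v s ^ n := by
    intro y hy hy0
    obtain ⟨a, ha, rfl⟩ := e_eis_repr E π s k hπE hk hs y hy
    have hterm : ∀ i, a i * s ^ i ≠ 0 → ∃ n : ℤ, v (a i * s ^ i) = v s ^ ((k : ℤ) * n + i) := by
      intro i hi
      obtain ⟨n, hn⟩ := hE (a i) (ha i) (left_ne_zero_of_mul hi)
      refine ⟨n, ?_⟩
      rw [map_mul, hn, map_pow, zpow_add₀ hvs0.ne', zpow_natCast]
    have key := e_eis_sum_distinct v (fun i => a i * s ^ i) (Finset.range k) (by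
      intro i hi j hj hi0 hj0 hij
      obtain ⟨n, hn⟩ := hterm i hi0
      obtain ⟨m, hm⟩ := hterm j hj0
      rw [hn, hm] at hij
      have h : (k : ℤ) * n + i = (k : ℤ) * m + j := hinj hij
      have hi' : (i : ℤ) < k := by exact_mod_cast Finset.mem_range.1 hi
      have hj' : (j : ℤ) < k := by exact_mod_cast Finset.mem_range.1 hj
      have h1 : ((k : ℤ) * n + i) % k = i := by
        rw [add_comm, Int.add_mul_emod_self_left]
        exact Int.emod_eq_of_lt (by positivity) hi'
      have h2 : ((k : ℤ) * m + j) % k = j := by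
        rw [add_comm, Int.add_mul_emod_self_left]
        exact Int.emod_eq_of_lt (by positivity) hj'
      rw [h] at h1
      exact_mod_cast h1.symm.trans h2)
    rcases key with h0 | ⟨i, _, hi0, hiv⟩
    · exact absurd (Finset.sum_eq_zero h0) hy0
    · obtain ⟨n, hn⟩ := hterm i hi0
      exact ⟨_, hiv.trans hn⟩
  -- valuations of nonzero elements of the field `E(s)`
  obtain ⟨y, hy, z, hz, rfl⟩ := Subfield.mem_closure_iff.1 hx
  have hy0 : y ≠ 0 := by rintro rfl; exact hx0 (zero_div z)
  have hz0 : z ≠ 0 := by rintro rfl; exact hx0 (div_zero y)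
  obtain ⟨n, hn⟩ := hring y hy hy0
  obtain ⟨m, hm⟩ := hring z hz hz0
  have hsn : s ^ (n - m) ≠ 0 := zpow_ne_zero _ hs0
  have hvu : v (y / z / s ^ (n - m)) = 1 := by
    rw [map_div₀, map_div₀, map_zpow₀, hn, hm, ← zpow_sub₀ hvs0.ne']
    exact div_self (zpow_ne_zero _ hvs0.ne')
  refine ⟨n - m, y / z / s ^ (n - m), ?_, ?_, ?_⟩
  · exact (ValuationSubring.valuation_le_one_iff O _).1 hvu.le
  · refine (ValuationSubring.valuation_le_one_iff O _).1 ?_
    rw [map_inv₀]
    change (v (y / z / s ^ (n - m)))⁻¹ ≤ 1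
    rw [hvu, inv_one]
  · field_simp

end Fermat.Agent.S18
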