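/-
S18, block H — package SubDisc: a subfield `E₀` of a discretely valued field `E` (valuation induced by a
valuation subring `O` of an ambient field `Ω`) on which the valuation is nontrivial is discretely valued.
-/
import Fermat.Agent.S18.HInterfaces

set_option autoImplicit false

namespace Fermat.Agent.S18

/-- Integer powers of a unit of `O` are units of `O`. -/
theorem e_subdisc_unit_zpow {Ω : Type} [Field Ω] (O : ValuationSubring Ω) (u : Ω)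
    (hu : u ∈ O) (hu' : u⁻¹ ∈ O) (n : ℤ) : u ^ n ∈ O ∧ (u ^ n)⁻¹ ∈ O := by
  cases n with
  | ofNat m =>
    refine ⟨?_, ?_⟩
    · simpa using pow_mem hu m
    · simpa [inv_pow] using pow_mem hu' m
  | negSucc m =>
    refine ⟨?_, ?_⟩
    · simpa [zpow_negSucc, inv_pow] using pow_mem hu' (m + 1)
    · simpa [zpow_negSucc] using pow_mem hu (m + 1)

/-- If `π ≠ 0` is a nonunit of `O`, `u` a unit of `O` and `z = π ^ n * u` is a nonunit, then `1 ≤ n`. -/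
theorem e_subdisc_one_le {Ω : Type} [Field Ω] (O : ValuationSubring Ω) (π : Ω)
    (hπO : π ∈ O.nonunits) (z u : Ω) (n : ℤ) (hz0 : z ≠ 0) (hz : z ∈ O.nonunits)
    (hu' : u⁻¹ ∈ O) (hzn : z = π ^ n * u) : 1 ≤ n := by
  by_contra hn
  have hn' : n ≤ 0 := by omega
  have hπmem : π ∈ O := ValuationSubring.nonunits_subset hπO
  have hzinv : z⁻¹ ∉ O := by
    rcases (ValuationSubring.mem_nonunits_iff_or (A := O)).1 hz with h | h
    · exact absurd h hz0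
    · exact h
  apply hzinv
  obtain ⟨m, hm⟩ : ∃ m : ℕ, n = -(m : ℤ) := ⟨(-n).toNat, by omega⟩
  have : z⁻¹ = π ^ m * u⁻¹ := by
    rw [hzn, hm, mul_inv, zpow_neg, inv_inv, zpow_natCast]
  rw [this]
  exact O.mul_mem _ _ (pow_mem hπmem m) hu'

/-- If `π ≠ 0` is a nonunit of `O`, `u` a unit of `O` and `1 ≤ n`, then `π ^ n * u` is a nonunit. -/
theorem e_subdisc_nonunit {Ω : Type} [Field Ω] (O : ValuationSubring Ω) (π : Ω)
    (hπ0 : π ≠ 0) (hπO : π ∈ O.nonunits) (u : Ω) (n : ℕ) (hn : 1 ≤ n)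
    (hu : u ∈ O) (hu0 : u ≠ 0) : π ^ n * u ∈ O.nonunits := by
  have hπmem : π ∈ O := ValuationSubring.nonunits_subset hπO
  have hπinv : π⁻¹ ∉ O := by
    rcases (ValuationSubring.mem_nonunits_iff_or (A := O)).1 hπO with h | h
    · exact absurd h hπ0
    · exact h
  rw [ValuationSubring.mem_nonunits_iff_or]
  right
  intro h
  apply hπinv
  obtain ⟨m, rfl⟩ : ∃ m : ℕ, n = m + 1 := ⟨n - 1, by omega⟩
  have : π⁻¹ = π ^ m * u * (π ^ (m + 1) * u)⁻¹ := by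
    field_simp
    ring
  rw [this]
  exact O.mul_mem _ _ (O.mul_mem _ _ (pow_mem hπmem m) hu) h

theorem e_subdisc_main : e_SubDiscStatement := by
  classical
  intro Ω _ O E₀ E π hE hπE hπ0 hπO hE_unif hy
  -- the set of positive exponents realised by elements of `E₀`
  let P : ℕ → Prop := fun n =>
    1 ≤ n ∧ ∃ z ∈ E₀, z ≠ 0 ∧ ∃ u : Ω, u ∈ O ∧ u⁻¹ ∈ O ∧ z = π ^ n * u
  have hP : ∃ n, P n := by
    obtain ⟨y, hyE₀, hy0, hyO⟩ := hy
    obtain ⟨n, u, hu, hu', hyn⟩ := hE_unif y (hE hyE₀) hy0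
    have hn : 1 ≤ n := e_subdisc_one_le O π hπO y u n hy0 hyO hu' hyn
    refine ⟨n.toNat, by omega, y, hyE₀, hy0, u, hu, hu', ?_⟩
    rw [hyn, ← zpow_natCast, Int.toNat_of_nonneg (by omega)]
  obtain ⟨hn₀, ϖ, hϖE₀, hϖ0, u₀, hu₀, hu₀', hϖ⟩ := Nat.find_spec hP
  set n₀ := Nat.find hP with hn₀def
  have hu₀0 : u₀ ≠ 0 := by
    rintro rfl
    exact hϖ0 (by rw [hϖ, mul_zero])
  refine ⟨ϖ, hϖE₀, hϖ0, ?_, ?_⟩
  · rw [hϖ]
    exact e_subdisc_nonunit O π hπ0 hπO u₀ n₀ hn₀ hu₀ hu₀0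
  · intro x hxE₀ hx0
    obtain ⟨n, u, hu, hu', hxn⟩ := hE_unif x (hE hxE₀) hx0
    have hu0 : u ≠ 0 := by
      rintro rfl
      exact hx0 (by rw [hxn, mul_zero])
    set q : ℤ := n / (n₀ : ℤ) with hq
    set r : ℤ := n % (n₀ : ℤ) with hr
    have hn₀pos : (0 : ℤ) < (n₀ : ℤ) := by exact_mod_cast hn₀
    have hr0 : 0 ≤ r := Int.emod_nonneg _ hn₀pos.ne'
    have hrlt : r < n₀ := Int.emod_lt_of_pos _ hn₀pos
    have hnqr : n = (n₀ : ℤ) * q + r := (Int.mul_ediv_add_emod n n₀).symm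
    obtain ⟨hv, hv'⟩ := e_subdisc_unit_zpow O u₀ hu₀ hu₀' (-q)
    -- the element `x / ϖ ^ q = π ^ r * (u * u₀ ^ (-q))`
    have hkey : x * (ϖ ^ q)⁻¹ = π ^ r * (u * u₀ ^ (-q)) := by
      rw [hxn, hϖ, hnqr, mul_zpow, zpow_add₀ hπ0, zpow_mul, zpow_natCast, zpow_neg]
      have h1 : (π ^ n₀) ^ q ≠ 0 := zpow_ne_zero _ (pow_ne_zero _ hπ0)
      have h2 : u₀ ^ q ≠ 0 := zpow_ne_zero _ hu₀0
      field_simp
    have hw : u * u₀ ^ (-q) ∈ O := O.mul_mem _ _ hu hv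
    have hw' : (u * u₀ ^ (-q))⁻¹ ∈ O := by
      rw [mul_inv]
      exact O.mul_mem _ _ hu' hv'
    have hxq : x * (ϖ ^ q)⁻¹ ∈ E₀ := E₀.mul_mem hxE₀ (E₀.inv_mem (E₀.zpow_mem hϖE₀ q))
    have hxq0 : x * (ϖ ^ q)⁻¹ ≠ 0 := mul_ne_zero hx0 (inv_ne_zero (zpow_ne_zero _ hϖ0))
    have hr_eq : r = 0 := by
      by_contra hrne
      have hPr : P r.toNat := by
        refine ⟨by omega, x * (ϖ ^ q)⁻¹, hxq, hxq0, u * u₀ ^ (-q), hw, hw', ?_⟩
        rw [hkey, ← zpow_natCast, Int.toNat_of_nonneg hr0]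
      have := Nat.find_min hP (m := r.toNat) (by omega)
      exact this hPr
    refine ⟨q, u * u₀ ^ (-q), hw, hw', ?_⟩
    rw [hr_eq, zpow_zero, one_mul] at hkey
    rw [← hkey]
    field_simp

end Fermat.Agent.S18
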