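import Fermat.Agent.S18.EInterfaces3

set_option autoImplicit false

namespace Fermat.Agent.S18

open Polynomial

section

variable {Ω : Type} [Field Ω] (O : ValuationSubring Ω) (E : Subfield Ω)

/-- The subring `A = O ∩ E` of `Ω`. -/
def e_unramT_A : Subring Ω := O.toSubring ⊓ E.toSubring

theorem e_unramT_mem_A {x : Ω} : x ∈ e_unramT_A O E ↔ x ∈ O ∧ x ∈ E := Iff.rfl

/-- The inclusion `A → O`. -/
noncomputable def e_unramT_toO : e_unramT_A O E →+* O :=
  (e_unramT_A O E).subtype.codRestrict O (fun a => a.2.1)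

/-- Evaluation at `c` of polynomials over `A`. -/
noncomputable def e_unramT_evalc (c : Ω) : (e_unramT_A O E)[X] →+* Ω :=
  Polynomial.eval₂RingHom (e_unramT_A O E).subtype c

/-- The subring `B = A[c]`. -/
noncomputable def e_unramT_B (c : Ω) : Subring Ω := (e_unramT_evalc O E c).range

theorem e_unramT_evalc_eq (c : Ω) (hc : c ∈ O) (p : (e_unramT_A O E)[X]) :
    e_unramT_evalc O E c p = ((p.eval₂ (e_unramT_toO O E) ⟨c, hc⟩ : O) : Ω) :=
  (Polynomial.hom_eval₂ p (e_unramT_toO O E) O.subtype ⟨c, hc⟩).symm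

theorem e_unramT_B_le (c : Ω) (hc : c ∈ O) {x : Ω} (hx : x ∈ e_unramT_B O E c) : x ∈ O := by
  obtain ⟨p, rfl⟩ := hx
  rw [e_unramT_evalc_eq O E c hc]
  exact Subtype.property _

theorem e_unramT_A_le_B (c : Ω) {x : Ω} (hx : x ∈ e_unramT_A O E) : x ∈ e_unramT_B O E c :=
  ⟨C ⟨x, hx⟩, by simp [e_unramT_evalc]⟩

theorem e_unramT_c_mem_B (c : Ω) : c ∈ e_unramT_B O E c :=
  ⟨X, by simp [e_unramT_evalc]⟩

/-- The residue map restricted to `A`. -/
noncomputable def e_unramT_phi : e_unramT_A O E →+* IsLocalRing.ResidueField O :=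
  (IsLocalRing.residue O).comp (e_unramT_toO O E)

theorem e_unramT_residue_ne_zero (z : O) (hz : IsLocalRing.residue O z ≠ 0) :
    (z : Ω) ≠ 0 ∧ (z : Ω)⁻¹ ∈ O := by
  have h1 : (z : Ω) ∉ O.nonunits := by
    rw [ValuationSubring.coe_mem_nonunits_iff, ← IsLocalRing.residue_eq_zero_iff]
    exact hz
  rw [ValuationSubring.mem_nonunits_iff_or] at h1
  simp only [not_or, not_not] at h1
  exact h1

theorem e_unramT_residue_eq_zero (z : O) (hz : (z : Ω) ∈ O.nonunits) :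
    IsLocalRing.residue O z = 0 := by
  rw [IsLocalRing.residue_eq_zero_iff, ← ValuationSubring.coe_mem_nonunits_iff]
  exact hz

/-- The image of `A` in the residue field of `O`, a subfield. -/
noncomputable def e_unramT_k : Subfield (IsLocalRing.ResidueField O) where
  toSubring := (e_unramT_phi O E).range
  inv_mem' := by
    rintro _ ⟨a, rfl⟩
    by_cases h : e_unramT_phi O E a = 0
    · rw [h, inv_zero]
      exact Subring.zero_mem _
    · obtain ⟨h0, h1⟩ := e_unramT_residue_ne_zero O (e_unramT_toO O E a) h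
      have h0' : (a : Ω) ≠ 0 := h0
      have h1' : (a : Ω)⁻¹ ∈ O := h1
      refine ⟨⟨(a : Ω)⁻¹, h1', E.inv_mem a.2.2⟩, ?_⟩
      refine eq_inv_of_mul_eq_one_left ?_
      rw [← map_mul]
      have : (⟨(a : Ω)⁻¹, h1', E.inv_mem a.2.2⟩ : e_unramT_A O E) * a = 1 :=
        Subtype.ext (inv_mul_cancel₀ h0')
      rw [this, map_one]

/-- The residue map `A → k`. -/
noncomputable def e_unramT_phi' : e_unramT_A O E →+* e_unramT_k O E :=
  (e_unramT_phi O E).codRestrict (e_unramT_k O E) (fun a => ⟨a, rfl⟩)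

theorem e_unramT_phi'_surjective : Function.Surjective (e_unramT_phi' O E) := by
  rintro ⟨_, a, rfl⟩
  exact ⟨a, rfl⟩

theorem e_unramT_aeval_map (c : Ω) (hc : c ∈ O) (p : (e_unramT_A O E)[X]) :
    aeval (IsLocalRing.residue O ⟨c, hc⟩) (p.map (e_unramT_phi' O E)) =
      IsLocalRing.residue O (p.eval₂ (e_unramT_toO O E) ⟨c, hc⟩) := by
  rw [aeval_def, eval₂_map, hom_eval₂]
  rfl

variable (π : Ω) (hπE : π ∈ E) (hπ0 : π ≠ 0) (hπO : π ∈ O.nonunits)
  (HE : ∀ x ∈ E, x ≠ 0 → ∃ (n : ℤ) (u : Ω), u ∈ O ∧ u⁻¹ ∈ O ∧ x = π ^ n * u)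

include hπE hπ0 hπO HE

theorem e_unramT_div_pi (a : Ω) (haE : a ∈ E) (ha : a ∈ O.nonunits) :
    ∃ a' : e_unramT_A O E, a = π * a' := by
  by_cases h0 : a = 0
  · exact ⟨0, by simp [h0]⟩
  · obtain ⟨n, u, hu, hu', rfl⟩ := HE a haE h0
    have hπO' : π ∈ O := O.nonunits_subset hπO
    have hn : 1 ≤ n := by
      by_contra hn
      obtain ⟨m, rfl⟩ : ∃ m : ℕ, n = -(m : ℤ) := ⟨(-n).toNat, by omega⟩
      rw [ValuationSubring.mem_nonunits_iff_or] at ha
      rcases ha with ha | ha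
      · exact h0 ha
      · apply ha
        rw [mul_inv, zpow_neg, inv_inv, zpow_natCast]
        exact O.mul_mem _ _ (pow_mem hπO' m) hu'
    obtain ⟨m, rfl⟩ : ∃ m : ℕ, n = (m : ℤ) + 1 := ⟨(n - 1).toNat, by omega⟩
    refine ⟨⟨π ^ m * u, O.mul_mem _ _ (pow_mem hπO' m) hu, ?_⟩, ?_⟩
    · have : π ^ m * u = π⁻¹ * (π ^ ((m : ℤ) + 1) * u) := by
        rw [zpow_add_one₀ hπ0, zpow_natCast]
        field_simp
      rw [this]
      exact E.mul_mem (E.inv_mem hπE) haE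
    · show π ^ ((m : ℤ) + 1) * u = π * (π ^ m * u)
      rw [zpow_add_one₀ hπ0, zpow_natCast]
      ring

theorem e_unramT_clear (e : Ω) (he : e ∈ E) : ∃ N : ℕ, π ^ N * e ∈ e_unramT_A O E := by
  have hπO' : π ∈ O := O.nonunits_subset hπO
  by_cases h0 : e = 0
  · exact ⟨0, by rw [h0, mul_zero]; exact Subring.zero_mem _⟩
  · obtain ⟨n, u, hu, hu', rfl⟩ := HE e he h0
    refine ⟨(-n).toNat, ?_, E.mul_mem (pow_mem hπE _) he⟩
    obtain ⟨k, hk⟩ : ∃ k : ℕ, ((-n).toNat : ℤ) + n = k := ⟨((-n).toNat + n).toNat, by omega⟩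
    have : π ^ (-n).toNat * (π ^ n * u) = π ^ k * u := by
      rw [← mul_assoc, ← zpow_natCast, ← zpow_add₀ hπ0, hk, zpow_natCast]
    rw [this]
    exact O.mul_mem _ _ (pow_mem hπO' k) hu

theorem e_unramT_closure (c : Ω) (g : Polynomial Ω) (hg : g ≠ 0) (hgE : ∀ i, g.coeff i ∈ E)
    (hgc : eval c g = 0) (x : Ω) (hx : x ∈ Subfield.closure ((E : Set Ω) ∪ {c})) :
    ∃ N : ℕ, π ^ N * x ∈ e_unramT_B O E c := by
  have hπB : π ∈ e_unramT_B O E c := e_unramT_A_le_B O E c ⟨O.nonunits_subset hπO, hπE⟩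
  have hint : IsAlgebraic E c := by
    have h1 : g ∈ Polynomial.lifts (algebraMap E Ω) :=
      (lifts_iff_coeff_lifts g).mpr (fun n => ⟨⟨g.coeff n, hgE n⟩, rfl⟩)
    obtain ⟨q, hq⟩ := (Polynomial.mem_lifts g).mp h1
    refine ⟨q, ?_, ?_⟩
    · rintro rfl
      exact hg (by rw [← hq, Polynomial.map_zero])
    · rw [aeval_def, ← eval_map, hq]
      exact hgc
  have hx' : x ∈ IntermediateField.adjoin E {c} := by
    have h1 : (Set.range (algebraMap E Ω)) = (E : Set Ω) := Subtype.range_coe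
    show x ∈ Subfield.closure (Set.range (algebraMap E Ω) ∪ {c})
    rw [h1]
    exact hx
  have hx'' : x ∈ Algebra.adjoin E {c} := by
    rw [← IntermediateField.adjoin_simple_toSubalgebra_of_isAlgebraic hint]
    exact hx'
  refine Algebra.adjoin_induction (p := fun x _ => ∃ N : ℕ, π ^ N * x ∈ e_unramT_B O E c)
    ?_ ?_ ?_ ?_ hx''
  · intro y hy
    rw [Set.mem_singleton_iff] at hy
    subst hy
    exact ⟨0, by simpa using e_unramT_c_mem_B O E y⟩
  · intro r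
    obtain ⟨N, hN⟩ := e_unramT_clear O E π hπE hπ0 hπO HE r r.2
    exact ⟨N, e_unramT_A_le_B O E c hN⟩
  · rintro y z - - ⟨N1, h1⟩ ⟨N2, h2⟩
    refine ⟨N1 + N2, ?_⟩
    have : π ^ (N1 + N2) * (y + z) = π ^ N2 * (π ^ N1 * y) + π ^ N1 * (π ^ N2 * z) := by ring
    rw [this]
    exact add_mem (mul_mem (pow_mem hπB _) h1) (mul_mem (pow_mem hπB _) h2)
  · rintro y z - - ⟨N1, h1⟩ ⟨N2, h2⟩
    refine ⟨N1 + N2, ?_⟩
    have : π ^ (N1 + N2) * (y * z) = (π ^ N1 * y) * (π ^ N2 * z) := by ring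
    rw [this]
    exact mul_mem h1 h2

variable (c : Ω) (g : Polynomial Ω) (hgE : ∀ i, g.coeff i ∈ E) (hgO : ∀ i, g.coeff i ∈ O)
  (hc : c ∈ O) (hgc : eval c g = 0) (hder0 : eval c (derivative g) ≠ 0)
  (hder : (eval c (derivative g))⁻¹ ∈ O)

include hgE hgO hc hgc hder0 hder

theorem e_unramT_key (x : Ω) (hxB : x ∈ e_unramT_B O E c) (hx : x ∈ O.nonunits) :
    ∃ y ∈ e_unramT_B O E c, ∃ w ∈ O, w ≠ 0 ∧ w⁻¹ ∈ O ∧ x * w = π * y := by
  obtain ⟨f, rfl⟩ := hxB
  have hgA : (↑g.coeffs : Set Ω) ⊆ e_unramT_A O E := by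
    intro a ha
    obtain ⟨n, -, rfl⟩ := Polynomial.mem_coeffs_iff.mp ha
    exact ⟨hgO n, hgE n⟩
  set gA := g.toSubring (e_unramT_A O E) hgA with hgA_def
  have hgA_map : gA.map (e_unramT_A O E).subtype = g := Polynomial.map_toSubring g _ hgA
  set cbar := IsLocalRing.residue O ⟨c, hc⟩ with hcbar
  set φ := e_unramT_phi' O E with hφ
  let evO : (e_unramT_A O E)[X] → O := fun p => p.eval₂ (e_unramT_toO O E) ⟨c, hc⟩
  have hev : ∀ p, e_unramT_evalc O E c p = (evO p : Ω) := e_unramT_evalc_eq O E c hc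
  have hres : ∀ p : (e_unramT_A O E)[X], aeval cbar (p.map φ) = IsLocalRing.residue O (evO p) :=
    e_unramT_aeval_map O E c hc
  have hevc_map : ∀ p : (e_unramT_A O E)[X],
      e_unramT_evalc O E c p = eval c (p.map (e_unramT_A O E).subtype) :=
    fun p => (eval_map _ _).symm
  have hg0 : aeval cbar (gA.map φ) = 0 := by
    rw [hres]
    have : evO gA = 0 := Subtype.ext (by rw [← hev, hevc_map, hgA_map, hgc]; rfl)
    rw [this, map_zero]
  have hf0 : aeval cbar (f.map φ) = 0 := by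
    rw [hres]
    exact e_unramT_residue_eq_zero O _ (by rw [← hev]; exact hx)
  have hg'0 : aeval cbar (derivative (gA.map φ)) ≠ 0 := by
    rw [derivative_map, hres]
    intro h
    have h2 : ((evO (derivative gA) : O) : Ω) ∈ O.nonunits := by
      rw [ValuationSubring.coe_mem_nonunits_iff, ← IsLocalRing.residue_eq_zero_iff]
      exact h
    rw [← hev, hevc_map, ← derivative_map, hgA_map, ValuationSubring.mem_nonunits_iff_or] at h2
    rcases h2 with h2 | h2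
    · exact hder0 h2
    · exact h2 hder
  obtain ⟨ν, hν⟩ := minpoly.dvd (e_unramT_k O E) cbar hg0
  obtain ⟨ψ, hψ⟩ := minpoly.dvd (e_unramT_k O E) cbar hf0
  have hν0 : aeval cbar ν ≠ 0 := by
    intro h
    apply hg'0
    rw [hν, derivative_mul, map_add, map_mul, map_mul, minpoly.aeval, h]
    simp
  obtain ⟨νA, hνA⟩ := Polynomial.map_surjective φ (e_unramT_phi'_surjective O E) ν
  obtain ⟨ψA, hψA⟩ := Polynomial.map_surjective φ (e_unramT_phi'_surjective O E) ψ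
  set p := f * νA - gA * ψA with hp
  have hp0 : p.map φ = 0 := by
    rw [hp, Polynomial.map_sub, Polynomial.map_mul, Polynomial.map_mul, hνA, hψA, hν, hψ]
    ring
  set πA : e_unramT_A O E := ⟨π, O.nonunits_subset hπO, hπE⟩ with hπA
  have hcoef : ∀ n, p.coeff n ∈ Ideal.span {πA} := by
    intro n
    have h1 : φ (p.coeff n) = 0 := by rw [← coeff_map, hp0, coeff_zero]
    have h2 : ((p.coeff n : e_unramT_A O E) : Ω) ∈ O.nonunits := by
      have h3 : IsLocalRing.residue O (e_unramT_toO O E (p.coeff n)) = 0 :=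
        congrArg Subtype.val h1
      have h4 := (IsLocalRing.residue_eq_zero_iff _).mp h3
      exact ValuationSubring.coe_mem_nonunits_iff.mpr h4
    obtain ⟨a', ha'⟩ := e_unramT_div_pi O E π hπE hπ0 hπO HE _ (p.coeff n).2.2 h2
    exact Ideal.mem_span_singleton'.mpr ⟨a', Subtype.ext (by rw [ha']; exact mul_comm _ _)⟩
  have hpmem : p ∈ Ideal.span {C πA} := by
    have h1 := (Ideal.mem_map_C_iff (I := Ideal.span {πA})).mpr hcoef
    rwa [Ideal.map_span, Set.image_singleton] at h1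
  obtain ⟨r, hr⟩ := Ideal.mem_span_singleton'.mp hpmem
  have hw : (evO νA : Ω) ≠ 0 ∧ (evO νA : Ω)⁻¹ ∈ O := by
    refine e_unramT_residue_ne_zero O (evO νA) ?_
    rw [← hres, hνA]
    exact hν0
  refine ⟨e_unramT_evalc O E c r, ⟨r, rfl⟩, e_unramT_evalc O E c νA,
    e_unramT_B_le O E c hc ⟨νA, rfl⟩, ?_, ?_, ?_⟩
  · rw [hev]
    exact hw.1
  · rw [hev]
    exact hw.2
  · rw [← map_mul]
    have h0 : f * νA = r * C πA + gA * ψA := by rw [hr, hp]; ring
    have h1 : e_unramT_evalc O E c gA = 0 := by rw [hevc_map, hgA_map, hgc]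
    have h2 : e_unramT_evalc O E c (C πA) = π := by simp [e_unramT_evalc, hπA]
    rw [h0, map_add, map_mul, map_mul, h1, h2]
    ring

theorem e_unramT_ind : ∀ (M : ℕ) (x : Ω), x ∈ e_unramT_B O E c → x ≠ 0 → π ^ M * x⁻¹ ∈ O →
    ∃ (n : ℕ) (u : Ω), u ∈ O ∧ u⁻¹ ∈ O ∧ x = π ^ n * u := by
  intro M
  induction M with
  | zero =>
    intro x hxB hx0 hM
    exact ⟨0, x, e_unramT_B_le O E c hc hxB, by simpa using hM, by simp⟩
  | succ M ih =>
    intro x hxB hx0 hM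
    by_cases hxu : x⁻¹ ∈ O
    · exact ⟨0, x, e_unramT_B_le O E c hc hxB, hxu, by simp⟩
    · have hxn : x ∈ O.nonunits := (ValuationSubring.mem_nonunits_iff_or O).mpr (Or.inr hxu)
      obtain ⟨y, hyB, w, hw, hw0, hw', hxy⟩ :=
        e_unramT_key O E π hπE hπ0 hπO HE c g hgE hgO hc hgc hder0 hder x hxB hxn
      have hy0 : y ≠ 0 := by
        rintro rfl
        rw [mul_zero] at hxy
        exact mul_ne_zero hx0 hw0 hxy
      have hyinv : π ^ M * y⁻¹ = π ^ (M + 1) * x⁻¹ * w⁻¹ := by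
        have h1 : y = x * w * π⁻¹ := by rw [hxy]; field_simp
        rw [h1]
        field_simp
        ring
      obtain ⟨n, u, hu, hu', rfl⟩ := ih y hyB hy0 (by rw [hyinv]; exact O.mul_mem _ _ hM hw')
      refine ⟨n + 1, u * w⁻¹, O.mul_mem _ _ hu hw',
        by rw [mul_inv, inv_inv]; exact O.mul_mem _ _ hu' hw, ?_⟩
      have h1 : x = π * (π ^ n * u) * w⁻¹ := by rw [← hxy]; field_simp
      rw [h1]
      ring

end

/-- General form: no monicity (nor residue characteristic) assumption is needed. -/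
theorem e_unramT_general (Ω : Type) [Field Ω] (O : ValuationSubring Ω) (E : Subfield Ω) (π : Ω)
    (hπE : π ∈ E) (hπ0 : π ≠ 0) (hπO : π ∈ O.nonunits)
    (HE : ∀ x ∈ E, x ≠ 0 → ∃ (n : ℤ) (u : Ω), u ∈ O ∧ u⁻¹ ∈ O ∧ x = π ^ n * u)
    (c : Ω) (g : Polynomial Ω) (hgE : ∀ i, g.coeff i ∈ E) (hgO : ∀ i, g.coeff i ∈ O)
    (hc : c ∈ O) (hgc : Polynomial.eval c g = 0)
    (hder0 : Polynomial.eval c (Polynomial.derivative g) ≠ 0)
    (hder : (Polynomial.eval c (Polynomial.derivative g))⁻¹ ∈ O)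
    (x : Ω) (hx : x ∈ Subfield.closure ((E : Set Ω) ∪ {c})) (hx0 : x ≠ 0) :
    ∃ (n : ℤ) (u : Ω), u ∈ O ∧ u⁻¹ ∈ O ∧ x = π ^ n * u := by
  have hg : g ≠ 0 := by
    rintro rfl
    exact hder0 (by simp)
  obtain ⟨N, hN⟩ := e_unramT_closure O E π hπE hπ0 hπO HE c g hg hgE hgc x hx
  obtain ⟨N', hN'⟩ := e_unramT_closure O E π hπE hπ0 hπO HE c g hg hgE hgc x⁻¹ (inv_mem hx)
  have hy0 : π ^ N * x ≠ 0 := mul_ne_zero (pow_ne_zero _ hπ0) hx0
  have hM : π ^ (N + N') * (π ^ N * x)⁻¹ ∈ O := by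
    have h1 : π ^ (N + N') * (π ^ N * x)⁻¹ = π ^ N' * x⁻¹ := by
      rw [pow_add, mul_inv]
      field_simp
    rw [h1]
    exact e_unramT_B_le O E c hc hN'
  obtain ⟨n, u, hu, hu', h⟩ :=
    e_unramT_ind O E π hπE hπ0 hπO HE c g hgE hgO hc hgc hder0 hder (N + N') _ hN hy0 hM
  refine ⟨(n : ℤ) - N, u, hu, hu', ?_⟩
  rw [zpow_sub₀ hπ0, zpow_natCast, zpow_natCast, div_mul_eq_mul_div,
    eq_div_iff (pow_ne_zero _ hπ0), ← h]
  ring

/-- The corrected (Unram') statement of `EInterfaces3.lean`. -/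
theorem e_unramT_main' : e_UnramStatement' := by
  intro Ω _ O E π hπE hπ0 hπO HE c g _ hgE hgO hc hgc hder0 hder x hx hx0
  exact e_unramT_general Ω O E π hπE hπ0 hπO HE c g hgE hgO hc hgc hder0 hder x hx hx0

/-- The (UnramGen) statement of `EInterfaces3.lean` (its residue-characteristic hypotheses are not
needed). -/
theorem e_unramT_gen : e_UnramGenStatement := by
  intro Ω _ O E π _ _ hπE hπ0 hπO HE c g hgE hgO hc hgc hder0 hder x hx hx0
  exact e_unramT_general Ω O E π hπE hπ0 hπO HE c g hgE hgO hc hgc hder0 hder x hx hx0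

end Fermat.Agent.S18
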