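/-
S18, block E, package ValFin (twin T): finite extensions of discretely valued fields are discretely
valued (abstract valuation theory).  Main theorem: `e_valfinT_main : e_ValFinStatement`.
-/
import Fermat.Agent.S18.EInterfaces2

set_option autoImplicit false

namespace Fermat.Agent.S18

/-- `r + 1` elements of the `E`-span of `r` elements are `E`-linearly dependent. -/
theorem e_valfinT_lindep {Ω : Type} [Field Ω] (E : Subfield Ω) (r : ℕ) (b : Fin r → Ω)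
    (x : Fin (r + 1) → Ω) (hx : ∀ j, ∃ a : Fin r → Ω, (∀ i, a i ∈ E) ∧ x j = ∑ i, a i * b i) :
    ∃ c : Fin (r + 1) → Ω, (∀ j, c j ∈ E) ∧ (∃ j, c j ≠ 0) ∧ ∑ j, c j * x j = 0 := by
  choose a ha hxa using hx
  let A : Matrix (Fin (r + 1)) (Fin r) E := fun j i => ⟨a j i, ha j i⟩
  have hlt : Module.finrank E (Fin r → E) < Module.finrank E (Fin (r + 1) → E) := by
    simp
  have hker := LinearMap.ker_ne_bot_of_finrank_lt (f := A.vecMulLinear) hlt
  obtain ⟨c, hc, hc0⟩ := (Submodule.ne_bot_iff _).1 hker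
  refine ⟨fun j => (c j : Ω), fun j => (c j).2, ?_, ?_⟩
  · by_contra h
    push Not at h
    apply hc0
    funext j
    exact Subtype.ext (h j)
  · have h1 : ∀ i, ∑ j, (c j : Ω) * a j i = 0 := by
      intro i
      have h2 : Matrix.vecMul c A i = 0 := congrFun (LinearMap.mem_ker.1 hc) i
      have h3 := congrArg (Subtype.val) h2
      simpa [Matrix.vecMul, dotProduct, A] using h3
    calc ∑ j, (c j : Ω) * x j = ∑ j, ∑ i, (c j : Ω) * a j i * b i := by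
          refine Finset.sum_congr rfl fun j _ => ?_
          rw [hxa j, Finset.mul_sum]
          refine Finset.sum_congr rfl fun i _ => by ring
      _ = ∑ i, (∑ j, (c j : Ω) * a j i) * b i := by
          rw [Finset.sum_comm]
          refine Finset.sum_congr rfl fun i _ => ?_
          rw [Finset.sum_mul]
      _ = 0 := by simp [h1]

/-- Ultrametric principle: in a vanishing finite sum with a nonzero term, two distinct nonzero terms
have the same valuation. -/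
theorem e_valfinT_ultra {Ω Γ : Type} [Field Ω] [LinearOrderedCommGroupWithZero Γ]
    (v : Valuation Ω Γ) {ι : Type} [Fintype ι] [DecidableEq ι] (t : ι → Ω)
    (hsum : ∑ j, t j = 0) (h : ∃ j, t j ≠ 0) :
    ∃ i k, i ≠ k ∧ t i ≠ 0 ∧ t k ≠ 0 ∧ v (t i) = v (t k) := by
  obtain ⟨j1, hj1⟩ := h
  obtain ⟨j0, -, hmax⟩ := Finset.exists_max_image Finset.univ (fun j => v (t j))
    ⟨j1, Finset.mem_univ _⟩
  have hj0 : t j0 ≠ 0 := by
    intro h0
    have h2 := hmax j1 (Finset.mem_univ _)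
    simp only [h0, map_zero] at h2
    exact hj1 ((map_eq_zero v).1 (le_antisymm h2 zero_le))
  have hvj0 : v (t j0) ≠ 0 := (Valuation.ne_zero_iff v).2 hj0
  by_contra hcon
  push Not at hcon
  have hlt : ∀ j ∈ Finset.univ.erase j0, v (t j) < v (t j0) := by
    intro j hj
    have hne : j ≠ j0 := Finset.ne_of_mem_erase hj
    rcases eq_or_ne (t j) 0 with h0 | h0
    · rw [h0, map_zero]; exact zero_lt_iff.2 hvj0
    · exact lt_of_le_of_ne (hmax j (Finset.mem_univ _)) (hcon j j0 hne h0 hj0)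
  have hrest := v.map_sum_lt hvj0 hlt
  have h3 : ∑ j ∈ Finset.univ.erase j0, t j = - t j0 := by
    have h4 := Finset.add_sum_erase Finset.univ t (Finset.mem_univ j0)
    rw [hsum] at h4
    linear_combination h4
  rw [h3, Valuation.map_neg] at hrest
  exact lt_irrefl _ hrest

/-- Fundamental inequality: among `r + 1` nonzero elements of the `E`-span of `r` elements, two
have valuations differing by a power of `v π`. -/
theorem e_valfinT_fund {Ω Γ : Type} [Field Ω] [LinearOrderedCommGroupWithZero Γ]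
    (v : Valuation Ω Γ) (E : Subfield Ω) (π : Ω)
    (hE : ∀ x ∈ E, x ≠ 0 → ∃ n : ℤ, v x = v π ^ n) (hπ : π ≠ 0)
    (r : ℕ) (b : Fin r → Ω) (x : Fin (r + 1) → Ω)
    (hx : ∀ j, ∃ a : Fin r → Ω, (∀ i, a i ∈ E) ∧ x j = ∑ i, a i * b i)
    (hx0 : ∀ j, x j ≠ 0) :
    ∃ i k, i ≠ k ∧ ∃ n : ℤ, v (x i) = v π ^ n * v (x k) := by
  obtain ⟨c, hcE, hc0, hsum⟩ := e_valfinT_lindep E r b x hx
  obtain ⟨i, k, hik, hi, hk, hv⟩ := e_valfinT_ultra v (fun j => c j * x j) hsum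
    (by obtain ⟨j, hj⟩ := hc0; exact ⟨j, mul_ne_zero hj (hx0 j)⟩)
  have hci : c i ≠ 0 := left_ne_zero_of_mul hi
  have hck : c k ≠ 0 := left_ne_zero_of_mul hk
  obtain ⟨ni, hni⟩ := hE _ (hcE i) hci
  obtain ⟨nk, hnk⟩ := hE _ (hcE k) hck
  refine ⟨i, k, hik, nk - ni, ?_⟩
  have hvπ : v π ≠ 0 := (Valuation.ne_zero_iff v).2 hπ
  have h3 : v π ^ ni ≠ 0 := zpow_ne_zero _ hvπ
  simp only [map_mul, hni, hnk] at hv
  rw [zpow_sub₀ hvπ, div_mul_eq_mul_div, ← hv, mul_div_cancel_left₀ _ h3]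

/-- A fixed power of the valuation of any nonzero element of `E'` is a power of `v π`. -/
theorem e_valfinT_pow {Ω Γ : Type} [Field Ω] [LinearOrderedCommGroupWithZero Γ]
    (v : Valuation Ω Γ) (E E' : Subfield Ω) (π : Ω)
    (hE : ∀ x ∈ E, x ≠ 0 → ∃ n : ℤ, v x = v π ^ n) (hπ : π ≠ 0)
    (r : ℕ) (b : Fin r → Ω)
    (hb : ∀ x ∈ E', ∃ a : Fin r → Ω, (∀ i, a i ∈ E) ∧ x = ∑ i, a i * b i)
    (x : Ω) (hx : x ∈ E') (hx0 : x ≠ 0) :
    ∃ n : ℤ, v x ^ r.factorial = v π ^ n := by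
  obtain ⟨i, k, hik, n, hn⟩ := e_valfinT_fund v E π hE hπ r b (fun j => x ^ (j : ℕ))
    (fun j => hb _ (pow_mem hx _)) (fun j => pow_ne_zero _ hx0)
  have hvx : v x ≠ 0 := (Valuation.ne_zero_iff v).2 hx0
  simp only [map_pow] at hn
  have h1 : v x ^ (((i : ℕ) : ℤ) - ((k : ℕ) : ℤ)) = v π ^ n := by
    rw [zpow_sub₀ hvx, zpow_natCast, zpow_natCast, hn, mul_div_cancel_right₀ _ (pow_ne_zero _ hvx)]
  have hm0 : ((i : ℕ) : ℤ) - ((k : ℕ) : ℤ) ≠ 0 := by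
    intro h; apply hik; ext; omega
  have hdvd : (((i : ℕ) : ℤ) - ((k : ℕ) : ℤ)) ∣ (r.factorial : ℤ) := by
    apply Int.natAbs_dvd_natAbs.1
    rw [Int.natAbs_natCast]
    apply Nat.dvd_factorial
    · omega
    · have := i.2; have := k.2; omega
  obtain ⟨q, hq⟩ := hdvd
  refine ⟨n * q, ?_⟩
  rw [← zpow_natCast, hq, zpow_mul, h1, zpow_mul]

/-- Abstract form of the statement, in terms of valuations only. -/
theorem e_valfinT_abs {Ω Γ : Type} [Field Ω] [LinearOrderedCommGroupWithZero Γ]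
    (v : Valuation Ω Γ) (E E' : Subfield Ω) (π : Ω) (hEE' : E ≤ E') (hπE : π ∈ E) (hπ : π ≠ 0)
    (hπ1 : v π < 1) (hE : ∀ x ∈ E, x ≠ 0 → ∃ n : ℤ, v x = v π ^ n)
    (r : ℕ) (b : Fin r → Ω)
    (hb : ∀ x ∈ E', ∃ a : Fin r → Ω, (∀ i, a i ∈ E) ∧ x = ∑ i, a i * b i) :
    ∃ ϖ ∈ E', ϖ ≠ 0 ∧ v ϖ < 1 ∧ ∀ x ∈ E', x ≠ 0 → ∃ n : ℤ, v x = v ϖ ^ n := by
  have hRpos : 0 < r.factorial := Nat.factorial_pos r
  have hvπ : v π ≠ 0 := (Valuation.ne_zero_iff v).2 hπ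
  let H : AddSubgroup ℤ :=
    { carrier := {n | ∃ x ∈ E', x ≠ 0 ∧ v x ^ r.factorial = v π ^ n}
      zero_mem' := ⟨1, one_mem _, one_ne_zero, by simp⟩
      add_mem' := by
        rintro a b ⟨x, hx, hx0, hxa⟩ ⟨y, hy, hy0, hyb⟩
        exact ⟨x * y, mul_mem hx hy, mul_ne_zero hx0 hy0, by
          rw [map_mul, mul_pow, hxa, hyb, zpow_add₀ hvπ]⟩
      neg_mem' := by
        rintro a ⟨x, hx, hx0, hxa⟩
        exact ⟨x⁻¹, inv_mem hx, inv_ne_zero hx0, by rw [map_inv₀, inv_pow, hxa, zpow_neg]⟩ }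
  have hRH : (r.factorial : ℤ) ∈ H := ⟨π, hEE' hπE, hπ, by rw [zpow_natCast]⟩
  obtain ⟨d, hd⟩ := Int.subgroup_cyclic H
  have hd0 : d ≠ 0 := by
    rintro rfl
    rw [hd, AddSubgroup.mem_closure_singleton] at hRH
    obtain ⟨k, hk⟩ := hRH
    rw [smul_zero] at hk
    exact hRpos.ne' (by exact_mod_cast hk.symm)
  have hdH : d ∈ H := by rw [hd]; exact AddSubgroup.subset_closure rfl
  have habs : ((d.natAbs : ℕ) : ℤ) ∈ H := by
    rcases Int.natAbs_eq d with h | h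
    · rw [← h]; exact hdH
    · have := neg_mem hdH
      rwa [h, neg_neg] at this
  obtain ⟨ϖ, hϖE, hϖ0, hϖ⟩ := habs
  rw [zpow_natCast] at hϖ
  have hvϖ : v ϖ ≠ 0 := (Valuation.ne_zero_iff v).2 hϖ0
  have hϖ1 : v ϖ < 1 := by
    by_contra hge
    push Not at hge
    have h1 : 1 ≤ v ϖ ^ r.factorial := one_le_pow₀ hge
    rw [hϖ] at h1
    have h2 : v π ^ d.natAbs < 1 := pow_lt_one₀ zero_le hπ1 (Int.natAbs_ne_zero.2 hd0)
    exact absurd h1 (not_le.2 h2)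
  refine ⟨ϖ, hϖE, hϖ0, hϖ1, ?_⟩
  intro x hx hx0
  obtain ⟨n, hn⟩ := e_valfinT_pow v E E' π hE hπ r b hb x hx hx0
  have hnH : n ∈ H := ⟨x, hx, hx0, hn⟩
  rw [hd, AddSubgroup.mem_closure_singleton] at hnH
  obtain ⟨k, hk⟩ := hnH
  obtain ⟨k', hk'⟩ : ∃ k' : ℤ, n = ((d.natAbs : ℕ) : ℤ) * k' := by
    rcases Int.natAbs_eq d with h | h
    · refine ⟨k, ?_⟩
      rw [← hk, smul_eq_mul]
      conv_lhs => rw [h]
      ring
    · refine ⟨-k, ?_⟩
      rw [← hk, smul_eq_mul]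
      conv_lhs => rw [h]
      ring
  refine ⟨k', ?_⟩
  have h5 : v x ^ r.factorial = (v ϖ ^ k') ^ r.factorial := by
    rw [hn, hk', zpow_mul, zpow_natCast, ← hϖ, ← zpow_natCast, ← zpow_natCast, ← zpow_mul,
      ← zpow_mul, mul_comm]
  exact (pow_left_inj₀ zero_le zero_le hRpos.ne').1 h5

theorem e_valfinT_main : e_ValFinStatement := by
  intro Ω _ O E E' π hEE' hπE hπ hπO hE hb
  obtain ⟨r, b, hb⟩ := hb
  have hunit : ∀ u : Ω, u ≠ 0 → u ∈ O → u⁻¹ ∈ O → O.valuation u = 1 := by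
    intro u hu0 hu hu'
    have h1 := (O.valuation_le_one_iff u).2 hu
    have h2 := (O.valuation_le_one_iff u⁻¹).2 hu'
    rw [map_inv₀] at h2
    have hv0 : O.valuation u ≠ 0 := (Valuation.ne_zero_iff _).2 hu0
    exact le_antisymm h1 ((inv_le_one₀ (zero_lt_iff.2 hv0)).1 h2)
  have hE' : ∀ x ∈ E, x ≠ 0 → ∃ n : ℤ, O.valuation x = O.valuation π ^ n := by
    intro x hx hx0
    obtain ⟨n, u, hu, hu', rfl⟩ := hE x hx hx0
    have hu0 : u ≠ 0 := right_ne_zero_of_mul hx0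
    exact ⟨n, by rw [map_mul, map_zpow₀, hunit u hu0 hu hu', mul_one]⟩
  obtain ⟨ϖ, hϖE, hϖ0, hϖ1, hϖ⟩ := e_valfinT_abs O.valuation E E' π hEE' hπE hπ
    (O.mem_nonunits_iff.1 hπO) hE' r b hb
  refine ⟨ϖ, hϖE, hϖ0, O.mem_nonunits_iff.2 hϖ1, ?_⟩
  intro x hx hx0
  obtain ⟨n, hn⟩ := hϖ x hx hx0
  have hϖn : ϖ ^ n ≠ 0 := zpow_ne_zero _ hϖ0
  have hvϖn : O.valuation ϖ ^ n ≠ 0 := zpow_ne_zero _ ((Valuation.ne_zero_iff _).2 hϖ0)
  have hvu : O.valuation (x / ϖ ^ n) = 1 := by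
    rw [map_div₀, map_zpow₀, hn, div_self hvϖn]
  refine ⟨n, x / ϖ ^ n, ?_, ?_, ?_⟩
  · exact (O.valuation_le_one_iff _).1 hvu.le
  · apply (O.valuation_le_one_iff _).1
    rw [map_inv₀, hvu, inv_one]
  · field_simp

end Fermat.Agent.S18
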