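/-
S18, block H — package AbhCore (Abhyankar's lemma, core computation).
Deliverable: `h_abhcore_main : e_UnramStatement' → e_UnramGenStatement → e_EisStatement → h_AbhCoreStatement`.
-/
import Fermat.Agent.S18.HInterfaces

set_option autoImplicit false

open Polynomial

namespace Fermat.Agent.S18

noncomputable section

section basic

variable {Ω : Type} [Field Ω] (O : ValuationSubring Ω)

/-- `O` induces on `E` a discrete valuation with uniformiser `π`. -/
def h_abhcore_Disc (E : Subfield Ω) (π : Ω) : Prop :=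
  ∀ x ∈ E, x ≠ 0 → ∃ (n : ℤ) (u : Ω), u ∈ O ∧ u⁻¹ ∈ O ∧ x = π ^ n * u

theorem h_abhcore_val_one_iff (u : Ω) : O.valuation u = 1 ↔ (u ≠ 0 ∧ u ∈ O ∧ u⁻¹ ∈ O) := by
  constructor
  · intro h
    have h0 : u ≠ 0 := by
      rintro rfl
      simp at h
    refine ⟨h0, (O.valuation_le_one_iff u).1 h.le, (O.valuation_le_one_iff _).1 ?_⟩
    rw [map_inv₀, h, inv_one]
  · rintro ⟨h0, h1, h2⟩
    have a1 := (O.valuation_le_one_iff u).2 h1
    have a2 := (O.valuation_le_one_iff _).2 h2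
    rw [map_inv₀] at a2
    have hv0 : O.valuation u ≠ 0 := (Valuation.ne_zero_iff _).2 h0
    have a3 : 1 ≤ O.valuation u := by
      have := (inv_le_one₀ (zero_lt_iff.2 hv0)).1 a2
      exact this
    exact le_antisymm a1 a3

theorem h_abhcore_disc_iff (E : Subfield Ω) (π : Ω) (hπ : π ≠ 0) :
    h_abhcore_Disc O E π ↔
      ∀ x ∈ E, x ≠ 0 → ∃ n : ℤ, O.valuation x = O.valuation π ^ n := by
  constructor
  · intro h x hx hx0
    obtain ⟨n, u, hu, hu', rfl⟩ := h x hx hx0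
    refine ⟨n, ?_⟩
    have hu0 : u ≠ 0 := fun h => hx0 (by rw [h, mul_zero])
    rw [map_mul, map_zpow₀, (h_abhcore_val_one_iff O u).2 ⟨hu0, hu, hu'⟩, mul_one]
  · intro h x hx hx0
    obtain ⟨n, hn⟩ := h x hx hx0
    have hπn : π ^ n ≠ 0 := zpow_ne_zero n hπ
    have hu : O.valuation (x / π ^ n) = 1 := by
      rw [map_div₀, map_zpow₀, hn]
      exact div_self (by rw [← map_zpow₀]; exact (Valuation.ne_zero_iff _).2 hπn)
    obtain ⟨-, h1, h2⟩ := (h_abhcore_val_one_iff O _).1 hu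
    exact ⟨n, x / π ^ n, h1, h2, by field_simp⟩

/-- change of uniformiser -/
theorem h_abhcore_disc_of_val_eq (E : Subfield Ω) (π π' : Ω) (hπ : π ≠ 0) (hπ' : π' ≠ 0)
    (hv : O.valuation π = O.valuation π') (h : h_abhcore_Disc O E π) : h_abhcore_Disc O E π' := by
  rw [h_abhcore_disc_iff O E π' hπ', ← hv, ← h_abhcore_disc_iff O E π hπ]
  exact h

theorem h_abhcore_disc_mono (E E' : Subfield Ω) (π : Ω) (hE : E' ≤ E)
    (h : h_abhcore_Disc O E π) : h_abhcore_Disc O E' π :=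
  fun x hx hx0 => h x (hE hx) hx0

theorem h_abhcore_val_mul_eq_one {a b : Ω} (ha : O.valuation a ≤ 1) (hb : O.valuation b ≤ 1)
    (hab : O.valuation (a * b) = 1) : O.valuation b = 1 := by
  refine le_antisymm hb ?_
  rw [map_mul] at hab
  calc (1 : O.ValueGroup) = O.valuation a * O.valuation b := hab.symm
    _ ≤ 1 * O.valuation b := by gcongr
    _ = O.valuation b := one_mul _

theorem h_abhcore_val_pow_eq_one {a : Ω} {n : ℕ} (hn : n ≠ 0) (h : O.valuation (a ^ n) = 1) :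
    O.valuation a = 1 := by
  rw [map_pow] at h
  exact (pow_eq_one_iff_left hn).mp h

theorem h_abhcore_val_pow_inj {a b : Ω} {n : ℕ} (hn : n ≠ 0)
    (h : O.valuation a ^ n = O.valuation b ^ n) : O.valuation a = O.valuation b := by
  exact (pow_left_inj₀ zero_le zero_le hn).1 h

end basic

section coeff

variable {Ω : Type} [Field Ω]

/-- `p` has coefficients in the subring `S`. -/
def h_abhcore_CoeffIn (S : Subring Ω) (p : Polynomial Ω) : Prop :=
  ∃ q : Polynomial S, q.map S.subtype = p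

theorem h_abhcore_coeffIn_iff (S : Subring Ω) (p : Polynomial Ω) :
    h_abhcore_CoeffIn S p ↔ ∀ i, p.coeff i ∈ S := by
  constructor
  · rintro ⟨q, rfl⟩ i
    rw [coeff_map]
    exact (q.coeff i).2
  · intro h
    have hp : (↑p.coeffs : Set Ω) ⊆ ↑S := by
      intro x hx
      obtain ⟨n, -, rfl⟩ := mem_coeffs_iff.1 hx
      exact h n
    exact ⟨p.toSubring S hp, map_toSubring p S hp⟩

theorem h_abhcore_coeffIn_mono {S T : Subring Ω} (h : S ≤ T) {p : Polynomial Ω}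
    (hp : h_abhcore_CoeffIn S p) : h_abhcore_CoeffIn T p := by
  rw [h_abhcore_coeffIn_iff] at hp ⊢
  exact fun i => h (hp i)

theorem h_abhcore_coeffIn_add {S : Subring Ω} {p q : Polynomial Ω}
    (hp : h_abhcore_CoeffIn S p) (hq : h_abhcore_CoeffIn S q) : h_abhcore_CoeffIn S (p + q) := by
  obtain ⟨p', rfl⟩ := hp
  obtain ⟨q', rfl⟩ := hq
  exact ⟨p' + q', Polynomial.map_add _⟩

theorem h_abhcore_coeffIn_sub {S : Subring Ω} {p q : Polynomial Ω}
    (hp : h_abhcore_CoeffIn S p) (hq : h_abhcore_CoeffIn S q) : h_abhcore_CoeffIn S (p - q) := by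
  obtain ⟨p', rfl⟩ := hp
  obtain ⟨q', rfl⟩ := hq
  exact ⟨p' - q', Polynomial.map_sub _⟩

theorem h_abhcore_coeffIn_mul {S : Subring Ω} {p q : Polynomial Ω}
    (hp : h_abhcore_CoeffIn S p) (hq : h_abhcore_CoeffIn S q) : h_abhcore_CoeffIn S (p * q) := by
  obtain ⟨p', rfl⟩ := hp
  obtain ⟨q', rfl⟩ := hq
  exact ⟨p' * q', Polynomial.map_mul _⟩

theorem h_abhcore_coeffIn_pow {S : Subring Ω} {p : Polynomial Ω}
    (hp : h_abhcore_CoeffIn S p) (n : ℕ) : h_abhcore_CoeffIn S (p ^ n) := by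
  obtain ⟨p', rfl⟩ := hp
  exact ⟨p' ^ n, Polynomial.map_pow _ _⟩

theorem h_abhcore_coeffIn_C {S : Subring Ω} {a : Ω} (ha : a ∈ S) : h_abhcore_CoeffIn S (C a) :=
  ⟨C ⟨a, ha⟩, by simp⟩

theorem h_abhcore_coeffIn_X (S : Subring Ω) : h_abhcore_CoeffIn S (X : Polynomial Ω) :=
  ⟨X, by simp⟩

theorem h_abhcore_coeffIn_comp {S : Subring Ω} {p q : Polynomial Ω}
    (hp : h_abhcore_CoeffIn S p) (hq : h_abhcore_CoeffIn S q) :
    h_abhcore_CoeffIn S (p.comp q) := by
  obtain ⟨p', rfl⟩ := hp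
  obtain ⟨q', rfl⟩ := hq
  exact ⟨p'.comp q', Polynomial.map_comp _ _ _⟩

theorem h_abhcore_coeffIn_derivative {S : Subring Ω} {p : Polynomial Ω}
    (hp : h_abhcore_CoeffIn S p) : h_abhcore_CoeffIn S (derivative p) := by
  obtain ⟨p', rfl⟩ := hp
  exact ⟨derivative p', (Polynomial.derivative_map _ _).symm⟩

theorem h_abhcore_coeffIn_eval {S : Subring Ω} {p : Polynomial Ω}
    (hp : h_abhcore_CoeffIn S p) {x : Ω} (hx : x ∈ S) : p.eval x ∈ S := by
  obtain ⟨p', rfl⟩ := hp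
  have : (p'.map S.subtype).eval x = S.subtype (p'.eval ⟨x, hx⟩) := by
    rw [eval_map]
    exact eval₂_at_apply S.subtype ⟨x, hx⟩
  rw [this]
  exact (p'.eval ⟨x, hx⟩).2

theorem h_abhcore_coeffIn_eval_sub {S : Subring Ω} {p : Polynomial Ω}
    (hp : h_abhcore_CoeffIn S p) {x y : Ω} (hx : x ∈ S) (hy : y ∈ S) :
    ∃ r ∈ S, p.eval x - p.eval y = (x - y) * r := by
  obtain ⟨p', rfl⟩ := hp
  have h1 : ∀ z (hz : z ∈ S), (p'.map S.subtype).eval z = S.subtype (p'.eval ⟨z, hz⟩) := by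
    intro z hz
    rw [eval_map]
    exact eval₂_at_apply S.subtype ⟨z, hz⟩
  obtain ⟨r, hr⟩ := sub_dvd_eval_sub (⟨x, hx⟩ : S) ⟨y, hy⟩ p'
  refine ⟨r, r.2, ?_⟩
  rw [h1 x hx, h1 y hy, ← map_sub, hr]
  simp

theorem h_abhcore_coeffIn_map {L : Type} [Field L] [Algebra L Ω] (S : Subring Ω)
    (hL : ∀ a : L, algebraMap L Ω a ∈ S) (p : L[X]) :
    h_abhcore_CoeffIn S (p.map (algebraMap L Ω)) := by
  rw [h_abhcore_coeffIn_iff]
  intro i
  rw [coeff_map]
  exact hL _

theorem h_abhcore_aeval_mem {L : Type} [Field L] [Algebra L Ω] (S : Subring Ω)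
    (hL : ∀ a : L, algebraMap L Ω a ∈ S) (p : L[X]) {x : Ω} (hx : x ∈ S) : aeval x p ∈ S := by
  have := h_abhcore_coeffIn_eval (h_abhcore_coeffIn_map S hL p) hx
  rwa [eval_map_algebraMap] at this

/-- Dividing out a root. -/
theorem h_abhcore_factor {L : Type} [Field L] [Algebra L Ω] (g : L[X]) (c : Ω)
    (hroot : aeval c g = 0) :
    ∃ g₂ : Polynomial Ω, g.map (algebraMap L Ω) = (X - C c) * g₂ ∧
      ∀ S : Subring Ω, (∀ a : L, algebraMap L Ω a ∈ S) → c ∈ S → h_abhcore_CoeffIn S g₂ := by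
  refine ⟨g.map (algebraMap L Ω) /ₘ (X - C c), ?_, ?_⟩
  · symm
    rw [mul_divByMonic_eq_iff_isRoot, IsRoot, eval_map_algebraMap]
    exact hroot
  · intro S hL hc
    refine ⟨(g.map ((algebraMap L Ω).codRestrict S hL)) /ₘ (X - C ⟨c, hc⟩), ?_⟩
    rw [map_divByMonic _ (monic_X_sub_C _), Polynomial.map_map]
    simp
    rfl

end coeff

section steps

variable {L Ω : Type} [Field L] [Field Ω] [Algebra L Ω] (O : ValuationSubring Ω)

theorem h_abhcore_val_algebraMap (hL : ∀ a : L, algebraMap L Ω a ∈ O) (a : L) (ha : a ≠ 0) :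
    O.valuation (algebraMap L Ω a) = 1 := by
  rw [h_abhcore_val_one_iff]
  refine ⟨(_root_.map_ne_zero _).2 ha, hL a, ?_⟩
  rw [← map_inv₀]
  exact hL _

theorem h_abhcore_val_nat [CharZero L] (hL : ∀ a : L, algebraMap L Ω a ∈ O) (n : ℕ)
    (hn : n ≠ 0) : O.valuation (n : Ω) = 1 := by
  have := h_abhcore_val_algebraMap O hL (n : L) (Nat.cast_ne_zero.2 hn)
  rwa [map_natCast] at this

theorem h_abhcore_unit_of_not_dvd (hL : ∀ a : L, algebraMap L Ω a ∈ O) (t : Ω) (ht : t ∈ O)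
    (g : L[X]) (hg : Irreducible g) (hγ : aeval t g ∈ O.nonunits) (p : L[X]) (hp : ¬ g ∣ p) :
    O.valuation (aeval t p) = 1 := by
  have hcop : IsCoprime g p := (hg.coprime_iff_not_dvd).2 hp
  obtain ⟨a, b, hab⟩ := hcop
  have h1 : aeval t a * aeval t g + aeval t b * aeval t p = 1 := by
    rw [← map_mul, ← map_mul, ← map_add, hab, map_one]
  have hmem : ∀ q : L[X], O.valuation (aeval t q) ≤ 1 := fun q =>
    (O.valuation_le_one_iff _).2 (h_abhcore_aeval_mem O.toSubring hL q ht)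
  have h2 : O.valuation (aeval t a * aeval t g) < 1 := by
    rw [map_mul]
    have hg' := (O.mem_nonunits_iff).1 hγ
    calc O.valuation (aeval t a) * O.valuation (aeval t g)
        ≤ 1 * O.valuation (aeval t g) := by gcongr; exact hmem a
      _ < 1 := by rwa [one_mul]
  have h3 : aeval t b * aeval t p = 1 - aeval t a * aeval t g := by rw [← h1]; ring
  apply h_abhcore_val_mul_eq_one O (a := aeval t b) (hmem b) (hmem p)
  rw [h3]
  exact Valuation.map_one_sub_of_lt _ h2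

theorem h_abhcore_exists_root [IsAlgClosed Ω] (hL : ∀ a : L, algebraMap L Ω a ∈ O) (t : Ω)
    (g : L[X]) (hg : g ≠ 0) (hγ : aeval t g ∈ O.nonunits) :
    ∃ c : Ω, aeval c g = 0 ∧ O.valuation (t - c) < 1 := by
  by_contra hcon0
  have hcon : ∀ c : Ω, aeval c g = 0 → 1 ≤ O.valuation (t - c) :=
    fun c hc => not_lt.1 (fun h => hcon0 ⟨c, hc, h⟩)
  have hs : (g.map (algebraMap L Ω)).Splits := IsAlgClosed.splits _
  have h1 := hs.eval_eq_prod_roots t
  rw [eval_map_algebraMap] at h1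
  have h2 : 1 ≤ O.valuation (aeval t g) := by
    rw [h1, map_mul, leadingCoeff_map,
      h_abhcore_val_algebraMap O hL _ (leadingCoeff_ne_zero.2 hg), one_mul, map_multiset_prod,
      Multiset.map_map]
    apply Multiset.one_le_prod_of_one_le
    intro x hx
    obtain ⟨c, hc, rfl⟩ := Multiset.mem_map.1 hx
    apply hcon c
    have := (mem_roots (Polynomial.map_ne_zero hg)).1 hc
    rwa [IsRoot, eval_map_algebraMap] at this
  exact absurd ((O.mem_nonunits_iff).1 hγ) (not_lt.2 h2)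

theorem h_abhcore_step1 [CharZero L] [IsAlgClosed Ω] (hL : ∀ a : L, algebraMap L Ω a ∈ O)
    (t : Ω) (ht : t ∈ O) (g : L[X]) (hg : Irreducible g) (hγ : aeval t g ∈ O.nonunits) :
    ∃ (c : Ω) (g₂ : Polynomial Ω), aeval c g = 0 ∧ c ∈ O ∧ O.valuation (t - c) < 1 ∧
      (∀ S : Subring Ω, (∀ a : L, algebraMap L Ω a ∈ S) → c ∈ S → h_abhcore_CoeffIn S g₂) ∧
      O.valuation (g₂.eval t) = 1 ∧ aeval t g = (t - c) * g₂.eval t ∧
      O.valuation (aeval c (derivative g)) = 1 := by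
  obtain ⟨c, hroot, hvc⟩ := h_abhcore_exists_root O hL t g hg.ne_zero hγ
  have hcO : c ∈ O := by
    have h1 : t - c ∈ O := (O.valuation_le_one_iff _).1 hvc.le
    have : c = t - (t - c) := by ring
    rw [this]
    exact O.toSubring.sub_mem ht h1
  obtain ⟨g₂, hfac, hco⟩ := h_abhcore_factor g c hroot
  have hmem : ∀ q : L[X], O.valuation (aeval c q) ≤ 1 := fun q =>
    (O.valuation_le_one_iff _).2 (h_abhcore_aeval_mem O.toSubring hL q hcO)
  have hder : O.valuation (aeval c (derivative g)) = 1 := by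
    obtain ⟨a, b, hab⟩ := hg.separable
    have h1 : aeval c b * aeval c (derivative g) = 1 := by
      have := congrArg (aeval c) hab
      simpa [hroot] using this
    apply h_abhcore_val_mul_eq_one O (a := aeval c b) (hmem b) (hmem _)
    rw [h1, map_one]
  have hg₂c : g₂.eval c = aeval c (derivative g) := by
    have h := congrArg (fun p => eval c (derivative p)) hfac
    simp only [derivative_map, eval_map_algebraMap] at h
    rw [h]
    simp [derivative_mul]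
  have hγeq : aeval t g = (t - c) * g₂.eval t := by
    have h := congrArg (eval t) hfac
    rw [eval_map_algebraMap] at h
    rw [h]
    simp
  have hg₂O := hco O.toSubring hL hcO
  have hg₂t : O.valuation (g₂.eval t) = 1 := by
    obtain ⟨r, hr, hrr⟩ := h_abhcore_coeffIn_eval_sub hg₂O ht hcO
    have h1 : g₂.eval t = g₂.eval c + (t - c) * r := by rw [← hrr]; ring
    have h2 : O.valuation ((t - c) * r) < O.valuation (g₂.eval c) := by
      rw [hg₂c, hder, map_mul]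
      calc O.valuation (t - c) * O.valuation r ≤ O.valuation (t - c) * 1 := by
            gcongr
            exact (O.valuation_le_one_iff _).2 hr
        _ < 1 := by rwa [mul_one]
    rw [h1, Valuation.map_add_eq_of_lt_left _ h2, hg₂c, hder]
  exact ⟨c, g₂, hroot, hcO, hvc, hco, hg₂t, hγeq, hder⟩

theorem h_abhcore_step2 (hU : e_UnramStatement') (hL : ∀ a : L, algebraMap L Ω a ∈ O)
    (F : Subfield Ω) (hLF : ∀ a : L, algebraMap L Ω a ∈ F) (πw : Ω) (hπF : πw ∈ F) (hπ0 : πw ≠ 0)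
    (hπn : πw ∈ O.nonunits) (hD : h_abhcore_Disc O F πw) (g : L[X]) (hg0 : g ≠ 0) (c : Ω)
    (hc : c ∈ O) (hroot : aeval c g = 0) (hder : O.valuation (aeval c (derivative g)) = 1) :
    h_abhcore_Disc O (Subfield.closure ((F : Set Ω) ∪ {c})) πw := by
  obtain ⟨p, hp⟩ : ∃ p : L[X], p = g * C g.leadingCoeff⁻¹ := ⟨_, rfl⟩
  have hmonic : (p.map (algebraMap L Ω)).Monic := by
    rw [hp]
    exact (monic_mul_leadingCoeff_inv hg0).map _
  have hder' : eval c (derivative (p.map (algebraMap L Ω))) =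
      aeval c (derivative g) * algebraMap L Ω g.leadingCoeff⁻¹ := by
    rw [derivative_map, eval_map_algebraMap, hp, derivative_mul, derivative_C, mul_zero, add_zero,
      map_mul, aeval_C]
  have hv : O.valuation (eval c (derivative (p.map (algebraMap L Ω)))) = 1 := by
    rw [hder', map_mul, hder, one_mul]
    exact h_abhcore_val_algebraMap O hL _ (inv_ne_zero (leadingCoeff_ne_zero.2 hg0))
  obtain ⟨h0, -, hinv⟩ := (h_abhcore_val_one_iff O _).1 hv
  exact hU Ω O F πw hπF hπ0 hπn hD c (p.map (algebraMap L Ω)) hmonic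
    (fun i => by rw [coeff_map]; exact hLF _) (fun i => by rw [coeff_map]; exact hL _) hc
    (by rw [eval_map_algebraMap, hp, map_mul, hroot, zero_mul]) h0 hinv

end steps

section steps2

variable {Ω : Type} [Field Ω] (O : ValuationSubring Ω)

theorem h_abhcore_step34 (hU : e_UnramStatement') (hE : e_EisStatement) [IsAlgClosed Ω]
    (hnat : ∀ n : ℕ, n ≠ 0 → O.valuation (n : Ω) = 1) (F₁ : Subfield Ω) (πw ϑ u : Ω) (m e : ℕ)
    (hπF : πw ∈ F₁) (hπ0 : πw ≠ 0) (hπn : πw ∈ O.nonunits) (hD : h_abhcore_Disc O F₁ πw)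
    (hϑ : ϑ ∈ F₁) (hm : 0 < m) (he : 0 < e) (hme : m ∣ e) (hu : O.valuation u = 1)
    (hϑu : ϑ = πw ^ m * u) :
    ∃ (s : Ω) (F₃ : Subfield Ω), F₁ ≤ F₃ ∧ s ∈ F₃ ∧ s ^ e = ϑ ∧ s ≠ 0 ∧
      h_abhcore_Disc O F₃ s := by
  obtain ⟨s, hs⟩ := IsAlgClosed.exists_pow_nat_eq ϑ he
  obtain ⟨k, rfl⟩ := hme
  have hk : 0 < k := Nat.pos_of_mul_pos_left he
  obtain ⟨hu0, huO, -⟩ := (h_abhcore_val_one_iff O u).1 hu
  have hs0 : s ≠ 0 := by
    rintro rfl
    rw [zero_pow he.ne', hϑu] at hs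
    exact (mul_ne_zero (pow_ne_zero m hπ0) hu0) hs.symm
  obtain ⟨τ, hτ⟩ : ∃ τ : Ω, τ = s ^ k / πw := ⟨_, rfl⟩
  have hsk : s ^ k = τ * πw := by rw [hτ]; field_simp
  have hτm : τ ^ m = u := by
    rw [hτ, div_pow, ← pow_mul, mul_comm k m, hs, hϑu]
    field_simp
  have hvτ : O.valuation τ = 1 := h_abhcore_val_pow_eq_one O hm.ne' (by rw [hτm]; exact hu)
  have huF : u ∈ F₁ := by
    have : u = ϑ / πw ^ m := by rw [hϑu]; field_simp
    rw [this]
    exact F₁.div_mem hϑ (F₁.pow_mem hπF m)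
  have hD₂ : h_abhcore_Disc O (Subfield.closure ((F₁ : Set Ω) ∪ {τ})) πw := by
    have hd : eval τ (derivative (X ^ m - C u : Polynomial Ω)) = (m : Ω) * τ ^ (m - 1) := by
      simp [derivative_X_pow]
    have hvd : O.valuation (eval τ (derivative (X ^ m - C u : Polynomial Ω))) = 1 := by
      rw [hd, map_mul, map_pow, hnat m hm.ne', hvτ, one_pow, one_mul]
    obtain ⟨h0, -, hinv⟩ := (h_abhcore_val_one_iff O _).1 hvd
    obtain ⟨-, hτO, -⟩ := (h_abhcore_val_one_iff O _).1 hvτ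
    have hcF : h_abhcore_CoeffIn F₁.toSubring (X ^ m - C u : Polynomial Ω) :=
      h_abhcore_coeffIn_sub (h_abhcore_coeffIn_pow (h_abhcore_coeffIn_X _) m)
        (h_abhcore_coeffIn_C huF)
    have hcO : h_abhcore_CoeffIn O.toSubring (X ^ m - C u : Polynomial Ω) :=
      h_abhcore_coeffIn_sub (h_abhcore_coeffIn_pow (h_abhcore_coeffIn_X _) m)
        (h_abhcore_coeffIn_C huO)
    exact hU Ω O F₁ πw hπF hπ0 hπn hD τ (X ^ m - C u) (monic_X_pow_sub_C u hm.ne')
      ((h_abhcore_coeffIn_iff _ _).1 hcF) ((h_abhcore_coeffIn_iff _ _).1 hcO) hτO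
      (by simp [hτm]) h0 hinv
  have hF₁₂ : F₁ ≤ Subfield.closure ((F₁ : Set Ω) ∪ {τ}) :=
    fun x hx => Subfield.subset_closure (Or.inl hx)
  have hτF₂ : τ ∈ Subfield.closure ((F₁ : Set Ω) ∪ {τ}) := Subfield.subset_closure (Or.inr rfl)
  have hskF₂ : s ^ k ∈ Subfield.closure ((F₁ : Set Ω) ∪ {τ}) := by
    rw [hsk]
    exact mul_mem hτF₂ (hF₁₂ hπF)
  have hsk0 : s ^ k ≠ 0 := pow_ne_zero k hs0
  have hvsk : O.valuation (s ^ k) = O.valuation πw := by
    rw [hsk, map_mul, hvτ, one_mul]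
  have hD₂' : h_abhcore_Disc O (Subfield.closure ((F₁ : Set Ω) ∪ {τ})) (s ^ k) :=
    h_abhcore_disc_of_val_eq O _ πw (s ^ k) hπ0 hsk0 hvsk.symm hD₂
  refine ⟨s, Subfield.closure ((Subfield.closure ((F₁ : Set Ω) ∪ {τ}) : Set Ω) ∪ {s}), ?_,
    Subfield.subset_closure (Or.inr rfl), hs, hs0, ?_⟩
  · exact fun x hx => Subfield.subset_closure (Or.inl (hF₁₂ hx))
  · exact hE Ω O _ (s ^ k) s k hskF₂ hsk0
      (by rw [O.mem_nonunits_iff, hvsk]
          exact (O.mem_nonunits_iff).1 hπn) hD₂' hk rfl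

theorem h_abhcore_step6 (hG : e_UnramGenStatement)
    (hnat : ∀ n : ℕ, n ≠ 0 → O.valuation (n : Ω) = 1) (F₃ : Subfield Ω) (s c t : Ω) (e : ℕ)
    (he : 0 < e) (g₂ A B : Polynomial Ω) (hsF : s ∈ F₃) (hs0 : s ≠ 0) (hcF : c ∈ F₃)
    (hcO : c ∈ O) (htO : t ∈ O) (hD : h_abhcore_Disc O F₃ s)
    (hg₂ : h_abhcore_CoeffIn (F₃.toSubring ⊓ O.toSubring) g₂)
    (hA : h_abhcore_CoeffIn (F₃.toSubring ⊓ O.toSubring) A)
    (hB : h_abhcore_CoeffIn (F₃.toSubring ⊓ O.toSubring) B)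
    (hvs : O.valuation s = O.valuation (t - c)) (hvs1 : O.valuation s < 1)
    (hg₂t : O.valuation (g₂.eval t) = 1) (hAt : O.valuation (A.eval t) = 1)
    (heq : s ^ e * B.eval t = ((t - c) * g₂.eval t) ^ e * A.eval t) :
    h_abhcore_Disc O (Subfield.closure ((F₃ : Set Ω) ∪ {(t - c) / s})) s := by
  obtain ⟨ω, hω⟩ : ∃ ω : Ω, ω = (t - c) / s := ⟨_, rfl⟩
  rw [← hω]
  have ht : c + s * ω = t := by rw [hω]; field_simp; ring
  have hvs0 : O.valuation s ≠ 0 := (Valuation.ne_zero_iff _).2 hs0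
  have hvω : O.valuation ω = 1 := by
    rw [hω, map_div₀, ← hvs]
    exact div_self hvs0
  obtain ⟨hω0, hωO, -⟩ := (h_abhcore_val_one_iff O ω).1 hvω
  have hsO : s ∈ O := (O.valuation_le_one_iff s).1 hvs1.le
  have hSO : F₃.toSubring ⊓ O.toSubring ≤ O.toSubring := inf_le_right
  have hSF : F₃.toSubring ⊓ O.toSubring ≤ F₃.toSubring := inf_le_left
  obtain ⟨ℓ, hℓdef⟩ : ∃ ℓ : Polynomial Ω, ℓ = C c + C s * X := ⟨_, rfl⟩
  have hℓ : h_abhcore_CoeffIn (F₃.toSubring ⊓ O.toSubring) ℓ := by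
    rw [hℓdef]
    exact h_abhcore_coeffIn_add (h_abhcore_coeffIn_C ⟨hcF, hcO⟩)
      (h_abhcore_coeffIn_mul (h_abhcore_coeffIn_C ⟨hsF, hsO⟩) (h_abhcore_coeffIn_X _))
  have hℓω : ℓ.eval ω = t := by
    rw [hℓdef, ← ht]
    simp
  have hℓ' : derivative ℓ = C s := by
    rw [hℓdef]
    simp
  obtain ⟨R, hRdef⟩ : ∃ R : Polynomial Ω, R = g₂ ^ e * A := ⟨_, rfl⟩
  have hR : h_abhcore_CoeffIn (F₃.toSubring ⊓ O.toSubring) R := by
    rw [hRdef]
    exact h_abhcore_coeffIn_mul (h_abhcore_coeffIn_pow hg₂ e) hA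
  have hRt : R.eval t = g₂.eval t ^ e * A.eval t := by
    rw [hRdef]
    simp
  have hvRt : O.valuation (R.eval t) = 1 := by
    rw [hRt, map_mul, map_pow, hg₂t, hAt, one_pow, one_mul]
  obtain ⟨H, hHdef⟩ : ∃ H : Polynomial Ω, H = X ^ e * R.comp ℓ - B.comp ℓ := ⟨_, rfl⟩
  have hH : h_abhcore_CoeffIn (F₃.toSubring ⊓ O.toSubring) H := by
    rw [hHdef]
    exact h_abhcore_coeffIn_sub
      (h_abhcore_coeffIn_mul (h_abhcore_coeffIn_pow (h_abhcore_coeffIn_X _) e)
        (h_abhcore_coeffIn_comp hR hℓ)) (h_abhcore_coeffIn_comp hB hℓ)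
  have hHω : H.eval ω = 0 := by
    rw [hHdef]
    simp only [eval_sub, eval_mul, eval_pow, eval_X, eval_comp, hℓω, hRt]
    have h1 : t - c = s * ω := by rw [← ht]; ring
    rw [h1] at heq
    have h2 : s ^ e * (ω ^ e * (eval t g₂ ^ e * eval t A) - eval t B) = 0 := by
      rw [mul_sub, heq]
      ring
    rcases mul_eq_zero.1 h2 with h3 | h3
    · exact absurd h3 (pow_ne_zero e hs0)
    · exact h3
  have hder : (derivative H).eval ω = (e : Ω) * ω ^ (e - 1) * R.eval t +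
      s * (ω ^ e * (derivative R).eval t - (derivative B).eval t) := by
    rw [hHdef, derivative_sub, derivative_mul, derivative_comp, derivative_comp, derivative_X_pow,
      hℓ']
    simp only [eval_sub, eval_add, eval_mul, eval_pow, eval_X, eval_C, eval_comp, hℓω]
    ring
  have hz : ω ^ e * (derivative R).eval t - (derivative B).eval t ∈ O := by
    have h1 : (derivative R).eval t ∈ O.toSubring :=
      h_abhcore_coeffIn_eval (h_abhcore_coeffIn_mono hSO (h_abhcore_coeffIn_derivative hR)) htO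
    have h2 : (derivative B).eval t ∈ O.toSubring :=
      h_abhcore_coeffIn_eval (h_abhcore_coeffIn_mono hSO (h_abhcore_coeffIn_derivative hB)) htO
    exact O.toSubring.sub_mem (O.toSubring.mul_mem (O.toSubring.pow_mem hωO e) h1) h2
  have hvder : O.valuation ((derivative H).eval ω) = 1 := by
    have h1 : O.valuation ((e : Ω) * ω ^ (e - 1) * R.eval t) = 1 := by
      rw [map_mul, map_mul, map_pow, hnat e he.ne', hvω, one_pow, one_mul, one_mul, hvRt]
    have h2 : O.valuation (s * (ω ^ e * (derivative R).eval t - (derivative B).eval t)) <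
        O.valuation ((e : Ω) * ω ^ (e - 1) * R.eval t) := by
      rw [h1, map_mul]
      calc O.valuation s * O.valuation (ω ^ e * (derivative R).eval t - (derivative B).eval t)
          ≤ O.valuation s * 1 := by
            gcongr
            exact (O.valuation_le_one_iff _).2 hz
        _ < 1 := by rwa [mul_one]
    rw [hder, Valuation.map_add_eq_of_lt_left _ h2, h1]
  obtain ⟨h0, -, hinv⟩ := (h_abhcore_val_one_iff O _).1 hvder
  have hHc := (h_abhcore_coeffIn_iff _ _).1 hH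
  exact hG Ω O F₃ s (fun n hn => ((h_abhcore_val_one_iff O _).1 (hnat n hn)).2.2)
    (fun n hn => ((h_abhcore_val_one_iff O _).1 (hnat n hn)).1) hsF hs0
    ((O.mem_nonunits_iff).2 hvs1) hD ω H (fun i => (hHc i).1) (fun i => (hHc i).2) hωO hHω h0 hinv

end steps2

theorem h_abhcore_main :
    e_UnramStatement' → e_UnramGenStatement → e_EisStatement → h_AbhCoreStatement := by
  intro hU hG hE L Ω _ _ _ _ _ O F t g A₁ B πw ϑ m e hL hLF ht hg hγ hγ0 hπF hπ0 hπn hD hϑ hm he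
    hme hu hA hB heq
  have hnat : ∀ n : ℕ, n ≠ 0 → O.valuation (n : Ω) = 1 := fun n hn => h_abhcore_val_nat O hL n hn
  have hvA := h_abhcore_unit_of_not_dvd O hL t ht g hg hγ A₁ hA
  have hvB := h_abhcore_unit_of_not_dvd O hL t ht g hg hγ B hB
  obtain ⟨c, g₂, hroot, hcO, hvc, hco, hg₂t, hγeq, hder⟩ := h_abhcore_step1 O hL t ht g hg hγ
  have hD₁ := h_abhcore_step2 O hU hL F hLF πw hπF hπ0 hπn hD g hg.ne_zero c hcO hroot hder
  have hFF₁ : F ≤ Subfield.closure ((F : Set Ω) ∪ {c}) :=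
    fun x hx => Subfield.subset_closure (Or.inl hx)
  obtain ⟨u, huO, huO', hϑu⟩ := hu
  have hA0 : aeval t A₁ ≠ 0 := ((h_abhcore_val_one_iff O _).1 hvA).1
  have hϑ0 : ϑ ≠ 0 := by
    intro h
    rw [h, zero_mul] at heq
    exact (mul_ne_zero (pow_ne_zero e hγ0) hA0) heq.symm
  have hu0 : u ≠ 0 := by
    rintro rfl
    exact hϑ0 (by rw [hϑu, mul_zero])
  have hvu : O.valuation u = 1 := (h_abhcore_val_one_iff O u).2 ⟨hu0, huO, huO'⟩
  obtain ⟨s, F₃, hF₁₃, hsF₃, hse, hs0, hD₃⟩ := h_abhcore_step34 O hU hE hnat _ πw ϑ u m e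
    (hFF₁ hπF) hπ0 hπn hD₁ (hFF₁ hϑ) hm he hme hvu hϑu
  have hvs : O.valuation s = O.valuation (t - c) := by
    apply h_abhcore_val_pow_inj O he.ne'
    have h1 := congrArg O.valuation heq
    rw [map_mul, map_mul, hvA, hvB, mul_one, mul_one, ← hse, map_pow, map_pow, hγeq, map_mul,
      hg₂t, mul_one] at h1
    exact h1
  have hcF₃ : c ∈ F₃ := hF₁₃ (Subfield.subset_closure (Or.inr rfl))
  have hLS : ∀ a : L, algebraMap L Ω a ∈ F₃.toSubring ⊓ O.toSubring :=
    fun a => ⟨hF₁₃ (hFF₁ (hLF a)), hL a⟩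
  have hD₄ := h_abhcore_step6 O hG hnat F₃ s c t e he g₂ (A₁.map (algebraMap L Ω))
    (B.map (algebraMap L Ω)) hsF₃ hs0 hcF₃ hcO ht hD₃ (hco _ hLS ⟨hcF₃, hcO⟩)
    (h_abhcore_coeffIn_map _ hLS A₁) (h_abhcore_coeffIn_map _ hLS B) hvs (hvs ▸ hvc) hg₂t
    (by rw [eval_map_algebraMap]; exact hvA)
    (by rw [eval_map_algebraMap, eval_map_algebraMap, hse, ← hγeq]; exact heq)
  have hvγ : O.valuation s = O.valuation (aeval t g) := by
    rw [hγeq, map_mul, hg₂t, mul_one, hvs]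
  have hD₄' := h_abhcore_disc_of_val_eq O _ s (aeval t g) hs0 hγ0 hvγ hD₄
  refine h_abhcore_disc_mono O _ _ _ ?_ hD₄'
  rw [Subfield.closure_le]
  rintro x (hx | rfl)
  · exact Subfield.subset_closure (Or.inl (hF₁₃ (hFF₁ hx)))
  · have h1 : x = c + s * ((x - c) / s) := by field_simp; ring
    have h2 : c + s * ((x - c) / s) ∈ Subfield.closure ((F₃ : Set Ω) ∪ {(x - c) / s}) :=
      add_mem (Subfield.subset_closure (Or.inl hcF₃))
        (mul_mem (Subfield.subset_closure (Or.inl hsF₃)) (Subfield.subset_closure (Or.inr rfl)))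
    rw [← h1] at h2
    exact h2

end

end Fermat.Agent.S18
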