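/-
S18, block H — package AbhMid (twin T): the Kummer–Abhyankar case analysis inside a valued
algebraically closed field.  Deliverable: `h_abhmidT_main`.
-/
import Fermat.Agent.S18.HInterfaces

set_option autoImplicit false

open ModularCurve AlgebraicCurve Polynomial

namespace Fermat.Agent.S18

noncomputable section

/-! ## Elementary facts -/

/-- Values of polynomials stay in a subring containing the constants and the point. -/
theorem h_abhmidT_aeval_mem {L Ω : Type} [Field L] [Field Ω] [Algebra L Ω] (S : Subring Ω)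
    (hS : ∀ a : L, algebraMap L Ω a ∈ S) (x : Ω) (hx : x ∈ S) (p : L[X]) : aeval x p ∈ S := by
  rw [aeval_eq_sum_range]
  refine Subring.sum_mem _ fun i _ => ?_
  rw [Algebra.smul_def]
  exact S.mul_mem (hS _) (S.pow_mem hx i)

theorem h_abhmidT_aeval_mem_closure {L Ω : Type} [Field L] [Field Ω] [Algebra L Ω] (t : Ω)
    (p : L[X]) : aeval t p ∈ Subfield.closure (Set.range (algebraMap L Ω) ∪ {t}) :=
  h_abhmidT_aeval_mem (Subfield.closure (Set.range (algebraMap L Ω) ∪ {t})).toSubring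
    (fun a => Subfield.subset_closure (Or.inl ⟨a, rfl⟩)) t
    (Subfield.subset_closure (Or.inr rfl)) p

theorem h_abhmidT_aeval_mem_O {L Ω : Type} [Field L] [Field Ω] [Algebra L Ω]
    (O : ValuationSubring Ω) (hLO : ∀ a : L, algebraMap L Ω a ∈ O) (x : Ω) (hx : x ∈ O)
    (p : L[X]) : aeval x p ∈ O :=
  h_abhmidT_aeval_mem O.toSubring hLO x hx p

theorem h_abhmidT_aeval_val_le {L Ω : Type} [Field L] [Field Ω] [Algebra L Ω]
    (O : ValuationSubring Ω) (hLO : ∀ a : L, algebraMap L Ω a ∈ O) (x : Ω) (hx : x ∈ O)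
    (p : L[X]) : O.valuation (aeval x p) ≤ 1 :=
  (O.valuation_le_one_iff _).2 (h_abhmidT_aeval_mem_O O hLO x hx p)

theorem h_abhmidT_unit_val {Ω : Type} [Field Ω] (O : ValuationSubring Ω) {u : Ω} (hu0 : u ≠ 0)
    (hu : u ∈ O) (hu' : u⁻¹ ∈ O) : O.valuation u = 1 := by
  have h1 := (O.valuation_le_one_iff u).2 hu
  have h2 := (O.valuation_le_one_iff u⁻¹).2 hu'
  rw [map_inv₀] at h2
  have h3 : O.valuation u ≠ 0 := (Valuation.ne_zero_iff _).2 hu0
  exact le_antisymm h1 ((inv_le_one₀ (zero_lt_iff.2 h3)).1 h2)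

theorem h_abhmidT_val_unit {Ω : Type} [Field Ω] (O : ValuationSubring Ω) {u : Ω}
    (h : O.valuation u = 1) : u ∈ O ∧ u⁻¹ ∈ O := by
  refine ⟨(O.valuation_le_one_iff u).1 h.le, (O.valuation_le_one_iff _).1 ?_⟩
  rw [map_inv₀, h, inv_one]

theorem h_abhmidT_const_val {L Ω : Type} [Field L] [Field Ω] [Algebra L Ω]
    (O : ValuationSubring Ω) (hLO : ∀ a : L, algebraMap L Ω a ∈ O) (c : L) (hc : c ≠ 0) :
    O.valuation (algebraMap L Ω c) = 1 := by
  apply h_abhmidT_unit_val O _ (hLO c)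
  · rw [← map_inv₀]; exact hLO _
  · simpa using hc

/-- A valuation subring is integrally closed: an element integral over a subfield contained in `O`
lies in `O`. -/
theorem h_abhmidT_integral_mem {Ω : Type} [Field Ω] (O : ValuationSubring Ω) (K : Subfield Ω)
    (hKO : ∀ y ∈ K, y ∈ O) (z : Ω) (hz : IsIntegral ↥K z) : z ∈ O := by
  obtain ⟨P, hP, hPz⟩ := hz
  let ψ : ↥K →+* ↥O := (K.subtype).codRestrict O.toSubring (fun y => hKO y y.2)
  have h1 : IsIntegral ↥O z := ⟨P.map ψ, hP.map ψ, by rw [eval₂_map]; exact hPz⟩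
  obtain ⟨y, hy⟩ := IsIntegrallyClosed.isIntegral_iff.1 h1
  rw [← hy]
  exact y.2

/-! ## Nontriviality, the `g`-adic setting, and the case analysis -/

/-- Nontriviality: `O` is not trivial on `L(j)`. -/
theorem h_abhmidT_nontriv {L Ω : Type} [Field L] [Field Ω] [Algebra L Ω]
    (O : ValuationSubring Ω) (t j : Ω) (g : L[X])
    (hγ : aeval t g ∈ O.nonunits) (hγ0 : aeval t g ≠ 0)
    (hj : ∀ p : L[X], aeval j p = 0 → p = 0)
    (hjt : ∃ p q : L[X], q ≠ 0 ∧ aeval t q * j = aeval t p) :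
    ∃ y ∈ Subfield.closure (Set.range (algebraMap L Ω) ∪ {j}), y ≠ 0 ∧ y ∈ O.nonunits := by
  by_contra hcon
  push Not at hcon
  set K := Subfield.closure (Set.range (algebraMap L Ω) ∪ {j}) with hK
  have hKO : ∀ y ∈ K, y ∈ O := by
    intro y hy
    by_contra hyO
    have hy0 : y ≠ 0 := fun h => hyO (h ▸ O.zero_mem)
    have h1 : y⁻¹ ∈ O.nonunits := O.inv_mem_nonunits_iff.2 (Or.inr hyO)
    exact hcon y⁻¹ (K.inv_mem hy) (inv_ne_zero hy0) h1
  have hjK : j ∈ K := Subfield.subset_closure (Or.inr rfl)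
  have hLK : ∀ a : L, algebraMap L Ω a ∈ K := fun a => Subfield.subset_closure (Or.inl ⟨a, rfl⟩)
  let φ : L →+* ↥K := (algebraMap L Ω).codRestrict K hLK
  have hφ : ∀ c : L, algebraMap ↥K Ω (φ c) = algebraMap L Ω c := fun c => rfl
  obtain ⟨p, q, hq, hpq⟩ := hjt
  have ht : IsIntegral ↥K t := by
    apply IsAlgebraic.isIntegral
    refine ⟨C (⟨j, hjK⟩ : ↥K) * q.map φ - p.map φ, ?_, ?_⟩
    · intro h0
      obtain ⟨i, hi⟩ : ∃ i, q.coeff i ≠ 0 := by
        by_contra h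
        push Not at h
        exact hq (Polynomial.ext (by simpa using h))
      have h1 := congrArg (fun P : (↥K)[X] => ((P.coeff i : ↥K) : Ω)) h0
      simp only [coeff_sub, coeff_C_mul, coeff_map, coeff_zero, Subfield.coe_sub, Subfield.coe_mul,
        ZeroMemClass.coe_zero] at h1
      have h2 := hj (C (q.coeff i) * X - C (p.coeff i)) (by
        simp only [map_sub, map_mul, aeval_C, aeval_X]
        rw [mul_comm]; exact h1)
      have h3 := congrArg (fun P : L[X] => P.coeff 1) h2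
      simp [coeff_C] at h3
      exact hi h3
    · simp only [map_sub, map_mul, aeval_C]
      rw [aeval_def, aeval_def, eval₂_map, eval₂_map]
      have : (algebraMap ↥K Ω).comp φ = algebraMap L Ω := rfl
      rw [this, ← aeval_def, ← aeval_def, ← hpq, mul_comm]
      exact sub_self _
  have hγi : IsIntegral ↥K (aeval t g) := by
    rw [aeval_eq_sum_range]
    refine IsIntegral.sum _ fun i _ => ?_
    rw [Algebra.smul_def, ← hφ]
    exact isIntegral_algebraMap.mul (ht.pow i)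
  have h4 : (aeval t g)⁻¹ ∈ O := h_abhmidT_integral_mem O K hKO _ hγi.inv
  rcases O.mem_nonunits_iff_or.1 hγ with h | h
  · exact hγ0 h
  · exact h h4

/-- The `g`-adic setting on `L(t)` (valuation form of the conclusion of AbhBase). -/
structure h_abhmidT_Setup {L Ω : Type} [Field L] [Field Ω] [Algebra L Ω]
    (O : ValuationSubring Ω) (t : Ω) (g : L[X]) : Prop where
  hLO : ∀ a : L, algebraMap L Ω a ∈ O
  htO : t ∈ O
  hg : Irreducible g
  hγ : O.valuation (aeval t g) < 1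
  hγ0 : aeval t g ≠ 0
  B1 : ∀ p : L[X], ¬ g ∣ p → O.valuation (aeval t p) = 1
  B2 : ∀ x ∈ Subfield.closure (Set.range (algebraMap L Ω) ∪ {t}), x ≠ 0 →
      ∃ (n : ℤ) (p q : L[X]), ¬ g ∣ p ∧ ¬ g ∣ q ∧ x * aeval t q = aeval t g ^ n * aeval t p ∧
        O.valuation x = O.valuation (aeval t g) ^ n

theorem h_abhmidT_setup (hBase : h_AbhBaseStatement) {L Ω : Type} [Field L] [Field Ω]
    [Algebra L Ω] (O : ValuationSubring Ω) (t : Ω) (g : L[X])
    (hLO : ∀ a : L, algebraMap L Ω a ∈ O) (htO : t ∈ O) (hg : Irreducible g)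
    (hγ : aeval t g ∈ O.nonunits) (hγ0 : aeval t g ≠ 0) : h_abhmidT_Setup O t g := by
  obtain ⟨hB1, hB2⟩ := hBase L Ω O t g hLO htO hg hγ hγ0
  have B1 : ∀ p : L[X], ¬ g ∣ p → O.valuation (aeval t p) = 1 := fun p hp =>
    h_abhmidT_unit_val O (hB1 p hp).1 (h_abhmidT_aeval_mem_O O hLO t htO p) (hB1 p hp).2
  refine ⟨hLO, htO, hg, O.mem_nonunits_iff.1 hγ, hγ0, B1, ?_⟩
  intro x hx hx0
  obtain ⟨n, p, q, hp, hq, h⟩ := hB2 x hx hx0
  refine ⟨n, p, q, hp, hq, h, ?_⟩
  have h1 := congrArg O.valuation h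
  rw [map_mul, map_mul, B1 p hp, B1 q hq, mul_one, mul_one, map_zpow₀] at h1
  exact h1

section
variable {L Ω : Type} [Field L] [Field Ω] [Algebra L Ω] {O : ValuationSubring Ω} {t : Ω}
  {g : L[X]}

theorem h_abhmidT_Setup.val_pos (S : h_abhmidT_Setup O t g) : 0 < O.valuation (aeval t g) :=
  zero_lt_iff.2 ((Valuation.ne_zero_iff _).2 S.hγ0)

theorem h_abhmidT_Setup.exp_inj (S : h_abhmidT_Setup O t g) {n m : ℤ}
    (h : O.valuation (aeval t g) ^ n = O.valuation (aeval t g) ^ m) : n = m :=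
  zpow_right_injective₀ S.val_pos S.hγ.ne h

/-- `O` is discrete on `L(t)` with uniformiser `g(t)`. -/
theorem h_abhmidT_Setup.disc (S : h_abhmidT_Setup O t g) :
    ∀ x ∈ Subfield.closure (Set.range (algebraMap L Ω) ∪ {t}), x ≠ 0 →
      ∃ (n : ℤ) (u : Ω), u ∈ O ∧ u⁻¹ ∈ O ∧ x = aeval t g ^ n * u := by
  intro x hx hx0
  obtain ⟨n, p, q, hp, hq, h, hv⟩ := S.B2 x hx hx0
  have hq0 : aeval t q ≠ 0 := by
    intro h0
    have := S.B1 q hq
    rw [h0, map_zero] at this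
    exact zero_ne_one this
  have hu : O.valuation (aeval t p / aeval t q) = 1 := by
    rw [map_div₀, S.B1 p hp, S.B1 q hq, div_one]
  refine ⟨n, aeval t p / aeval t q, (h_abhmidT_val_unit O hu).1, (h_abhmidT_val_unit O hu).2, ?_⟩
  rw [← mul_div_assoc, ← h, mul_div_assoc, div_self hq0, mul_one]

theorem h_abhmidT_Setup.regAt_mem (S : h_abhmidT_Setup O t g) {x : Ω} (hx : RegAt t g x) :
    x ∈ Subfield.closure (Set.range (algebraMap L Ω) ∪ {t}) ∧ x ∈ O := by
  obtain ⟨p, q, hq, h⟩ := hx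
  have hq0 : aeval t q ≠ 0 := by
    intro h0
    have := S.B1 q hq
    rw [h0, map_zero] at this
    exact zero_ne_one this
  have hx : x = aeval t p * (aeval t q)⁻¹ := by
    rw [← h]; field_simp
  refine ⟨?_, ?_⟩
  · rw [hx]
    exact Subfield.mul_mem _ (h_abhmidT_aeval_mem_closure t p)
      (Subfield.inv_mem _ (h_abhmidT_aeval_mem_closure t q))
  · rw [hx]
    exact O.mul_mem _ _ (h_abhmidT_aeval_mem_O O S.hLO t S.htO p)
      (h_abhmidT_val_unit O (S.B1 q hq)).2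

theorem h_abhmidT_Setup.regAt_of_mem (S : h_abhmidT_Setup O t g) {x : Ω}
    (hx : x ∈ Subfield.closure (Set.range (algebraMap L Ω) ∪ {t})) (hxO : x ∈ O) :
    RegAt t g x := by
  by_cases hx0 : x = 0
  · refine ⟨0, 1, fun h => S.hg.not_isUnit (isUnit_of_dvd_one h), ?_⟩
    simp [hx0]
  · obtain ⟨n, p, q, hp, hq, h, hv⟩ := S.B2 x hx hx0
    have hn : 0 ≤ n := by
      have h1 : O.valuation (aeval t g) ^ n ≤ 1 := hv ▸ (O.valuation_le_one_iff x).2 hxO
      exact (zpow_le_one_iff_right_of_lt_one₀ S.val_pos S.hγ).1 h1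
    obtain ⟨k, rfl⟩ := Int.eq_ofNat_of_zero_le hn
    refine ⟨g ^ k * p, q, hq, ?_⟩
    rw [mul_comm, h, map_mul, map_pow, zpow_natCast]

/-- A unit of `L[t]_(g)` has valuation one. -/
theorem h_abhmidT_Setup.regAt_unit_val (S : h_abhmidT_Setup O t g) {u v : Ω} (hu : RegAt t g u)
    (hv : RegAt t g v) (huv : u * v = 1) : O.valuation u = 1 := by
  have h1 := (O.valuation_le_one_iff u).2 (S.regAt_mem hu).2
  have h2 := (O.valuation_le_one_iff v).2 (S.regAt_mem hv).2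
  have h3 := congrArg O.valuation huv
  rw [map_mul, map_one] at h3
  refine le_antisymm h1 ?_
  rw [← h3]
  exact mul_le_of_le_one_right' h2

/-- Valuation of `u * a ^ K` with `u` a unit and `a` regular. -/
theorem h_abhmidT_Setup.powcase (S : h_abhmidT_Setup O t g) {ϑ a u v : Ω} (K : ℕ) (hK : K ≠ 0)
    (hϑ0 : ϑ ≠ 0) (ha : RegAt t g a) (hu : RegAt t g u) (hv : RegAt t g v) (huv : u * v = 1)
    (h : ϑ = u * a ^ K) :
    ∃ n : ℤ, O.valuation ϑ = O.valuation (aeval t g) ^ ((K : ℤ) * n) := by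
  have ha0 : a ≠ 0 := by
    rintro rfl
    rw [zero_pow hK, mul_zero] at h
    exact hϑ0 h
  obtain ⟨n, p, q, -, -, -, hva⟩ := S.B2 a (S.regAt_mem ha).1 ha0
  refine ⟨n, ?_⟩
  rw [h, map_mul, S.regAt_unit_val hu hv huv, one_mul, map_pow, hva, zpow_mul', zpow_natCast]

end

/-- Some irreducible factor of `a` takes a non-unit value at `j` if `a` does. -/
theorem h_abhmidT_irred_factor {L Ω : Type} [Field L] [Field Ω] [Algebra L Ω]
    (O : ValuationSubring Ω) (hLO : ∀ a : L, algebraMap L Ω a ∈ O) (j : Ω) (hjO : j ∈ O)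
    (a : L[X]) : a ≠ 0 → O.valuation (aeval j a) < 1 →
      ∃ π : L[X], Irreducible π ∧ π ∣ a ∧ O.valuation (aeval j π) < 1 := by
  induction a using WfDvdMonoid.induction_on_irreducible with
  | zero => intro h; exact absurd rfl h
  | unit u hu =>
    intro _ h
    obtain ⟨c, hc, rfl⟩ := Polynomial.isUnit_iff.1 hu
    rw [aeval_C, h_abhmidT_const_val O hLO c hc.ne_zero] at h
    exact absurd h (lt_irrefl _)
  | mul a i ha0 hi ih =>
    intro _ h
    rw [map_mul, map_mul] at h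
    by_cases h1 : O.valuation (aeval j i) < 1
    · exact ⟨i, hi, dvd_mul_right _ _, h1⟩
    · have h2 : O.valuation (aeval j i) = 1 :=
        le_antisymm (h_abhmidT_aeval_val_le O hLO j hjO i) (not_lt.1 h1)
      rw [h2, one_mul] at h
      obtain ⟨π, hπ, hd, hv⟩ := ih ha0 h
      exact ⟨π, hπ, hd.mul_left _, hv⟩

/-- Final step: feed a suitable `ϑ` to AbhCore. -/
theorem h_abhmidT_finish (hCore : h_AbhCoreStatement) {L Ω : Type} [Field L] [CharZero L]
    [Field Ω] [IsAlgClosed Ω] [Algebra L Ω] {O : ValuationSubring Ω} {t : Ω} {g : L[X]}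
    (S : h_abhmidT_Setup O t g) (F : Subfield Ω) (hLF : ∀ a : L, algebraMap L Ω a ∈ F) (πw : Ω)
    (hπF : πw ∈ F) (hπ0 : πw ≠ 0) (hπn : πw ∈ O.nonunits)
    (hdisc : ∀ x ∈ F, x ≠ 0 → ∃ (n : ℤ) (u : Ω), u ∈ O ∧ u⁻¹ ∈ O ∧ x = πw ^ n * u)
    (ϑ : Ω) (m : ℕ) (hϑF : ϑ ∈ F)
    (hϑt : ϑ ∈ Subfield.closure (Set.range (algebraMap L Ω) ∪ {t})) (hϑ0 : ϑ ≠ 0) (hm : 0 < m)
    (hrep : ∃ u : Ω, u ∈ O ∧ u⁻¹ ∈ O ∧ ϑ = πw ^ m * u)
    (hval : ∃ n : ℤ, (m : ℤ) ∣ n ∧ O.valuation ϑ = O.valuation (aeval t g) ^ n) :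
    ∀ x ∈ Subfield.closure ((F : Set Ω) ∪ {t}), x ≠ 0 →
      ∃ (n : ℤ) (u : Ω), u ∈ O ∧ u⁻¹ ∈ O ∧ x = aeval t g ^ n * u := by
  obtain ⟨n, hmn, hvn⟩ := hval
  obtain ⟨n', p, q, hp, hq, h, hv⟩ := S.B2 ϑ hϑt hϑ0
  have hnn : n = n' := S.exp_inj (hvn.symm.trans hv)
  subst hnn
  have hϑlt : O.valuation ϑ < 1 := by
    obtain ⟨u, hu, hu', rfl⟩ := hrep
    have hu0 : u ≠ 0 := right_ne_zero_of_mul hϑ0
    rw [map_mul, h_abhmidT_unit_val O hu0 hu hu', mul_one, map_pow]
    exact pow_lt_one₀ zero_le (O.mem_nonunits_iff.1 hπn) hm.ne'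
  have hn : 0 < n := by
    rw [hv] at hϑlt
    exact (zpow_lt_one_iff_right_of_lt_one₀ S.val_pos S.hγ).1 hϑlt
  obtain ⟨e, rfl⟩ := Int.eq_ofNat_of_zero_le hn.le
  have he : 0 < e := by exact_mod_cast hn
  have hme : m ∣ e := Int.natCast_dvd_natCast.1 hmn
  rw [zpow_natCast] at h
  exact hCore L Ω O F t g p q πw ϑ m e S.hLO hLF S.htO S.hg (O.mem_nonunits_iff.2 S.hγ) S.hγ0
    hπF hπ0 hπn hdisc hϑF hm he hme hrep hp hq h

theorem h_abhmidT_main : e_SubDiscStatement → e_ValFinStatement → h_RatRepStatement →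
    h_AbhBaseStatement → h_AbhCoreStatement → h_AbhMidStatement := by
  intro hSub hValFin hRat hBase hCore N L Ω _ _ _ _ _ O F t j g hN hLO hLF htO hg hγ ht hjF hj
    hjt hfin HZ C0 C1 Cinf
  have hγ0 : aeval t g ≠ 0 := fun h => hg.ne_zero (ht g h)
  have S := h_abhmidT_setup hBase O t g hLO htO hg hγ hγ0
  -- step 1
  have hjt' : j ∈ Subfield.closure (Set.range (algebraMap L Ω) ∪ {t}) := by
    obtain ⟨p, q, hq, h⟩ := hjt
    have hq0 : aeval t q ≠ 0 := fun h0 => hq (ht q h0)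
    have h1 : j = aeval t p * (aeval t q)⁻¹ := by rw [← h]; field_simp
    rw [h1]
    exact Subfield.mul_mem _ (h_abhmidT_aeval_mem_closure t p)
      (Subfield.inv_mem _ (h_abhmidT_aeval_mem_closure t q))
  have hj0 : j ≠ 0 := by
    intro h
    have h1 := hj X (by simpa using h)
    exact X_ne_zero h1
  have hj1 : j - 1728 ≠ 0 := by
    intro h
    have h1 := hj (X - C 1728) (by
      simp only [map_sub, aeval_X, map_ofNat]
      exact h)
    exact X_sub_C_ne_zero _ h1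
  have hKt : Subfield.closure (Set.range (algebraMap L Ω) ∪ {j}) ≤
      Subfield.closure (Set.range (algebraMap L Ω) ∪ {t}) := by
    rw [Subfield.closure_le]
    rintro x (⟨a, rfl⟩ | rfl)
    · exact Subfield.subset_closure (Or.inl ⟨a, rfl⟩)
    · exact hjt'
  have hKF : Subfield.closure (Set.range (algebraMap L Ω) ∪ {j}) ≤ F := by
    rw [Subfield.closure_le]
    rintro x (⟨a, rfl⟩ | rfl)
    · exact hLF a
    · exact hjF
  -- step 2
  have hnt := h_abhmidT_nontriv O t j g hγ hγ0 hj hjt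
  -- step 3
  obtain ⟨ϖ, hϖK, hϖ0, hϖn, hϖd⟩ := hSub Ω O _ _ (aeval t g) hKt
    (h_abhmidT_aeval_mem_closure t g) hγ0 hγ S.disc hnt
  obtain ⟨πw, hπF, hπ0, hπn, hπd⟩ := hValFin Ω O _ F ϖ hKF hϖK hϖ0 hϖn hϖd hfin
  obtain ⟨HZ1, HZ2, HZ3, HZ4⟩ := HZ πw hπF hπ0 hπn hπd
  have fin := h_abhmidT_finish hCore S F hLF πw hπF hπ0 hπn hπd
  by_cases hreg : RegAt t g j
  · have hjO : j ∈ O := (S.regAt_mem hreg).2
    by_cases hjn : j ∈ O.nonunits
    · -- case (ii)
      obtain ⟨m, u, hm, hu, hu', hju⟩ := HZ2 hjn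
      obtain ⟨a, u', v', ha, hu1, hv1, huv, hja⟩ := C0 hreg
      obtain ⟨n, hn⟩ := S.powcase 3 (by norm_num) hj0 ha hu1 hv1 huv hja
      exact fin j m hjF hjt' hj0 (Nat.pos_of_dvd_of_pos hm (by norm_num)) ⟨u, hu, hu', hju⟩
        ⟨3 * n, Dvd.dvd.mul_right (by exact_mod_cast hm) _, hn⟩
    · by_cases hj1n : j - 1728 ∈ O.nonunits
      · -- case (iii)
        obtain ⟨m, u, hm, hu, hu', hju⟩ := HZ3 hj1n
        obtain ⟨a, u', v', ha, hu1, hv1, huv, hja⟩ := C1 hreg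
        obtain ⟨n, hn⟩ := S.powcase 2 (by norm_num) hj1 ha hu1 hv1 huv hja
        exact fin (j - 1728) m
          (F.sub_mem hjF (by simp))
          (Subfield.sub_mem _ hjt' (by simp))
          hj1 (Nat.pos_of_dvd_of_pos hm (by norm_num)) ⟨u, hu, hu', hju⟩
          ⟨2 * n, Dvd.dvd.mul_right (by exact_mod_cast hm) _, hn⟩
      · -- case (iv)
        have hvj : O.valuation j = 1 := le_antisymm ((O.valuation_le_one_iff _).2 hjO)
          (not_lt.1 (fun h => hjn (O.mem_nonunits_iff.2 h)))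
        have h1728 : (1728 : Ω) ∈ O := by simp
        have hvj1 : O.valuation (j - 1728) = 1 :=
          le_antisymm ((O.valuation_le_one_iff _).2 (O.toSubring.sub_mem hjO h1728))
            (not_lt.1 (fun h => hj1n (O.mem_nonunits_iff.2 h)))
        obtain ⟨y, hyK, hy0, hyn⟩ := hnt
        obtain ⟨a, b, hb0, hab⟩ := hRat L Ω j y hyK
        have ha0 : a ≠ 0 := by
          rintro rfl
          rw [map_zero] at hab
          exact (mul_eq_zero.1 hab).elim hy0 hb0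
        have hva : O.valuation (aeval j a) < 1 := by
          rw [← hab, map_mul]
          exact mul_lt_one_of_lt_of_le (O.mem_nonunits_iff.1 hyn)
            (h_abhmidT_aeval_val_le O hLO j hjO b)
        obtain ⟨π, hπ, hπa, hvπ⟩ := h_abhmidT_irred_factor O hLO j hjO a ha0 hva
        have hπX : ¬ π ∣ X * (X - C 1728) := by
          rintro ⟨c, hc⟩
          have h1 := congrArg (fun P : L[X] => O.valuation (aeval j P)) hc
          simp only [map_mul, map_sub, aeval_X, map_ofNat] at h1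
          rw [← map_mul, ← map_mul, map_mul O.valuation j, hvj, hvj1, mul_one, map_mul] at h1
          have h2 : O.valuation (aeval j π) * O.valuation (aeval j c) < 1 :=
            mul_lt_one_of_lt_of_le hvπ (h_abhmidT_aeval_val_le O hLO j hjO c)
          rw [← h1] at h2
          exact lt_irrefl _ h2
        obtain ⟨u, hu, hu', hπu⟩ := HZ4 π hπ hπX (O.mem_nonunits_iff.2 hvπ)
        have hϑ0 : aeval j π ≠ 0 := fun h => hπ.ne_zero (hj π h)
        have hϑF : aeval j π ∈ F := h_abhmidT_aeval_mem F.toSubring hLF j hjF π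
        have hϑt : aeval j π ∈ Subfield.closure (Set.range (algebraMap L Ω) ∪ {t}) :=
          hKt (h_abhmidT_aeval_mem_closure j π)
        obtain ⟨n, p, q, -, -, -, hv⟩ := S.B2 _ hϑt hϑ0
        exact fin (aeval j π) 1 hϑF hϑt hϑ0 one_pos ⟨u, hu, hu', by rw [pow_one]; exact hπu⟩
          ⟨n, by simp, hv⟩
  · -- case (i)
    have hjO : j ∉ O := fun h => hreg (S.regAt_of_mem hjt' h)
    obtain ⟨m, u, hm, hu, hu', hju⟩ := HZ1 hjO
    obtain ⟨a, u', v', ha, hu1, hv1, huv, hja⟩ := Cinf hreg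
    obtain ⟨n, hn⟩ := S.powcase N hN.ne' (inv_ne_zero hj0) ha hu1 hv1 huv hja
    exact fin j⁻¹ m (F.inv_mem hjF) (Subfield.inv_mem _ hjt') (inv_ne_zero hj0)
      (Nat.pos_of_dvd_of_pos hm hN) ⟨u, hu, hu', hju⟩
      ⟨N * n, Dvd.dvd.mul_right (by exact_mod_cast hm) _, hn⟩

end

end Fermat.Agent.S18
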