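/-
S18, block H/Ab (package AbhTop): from the abstract Kummer–Abhyankar statement `h_AbhMidStatement`
(inside an algebraically closed valued field) to valuation subrings of `E = F(t)`
(`h_AbhValStatement`).
-/
import Fermat.Agent.S18.HInterfaces

set_option autoImplicit false

open ModularCurve AlgebraicCurve Polynomial

namespace Fermat.Agent.S18

noncomputable section

/-! ## Extension of a valuation subring to an extension field -/

/-- Every valuation subring `V` of `E` is the trace of a valuation subring of an extension `Ω`. -/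
theorem h_abhtop_exists_ext (E Ω : Type*) [Field E] [Field Ω] [Algebra E Ω]
    (V : ValuationSubring E) :
    ∃ O : ValuationSubring Ω, ∀ x : E, algebraMap E Ω x ∈ O ↔ x ∈ V := by
  obtain ⟨O, hle, hloc⟩ :=
    LocalSubring.exists_le_valuationSubring (V.toLocalSubring.map (algebraMap E Ω))
  refine ⟨O, fun x => ⟨fun hx => ?_, fun hx => hle ⟨x, hx, rfl⟩⟩⟩
  by_contra hxV
  have hx0 : x ≠ 0 := fun h => hxV (h ▸ V.zero_mem)
  have hxi : x⁻¹ ∈ V := (V.mem_or_inv_mem x).resolve_left hxV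
  have hmem : algebraMap E Ω x⁻¹ ∈ (V.toLocalSubring.map (algebraMap E Ω)).toSubring :=
    ⟨x⁻¹, hxi, rfl⟩
  have hunit : IsUnit (Subring.inclusion hle ⟨_, hmem⟩) := by
    refine IsUnit.of_mul_eq_one (⟨algebraMap E Ω x, hx⟩ : O.toLocalSubring.toSubring) ?_
    apply Subtype.ext
    show algebraMap E Ω x⁻¹ * algebraMap E Ω x = 1
    rw [← map_mul, inv_mul_cancel₀ hx0, map_one]
  have hunit' := hloc.map_nonunit _ hunit
  obtain ⟨⟨b, y, hy, rfl⟩, hb⟩ := isUnit_iff_exists_inv.1 hunit'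
  have h1 : algebraMap E Ω x⁻¹ * algebraMap E Ω y = 1 := congrArg Subtype.val hb
  rw [← map_mul, ← map_one (algebraMap E Ω)] at h1
  have h2 := (algebraMap E Ω).injective h1
  have h3 : y = x := by
    field_simp at h2
    exact h2
  exact hxV (h3 ▸ hy)

/-! ## Valuation bookkeeping in a valuation subring with a "uniformiser" -/

theorem h_abhtop_val_unit {Ω : Type*} [Field Ω] (O : ValuationSubring Ω) {u : Ω} (hu : u ∈ O)
    (hui : u⁻¹ ∈ O) (hu0 : u ≠ 0) : O.valuation u = 1 := by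
  have h1 := (O.valuation_le_one_iff u).2 hu
  have h2 := (O.valuation_le_one_iff u⁻¹).2 hui
  rw [map_inv₀] at h2
  have h0 : O.valuation u ≠ 0 := (Valuation.ne_zero_iff _).2 hu0
  have h3 : 1 ≤ O.valuation u := (inv_le_one₀ (zero_lt_iff.2 h0)).1 h2
  exact le_antisymm h1 h3

theorem h_abhtop_val_pos {Ω : Type*} [Field Ω] (O : ValuationSubring Ω) {π : Ω} (hπ0 : π ≠ 0) :
    0 < O.valuation π := zero_lt_iff.2 ((Valuation.ne_zero_iff _).2 hπ0)

theorem h_abhtop_val_eq {Ω : Type*} [Field Ω] (O : ValuationSubring Ω) {π x u : Ω} {n : ℤ}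
    (hx0 : x ≠ 0) (hu : u ∈ O) (hui : u⁻¹ ∈ O) (hx : x = π ^ n * u) :
    O.valuation x = O.valuation π ^ n := by
  have hu0 : u ≠ 0 := by
    rintro rfl
    exact hx0 (by rw [hx, mul_zero])
  rw [hx, map_mul, map_zpow₀, h_abhtop_val_unit O hu hui hu0, mul_one]

/-! ## A place from an elementwise discrete valuation subring -/

theorem h_abhtop_place (L F : Type*) [Field L] [Field F] [Algebra L F] (w : ValuationSubring F)
    (hL : ∀ a : L, algebraMap L F a ∈ w) (ϖ : F) (hϖ0 : ϖ ≠ 0) (hϖ : ϖ ∈ w.nonunits)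
    (hdisc : ∀ y : F, y ≠ 0 → ∃ (n : ℤ) (u : F), u ∈ w ∧ u⁻¹ ∈ w ∧ y = ϖ ^ n * u) :
    ∃ P : Place L F, P.toValuationSubring = w ∧
      ∀ (y : F) (n : ℤ) (u : F), y ≠ 0 → u ∈ w → u⁻¹ ∈ w → y = ϖ ^ n * u → P.ord y = n := by
  have hv0 : 0 < w.valuation ϖ := h_abhtop_val_pos w hϖ0
  have hv1 : w.valuation ϖ < 1 := w.mem_nonunits_iff.1 hϖ
  have hϖw : ϖ ∈ w := w.nonunits_subset hϖ
  set p : ↥w := ⟨ϖ, hϖw⟩ with hp
  have hp0 : p ≠ 0 := fun h => hϖ0 (congrArg Subtype.val h)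
  have hirr : Irreducible p := by
    refine ⟨fun hU => ?_, fun a b hab => ?_⟩
    · have := (w.valuation_eq_one_iff p).1 hU
      exact absurd this hv1.ne
    · have ha0 : (a : F) ≠ 0 := by
        intro h
        apply hp0
        rw [hab, show a = 0 from Subtype.ext h, zero_mul]
      have hb0 : (b : F) ≠ 0 := by
        intro h
        apply hp0
        rw [hab, show b = 0 from Subtype.ext h, mul_zero]
      obtain ⟨n, u, hu, hui, hau⟩ := hdisc a ha0
      obtain ⟨m, u', hu', hui', hbu⟩ := hdisc b hb0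
      have hva := h_abhtop_val_eq w ha0 hu hui hau
      have hvb := h_abhtop_val_eq w hb0 hu' hui' hbu
      have hn : 0 ≤ n := by
        rw [← zpow_le_one_iff_right_of_lt_one₀ hv0 hv1, ← hva]
        exact (w.valuation_le_one_iff _).2 a.2
      have hm : 0 ≤ m := by
        rw [← zpow_le_one_iff_right_of_lt_one₀ hv0 hv1, ← hvb]
        exact (w.valuation_le_one_iff _).2 b.2
      have hprod : w.valuation ϖ ^ (1 : ℤ) = w.valuation ϖ ^ (n + m) := by
        rw [zpow_add₀ hv0.ne', ← hva, ← hvb, ← map_mul, zpow_one]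
        exact congrArg (fun z : ↥w => w.valuation (z : F)) hab
      have hnm : (1 : ℤ) = n + m := zpow_right_injective₀ hv0 hv1.ne hprod
      rcases (by omega : n = 0 ∨ m = 0) with h | h
      · left
        rw [w.valuation_eq_one_iff, hva, h, zpow_zero]
      · right
        rw [w.valuation_eq_one_iff, hvb, h, zpow_zero]
  have hfact : IsDiscreteValuationRing.HasUnitMulPowIrreducibleFactorization ↥w := by
    refine ⟨p, hirr, fun {x} hx => ?_⟩
    have hx0 : (x : F) ≠ 0 := fun h => hx (Subtype.ext h)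
    obtain ⟨n, u, hu, hui, hxu⟩ := hdisc x hx0
    have hvx := h_abhtop_val_eq w hx0 hu hui hxu
    have hn : 0 ≤ n := by
      rw [← zpow_le_one_iff_right_of_lt_one₀ hv0 hv1, ← hvx]
      exact (w.valuation_le_one_iff _).2 x.2
    have hu0 : u ≠ 0 := by
      rintro rfl
      exact hx0 (by rw [hxu, mul_zero])
    have hU : IsUnit (⟨u, hu⟩ : ↥w) :=
      (w.valuation_eq_one_iff _).2 (h_abhtop_val_unit w hu hui hu0)
    refine ⟨n.toNat, hU.unit, ?_⟩
    apply Subtype.ext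
    rw [hxu]
    conv_rhs => rw [← Int.toNat_of_nonneg hn, zpow_natCast]
    rfl
  have : IsDiscreteValuationRing ↥w :=
    IsDiscreteValuationRing.ofHasUnitMulPowIrreducibleFactorization hfact
  have hne : w ≠ ⊤ := by
    intro h
    rcases w.mem_nonunits_iff_or.1 hϖ with h0 | h1
    · exact hϖ0 h0
    · exact h1 (h ▸ ValuationSubring.mem_top _)
  refine ⟨⟨w, hL, hne, inferInstance⟩, rfl, ?_⟩
  intro y n u hy0 hu hui hyu
  set P : Place L F := ⟨w, hL, hne, inferInstance⟩ with hP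
  have hu0 : u ≠ 0 := by
    rintro rfl
    exact hy0 (by rw [hyu, mul_zero])
  have hU : IsUnit (⟨u, hu⟩ : ↥P.toValuationSubring) :=
    (w.valuation_eq_one_iff _).2 (h_abhtop_val_unit w hu hui hu0)
  have hordu : P.ord u = 0 := by
    have h := (P.adicValuation_coe_eq_one_iff ⟨u, hu⟩).2 hU
    simp only [Place.ord]
    rw [show P.adicValuation u = 1 from h]
    simp
  have hordϖ : P.ord ϖ = 1 := P.ord_coe_irreducible (π := p) hirr
  rw [hyu, P.ord_mul (zpow_ne_zero n hϖ0) hu0, P.ord_zpow, hordϖ, hordu]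
  ring

/-- The place of `F` cut out by a valuation subring `O` of an extension `Ω` which is elementwise
discrete on the image of `F`; orders are read off in `Ω`. -/
theorem h_abhtop_place_ext (L F Ω : Type*) [Field L] [Field F] [Field Ω] [Algebra L F]
    [Algebra F Ω] (O : ValuationSubring Ω) (hL : ∀ a : L, algebraMap F Ω (algebraMap L F a) ∈ O)
    (ϖ : F) (hϖ0 : ϖ ≠ 0) (hϖ : algebraMap F Ω ϖ ∈ O.nonunits)
    (hdisc : ∀ y : F, y ≠ 0 → ∃ (n : ℤ) (u : Ω), u ∈ O ∧ u⁻¹ ∈ O ∧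
      algebraMap F Ω y = algebraMap F Ω ϖ ^ n * u) :
    ∃ P : Place L F, ∀ y : F, y ≠ 0 →
      O.valuation (algebraMap F Ω y) = O.valuation (algebraMap F Ω ϖ) ^ P.ord y ∧
      ∃ u : Ω, u ∈ O ∧ u⁻¹ ∈ O ∧ algebraMap F Ω y = algebraMap F Ω ϖ ^ P.ord y * u := by
  set φ := algebraMap F Ω with hφ
  set w : ValuationSubring F := O.comap φ with hw
  have hφ0 : φ ϖ ≠ 0 := (_root_.map_ne_zero φ).2 hϖ0
  have hϖw : ϖ ∈ w.nonunits := by
    rw [ValuationSubring.mem_nonunits_iff_or]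
    right
    intro h
    rcases O.mem_nonunits_iff_or.1 hϖ with h0 | h1
    · exact hφ0 h0
    · apply h1
      have : φ ϖ⁻¹ ∈ O := h
      rwa [map_inv₀] at this
  have hdiscw : ∀ y : F, y ≠ 0 → ∃ (n : ℤ) (u : F), u ∈ w ∧ u⁻¹ ∈ w ∧ y = ϖ ^ n * u := by
    intro y hy
    obtain ⟨n, u, hu, hui, hyu⟩ := hdisc y hy
    have hzn : ϖ ^ n ≠ 0 := zpow_ne_zero n hϖ0
    have hφu : φ (y * (ϖ ^ n)⁻¹) = u := by
      rw [map_mul, map_inv₀, map_zpow₀, hyu, mul_comm (φ ϖ ^ n) u,
        mul_inv_cancel_right₀ (zpow_ne_zero n hφ0)]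
    refine ⟨n, y * (ϖ ^ n)⁻¹, ?_, ?_, ?_⟩
    · show φ (y * (ϖ ^ n)⁻¹) ∈ O
      rw [hφu]
      exact hu
    · show φ (y * (ϖ ^ n)⁻¹)⁻¹ ∈ O
      rw [map_inv₀, hφu]
      exact hui
    · rw [mul_comm y, mul_inv_cancel_left₀ hzn]
  obtain ⟨P, -, hP⟩ := h_abhtop_place L F w hL ϖ hϖ0 hϖw hdiscw
  refine ⟨P, fun y hy => ?_⟩
  obtain ⟨n, u, hu, hui, hyu⟩ := hdiscw y hy
  have hord := hP y n u hy hu hui hyu
  have hu' : φ u ∈ O := hu
  have hui' : (φ u)⁻¹ ∈ O := by
    have : φ u⁻¹ ∈ O := hui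
    rwa [map_inv₀] at this
  have heq : φ y = φ ϖ ^ P.ord y * φ u := by
    rw [hord]
    conv_lhs => rw [hyu]
    rw [map_mul, map_zpow₀]
  exact ⟨h_abhtop_val_eq O ((_root_.map_ne_zero φ).2 hy) hu' hui' heq, φ u, hu', hui', heq⟩

/-! ## Transfer lemmas along `E → Ω` -/

theorem h_abhtop_regAt_map {L E Ω : Type} [Field L] [Field E] [Field Ω] [Algebra L E]
    [Algebra L Ω] [Algebra E Ω] [IsScalarTower L E Ω] (t : E) (g : L[X]) (x : E) :
    RegAt (algebraMap E Ω t) g (algebraMap E Ω x) ↔ RegAt t g x := by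
  constructor
  · rintro ⟨p, q, hq, h⟩
    refine ⟨p, q, hq, ?_⟩
    rw [aeval_algebraMap_apply, aeval_algebraMap_apply, ← map_mul] at h
    exact (algebraMap E Ω).injective h
  · rintro ⟨p, q, hq, h⟩
    refine ⟨p, q, hq, ?_⟩
    rw [aeval_algebraMap_apply, aeval_algebraMap_apply, ← map_mul, h]

theorem h_abhtop_map_closure {K A B : Type*} [Field K] [Field A] [Field B] [Algebra K A]
    [Algebra K B] [Algebra A B] [IsScalarTower K A B] (s : A) (x : A)
    (hx : x ∈ Subfield.closure (Set.range (algebraMap K A) ∪ {s})) :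
    algebraMap A B x ∈ Subfield.closure (Set.range (algebraMap K B) ∪ {algebraMap A B s}) := by
  have h1 : algebraMap A B x ∈
      (Subfield.closure (Set.range (algebraMap K A) ∪ {s})).map (algebraMap A B) :=
    ⟨x, hx, rfl⟩
  rw [RingHom.map_field_closure] at h1
  refine Subfield.closure_mono ?_ h1
  rintro _ ⟨y, hy | hy, rfl⟩
  · obtain ⟨c, rfl⟩ := hy
    left
    exact ⟨c, IsScalarTower.algebraMap_apply K A B c⟩
  · right
    rw [Set.mem_singleton_iff] at hy
    rw [hy]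
    rfl

/-- From a non-unit `φ y` of `O` and a divisibility constraint on its order: the elementwise form. -/
theorem h_abhtop_hz_aux {L F Ω : Type*} [Field L] [Field F] [Field Ω] [Algebra L F]
    [Algebra F Ω] (O : ValuationSubring Ω) (ϖ : F) (hϖ0 : ϖ ≠ 0)
    (hϖ : algebraMap F Ω ϖ ∈ O.nonunits) (P : Place L F)
    (hP : ∀ y : F, y ≠ 0 →
      O.valuation (algebraMap F Ω y) = O.valuation (algebraMap F Ω ϖ) ^ P.ord y ∧
      ∃ u : Ω, u ∈ O ∧ u⁻¹ ∈ O ∧ algebraMap F Ω y = algebraMap F Ω ϖ ^ P.ord y * u)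
    (y : F) (k : ℕ) (hk : 0 < P.ord y → P.ord y ∣ (k : ℤ)) (hy : algebraMap F Ω y ∈ O.nonunits) :
    ∃ (m : ℕ) (u : Ω), m ∣ k ∧ u ∈ O ∧ u⁻¹ ∈ O ∧ algebraMap F Ω y = algebraMap F Ω ϖ ^ m * u := by
  by_cases hy0 : y = 0
  · exact ⟨1, 0, one_dvd k, O.zero_mem, by rw [inv_zero]; exact O.zero_mem,
      by rw [hy0, map_zero, mul_zero]⟩
  have hv0 : 0 < O.valuation (algebraMap F Ω ϖ) :=
    h_abhtop_val_pos O ((_root_.map_ne_zero _).2 hϖ0)
  have hv1 : O.valuation (algebraMap F Ω ϖ) < 1 := O.mem_nonunits_iff.1 hϖ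
  obtain ⟨hval, u, hu, hui, hyu⟩ := hP y hy0
  have hpos : 0 < P.ord y := by
    rw [← zpow_lt_one_iff_right_of_lt_one₀ hv0 hv1, ← hval]
    exact O.mem_nonunits_iff.1 hy
  have hm : ((P.ord y).toNat : ℤ) = P.ord y := Int.toNat_of_nonneg hpos.le
  refine ⟨(P.ord y).toNat, u, ?_, hu, hui, ?_⟩
  · rw [← Int.natCast_dvd_natCast, hm]
    exact hk hpos
  · rw [← zpow_natCast, hm]
    exact hyu

/-! ## The abstract form of the deliverable -/

theorem h_abhtop_abs (hMid : h_AbhMidStatement) (N : ℕ) (hN : 0 < N) (L F E Ω : Type) [Field L]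
    [CharZero L] [Field F] [Field E] [Field Ω] [IsAlgClosed Ω] [Algebra L F] [Algebra L E]
    [Algebra F E] [IsScalarTower L F E] [Algebra L Ω] [Algebra F Ω] [Algebra E Ω]
    [IsScalarTower L E Ω] [IsScalarTower F E Ω] [IsScalarTower L F Ω] (j : F)
    (hjtr : ∀ p : L[X], aeval j p = 0 → p = 0)
    (hfin : FiniteDimensional ↥(IntermediateField.adjoin L {j}) F)
    (hH : ∀ P : Place L F,
      (P.ord j < 0 → -(P.ord j) ∣ (N : ℤ)) ∧
      (0 < P.ord j → P.ord j ∣ 3) ∧
      (0 < P.ord (j - 1728) → P.ord (j - 1728) ∣ 2) ∧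
      ∀ g : L[X], Irreducible g → ¬ g ∣ X * (X - C 1728) → P.ord (aeval j g) ≤ 1)
    (t : E) (hgen : IntermediateField.adjoin F {t} = ⊤)
    (htr : ∀ p : L[X], aeval t p = 0 → p = 0)
    (hjrat : ∃ p q : L[X], q ≠ 0 ∧ aeval t q * algebraMap F E j = aeval t p)
    (g : L[X]) (hg : Irreducible g)
    (C0 : RegAt t g (algebraMap F E j) → ∃ a u v : E, RegAt t g a ∧ RegAt t g u ∧
      RegAt t g v ∧ u * v = 1 ∧ algebraMap F E j = u * a ^ 3)
    (C1 : RegAt t g (algebraMap F E j) → ∃ b u v : E, RegAt t g b ∧ RegAt t g u ∧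
      RegAt t g v ∧ u * v = 1 ∧ algebraMap F E j - 1728 = u * b ^ 2)
    (Cinf : ¬ RegAt t g (algebraMap F E j) → ∃ a u v : E, RegAt t g a ∧ RegAt t g u ∧
      RegAt t g v ∧ u * v = 1 ∧ (algebraMap F E j)⁻¹ = u * a ^ N)
    (V : ValuationSubring E) (hLV : ∀ a : L, algebraMap L E a ∈ V) (htV : t ∈ V)
    (hgV : aeval t g ∈ V.nonunits) (x : E) (hx : x ≠ 0) :
    ∃ (n : ℤ) (u : E), u ∈ V ∧ u⁻¹ ∈ V ∧ x = aeval t g ^ n * u := by
  obtain ⟨O, hO⟩ := h_abhtop_exists_ext E Ω V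
  set ψ := algebraMap E Ω with hψ
  set φ := algebraMap F Ω with hφ
  have hφψ : ∀ y : F, φ y = ψ (algebraMap F E y) := fun y =>
    IsScalarTower.algebraMap_apply F E Ω y
  have hLψ : ∀ a : L, algebraMap L Ω a = ψ (algebraMap L E a) := fun a =>
    IsScalarTower.algebraMap_apply L E Ω a
  have hLφ : ∀ a : L, algebraMap L Ω a = φ (algebraMap L F a) := fun a =>
    IsScalarTower.algebraMap_apply L F Ω a
  have haevψ : ∀ (p : L[X]) (z : E), aeval (ψ z) p = ψ (aeval z p) := fun p z =>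
    aeval_algebraMap_apply Ω z p
  have haevφ : ∀ (p : L[X]) (z : F), aeval (φ z) p = φ (aeval z p) := fun p z =>
    aeval_algebraMap_apply Ω z p
  have hnonunit : ∀ z : E, z ∈ V.nonunits → ψ z ∈ O.nonunits := by
    intro z hz
    rw [ValuationSubring.mem_nonunits_iff_or] at hz ⊢
    rcases hz with h | h
    · left
      rw [h, map_zero]
    · right
      rw [← map_inv₀, hO]
      exact h
  have hγ0 : aeval t g ≠ 0 := fun h => hg.ne_zero (htr g h)
  -- apply the Kummer–Abhyankar statement in `Ω`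
  have key := hMid N L Ω O φ.fieldRange (ψ t) (φ j) g hN
    (fun a => by rw [hLψ, hO]; exact hLV a)
    (fun a => ⟨algebraMap L F a, (hLφ a).symm⟩)
    ((hO t).2 htV) hg
    (by rw [haevψ]; exact hnonunit _ hgV)
    (fun p hp => by
      rw [haevψ] at hp
      exact htr p ((_root_.map_eq_zero ψ).1 hp))
    ⟨j, rfl⟩
    (fun p hp => by
      rw [haevφ] at hp
      exact hjtr p ((_root_.map_eq_zero φ).1 hp))
    (by
      obtain ⟨p, q, hq, h⟩ := hjrat
      refine ⟨p, q, hq, ?_⟩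
      rw [haevψ, haevψ, hφψ, ← map_mul, h])
    (by
      have b := Module.finBasis ↥(IntermediateField.adjoin L {j}) F
      refine ⟨_, fun i => φ (b i), ?_⟩
      rintro _ ⟨y, rfl⟩
      refine ⟨fun i => φ ((b.repr y i : ↥(IntermediateField.adjoin L {j})) : F), fun i => ?_, ?_⟩
      · exact h_abhtop_map_closure j _ (b.repr y i).2
      · conv_lhs => rw [← b.sum_repr y]
        rw [map_sum]
        refine Finset.sum_congr rfl fun i _ => ?_
        rw [Algebra.smul_def, map_mul]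
        rfl)
    (by
      rintro πw ⟨ϖ, rfl⟩ hπ0 hπn hdisc
      have hϖ0 : ϖ ≠ 0 := fun h => hπ0 (by rw [h, map_zero])
      obtain ⟨P, hP⟩ := h_abhtop_place_ext L F Ω O (fun a => by
          show φ (algebraMap L F a) ∈ O
          rw [← hLφ, hLψ, hO]; exact hLV a) ϖ hϖ0 hπn
        (fun y hy => hdisc (φ y) ⟨y, rfl⟩ ((_root_.map_ne_zero φ).2 hy))
      obtain ⟨h1, h2, h3, h4⟩ := hH P
      have hv0 : 0 < O.valuation (φ ϖ) := h_abhtop_val_pos O hπ0
      have hv1 : O.valuation (φ ϖ) < 1 := O.mem_nonunits_iff.1 hπn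
      refine ⟨fun hj => ?_, fun hj => ?_, fun hj => ?_, fun π hπ hπd hj => ?_⟩
      · have hj0 : j ≠ 0 := by
          rintro rfl
          exact hj (by rw [map_zero]; exact O.zero_mem)
        obtain ⟨hval, u, hu, hui, hju⟩ := hP j hj0
        have hneg : P.ord j < 0 := by
          by_contra hge
          push Not at hge
          apply hj
          rw [← O.valuation_le_one_iff, hval]
          exact (zpow_le_one_iff_right_of_lt_one₀ hv0 hv1).2 hge
        have hm : ((-(P.ord j)).toNat : ℤ) = -(P.ord j) := Int.toNat_of_nonneg (by omega)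
        refine ⟨(-(P.ord j)).toNat, u⁻¹, ?_, hui, by rw [inv_inv]; exact hu, ?_⟩
        · rw [← Int.natCast_dvd_natCast, hm]
          exact h1 hneg
        · rw [← zpow_natCast, hm, hju, mul_inv, zpow_neg]
      · exact h_abhtop_hz_aux O ϖ hϖ0 hπn P hP j 3 h2 hj
      · have hj' : algebraMap F Ω (j - 1728) ∈ O.nonunits := by
          have : algebraMap F Ω (j - 1728) = φ j - 1728 := by
            rw [map_sub, map_ofNat]
          rw [this]
          exact hj
        obtain ⟨m, u, hm, hu, hui, h⟩ := h_abhtop_hz_aux O ϖ hϖ0 hπn P hP (j - 1728) 2 h3 hj'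
        refine ⟨m, u, hm, hu, hui, ?_⟩
        rw [← h, map_sub, map_ofNat]
      · have hj' : algebraMap F Ω (aeval j π) ∈ O.nonunits := by
          rw [← haevφ]
          exact hj
        have hk : 0 < P.ord (aeval j π) → P.ord (aeval j π) ∣ ((1 : ℕ) : ℤ) := by
          intro hpos
          have hle := h4 π hπ hπd
          have : P.ord (aeval j π) = 1 := by omega
          rw [this]
          exact one_dvd _
        obtain ⟨m, u, hm, hu, hui, h⟩ :=
          h_abhtop_hz_aux O ϖ hϖ0 hπn P hP (aeval j π) 1 hk hj'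
        refine ⟨u, hu, hui, ?_⟩
        rw [haevφ, h, Nat.dvd_one.1 hm, pow_one])
    (by
      intro h
      rw [hφψ, h_abhtop_regAt_map] at h
      obtain ⟨a, u, v, ha, hu, hv, huv, hj⟩ := C0 h
      exact ⟨ψ a, ψ u, ψ v, (h_abhtop_regAt_map t g a).2 ha, (h_abhtop_regAt_map t g u).2 hu,
        (h_abhtop_regAt_map t g v).2 hv, by rw [← map_mul, huv, map_one],
        by rw [hφψ, hj, map_mul, map_pow]⟩)
    (by
      intro h
      rw [hφψ, h_abhtop_regAt_map] at h
      obtain ⟨a, u, v, ha, hu, hv, huv, hj⟩ := C1 h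
      exact ⟨ψ a, ψ u, ψ v, (h_abhtop_regAt_map t g a).2 ha, (h_abhtop_regAt_map t g u).2 hu,
        (h_abhtop_regAt_map t g v).2 hv, by rw [← map_mul, huv, map_one],
        by rw [← map_pow, ← map_mul, ← hj, map_sub, map_ofNat, hφψ]⟩)
    (by
      intro h
      rw [hφψ, h_abhtop_regAt_map] at h
      obtain ⟨a, u, v, ha, hu, hv, huv, hj⟩ := Cinf h
      exact ⟨ψ a, ψ u, ψ v, (h_abhtop_regAt_map t g a).2 ha, (h_abhtop_regAt_map t g u).2 hu,
        (h_abhtop_regAt_map t g v).2 hv, by rw [← map_mul, huv, map_one],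
        by rw [hφψ, ← map_inv₀, hj, map_mul, map_pow]⟩)
  -- the image of `E` lies in the closure of `F' ∪ {t'}`
  have hxmem : ψ x ∈ Subfield.closure ((φ.fieldRange : Set Ω) ∪ {ψ t}) := by
    have hxE : x ∈ IntermediateField.adjoin F {t} := by
      rw [hgen]
      exact IntermediateField.mem_top
    have h := h_abhtop_map_closure (K := F) (A := E) (B := Ω) t x hxE
    rw [RingHom.coe_fieldRange]
    exact h
  obtain ⟨n, u', hu', hui', hxu⟩ := key (ψ x) hxmem ((_root_.map_ne_zero ψ).2 hx)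
  rw [haevψ] at hxu
  have hzn : aeval t g ^ n ≠ 0 := zpow_ne_zero n hγ0
  have hψu : ψ (x * (aeval t g ^ n)⁻¹) = u' := by
    rw [map_mul, map_inv₀, map_zpow₀, hxu, mul_comm _ u',
      mul_inv_cancel_right₀ (zpow_ne_zero n ((_root_.map_ne_zero ψ).2 hγ0))]
  refine ⟨n, x * (aeval t g ^ n)⁻¹, ?_, ?_, ?_⟩
  · rw [← hO, hψu]
    exact hu'
  · rw [← hO, map_inv₀, hψu]
    exact hui'
  · rw [mul_comm x, mul_inv_cancel_left₀ hzn]

theorem h_abhtop_main : FinLStatement → h_AbhMidStatement → h_AbhValStatement := by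
  intro hFin hMid N _ L _ _ hH E _ _ _ _ t hgen htr hjrat g hg C0 C1 Cinf V hLV htV hgV x hx
  have : CharZero L := charZero_of_injective_algebraMap (algebraMap ℚ L).injective
  obtain ⟨hjtr, hfin⟩ := hFin N L
  exact h_abhtop_abs hMid N (Nat.pos_of_ne_zero (NeZero.ne N)) L ↥(FL L N) E (AlgebraicClosure E)
    (jF L N) (fun p hp => by
      by_contra hp0
      exact hjtr ⟨p, hp0, hp⟩) hfin hH t hgen htr hjrat g hg C0 C1 Cinf V hLV htV hgV x hx

end

end Fermat.Agent.S18
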