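/-
S18, block H — package DiscAbs (helper412).
Integral closure of a DVR in a finite extension of its fraction field; if every valuation subring
dominating the DVR is discrete with the same uniformiser, the discriminant of an integral basis is a
unit.  Deliverable: `h_discabs_main : h_DiscRedStatement → h_DiscAbsStatement`.
-/
import Fermat.Agent.S18.HInterfaces

set_option autoImplicit false

open scoped nonZeroDivisors

namespace Fermat.Agent.S18

/-- An element of a field `E` lying in every valuation subring of `E` that contains the integral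
closure of `R` is integral over `R`. -/
theorem h_discabs_mem_integralClosure (R E : Type) [CommRing R] [Field E] [Algebra R E] (z : E)
    (h : ∀ V : ValuationSubring E, (∀ b ∈ integralClosure R E, b ∈ V) → z ∈ V) :
    z ∈ integralClosure R E := by
  by_contra hz
  have hz' : z ∉ (integralClosure R E).toSubring := hz
  have : IsIntegrallyClosedIn ↥(integralClosure R E).toSubring E :=
    inferInstanceAs (IsIntegrallyClosedIn ↥(integralClosure R E) E)
  obtain ⟨V, hV, hzV⟩ := Subring.exists_le_valuationSubring_of_isIntegrallyClosedIn hz'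
  exact hzV (h V fun b hb => hV hb)

/-- The valuative computation: if `x ^ n = p * y` with `x, y` in a valuation subring `V` which is
discrete with uniformiser `p` (or in which `p` is a unit), then `x * p⁻¹ ∈ V`. -/
theorem h_discabs_div_mem (E : Type) [Field E] (V : ValuationSubring E) (p x y : E) (n : ℕ)
    (hp : p ∈ V) (hx : x ∈ V) (hy : y ∈ V) (hxy : x ^ n = p * y)
    (hV : p ∈ V.nonunits →
      ∀ x : E, x ≠ 0 → ∃ (n : ℤ) (u : E), u ∈ V ∧ u⁻¹ ∈ V ∧ x = p ^ n * u) :
    x * p⁻¹ ∈ V := by
  by_cases hpinv : p⁻¹ ∈ V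
  · exact V.mul_mem _ _ hx hpinv
  have hp0 : p ≠ 0 := by
    rintro rfl
    exact hpinv (by simp)
  have hpn : p ∈ V.nonunits := V.mem_nonunits_iff_or.mpr (Or.inr hpinv)
  by_cases hx0 : x = 0
  · subst hx0
    simp
  obtain ⟨k, u, hu, hu', hxu⟩ := hV hpn x hx0
  have hu0 : u ≠ 0 := by
    rintro rfl
    exact hx0 (by simpa using hxu)
  by_cases hk : 1 ≤ k
  · -- `x * p⁻¹ = p ^ (k - 1) * u`
    obtain ⟨m, rfl⟩ : ∃ m : ℕ, k = m + 1 := ⟨(k - 1).toNat, by omega⟩
    have : x * p⁻¹ = p ^ m * u := by
      rw [hxu, zpow_add₀ hp0, zpow_one, zpow_natCast]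
      field_simp
    rw [this]
    exact V.mul_mem _ _ (pow_mem hp m) hu
  · -- `x⁻¹ ∈ V`, hence `p⁻¹ = y * (x⁻¹) ^ n ∈ V`: contradiction
    exfalso
    obtain ⟨m, hm⟩ : ∃ m : ℕ, -k = m := ⟨(-k).toNat, by omega⟩
    have hxinv : x⁻¹ = p ^ m * u⁻¹ := by
      rw [hxu, mul_inv, ← zpow_neg, hm, zpow_natCast]
    have hxinvV : x⁻¹ ∈ V := by
      rw [hxinv]
      exact V.mul_mem _ _ (pow_mem hp m) hu'
    apply hpinv
    have : p⁻¹ = y * (x⁻¹) ^ n := by
      have hxn : x ^ n ≠ 0 := pow_ne_zero n hx0
      have hy0 : y ≠ 0 := right_ne_zero_of_mul (hxy ▸ hxn)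
      rw [inv_pow, hxy]
      field_simp
    rw [this]
    exact V.mul_mem _ _ hy (pow_mem hxinvV n)

theorem h_discabs_main : h_DiscRedStatement → h_DiscAbsStatement := by
  intro hDR R K E _ _ _ _ _ _ _ _ _ _ _ _ ϖ hϖ hnat hV
  classical
  -- the integral closure
  let B : Subalgebra R E := integralClosure R E
  have : Algebra.IsSeparable K E := inferInstance
  have : Module.IsTorsionFree R E := .trans_faithfulSMul R K E
  have : Module.Finite R ↥B := IsIntegralClosure.finite R K E ↥B
  have : Module.Free R ↥B := IsIntegralClosure.module_free R K E ↥B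
  have : IsLocalization (Algebra.algebraMapSubmonoid ↥B R⁰) E :=
    IsIntegralClosure.isLocalization R K E ↥B
  -- reducedness of `B / ϖ B`
  have hinj : Function.Injective (algebraMap R E) := by
    rw [IsScalarTower.algebraMap_eq R K E]
    exact (algebraMap K E).injective.comp (IsFractionRing.injective R K)
  have hp0 : algebraMap R E ϖ ≠ 0 := by
    rw [Ne, map_eq_zero_iff _ hinj]
    exact hϖ.ne_zero
  have hred : ∀ (x : ↥B) (n : ℕ), (∃ y : ↥B, x ^ n = algebraMap R ↥B ϖ * y) →
      ∃ y : ↥B, x = algebraMap R ↥B ϖ * y := by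
    rintro x n ⟨y, hxy⟩
    have hxyE : (x : E) ^ n = algebraMap R E ϖ * (y : E) := by
      have := congrArg (Subtype.val : ↥B → E) hxy
      simpa using this
    have hz : (x : E) * (algebraMap R E ϖ)⁻¹ ∈ integralClosure R E := by
      apply h_discabs_mem_integralClosure
      intro V hBV
      have hRV : ∀ r : R, algebraMap R E r ∈ V := fun r =>
        hBV _ (Subalgebra.algebraMap_mem _ r)
      exact h_discabs_div_mem E V _ _ _ n (hRV ϖ) (hBV _ x.2) (hBV _ y.2) hxyE (hV V hRV)
    refine ⟨⟨_, hz⟩, ?_⟩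
    apply Subtype.ext
    show (x : E) = algebraMap R E ϖ * ((x : E) * (algebraMap R E ϖ)⁻¹)
    field_simp
  -- the basis
  let b : Module.Basis (Fin (Module.finrank R ↥B)) R ↥B := Module.finBasis R ↥B
  have hunit : IsUnit (Algebra.discr R b) := hDR R ↥B ϖ hϖ hnat hred _ b
  let c : Module.Basis (Fin (Module.finrank R ↥B)) K E := b.localizationLocalization K R⁰ E
  refine ⟨Module.finrank R ↥B, ⇑c, c.linearIndependent, c.span_eq, fun i => ?_,
    Algebra.discr R b, hunit, ?_⟩
  · have : c i = algebraMap ↥B E (b i) := Module.Basis.localizationLocalization_apply K R⁰ E b i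
    rw [this]
    exact (b i).2
  · exact (Algebra.discr_localizationLocalization R R⁰ E b).symm

end Fermat.Agent.S18
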