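/-
S18, block H — package DiscConc (twin T): from the abstract DVR discriminant statement
`h_DiscAbsStatement` to the concrete statement `h_DiscUnitStatement` for `L[t]_(g) ⊂ L(t) ⊂ E`.
-/
import Fermat.Agent.S18.HInterfaces

set_option autoImplicit false

open Polynomial

namespace Fermat.Agent.S18

/-- Core step: all auxiliary algebra structures are given as instance arguments. `R` is a
localisation of `L[X]` at the prime `(g)`, `K` a field which is the fraction field of `L[X]` through
`p ↦ p(tK)`, `E / K` finite. -/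
theorem h_discconcT_core (habs : h_DiscAbsStatement)
    (L K E R : Type) [Field L] [CharZero L] [Field K] [Field E] [Algebra L K] [Algebra K E]
    [Algebra L E] [IsScalarTower L K E] [FiniteDimensional K E]
    [CommRing R] [IsDomain R] [Algebra L[X] R] [Algebra L[X] K] [Algebra R K]
    [IsScalarTower L[X] R K] [Algebra R E] [IsScalarTower R K E] [Algebra L[X] E]
    [IsScalarTower L[X] R E] [IsFractionRing L[X] K]
    (tK : K) (g : L[X]) (hg : Irreducible g) [hP : (Ideal.span {g} : Ideal L[X]).IsPrime]
    [IsLocalization.AtPrime R (Ideal.span {g} : Ideal L[X])]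
    (hXE : ∀ p : L[X], algebraMap L[X] E p = aeval (algebraMap K E tK) p)
    (HV : ∀ V : ValuationSubring E, (∀ a : L, algebraMap L E a ∈ V) → algebraMap K E tK ∈ V →
      aeval (algebraMap K E tK) g ∈ V.nonunits →
      ∀ x : E, x ≠ 0 → ∃ (n : ℤ) (u : E), u ∈ V ∧ u⁻¹ ∈ V ∧
        x = aeval (algebraMap K E tK) g ^ n * u) :
    ∃ (r : ℕ) (c : Fin r → E), LinearIndependent K c ∧ Submodule.span K (Set.range c) = ⊤ ∧
      (∀ i, ∃ s : L[X], ¬ g ∣ s ∧
        IsIntegral ↥(Algebra.adjoin L {algebraMap K E tK}) (aeval (algebraMap K E tK) s * c i)) ∧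
      ∃ a s : L[X], ¬ g ∣ a ∧ ¬ g ∣ s ∧
        aeval (algebraMap K E tK) s * algebraMap K E (Algebra.discr K c) =
          aeval (algebraMap K E tK) a := by
  classical
  have hPbot : (Ideal.span {g} : Ideal L[X]) ≠ ⊥ := by
    simp [hg.ne_zero]
  have : IsDiscreteValuationRing R :=
    IsLocalization.AtPrime.isDiscreteValuationRing_of_dedekind_domain L[X] hPbot R
  have : IsFractionRing R K :=
    IsFractionRing.isFractionRing_of_isDomain_of_isLocalization
      (Ideal.span {g} : Ideal L[X]).primeCompl R K
  have : CharZero K := charZero_of_injective_algebraMap (algebraMap L K).injective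
  -- the uniformiser
  have hϖ : Irreducible (algebraMap L[X] R g) := by
    rw [IsDiscreteValuationRing.irreducible_iff_uniformizer,
      ← IsLocalization.AtPrime.map_eq_maximalIdeal (Ideal.span {g} : Ideal L[X]) R,
      Ideal.map_span, Set.image_singleton]
  -- naturals are units
  have hnat : ∀ n : ℕ, n ≠ 0 → IsUnit (n : R) := by
    intro n hn
    have h1 : IsUnit ((n : L[X])) := by
      have : (n : L[X]) = C (n : L) := by simp
      rw [this]
      exact Polynomial.isUnit_C.2 (IsUnit.mk0 _ (Nat.cast_ne_zero.2 hn))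
    have h2 := h1.map (algebraMap L[X] R)
    simpa using h2
  -- the structure map on polynomials
  have key : ∀ p : L[X], algebraMap R E (algebraMap L[X] R p) = aeval (algebraMap K E tK) p := by
    intro p
    rw [← IsScalarTower.algebraMap_apply, hXE]
  obtain ⟨r, c, hli, hspan, hint, d, hd, hdisc⟩ :=
    habs R K E (algebraMap L[X] R g) hϖ hnat (by
      intro V hV hnu x hx
      rw [key] at hnu ⊢
      refine HV V ?_ ?_ hnu x hx
      · intro a
        have := hV (algebraMap L[X] R (C a))
        rwa [key, aeval_C] at this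
      · have := hV (algebraMap L[X] R X)
        rwa [key, aeval_X] at this)
  refine ⟨r, c, hli, hspan, ?_, ?_⟩
  · intro i
    obtain ⟨m, hm⟩ := IsIntegral.exists_multiple_integral_of_isLocalization
      (Ideal.span {g} : Ideal L[X]).primeCompl (c i) (hint i)
    refine ⟨(m : L[X]), fun hdiv => m.2 (Ideal.mem_span_singleton.2 hdiv), ?_⟩
    rw [Submonoid.smul_def, Algebra.smul_def, hXE] at hm
    have h := IsIntegral.map_of_comp_eq (R := L[X]) (S := E)
      (T := ↥(Algebra.adjoin L {algebraMap K E tK})) (U := E)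
      ((aeval (⟨algebraMap K E tK, Algebra.self_mem_adjoin_singleton L _⟩ :
        ↥(Algebra.adjoin L {algebraMap K E tK})) : L[X] →ₐ[L] _) : L[X] →+* _)
      (RingHom.id E) (by
        ext p
        · simp [hXE]
        · simp [hXE]) hm
    simpa using h
  · obtain ⟨a, s, rfl⟩ := IsLocalization.exists_mk'_eq
      (Ideal.span {g} : Ideal L[X]).primeCompl d
    have ha : a ∈ (Ideal.span {g} : Ideal L[X]).primeCompl :=
      (IsLocalization.AtPrime.isUnit_mk'_iff R (Ideal.span {g} : Ideal L[X]) a s).1 hd
    refine ⟨a, (s : L[X]), fun hdiv => ha (Ideal.mem_span_singleton.2 hdiv),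
      fun hdiv => s.2 (Ideal.mem_span_singleton.2 hdiv), ?_⟩
    rw [← hdisc, ← IsScalarTower.algebraMap_apply R K E, ← key, ← key, ← map_mul, mul_comm,
      IsLocalization.mk'_spec]

/-- Middle step: `K` an abstract copy of `L(t)`; the auxiliary algebra structures are built here. -/
theorem h_discconcT_mid (habs : h_DiscAbsStatement)
    (L K E : Type) [Field L] [CharZero L] [Field K] [Field E] [Algebra L K] [Algebra K E]
    [Algebra L E] [IsScalarTower L K E] [FiniteDimensional K E]
    (tK : K) (g : L[X]) (hg : Irreducible g)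
    (htr : ∀ p : L[X], aeval tK p = 0 → p = 0)
    (hsurj : ∀ z : K, ∃ p q : L[X], z = aeval tK p / aeval tK q)
    (HV : ∀ V : ValuationSubring E, (∀ a : L, algebraMap L E a ∈ V) → algebraMap K E tK ∈ V →
      aeval (algebraMap K E tK) g ∈ V.nonunits →
      ∀ x : E, x ≠ 0 → ∃ (n : ℤ) (u : E), u ∈ V ∧ u⁻¹ ∈ V ∧
        x = aeval (algebraMap K E tK) g ^ n * u) :
    ∃ (r : ℕ) (c : Fin r → E), LinearIndependent K c ∧ Submodule.span K (Set.range c) = ⊤ ∧
      (∀ i, ∃ s : L[X], ¬ g ∣ s ∧
        IsIntegral ↥(Algebra.adjoin L {algebraMap K E tK}) (aeval (algebraMap K E tK) s * c i)) ∧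
      ∃ a s : L[X], ¬ g ∣ a ∧ ¬ g ∣ s ∧
        aeval (algebraMap K E tK) s * algebraMap K E (Algebra.discr K c) =
          aeval (algebraMap K E tK) a := by
  classical
  have hP : (Ideal.span {g} : Ideal L[X]).IsPrime :=
    (Ideal.span_singleton_prime hg.ne_zero).2 hg.prime
  have hinj : Function.Injective ((aeval tK : L[X] →ₐ[L] K) : L[X] →+* K) :=
    (injective_iff_map_eq_zero _).2 (fun p hp => htr p hp)
  let algXK : Algebra L[X] K := ((aeval tK : L[X] →ₐ[L] K) : L[X] →+* K).toAlgebra
  have hXK : ∀ p : L[X], algebraMap L[X] K p = aeval tK p := fun _ => rfl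
  have hunit : ∀ y : (Ideal.span {g} : Ideal L[X]).primeCompl,
      IsUnit (((aeval tK : L[X] →ₐ[L] K) : L[X] →+* K) y) := by
    intro y
    refine IsUnit.mk0 _ (fun h0 => ?_)
    have hy : (y : L[X]) = 0 := htr _ h0
    exact y.2 (hy ▸ Ideal.zero_mem _)
  let algRK : Algebra (Localization.AtPrime (Ideal.span {g} : Ideal L[X])) K :=
    (IsLocalization.lift hunit).toAlgebra
  have hRK : ∀ p : L[X], algebraMap (Localization.AtPrime (Ideal.span {g} : Ideal L[X])) K
      (algebraMap L[X] (Localization.AtPrime (Ideal.span {g} : Ideal L[X])) p) = aeval tK p :=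
    fun p => IsLocalization.lift_eq hunit p
  have : IsScalarTower L[X] (Localization.AtPrime (Ideal.span {g} : Ideal L[X])) K :=
    IsScalarTower.of_algebraMap_eq (fun p => (hRK p).symm)
  have : FaithfulSMul L[X] K := (faithfulSMul_iff_algebraMap_injective _ _).2 hinj
  have : IsFractionRing L[X] K := IsFractionRing.of_field L[X] K (fun z => hsurj z)
  let algRE : Algebra (Localization.AtPrime (Ideal.span {g} : Ideal L[X])) E :=
    ((algebraMap K E).comp
      (algebraMap (Localization.AtPrime (Ideal.span {g} : Ideal L[X])) K)).toAlgebra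
  have : IsScalarTower (Localization.AtPrime (Ideal.span {g} : Ideal L[X])) K E :=
    IsScalarTower.of_algebraMap_eq (fun _ => rfl)
  let algXE : Algebra L[X] E :=
    ((aeval (algebraMap K E tK) : L[X] →ₐ[L] E) : L[X] →+* E).toAlgebra
  have hXE : ∀ p : L[X], algebraMap L[X] E p = aeval (algebraMap K E tK) p := fun _ => rfl
  have : IsScalarTower L[X] (Localization.AtPrime (Ideal.span {g} : Ideal L[X])) E :=
    IsScalarTower.of_algebraMap_eq (fun p => by
      rw [hXE]
      show _ = algebraMap K E (algebraMap (Localization.AtPrime (Ideal.span {g} : Ideal L[X])) K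
        (algebraMap L[X] (Localization.AtPrime (Ideal.span {g} : Ideal L[X])) p))
      rw [hRK, aeval_algebraMap_apply])
  exact h_discconcT_core habs L K E (Localization.AtPrime (Ideal.span {g} : Ideal L[X]))
    tK g hg hXE HV

/-- **Package DiscConc**: the abstract DVR discriminant statement implies the concrete statement
for `L[t]_(g) ⊂ L(t) ⊂ E`. -/
theorem h_discconcT_main : h_DiscAbsStatement → h_DiscUnitStatement := by
  intro habs L E _ _ _ _ t g hg htr hfin HV
  have := hfin
  have hcoe : ∀ p : L[X],
      ((aeval (⟨t, IntermediateField.mem_adjoin_simple_self L t⟩ :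
        ↥(IntermediateField.adjoin L {t})) p : ↥(IntermediateField.adjoin L {t})) : E) =
        aeval t p := fun p => by
    have h := aeval_algebraMap_apply E (⟨t, IntermediateField.mem_adjoin_simple_self L t⟩ :
      ↥(IntermediateField.adjoin L {t})) p
    exact h.symm
  have hres := h_discconcT_mid habs L ↥(IntermediateField.adjoin L {t}) E
    ⟨t, IntermediateField.mem_adjoin_simple_self L t⟩ g hg
    (fun p hp => htr p (by rw [← hcoe p, hp]; rfl))
    (fun z => by
      obtain ⟨p, q, hpq⟩ := (IntermediateField.mem_adjoin_simple_iff L (z : E)).1 z.2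
      refine ⟨p, q, Subtype.ext ?_⟩
      rw [hpq]
      push_cast
      rw [hcoe, hcoe])
    HV
  exact hres

end Fermat.Agent.S18
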