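/-
S18, block H, package DiscRed (twin T): discriminant of a finite free algebra over a DVR with reduced
special fibre and residue characteristic `0` is a unit.
-/
import Fermat.Agent.S18.HInterfaces

set_option autoImplicit false

namespace Fermat.Agent.S18

open IsLocalRing

/-- Key lemma: in a reduced finite-dimensional algebra over a field of characteristic `0`, an element
orthogonal to everything for the trace form is zero. -/
theorem h_discredT_key (κ C : Type*) [Field κ] [CharZero κ] [CommRing C] [Algebra κ C]
    [Module.Finite κ C] [IsReduced C] (x : C) (hx : ∀ y : C, Algebra.trace κ C (x * y) = 0) :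
    x = 0 := by
  have : IsArtinianRing C := IsArtinianRing.of_finite κ C
  obtain ⟨n, y, hy⟩ := IsArtinian.exists_pow_succ_smul_dvd x (1 : C)
  simp only [smul_eq_mul, mul_one] at hy
  -- hy : x ^ (n+1) * y = x ^ n
  have h1 : x ^ n * (1 - x * y) = 0 := by
    have : x ^ n * (1 - x * y) = x ^ n - x ^ (n + 1) * y := by ring
    rw [this, hy, sub_self]
  have hgen : ∀ a : C, x ^ n * a = 0 → (x * a) ^ (n + 1) = 0 := by
    intro a ha
    have : (x * a) ^ (n + 1) = x * (x ^ n * a) * a ^ n := by ring
    rw [this, ha, mul_zero, zero_mul]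
  have h2 : (x * (1 - x * y)) ^ (n + 1) = 0 := hgen _ h1
  have h3 : x * (1 - x * y) = 0 := (pow_eq_zero_iff (Nat.succ_ne_zero n)).mp h2
  have h4 : x = x * (x * y) := by
    have : x * (1 - x * y) = x - x * (x * y) := by ring
    rw [this, sub_eq_zero] at h3
    exact h3
  have he : IsIdempotentElem (x * y) := by
    change x * y * (x * y) = x * y
    calc x * y * (x * y) = x * (x * y) * y := by ring
      _ = x * y := by rw [← h4]
  have he' : IsIdempotentElem (Algebra.lmul κ C (x * y)) := by
    change Algebra.lmul κ C (x * y) * Algebra.lmul κ C (x * y) = Algebra.lmul κ C (x * y)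
    rw [← map_mul, he.eq]
  have htr : LinearMap.trace κ C (Algebra.lmul κ C (x * y)) = 0 := by
    rw [← Algebra.trace_apply]
    exact hx y
  have h5 : Algebra.lmul κ C (x * y) = 0 := LinearMap.IsIdempotentElem.eq_zero_of_trace_eq_zero he' htr
  have h6 : x * y = 0 := by
    have := congrArg (fun f : C →ₗ[κ] C => f 1) h5
    simpa using this
  rw [h4, h6, mul_zero]

/-- The discriminant of a basis of a reduced finite-dimensional algebra over a field of
characteristic `0` is nonzero. -/
theorem h_discredT_discr_ne_zero (κ C : Type*) [Field κ] [CharZero κ] [CommRing C] [Algebra κ C]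
    [IsReduced C] {ι : Type*} [Fintype ι] [DecidableEq ι] (b : Module.Basis ι κ C) :
    Algebra.discr κ b ≠ 0 := by
  have : Module.Finite κ C := Module.Finite.of_basis b
  intro h0
  rw [Algebra.discr_def] at h0
  obtain ⟨v, hv, hv0⟩ := Matrix.exists_mulVec_eq_zero_iff.mpr h0
  apply hv
  set x : C := b.equivFun.symm v with hxdef
  have hvx : v = b.equivFun x := (b.equivFun.apply_symm_apply v).symm
  rw [hvx, Algebra.traceMatrix_of_basis_mulVec] at hv0
  have hx : ∀ y : C, Algebra.trace κ C (x * y) = 0 := by
    intro y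
    rw [← b.sum_repr y, Finset.mul_sum, map_sum]
    refine Finset.sum_eq_zero fun i _ => ?_
    rw [mul_smul_comm, map_smul, show Algebra.trace κ C (x * b i) = 0 from congrFun hv0 i,
      smul_zero]
  have hx0 : x = 0 := h_discredT_key κ C x hx
  rw [hvx, hx0, map_zero]

/-- Compatibility of the discriminant with reduction modulo the maximal ideal. -/
theorem h_discredT_discr_quot (R S : Type*) [CommRing R] [IsLocalRing R] [CommRing S] [Algebra R S]
    [Module.Free R S] [Module.Finite R S] {ι : Type*} [Fintype ι] [DecidableEq ι]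
    (b : Module.Basis ι R S) :
    Algebra.discr (R ⧸ maximalIdeal R) (basisQuotient b) =
      Ideal.Quotient.mk (maximalIdeal R) (Algebra.discr R b) := by
  rw [Algebra.discr_def, Algebra.discr_def, RingHom.map_det]
  congr 1
  ext i j
  simp only [Algebra.traceMatrix_apply, Algebra.traceForm_apply, basisQuotient_apply,
    RingHom.mapMatrix_apply, Matrix.map_apply, ← map_mul]
  exact Algebra.trace_quotient_mk (b i * b j)

theorem h_discredT_main : h_DiscRedStatement := by
  intro R S _ _ _ _ _ _ _ ϖ hϖ hunit hred r b
  classical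
  let _ : Field (R ⧸ maximalIdeal R) := Ideal.Quotient.field (maximalIdeal R)
  have hmax : maximalIdeal R = Ideal.span {ϖ} := hϖ.maximalIdeal_eq
  have hmap : (maximalIdeal R).map (algebraMap R S) = Ideal.span {algebraMap R S ϖ} := by
    rw [hmax, Ideal.map_span, Set.image_singleton]
  have : CharZero (R ⧸ maximalIdeal R) := by
    refine charZero_of_inj_zero fun n hn => ?_
    by_contra hn0
    have h1 : IsUnit (n : R) := hunit n hn0
    have h2 : (n : R) ∈ maximalIdeal R := by
      rw [← Ideal.Quotient.eq_zero_iff_mem, map_natCast]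
      exact hn
    exact (IsLocalRing.notMem_maximalIdeal.mpr h1) h2
  have : IsReduced (S ⧸ (maximalIdeal R).map (algebraMap R S)) := by
    refine ⟨fun x hx => ?_⟩
    obtain ⟨s, rfl⟩ := Ideal.Quotient.mk_surjective x
    obtain ⟨n, hn⟩ := hx
    rw [← map_pow, Ideal.Quotient.eq_zero_iff_mem, hmap, Ideal.mem_span_singleton'] at hn
    obtain ⟨y, hy⟩ := hn
    obtain ⟨z, hz⟩ := hred s n ⟨y, by rw [← hy, mul_comm]⟩
    rw [Ideal.Quotient.eq_zero_iff_mem, hmap, Ideal.mem_span_singleton']
    exact ⟨z, by rw [hz, mul_comm]⟩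
  have hne : Algebra.discr (R ⧸ maximalIdeal R) (basisQuotient b) ≠ 0 :=
    h_discredT_discr_ne_zero (R ⧸ maximalIdeal R) (S ⧸ (maximalIdeal R).map (algebraMap R S))
      (basisQuotient b)
  rw [h_discredT_discr_quot] at hne
  by_contra hnu
  apply hne
  rw [Ideal.Quotient.eq_zero_iff_mem]
  exact (IsLocalRing.mem_maximalIdeal _).mpr hnu

end Fermat.Agent.S18
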