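/-
S18, block H (package HHoriz): transfer of the horizontal ramification statement from `Qbar` to an
arbitrary field `L` of characteristic zero embedded in `Qbar`, and hence to every subfield of
`Qbar`.
-/
import Fermat.Agent.S18.EInterfaces
import Fermat.Agent.S24.GalBPlaces

set_option autoImplicit false

open ModularCurve AlgebraicCurve Polynomial

namespace Fermat.Agent.S18

noncomputable section

/-- The order of a finite product of nonzero elements is the sum of the orders. -/
theorem h_horiz_ord_prod {K F : Type*} [Field K] [Field F] [Algebra K F] (v : Place K F)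
    {α : Type*} (s : Finset α) (f : α → F) (hf : ∀ a ∈ s, f a ≠ 0) :
    v.ord (∏ a ∈ s, f a) = ∑ a ∈ s, v.ord (f a) := by
  classical
  induction s using Finset.induction_on with
  | empty => simp
  | insert a s ha ih =>
    rw [Finset.prod_insert ha, Finset.sum_insert ha,
      v.ord_mul (hf a (Finset.mem_insert_self a s))
        (Finset.prod_ne_zero_iff.2 fun b hb => hf b (Finset.mem_insert_of_mem hb)),
      ih fun b hb => hf b (Finset.mem_insert_of_mem hb)]

/-- A sum of integers `≤ 1`, at most one of which is positive, is `≤ 1`. -/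
theorem h_horiz_sum_le_one {α : Type*} [DecidableEq α] (s : Finset α) (f : α → ℤ)
    (h1 : ∀ a ∈ s, f a ≤ 1)
    (h2 : ∀ a ∈ s, ∀ b ∈ s, 0 < f a → 0 < f b → a = b) : ∑ a ∈ s, f a ≤ 1 := by
  by_cases h : ∃ a ∈ s, 0 < f a
  · obtain ⟨a, ha, hpos⟩ := h
    rw [← Finset.add_sum_erase s f ha]
    have h3 : ∑ b ∈ s.erase a, f b ≤ 0 := Finset.sum_nonpos fun b hb => by
      by_contra hb'
      push Not at hb'
      exact (Finset.ne_of_mem_erase hb) (h2 b (Finset.mem_of_mem_erase hb) a ha hb' hpos)
    linarith [h1 a ha]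
  · push Not at h
    exact (Finset.sum_nonpos h).trans zero_le_one

/-- Two distinct translates `j - c`, `j - c'` by constants cannot both have positive order. -/
theorem h_horiz_pos_unique {K F : Type*} [Field K] [Field F] [Algebra K F] (v : Place K F)
    (j : F) (c c' : K) (h : 0 < v.ord (j - algebraMap K F c))
    (h' : 0 < v.ord (j - algebraMap K F c')) : c = c' := by
  by_contra hne
  have hm : j - algebraMap K F c ∈ v.toValuationSubring :=
    Fermat.Agent.S24.GalB.mem_of_ord_nonneg v h.le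
  have hm' : j - algebraMap K F c' ∈ v.toValuationSubring :=
    Fermat.Agent.S24.GalB.mem_of_ord_nonneg v h'.le
  have h1 : (⟨_, hm⟩ : v.toValuationSubring) ∈ IsLocalRing.maximalIdeal v.toValuationSubring :=
    (Fermat.Agent.S24.GalB.mem_maximalIdeal_iff v _).2 (Or.inr h)
  have h2 : (⟨_, hm'⟩ : v.toValuationSubring) ∈ IsLocalRing.maximalIdeal v.toValuationSubring :=
    (Fermat.Agent.S24.GalB.mem_maximalIdeal_iff v _).2 (Or.inr h')
  have h3 := Ideal.sub_mem _ h2 h1
  rw [Fermat.Agent.S24.GalB.mem_maximalIdeal_iff] at h3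
  have h4 : (((⟨_, hm'⟩ : v.toValuationSubring) - ⟨_, hm⟩ : v.toValuationSubring) : F) =
      algebraMap K F (c - c') := by
    rw [map_sub]
    show j - algebraMap K F c' - (j - algebraMap K F c) = _
    ring
  have hcc : c - c' ≠ 0 := sub_ne_zero.2 hne
  rcases h3 with h3 | h3
  · have h5 := congrArg (Subtype.val) h3
    rw [h4] at h5
    exact hcc ((map_eq_zero (algebraMap K F)).1 h5)
  · rw [h4, Fermat.Agent.S24.GalB.ord_algebraMap] at h3
    exact lt_irrefl _ h3

/-- Abstract form of the fourth clause over an algebraically closed constant field. -/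
theorem h_horiz_ord_aeval_le_one {K F : Type*} [Field K] [IsAlgClosed K] [Field F] [Algebra K F]
    (v : Place K F) (j : F) (hj : ∀ c : K, j ≠ algebraMap K F c) (G : K[X]) (hG : G.Separable)
    (h : ∀ c : K, G.IsRoot c → v.ord (j - algebraMap K F c) ≤ 1) :
    v.ord (aeval j G) ≤ 1 := by
  classical
  have hG0 : G ≠ 0 := hG.ne_zero
  have hprod := (IsAlgClosed.splits G).eq_prod_roots
  have hnodup : G.roots.Nodup := nodup_roots hG
  set s : Finset K := ⟨G.roots, hnodup⟩ with hs
  have hmem : ∀ c, c ∈ s ↔ G.IsRoot c := by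
    intro c
    rw [hs, Finset.mem_mk, mem_roots hG0]
  have hprod' : G = C G.leadingCoeff * ∏ c ∈ s, (X - C c) := by
    rw [hs, Finset.prod_mk]
    exact hprod
  have hev : aeval j G = algebraMap K F G.leadingCoeff * ∏ c ∈ s, (j - algebraMap K F c) := by
    conv_lhs => rw [hprod']
    simp [map_prod]
  have hlc : algebraMap K F G.leadingCoeff ≠ 0 := by
    rw [Ne, map_eq_zero, leadingCoeff_eq_zero]
    exact hG0
  have hne : ∀ c ∈ s, j - algebraMap K F c ≠ 0 := fun c _ => sub_ne_zero.2 (hj c)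
  rw [hev, v.ord_mul hlc (Finset.prod_ne_zero_iff.2 hne), Fermat.Agent.S24.GalB.ord_algebraMap,
    zero_add, h_horiz_ord_prod v s _ hne]
  exact h_horiz_sum_le_one s _ (fun c hc => h c ((hmem c).1 hc))
    (fun c _ c' _ hc hc' => h_horiz_pos_unique v j c c' hc hc')

/-- The coefficientwise embedding `F_L → F_Qbar` as a ring homomorphism (given (E3a)). -/
def h_horiz_iotaF (hι : e_IotaStatement) (N : ℕ) [NeZero N] (L : Type) [Field L] [Algebra ℚ L]
    (ι : L →+* AlgebraicClosure ℚ) : ↥(FL L N) →+* ↥(FL (AlgebraicClosure ℚ) N) :=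
  RingHom.codRestrict ((coeffMap ι).comp (FL L N).val.toRingHom) (FL (AlgebraicClosure ℚ) N)
    (fun x => hι N L ι _ x.2)

theorem h_horiz_iotaF_coe (hι : e_IotaStatement) (N : ℕ) [NeZero N] (L : Type) [Field L]
    [Algebra ℚ L] (ι : L →+* AlgebraicClosure ℚ) (x : ↥(FL L N)) :
    ((h_horiz_iotaF hι N L ι x : ↥(FL (AlgebraicClosure ℚ) N)) :
      LaurentSeries (AlgebraicClosure ℚ)) = coeffMap ι (x : LaurentSeries L) := rfl

theorem h_horiz_iotaF_jF (hι : e_IotaStatement) (N : ℕ) [NeZero N] (L : Type) [Field L]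
    [Algebra ℚ L] (ι : L →+* AlgebraicClosure ℚ) :
    h_horiz_iotaF hι N L ι (jF L N) = jF (AlgebraicClosure ℚ) N := by
  apply Subtype.ext
  rw [h_horiz_iotaF_coe, coe_jF, coe_jF, coeffMap_jqModC]

theorem h_horiz_iotaF_algebraMap (hι : e_IotaStatement) (N : ℕ) [NeZero N] (L : Type) [Field L]
    [Algebra ℚ L] (ι : L →+* AlgebraicClosure ℚ) (c : L) :
    h_horiz_iotaF hι N L ι (algebraMap L ↥(FL L N) c) =
      algebraMap (AlgebraicClosure ℚ) ↥(FL (AlgebraicClosure ℚ) N) (ι c) := by
  apply Subtype.ext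
  change coeffMap ι (algebraMap L (LaurentSeries L) c) =
    algebraMap (AlgebraicClosure ℚ) (LaurentSeries (AlgebraicClosure ℚ)) (ι c)
  rw [algebraMap_laurentSeries_eq_single, algebraMap_laurentSeries_eq_single, coeffMap_single]

theorem h_horiz_iotaF_aeval (hι : e_IotaStatement) (N : ℕ) [NeZero N] (L : Type) [Field L]
    [Algebra ℚ L] (ι : L →+* AlgebraicClosure ℚ) (g : L[X]) :
    h_horiz_iotaF hι N L ι (aeval (jF L N) g) = aeval (jF (AlgebraicClosure ℚ) N) (g.map ι) := by
  rw [aeval_def, hom_eval₂, aeval_def, eval₂_map, h_horiz_iotaF_jF]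
  congr 1
  exact RingHom.ext fun c => h_horiz_iotaF_algebraMap hι N L ι c

/-- `j` is not a constant. -/
theorem h_horiz_jF_ne_const (K : Type) [Field K] [Algebra ℚ K] (N : ℕ) [NeZero N] (c : K) :
    jF K N ≠ algebraMap K ↥(FL K N) c := by
  intro h
  have h1 := congrArg (fun x : ↥(FL K N) => (x : LaurentSeries K).coeff (-1)) h
  simp only [coe_jF] at h1
  rw [coeff_jqModC_neg_one] at h1
  change (1 : K) = (algebraMap K (LaurentSeries K) c).coeff (-1) at h1
  rw [algebraMap_laurentSeries_eq_single, HahnSeries.coeff_single_of_ne (by decide)] at h1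
  exact one_ne_zero h1

theorem h_horiz_abs : h_QbarStatement → e_ConstExtStatement → e_IotaStatement →
    h_HorizAbsStatement := by
  intro hQ hC hι N _ L _ _ ι P'
  obtain ⟨P, hP⟩ := hC N L ι P'
  set φ := h_horiz_iotaF hι N L ι with hφ
  have hord : ∀ x : ↥(FL L N), P.ord (φ x) = P'.ord x := fun x => hP x (hι N L ι _ x.2)
  obtain ⟨hq1, hq2, hq3, hq4⟩ := hQ N P
  have hj : φ (jF L N) = jF (AlgebraicClosure ℚ) N := h_horiz_iotaF_jF hι N L ι
  have hj' : φ (jF L N - 1728) = jF (AlgebraicClosure ℚ) N - 1728 := by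
    rw [map_sub, hj, map_ofNat]
  rw [← hord, ← hord (jF L N - 1728), hj, hj']
  refine ⟨hq1, hq2, hq3, fun g hg hnd => ?_⟩
  rw [← hord, hφ, h_horiz_iotaF_aeval]
  have : CharZero L := algebraRat.charZero L
  have hsep : g.Separable := hg.separable
  refine h_horiz_ord_aeval_le_one P _ (h_horiz_jF_ne_const _ N) _ hsep.map (fun c hc => ?_)
  have hroot : ∀ a : L, ι a = c → g ∣ X - C a := by
    intro a ha
    have h0 : g.IsRoot a := by
      rw [IsRoot.def, eval_map, ← ha, eval₂_hom] at hc
      exact (map_eq_zero ι).1 hc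
    have h1 : X - C a ∣ g := dvd_iff_isRoot.2 h0
    exact ((irreducible_of_degree_eq_one (degree_X_sub_C a)).associated_of_dvd hg h1).symm.dvd
  apply hq4
  · rintro rfl
    exact hnd (Dvd.dvd.mul_right (by simpa using hroot 0 (map_zero ι)) _)
  · rintro rfl
    exact hnd (Dvd.dvd.mul_left (hroot 1728 (map_ofNat ι 1728)) _)

theorem h_horiz_main : h_QbarStatement → e_ConstExtStatement → e_IotaStatement →
    HorizStatement := by
  intro h1 h2 h3 N _ L
  exact h_horiz_abs h1 h2 h3 N ↥L (algebraMap ↥L (AlgebraicClosure ℚ))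

end

end Fermat.Agent.S18
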