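/-
S18, block H, package HQbar: horizontal ramification of `j` on `X₀(N)` over `ℚ̄`.

At a place `P` of the function field of `X₀(N)` over `ℚ̄`: poles of `j` have order dividing `N`,
zeros of `j` have order dividing `3`, zeros of `j - 1728` have order dividing `2`, and `j - c` has
order at most `1` for `c ≠ 0, 1728`.  Derived from the S24 development (the modular model, a
Galois closure with an `SL(2, ℤ)`-action, and the conjugacy of the places above a given point).
-/
import Fermat.Agent.S18.EInterfaces
import Fermat.Agent.S24.ModelCounts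
import Fermat.Agent.S24.JSurj
import Fermat.Agent.S24.Conj
import Fermat.Agent.S24.JLocal
import Fermat.Agent.S24.LemmaP
import Fermat.Agent.S24.PointVal
import Fermat.Agent.S24.Places
import Fermat.Agent.S24.Zeros
import Fermat.Agent.S24.GalB
import Fermat.Agent.S24.FormalQ
import Fermat.Agent.S24.Qexp
import Fermat.Agent.S24.PreModelBuild
import Fermat.Agent.S24.ModelAlg

set_option autoImplicit false

open ModularCurve AlgebraicCurve IntermediateField
open scoped MatrixGroups

namespace Fermat.Agent.S18

noncomputable section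

open Fermat.Agent.S24 Fermat.Agent.S24.GalB

section Above

variable {K L M : Type} [Field K] [Field L] [Field M] [Algebra K L] [Algebra K M] [Algebra L M]
  [IsScalarTower K L M]

/-- For a place `W` of `M` above the place `w` of `L`, `ord_W = e * ord_w` on `L` with `e ≥ 1`. -/
theorem h_qbar_ord_above {W : Place K M} {w : Place K L} (h : IsAbove W w) :
    ∃ e : ℤ, 0 < e ∧ ∀ x : L, W.ord (algebraMap L M x) = e * w.ord x := by
  obtain ⟨π, hπ⟩ := IsDiscreteValuationRing.exists_irreducible w.toValuationSubring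
  refine ⟨W.ord (algebraMap L M (π : L)), ?_, ?_⟩
  · rw [h.ord_pos_iff, w.ord_coe_irreducible hπ]
    exact one_pos
  · intro x
    rcases eq_or_ne x 0 with rfl | hx
    · simp
    obtain ⟨u, hu⟩ := w.exists_unit_mul_zpow hx hπ
    have hπ0 : (π : L) ≠ 0 := fun h0 => hπ.ne_zero (Subtype.ext h0)
    have hu0' : ((u : w.toValuationSubring) : L) ≠ 0 := fun h0 =>
      u.ne_zero (Subtype.ext h0)
    have hinv : (((u⁻¹ : w.toValuationSubringˣ) : w.toValuationSubring) : L)
        = ((u : w.toValuationSubring) : L)⁻¹ := by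
      apply eq_inv_of_mul_eq_one_left
      have h1 : ((u⁻¹ : w.toValuationSubringˣ) : w.toValuationSubring) * (u : w.toValuationSubring)
          = 1 := by simp
      exact congrArg Subtype.val h1
    have hu0 : W.ord (algebraMap L M ((u : w.toValuationSubring) : L)) = 0 := by
      have h1 : 0 ≤ W.ord (algebraMap L M ((u : w.toValuationSubring) : L)) :=
        (h.ord_nonneg_iff _).mpr (ord_nonneg_of_mem w (u : w.toValuationSubring).2)
      have h2 : 0 ≤ W.ord (algebraMap L M
          (((u⁻¹ : w.toValuationSubringˣ) : w.toValuationSubring) : L)) :=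
        (h.ord_nonneg_iff _).mpr
          (ord_nonneg_of_mem w ((u⁻¹ : w.toValuationSubringˣ) : w.toValuationSubring).2)
      rw [hinv, map_inv₀, Place.ord_inv] at h2
      omega
    conv_lhs => rw [hu]
    rw [map_mul, map_zpow₀, W.ord_mul ((map_ne_zero _).mpr hu0') (zpow_ne_zero _ ((map_ne_zero _).mpr hπ0)),
      W.ord_zpow, hu0, zero_add, mul_comm]

end Above

section Gal

variable {K M Γ : Type} [Field K] [Field M] [Algebra K M] [Group Γ] [CharZero K]
  (act : Γ →* (M ≃ₐ[K] M))

/-- In a Galois situation with fixed field `K(s)`: the order of `s` at a place of an intermediate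
field `F' ∋ s` at which `s` vanishes divides the order of `s` at any place of `M` at which `s`
vanishes. -/
theorem h_qbar_dvd_of_pos (s : M) (hfin : Finite act.range)
    (hfix : ∀ x : M, (∀ γ : Γ, act γ x = x) ↔ x ∈ K⟮s⟯)
    (F' : IntermediateField K M) (hsF : s ∈ F') (W₀ : Place K M) (hW₀ : 0 < W₀.ord s)
    (w : Place K F') (hw : 0 < w.ord (⟨s, hsF⟩ : F')) :
    w.ord (⟨s, hsF⟩ : F') ∣ W₀.ord s := by
  have := hfin
  have hfinH := finite_map_fixer act F'
  have hH : IsGaloisGroup ((fixer act F').map act) F' M :=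
    isGaloisGroup_of_fix _ _ (fix_fixer act s hfix F' hsF)
  have hfd : FiniteDimensional F' M := IsGaloisGroup.finiteDimensional ((fixer act F').map act) F' M
  have hchar : CharZero F' := charZero_of_injective_algebraMap (algebraMap K F').injective
  obtain ⟨W, hW⟩ := exists_isAbove (K := K) (L := F') (M := M) w
  obtain ⟨e, he, hord⟩ := h_qbar_ord_above hW
  have h1 : W.ord s = e * w.ord (⟨s, hsF⟩ : F') := hord ⟨s, hsF⟩
  have hWpos : 0 < W.ord s := by
    rw [h1]
    exact mul_pos he hw
  obtain ⟨γ, hγ⟩ := exists_act_smul_eq act s hfix hW₀ hWpos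
  have h2 : W.ord s = W₀.ord s := by
    rw [← hγ]
    exact ord_act act s hfix W₀ γ
  rw [← h2, h1]
  exact Dvd.intro_left e rfl

/-- Transport of `h_qbar_dvd_of_pos` to a field `F` isomorphic to `F'`, at a finite value `c` of
`t` and at `t = ∞`. -/
theorem h_qbar_abstract (t : M) (hfin : Finite act.range)
    (hfix : ∀ x : M, (∀ γ : Γ, act γ x = x) ↔ x ∈ K⟮t⟯)
    (F' : IntermediateField K M) (htF : t ∈ F')
    {F : Type} [Field F] [Algebra K F] (θ : F ≃ₐ[K] F') (j : F) (hθ : θ j = ⟨t, htF⟩) :
    (∀ (c : K) (W₀ : Place K M), 0 < W₀.ord (t - algebraMap K M c) →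
      ∀ P : Place K F, 0 < P.ord (j - algebraMap K F c) →
        P.ord (j - algebraMap K F c) ∣ W₀.ord (t - algebraMap K M c)) ∧
    (∀ W₀ : Place K M, W₀.ord t < 0 → ∀ P : Place K F, P.ord j < 0 →
        -P.ord j ∣ -W₀.ord t) := by
  constructor
  · intro c W₀ hW₀ P hP
    have hadj := adjoin_sub_algebraMap (K := K) t c
    have hfix' : ∀ x : M, (∀ γ : Γ, act γ x = x) ↔ x ∈ K⟮t - algebraMap K M c⟯ := by
      intro x
      rw [hadj]
      exact hfix x
    have hsF : t - algebraMap K M c ∈ F' := sub_mem htF (IntermediateField.algebraMap_mem _ c)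
    have hθsub : θ (j - algebraMap K F c) = (⟨t - algebraMap K M c, hsF⟩ : F') := by
      rw [map_sub, hθ, AlgEquiv.commutes]
      rfl
    have hord : (ModelCounts.placeEquiv θ P).ord (⟨t - algebraMap K M c, hsF⟩ : F')
        = P.ord (j - algebraMap K F c) := by
      rw [← hθsub, ModelCounts.placeEquiv_ord]
    rw [← hord]
    exact h_qbar_dvd_of_pos act _ hfin hfix' F' hsF W₀ hW₀ _ (by rw [hord]; exact hP)
  · intro W₀ hW₀ P hP
    have hadj := adjoin_inv (K := K) t
    have hfix' : ∀ x : M, (∀ γ : Γ, act γ x = x) ↔ x ∈ K⟮t⁻¹⟯ := by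
      intro x
      rw [hadj]
      exact hfix x
    have hsF : t⁻¹ ∈ F' := inv_mem htF
    have hθinv : θ j⁻¹ = (⟨t⁻¹, hsF⟩ : F') := by
      rw [map_inv₀, hθ]
      rfl
    have hord : (ModelCounts.placeEquiv θ P).ord (⟨t⁻¹, hsF⟩ : F') = -P.ord j := by
      rw [← hθinv, ModelCounts.placeEquiv_ord, Place.ord_inv]
    have hW₀' : 0 < W₀.ord t⁻¹ := by
      rw [Place.ord_inv]
      omega
    have key := h_qbar_dvd_of_pos act _ hfin hfix' F' hsF W₀ hW₀' _ (by rw [hord]; omega)
    rwa [hord, Place.ord_inv] at key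

end Gal

section Modular

open CongruenceSubgroup ModularGroup

theorem h_qbar_jF_eq (N : ℕ) [NeZero N] : jF (AlgebraicClosure ℚ) N = jBar N :=
  Subtype.ext (coeffEmb_jq (AlgebraicClosure ℚ)).symm

/-- The pole order of `J` at the distinguished place at infinity of a modular model is `N`. -/
theorem h_qbar_pole_order (hG : GalStatement) (N : ℕ) [NeZero N] (m : ModularModel N)
    (W : Place Kbar m.M) (hW : W.ord m.J < 0) (hWN : - W.ord m.J ≤ (N : ℤ))
    (hT : m.act T • W = W) (hTk : ∀ k : ℕ, m.act T ^ k = 1 → N ∣ k) :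
    - W.ord m.J = (N : ℤ) := by
  obtain ⟨hcard, -⟩ := (hG Kbar m.M SL(2, ℤ) m.act m.J m.finite_range m.J_transc m.fix_iff
    m.F' m.J_mem).2.2 W hW
  have hpos : 0 < Nat.card ((placeStab m.act W).map m.act) := by
    have h0 : (0 : ℤ) < (Nat.card ((placeStab m.act W).map m.act) : ℤ) := by
      rw [hcard]
      omega
    exact_mod_cast h0
  have hfin : Finite ((placeStab m.act W).map m.act) := Nat.finite_of_card_ne_zero hpos.ne'
  have hmem : m.act T ∈ (placeStab m.act W).map m.act :=
    Subgroup.mem_map_of_mem _ ((mem_placeStab m.act W T).mpr hT)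
  have hdvd : orderOf (m.act T) ∣ Nat.card ((placeStab m.act W).map m.act) :=
    Subgroup.orderOf_dvd_natCard _ hmem
  have hN : N ∣ orderOf (m.act T) := hTk _ (pow_orderOf_eq_one _)
  have hN' : (N : ℤ) ∣ - W.ord m.J := by
    rw [← hcard]
    exact_mod_cast hN.trans hdvd
  have hle := Int.le_of_dvd (by omega) hN'
  omega

/-- (H over `Qbar`) Horizontal ramification of `j` on `X₀(N)` over `ℚ̄`. -/
theorem h_qbar_main : h_QbarStatement := by
  intro N _ P
  have hZeros : ZerosStatement := Zeros.zerosStatement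
  have hPoles : PolesStatement := Zeros.polesStatement
  have hG : GalStatement := GalB.galStatement hZeros hPoles
  have hQexp : QexpStatement := Qexp.qexpStatement
  have hJB : JBasicStatement := JLocal.jBasicStatement
  have hJO : JOrdersStatement := JLocal.jOrdersStatement
  have hJQ : JQexpStatement := FormalQ.jQexpStatement hQexp
  have hLP : LemmaPStatement := LemmaP.lemmaPStatement hJB hJQ hQexp
  have hCj : ConjStatement := Conj.conjStatement hJB hJQ hQexp
  have hJS : JSurjStatement := JSurj.jSurjStatement hJB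
  have hPV : PointValStatement := PointVal.pointValStatement
  have hPM : PreModelStatement :=
    PreModelBuild.preModelStatement hJB hJO hJS hJQ hQexp hLP hCj hPV
  have hMM : ModularModelStatement :=
    ModelAlg.modularModelStatement hPM Places.valuationPlaceStatement
  have hMC : ModelCountsStatement := ModelCounts.modelCountsStatement hG hZeros hMM
  obtain ⟨m⟩ := hMM N
  rw [h_qbar_jF_eq]
  obtain ⟨hzero, hpole⟩ := h_qbar_abstract m.act m.J m.finite_range m.fix_iff m.F' m.J_mem
    m.θ (jBar N) m.θ_j
  refine ⟨?_, ?_, ?_, ?_⟩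
  · intro hP
    obtain ⟨W, hW, hWN, hT, hTk⟩ := m.place_infty
    have hd := hpole W hW P hP
    rwa [h_qbar_pole_order hG N m W hW hWN hT hTk] at hd
  · intro hP
    obtain ⟨W, hW, -⟩ := m.place_rho
    have h0 : jBar N - algebraMap Kbar ↥(modularFunctionFieldBar N) 0 = jBar N := by
      rw [map_zero, sub_zero]
    have hW0 : W.ord (m.J - algebraMap Kbar m.M 0) = W.ord m.J := by rw [map_zero, sub_zero]
    have hd := hzero 0 W (by rw [hW0]; rcases hW with h | h <;> rw [h] <;> norm_num) P
      (by rw [h0]; exact hP)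
    rw [h0, hW0] at hd
    rcases hW with h | h
    · rw [h] at hd
      exact hd.trans (by norm_num)
    · rw [h] at hd
      exact hd
  · intro hP
    obtain ⟨W, hW, -⟩ := m.place_i
    have h1728 : (1728 : ↥(modularFunctionFieldBar N))
        = algebraMap Kbar ↥(modularFunctionFieldBar N) 1728 := (map_ofNat _ 1728).symm
    rw [h1728] at hP ⊢
    have hd := hzero 1728 W (by rcases hW with h | h <;> rw [h] <;> norm_num) P hP
    rcases hW with h | h
    · rw [h] at hd
      exact hd.trans (by norm_num)
    · rw [h] at hd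
      exact hd
  · intro c hc0 hc
    exact (hMC N).2.2.2.1 c hc0 hc P

end Modular

end

end Fermat.Agent.S18
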