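/-
S18, block H — package HUFinal (twin T): assembly of `HorizUnramStatement` from
`FinLStatement`, `h_AbhValStatement`, `h_DiscUnitStatement`, plus finiteness of `F(t) / L(t)`.
-/
import Fermat.Agent.S18.HInterfaces

set_option autoImplicit false

open ModularCurve AlgebraicCurve Polynomial

namespace Fermat.Agent.S18

/-- Finiteness of `E = F(t)` over `L(t)` when `F` is finite over `L(j)` and `j ∈ L(t)`. -/
theorem h_hufinalT_finite (L F E : Type) [Field L] [Field F] [Field E] [Algebra L F] [Algebra L E]
    [Algebra F E] [IsScalarTower L F E] (j : F) (t : E)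
    (hfin : FiniteDimensional ↥(IntermediateField.adjoin L {j}) F)
    (hgen : IntermediateField.adjoin F {t} = ⊤)
    (htr : ∀ p : L[X], aeval t p = 0 → p = 0)
    (hj : ∃ p q : L[X], q ≠ 0 ∧ aeval t q * algebraMap F E j = aeval t p) :
    FiniteDimensional ↥(IntermediateField.adjoin L {t}) E := by
  classical
  -- `t ∈ L(t)` and polynomials in `t` lie in `L(t)`
  have ht : t ∈ IntermediateField.adjoin L {t} := IntermediateField.mem_adjoin_simple_self L t
  have hpoly : ∀ p : L[X], aeval t p ∈ IntermediateField.adjoin L {t} := fun p =>
    IntermediateField.algebra_adjoin_le_adjoin L {t} (Polynomial.aeval_mem_adjoin_singleton L t)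
  -- `j ∈ L(t)`
  have hjK : algebraMap F E j ∈ IntermediateField.adjoin L {t} := by
    obtain ⟨p, q, hq, h⟩ := hj
    have hq' : aeval t q ≠ 0 := fun h0 => hq (htr q h0)
    have hEq : algebraMap F E j = aeval t p / aeval t q := by
      rw [eq_div_iff hq', ← h, mul_comm]
    rw [hEq]
    exact div_mem (hpoly p) (hpoly q)
  -- the image of `L(j)` lies in `L(t)`
  have hK₀ : ∀ a : ↥(IntermediateField.adjoin L {j}),
      algebraMap F E (a : F) ∈ IntermediateField.adjoin L {t} := by
    intro a
    have h1 : (IntermediateField.adjoin L {j}).map (IsScalarTower.toAlgHom L F E) ≤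
        IntermediateField.adjoin L {t} := by
      rw [IntermediateField.adjoin_map, IntermediateField.adjoin_le_iff]
      rintro _ ⟨x, hx, rfl⟩
      rw [Set.mem_singleton_iff] at hx
      subst hx
      exact hjK
    exact h1 ⟨(a : F), a.2, rfl⟩
  -- ring hom `L(j) → L(t)`
  let φ : ↥(IntermediateField.adjoin L {j}) →+* ↥(IntermediateField.adjoin L {t}) :=
    { toFun := fun a => ⟨algebraMap F E (a : F), hK₀ a⟩
      map_one' := by ext; simp
      map_mul' := fun a b => by ext; simp
      map_zero' := by ext; simp
      map_add' := fun a b => by ext; simp }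
  have hφ : (algebraMap ↥(IntermediateField.adjoin L {t}) E).comp φ =
      (algebraMap F E).comp (algebraMap ↥(IntermediateField.adjoin L {j}) F) := by
    ext a; rfl
  -- every element of the image of `F` is integral over `L(t)`
  have hint : ∀ x : F, IsIntegral ↥(IntermediateField.adjoin L {t}) (algebraMap F E x) := by
    intro x
    have hx : IsIntegral ↥(IntermediateField.adjoin L {j}) x :=
      Algebra.IsIntegral.isIntegral x
    exact IsIntegral.map_of_comp_eq φ (algebraMap F E) hφ hx
  -- a finite basis of `F` over `L(j)`
  let b := Module.finBasis ↥(IntermediateField.adjoin L {j}) F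
  let S : Set E := Set.range fun i => algebraMap F E (b i)
  have : Finite S := Set.finite_range _
  have hS : ∀ x ∈ S, IsIntegral ↥(IntermediateField.adjoin L {t}) x := by
    rintro _ ⟨i, rfl⟩
    exact hint (b i)
  have hfd : FiniteDimensional ↥(IntermediateField.adjoin L {t})
      ↥(IntermediateField.adjoin ↥(IntermediateField.adjoin L {t}) S) :=
    IntermediateField.finiteDimensional_adjoin hS
  -- the image of `F` lies in `E' = L(t)(b₁, …, b_r)`
  have hF : ∀ x : F, algebraMap F E x ∈
      IntermediateField.adjoin ↥(IntermediateField.adjoin L {t}) S := by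
    intro x
    have hx : x = ∑ i, (b.repr x i) • b i := (b.sum_repr x).symm
    rw [hx, map_sum]
    refine sum_mem fun i _ => ?_
    rw [Algebra.smul_def, map_mul]
    refine mul_mem ?_ (IntermediateField.subset_adjoin _ _ ⟨i, rfl⟩)
    exact IntermediateField.algebraMap_mem _ (φ (b.repr x i))
  have htE : t ∈ IntermediateField.adjoin ↥(IntermediateField.adjoin L {t}) S :=
    IntermediateField.algebraMap_mem _ (⟨t, ht⟩ : ↥(IntermediateField.adjoin L {t}))
  -- hence `E' = E`
  have hall : ∀ y : E, y ∈ IntermediateField.adjoin ↥(IntermediateField.adjoin L {t}) S := by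
    intro y
    have hy : y ∈ IntermediateField.adjoin F {t} := by rw [hgen]; trivial
    induction hy using IntermediateField.adjoin_induction with
    | mem x hx =>
      rw [Set.mem_singleton_iff] at hx
      subst hx
      exact htE
    | algebraMap x => exact hF x
    | add x y _ _ hx hy => exact add_mem hx hy
    | inv x _ hx => exact inv_mem hx
    | mul x y _ _ hx hy => exact mul_mem hx hy
  exact Module.Finite.of_surjective
    (IntermediateField.adjoin ↥(IntermediateField.adjoin L {t}) S).val.toLinearMap
    (fun y => ⟨⟨y, hall y⟩, rfl⟩)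

/-- Assembly of `HorizUnramStatement`. -/
theorem h_hufinalT_main :
    FinLStatement → h_AbhValStatement → h_DiscUnitStatement → HorizUnramStatement := by
  intro hFin hAbh hDisc N _ L _ _ hH E _ _ _ _ t hgen htr hj g hg h1 h2 h3
  have : CharZero L := charZero_of_injective_algebraMap (algebraMap ℚ L).injective
  have hfd : FiniteDimensional ↥(IntermediateField.adjoin L {t}) E :=
    h_hufinalT_finite L ↥(FL L N) E (jF L N) t (hFin N L).2 hgen htr hj
  exact hDisc L E t g hg htr hfd (hAbh N L hH E t hgen htr hj g hg h1 h2 h3)

end Fermat.Agent.S18
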