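/-
S18, block H (co-lead helper22) — ASSEMBLY of the characteristic-0 block:
* `h_horiz : HorizStatement` (horizontal ramification of `F_L / L(j)` for `L ⊆ Qbar`);
* `h_constExt : e_ConstExtStatement`;
* `h_horizUnram_of : FinLStatement → HorizUnramStatement` (Kummer–Abhyankar).
-/
import Fermat.Agent.S18.HHoriz
import Fermat.Agent.S18.HQbar
import Fermat.Agent.S18.EConstExtT
import Fermat.Agent.S18.EUnramT
import Fermat.Agent.S18.EDescentT
import Fermat.Agent.S18.EValFinT
import Fermat.Agent.S18.EEis
import Fermat.Agent.S18.ESubDisc
import Fermat.Agent.S18.HAbhBase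
import Fermat.Agent.S18.HAbhCore
import Fermat.Agent.S18.HAbhMidT
import Fermat.Agent.S18.HAbhTop
import Fermat.Agent.S18.HDiscRedT
import Fermat.Agent.S18.HDiscAbs
import Fermat.Agent.S18.HDiscConcT
import Fermat.Agent.S18.HUFinalT

set_option autoImplicit false

namespace Fermat.Agent.S18

/-- (E4) Constant field extension. -/
theorem h_constExt : e_ConstExtStatement :=
  e_constextT_main e_unramT_main' e_descentT_iota

/-- (H) Horizontal ramification for every subfield of `Qbar`. -/
theorem h_horiz : HorizStatement :=
  h_horiz_main h_qbar_main h_constExt e_descentT_iota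

/-- Abhyankar's lemma, core computation. -/
theorem h_abhCore : h_AbhCoreStatement :=
  h_abhcore_main e_unramT_main' e_unramT_gen e_eis_main

/-- The Kummer–Abhyankar argument in a valued algebraically closed field. -/
theorem h_abhMid : h_AbhMidStatement :=
  h_abhmidT_main e_subdisc_main e_valfinT_main h_abhbase_ratrep h_abhbase_main h_abhCore

/-- Unit discriminant from unramifiedness of all extensions. -/
theorem h_discUnit : h_DiscUnitStatement :=
  h_discconcT_main (h_discabs_main h_discredT_main)

/-- (H/Ab) Horizontal unramifiedness of `F(t) / L(t)`, given the finiteness statement of block G. -/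
theorem h_horizUnram_of (hfin : FinLStatement) : HorizUnramStatement :=
  h_hufinalT_main hfin (h_abhtop_main hfin h_abhMid) h_discUnit

end Fermat.Agent.S18
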