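/-
S18, block E (co-lead helper22) — ASSEMBLY of block E above the endgame:
* `e_core_of : e_EndgameStatement → SmStatement → CoreStatement`;
* `e_result_of : e_EndgameStatement → SmStatement → FkSepStatement → e_ResultStatement`
  (`e_ResultStatement` is the statement S18 itself).
-/
import Fermat.Agent.S18.HMain
import Fermat.Agent.S18.EReduce
import Fermat.Agent.S18.EK1T
import Fermat.Agent.S18.EBaseRingT
import Fermat.Agent.S18.EGeomConnT
import Fermat.Agent.S18.ECoreT

set_option autoImplicit false

namespace Fermat.Agent.S18

/-- (E2) The base ring. -/
theorem e_baseRing : e_BaseRingStatement :=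
  e_baseringT_main e_unramT_main' e_valfinT_main

/-- (E3c) GeomConn. -/
theorem e_geomConn : e_GeomConnStatement :=
  e_geomconnT_main e_descentT_iota

/-- CORE (*) from the endgame and smoothness. -/
theorem e_core_of (hEG : e_EndgameStatement) (hSm : SmStatement) : CoreStatement :=
  e_coreT_main hEG hSm h_horiz e_baseRing e_descentT_main e_geomConn h_constExt

/-- The statement S18 from the endgame, smoothness and separability of `F_k / k(j)`. -/
theorem e_result_of (hEG : e_EndgameStatement) (hSm : SmStatement) (hSep : FkSepStatement) :
    e_ResultStatement :=
  e_reduce_main (e_core_of hEG hSm) (e_k1T_main hSep)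

end Fermat.Agent.S18
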