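import Fermat.Agent.S18.EInterfaces
set_option autoImplicit false

/-!
# S18 / block E5b (UFDLoc, twin file)

The localisation of a factorial subring `R` of its fraction field `F` at a prime element `g`
is a discrete valuation ring of `F`.
-/

namespace Fermat.Agent.S18

section

variable {F : Type} [Field F] (R : Subring F)

/-- The carrier predicate of the localisation of `R` at the prime element `g`. -/
def e_ufdlocT_mem (g : ↥R) (z : F) : Prop :=
  ∃ a b : ↥R, ¬ g ∣ b ∧ z * (b : F) = (a : F)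

theorem e_ufdlocT_mul_mem {g : ↥R} (hg : Prime g) {x y : F}
    (hx : e_ufdlocT_mem R g x) (hy : e_ufdlocT_mem R g y) : e_ufdlocT_mem R g (x * y) := by
  obtain ⟨a, b, hb, h⟩ := hx
  obtain ⟨a', b', hb', h'⟩ := hy
  refine ⟨a * a', b * b', fun hd => ?_, ?_⟩
  · rcases hg.dvd_or_dvd hd with h1 | h1
    exacts [hb h1, hb' h1]
  · push_cast; rw [← h, ← h']; ring

theorem e_ufdlocT_add_mem {g : ↥R} (hg : Prime g) {x y : F}
    (hx : e_ufdlocT_mem R g x) (hy : e_ufdlocT_mem R g y) : e_ufdlocT_mem R g (x + y) := by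
  obtain ⟨a, b, hb, h⟩ := hx
  obtain ⟨a', b', hb', h'⟩ := hy
  refine ⟨a * b' + a' * b, b * b', fun hd => ?_, ?_⟩
  · rcases hg.dvd_or_dvd hd with h1 | h1
    exacts [hb h1, hb' h1]
  · push_cast; rw [← h, ← h']; ring

theorem e_ufdlocT_neg_mem {g : ↥R} {x : F}
    (hx : e_ufdlocT_mem R g x) : e_ufdlocT_mem R g (-x) := by
  obtain ⟨a, b, hb, h⟩ := hx
  refine ⟨-a, b, hb, ?_⟩
  push_cast; rw [← h]; ring

theorem e_ufdlocT_of_mem {g : ↥R} (hg : Prime g) {x : F} (hx : x ∈ R) :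
    e_ufdlocT_mem R g x :=
  ⟨⟨x, hx⟩, 1, fun hd => hg.not_isUnit (isUnit_of_dvd_one hd), by simp⟩

/-- Splitting off the `g`-part of a nonzero element of the factorial ring `R`. -/
theorem e_ufdlocT_decomp [UniqueFactorizationMonoid ↥R] {g : ↥R} (hg : Prime g) (a : ↥R)
    (ha : a ≠ 0) : ∃ (m : ℕ) (a' : ↥R), ¬ g ∣ a' ∧ a = g ^ m * a' := by
  obtain ⟨c, hc, hgc⟩ :=
    (FiniteMultiplicity.of_not_isUnit hg.not_isUnit ha).exists_eq_pow_mul_and_not_dvd
  exact ⟨_, c, hgc, hc⟩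

/-- Normal form of a nonzero element of `F`. -/
theorem e_ufdlocT_normal [UniqueFactorizationMonoid ↥R] (hfrac : e_IsFrac R) {g : ↥R}
    (hg : Prime g) (z : F) (hz : z ≠ 0) :
    ∃ (m n : ℕ) (a b : ↥R), ¬ g ∣ a ∧ ¬ g ∣ b ∧
      z * (g : F) ^ n * (b : F) = (g : F) ^ m * (a : F) := by
  obtain ⟨a, b, hb, h⟩ := hfrac z
  have ha : a ≠ 0 := by
    rintro rfl
    have hb' : (b : F) ≠ 0 := fun h0 => hb (Subtype.ext h0)
    simp [hz, hb'] at h
  obtain ⟨m, a', ha', rfl⟩ := e_ufdlocT_decomp R hg a ha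
  obtain ⟨n, b', hb', rfl⟩ := e_ufdlocT_decomp R hg b hb
  refine ⟨m, n, a', b', ha', hb', ?_⟩
  push_cast at h
  rw [← h]; ring

theorem e_ufdlocT_coe_ne_zero {g : ↥R} (hg : Prime g) : (g : F) ≠ 0 :=
  fun h0 => hg.ne_zero (Subtype.ext h0)

theorem e_ufdlocT_mem_or_inv_mem [UniqueFactorizationMonoid ↥R] (hfrac : e_IsFrac R) {g : ↥R}
    (hg : Prime g) (z : F) : e_ufdlocT_mem R g z ∨ e_ufdlocT_mem R g z⁻¹ := by
  have hg0 : (g : F) ≠ 0 := e_ufdlocT_coe_ne_zero R hg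
  by_cases hz : z = 0
  · left; subst hz; exact e_ufdlocT_of_mem R hg R.zero_mem
  obtain ⟨m, n, a, b, ha, hb, h⟩ := e_ufdlocT_normal R hfrac hg z hz
  rcases le_total n m with hnm | hnm
  · left
    obtain ⟨k, rfl⟩ := Nat.exists_eq_add_of_le hnm
    refine ⟨g ^ k * a, b, hb, ?_⟩
    have h2 : (g : F) ^ n * (z * (b : F)) = (g : F) ^ n * ((g : F) ^ k * (a : F)) := by
      rw [pow_add] at h; linear_combination h
    push_cast
    exact mul_left_cancel₀ (pow_ne_zero n hg0) h2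
  · right
    obtain ⟨k, rfl⟩ := Nat.exists_eq_add_of_le hnm
    refine ⟨g ^ k * b, a, ha, ?_⟩
    have h2 : (g : F) ^ m * z * (z⁻¹ * (a : F)) = (g : F) ^ m * z * ((g : F) ^ k * (b : F)) := by
      rw [pow_add] at h
      have : (g : F) ^ m * z * (z⁻¹ * (a : F)) = (g : F) ^ m * (a : F) * (z * z⁻¹) := by ring
      rw [this, mul_inv_cancel₀ hz, mul_one]; linear_combination -h
    push_cast
    exact mul_left_cancel₀ (mul_ne_zero (pow_ne_zero m hg0) hz) h2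

/-- The localisation of `R` at the prime element `g`, as a valuation subring of `F`. -/
def e_ufdlocT_O [UniqueFactorizationMonoid ↥R] (hfrac : e_IsFrac R) {g : ↥R}
    (hg : Prime g) : ValuationSubring F where
  carrier := {z | e_ufdlocT_mem R g z}
  mul_mem' := fun hx hy => e_ufdlocT_mul_mem R hg hx hy
  add_mem' := fun hx hy => e_ufdlocT_add_mem R hg hx hy
  one_mem' := e_ufdlocT_of_mem R hg R.one_mem
  zero_mem' := e_ufdlocT_of_mem R hg R.zero_mem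
  neg_mem' := fun hx => e_ufdlocT_neg_mem R hx
  mem_or_inv_mem' := e_ufdlocT_mem_or_inv_mem R hfrac hg

theorem e_ufdlocT_mem_O [UniqueFactorizationMonoid ↥R] (hfrac : e_IsFrac R) {g : ↥R}
    (hg : Prime g) (z : F) :
    z ∈ e_ufdlocT_O R hfrac hg ↔ ∃ a b : ↥R, ¬ g ∣ b ∧ z * (b : F) = (a : F) :=
  Iff.rfl

theorem e_ufdlocT_inv_not_mem {g : ↥R} (hg : Prime g) : ¬ e_ufdlocT_mem R g (g : F)⁻¹ := by
  rintro ⟨a, b, hb, h⟩
  apply hb
  refine ⟨a, Subtype.ext ?_⟩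
  push_cast
  rw [← h, ← mul_assoc, mul_inv_cancel₀ (e_ufdlocT_coe_ne_zero R hg), one_mul]

/-- Every nonzero element of the localisation is a power of `g` times a unit. -/
theorem e_ufdlocT_unit_form [UniqueFactorizationMonoid ↥R] {g : ↥R}
    (hg : Prime g) (z : F) (hz : z ≠ 0) (hzO : e_ufdlocT_mem R g z) :
    ∃ (m : ℕ) (u : F), e_ufdlocT_mem R g u ∧ e_ufdlocT_mem R g u⁻¹ ∧ z = (g : F) ^ m * u := by
  obtain ⟨a, b, hb, h⟩ := hzO
  have hb0 : (b : F) ≠ 0 := by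
    intro h0
    apply hb
    have : b = 0 := Subtype.ext h0
    rw [this]; exact dvd_zero g
  have ha : a ≠ 0 := by
    rintro rfl
    simp [hz, hb0] at h
  obtain ⟨m, a', ha', rfl⟩ := e_ufdlocT_decomp R hg a ha
  have ha0 : (a' : F) ≠ 0 := by
    intro h0
    apply ha'
    have : a' = 0 := Subtype.ext h0
    rw [this]; exact dvd_zero g
  refine ⟨m, (a' : F) / (b : F), ⟨a', b, hb, div_mul_cancel₀ _ hb0⟩,
    ⟨b, a', ha', by rw [inv_div]; exact div_mul_cancel₀ _ ha0⟩, ?_⟩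
  push_cast at h
  rw [← mul_div_assoc, ← h, mul_div_assoc, div_self hb0, mul_one]

theorem e_ufdlocT_principal [UniqueFactorizationMonoid ↥R] (hfrac : e_IsFrac R) {g : ↥R}
    (hg : Prime g) : IsPrincipalIdealRing ↥(e_ufdlocT_O R hfrac hg) := by
  set O := e_ufdlocT_O R hfrac hg with hO
  have hgO : (g : F) ∈ O := e_ufdlocT_of_mem R hg g.2
  refine ⟨fun I => ?_⟩
  by_cases hI : I = ⊥
  · exact ⟨⟨0, by rw [hI]; simp⟩⟩
  -- some power of `g` lies in `I`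
  have key : ∀ z : ↥O, z ∈ I → z ≠ 0 →
      ∃ (m : ℕ) (w : ↥O), (⟨g, hgO⟩ : ↥O) ^ m ∈ I ∧ z = (⟨g, hgO⟩ : ↥O) ^ m * w := by
    intro z hzI hz
    have hz' : (z : F) ≠ 0 := fun h0 => hz (Subtype.ext h0)
    obtain ⟨m, u, hu, hu', hzu⟩ := e_ufdlocT_unit_form R hg (z : F) hz' z.2
    have hu0 : u ≠ 0 := by
      rintro rfl
      rw [mul_zero] at hzu
      exact hz' hzu
    refine ⟨m, ⟨u, hu⟩, ?_, Subtype.ext (by simpa using hzu)⟩
    have : (⟨g, hgO⟩ : ↥O) ^ m = z * ⟨u⁻¹, hu'⟩ := by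
      apply Subtype.ext
      simp only [SubmonoidClass.coe_pow, MulMemClass.coe_mul]
      rw [hzu, mul_assoc, mul_inv_cancel₀ hu0, mul_one]
    rw [this]
    exact I.mul_mem_right _ hzI
  have hex : ∃ m : ℕ, (⟨g, hgO⟩ : ↥O) ^ m ∈ I := by
    obtain ⟨z, hzI, hz⟩ := Submodule.exists_mem_ne_zero_of_ne_bot hI
    obtain ⟨m, w, hm, -⟩ := key z hzI hz
    exact ⟨m, hm⟩
  classical
  refine ⟨⟨(⟨g, hgO⟩ : ↥O) ^ Nat.find hex, ?_⟩⟩
  apply le_antisymm
  · intro z hzI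
    by_cases hz : z = 0
    · rw [hz]; exact Submodule.zero_mem _
    obtain ⟨m, w, hm, rfl⟩ := key z hzI hz
    obtain ⟨k, hk⟩ := Nat.exists_eq_add_of_le (Nat.find_min' hex hm)
    rw [hk, pow_add, mul_assoc]
    exact Ideal.mul_mem_right _ _ (Ideal.subset_span (Set.mem_singleton _))
  · rw [Ideal.submodule_span_eq, Ideal.span_le, Set.singleton_subset_iff]
    exact Nat.find_spec hex

end

/-- (E5b) UFDLoc. -/
theorem e_ufdlocT_main : e_UFDLocStatement := by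
  intro F _ R hfrac hUFD g hg
  have := hUFD
  refine ⟨e_ufdlocT_O R hfrac hg, fun x hx => e_ufdlocT_of_mem R hg hx, ?_,
    e_ufdlocT_principal R hfrac hg, e_ufdlocT_inv_not_mem R hg, e_ufdlocT_mem_O R hfrac hg⟩
  intro htop
  apply e_ufdlocT_inv_not_mem R hg
  have : (g : F)⁻¹ ∈ e_ufdlocT_O R hfrac hg := by rw [htop]; trivial
  exact this

end Fermat.Agent.S18
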