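import Fermat.Agent.S18.EInterfaces
set_option autoImplicit false

/-!
# S18 / block E5c: UFDPow (twin file)

In the fraction field `F` of a factorial subring `R`, an element `y ≠ 0` whose order at every prime
element of `R` is divisible by `p` is a unit of `R` times a `p`-th power.
-/

namespace Fermat.Agent.S18

/-- The hypothesis of the UFDPow statement for an element `y` of `F`. -/
def e_ufdpowT_Hyp {F : Type} [Field F] (R : Subring F) (p : ℕ) (y : F) : Prop :=
  ∀ g : ↥R, Prime g → ∃ (z : F) (a b : ↥R), z ≠ 0 ∧ ¬ g ∣ a ∧ ¬ g ∣ b ∧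
    y * z ^ p * (b : F) = (a : F)

/-- The hypothesis is insensitive to multiplication by nonzero `p`-th powers. -/
theorem e_ufdpowT_hyp_scale {F : Type} [Field F] (R : Subring F) (p : ℕ) (y w : F) (hw : w ≠ 0)
    (h : e_ufdpowT_Hyp R p (y * w ^ p)) : e_ufdpowT_Hyp R p y := by
  intro g hg
  obtain ⟨z, a, b, hz, ha, hb, e⟩ := h g hg
  exact ⟨w * z, a, b, mul_ne_zero hw hz, ha, hb, by rw [← e]; ring⟩

/-- If `c ∈ R` satisfies the hypothesis and a prime `g` divides `c`, then `g ^ p` divides `c`. -/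
theorem e_ufdpowT_pow_dvd {F : Type} [Field F] (R : Subring F) (hfrac : e_IsFrac R)
    [UniqueFactorizationMonoid ↥R] (p : ℕ) (c g : ↥R) (hc : c ≠ 0)
    (hg : Prime g) (hgc : g ∣ c) (h : e_ufdpowT_Hyp R p (c : F)) : g ^ p ∣ c := by
  obtain ⟨z, a, b, hz, ha, hb, e⟩ := h g hg
  obtain ⟨s, t, ht, est⟩ := hfrac z
  have ht' : (t : F) ≠ 0 := fun h0 => ht (Subtype.ext h0)
  have hs : s ≠ 0 := by
    rintro rfl
    exact mul_ne_zero hz ht' (by simpa using est)
  have eR : c * s ^ p * b = a * t ^ p := by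
    apply Subtype.ext
    push_cast
    rw [← est, ← e]
    ring
  have fc : FiniteMultiplicity g c := FiniteMultiplicity.of_prime_left hg hc
  have fs : FiniteMultiplicity g s := FiniteMultiplicity.of_prime_left hg hs
  have ft : FiniteMultiplicity g t := FiniteMultiplicity.of_prime_left hg ht
  have hm := congrArg (emultiplicity g) eR
  rw [emultiplicity_mul hg, emultiplicity_mul hg, emultiplicity_mul hg, emultiplicity_pow hg,
    emultiplicity_pow hg, emultiplicity_eq_zero.2 ha, emultiplicity_eq_zero.2 hb,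
    fc.emultiplicity_eq_multiplicity, fs.emultiplicity_eq_multiplicity,
    ft.emultiplicity_eq_multiplicity, add_zero, zero_add] at hm
  have hm' : multiplicity g c + p * multiplicity g s = p * multiplicity g t := by
    exact_mod_cast hm
  have hpos : 0 < multiplicity g c := dvd_iff_multiplicity_pos.2 hgc
  have hdvd : p ∣ multiplicity g c := by
    have h1 : p ∣ multiplicity g c + p * multiplicity g s := hm' ▸ Dvd.intro _ rfl
    exact (Nat.dvd_add_left (Dvd.intro _ rfl)).1 h1
  exact pow_dvd_of_le_multiplicity (Nat.le_of_dvd hpos hdvd)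

/-- The statement for elements of `R`, by well-founded induction on divisibility. -/
theorem e_ufdpowT_inR {F : Type} [Field F] (R : Subring F) (hfrac : e_IsFrac R)
    [UniqueFactorizationMonoid ↥R] (p : ℕ) (hp : 0 < p) (c : ↥R) :
    c ≠ 0 → e_ufdpowT_Hyp R p (c : F) →
      ∃ (u : ↥R) (h : F), IsUnit u ∧ h ≠ 0 ∧ (c : F) = (u : F) * h ^ p := by
  induction c using (wellFounded_dvdNotUnit (α := ↥R)).induction with
  | _ c ih =>
    intro hc hH
    by_cases hu : IsUnit c
    · exact ⟨c, 1, hu, one_ne_zero, by simp⟩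
    · obtain ⟨g, hgi, hgc⟩ := WfDvdMonoid.exists_irreducible_factor hu hc
      have hg : Prime g := UniqueFactorizationMonoid.irreducible_iff_prime.1 hgi
      obtain ⟨c', rfl⟩ := e_ufdpowT_pow_dvd R hfrac p c g hc hg hgc hH
      have hc' : c' ≠ 0 := right_ne_zero_of_mul hc
      have hgF : (g : F) ≠ 0 := fun h0 => hg.ne_zero (Subtype.ext h0)
      have hH' : e_ufdpowT_Hyp R p (c' : F) := by
        refine e_ufdpowT_hyp_scale R p _ (g : F) hgF ?_
        have : (c' : F) * (g : F) ^ p = ((g ^ p * c' : ↥R) : F) := by push_cast; ring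
        rw [this]; exact hH
      have hdn : DvdNotUnit c' (g ^ p * c') :=
        ⟨hc', g ^ p, fun hu' => hg.not_isUnit (isUnit_of_dvd_unit (dvd_pow_self g hp.ne') hu'),
          mul_comm _ _⟩
      obtain ⟨u, h, huu, hh, e⟩ := ih c' hdn hc' hH'
      refine ⟨u, g * h, huu, mul_ne_zero hgF hh, ?_⟩
      push_cast
      rw [e]; ring

/-- (E5c) UFDPow. -/
theorem e_ufdpowT_main : e_UFDPowStatement := by
  intro F _ R hfrac hufd p hp y hy hH
  have := hufd
  obtain ⟨a, b, hb, e⟩ := hfrac y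
  have hb' : (b : F) ≠ 0 := fun h0 => hb (Subtype.ext h0)
  have ha : a ≠ 0 := by
    rintro rfl
    exact mul_ne_zero hy hb' (by simpa using e)
  obtain ⟨k, rfl⟩ : ∃ k, p = k + 1 := ⟨p - 1, by omega⟩
  have ec : y * (b : F) ^ (k + 1) = ((a * b ^ k : ↥R) : F) := by
    push_cast
    rw [← e]; ring
  have hc : a * b ^ k ≠ 0 := mul_ne_zero ha (pow_ne_zero _ hb)
  have hH' : e_ufdpowT_Hyp R (k + 1) ((a * b ^ k : ↥R) : F) := by
    rw [← ec]
    refine e_ufdpowT_hyp_scale R (k + 1) _ ((b : F)⁻¹) (inv_ne_zero hb') ?_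
    have : y * (b : F) ^ (k + 1) * ((b : F)⁻¹) ^ (k + 1) = y := by
      rw [mul_assoc, ← mul_pow, mul_inv_cancel₀ hb', one_pow, mul_one]
    rw [this]; exact hH
  obtain ⟨u, h, hu, hh, e'⟩ := e_ufdpowT_inR R hfrac (k + 1) hp (a * b ^ k) hc hH'
  refine ⟨u, h * (b : F)⁻¹, hu, mul_ne_zero hh (inv_ne_zero hb'), ?_⟩
  rw [mul_pow, ← mul_assoc, ← e', ← ec, mul_assoc, ← mul_pow, mul_inv_cancel₀ hb', one_pow,
    mul_one]

end Fermat.Agent.S18
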