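/-
S18 / block G (twin A) — INTERNAL INTERFACE FILE.

The Gauss valuation ring of `F = F_L` over a general DVR `W`: shared definitions, basic lemmas and
the statement-`Prop`s of the work packages of the block (deliverables `ga_fin`, `ga_gauss`,
`ga_chart`, `ga_sep`, `ga_mono`).

Notation in the comments: `F = ↥(FL L N) ⊆ L((q))`, `j = jF L N`, `K0 = L(j) ⊆ F`,
`ι = coeffMap W.subtype : W((q)) → L((q))` (injective), `red = coeffMap res : W((q)) → k((q))`,
`j̄ = jqModC k`, `P(j) = evW W N (jF L N) P` for `P ∈ W[T]`, `P̄ = P.map res`,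
`ψ = dedekindPsi N`.  "`ϖ ∣ P`" is `P.map res = 0` (equivalently `Polynomial.C ϖ ∣ P`).
-/
import Fermat.Agent.S18.SInterfaces
import Fermat.Agent.S28.DegMain

set_option autoImplicit false

open ModularCurve AlgebraicCurve Polynomial Fermat.Agent.S28

namespace Fermat.Agent.S18

noncomputable section

/-! ## Generic lemmas on integrality over subrings of a field -/

/-- Integrality over a subring passes to a larger subring. -/
theorem ga_isIntegral_mono {E : Type*} [Field E] {R R' : Subring E} (h : R ≤ R') {x : E}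
    (hx : IsIntegral ↥R x) : IsIntegral ↥R' x :=
  hx.map_of_comp_eq (Subring.inclusion h) (RingHom.id E) (by ext; rfl)

/-- Elements of a subring are integral over it. -/
theorem ga_isIntegral_of_mem {E : Type*} [Field E] {R : Subring E} {x : E} (hx : x ∈ R) :
    IsIntegral ↥R x :=
  isIntegral_algebraMap (R := ↥R) (A := E) (x := ⟨x, hx⟩)

section Defs

variable {L : Type} [Field L] [Algebra ℚ L] (W : ValuationSubring L) {k : Type} [Field k]
  (res : ↥W →+* k) (N : ℕ)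

/-! ## Coefficients in `W` -/

/-- `x ∈ F` has all its coefficients in `W`: `x = ι y` for some `y ∈ W((q))`. -/
def ga_WInt (x : ↥(FL L N)) : Prop :=
  ∃ y : LaurentSeries ↥W, coeffMap W.subtype y = (x : LaurentSeries L)

omit [Algebra ℚ L] in
/-- `ι : W((q)) → L((q))` is injective. -/
theorem ga_iota_injective :
    Function.Injective (coeffMap W.subtype : LaurentSeries ↥W →+* LaurentSeries L) :=
  degMain_coeffMap_injective _ Subtype.val_injective

theorem ga_coe_algebraMap (a : L) :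
    ((algebraMap L ↥(FL L N) a : ↥(FL L N)) : LaurentSeries L) = HahnSeries.C a := by
  rw [← degMain_algebraMap_eq_C]
  rfl

theorem ga_coe_cW (w : ↥W) :
    ((cW W N w : ↥(FL L N)) : LaurentSeries L) = HahnSeries.C (w : L) := by
  show ((algebraMap L ↥(FL L N) (w : L) : ↥(FL L N)) : LaurentSeries L) = _
  exact ga_coe_algebraMap N _

/-- The coercion of `P(t)` to `L((q))`. -/
theorem ga_coe_evW (t : ↥(FL L N)) (g : Polynomial ↥W) :
    ((evW W N t g : ↥(FL L N)) : LaurentSeries L) =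
      evalL (t : LaurentSeries L) (g.map W.subtype) := by
  have h : (algebraMap ↥(FL L N) (LaurentSeries L)).comp (evW W N t) =
      (evalL (t : LaurentSeries L)).comp (Polynomial.mapRingHom W.subtype) := by
    refine Polynomial.ringHom_ext (fun a => ?_) ?_
    · have h1 := ga_coe_cW W N a
      simp only [RingHom.comp_apply, evW, Polynomial.coe_eval₂RingHom, Polynomial.eval₂_C,
        Polynomial.coe_mapRingHom, Polynomial.map_C]
      rw [show evalL (t : LaurentSeries L) (Polynomial.C (W.subtype a)) = HahnSeries.C (a : L) by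
        simp [evalL]]
      exact h1
    · simp only [RingHom.comp_apply, evW, Polynomial.coe_eval₂RingHom, Polynomial.eval₂_X,
        Polynomial.coe_mapRingHom, Polynomial.map_X]
      rw [show evalL (t : LaurentSeries L) Polynomial.X = (t : LaurentSeries L) by simp [evalL]]
      rfl
  exact congrArg (fun f : Polynomial ↥W →+* LaurentSeries L => f g) h

@[simp] theorem ga_evW_C (t : ↥(FL L N)) (w : ↥W) : evW W N t (Polynomial.C w) = cW W N w := by
  simp [evW]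

@[simp] theorem ga_evW_X (t : ↥(FL L N)) : evW W N t Polynomial.X = t := by
  simp [evW]

theorem ga_WInt_zero : ga_WInt W N 0 := ⟨0, by simp⟩

theorem ga_WInt_one : ga_WInt W N 1 := ⟨1, by simp⟩

theorem ga_WInt_add {x y : ↥(FL L N)} (hx : ga_WInt W N x) (hy : ga_WInt W N y) :
    ga_WInt W N (x + y) := by
  obtain ⟨a, ha⟩ := hx
  obtain ⟨b, hb⟩ := hy
  exact ⟨a + b, by rw [map_add, ha, hb]; rfl⟩

theorem ga_WInt_mul {x y : ↥(FL L N)} (hx : ga_WInt W N x) (hy : ga_WInt W N y) :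
    ga_WInt W N (x * y) := by
  obtain ⟨a, ha⟩ := hx
  obtain ⟨b, hb⟩ := hy
  exact ⟨a * b, by rw [map_mul, ha, hb]; rfl⟩

theorem ga_WInt_neg {x : ↥(FL L N)} (hx : ga_WInt W N x) : ga_WInt W N (-x) := by
  obtain ⟨a, ha⟩ := hx
  exact ⟨-a, by rw [map_neg, ha]; rfl⟩

theorem ga_WInt_cW (w : ↥W) : ga_WInt W N (cW W N w) :=
  ⟨HahnSeries.C w, by rw [ga_coe_cW, degMain_coeffMap_C]; rfl⟩

variable [NeZero N]

/-! ## Evaluation at `j` -/

/-- The coercion of `P(j)` to `L((q))` is `ι (P(j_W))`. -/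
theorem ga_coe_evW_j (g : Polynomial ↥W) :
    ((evW W N (jF L N) g : ↥(FL L N)) : LaurentSeries L) =
      coeffMap W.subtype (evalL (jqModC ↥W) g) := by
  rw [ga_coe_evW, degMain_coeffMap_evalL, coeffMap_jqModC]
  rfl

theorem ga_WInt_evW_j (g : Polynomial ↥W) : ga_WInt W N (evW W N (jF L N) g) :=
  ⟨evalL (jqModC ↥W) g, (ga_coe_evW_j W N g).symm⟩

/-- (T) `j` is transcendental over `W`: `P ↦ P(j)` is injective on `W[T]`. -/
theorem ga_evW_j_injective : Function.Injective (evW W N (jF L N)) := by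
  rw [injective_iff_map_eq_zero]
  intro g hg
  have h := ga_coe_evW_j W N g
  rw [hg] at h
  have h0 : coeffMap W.subtype (evalL (jqModC ↥W) g) = 0 := h.symm
  exact degMain_evalL_eq_zero g (ga_iota_injective W (by rw [h0, map_zero]))

theorem ga_evW_j_ne_zero {g : Polynomial ↥W} (hg : g ≠ 0) : evW W N (jF L N) g ≠ 0 :=
  fun h => hg (ga_evW_j_injective W N (h.trans (map_zero _).symm))

omit [Algebra ℚ L] in
theorem ga_ne_zero_of_map_ne_zero {g : Polynomial ↥W} (h : g.map res ≠ 0) : g ≠ 0 :=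
  fun h0 => h (by rw [h0, Polynomial.map_zero])

/-! ## The ring `M'` -/

/-- `M' = {x ∈ F | ∃ g ∈ W[T], ḡ ≠ 0, g(j) * x ∈ ι (W((q)))}` (block G proves `M' = V = gaussV`). -/
def ga_M : Subring ↥(FL L N) where
  carrier := {x | ∃ g : Polynomial ↥W, g.map res ≠ 0 ∧ ga_WInt W N (evW W N (jF L N) g * x)}
  mul_mem' := by
    rintro a b ⟨g₁, h₁, w₁⟩ ⟨g₂, h₂, w₂⟩
    refine ⟨g₁ * g₂, ?_, ?_⟩
    · rw [Polynomial.map_mul]; exact mul_ne_zero h₁ h₂
    · have : evW W N (jF L N) (g₁ * g₂) * (a * b) =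
          (evW W N (jF L N) g₁ * a) * (evW W N (jF L N) g₂ * b) := by rw [map_mul]; ring
      rw [this]; exact ga_WInt_mul W N w₁ w₂
  one_mem' := ⟨1, by rw [Polynomial.map_one]; exact one_ne_zero,
    by rw [map_one, one_mul]; exact ga_WInt_one W N⟩
  add_mem' := by
    rintro a b ⟨g₁, h₁, w₁⟩ ⟨g₂, h₂, w₂⟩
    refine ⟨g₁ * g₂, ?_, ?_⟩
    · rw [Polynomial.map_mul]; exact mul_ne_zero h₁ h₂
    · have : evW W N (jF L N) (g₁ * g₂) * (a + b) =
          evW W N (jF L N) g₂ * (evW W N (jF L N) g₁ * a) +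
            evW W N (jF L N) g₁ * (evW W N (jF L N) g₂ * b) := by rw [map_mul]; ring
      rw [this]
      exact ga_WInt_add W N (ga_WInt_mul W N (ga_WInt_evW_j W N g₂) w₁)
        (ga_WInt_mul W N (ga_WInt_evW_j W N g₁) w₂)
  zero_mem' := ⟨1, by rw [Polynomial.map_one]; exact one_ne_zero,
    by rw [mul_zero]; exact ga_WInt_zero W N⟩
  neg_mem' := by
    rintro a ⟨g, h, w⟩
    exact ⟨g, h, by rw [mul_neg]; exact ga_WInt_neg W N w⟩

theorem ga_mem_M_iff (x : ↥(FL L N)) :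
    x ∈ ga_M W res N ↔
      ∃ g : Polynomial ↥W, g.map res ≠ 0 ∧ ga_WInt W N (evW W N (jF L N) g * x) :=
  Iff.rfl

theorem ga_WInt_mem_M {x : ↥(FL L N)} (hx : ga_WInt W N x) : x ∈ ga_M W res N :=
  ⟨1, by rw [Polynomial.map_one]; exact one_ne_zero, by rw [map_one, one_mul]; exact hx⟩

/-! ## The Gauss ring `O₀ = gaussO` -/

/-- The set of fractions `gaussSet` is a subring. -/
def ga_O : Subring ↥(FL L N) where
  carrier := gaussSet W res N
  mul_mem' := by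
    rintro a b ⟨f₁, g₁, h₁, e₁⟩ ⟨f₂, g₂, h₂, e₂⟩
    refine ⟨f₁ * f₂, g₁ * g₂, ?_, ?_⟩
    · rw [Polynomial.map_mul]; exact mul_ne_zero h₁ h₂
    · rw [map_mul, map_mul, ← e₁, ← e₂]; ring
  one_mem' := ⟨1, 1, by rw [Polynomial.map_one]; exact one_ne_zero, by simp⟩
  add_mem' := by
    rintro a b ⟨f₁, g₁, h₁, e₁⟩ ⟨f₂, g₂, h₂, e₂⟩
    refine ⟨f₁ * g₂ + f₂ * g₁, g₁ * g₂, ?_, ?_⟩
    · rw [Polynomial.map_mul]; exact mul_ne_zero h₁ h₂
    · rw [map_mul, map_add, map_mul, map_mul, ← e₁, ← e₂]; ring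
  zero_mem' := ⟨0, 1, by rw [Polynomial.map_one]; exact one_ne_zero, by simp⟩
  neg_mem' := by
    rintro a ⟨f, g, h, e⟩
    exact ⟨-f, g, h, by rw [map_neg, ← e]; ring⟩

theorem ga_gaussO_eq : gaussO W res N = ga_O W res N :=
  le_antisymm (Subring.closure_le.mpr fun _ hx => hx) fun _ hx => Subring.subset_closure hx

/-- `c ∈ O₀ ↔ ∃ f g ∈ W[T], ḡ ≠ 0 ∧ g(j) * c = f(j)`. -/
theorem ga_mem_gaussO_iff (c : ↥(FL L N)) :
    c ∈ gaussO W res N ↔ ∃ f g : Polynomial ↥W, g.map res ≠ 0 ∧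
      evW W N (jF L N) g * c = evW W N (jF L N) f := by
  rw [ga_gaussO_eq]
  exact Iff.rfl

theorem ga_evW_mem_gaussO (f : Polynomial ↥W) : evW W N (jF L N) f ∈ gaussO W res N :=
  (ga_mem_gaussO_iff W res N _).mpr
    ⟨f, 1, by rw [Polynomial.map_one]; exact one_ne_zero, by simp⟩

theorem ga_cW_mem_gaussO (w : ↥W) : cW W N w ∈ gaussO W res N := by
  rw [← ga_evW_C W N (jF L N) w]; exact ga_evW_mem_gaussO W res N _

theorem ga_j_mem_gaussO : jF L N ∈ gaussO W res N := by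
  have h := ga_evW_mem_gaussO W res N (Polynomial.X : Polynomial ↥W)
  rwa [ga_evW_X] at h

/-- A quotient `f(j) / g(j)` with `ḡ ≠ 0` lies in `O₀`. -/
theorem ga_div_mem_gaussO (f : Polynomial ↥W) {g : Polynomial ↥W} (hg : g.map res ≠ 0) :
    evW W N (jF L N) f / evW W N (jF L N) g ∈ gaussO W res N :=
  (ga_mem_gaussO_iff W res N _).mpr
    ⟨f, g, hg, mul_div_cancel₀ _ (ga_evW_j_ne_zero W N (ga_ne_zero_of_map_ne_zero W res hg))⟩

theorem ga_j_inv_mem_gaussO : (jF L N)⁻¹ ∈ gaussO W res N := by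
  have h := ga_div_mem_gaussO W res N (1 : Polynomial ↥W) (g := Polynomial.X)
    (by rw [Polynomial.map_X]; exact Polynomial.X_ne_zero)
  rwa [map_one, ga_evW_X, one_div] at h

/-- `O₀ ≤ M'`. -/
theorem ga_gaussO_le_M {c : ↥(FL L N)} (hc : c ∈ gaussO W res N) : c ∈ ga_M W res N := by
  obtain ⟨f, g, hg, e⟩ := (ga_mem_gaussO_iff W res N c).mp hc
  exact ⟨g, hg, by rw [e]; exact ga_WInt_evW_j W N f⟩

/-- `O₀ ≤ V`. -/
theorem ga_gaussO_le_gaussV {c : ↥(FL L N)} (hc : c ∈ gaussO W res N) : c ∈ gaussV W res N :=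
  (mem_gaussV_iff W res N c).mpr (ga_isIntegral_of_mem hc)

/-! ## `K0 = L(j)` -/

/-- `K0 = L(j)`, as an intermediate field of `F / L`. -/
abbrev ga_K0 (L : Type) [Field L] [Algebra ℚ L] (N : ℕ) [NeZero N] :
    IntermediateField L ↥(FL L N) :=
  IntermediateField.adjoin L {jF L N}

theorem ga_j_mem_K0 : jF L N ∈ ga_K0 L N := IntermediateField.mem_adjoin_simple_self L _

theorem ga_evW_mem_K0 {t : ↥(FL L N)} (ht : t ∈ ga_K0 L N) (g : Polynomial ↥W) :
    evW W N t g ∈ ga_K0 L N := by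
  rw [evW, Polynomial.coe_eval₂RingHom, Polynomial.eval₂_eq_sum_range]
  exact sum_mem fun i _ => mul_mem ((ga_K0 L N).algebraMap_mem _) (pow_mem ht i)

/-- `O₀ ≤ K0`. -/
theorem ga_gaussO_le_K0 {c : ↥(FL L N)} (hc : c ∈ gaussO W res N) : c ∈ ga_K0 L N := by
  obtain ⟨f, g, hg, e⟩ := (ga_mem_gaussO_iff W res N c).mp hc
  have hg0 := ga_evW_j_ne_zero W N (ga_ne_zero_of_map_ne_zero W res hg)
  have : c = evW W N (jF L N) f / evW W N (jF L N) g := by
    rw [eq_div_iff hg0, mul_comm]; exact e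
  rw [this]
  exact div_mem (ga_evW_mem_K0 W N (ga_j_mem_K0 N) f) (ga_evW_mem_K0 W N (ga_j_mem_K0 N) g)

/-! ## The reduction map -/

/-- The characteristic property of the reduction map `ρ : M' → k((q))`:
`ρ x * ḡ(j̄) = red y` whenever `g(j) * x = ι y`, `ḡ ≠ 0`. -/
def ga_IsRho (ρ : ↥(ga_M W res N) →+* LaurentSeries k) : Prop :=
  ∀ (x : ↥(ga_M W res N)) (g : Polynomial ↥W) (y : LaurentSeries ↥W), g.map res ≠ 0 →
    coeffMap W.subtype y =
      ((evW W N (jF L N) g * (x : ↥(FL L N)) : ↥(FL L N)) : LaurentSeries L) →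
    ρ x * evalL (jqModC k) (g.map res) = coeffMap res y

end Defs

/-! ## Elements of `F` attached to integer series; monomial families -/

section Mono

variable {L : Type} [Field L] [Algebra ℚ L] (W : ValuationSubring L) {k : Type} [Field k]
  (res : ↥W →+* k) (N : ℕ)

theorem ga_coeffMap_int_mem (z : LaurentSeries ℤ)
    (hz : coeffMap (Int.castRingHom ℚ) z ∈ modularFunctionFieldFull N) :
    coeffMap (Int.castRingHom L) z ∈ FL L N := by
  have h : coeffMap (Int.castRingHom L) z = coeffEmb L (coeffMap (Int.castRingHom ℚ) z) := by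
    rw [coeffEmb, coeffMap_coeffMap]
    exact coeffMap_congr (RingHom.ext_int _ _) z
  rw [h]
  exact coeffEmb_mem_laurentBaseChange L hz

open Classical in
/-- The element of `F` given by the integer series `z` (junk value `0` if the image of `z` in
`L((q))` is not in `F`). -/
def ga_bF (L : Type) [Field L] [Algebra ℚ L] (N : ℕ) (z : LaurentSeries ℤ) : ↥(FL L N) :=
  if h : coeffMap (Int.castRingHom L) z ∈ FL L N then ⟨coeffMap (Int.castRingHom L) z, h⟩ else 0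

theorem ga_bF_coe (z : LaurentSeries ℤ)
    (hz : coeffMap (Int.castRingHom ℚ) z ∈ modularFunctionFieldFull N) :
    ((ga_bF L N z : ↥(FL L N)) : LaurentSeries L) = coeffMap (Int.castRingHom L) z := by
  rw [ga_bF, dif_pos (ga_coeffMap_int_mem N z hz)]

theorem ga_bF_coe_W (z : LaurentSeries ℤ)
    (hz : coeffMap (Int.castRingHom ℚ) z ∈ modularFunctionFieldFull N) :
    ((ga_bF L N z : ↥(FL L N)) : LaurentSeries L) =
      coeffMap W.subtype (coeffMap (Int.castRingHom ↥W) z) := by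
  rw [ga_bF_coe N z hz, coeffMap_coeffMap]
  exact coeffMap_congr (RingHom.ext_int _ _) z

theorem ga_WInt_bF (z : LaurentSeries ℤ)
    (hz : coeffMap (Int.castRingHom ℚ) z ∈ modularFunctionFieldFull N) :
    ga_WInt W N (ga_bF L N z) :=
  ⟨_, (ga_bF_coe_W W N z hz).symm⟩

/-- A monomial family: `ψ(N)` integer series whose images over `ℚ` lie in `F_ℚ` and whose
reductions in `k((q))` lie in `F_k` and are linearly independent over `k(j̄)`. -/
structure ga_IsMonoFamily (N : ℕ) (k : Type) [Field k]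
    (m : Fin (dedekindPsi N) → LaurentSeries ℤ) : Prop where
  memQ : ∀ i, coeffMap (Int.castRingHom ℚ) (m i) ∈ modularFunctionFieldFull N
  memk : ∀ i, coeffMap (Int.castRingHom k) (m i) ∈ modularFunctionFieldFullC k N
  indep : LinearIndependent ↥(IntermediateField.adjoin k {jqModC k})
    (fun i => coeffMap (Int.castRingHom k) (m i))

/-- The `W`-series `S(f) = ∑ f_i(j_W) * m_i`. -/
def ga_S (m : Fin (dedekindPsi N) → LaurentSeries ℤ)
    (f : Fin (dedekindPsi N) → Polynomial ↥W) : LaurentSeries ↥W :=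
  ∑ i, evalL (jqModC ↥W) (f i) * coeffMap (Int.castRingHom ↥W) (m i)

omit [Algebra ℚ L] in
/-- `red (S(f)) = ∑ f̄_i(j̄) * m̄_i`. -/
theorem ga_red_S (m : Fin (dedekindPsi N) → LaurentSeries ℤ)
    (f : Fin (dedekindPsi N) → Polynomial ↥W) :
    coeffMap res (ga_S W N m f) =
      ∑ i, evalL (jqModC k) ((f i).map res) * coeffMap (Int.castRingHom k) (m i) := by
  rw [ga_S, map_sum]
  refine Finset.sum_congr rfl fun i _ => ?_
  rw [map_mul, degMain_coeffMap_evalL, coeffMap_jqModC, coeffMap_coeffMap]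
  congr 1
  exact coeffMap_congr (RingHom.ext_int _ _) (m i)

omit [Algebra ℚ L] in
/-- (DEG_W) If `red (∑ f_i(j_W) * m_i) = 0` then `ϖ ∣ f_i` for all `i`. -/
theorem ga_degW {m : Fin (dedekindPsi N) → LaurentSeries ℤ} (hm : ga_IsMonoFamily N k m)
    (f : Fin (dedekindPsi N) → Polynomial ↥W) (h : coeffMap res (ga_S W N m f) = 0) :
    ∀ i, (f i).map res = 0 := by
  intro i
  rw [ga_red_S] at h
  have hsum : ∑ i, (⟨evalL (jqModC k) ((f i).map res), degMain_evalL_mem_adjoin _ _⟩ :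
      ↥(IntermediateField.adjoin k {jqModC k})) • coeffMap (Int.castRingHom k) (m i) = 0 := by
    rw [← h]
    exact Finset.sum_congr rfl fun i _ => rfl
  have h2 := Fintype.linearIndependent_iff.mp hm.indep _ hsum i
  exact degMain_evalL_eq_zero _ (congrArg Subtype.val h2)

variable [NeZero N]

/-- The coercion of `∑ f_i(j) * b_i` to `L((q))` is `ι (S(f))`. -/
theorem ga_coe_sum {m : Fin (dedekindPsi N) → LaurentSeries ℤ}
    (hm : ∀ i, coeffMap (Int.castRingHom ℚ) (m i) ∈ modularFunctionFieldFull N)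
    (f : Fin (dedekindPsi N) → Polynomial ↥W) :
    ((∑ i, evW W N (jF L N) (f i) * ga_bF L N (m i) : ↥(FL L N)) : LaurentSeries L) =
      coeffMap W.subtype (ga_S W N m f) := by
  rw [ga_S, map_sum]
  have h : ((∑ i, evW W N (jF L N) (f i) * ga_bF L N (m i) : ↥(FL L N)) : LaurentSeries L) =
      ∑ i, ((evW W N (jF L N) (f i) * ga_bF L N (m i) : ↥(FL L N)) : LaurentSeries L) :=
    map_sum (algebraMap ↥(FL L N) (LaurentSeries L)) _ _
  rw [h]
  refine Finset.sum_congr rfl fun i _ => ?_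
  rw [map_mul, ← ga_coe_evW_j W N (f i), ← ga_bF_coe_W W N (m i) (hm i)]
  rfl

end Mono

/-! ## Consequences of `BaseData` -/

section Base

variable {N ℓ : ℕ} {L : Type} [Field L] [Algebra ℚ L] {W : ValuationSubring L} {k : Type}
  [Field k] {res : ↥W →+* k} {ϖ : ↥W}

omit [Algebra ℚ L] in
theorem ga_res_varpi (hD : BaseData N ℓ W res ϖ) : res ϖ = 0 := by
  have : ϖ ∈ RingHom.ker res := by rw [hD.ker_res]; exact Ideal.mem_span_singleton_self ϖ
  exact this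

omit [Algebra ℚ L] in
theorem ga_res_eq_zero_iff (hD : BaseData N ℓ W res ϖ) (w : ↥W) : res w = 0 ↔ ϖ ∣ w := by
  rw [← RingHom.mem_ker, hD.ker_res, Ideal.mem_span_singleton]

omit [Algebra ℚ L] in
/-- "`ϖ ∣ P`": `P̄ = 0 ↔ C ϖ ∣ P`. -/
theorem ga_map_res_eq_zero_iff (hD : BaseData N ℓ W res ϖ) (P : Polynomial ↥W) :
    P.map res = 0 ↔ Polynomial.C ϖ ∣ P := by
  rw [Polynomial.C_dvd_iff_dvd_coeff, Polynomial.ext_iff]
  refine forall_congr' fun n => ?_
  rw [Polynomial.coeff_map, Polynomial.coeff_zero, ga_res_eq_zero_iff hD]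

omit [Algebra ℚ L] in
theorem ga_varpi_ne_zero (hD : BaseData N ℓ W res ϖ) : ϖ ≠ 0 := hD.irreducible.ne_zero

omit [Algebra ℚ L] in
/-- `ϖ` is a prime element of `W[T]` (GAUSS). -/
theorem ga_prime_C [IsDiscreteValuationRing ↥W] (hD : BaseData N ℓ W res ϖ) :
    Prime (Polynomial.C ϖ : Polynomial ↥W) :=
  Polynomial.prime_C_iff.mpr hD.irreducible.prime

theorem ga_cW_varpi_ne_zero (hD : BaseData N ℓ W res ϖ) : cW W N ϖ ≠ 0 := by
  intro h
  have h1 : ((cW W N ϖ : ↥(FL L N)) : LaurentSeries L) = 0 := by rw [h]; rfl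
  rw [ga_coe_cW] at h1
  have h2 : ((ϖ : ↥W) : L) = 0 := HahnSeries.C_injective (by rw [h1, map_zero])
  exact ga_varpi_ne_zero hD (Subtype.ext h2)

omit [Algebra ℚ L] in
/-- CONTENT: removal of the common `ϖ`-content of a finite family of polynomials over `W`, not all
zero. -/
theorem ga_content_removal [IsDiscreteValuationRing ↥W] (hD : BaseData N ℓ W res ϖ)
    {ι : Type*} [Finite ι] (F : ι → Polynomial ↥W) (hF : ∃ i, F i ≠ 0) :
    ∃ (e : ℕ) (F' : ι → Polynomial ↥W), (∀ i, F i = Polynomial.C ϖ ^ e * F' i) ∧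
      ∃ i, (F' i).map res ≠ 0 := by
  classical
  obtain ⟨i₀, hi₀⟩ := hF
  have hfin : FiniteMultiplicity (Polynomial.C ϖ) (F i₀) :=
    FiniteMultiplicity.of_not_isUnit (ga_prime_C hD).not_isUnit hi₀
  have hex : ∃ e : ℕ, ¬ ∀ i, Polynomial.C ϖ ^ (e + 1) ∣ F i := by
    obtain ⟨n, hn⟩ := hfin
    exact ⟨n, fun h => hn (h i₀)⟩
  have hmin : ∀ i, Polynomial.C ϖ ^ (Nat.find hex) ∣ F i := by
    intro i
    rcases Nat.eq_zero_or_pos (Nat.find hex) with h0 | hpos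
    · rw [h0, pow_zero]; exact one_dvd _
    · have := Nat.find_min hex (Nat.sub_one_lt hpos.ne')
      rw [not_not] at this
      have h := this i
      rwa [Nat.sub_add_cancel hpos] at h
  choose F' hF' using hmin
  refine ⟨Nat.find hex, F', hF', ?_⟩
  by_contra hall
  rw [not_exists] at hall
  refine Nat.find_spec hex fun i => ?_
  obtain ⟨G, hG⟩ := (ga_map_res_eq_zero_iff hD (F' i)).mp (not_not.mp (hall i))
  exact ⟨G, by rw [hF' i, hG, pow_succ]; ring⟩

end Base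

/-! ## The subrings `L[t]` and `W[t]` of `F` -/

section AB

variable {L : Type} [Field L] [Algebra ℚ L] (W : ValuationSubring L) (N : ℕ)

/-- `B_t = L[t] ⊆ F` (all `p(t)`, `p ∈ L[T]`). -/
def ga_B (L : Type) [Field L] [Algebra ℚ L] (N : ℕ) (t : ↥(FL L N)) : Subring ↥(FL L N) :=
  (Polynomial.eval₂RingHom (algebraMap L ↥(FL L N)) t).range

/-- `A_t = W[t] ⊆ F` (all `p(t)`, `p ∈ W[T]`). -/
def ga_A (t : ↥(FL L N)) : Subring ↥(FL L N) := (evW W N t).range

theorem ga_mem_B_iff (t c : ↥(FL L N)) :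
    c ∈ ga_B L N t ↔ ∃ p : Polynomial L, Polynomial.eval₂ (algebraMap L ↥(FL L N)) t p = c :=
  Iff.rfl

theorem ga_mem_A_iff (t c : ↥(FL L N)) :
    c ∈ ga_A W N t ↔ ∃ p : Polynomial ↥W, evW W N t p = c :=
  Iff.rfl

theorem ga_evW_eq_eval₂ (t : ↥(FL L N)) (p : Polynomial ↥W) :
    evW W N t p = Polynomial.eval₂ (algebraMap L ↥(FL L N)) t (p.map W.subtype) := by
  rw [Polynomial.eval₂_map]
  rfl

theorem ga_A_le_B (t : ↥(FL L N)) : ga_A W N t ≤ ga_B L N t := by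
  rintro c ⟨p, rfl⟩
  exact ⟨p.map W.subtype, (ga_evW_eq_eval₂ W N t p).symm⟩

theorem ga_self_mem_A (t : ↥(FL L N)) : t ∈ ga_A W N t := ⟨Polynomial.X, ga_evW_X W N t⟩

theorem ga_cW_mem_A (t : ↥(FL L N)) (w : ↥W) : cW W N w ∈ ga_A W N t :=
  ⟨Polynomial.C w, ga_evW_C W N t w⟩

theorem ga_algebraMap_mem_B (t : ↥(FL L N)) (a : L) : algebraMap L ↥(FL L N) a ∈ ga_B L N t :=
  ⟨Polynomial.C a, by simp⟩

theorem ga_B_le_K0 [NeZero N] {t : ↥(FL L N)} (ht : t ∈ ga_K0 L N) {c : ↥(FL L N)}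
    (hc : c ∈ ga_B L N t) : c ∈ ga_K0 L N := by
  obtain ⟨p, rfl⟩ := hc
  rw [Polynomial.coe_eval₂RingHom, Polynomial.eval₂_eq_sum_range]
  exact sum_mem fun i _ => mul_mem ((ga_K0 L N).algebraMap_mem _) (pow_mem ht i)

end AB

/-! ## Statements of the work packages -/

/-- (LDeg) The degree bound over `L`: a family of elements of `F` that is linearly independent over
`K0 = L(j)` has at most `ψ(N)` members. -/
def ga_LDegStatement : Prop :=
  ∀ (N : ℕ) [NeZero N] (L : Type) [Field L] [Algebra ℚ L] (s : ℕ) (x : Fin s → ↥(FL L N)),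
    LinearIndependent ↥(ga_K0 L N) x → s ≤ dedekindPsi N

/-- (Frac) Every element of `K0 = L(j)` is a quotient `f(j) / g(j)` with `f, g ∈ W[T]`, `g ≠ 0`. -/
def ga_FracStatement : Prop :=
  ∀ (N : ℕ) [NeZero N] (L : Type) [Field L] [Algebra ℚ L] (W : ValuationSubring L)
    (c : ↥(FL L N)), c ∈ ga_K0 L N →
    ∃ f g : Polynomial ↥W, g ≠ 0 ∧ evW W N (jF L N) g * c = evW W N (jF L N) f

/-- (MonoEx) Monomial families exist (from the degree mod `ℓ`). -/
def ga_MonoExStatement : Prop :=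
  ∀ (N : ℕ) [NeZero N] (ℓ : ℕ) [Fact ℓ.Prime], ¬ ℓ ∣ N →
    ∀ (k : Type) [Field k] [CharP k ℓ] [IsAlgClosed k],
      ∃ m : Fin (dedekindPsi N) → LaurentSeries ℤ, ga_IsMonoFamily N k m

/-- (Basis) Every `x ∈ F` satisfies a normalised relation `g(j) * x = ∑ f_i(j) * b_i` with `g ≠ 0`
and `(g, f_0, …)` not all divisible by `ϖ`. -/
def ga_BasisStatement : Prop :=
  ∀ (N : ℕ) [NeZero N] (ℓ : ℕ) [Fact ℓ.Prime] (L : Type) [Field L] [Algebra ℚ L]
    (W : ValuationSubring L) [IsDiscreteValuationRing ↥W] (k : Type) [Field k] [IsAlgClosed k]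
    [CharP k ℓ] (res : ↥W →+* k) (ϖ : ↥W), BaseData N ℓ W res ϖ →
    ∀ m : Fin (dedekindPsi N) → LaurentSeries ℤ, ga_IsMonoFamily N k m →
    ∀ x : ↥(FL L N), ∃ (g : Polynomial ↥W) (f : Fin (dedekindPsi N) → Polynomial ↥W),
      g ≠ 0 ∧ ¬ (g.map res = 0 ∧ ∀ i, (f i).map res = 0) ∧
      evW W N (jF L N) g * x = ∑ i, evW W N (jF L N) (f i) * ga_bF L N (m i)

/-- (NF) Normal form of the elements of `M'`: `g(j) * x = ∑ f_i(j) * b_i` with `ḡ ≠ 0`. -/
def ga_NFStatement : Prop :=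
  ∀ (N : ℕ) [NeZero N] (ℓ : ℕ) [Fact ℓ.Prime] (L : Type) [Field L] [Algebra ℚ L]
    (W : ValuationSubring L) [IsDiscreteValuationRing ↥W] (k : Type) [Field k] [IsAlgClosed k]
    [CharP k ℓ] (res : ↥W →+* k) (ϖ : ↥W), BaseData N ℓ W res ϖ →
    ∀ m : Fin (dedekindPsi N) → LaurentSeries ℤ, ga_IsMonoFamily N k m →
    ∀ x : ↥(FL L N), x ∈ ga_M W res N →
      ∃ (g : Polynomial ↥W) (f : Fin (dedekindPsi N) → Polynomial ↥W), g.map res ≠ 0 ∧
        evW W N (jF L N) g * x = ∑ i, evW W N (jF L N) (f i) * ga_bF L N (m i)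

/-- (WIntV) `F ∩ ι(W((q))) ⊆ V`. -/
def ga_WIntVStatement : Prop :=
  ∀ (N : ℕ) [NeZero N] (ℓ : ℕ) [Fact ℓ.Prime] (L : Type) [Field L] [Algebra ℚ L]
    (W : ValuationSubring L) [IsDiscreteValuationRing ↥W] (k : Type) [Field k] [IsAlgClosed k]
    [CharP k ℓ] (res : ↥W →+* k) (ϖ : ↥W), BaseData N ℓ W res ϖ →
    ∀ x : ↥(FL L N), ga_WInt W N x → x ∈ gaussV W res N

/-- (RhoEx) The reduction map `ρ : M' → k((q))` exists. -/
def ga_RhoExStatement : Prop :=
  ∀ (N : ℕ) [NeZero N] (L : Type) [Field L] [Algebra ℚ L] (W : ValuationSubring L) (k : Type)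
    [Field k] (res : ↥W →+* k),
    ∃ ρ : ↥(ga_M W res N) →+* LaurentSeries k, ga_IsRho W res N ρ

/-- (RhoKer) `ker ρ = ϖ M'`. -/
def ga_RhoKerStatement : Prop :=
  ∀ (N : ℕ) [NeZero N] (ℓ : ℕ) [Fact ℓ.Prime] (L : Type) [Field L] [Algebra ℚ L]
    (W : ValuationSubring L) [IsDiscreteValuationRing ↥W] (k : Type) [Field k] [IsAlgClosed k]
    [CharP k ℓ] (res : ↥W →+* k) (ϖ : ↥W), BaseData N ℓ W res ϖ →
    ∀ ρ : ↥(ga_M W res N) →+* LaurentSeries k, ga_IsRho W res N ρ →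
    ∀ x : ↥(ga_M W res N), ρ x = 0 ↔
      ∃ x' : ↥(ga_M W res N), (x : ↥(FL L N)) = cW W N ϖ * (x' : ↥(FL L N))

/-- (RhoRange) `ρ(M') = F_k`. -/
def ga_RhoRangeStatement : Prop :=
  ∀ (N : ℕ) [NeZero N] (ℓ : ℕ) [Fact ℓ.Prime] (L : Type) [Field L] [Algebra ℚ L]
    (W : ValuationSubring L) [IsDiscreteValuationRing ↥W] (k : Type) [Field k] [IsAlgClosed k]
    [CharP k ℓ] (res : ↥W →+* k) (ϖ : ↥W), BaseData N ℓ W res ϖ →
    ∀ ρ : ↥(ga_M W res N) →+* LaurentSeries k, ga_IsRho W res N ρ →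
    ∀ z : LaurentSeries k, z ∈ Fk k N ↔ ∃ x : ↥(ga_M W res N), ρ x = z

/-- (Val) Every nonzero `x ∈ F` is `ϖ ^ n * u` with `n ∈ ℤ` and `u` a unit of `M'`. -/
def ga_ValStatement : Prop :=
  ∀ (N : ℕ) [NeZero N] (ℓ : ℕ) [Fact ℓ.Prime] (L : Type) [Field L] [Algebra ℚ L]
    (W : ValuationSubring L) [IsDiscreteValuationRing ↥W] (k : Type) [Field k] [IsAlgClosed k]
    [CharP k ℓ] (res : ↥W →+* k) (ϖ : ↥W), BaseData N ℓ W res ϖ →
    ∀ x : ↥(FL L N), x ≠ 0 → ∃ (n : ℤ) (u : ↥(FL L N)),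
      x = cW W N ϖ ^ n * u ∧ u ∈ ga_M W res N ∧ u⁻¹ ∈ ga_M W res N

/-- (MeqV) `M' = V`. -/
def ga_MeqVStatement : Prop :=
  ∀ (N : ℕ) [NeZero N] (ℓ : ℕ) [Fact ℓ.Prime] (L : Type) [Field L] [Algebra ℚ L]
    (W : ValuationSubring L) [IsDiscreteValuationRing ↥W] (k : Type) [Field k] [IsAlgClosed k]
    [CharP k ℓ] (res : ↥W →+* k) (ϖ : ↥W), BaseData N ℓ W res ϖ →
    ga_M W res N = gaussV W res N

/-- (O0Closed) `O₀` is integrally closed in `K0 = L(j)`. -/
def ga_O0ClosedStatement : Prop :=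
  ∀ (N : ℕ) [NeZero N] (ℓ : ℕ) [Fact ℓ.Prime] (L : Type) [Field L] [Algebra ℚ L]
    (W : ValuationSubring L) [IsDiscreteValuationRing ↥W] (k : Type) [Field k] [IsAlgClosed k]
    [CharP k ℓ] (res : ↥W →+* k) (ϖ : ↥W), BaseData N ℓ W res ϖ →
    ∀ c : ↥(FL L N), c ∈ ga_K0 L N → IsIntegral ↥(gaussO W res N) c → c ∈ gaussO W res N

/-- (BClosed) `B_t = L[t]` is integrally closed in `K0 = L(j)`, for `t = j` and `t = j⁻¹`. -/
def ga_BClosedStatement : Prop :=
  ∀ (N : ℕ) [NeZero N] (L : Type) [Field L] [Algebra ℚ L] (t : ↥(FL L N)),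
    (t = jF L N ∨ t = (jF L N)⁻¹) →
    ∀ c : ↥(FL L N), c ∈ ga_K0 L N → IsIntegral ↥(ga_B L N t) c → c ∈ ga_B L N t

/-- (Inter) `O₀ ∩ L[t] ⊆ W[t]`, for `t = j` and `t = j⁻¹`. -/
def ga_InterStatement : Prop :=
  ∀ (N : ℕ) [NeZero N] (ℓ : ℕ) [Fact ℓ.Prime] (L : Type) [Field L] [Algebra ℚ L]
    (W : ValuationSubring L) [IsDiscreteValuationRing ↥W] (k : Type) [Field k] [IsAlgClosed k]
    [CharP k ℓ] (res : ↥W →+* k) (ϖ : ↥W), BaseData N ℓ W res ϖ →
    ∀ t : ↥(FL L N), (t = jF L N ∨ t = (jF L N)⁻¹) →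
    ∀ c : ↥(FL L N), c ∈ gaussO W res N → c ∈ ga_B L N t → c ∈ ga_A W N t

/-- (Single) An element of `F` integral over `O₀` and over `L[t]` is integral over `W[t]`
(`t = j` or `t = j⁻¹`; minimal polynomial over `K0`). -/
def ga_SingleStatement : Prop :=
  ∀ (N : ℕ) [NeZero N] (ℓ : ℕ) [Fact ℓ.Prime] (L : Type) [Field L] [Algebra ℚ L]
    (W : ValuationSubring L) [IsDiscreteValuationRing ↥W] (k : Type) [Field k] [IsAlgClosed k]
    [CharP k ℓ] (res : ↥W →+* k) (ϖ : ↥W), BaseData N ℓ W res ϖ →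
    ∀ t : ↥(FL L N), (t = jF L N ∨ t = (jF L N)⁻¹) →
    ∀ y : ↥(FL L N), IsIntegral ↥(gaussO W res N) y → IsIntegral ↥(ga_B L N t) y →
      IsIntegral ↥(ga_A W N t) y

/-- (Pow) If `x` is integral over `W[j, j⁻¹]` then `j ^ n * x` is integral over `W[j]` for some
`n`. -/
def ga_PowStatement : Prop :=
  ∀ (N : ℕ) [NeZero N] (L : Type) [Field L] [Algebra ℚ L] (W : ValuationSubring L)
    (x : ↥(FL L N)), x ∈ chart W N {jF L N, (jF L N)⁻¹} →
    ∃ n : ℕ, jF L N ^ n * x ∈ chart W N {jF L N}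

/-- (RedO) The reduction map on `O₀`: `ρ(O₀) = k(j̄)` and `O₀ ∩ ker ρ = ϖ O₀`. -/
def ga_RedOStatement : Prop :=
  ∀ (N : ℕ) [NeZero N] (ℓ : ℕ) [Fact ℓ.Prime] (L : Type) [Field L] [Algebra ℚ L]
    (W : ValuationSubring L) [IsDiscreteValuationRing ↥W] (k : Type) [Field k] [IsAlgClosed k]
    [CharP k ℓ] (res : ↥W →+* k) (ϖ : ↥W), BaseData N ℓ W res ϖ →
    ∀ ρ : ↥(gaussV W res N) →+* LaurentSeries k, IsGaussRed W res N ϖ ρ →
      (∀ c : ↥(gaussV W res N), (c : ↥(FL L N)) ∈ gaussO W res N →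
        ρ c ∈ IntermediateField.adjoin k {jqModC k}) ∧
      (∀ z : LaurentSeries k, z ∈ IntermediateField.adjoin k {jqModC k} →
        ∃ c : ↥(gaussV W res N), (c : ↥(FL L N)) ∈ gaussO W res N ∧ ρ c = z) ∧
      (∀ c : ↥(gaussV W res N), (c : ↥(FL L N)) ∈ gaussO W res N → ρ c = 0 →
        ∃ c' : ↥(FL L N), c' ∈ gaussO W res N ∧ (c : ↥(FL L N)) = cW W N ϖ * c')

end

end Fermat.Agent.S18
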