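/-
S18 / block G (twin A) — package GA/LDeg: the degree bound `[F_L : L(j)] ≤ ψ(N)` over an arbitrary
field `L` of characteristic `0`, deduced from the bound over `ℚ` (`Char0DegStatement`), and
`FinLStatement` (`j` is transcendental over `L` and `F_L / L(j)` is finite).

Notation in the comments: `F_ℚ = modularFunctionFieldFull N`, `K_ℚ = ℚ(jq)`, `e = coeffEmb L`,
`K_L = L(j) ⊆ L((q))`, `S = ∑ K_L e(x_i)` for a spanning family `x` of `F_ℚ` over `K_ℚ`.
-/
import Fermat.Agent.S18.GAInterfaces

set_option autoImplicit false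

open ModularCurve AlgebraicCurve Polynomial Fermat.Agent.S28

namespace Fermat.Agent.S18

noncomputable section

/-! ## Step 1: a finite spanning family of `F_ℚ` over `ℚ(j)` -/

/-- There is a family of at most `ψ(N)` elements of `F_ℚ` spanning `F_ℚ` over `ℚ(j)`. -/
theorem ga_ldeg_span (hC : Char0DegStatement) (N : ℕ) [NeZero N] :
    ∃ (d : ℕ) (x : Fin d → LaurentSeries ℚ), d ≤ dedekindPsi N ∧
      (∀ i, x i ∈ modularFunctionFieldFull N) ∧
      ∀ y ∈ modularFunctionFieldFull N,
        y ∈ Submodule.span ↥(IntermediateField.adjoin ℚ {jq}) (Set.range x) := by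
  classical
  let P : ℕ → Prop := fun d => ∃ x : Fin d → LaurentSeries ℚ,
    (∀ i, x i ∈ modularFunctionFieldFull N) ∧
      LinearIndependent ↥(IntermediateField.adjoin ℚ {jq}) x
  have hP0 : P 0 := ⟨Fin.elim0, fun i => i.elim0, linearIndependent_empty_type⟩
  have hle : ∀ d, P d → d ≤ dedekindPsi N := fun d ⟨x, hx, hli⟩ => hC N d x hx hli
  have hd : P (Nat.findGreatest P (dedekindPsi N)) :=
    Nat.findGreatest_spec (Nat.zero_le _) hP0
  obtain ⟨x, hx, hli⟩ := hd
  refine ⟨_, x, Nat.findGreatest_le _, hx, fun y hy => ?_⟩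
  by_contra hy'
  have hP1 : P (Nat.findGreatest P (dedekindPsi N) + 1) := by
    refine ⟨Fin.snoc x y, fun i => ?_, linearIndependent_finSnoc.mpr ⟨hli, hy'⟩⟩
    refine Fin.lastCases ?_ (fun j => ?_) i
    · simpa using hy
    · simpa using hx j
  exact Nat.findGreatest_is_greatest (Nat.lt_succ_self _) (hle _ hP1) hP1

/-! ## Step 2: `e` maps `ℚ(j)` into `L(j)` -/

theorem ga_ldeg_emb_algebraMap (L : Type) [Field L] [Algebra ℚ L] (a : ℚ) :
    coeffEmb L (algebraMap ℚ (LaurentSeries ℚ) a) =
      algebraMap L (LaurentSeries L) (algebraMap ℚ L a) := by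
  rw [algebraMap_laurentSeries_eq_single, algebraMap_laurentSeries_eq_single, coeffEmb,
    coeffMap_single]

theorem ga_ldeg_emb_mem_aux (L : Type) [Field L] [Algebra ℚ L] (c : LaurentSeries ℚ)
    (hc : c ∈ Subfield.closure (Set.range (algebraMap ℚ (LaurentSeries ℚ)) ∪ {jq})) :
    coeffEmb L c ∈ IntermediateField.adjoin L {jqModC L} := by
  induction hc using Subfield.closure_induction with
  | mem y hy =>
      rcases hy with ⟨a, rfl⟩ | rfl
      · rw [ga_ldeg_emb_algebraMap]
        exact IntermediateField.algebraMap_mem _ _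
      · rw [coeffEmb_jq]
        exact IntermediateField.mem_adjoin_simple_self L _
  | one => rw [map_one]; exact one_mem _
  | add x y _ _ hx hy => rw [map_add]; exact add_mem hx hy
  | neg x _ hx => rw [map_neg]; exact neg_mem hx
  | inv x _ hx => rw [map_inv₀]; exact inv_mem hx
  | mul x y _ _ hx hy => rw [map_mul]; exact mul_mem hx hy

theorem ga_ldeg_emb_mem (L : Type) [Field L] [Algebra ℚ L] {c : LaurentSeries ℚ}
    (hc : c ∈ IntermediateField.adjoin ℚ {jq}) :
    coeffEmb L c ∈ IntermediateField.adjoin L {jqModC L} :=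
  ga_ldeg_emb_mem_aux L c hc

/-! ## Step 3: the span `S` of the `e (x i)` over `L(j)` is a field containing `F_L` -/

/-- `S = ∑ L(j) e(x_i)`. -/
def ga_ldeg_S (L : Type) [Field L] [Algebra ℚ L] {d : ℕ} (x : Fin d → LaurentSeries ℚ) :
    Submodule ↥(IntermediateField.adjoin L {jqModC L}) (LaurentSeries L) :=
  Submodule.span _ (Set.range fun i => coeffEmb L (x i))

section S

variable (L : Type) [Field L] [Algebra ℚ L] {d : ℕ} (x : Fin d → LaurentSeries ℚ)

theorem ga_ldeg_S_emb {y : LaurentSeries ℚ}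
    (hy : y ∈ Submodule.span ↥(IntermediateField.adjoin ℚ {jq}) (Set.range x)) :
    coeffEmb L y ∈ ga_ldeg_S L x := by
  induction hy using Submodule.span_induction with
  | mem y hy =>
      obtain ⟨i, rfl⟩ := hy
      exact Submodule.subset_span ⟨i, rfl⟩
  | zero => rw [map_zero]; exact zero_mem _
  | add a b _ _ ha hb => rw [map_add]; exact add_mem ha hb
  | smul c a _ ha =>
      have h : coeffEmb L (c • a) =
          (⟨coeffEmb L (c : LaurentSeries ℚ), ga_ldeg_emb_mem L c.2⟩ :
            ↥(IntermediateField.adjoin L {jqModC L})) • coeffEmb L a := by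
        show coeffEmb L ((c : LaurentSeries ℚ) * a) = coeffEmb L (c : LaurentSeries ℚ) * coeffEmb L a
        rw [map_mul]
      rw [h]
      exact Submodule.smul_mem _ _ ha

variable {N : ℕ}

theorem ga_ldeg_S_algebraMap
    (hspan : ∀ y ∈ modularFunctionFieldFull N,
      y ∈ Submodule.span ↥(IntermediateField.adjoin ℚ {jq}) (Set.range x))
    (c : ↥(IntermediateField.adjoin L {jqModC L})) :
    (c : LaurentSeries L) ∈ ga_ldeg_S L x := by
  have h1 : (1 : LaurentSeries L) ∈ ga_ldeg_S L x := by
    have := ga_ldeg_S_emb L x (hspan 1 (one_mem _))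
    rwa [map_one] at this
  have h2 : (c : LaurentSeries L) = c • (1 : LaurentSeries L) := by
    show (c : LaurentSeries L) = (c : LaurentSeries L) * 1
    rw [mul_one]
  rw [h2]
  exact Submodule.smul_mem _ _ h1

theorem ga_ldeg_S_mul (hx : ∀ i, x i ∈ modularFunctionFieldFull N)
    (hspan : ∀ y ∈ modularFunctionFieldFull N,
      y ∈ Submodule.span ↥(IntermediateField.adjoin ℚ {jq}) (Set.range x))
    {a b : LaurentSeries L} (ha : a ∈ ga_ldeg_S L x) (hb : b ∈ ga_ldeg_S L x) :
    a * b ∈ ga_ldeg_S L x := by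
  have h1 : ∀ i, ∀ a ∈ ga_ldeg_S L x, a * coeffEmb L (x i) ∈ ga_ldeg_S L x := by
    intro i a ha
    induction ha using Submodule.span_induction with
    | mem y hy =>
        obtain ⟨j, rfl⟩ := hy
        show coeffEmb L (x j) * coeffEmb L (x i) ∈ ga_ldeg_S L x
        rw [← map_mul]
        exact ga_ldeg_S_emb L x (hspan _ (mul_mem (hx j) (hx i)))
    | zero => rw [zero_mul]; exact zero_mem _
    | add a b _ _ ha hb => rw [add_mul]; exact add_mem ha hb
    | smul c a _ ha => rw [smul_mul_assoc]; exact Submodule.smul_mem _ _ ha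
  induction hb using Submodule.span_induction with
  | mem y hy =>
      obtain ⟨i, rfl⟩ := hy
      exact h1 i a ha
  | zero => rw [mul_zero]; exact zero_mem _
  | add b c _ _ hb hc => rw [mul_add]; exact add_mem hb hc
  | smul c b _ hb => rw [mul_smul_comm]; exact Submodule.smul_mem _ _ hb

theorem ga_ldeg_S_inv (hx : ∀ i, x i ∈ modularFunctionFieldFull N)
    (hspan : ∀ y ∈ modularFunctionFieldFull N,
      y ∈ Submodule.span ↥(IntermediateField.adjoin ℚ {jq}) (Set.range x))
    {a : LaurentSeries L} (ha : a ∈ ga_ldeg_S L x) : a⁻¹ ∈ ga_ldeg_S L x := by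
  let A : Subalgebra ↥(IntermediateField.adjoin L {jqModC L}) (LaurentSeries L) :=
    { carrier := ga_ldeg_S L x
      mul_mem' := fun ha hb => ga_ldeg_S_mul L x hx hspan ha hb
      add_mem' := fun ha hb => add_mem ha hb
      algebraMap_mem' := fun c => ga_ldeg_S_algebraMap L x hspan c }
  have hA : Subalgebra.toSubmodule A = ga_ldeg_S L x := rfl
  have hfg : (Subalgebra.toSubmodule A).FG := by
    rw [hA]
    exact Submodule.fg_span (Set.finite_range _)
  have hint : IsIntegral ↥(IntermediateField.adjoin L {jqModC L}) a :=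
    IsIntegral.of_mem_of_fg A hfg a ha
  exact Subalgebra.inv_mem_of_algebraic (A := A) (x := ⟨a, ha⟩) hint.isAlgebraic

/-- `F_L ⊆ S`. -/
theorem ga_ldeg_FL_le (hx : ∀ i, x i ∈ modularFunctionFieldFull N)
    (hspan : ∀ y ∈ modularFunctionFieldFull N,
      y ∈ Submodule.span ↥(IntermediateField.adjoin ℚ {jq}) (Set.range x))
    {z : LaurentSeries L} (hz : z ∈ FL L N) : z ∈ ga_ldeg_S L x := by
  rw [mem_laurentBaseChange_iff] at hz
  induction hz using Subfield.closure_induction with
  | mem y hy =>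
      rcases hy with ⟨a, rfl⟩ | ⟨w, hw, rfl⟩
      · exact ga_ldeg_S_algebraMap L x hspan
          (algebraMap L ↥(IntermediateField.adjoin L {jqModC L}) a)
      · exact ga_ldeg_S_emb L x (hspan w hw)
  | one =>
      have := ga_ldeg_S_emb L x (hspan 1 (one_mem _))
      rwa [map_one] at this
  | add a b _ _ ha hb => exact add_mem ha hb
  | neg a _ ha => exact neg_mem ha
  | inv a _ ha => exact ga_ldeg_S_inv L x hx hspan ha
  | mul a b _ _ ha hb => exact ga_ldeg_S_mul L x hx hspan ha hb

end S

/-! ## Step 4: transport of linear independence and the count -/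

section Transport

variable (N : ℕ) [NeZero N] (L : Type) [Field L] [Algebra ℚ L]

/-- Every element of `L(j) ⊆ L((q))` is the coercion of an element of `K0 ⊆ F`. -/
theorem ga_ldeg_coe_K0 {c : LaurentSeries L} (hc : c ∈ IntermediateField.adjoin L {jqModC L}) :
    ∃ c' : ↥(FL L N), c' ∈ ga_K0 L N ∧ (c' : LaurentSeries L) = c := by
  have h := IntermediateField.adjoin_map L {jF L N} (FL L N).val
  rw [Set.image_singleton] at h
  have h2 : (FL L N).val (jF L N) = jqModC L := rfl
  rw [h2] at h
  rw [← h] at hc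
  obtain ⟨c', hc', rfl⟩ := hc
  exact ⟨c', hc', rfl⟩

/-- A family of `F` linearly independent over `K0` is linearly independent over `L(j)` inside
`L((q))`. -/
theorem ga_ldeg_li_coe {s : ℕ} (v : Fin s → ↥(FL L N))
    (hv : LinearIndependent ↥(ga_K0 L N) v) :
    LinearIndependent ↥(IntermediateField.adjoin L {jqModC L})
      (fun i => (v i : LaurentSeries L)) := by
  rw [Fintype.linearIndependent_iff] at hv ⊢
  intro g hg i
  choose g' hg' hg'' using fun i => ga_ldeg_coe_K0 N L (g i).2
  have h0 : ∑ i, (⟨g' i, hg' i⟩ : ↥(ga_K0 L N)) • v i = 0 := by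
    apply Subtype.ext
    have h1 : ((∑ i, (⟨g' i, hg' i⟩ : ↥(ga_K0 L N)) • v i : ↥(FL L N)) : LaurentSeries L) =
        ∑ i, (((⟨g' i, hg' i⟩ : ↥(ga_K0 L N)) • v i : ↥(FL L N)) : LaurentSeries L) :=
      map_sum (algebraMap ↥(FL L N) (LaurentSeries L)) _ _
    rw [h1]
    refine Eq.trans (Finset.sum_congr rfl fun i _ => ?_) hg
    show (g' i : LaurentSeries L) * (v i : LaurentSeries L) = (g i : LaurentSeries L) * _
    rw [hg'' i]
  have h3 := hv _ h0 i
  apply Subtype.ext
  rw [← hg'' i]
  have h4 : g' i = 0 := congrArg Subtype.val h3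
  rw [h4]
  rfl

end Transport

/-- (LDeg) The degree bound over `L`. -/
theorem ga_ldeg_main : Char0DegStatement → ga_LDegStatement := by
  intro hC N _ L _ _ s v hv
  classical
  obtain ⟨d, x, hd, hx, hspan⟩ := ga_ldeg_span hC N
  have hli := ga_ldeg_li_coe N L v hv
  have hsub : Set.range (fun i => (v i : LaurentSeries L)) ≤
      Submodule.span ↥(IntermediateField.adjoin L {jqModC L})
        (Set.range fun i => coeffEmb L (x i)) := by
    rintro _ ⟨i, rfl⟩
    exact ga_ldeg_FL_le L x hx hspan (v i).2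
  have h := linearIndependent_le_span_aux' _ hli (Set.range fun i => coeffEmb L (x i)) hsub
  calc s = Fintype.card (Fin s) := (Fintype.card_fin s).symm
    _ ≤ Fintype.card (Set.range fun i => coeffEmb L (x i)) := h
    _ ≤ Fintype.card (Fin d) := Fintype.card_range_le _
    _ = d := Fintype.card_fin d
    _ ≤ dedekindPsi N := hd

/-! ## `FinLStatement` -/

/-- `j` is transcendental over `L`. -/
theorem ga_ldeg_transc (N : ℕ) [NeZero N] (L : Type) [Field L] [Algebra ℚ L] :
    Transcendental L (jF L N) := by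
  rintro ⟨p, hp, h⟩
  apply hp
  apply degMain_evalL_eq_zero
  rw [degMain_evalL_eq_aeval]
  have h1 := congrArg (FL L N).val h
  rw [map_zero, ← Polynomial.aeval_algHom_apply] at h1
  exact h1

/-- (FinL) `j` is transcendental over `L` and `F_L` is finite over `L(j)`. -/
theorem ga_ldeg_fin : Char0DegStatement → FinLStatement := by
  intro hC N _ L _ _
  refine ⟨ga_ldeg_transc N L, ?_⟩
  have hrank : Module.rank ↥(ga_K0 L N) ↥(FL L N) ≤ (dedekindPsi N : ℕ) := by
    apply rank_le
    intro s hs
    exact ga_ldeg_main hC N L s.card (fun i => ((s.equivFin.symm i : s) : ↥(FL L N)))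
      (hs.comp _ s.equivFin.symm.injective)
  have : Module.Free ↥(ga_K0 L N) ↥(FL L N) := Module.Free.of_divisionRing _ _
  exact Module.rank_lt_aleph0_iff.mp (lt_of_le_of_lt hrank Cardinal.natCast_lt_aleph0)

end

end Fermat.Agent.S18
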