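/-
S18, block G (twin A) — hypothesis-free deliverable (G0): `ga_fin : FinLStatement`
(`j` is transcendental over `L` and `F_L` is finite over `L(j)`).
-/
import Fermat.Agent.S18.GALDeg
import Fermat.Agent.S28.CMain

set_option autoImplicit false

namespace Fermat.Agent.S18

/-- (G0) `FinLStatement`, hypothesis-free. -/
theorem ga_fin : FinLStatement := ga_ldeg_fin Fermat.Agent.S28.c_char0Deg

/-- (LDeg) the degree bound `[F_L : L(j)] ≤ ψ(N)`, hypothesis-free. -/
theorem ga_ldeg : ga_LDegStatement := ga_ldeg_main Fermat.Agent.S28.c_char0Deg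

end Fermat.Agent.S18
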