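/-
S18 / block G (twin A) — package GA/OClosed (port of S28/KAOClosed.lean to a general DVR `W`).

(G3) The Gauss ring `O₀ = gaussO W res N` of `K0 = L(j)` is integrally closed in `K0`:
`ga_oclosed_main : ga_FracStatement → ga_O0ClosedStatement`.

Proof: (V) for `c ∈ K0`, either `c ∈ O₀` or `c ≠ 0 ∧ c⁻¹ ∈ O₀` (valuation property, from (Frac)
and removal of the common `ϖ`-content); (I) an element of a field which is integral over a
subring `R` and whose inverse lies in `R` lies in `R`.
-/
import Fermat.Agent.S18.GAInterfaces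

set_option autoImplicit false

open ModularCurve AlgebraicCurve Polynomial Fermat.Agent.S28

namespace Fermat.Agent.S18

noncomputable section

/-- For `i ≤ m` and `c ≠ 0` in a field: `c ^ i * (c⁻¹) ^ m = (c⁻¹) ^ (m - i)`. -/
theorem ga_oclosed_pow_mul_inv_pow {E : Type*} [Field E] {c : E} (hc0 : c ≠ 0) {i m : ℕ}
    (hi : i ≤ m) : c ^ i * (c⁻¹) ^ m = (c⁻¹) ^ (m - i) := by
  obtain ⟨n, rfl⟩ := Nat.exists_eq_add_of_le hi
  rw [Nat.add_sub_cancel_left, pow_add, ← mul_assoc, ← mul_pow, mul_inv_cancel₀ hc0, one_pow,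
    one_mul]

/-- (I) An element `c ≠ 0` of a field `E` which is integral over a subring `R` of `E` and whose
inverse lies in `R` lies in `R`. -/
theorem ga_oclosed_mem_of_inv_mem {E : Type*} [Field E] {R : Subring E} {c : E}
    (hc0 : c ≠ 0) (hinv : c⁻¹ ∈ R) (hint : IsIntegral ↥R c) : c ∈ R := by
  obtain ⟨p, hp, hev⟩ := hint
  rw [Polynomial.eval₂_eq_sum_range, Finset.sum_range_succ, hp.coeff_natDegree, map_one,
    one_mul] at hev
  rcases Nat.eq_zero_or_pos p.natDegree with h0 | hpos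
  · rw [h0, Finset.sum_range_zero, zero_add, pow_zero] at hev
    exact absurd hev one_ne_zero
  · obtain ⟨m, hm⟩ := Nat.exists_eq_succ_of_ne_zero hpos.ne'
    rw [hm] at hev
    have h2 : c ^ (m + 1) = -∑ i ∈ Finset.range (m + 1),
        algebraMap ↥R E (p.coeff i) * c ^ i :=
      eq_neg_of_add_eq_zero_right hev
    have h3 : c = c ^ (m + 1) * (c⁻¹) ^ m := by
      rw [pow_succ, mul_assoc, mul_comm c, ← mul_assoc, ← mul_pow, mul_inv_cancel₀ hc0, one_pow,
        one_mul]
    have h1 : c = -∑ i ∈ Finset.range (m + 1),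
        algebraMap ↥R E (p.coeff i) * (c⁻¹) ^ (m - i) := by
      calc c = c ^ (m + 1) * (c⁻¹) ^ m := h3
        _ = -∑ i ∈ Finset.range (m + 1), algebraMap ↥R E (p.coeff i) * (c⁻¹) ^ (m - i) := by
            rw [h2, neg_mul, Finset.sum_mul]
            congr 1
            refine Finset.sum_congr rfl fun i hi => ?_
            rw [mul_assoc,
              ga_oclosed_pow_mul_inv_pow hc0 (Nat.lt_succ_iff.mp (Finset.mem_range.mp hi))]
    rw [h1]
    exact neg_mem (sum_mem fun i _ => mul_mem (p.coeff i).2 (pow_mem hinv _))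

/-- (V) Valuation property of `O₀`: every `c ∈ K0 = L(j)` lies in `O₀`, or is nonzero with
inverse in `O₀`. -/
theorem ga_oclosed_valuation (hF : ga_FracStatement) {N : ℕ} [NeZero N] {ℓ : ℕ} {L : Type}
    [Field L] [Algebra ℚ L] {W : ValuationSubring L} [IsDiscreteValuationRing ↥W] {k : Type}
    [Field k] {res : ↥W →+* k} {ϖ : ↥W} (hD : BaseData N ℓ W res ϖ) {c : ↥(FL L N)}
    (hc : c ∈ ga_K0 L N) : c ∈ gaussO W res N ∨ (c ≠ 0 ∧ c⁻¹ ∈ gaussO W res N) := by
  obtain ⟨f, g, hg, e⟩ := hF N L W c hc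
  obtain ⟨n, F', hF', i, hi⟩ := ga_content_removal hD (fun b : Bool => if b then g else f)
    ⟨true, by simpa using hg⟩
  have hg' : g = Polynomial.C ϖ ^ n * F' true := by simpa using hF' true
  have hf' : f = Polynomial.C ϖ ^ n * F' false := by simpa using hF' false
  have hϖ : (Polynomial.C ϖ : Polynomial ↥W) ^ n ≠ 0 := pow_ne_zero _ (ga_prime_C hD).ne_zero
  have hev : evW W N (jF L N) (Polynomial.C ϖ ^ n) ≠ 0 := ga_evW_j_ne_zero W N hϖ
  have e' : evW W N (jF L N) (F' true) * c = evW W N (jF L N) (F' false) := by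
    rw [hg', hf', map_mul, map_mul, mul_assoc] at e
    exact mul_left_cancel₀ hev e
  by_cases hd : (F' true).map res = 0
  · right
    have hnf : (F' false).map res ≠ 0 := by
      cases i
      · exact hi
      · exact absurd hd hi
    have hf0 : evW W N (jF L N) (F' false) ≠ 0 :=
      ga_evW_j_ne_zero W N (ga_ne_zero_of_map_ne_zero W res hnf)
    have hc0 : c ≠ 0 := by
      rintro rfl
      rw [mul_zero] at e'
      exact hf0 e'.symm
    refine ⟨hc0, (ga_mem_gaussO_iff W res N _).mpr ⟨F' true, F' false, hnf, ?_⟩⟩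
    rw [← e', mul_assoc, mul_inv_cancel₀ hc0, mul_one]
  · left
    exact (ga_mem_gaussO_iff W res N _).mpr ⟨F' false, F' true, hd, e'⟩

/-- (G3) `O₀` is integrally closed in `K0 = L(j)`. -/
theorem ga_oclosed_main : ga_FracStatement → ga_O0ClosedStatement := by
  intro hF N _ ℓ _ L _ _ W _ k _ _ _ res ϖ hD c hc hint
  rcases ga_oclosed_valuation hF hD hc with h | ⟨hc0, hinv⟩
  · exact h
  · exact ga_oclosed_mem_of_inv_mem hc0 hinv hint

end

end Fermat.Agent.S18
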