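/-
S18 / block G (twin A) — package GA/Gauss (file `GAGaussT.lean`).

(G2 final)  `M' = V` and `GaussStatement`:

* `ga_gausst_meqv : ga_WIntVStatement → ga_ValStatement → ga_MeqVStatement`;
* `ga_gausst_main : ga_MeqVStatement → ga_WIntVStatement → ga_ValStatement → ga_RhoExStatement →
    ga_RhoKerStatement → ga_RhoRangeStatement → GaussStatement`.

Notation: `M' = ga_M W res N`, `V = gaussV W res N`, `O₀ = gaussO W res N`, `F = ↥(FL L N)`.
-/
import Fermat.Agent.S18.GAInterfaces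
import Fermat.Agent.S18.GAOClosed

set_option autoImplicit false

open ModularCurve AlgebraicCurve Polynomial Fermat.Agent.S28

namespace Fermat.Agent.S18

noncomputable section

/-! ## Generic lemmas in a field -/

/-- `c ^ n * u ∈ R` for `c, u ∈ R` and `0 ≤ n`. -/
theorem ga_gausst_zpow_mem {E : Type*} [Field E] {R : Subring E} {c u : E} (hc : c ∈ R)
    (hu : u ∈ R) {n : ℤ} (hn : 0 ≤ n) : c ^ n * u ∈ R := by
  obtain ⟨m, rfl⟩ := Int.eq_ofNat_of_zero_le hn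
  rw [zpow_natCast]
  exact mul_mem (pow_mem hc m) hu

/-- `(c ^ n * u)⁻¹ ∈ R` for `c, u⁻¹ ∈ R` and `n ≤ 0`. -/
theorem ga_gausst_zpow_inv_mem {E : Type*} [Field E] {R : Subring E} {c u : E} (hc : c ∈ R)
    (hu : u⁻¹ ∈ R) {n : ℤ} (hn : n ≤ 0) : (c ^ n * u)⁻¹ ∈ R := by
  have h : (c ^ n * u)⁻¹ = c ^ (-n) * u⁻¹ := by rw [mul_inv, ← zpow_neg]
  rw [h]
  exact ga_gausst_zpow_mem hc hu (by omega)

/-- If `x = c ^ n * u` with `n < 0` then `c⁻¹ = c ^ p * (x * u⁻¹)` for some `p : ℕ`. -/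
theorem ga_gausst_inv_eq {E : Type*} [Field E] {c u x : E} (hc : c ≠ 0) (hu : u ≠ 0) {n : ℤ}
    (hn : n < 0) (hx : x = c ^ n * u) : ∃ p : ℕ, c⁻¹ = c ^ p * (x * u⁻¹) := by
  obtain ⟨p, rfl⟩ := Int.eq_negSucc_of_lt_zero hn
  refine ⟨p, ?_⟩
  rw [hx, mul_assoc, mul_inv_cancel₀ hu, mul_one, zpow_negSucc, pow_succ, mul_inv, ← mul_assoc,
    mul_inv_cancel₀ (pow_ne_zero p hc), one_mul]

/-- A valuation subring contains every element which is integral over a subring contained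
in it. -/
theorem ga_gausst_mem_valSub {E : Type*} [Field E] {R : Subring E} (V' : ValuationSubring E)
    (hO : R ≤ V'.toSubring) {x : E} (hx : IsIntegral ↥R x) : x ∈ V' := by
  by_contra hx'
  have hx0 : x ≠ 0 := fun h => hx' (h ▸ zero_mem V')
  have hinv : x⁻¹ ∈ V'.toSubring := (V'.mem_or_inv_mem x).resolve_left hx'
  exact hx' (ga_oclosed_mem_of_inv_mem hx0 hinv (ga_isIntegral_mono hO hx))

/-! ## `M' = V` -/

section Data

variable {N : ℕ} [NeZero N] {ℓ : ℕ} {L : Type} [Field L] [Algebra ℚ L] {W : ValuationSubring L}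
  {k : Type} [Field k] {res : ↥W →+* k} {ϖ : ↥W}

/-- Constants of `W` lie in `M'`. -/
theorem ga_gausst_cW_mem_M (w : ↥W) : cW W N w ∈ ga_M W res N :=
  ga_WInt_mem_M W res N (ga_WInt_cW W N w)

/-- From (Val): every `x ∈ F` lies in `M'` or has its inverse in `M'`. -/
theorem ga_gausst_mem_or_inv_mem
    (hVal : ∀ x : ↥(FL L N), x ≠ 0 → ∃ (n : ℤ) (u : ↥(FL L N)),
      x = cW W N ϖ ^ n * u ∧ u ∈ ga_M W res N ∧ u⁻¹ ∈ ga_M W res N)
    (x : ↥(FL L N)) : x ∈ ga_M W res N ∨ x⁻¹ ∈ ga_M W res N := by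
  by_cases hx : x = 0
  · left
    rw [hx]
    exact zero_mem _
  · obtain ⟨n, u, hxu, hu, hu'⟩ := hVal x hx
    have hc : cW W N ϖ ∈ ga_M W res N := ga_gausst_cW_mem_M ϖ
    rcases le_total 0 n with hn | hn
    · left
      rw [hxu]
      exact ga_gausst_zpow_mem hc hu hn
    · right
      rw [hxu]
      exact ga_gausst_zpow_inv_mem hc hu' hn

/-- `M' ≤ V`, from (WIntV). -/
theorem ga_gausst_M_le_V
    (hWV : ∀ x : ↥(FL L N), ga_WInt W N x → x ∈ gaussV W res N) {x : ↥(FL L N)}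
    (hx : x ∈ ga_M W res N) : x ∈ gaussV W res N := by
  obtain ⟨g, hg, hz⟩ := hx
  have hg0 : evW W N (jF L N) g ≠ 0 :=
    ga_evW_j_ne_zero W N (ga_ne_zero_of_map_ne_zero W res hg)
  have hinv : (evW W N (jF L N) g)⁻¹ ∈ gaussV W res N := by
    have h := ga_div_mem_gaussO W res N (1 : Polynomial ↥W) hg
    rw [map_one, one_div] at h
    exact ga_gaussO_le_gaussV W res N h
  have hx : x = (evW W N (jF L N) g)⁻¹ * (evW W N (jF L N) g * x) := by
    rw [← mul_assoc, inv_mul_cancel₀ hg0, one_mul]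
  rw [hx]
  exact mul_mem hinv (hWV _ hz)

/-- `V ≤ M'`, from the valuation property of `M'`. -/
theorem ga_gausst_V_le_M
    (hmem : ∀ x : ↥(FL L N), x ∈ ga_M W res N ∨ x⁻¹ ∈ ga_M W res N) {x : ↥(FL L N)}
    (hx : x ∈ gaussV W res N) : x ∈ ga_M W res N := by
  have hint : IsIntegral ↥(ga_M W res N) x :=
    ga_isIntegral_mono (fun c hc => ga_gaussO_le_M W res N hc)
      ((mem_gaussV_iff W res N x).mp hx)
  rcases hmem x with h | h
  · exact h
  · by_cases hx0 : x = 0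
    · rw [hx0]
      exact zero_mem _
    · exact ga_oclosed_mem_of_inv_mem hx0 h hint

/-! ## The reduction map and `ϖ` -/

/-- (ρ1) `ρ ϖ = 0`. -/
theorem ga_gausst_rho_varpi (hD : BaseData N ℓ W res ϖ)
    {ρ : ↥(ga_M W res N) →+* LaurentSeries k} (hρ : ga_IsRho W res N ρ)
    (h : cW W N ϖ ∈ ga_M W res N) : ρ ⟨cW W N ϖ, h⟩ = 0 := by
  have h1 := hρ ⟨cW W N ϖ, h⟩ 1 (HahnSeries.C ϖ)
    (by rw [Polynomial.map_one]; exact one_ne_zero)
    (by rw [map_one, one_mul, degMain_coeffMap_C]; exact (ga_coe_cW W N ϖ).symm)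
  rw [Polynomial.map_one, map_one, mul_one, degMain_coeffMap_C, ga_res_varpi hD, map_zero] at h1
  exact h1

/-- `ϖ⁻¹ ∉ M'`. -/
theorem ga_gausst_inv_not_mem (hD : BaseData N ℓ W res ϖ)
    {ρ : ↥(ga_M W res N) →+* LaurentSeries k} (hρ : ga_IsRho W res N ρ) :
    (cW W N ϖ)⁻¹ ∉ ga_M W res N := by
  intro h
  have hc : cW W N ϖ ∈ ga_M W res N := ga_gausst_cW_mem_M ϖ
  have h1 : (⟨cW W N ϖ, hc⟩ : ↥(ga_M W res N)) * ⟨(cW W N ϖ)⁻¹, h⟩ = 1 :=
    Subtype.ext (mul_inv_cancel₀ (ga_cW_varpi_ne_zero hD))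
  have h2 := congrArg ρ h1
  rw [map_mul, ga_gausst_rho_varpi hD hρ hc, zero_mul, map_one] at h2
  exact zero_ne_one h2

/-- A valuation subring of `F` containing `M'` in which `ϖ` is not a unit is contained
in `M'`. -/
theorem ga_gausst_valSub_le_M (hD : BaseData N ℓ W res ϖ)
    (hVal : ∀ x : ↥(FL L N), x ≠ 0 → ∃ (n : ℤ) (u : ↥(FL L N)),
      x = cW W N ϖ ^ n * u ∧ u ∈ ga_M W res N ∧ u⁻¹ ∈ ga_M W res N)
    (V' : ValuationSubring ↥(FL L N)) (hM : ga_M W res N ≤ V'.toSubring)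
    (hϖ : (cW W N ϖ)⁻¹ ∉ V') {x : ↥(FL L N)} (hx : x ∈ V') : x ∈ ga_M W res N := by
  by_cases hx0 : x = 0
  · rw [hx0]
    exact zero_mem _
  · obtain ⟨n, u, hxu, hu, hu'⟩ := hVal x hx0
    have hc : cW W N ϖ ∈ ga_M W res N := ga_gausst_cW_mem_M ϖ
    rcases le_or_gt 0 n with hn | hn
    · rw [hxu]
      exact ga_gausst_zpow_mem hc hu hn
    · exfalso
      have hu0 : u ≠ 0 := by
        rintro rfl
        exact hx0 (by rw [hxu, mul_zero])
      obtain ⟨p, hp⟩ := ga_gausst_inv_eq (ga_cW_varpi_ne_zero hD) hu0 hn hxu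
      apply hϖ
      rw [hp]
      exact mul_mem (pow_mem (hM hc) p) (mul_mem hx (hM hu'))

/-- Transport of the reduction map from `M'` to `V`. -/
theorem ga_gausst_isGaussRed (hle : gaussV W res N ≤ ga_M W res N)
    (hge : ga_M W res N ≤ gaussV W res N)
    {ρ : ↥(ga_M W res N) →+* LaurentSeries k} (hρ : ga_IsRho W res N ρ)
    (hKer : ∀ x : ↥(ga_M W res N), ρ x = 0 ↔
      ∃ x' : ↥(ga_M W res N), (x : ↥(FL L N)) = cW W N ϖ * (x' : ↥(FL L N)))
    (hRange : ∀ z : LaurentSeries k, z ∈ Fk k N ↔ ∃ x : ↥(ga_M W res N), ρ x = z) :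
    IsGaussRed W res N ϖ (ρ.comp (Subring.inclusion hle)) where
  red := by
    intro y hy hV
    have h1 := hρ ⟨⟨coeffMap W.subtype y, hy⟩, hle hV⟩ 1 y
      (by rw [Polynomial.map_one]; exact one_ne_zero) (by rw [map_one, one_mul])
    rw [Polynomial.map_one, map_one, mul_one] at h1
    exact h1
  ker := by
    intro x
    have h := hKer (Subring.inclusion hle x)
    constructor
    · intro hx
      obtain ⟨x', hx'⟩ := h.mp hx
      exact ⟨⟨x', hge x'.2⟩, hx'⟩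
    · rintro ⟨x', hx'⟩
      exact h.mpr ⟨⟨x', hle x'.2⟩, hx'⟩
  range := by
    intro z
    rw [hRange z]
    constructor
    · rintro ⟨x, hx⟩
      exact ⟨⟨x, hge x.2⟩, hx⟩
    · rintro ⟨x, hx⟩
      exact ⟨Subring.inclusion hle x, hx⟩

end Data

/-! ## Deliverables -/

/-- (MeqV) `M' = V`. -/
theorem ga_gausst_meqv : ga_WIntVStatement → ga_ValStatement → ga_MeqVStatement := by
  intro hWV hVal N _ ℓ _ L _ _ W _ k _ _ _ res ϖ hD
  exact le_antisymm (fun x hx => ga_gausst_M_le_V (hWV N ℓ L W k res ϖ hD) hx)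
    (fun x hx => ga_gausst_V_le_M (ga_gausst_mem_or_inv_mem (hVal N ℓ L W k res ϖ hD)) hx)

/-- (G2) `GaussStatement`. -/
theorem ga_gausst_main : ga_MeqVStatement → ga_WIntVStatement → ga_ValStatement →
    ga_RhoExStatement → ga_RhoKerStatement → ga_RhoRangeStatement → GaussStatement := by
  intro hMV' hWV' hVal' hEx hKer' hRange' N _ ℓ _ L _ _ W _ k _ _ _ res ϖ hD
  have hMV : ga_M W res N = gaussV W res N := hMV' N ℓ L W k res ϖ hD
  have hWV := hWV' N ℓ L W k res ϖ hD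
  have hVal := hVal' N ℓ L W k res ϖ hD
  obtain ⟨ρ, hρ⟩ := hEx N L W k res
  have hKer := hKer' N ℓ L W k res ϖ hD ρ hρ
  have hRange := hRange' N ℓ L W k res ϖ hD ρ hρ
  refine ⟨?_, ?_, ?_, ?_, ?_⟩
  · intro y hy
    exact hWV ⟨coeffMap W.subtype y, hy⟩ ⟨y, rfl⟩
  · intro x
    exact (ga_gausst_mem_or_inv_mem hVal x).imp (fun h => hMV.le h) (fun h => hMV.le h)
  · intro h
    exact ga_gausst_inv_not_mem hD hρ (hMV.ge h)
  · intro V' hO hϖ
    have hVV' : gaussV W res N ≤ V'.toSubring := fun x hx =>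
      ga_gausst_mem_valSub V' hO ((mem_gaussV_iff W res N x).mp hx)
    have hM : ga_M W res N ≤ V'.toSubring := fun x hx => hVV' (hMV.le hx)
    exact le_antisymm (fun x hx => hMV.le (ga_gausst_valSub_le_M hD hVal V' hM hϖ hx)) hVV'
  · exact ⟨ρ.comp (Subring.inclusion hMV.ge), ga_gausst_isGaussRed hMV.ge hMV.le hρ hKer hRange⟩

end

end Fermat.Agent.S18
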