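/-
S18 / block G (twin A) — package GA/Basis, (G2).

Every `x ∈ F = ↥(FL L N)` satisfies a normalised relation `g(j) * x = ∑ f_i(j) * b_i` over a
monomial family `m` (`b_i = ga_bF L N (m i)`), with `g ≠ 0` and `(g, f_0, …)` not all divisible by
`ϖ`.  (Port of `Fermat/Agent/S28/KABasis.lean` to a general discrete valuation ring `W`.)
-/
import Fermat.Agent.S18.GAInterfaces

set_option autoImplicit false

open ModularCurve AlgebraicCurve Polynomial Fermat.Agent.S28

namespace Fermat.Agent.S18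

noncomputable section

/-- Step 1: a family of `ψ(N) + 1` elements of `F` is linearly dependent over `K0 = L(j)`;
the dependence is stated inside `F` (coefficients in `K0`, not all zero). -/
theorem ga_basis_dep (hLD : ga_LDegStatement) (N : ℕ) [NeZero N] (L : Type) [Field L]
    [Algebra ℚ L] (v : Fin (dedekindPsi N + 1) → ↥(FL L N)) :
    ∃ c : Fin (dedekindPsi N + 1) → ↥(FL L N),
      (∀ i, c i ∈ ga_K0 L N) ∧ (∃ i, c i ≠ 0) ∧ ∑ i, c i * v i = 0 := by
  have h : ¬ LinearIndependent ↥(ga_K0 L N) v := fun h => by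
    have h1 := hLD N L _ v h
    omega
  rw [Fintype.not_linearIndependent_iff] at h
  obtain ⟨g, hg, i, hi⟩ := h
  refine ⟨fun i => (g i : ↥(FL L N)), fun i => (g i).2,
    ⟨i, fun h0 => hi (Subtype.ext h0)⟩, ?_⟩
  rw [← hg]
  rfl

/-- Step 2: clearing denominators in a linear relation with coefficients in `K0`. -/
theorem ga_basis_clear (hF : ga_FracStatement) (N : ℕ) [NeZero N] {L : Type} [Field L]
    [Algebra ℚ L] (W : ValuationSubring L) {n : ℕ} (c v : Fin n → ↥(FL L N))
    (hc : ∀ i, c i ∈ ga_K0 L N) (hne : ∃ i, c i ≠ 0) (hsum : ∑ i, c i * v i = 0) :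
    ∃ P : Fin n → Polynomial ↥W, (∃ i, P i ≠ 0) ∧
      ∑ i, evW W N (jF L N) (P i) * v i = 0 := by
  classical
  choose ff gg hgg hfg using fun i => hF N L W (c i) (hc i)
  have hG : (∏ k, gg k) ≠ 0 := Finset.prod_ne_zero_iff.mpr fun k _ => hgg k
  have key : ∀ i, evW W N (jF L N) (ff i * ∏ k ∈ Finset.univ.erase i, gg k) =
      evW W N (jF L N) (∏ k, gg k) * c i := by
    intro i
    rw [← Finset.mul_prod_erase Finset.univ gg (Finset.mem_univ i), map_mul, map_mul, ← hfg i]
    ring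
  refine ⟨fun i => ff i * ∏ k ∈ Finset.univ.erase i, gg k, ?_, ?_⟩
  · obtain ⟨i, hi⟩ := hne
    refine ⟨i, fun h0 => ?_⟩
    have h0' : ff i * ∏ k ∈ Finset.univ.erase i, gg k = 0 := h0
    have h1 := key i
    rw [h0', map_zero] at h1
    exact mul_ne_zero (ga_evW_j_ne_zero W N hG) hi h1.symm
  · have h2 : ∀ i, evW W N (jF L N) (ff i * ∏ k ∈ Finset.univ.erase i, gg k) * v i =
        evW W N (jF L N) (∏ k, gg k) * (c i * v i) := fun i => by rw [key i, mul_assoc]
    simp only [h2]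
    rw [← Finset.mul_sum, hsum, mul_zero]

/-- Step 3: removing the common `ϖ`-content of the coefficients of a linear relation. -/
theorem ga_basis_content {N ℓ : ℕ} [NeZero N] {L : Type} [Field L] [Algebra ℚ L]
    {W : ValuationSubring L} [IsDiscreteValuationRing ↥W] {k : Type} [Field k]
    {res : ↥W →+* k} {ϖ : ↥W} (hD : BaseData N ℓ W res ϖ) {n : ℕ} (v : Fin n → ↥(FL L N))
    (P : Fin n → Polynomial ↥W) (hP : ∃ i, P i ≠ 0)
    (hsum : ∑ i, evW W N (jF L N) (P i) * v i = 0) :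
    ∃ P' : Fin n → Polynomial ↥W, (∃ i, (P' i).map res ≠ 0) ∧
      ∑ i, evW W N (jF L N) (P' i) * v i = 0 := by
  obtain ⟨e, P', hP', hnd⟩ := ga_content_removal hD P hP
  refine ⟨P', hnd, ?_⟩
  have hϖ : (Polynomial.C ϖ : Polynomial ↥W) ^ e ≠ 0 :=
    pow_ne_zero e (Polynomial.C_ne_zero.mpr (ga_varpi_ne_zero hD))
  have h2 : ∀ i, evW W N (jF L N) (P i) * v i =
      evW W N (jF L N) (Polynomial.C ϖ ^ e) * (evW W N (jF L N) (P' i) * v i) := fun i => by
    rw [hP' i, map_mul, mul_assoc]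
  simp only [h2] at hsum
  rw [← Finset.mul_sum] at hsum
  exact (mul_eq_zero.mp hsum).resolve_left (ga_evW_j_ne_zero W N hϖ)

/-- Step 5 (the role of the monomial family): a relation `∑ f_i(j) * b_i = 0` forces `ϖ ∣ f_i`
for all `i`. -/
theorem ga_basis_indep {L : Type} [Field L] [Algebra ℚ L] (W : ValuationSubring L) {k : Type}
    [Field k] (res : ↥W →+* k) (N : ℕ) [NeZero N] {m : Fin (dedekindPsi N) → LaurentSeries ℤ}
    (hm : ga_IsMonoFamily N k m) (f : Fin (dedekindPsi N) → Polynomial ↥W)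
    (h : ∑ i, evW W N (jF L N) (f i) * ga_bF L N (m i) = 0) : ∀ i, (f i).map res = 0 := by
  have h1 : coeffMap W.subtype (ga_S W N m f) = 0 := by
    rw [← ga_coe_sum W N hm.memQ f, h]
    rfl
  have h2 : ga_S W N m f = 0 := ga_iota_injective W (h1.trans (map_zero _).symm)
  exact ga_degW W res N hm f (by rw [h2, map_zero])

/-- (G2): every `x ∈ F` satisfies a normalised relation over the monomial family `m`. -/
theorem ga_basis_main : ga_LDegStatement → ga_FracStatement → ga_BasisStatement := by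
  intro hLD hF N _ ℓ _ L _ _ W _ k _ _ _ res ϖ hD m hm x
  obtain ⟨c, hc, hne, hsum⟩ :=
    ga_basis_dep hLD N L (Fin.snoc (fun i => ga_bF L N (m i)) x)
  obtain ⟨P, hP, hsumP⟩ := ga_basis_clear hF N W c _ hc hne hsum
  obtain ⟨P', hnd, hsumP'⟩ := ga_basis_content hD _ P hP hsumP
  rw [Fin.sum_univ_castSucc] at hsumP'
  simp only [Fin.snoc_castSucc, Fin.snoc_last] at hsumP'
  have hrel : evW W N (jF L N) (P' (Fin.last _)) * x =
      ∑ i : Fin (dedekindPsi N), evW W N (jF L N) (-(P' i.castSucc)) * ga_bF L N (m i) := by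
    simp only [map_neg, neg_mul, Finset.sum_neg_distrib]
    exact eq_neg_of_add_eq_zero_right hsumP'
  have hnorm : ¬ ((P' (Fin.last _)).map res = 0 ∧
      ∀ i : Fin (dedekindPsi N), (-(P' i.castSucc)).map res = 0) := by
    rintro ⟨h1, h2⟩
    obtain ⟨i, hi⟩ := hnd
    refine hi ?_
    refine Fin.lastCases h1 (fun j => ?_) i
    have h3 := h2 j
    rwa [Polynomial.map_neg, neg_eq_zero] at h3
  refine ⟨P' (Fin.last _), fun i => -(P' i.castSucc), fun hg0 => ?_, hnorm, hrel⟩
  refine hnorm ⟨by rw [hg0, Polynomial.map_zero], ?_⟩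
  refine ga_basis_indep W res N hm _ ?_
  rw [← hrel, hg0, map_zero, zero_mul]

end

end Fermat.Agent.S18
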