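/-
S18 / block G (twin A) — package GA/BClosed (port of S28/KABClosed.lean).

`B_t = L[t]` is integrally closed in `K0 = L(j)`, for `t = j` and `t = j⁻¹`.

Route: `L[T]` is a UFD, hence integrally closed in its fraction field `K`; the injective evaluation
`φ = (p ↦ p(t)) : L[T] → F` extends to a field homomorphism `ψ : K → F`, and an element
`c = φ r / φ s` integral over `φ (L[T])` is the image of an element of `K` integral over `L[T]`.
-/
import Fermat.Agent.S18.GAInterfaces

set_option autoImplicit false

open ModularCurve AlgebraicCurve Polynomial Fermat.Agent.S28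

namespace Fermat.Agent.S18

noncomputable section

/-! ## Generic part: integrally closed domains mapping injectively to a field -/

/-- From integrality over the range of a ring homomorphism `φ : R → E` we get a monic polynomial
over `R` having `c` as a root via `φ`. -/
theorem ga_bclosed_exists_monic {R E : Type*} [CommRing R] [Field E] (φ : R →+* E) (c : E)
    (hint : IsIntegral ↥φ.range c) :
    ∃ Q : Polynomial R, Q.Monic ∧ Polynomial.eval₂ φ c Q = 0 := by
  obtain ⟨P, hP, hPc⟩ := hint
  have hl : P.map φ.range.subtype ∈ Polynomial.lifts φ := by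
    rw [Polynomial.lifts_iff_coeff_lifts]
    intro n
    rw [Polynomial.coeff_map]
    exact (P.coeff n).2
  obtain ⟨Q, hQ, -, hQm⟩ := Polynomial.lifts_and_natDegree_eq_and_monic hl (hP.map _)
  refine ⟨Q, hQm, ?_⟩
  rw [← Polynomial.eval_map, hQ, Polynomial.eval_map]
  exact hPc

/-- GENERIC LEMMA: if `R` is an integrally closed domain and `φ : R → E` is an injective ring
homomorphism to a field, then a quotient `φ r / φ s` which is integral over `φ(R)` lies in
`φ(R)`. -/
theorem ga_bclosed_generic {R E : Type*} [CommRing R] [IsDomain R] [IsIntegrallyClosed R]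
    [Field E] (φ : R →+* E) (hφ : Function.Injective φ) (r s : R) (c : E)
    (hc : c = φ r / φ s) (hint : IsIntegral ↥φ.range c) : c ∈ φ.range := by
  obtain ⟨Q, hQm, hQc⟩ := ga_bclosed_exists_monic φ c hint
  have hψ : ∀ p : R, (IsFractionRing.lift hφ : FractionRing R →+* E)
      (algebraMap R (FractionRing R) p) = φ p :=
    fun p => IsFractionRing.lift_algebraMap hφ p
  have hcomp : (IsFractionRing.lift hφ : FractionRing R →+* E).comp
      (algebraMap R (FractionRing R)) = φ := RingHom.ext hψ
  have hz : (IsFractionRing.lift hφ : FractionRing R →+* E)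
      (algebraMap R (FractionRing R) r / algebraMap R (FractionRing R) s) = c := by
    rw [hc, map_div₀, hψ, hψ]
  have hzint : IsIntegral R
      (algebraMap R (FractionRing R) r / algebraMap R (FractionRing R) s) := by
    refine ⟨Q, hQm, (IsFractionRing.lift hφ : FractionRing R →+* E).injective ?_⟩
    rw [map_zero, Polynomial.hom_eval₂, hz, hcomp]
    exact hQc
  obtain ⟨y, hy⟩ := IsIntegrallyClosed.algebraMap_eq_of_integral hzint
  exact ⟨y, by rw [← hψ, hy, hz]⟩

/-! ## Evaluation of polynomials over `L` at elements of `F` -/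

section Eval

variable {L : Type} [Field L] [Algebra ℚ L] (N : ℕ)

/-- The coercion of `p(t)` (`p ∈ L[T]`, `t ∈ F`) to `L((q))`. -/
theorem ga_bclosed_coe_eval₂ (t : ↥(FL L N)) (p : Polynomial L) :
    ((Polynomial.eval₂ (algebraMap L ↥(FL L N)) t p : ↥(FL L N)) : LaurentSeries L) =
      evalL (t : LaurentSeries L) p := by
  have h := Polynomial.hom_eval₂ p (algebraMap L ↥(FL L N))
    (algebraMap ↥(FL L N) (LaurentSeries L)) t
  rw [← IsScalarTower.algebraMap_eq, degMain_algebraMap_eq_C] at h
  exact h

/-- Elements of `L(t) ⊆ F` are quotients `r(t) / s(t)`. -/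
theorem ga_bclosed_frac (t c : ↥(FL L N)) (hc : c ∈ IntermediateField.adjoin L {t}) :
    ∃ r s : Polynomial L,
      c = Polynomial.eval₂RingHom (algebraMap L ↥(FL L N)) t r /
        Polynomial.eval₂RingHom (algebraMap L ↥(FL L N)) t s := by
  obtain ⟨r, s, h⟩ := (IntermediateField.mem_adjoin_simple_iff L c).mp hc
  refine ⟨r, s, ?_⟩
  rw [Polynomial.coe_eval₂RingHom, ← Polynomial.aeval_def, ← Polynomial.aeval_def]
  exact h

/-- Transcendence over `L` in the form used here: injectivity of `p ↦ p(t)`. -/
theorem ga_bclosed_injective_of_transcendental {t : ↥(FL L N)} (ht : Transcendental L t) :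
    Function.Injective (Polynomial.eval₂RingHom (algebraMap L ↥(FL L N)) t) := by
  rw [injective_iff_map_eq_zero]
  intro p hp
  refine (transcendental_iff.mp ht) p ?_
  rw [Polynomial.aeval_def]
  exact hp

variable [NeZero N]

/-- (T) `j` is transcendental over `L`. -/
theorem ga_bclosed_transcendental_j : Transcendental L (jF L N) := by
  rw [transcendental_iff]
  intro p hp
  have h := ga_bclosed_coe_eval₂ N (jF L N) p
  rw [← Polynomial.aeval_def, hp, coe_jF] at h
  exact degMain_evalL_eq_zero p h.symm

/-- `j⁻¹` is transcendental over `L`. -/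
theorem ga_bclosed_transcendental_j_inv : Transcendental L (jF L N)⁻¹ :=
  fun h => ga_bclosed_transcendental_j N (IsAlgebraic.inv_iff.mp h)

/-- `L(j⁻¹) = L(j)`. -/
theorem ga_bclosed_adjoin_inv :
    IntermediateField.adjoin L {(jF L N)⁻¹} = ga_K0 L N := by
  refine le_antisymm ?_ ?_
  · rw [IntermediateField.adjoin_simple_le_iff]
    exact inv_mem (ga_j_mem_K0 N)
  · rw [IntermediateField.adjoin_simple_le_iff]
    have h : (jF L N)⁻¹ ∈ IntermediateField.adjoin L {(jF L N)⁻¹} :=
      IntermediateField.mem_adjoin_simple_self L (jF L N)⁻¹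
    have h' := inv_mem h
    rwa [inv_inv] at h'

end Eval

/-- (BClosed) `B_t = L[t]` is integrally closed in `K0 = L(j)`, for `t = j` and `t = j⁻¹`. -/
theorem ga_bclosed_main : ga_BClosedStatement := by
  intro N _ L _ _ t ht c hc hint
  rcases ht with rfl | rfl
  · obtain ⟨r, s, hrs⟩ := ga_bclosed_frac N (jF L N) c hc
    exact ga_bclosed_generic _
      (ga_bclosed_injective_of_transcendental N (ga_bclosed_transcendental_j N)) r s c hrs hint
  · obtain ⟨r, s, hrs⟩ := ga_bclosed_frac N (jF L N)⁻¹ c
      (by rw [ga_bclosed_adjoin_inv]; exact hc)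
    exact ga_bclosed_generic _
      (ga_bclosed_injective_of_transcendental N (ga_bclosed_transcendental_j_inv N)) r s c hrs hint

end

end Fermat.Agent.S18
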