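/-
S18 / block G (twin A) — package GA/Chart, statement (G7) = `ChartGaussStatement`.

The three charts `chart W N S` (`S = {j}`, `{j⁻¹}`, `{j, j⁻¹}`) are contained in the integral closure
`V = gaussV` of the Gauss ring `O₀ = gaussO`, and they are saturated with respect to the uniformiser:
`x ∈ chart`, `ϖ⁻¹ x ∈ V  ⟹  ϖ⁻¹ x ∈ chart`.  Assembly from the package statements
`ga_SingleStatement` (minimal polynomial argument for one generator) and `ga_PowStatement`
(clearing the powers of `j⁻¹`).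
-/
import Fermat.Agent.S18.GAInterfaces

set_option autoImplicit false

open ModularCurve AlgebraicCurve Polynomial Fermat.Agent.S28

namespace Fermat.Agent.S18

noncomputable section

section Basic

variable {L : Type} [Field L] [Algebra ℚ L] (W : ValuationSubring L) {k : Type} [Field k]
  (res : ↥W →+* k) (N : ℕ)

/-- (a) `W[{t}] = W[t]`: the base ring of a single generator is the range of `P ↦ P(t)`. -/
theorem ga_chart_baseRing_singleton (t : ↥(FL L N)) : baseRing W N {t} = ga_A W N t := by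
  apply le_antisymm
  · refine Subring.closure_le.mpr ?_
    rintro x (⟨w, rfl⟩ | hx)
    · exact ga_cW_mem_A W N t w
    · rw [Set.mem_singleton_iff] at hx
      rw [hx]
      exact ga_self_mem_A W N t
  · rintro c ⟨p, rfl⟩
    have hc : ∀ w : ↥W, cW W N w ∈ baseRing W N {t} := fun w =>
      Subring.subset_closure (Or.inl ⟨w, rfl⟩)
    have ht : t ∈ baseRing W N {t} := Subring.subset_closure (Or.inr rfl)
    have h : evW W N t p = ∑ i ∈ Finset.range (p.natDegree + 1), cW W N (p.coeff i) * t ^ i :=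
      Polynomial.eval₂_eq_sum_range (cW W N) t
    rw [h]
    exact Subring.sum_mem _ fun i _ => mul_mem (hc _) (pow_mem ht i)

/-- `W[S]` is monotone in `S`. -/
theorem ga_chart_baseRing_mono {S S' : Set ↥(FL L N)} (h : S ⊆ S') :
    baseRing W N S ≤ baseRing W N S' :=
  Subring.closure_mono (Set.union_subset_union_right _ h)

/-- The chart is monotone in `S`. -/
theorem ga_chart_mono {S S' : Set ↥(FL L N)} (h : S ⊆ S') : chart W N S ≤ chart W N S' :=
  fun x hx => (mem_chart_iff W N S' x).mpr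
    (ga_isIntegral_mono (ga_chart_baseRing_mono W N h) ((mem_chart_iff W N S x).mp hx))

/-- The generators lie in the chart. -/
theorem ga_chart_subset (S : Set ↥(FL L N)) {x : ↥(FL L N)} (hx : x ∈ S) : x ∈ chart W N S :=
  (mem_chart_iff W N S x).mpr (ga_isIntegral_of_mem (Subring.subset_closure (Or.inr hx)))

/-- Integrality over `W[{t}]` is integrality over `W[t]`. -/
theorem ga_chart_mem_singleton_iff (t x : ↥(FL L N)) :
    x ∈ chart W N {t} ↔ IsIntegral ↥(ga_A W N t) x := by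
  rw [mem_chart_iff]
  exact ⟨ga_isIntegral_mono (le_of_eq (ga_chart_baseRing_singleton W N t)),
    ga_isIntegral_mono (le_of_eq (ga_chart_baseRing_singleton W N t).symm)⟩

variable [NeZero N]

/-- `j ≠ 0`. -/
theorem ga_chart_jF_ne_zero (L : Type) [Field L] [Algebra ℚ L] (N : ℕ) [NeZero N] :
    jF L N ≠ 0 := by
  have h := ga_evW_j_ne_zero (⊤ : ValuationSubring L) N
    (g := (Polynomial.X : Polynomial ↥(⊤ : ValuationSubring L))) Polynomial.X_ne_zero
  rwa [ga_evW_X] at h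

/-- (b) `W[S] ⊆ O₀` for `S ⊆ {j, j⁻¹}`. -/
theorem ga_chart_baseRing_le_gaussO {S : Set ↥(FL L N)} (hS : S ⊆ {jF L N, (jF L N)⁻¹}) :
    baseRing W N S ≤ gaussO W res N := by
  refine Subring.closure_le.mpr ?_
  rintro x (⟨w, rfl⟩ | hx)
  · exact ga_cW_mem_gaussO W res N w
  · rcases hS hx with h | h
    · rw [h]; exact ga_j_mem_gaussO W res N
    · rw [Set.mem_singleton_iff] at h
      rw [h]; exact ga_j_inv_mem_gaussO W res N

/-- (b) `chart W N S ⊆ V` for `S ⊆ {j, j⁻¹}`. -/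
theorem ga_chart_le_gaussV {S : Set ↥(FL L N)} (hS : S ⊆ {jF L N, (jF L N)⁻¹}) :
    chart W N S ≤ gaussV W res N :=
  fun x hx => (mem_gaussV_iff W res N x).mpr
    (ga_isIntegral_mono (ga_chart_baseRing_le_gaussO W res N hS) ((mem_chart_iff W N S x).mp hx))

end Basic

/-- (c) Saturation of the charts of a single generator `t = j` or `t = j⁻¹`. -/
theorem ga_chart_single (hS : ga_SingleStatement)
    (N : ℕ) [NeZero N] (ℓ : ℕ) [Fact ℓ.Prime] (L : Type) [Field L] [Algebra ℚ L]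
    (W : ValuationSubring L) [IsDiscreteValuationRing ↥W] (k : Type) [Field k] [IsAlgClosed k]
    [CharP k ℓ] (res : ↥W →+* k) (ϖ : ↥W) (hD : BaseData N ℓ W res ϖ)
    (t : ↥(FL L N)) (ht : t = jF L N ∨ t = (jF L N)⁻¹)
    (x : ↥(FL L N)) (hx : x ∈ chart W N {t}) (hy : (cW W N ϖ)⁻¹ * x ∈ gaussV W res N) :
    (cW W N ϖ)⁻¹ * x ∈ chart W N {t} := by
  have hyO : IsIntegral ↥(gaussO W res N) ((cW W N ϖ)⁻¹ * x) :=
    (mem_gaussV_iff W res N _).mp hy
  have hxA : IsIntegral ↥(ga_A W N t) x := (ga_chart_mem_singleton_iff W N t x).mp hx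
  have hxB : IsIntegral ↥(ga_B L N t) x := ga_isIntegral_mono (ga_A_le_B W N t) hxA
  have hc : (cW W N ϖ)⁻¹ ∈ ga_B L N t := by
    have h : (cW W N ϖ)⁻¹ = algebraMap L ↥(FL L N) ((ϖ : L)⁻¹) :=
      (map_inv₀ (algebraMap L ↥(FL L N)) (ϖ : L)).symm
    rw [h]
    exact ga_algebraMap_mem_B N t _
  have hyB : IsIntegral ↥(ga_B L N t) ((cW W N ϖ)⁻¹ * x) :=
    (ga_isIntegral_of_mem hc).mul hxB
  exact (ga_chart_mem_singleton_iff W N t _).mpr
    (hS N ℓ L W k res ϖ hD t ht _ hyO hyB)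

/-- (d) Saturation of the chart of `{j, j⁻¹}`. -/
theorem ga_chart_pair (hS : ga_SingleStatement) (hP : ga_PowStatement)
    (N : ℕ) [NeZero N] (ℓ : ℕ) [Fact ℓ.Prime] (L : Type) [Field L] [Algebra ℚ L]
    (W : ValuationSubring L) [IsDiscreteValuationRing ↥W] (k : Type) [Field k] [IsAlgClosed k]
    [CharP k ℓ] (res : ↥W →+* k) (ϖ : ↥W) (hD : BaseData N ℓ W res ϖ)
    (x : ↥(FL L N)) (hx : x ∈ chart W N {jF L N, (jF L N)⁻¹})
    (hy : (cW W N ϖ)⁻¹ * x ∈ gaussV W res N) :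
    (cW W N ϖ)⁻¹ * x ∈ chart W N {jF L N, (jF L N)⁻¹} := by
  obtain ⟨n, hn⟩ := hP N L W x hx
  have hj0 : jF L N ≠ 0 := ga_chart_jF_ne_zero L N
  have hjV : jF L N ∈ gaussV W res N := ga_gaussO_le_gaussV W res N (ga_j_mem_gaussO W res N)
  have hyn : (cW W N ϖ)⁻¹ * (jF L N ^ n * x) ∈ gaussV W res N := by
    have h : (cW W N ϖ)⁻¹ * (jF L N ^ n * x) = jF L N ^ n * ((cW W N ϖ)⁻¹ * x) := by ring
    rw [h]
    exact mul_mem (pow_mem hjV n) hy
  have h1 : (cW W N ϖ)⁻¹ * (jF L N ^ n * x) ∈ chart W N {jF L N} :=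
    ga_chart_single hS N ℓ L W k res ϖ hD _ (Or.inl rfl) _ hn hyn
  have h2 : (cW W N ϖ)⁻¹ * (jF L N ^ n * x) ∈ chart W N {jF L N, (jF L N)⁻¹} :=
    ga_chart_mono W N (Set.singleton_subset_iff.mpr (Set.mem_insert _ _)) h1
  have h3 : (jF L N)⁻¹ ∈ chart W N {jF L N, (jF L N)⁻¹} :=
    ga_chart_subset W N _ (Set.mem_insert_of_mem _ rfl)
  have h4 := mul_mem (pow_mem h3 n) h2
  have h5 : (jF L N)⁻¹ ^ n * ((cW W N ϖ)⁻¹ * (jF L N ^ n * x)) = (cW W N ϖ)⁻¹ * x := by
    have h : (jF L N)⁻¹ ^ n * jF L N ^ n = 1 := by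
      rw [← mul_pow, inv_mul_cancel₀ hj0, one_pow]
    calc (jF L N)⁻¹ ^ n * ((cW W N ϖ)⁻¹ * (jF L N ^ n * x))
        = ((jF L N)⁻¹ ^ n * jF L N ^ n) * ((cW W N ϖ)⁻¹ * x) := by ring
      _ = _ := by rw [h, one_mul]
  rwa [h5] at h4

/-- **Package GA/Chart** (G7): `Aᵢ ⊆ V` and `Aᵢ ∩ ϖ V = ϖ Aᵢ` for the three charts. -/
theorem ga_chart_main : ga_SingleStatement → ga_PowStatement → ChartGaussStatement := by
  intro hS hP N _ ℓ _ L _ _ W _ k _ _ _ res ϖ hD S hS'
  have hsub : S ⊆ {jF L N, (jF L N)⁻¹} := by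
    rcases hS' with rfl | rfl | rfl
    · exact Set.singleton_subset_iff.mpr (Set.mem_insert _ _)
    · exact Set.singleton_subset_iff.mpr (Set.mem_insert_of_mem _ rfl)
    · exact subset_rfl
  refine ⟨ga_chart_le_gaussV W res N hsub, ?_⟩
  intro x hx hy
  rcases hS' with rfl | rfl | rfl
  · exact ga_chart_single hS N ℓ L W k res ϖ hD _ (Or.inl rfl) x hx hy
  · exact ga_chart_single hS N ℓ L W k res ϖ hD _ (Or.inr rfl) x hx hy
  · exact ga_chart_pair hS hP N ℓ L W k res ϖ hD x hx hy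

end

end Fermat.Agent.S18
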