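/-
S18 / block G (twin A) — package GA/Frac.

`ga_frac_main : ga_FracStatement` — every element of `K0 = L(j)` is a quotient `f(j) / g(j)` with
`f, g ∈ W[T]`, `g ≠ 0` (port of `ka_trans_frac`, S28/KATrans.lean, to a valuation subring `W` of a
field `L`).
-/
import Fermat.Agent.S18.GAInterfaces

set_option autoImplicit false

open ModularCurve AlgebraicCurve Polynomial Fermat.Agent.S28

namespace Fermat.Agent.S18

noncomputable section

/-- Clearing denominators of a polynomial over `L = Frac W`. -/
theorem ga_frac_clear {L : Type} [Field L] (W : ValuationSubring L) (p : Polynomial L) :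
    ∃ (d : ↥W) (P : Polynomial ↥W), d ≠ 0 ∧
      P.map W.subtype = Polynomial.C (d : L) * p := by
  obtain ⟨b, hb, h⟩ := IsLocalization.integerNormalization_spec (nonZeroDivisors ↥W) p
  refine ⟨b, IsLocalization.integerNormalization (nonZeroDivisors ↥W) p,
    nonZeroDivisors.ne_zero hb, ?_⟩
  have h1 : (b • p : Polynomial L) = Polynomial.C (b : L) * p := by
    rw [← Polynomial.smul_eq_C_mul]
    rfl
  rw [← h1, ← h]
  rfl

/-- The constant map `cW` is injective on nonzero elements. -/
theorem ga_frac_cW_ne_zero {L : Type} [Field L] [Algebra ℚ L] (W : ValuationSubring L) (N : ℕ)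
    {w : ↥W} (hw : w ≠ 0) : cW W N w ≠ 0 := by
  intro h
  have h1 : algebraMap L ↥(FL L N) (w : L) = 0 := h
  have h2 : (w : L) = 0 := by
    rwa [map_eq_zero] at h1
  exact hw (Subtype.ext h2)

/-- `evW` of a constant multiple of a cleared polynomial. -/
theorem ga_frac_evW_C_mul {L : Type} [Field L] [Algebra ℚ L] (W : ValuationSubring L) (N : ℕ)
    (t : ↥(FL L N)) (e d : ↥W) (P : Polynomial ↥W) (p : Polynomial L)
    (hP : P.map W.subtype = Polynomial.C (d : L) * p) :
    evW W N t (Polynomial.C e * P) = cW W N e * (cW W N d * Polynomial.aeval t p) := by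
  have h1 : Polynomial.eval₂ (algebraMap L ↥(FL L N)) t (Polynomial.C (d : L)) = cW W N d := by
    rw [Polynomial.eval₂_C]
    rfl
  rw [map_mul, ga_evW_C, ga_evW_eq_eval₂, hP, Polynomial.eval₂_mul, h1, Polynomial.aeval_def]

/-- (Frac) Every element of `K0 = L(j)` is a quotient `f(j) / g(j)` with `f, g ∈ W[T]`,
`g ≠ 0`. -/
theorem ga_frac_main : ga_FracStatement := by
  intro N _ L _ _ W c hc
  obtain ⟨r, s, hrs⟩ := (IntermediateField.mem_adjoin_simple_iff L c).mp hc
  by_cases hs : Polynomial.aeval (jF L N) s = 0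
  · refine ⟨0, 1, one_ne_zero, ?_⟩
    rw [hrs, hs, div_zero, mul_zero, map_zero]
  · obtain ⟨d, S, hd, hS⟩ := ga_frac_clear W s
    obtain ⟨e, R, he, hR⟩ := ga_frac_clear W r
    have hCd : cW W N d ≠ 0 := ga_frac_cW_ne_zero W N hd
    have hCe : cW W N e ≠ 0 := ga_frac_cW_ne_zero W N he
    have hg : evW W N (jF L N) (Polynomial.C e * S) =
        cW W N e * (cW W N d * Polynomial.aeval (jF L N) s) :=
      ga_frac_evW_C_mul W N (jF L N) e d S s hS
    have hf : evW W N (jF L N) (Polynomial.C d * R) =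
        cW W N d * (cW W N e * Polynomial.aeval (jF L N) r) :=
      ga_frac_evW_C_mul W N (jF L N) d e R r hR
    refine ⟨Polynomial.C d * R, Polynomial.C e * S, fun h0 => ?_, ?_⟩
    · have h1 : evW W N (jF L N) (Polynomial.C e * S) = 0 := by rw [h0, map_zero]
      rw [hg] at h1
      exact mul_ne_zero hCe (mul_ne_zero hCd hs) h1
    · rw [hg, hf, hrs]
      field_simp

end

end Fermat.Agent.S18
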