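/-
S18 / block G (twin A) — package GA/Inter:
`O₀ ∩ L[t] ⊆ W[t]` for `t = j` and `t = j⁻¹` (port of S28/KAInter.lean to a general DVR `W`).
-/
import Fermat.Agent.S18.GAInterfaces

set_option autoImplicit false

open ModularCurve AlgebraicCurve Polynomial Fermat.Agent.S28

namespace Fermat.Agent.S18

noncomputable section

section Generic

variable {L : Type} [Field L]

/-- Clearing the denominators of a polynomial over `L = Frac W`. -/
theorem ga_inter_clear_denom (W : ValuationSubring L) (p : L[X]) :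
    ∃ (d : ↥W) (P : (↥W)[X]), d ≠ 0 ∧ P.map W.subtype = Polynomial.C (d : L) * p := by
  obtain ⟨b, hbM, hb⟩ := IsLocalization.integerNormalization_spec (nonZeroDivisors ↥W) p
  refine ⟨b, IsLocalization.integerNormalization (nonZeroDivisors ↥W) p,
    nonZeroDivisors.ne_zero hbM, ?_⟩
  have h2 : (algebraMap ↥W L) = W.subtype := rfl
  rw [h2] at hb
  rw [hb]
  ext n
  rw [Polynomial.coeff_smul, Polynomial.coeff_C_mul]
  rfl

/-- A polynomial over `L` all of whose coefficients lie in `W` comes from `W[X]`. -/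
theorem ga_inter_lift (W : ValuationSubring L) (p : L[X]) (h : ∀ n, p.coeff n ∈ W) :
    ∃ P : (↥W)[X], P.map W.subtype = p := by
  have h1 : p ∈ Polynomial.lifts W.subtype :=
    (Polynomial.lifts_iff_coeff_lifts p).mpr fun n => ⟨⟨p.coeff n, h n⟩, rfl⟩
  exact (Polynomial.mem_lifts _).mp h1

end Generic

section Main

variable {N ℓ : ℕ} [NeZero N] {L : Type} [Field L] [Algebra ℚ L] {W : ValuationSubring L}
  {k : Type} [Field k] {res : ↥W →+* k} {ϖ : ↥W}

/-- From `g(j) * p(j) = f(j)` and `P₀ = d * p` to the polynomial identity `g * P₀ = d * f` in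
`W[X]` (transcendence of `j`). -/
theorem ga_inter_poly_eq {g f P₀ : (↥W)[X]} {d : ↥W} {p : L[X]}
    (hP : P₀.map W.subtype = Polynomial.C (d : L) * p)
    (e : evW W N (jF L N) g * Polynomial.eval₂ (algebraMap L ↥(FL L N)) (jF L N) p =
      evW W N (jF L N) f) :
    g * P₀ = Polynomial.C d * f := by
  apply ga_evW_j_injective W N
  rw [map_mul, map_mul, ga_evW_C, ga_evW_eq_eval₂ W N (jF L N) P₀, hP, Polynomial.eval₂_mul,
    Polynomial.eval₂_C, ← e]
  show _ = (algebraMap L ↥(FL L N)) (d : L) * _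
  ring

/-- (★) for `t = j`: if `p(j) ∈ O₀` then `p` has coefficients in `W`. -/
theorem ga_inter_star_j [IsDiscreteValuationRing ↥W] (hD : BaseData N ℓ W res ϖ) (p : L[X])
    (h : Polynomial.eval₂ (algebraMap L ↥(FL L N)) (jF L N) p ∈ gaussO W res N) :
    ∃ P : (↥W)[X], P.map W.subtype = p := by
  obtain ⟨f, g, hg, e⟩ := (ga_mem_gaussO_iff W res N _).mp h
  obtain ⟨d, P₀, hd, hP⟩ := ga_inter_clear_denom W p
  have h2 : g * P₀ = Polynomial.C d * f := ga_inter_poly_eq hP e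
  obtain ⟨n, u, rfl⟩ := IsDiscreteValuationRing.eq_unit_mul_pow_irreducible hd hD.irreducible
  have h3 : Polynomial.C ϖ ^ n ∣ g * P₀ := by
    rw [h2, map_mul, map_pow, mul_comm (Polynomial.C (u : ↥W)), mul_assoc]
    exact dvd_mul_right _ _
  have hg' : ¬ Polynomial.C ϖ ∣ g := fun hdvd => hg ((ga_map_res_eq_zero_iff hD g).mpr hdvd)
  obtain ⟨P₁, rfl⟩ := (ga_prime_C hD).pow_dvd_of_dvd_mul_left n hg' h3
  have hϖ0 : ((ϖ : ↥W) : L) ^ n ≠ 0 :=
    pow_ne_zero _ (fun h0 => ga_varpi_ne_zero hD (Subtype.ext h0))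
  -- `C u * p = P₁.map _`
  have h4 : Polynomial.C ((u : ↥W) : L) * p = P₁.map W.subtype := by
    have h5 : Polynomial.C (((ϖ : ↥W) : L) ^ n) * (Polynomial.C ((u : ↥W) : L) * p) =
        Polynomial.C (((ϖ : ↥W) : L) ^ n) * P₁.map W.subtype := by
      rw [Polynomial.map_mul, Polynomial.map_pow, Polynomial.map_C] at hP
      have h8 : ((((u : ↥W) * ϖ ^ n : ↥W)) : L) = ((u : ↥W) : L) * ((ϖ : ↥W) : L) ^ n := rfl
      have h9 : W.subtype ϖ = ((ϖ : ↥W) : L) := rfl
      rw [h8, h9] at hP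
      rw [map_pow, hP, map_mul, map_pow]
      ring
    exact mul_left_cancel₀ (Polynomial.C_ne_zero.mpr hϖ0) h5
  refine ⟨Polynomial.C (↑(u⁻¹) : ↥W) * P₁, ?_⟩
  have h6 : W.subtype (↑(u⁻¹) : ↥W) * ((u : ↥W) : L) = 1 := by
    have h7 := congrArg W.subtype (Units.inv_mul u)
    rwa [map_mul, map_one] at h7
  rw [Polynomial.map_mul, Polynomial.map_C, ← h4, ← mul_assoc, ← map_mul, h6, map_one, one_mul]

/-- `j ≠ 0` in `F`. -/
theorem ga_inter_jF_ne_zero (L : Type) [Field L] [Algebra ℚ L] (N : ℕ) [NeZero N] :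
    jF L N ≠ 0 := by
  intro h
  have h1 : ((jF L N : ↥(FL L N)) : LaurentSeries L) = 0 := by rw [h]; rfl
  rw [coe_jF] at h1
  exact jqModC_ne_zero_of_nontrivial L h1

/-- The reversal identity `p.reverse(j) = j ^ deg p * p(j⁻¹)`. -/
theorem ga_inter_reverse (p : L[X]) :
    Polynomial.eval₂ (algebraMap L ↥(FL L N)) (jF L N) p.reverse =
      jF L N ^ p.natDegree * Polynomial.eval₂ (algebraMap L ↥(FL L N)) (jF L N)⁻¹ p := by
  let _ : Invertible ((jF L N)⁻¹ : ↥(FL L N)) :=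
    invertibleOfNonzero (inv_ne_zero (ga_inter_jF_ne_zero L N))
  have h := Polynomial.eval₂_reverse_mul_pow (algebraMap L ↥(FL L N)) ((jF L N)⁻¹) p
  rw [invOf_eq_inv, inv_inv] at h
  have hjn : jF L N ^ p.natDegree ≠ 0 := pow_ne_zero _ (ga_inter_jF_ne_zero L N)
  rw [← h, inv_pow, mul_comm, mul_assoc, inv_mul_cancel₀ hjn, mul_one]

/-- (★) for `t = j⁻¹`: if `p(j⁻¹) ∈ O₀` then `p` has coefficients in `W`. -/
theorem ga_inter_star_j_inv [IsDiscreteValuationRing ↥W] (hD : BaseData N ℓ W res ϖ) (p : L[X])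
    (h : Polynomial.eval₂ (algebraMap L ↥(FL L N)) (jF L N)⁻¹ p ∈ gaussO W res N) :
    ∃ P : (↥W)[X], P.map W.subtype = p := by
  have h1 : Polynomial.eval₂ (algebraMap L ↥(FL L N)) (jF L N) p.reverse ∈ gaussO W res N := by
    rw [ga_inter_reverse]
    exact mul_mem (pow_mem (ga_j_mem_gaussO W res N) _) h
  obtain ⟨Q, hQ⟩ := ga_inter_star_j hD p.reverse h1
  have h2 : ∀ i, p.reverse.coeff i ∈ W := fun i => by
    rw [← hQ, Polynomial.coeff_map]
    exact (Q.coeff i).2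
  refine ga_inter_lift W p fun n => ?_
  rcases le_or_gt n p.natDegree with hn | hn
  · have h3 := h2 (p.natDegree - n)
    rw [Polynomial.coeff_reverse, Polynomial.revAt_le (Nat.sub_le _ _), Nat.sub_sub_self hn] at h3
    exact h3
  · rw [Polynomial.coeff_eq_zero_of_natDegree_lt hn]
    exact zero_mem _

end Main

/-- (Inter) `O₀ ∩ L[t] ⊆ W[t]`, for `t = j` and `t = j⁻¹`. -/
theorem ga_inter_main : ga_InterStatement := by
  intro N _ ℓ _ L _ _ W _ k _ _ _ res ϖ hD t ht c hcO hcB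
  obtain ⟨p, rfl⟩ := (ga_mem_B_iff N t c).mp hcB
  have hP : ∃ P : (↥W)[X], P.map W.subtype = p := by
    rcases ht with rfl | rfl
    · exact ga_inter_star_j hD p hcO
    · exact ga_inter_star_j_inv hD p hcO
  obtain ⟨P, rfl⟩ := hP
  exact ⟨P, ga_evW_eq_eval₂ W N t P⟩

end

end Fermat.Agent.S18
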