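/-
S18 / block G (twin A) — package GA/Pow.

If `x ∈ F` is integral over `W[j, j⁻¹]` then `j ^ n * x` is integral over `W[j]` for some `n`
(a port of the prelude lemmas `exists_pow_mul_mem_adjoin` / `exists_pow_mul_mem_chartAlg` to the
subrings `baseRing W N S` of `F = ↥(FL L N)`).
-/
import Fermat.Agent.S18.GAInterfaces

set_option autoImplicit false

open ModularCurve AlgebraicCurve Polynomial Fermat.Agent.S28

namespace Fermat.Agent.S18

noncomputable section

section

variable {L : Type} [Field L] [Algebra ℚ L] (W : ValuationSubring L) (N : ℕ) [NeZero N]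

omit W in
/-- `j ≠ 0` in `F`. -/
theorem ga_pow_j_ne_zero : jF L N ≠ 0 := fun h =>
  jqModC_ne_zero_of_nontrivial (R := L) (by rw [← coe_jF L N, h]; rfl)

/-- `j ∈ W[j]`. -/
theorem ga_pow_j_mem_baseRing : jF L N ∈ baseRing W N {jF L N} :=
  Subring.subset_closure (Or.inr rfl)

/-- Step 1: every element of `W[j, j⁻¹]` is moved into `W[j]` by a power of `j`. -/
theorem ga_pow_baseRing {a : ↥(FL L N)} (ha : a ∈ baseRing W N {jF L N, (jF L N)⁻¹}) :
    ∃ n : ℕ, jF L N ^ n * a ∈ baseRing W N {jF L N} := by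
  have hs0 : jF L N ≠ 0 := ga_pow_j_ne_zero N
  have hsA : jF L N ∈ baseRing W N {jF L N} := ga_pow_j_mem_baseRing W N
  unfold baseRing at ha
  induction ha using Subring.closure_induction with
  | mem y hy =>
    rcases hy with ⟨w, rfl⟩ | rfl | rfl
    · exact ⟨0, by rw [pow_zero, one_mul]; exact Subring.subset_closure (Or.inl ⟨w, rfl⟩)⟩
    · exact ⟨0, by rw [pow_zero, one_mul]; exact hsA⟩
    · exact ⟨1, by rw [pow_one, mul_inv_cancel₀ hs0]; exact one_mem _⟩
  | zero => exact ⟨0, by rw [mul_zero]; exact zero_mem _⟩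
  | one => exact ⟨0, by rw [pow_zero, one_mul]; exact one_mem _⟩
  | add y z _ _ hy hz =>
    obtain ⟨m, hm⟩ := hy
    obtain ⟨n, hn⟩ := hz
    refine ⟨m + n, ?_⟩
    have : jF L N ^ (m + n) * (y + z) =
        jF L N ^ n * (jF L N ^ m * y) + jF L N ^ m * (jF L N ^ n * z) := by ring
    rw [this]
    exact add_mem (mul_mem (pow_mem hsA n) hm) (mul_mem (pow_mem hsA m) hn)
  | neg y _ hy =>
    obtain ⟨m, hm⟩ := hy
    exact ⟨m, by rw [mul_neg]; exact neg_mem hm⟩
  | mul y z _ _ hy hz =>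
    obtain ⟨m, hm⟩ := hy
    obtain ⟨n, hn⟩ := hz
    refine ⟨m + n, ?_⟩
    have : jF L N ^ (m + n) * (y * z) = (jF L N ^ m * y) * (jF L N ^ n * z) := by ring
    rw [this]
    exact mul_mem hm hn

/-- Step 2: if `x` is integral over `W[j, j⁻¹]` then `j ^ n * x` is integral over `W[j]` for some
`n`. -/
theorem ga_pow_chart {x : ↥(FL L N)} (hx : x ∈ chart W N {jF L N, (jF L N)⁻¹}) :
    ∃ n : ℕ, jF L N ^ n * x ∈ chart W N {jF L N} := by
  classical
  have hsA : jF L N ∈ baseRing W N {jF L N} := ga_pow_j_mem_baseRing W N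
  obtain ⟨p, hmonic, hroot⟩ := (mem_chart_iff W N _ x).mp hx
  have hcoeff : ∀ i, ∃ n : ℕ, jF L N ^ n * (p.coeff i : ↥(FL L N)) ∈ baseRing W N {jF L N} :=
    fun i => ga_pow_baseRing W N (p.coeff i).2
  choose n hn using hcoeff
  set M : ℕ := ∑ i ∈ Finset.range (p.natDegree + 1), n i with hM
  have hnM : ∀ i ≤ p.natDegree, n i ≤ M := fun i hi =>
    Finset.single_le_sum (f := n) (fun _ _ => Nat.zero_le _)
      (Finset.mem_range.mpr (Nat.lt_succ_of_le hi))
  set q : Polynomial ↥(FL L N) :=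
    (p.map (algebraMap ↥(baseRing W N {jF L N, (jF L N)⁻¹}) ↥(FL L N))).scaleRoots (jF L N ^ M)
    with hq
  have hqmonic : q.Monic := (Polynomial.monic_scaleRoots_iff _).mpr (hmonic.map _)
  have hqroot : q.eval (jF L N ^ M * x) = 0 := by
    rw [hq, Polynomial.scaleRoots_eval_mul, Polynomial.eval_map, hroot, mul_zero]
  have hqcoeff : ∀ i, q.coeff i ∈ baseRing W N {jF L N} := by
    intro i
    rw [hq, Polynomial.coeff_scaleRoots, Polynomial.coeff_map, hmonic.natDegree_map]
    by_cases hi : i < p.natDegree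
    · have hle : n i ≤ M * (p.natDegree - i) := by
        calc n i ≤ M := hnM i hi.le
          _ = M * 1 := (mul_one M).symm
          _ ≤ M * (p.natDegree - i) :=
            Nat.mul_le_mul_left M (Nat.one_le_iff_ne_zero.mpr (by omega))
      obtain ⟨k, hk⟩ := Nat.exists_eq_add_of_le hle
      have h1 : (jF L N ^ M) ^ (p.natDegree - i) = jF L N ^ k * jF L N ^ n i := by
        rw [← pow_mul, hk, pow_add, mul_comm]
      have h2 : algebraMap ↥(baseRing W N {jF L N, (jF L N)⁻¹}) ↥(FL L N) (p.coeff i) =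
          (p.coeff i : ↥(FL L N)) := rfl
      rw [h1, h2, show (p.coeff i : ↥(FL L N)) * (jF L N ^ k * jF L N ^ n i) =
        jF L N ^ k * (jF L N ^ n i * (p.coeff i : ↥(FL L N))) by ring]
      exact mul_mem (pow_mem hsA k) (hn i)
    · rcases (not_lt.mp hi).lt_or_eq with hlt | heq
      · rw [Polynomial.coeff_eq_zero_of_natDegree_lt hlt, map_zero, zero_mul]
        exact zero_mem _
      · rw [← heq, hmonic.coeff_natDegree, map_one, one_mul, Nat.sub_self, pow_zero]
        exact one_mem _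
  have hlifts : q ∈ Polynomial.lifts (algebraMap ↥(baseRing W N {jF L N}) ↥(FL L N)) :=
    (Polynomial.lifts_iff_coeff_lifts q).mpr fun i => ⟨⟨q.coeff i, hqcoeff i⟩, rfl⟩
  obtain ⟨q', hq'q, -, hq'monic⟩ := Polynomial.lifts_and_natDegree_eq_and_monic hlifts hqmonic
  refine ⟨M, (mem_chart_iff W N _ _).mpr ⟨q', hq'monic, ?_⟩⟩
  rw [Polynomial.eval₂_eq_eval_map, hq'q, hqroot]

end

/-- (Pow) If `x` is integral over `W[j, j⁻¹]` then `j ^ n * x` is integral over `W[j]` for some
`n`. -/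
theorem ga_pow_main : ga_PowStatement := by
  intro N _ L _ _ W x hx
  exact ga_pow_chart W N hx

end

end Fermat.Agent.S18
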