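/-
S18 / block G (twin A) — package GA/Single (port of S28/KASingleL.lean).

An element of `F = F_L` integral over the Gauss valuation ring `O₀` and over `B_t = L[t]` is
integral over `A_t = W[t]` (`t = j` or `t = j⁻¹`), via the minimal polynomial over `K0 = L(j)`.
-/
import Fermat.Agent.S18.GAInterfaces

set_option autoImplicit false

open ModularCurve AlgebraicCurve Polynomial Fermat.Agent.S28

namespace Fermat.Agent.S18

noncomputable section

/-- Generic lemma: if `R` is a subring of a field `E`, contained in an intermediate field `K` and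
integrally closed in `K`, then the coefficients of the minimal polynomial over `K` of an element
`y : E` integral over `R` lie in `R`. -/
theorem ga_single_minpoly_coeff_mem {F E : Type*} [Field F] [Field E] [Algebra F E]
    (K : IntermediateField F E) (R : Subring E)
    (hRK : ∀ c ∈ R, c ∈ K) (hcl : ∀ c ∈ K, IsIntegral ↥R c → c ∈ R)
    (y : E) (hy : IsIntegral ↥R y) (n : ℕ) :
    (((minpoly ↥K y).coeff n : ↥K) : E) ∈ R := by
  classical
  obtain ⟨P, hPm, hP⟩ := hy
  let ι : ↥R →+* ↥K := (R.subtype).codRestrict K.toSubring (fun a => hRK a a.2)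
  let _ : Algebra ↥R ↥K := ι.toAlgebra
  have hcomp : (algebraMap ↥K E).comp ι = algebraMap ↥R E := RingHom.ext fun _ => rfl
  have hP' : Polynomial.aeval y (P.map ι) = 0 := by
    rw [Polynomial.aeval_def, Polynomial.eval₂_map, hcomp]; exact hP
  have hyK : IsIntegral ↥K y := ⟨P.map ι, hPm.map ι, hP'⟩
  have hμ : (minpoly ↥K y).Monic := minpoly.monic hyK
  have hdvd : minpoly ↥K y ∣ P.map (algebraMap ↥R ↥K) := minpoly.dvd _ _ hP'
  have hl := integralClosure.mem_lifts_of_monic_of_dvd_map ↥K hPm hμ hdvd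
  rw [Polynomial.lifts_iff_coeff_lifts] at hl
  obtain ⟨z, hz⟩ := hl n
  have hzint : IsIntegral ↥R (z : ↥K) := z.2
  have hE : IsIntegral ↥R (((minpoly ↥K y).coeff n : ↥K) : E) := by
    rw [← hz]
    exact hzint.map_of_comp_eq (RingHom.id ↥R) (algebraMap ↥K E) (RingHom.ext fun _ => rfl)
  exact hcl _ (SetLike.coe_mem _) hE

/-- A monic polynomial over a field `E` with all coefficients in a subring `R` and with root `y`
shows that `y` is integral over `R`. -/
theorem ga_single_isIntegral_of_coeff_mem {E : Type*} [Field E] (R : Subring E)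
    (p : Polynomial E) (hp : p.Monic) (hc : ∀ n, p.coeff n ∈ R) (y : E)
    (hy : Polynomial.eval y p = 0) : IsIntegral ↥R y := by
  have hsub : (↑p.coeffs : Set E) ⊆ R := by
    intro c hc'
    obtain ⟨n, -, rfl⟩ := Polynomial.mem_coeffs_iff.mp hc'
    exact hc n
  refine ⟨p.toSubring R hsub, (Polynomial.monic_toSubring p R hsub).mpr hp, ?_⟩
  rw [Polynomial.eval₂_eq_eval_map]
  have hmap : (p.toSubring R hsub).map (algebraMap ↥R E) = p := Polynomial.map_toSubring p R hsub
  rw [hmap]; exact hy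

/-- (Single) An element of `F` integral over `O₀` and over `L[t]` is integral over `W[t]`
(`t = j` or `t = j⁻¹`). -/
theorem ga_single_main :
    ga_O0ClosedStatement → ga_BClosedStatement → ga_InterStatement → ga_SingleStatement := by
  intro hO hB hI N _ ℓ _ L _ _ W _ k _ _ _ res ϖ hD t ht y hyO hyB
  have htK : t ∈ ga_K0 L N := by
    rcases ht with rfl | rfl
    · exact ga_j_mem_K0 N
    · exact inv_mem (ga_j_mem_K0 N)
  have hcO : ∀ n, (((minpoly ↥(ga_K0 L N) y).coeff n : ↥(ga_K0 L N)) : ↥(FL L N)) ∈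
      gaussO W res N :=
    fun n => ga_single_minpoly_coeff_mem (ga_K0 L N) (gaussO W res N)
      (fun c hc => ga_gaussO_le_K0 W res N hc)
      (fun c hc hci => hO N ℓ L W k res ϖ hD c hc hci) y hyO n
  have hcB : ∀ n, (((minpoly ↥(ga_K0 L N) y).coeff n : ↥(ga_K0 L N)) : ↥(FL L N)) ∈
      ga_B L N t :=
    fun n => ga_single_minpoly_coeff_mem (ga_K0 L N) (ga_B L N t)
      (fun c hc => ga_B_le_K0 N htK hc)
      (fun c hc hci => hB N L t ht c hc hci) y hyB n
  have hcA : ∀ n, (((minpoly ↥(ga_K0 L N) y).coeff n : ↥(ga_K0 L N)) : ↥(FL L N)) ∈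
      ga_A W N t :=
    fun n => hI N ℓ L W k res ϖ hD t ht _ (hcO n) (hcB n)
  have hyK : IsIntegral ↥(ga_K0 L N) y := by
    obtain ⟨P, hPm, hP⟩ := hyB
    let ι : ↥(ga_B L N t) →+* ↥(ga_K0 L N) :=
      ((ga_B L N t).subtype).codRestrict (ga_K0 L N).toSubring (fun a => ga_B_le_K0 N htK a.2)
    refine ⟨P.map ι, hPm.map ι, ?_⟩
    rw [Polynomial.eval₂_map]
    exact hP
  refine ga_single_isIntegral_of_coeff_mem (ga_A W N t)
    ((minpoly ↥(ga_K0 L N) y).map (algebraMap ↥(ga_K0 L N) ↥(FL L N)))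
    ((minpoly.monic hyK).map _) (fun n => ?_) y ?_
  · rw [Polynomial.coeff_map]; exact hcA n
  · rw [Polynomial.eval_map, ← Polynomial.aeval_def]; exact minpoly.aeval _ _

end

end Fermat.Agent.S18
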