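/-
S18, block G (twin A) — hypothesis-free deliverable (G3): `ga_chart : ChartGaussStatement`
(`Aᵢ ⊆ V` and `Aᵢ ∩ ϖ V = ϖ Aᵢ` for the three charts).
-/
import Fermat.Agent.S18.GAFrac
import Fermat.Agent.S18.GAOClosed
import Fermat.Agent.S18.GABClosed
import Fermat.Agent.S18.GAInter
import Fermat.Agent.S18.GASingle
import Fermat.Agent.S18.GAPow
import Fermat.Agent.S18.GAChart

set_option autoImplicit false

namespace Fermat.Agent.S18

/-- `O₀` is integrally closed in `L(j)`, hypothesis-free. -/
theorem ga_o0closed : ga_O0ClosedStatement := ga_oclosed_main ga_frac_main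

/-- integral over `O₀` and over `L[t]` implies integral over `W[t]`, hypothesis-free. -/
theorem ga_single : ga_SingleStatement :=
  ga_single_main ga_o0closed ga_bclosed_main ga_inter_main

/-- (G3) `ChartGaussStatement`, hypothesis-free. -/
theorem ga_chart : ChartGaussStatement := ga_chart_main ga_single ga_pow_main

end Fermat.Agent.S18
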