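/-
S18, block G (twin A) — package MonoEx: monomial families exist over every algebraically closed
field of characteristic `ℓ ∤ N` (from the degree in characteristic zero and the degree mod `ℓ`).
-/
import Fermat.Agent.S18.GAInterfaces

set_option autoImplicit false

open ModularCurve AlgebraicCurve Polynomial Fermat.Agent.S28

namespace Fermat.Agent.S18

noncomputable section

/-- Monomials in the `j(q^d)`, `d ∣ N`, lie in `F_k`. -/
theorem ga_monoex_closure_le (k : Type) [Field k] (N : ℕ) (x : LaurentSeries k)
    (hx : x ∈ Submonoid.closure (divisorExpansionsC k N)) : x ∈ modularFunctionFieldFullC k N := by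
  induction hx using Submonoid.closure_induction with
  | mem y hy => exact IntermediateField.subset_adjoin k _ hy
  | one => exact one_mem _
  | mul y z _ _ hy hz => exact mul_mem hy hz

/-- (MonoEx) Monomial families exist. -/
theorem ga_monoex_main : Char0DegStatement → ModLDegStatement → ga_MonoExStatement := by
  intro h0 hL N _ ℓ _ hℓN k _ _ _
  obtain ⟨b, hb, hbli⟩ := hL N ℓ hℓN k
  have halg : ∀ x ∈ divisorExpansionsC k N,
      IsAlgebraic ↥(IntermediateField.adjoin k {jqModC k}) x := by
    rintro x ⟨d, hd0, hd, rfl⟩
    have := hd0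
    exact degMain_isAlgebraic h0 N ℓ k d hd
  obtain ⟨m, hm, hmli⟩ := degMain_exists_linearIndependent_of_mem_span
    (Submonoid.closure (divisorExpansionsC k N) : Set (LaurentSeries k)) (dedekindPsi N) b hbli
    (fun i => degMain_mem_span k N halg (b i) (hb i))
  choose m' hm' hm'Q using fun i => degMain_lift_monomial k N (m i) (hm i)
  refine ⟨m', ⟨hm'Q, fun i => ?_, ?_⟩⟩
  · rw [hm']
    exact ga_monoex_closure_le k N (m i) (hm i)
  · have h : (fun i => coeffMap (Int.castRingHom k) (m' i)) = m := funext hm'
    rw [h]
    exact hmli

end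

end Fermat.Agent.S18
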