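/-
S18 / block G (twin A) — package GA/NF: (G4) normal form of `M'` and `F ∩ ι(W((q))) ⊆ V`
(port of S28/KAIntO.lean: (K3) + (K4)).
-/
import Fermat.Agent.S18.GAInterfaces

set_option autoImplicit false

open ModularCurve AlgebraicCurve Polynomial Fermat.Agent.S28

namespace Fermat.Agent.S18

noncomputable section

/-- Generic (K4): if `1` and all `x * b i` are combinations of the finite family `b` with
coefficients in the subring `R` of the field `E`, then `x` is integral over `R`. -/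
theorem ga_nf_isIntegral_of_span {E : Type*} [Field E] (R : Subring E) {ι : Type*} [Fintype ι]
    (b : ι → E) (x : E)
    (h1 : ∃ c : ι → E, (∀ i, c i ∈ R) ∧ (1 : E) = ∑ i, c i * b i)
    (hx : ∀ i, ∃ c : ι → E, (∀ j, c j ∈ R) ∧ x * b i = ∑ j, c j * b j) :
    IsIntegral ↥R x := by
  have hmem : ∀ z : E, (∃ c : ι → E, (∀ i, c i ∈ R) ∧ z = ∑ i, c i * b i) →
      z ∈ Submodule.span ↥R (Set.range b) := by
    rintro z ⟨c, hc, rfl⟩
    refine Submodule.sum_mem _ fun i _ => ?_
    have h : c i * b i = (⟨c i, hc i⟩ : ↥R) • b i := rfl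
    rw [h]
    exact Submodule.smul_mem _ _ (Submodule.subset_span ⟨i, rfl⟩)
  refine isIntegral_of_smul_mem_submodule (R := ↥R) (A := E) (M := E)
    (Submodule.span ↥R (Set.range b)) ?_ ?_ x ?_
  · intro hbot
    have h := hmem 1 h1
    rw [hbot, Submodule.mem_bot] at h
    exact one_ne_zero h
  · exact Submodule.fg_span (Set.finite_range _)
  · intro n hn
    induction hn using Submodule.span_induction with
    | mem u hu =>
      obtain ⟨i, rfl⟩ := hu
      rw [smul_eq_mul]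
      exact hmem _ (hx i)
    | zero => rw [smul_zero]; exact Submodule.zero_mem _
    | add u v _ _ hu hv => rw [smul_add]; exact Submodule.add_mem _ hu hv
    | smul r u _ hu =>
      rw [smul_comm]
      exact Submodule.smul_mem _ r hu

section

variable {N ℓ : ℕ} [NeZero N] {L : Type} [Field L] [Algebra ℚ L] {W : ValuationSubring L}
  {k : Type} [Field k] {res : ↥W →+* k} {ϖ : ↥W}

/-- (K3) KEY LEMMA: in a normalised relation `g(j) * z = ∑ f_i(j) * b_i` with `z` a series with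
coefficients in `W`, the denominator `g` is not divisible by `ϖ`. -/
theorem ga_nf_key (hD : BaseData N ℓ W res ϖ) {m : Fin (dedekindPsi N) → LaurentSeries ℤ}
    (hm : ga_IsMonoFamily N k m) {z : ↥(FL L N)} (hz : ga_WInt W N z)
    {g : Polynomial ↥W} {f : Fin (dedekindPsi N) → Polynomial ↥W}
    (hnorm : ¬ (g.map res = 0 ∧ ∀ i, (f i).map res = 0))
    (hrel : evW W N (jF L N) g * z = ∑ i, evW W N (jF L N) (f i) * ga_bF L N (m i)) :
    g.map res ≠ 0 := by
  intro hg0
  refine hnorm ⟨hg0, ?_⟩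
  obtain ⟨g', rfl⟩ := (ga_map_res_eq_zero_iff hD g).mp hg0
  obtain ⟨y, hy⟩ := ga_WInt_mul W N (ga_WInt_evW_j W N g') hz
  apply ga_degW W res N hm f
  have hS : ga_S W N m f = HahnSeries.C ϖ * y := by
    apply ga_iota_injective W
    rw [← ga_coe_sum W N hm.memQ f, ← hrel, map_mul (coeffMap W.subtype), degMain_coeffMap_C, hy,
      map_mul (evW W N (jF L N)), ga_evW_C, mul_assoc]
    exact congrArg (fun t => t * ((evW W N (jF L N) g' * z : ↥(FL L N)) : LaurentSeries L))
      (ga_coe_cW W N ϖ)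
  rw [hS, map_mul, degMain_coeffMap_C, ga_res_varpi hD, map_zero, zero_mul]

end

/-- (NF) Normal form of the elements of `M'`. -/
theorem ga_nf_main : ga_BasisStatement → ga_NFStatement := by
  intro hB N _ ℓ _ L _ _ W _ k _ _ _ res ϖ hD m hm x hx
  obtain ⟨g₀, hg₀, hz⟩ := (ga_mem_M_iff W res N x).mp hx
  obtain ⟨g, f, _, hnorm, hrel⟩ := hB N ℓ L W k res ϖ hD m hm (evW W N (jF L N) g₀ * x)
  have hg : g.map res ≠ 0 := ga_nf_key hD hm hz hnorm hrel
  refine ⟨g * g₀, f, ?_, ?_⟩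
  · rw [Polynomial.map_mul]; exact mul_ne_zero hg hg₀
  · rw [map_mul, mul_assoc]; exact hrel

/-- (span) Every element of `F` with coefficients in `W` is a combination of the family `b_i`
with coefficients in `O₀`. -/
theorem ga_nf_coeffs (hNF : ga_NFStatement) {N : ℕ} [NeZero N] {ℓ : ℕ} [Fact ℓ.Prime]
    {L : Type} [Field L] [Algebra ℚ L] {W : ValuationSubring L} [IsDiscreteValuationRing ↥W]
    {k : Type} [Field k] [IsAlgClosed k] [CharP k ℓ] {res : ↥W →+* k} {ϖ : ↥W}
    (hD : BaseData N ℓ W res ϖ) {m : Fin (dedekindPsi N) → LaurentSeries ℤ}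
    (hm : ga_IsMonoFamily N k m) {z : ↥(FL L N)} (hz : ga_WInt W N z) :
    ∃ c : Fin (dedekindPsi N) → ↥(FL L N), (∀ i, c i ∈ gaussO W res N) ∧
      z = ∑ i, c i * ga_bF L N (m i) := by
  obtain ⟨g, f, hg, hrel⟩ := hNF N ℓ L W k res ϖ hD m hm z (ga_WInt_mem_M W res N hz)
  have hg0 : evW W N (jF L N) g ≠ 0 :=
    ga_evW_j_ne_zero W N (ga_ne_zero_of_map_ne_zero W res hg)
  refine ⟨fun i => evW W N (jF L N) (f i) / evW W N (jF L N) g,
    fun i => ga_div_mem_gaussO W res N (f i) hg, ?_⟩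
  rw [← mul_right_inj' hg0, hrel, Finset.mul_sum]
  refine Finset.sum_congr rfl fun i _ => ?_
  rw [← mul_assoc, mul_div_cancel₀ _ hg0]

/-- (WIntV) `F ∩ ι(W((q))) ⊆ V`. -/
theorem ga_nf_wintv : ga_MonoExStatement → ga_NFStatement → ga_WIntVStatement := by
  intro hME hNF N _ ℓ _ L _ _ W _ k _ _ _ res ϖ hD x hx
  obtain ⟨m, hm⟩ := hME N ℓ hD.not_dvd k
  rw [mem_gaussV_iff]
  exact ga_nf_isIntegral_of_span (gaussO W res N) (fun i => ga_bF L N (m i)) x
    (ga_nf_coeffs hNF hD hm (ga_WInt_one W N))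
    (fun i => ga_nf_coeffs hNF hD hm (ga_WInt_mul W N hx (ga_WInt_bF W N _ (hm.memQ i))))

end

end Fermat.Agent.S18
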