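import Fermat.Agent.S18.GAInterfaces
set_option autoImplicit false

/-
S18 / block G (twin A) — package GA/RhoEx (G5a): existence of the reduction map
`ρ : M' → k((q))`.

A PRESENTATION of `x ∈ F` is a pair `(g, y)`, `g ∈ W[T]`, `y ∈ W((q))`, with `ḡ ≠ 0` and
`ι y = g(j) * x`.  Two presentations of the same element are compatible, so
`ρ x := red y / ḡ(j̄)` is well defined; sums and products of presentations give that `ρ` is a
ring homomorphism.
-/
open ModularCurve AlgebraicCurve Polynomial Fermat.Agent.S28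

namespace Fermat.Agent.S18

noncomputable section

section RhoEx

variable {L : Type} [Field L] [Algebra ℚ L] (W : ValuationSubring L) {k : Type} [Field k]
  (res : ↥W →+* k) (N : ℕ) [NeZero N]

omit [Algebra ℚ L] in
/-- `red (g(j_W)) = ḡ(j̄)`. -/
theorem ga_rhoex_red_evalL (g : Polynomial ↥W) :
    coeffMap res (evalL (jqModC ↥W) g) = evalL (jqModC k) (g.map res) := by
  rw [degMain_coeffMap_evalL, coeffMap_jqModC]

omit [Algebra ℚ L] in
/-- `ḡ(j̄) ≠ 0` when `ḡ ≠ 0`. -/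
theorem ga_rhoex_evalL_ne_zero {g : Polynomial ↥W} (hg : g.map res ≠ 0) :
    evalL (jqModC k) (g.map res) ≠ 0 :=
  fun h => hg (degMain_evalL_eq_zero _ h)

/-- `(g, y)` is a presentation of `x ∈ F`: `ḡ ≠ 0` and `ι y = g(j) * x`. -/
def ga_rhoex_Pres (x : ↥(FL L N)) (g : Polynomial ↥W) (y : LaurentSeries ↥W) : Prop :=
  g.map res ≠ 0 ∧
    coeffMap W.subtype y = ((evW W N (jF L N) g * x : ↥(FL L N)) : LaurentSeries L)

/-- The presentation equation, in `L((q))`. -/
theorem ga_rhoex_Pres_eq {x : ↥(FL L N)} {g : Polynomial ↥W} {y : LaurentSeries ↥W}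
    (h : ga_rhoex_Pres W res N x g y) :
    coeffMap W.subtype y =
      coeffMap W.subtype (evalL (jqModC ↥W) g) * (x : LaurentSeries L) := by
  rw [h.2, ← ga_coe_evW_j W N g]
  rfl

/-- Criterion for a presentation, in `L((q))`. -/
theorem ga_rhoex_Pres_of_eq {x : ↥(FL L N)} {g : Polynomial ↥W} {y : LaurentSeries ↥W}
    (hg : g.map res ≠ 0)
    (h : coeffMap W.subtype y =
      coeffMap W.subtype (evalL (jqModC ↥W) g) * (x : LaurentSeries L)) :
    ga_rhoex_Pres W res N x g y := by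
  refine ⟨hg, ?_⟩
  rw [h, ← ga_coe_evW_j W N g]
  rfl

/-- (1) COMPATIBILITY of two presentations of the same element. -/
theorem ga_rhoex_compat {x : ↥(FL L N)} {g₁ g₂ : Polynomial ↥W} {y₁ y₂ : LaurentSeries ↥W}
    (h₁ : ga_rhoex_Pres W res N x g₁ y₁) (h₂ : ga_rhoex_Pres W res N x g₂ y₂) :
    evalL (jqModC k) (g₂.map res) * coeffMap res y₁ =
      evalL (jqModC k) (g₁.map res) * coeffMap res y₂ := by
  have e : evalL (jqModC ↥W) g₂ * y₁ = evalL (jqModC ↥W) g₁ * y₂ := by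
    apply ga_iota_injective W
    rw [map_mul, map_mul, ga_rhoex_Pres_eq W res N h₁, ga_rhoex_Pres_eq W res N h₂]
    ring
  have e' := congrArg (coeffMap res) e
  rwa [map_mul, map_mul, ga_rhoex_red_evalL, ga_rhoex_red_evalL] at e'

/-- `(1, 1)` presents `1`. -/
theorem ga_rhoex_Pres_one : ga_rhoex_Pres W res N 1 1 1 := by
  refine ga_rhoex_Pres_of_eq W res N (by rw [Polynomial.map_one]; exact one_ne_zero) ?_
  rw [map_one, map_one, map_one, one_mul]
  rfl

/-- `(1, 0)` presents `0`. -/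
theorem ga_rhoex_Pres_zero : ga_rhoex_Pres W res N 0 1 0 := by
  refine ga_rhoex_Pres_of_eq W res N (by rw [Polynomial.map_one]; exact one_ne_zero) ?_
  rw [map_zero, map_one, map_one, one_mul]
  rfl

/-- Presentation of a sum. -/
theorem ga_rhoex_Pres_add {x₁ x₂ : ↥(FL L N)} {g₁ g₂ : Polynomial ↥W}
    {y₁ y₂ : LaurentSeries ↥W}
    (h₁ : ga_rhoex_Pres W res N x₁ g₁ y₁) (h₂ : ga_rhoex_Pres W res N x₂ g₂ y₂) :
    ga_rhoex_Pres W res N (x₁ + x₂) (g₁ * g₂)
      (evalL (jqModC ↥W) g₂ * y₁ + evalL (jqModC ↥W) g₁ * y₂) := by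
  refine ga_rhoex_Pres_of_eq W res N
    (by rw [Polynomial.map_mul]; exact mul_ne_zero h₁.1 h₂.1) ?_
  have hc : ((x₁ + x₂ : ↥(FL L N)) : LaurentSeries L) =
      (x₁ : LaurentSeries L) + (x₂ : LaurentSeries L) := rfl
  rw [map_add, map_mul, map_mul, map_mul, map_mul, ga_rhoex_Pres_eq W res N h₁,
    ga_rhoex_Pres_eq W res N h₂, hc]
  ring

/-- Presentation of a product. -/
theorem ga_rhoex_Pres_mul {x₁ x₂ : ↥(FL L N)} {g₁ g₂ : Polynomial ↥W}
    {y₁ y₂ : LaurentSeries ↥W}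
    (h₁ : ga_rhoex_Pres W res N x₁ g₁ y₁) (h₂ : ga_rhoex_Pres W res N x₂ g₂ y₂) :
    ga_rhoex_Pres W res N (x₁ * x₂) (g₁ * g₂) (y₁ * y₂) := by
  refine ga_rhoex_Pres_of_eq W res N
    (by rw [Polynomial.map_mul]; exact mul_ne_zero h₁.1 h₂.1) ?_
  have hc : ((x₁ * x₂ : ↥(FL L N)) : LaurentSeries L) =
      (x₁ : LaurentSeries L) * (x₂ : LaurentSeries L) := rfl
  rw [map_mul, map_mul, map_mul, ga_rhoex_Pres_eq W res N h₁,
    ga_rhoex_Pres_eq W res N h₂, hc]
  ring

/-- Every element of `M'` has a presentation. -/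
theorem ga_rhoex_exists_Pres (x : ↥(ga_M W res N)) :
    ∃ p : Polynomial ↥W × LaurentSeries ↥W,
      ga_rhoex_Pres W res N (x : ↥(FL L N)) p.1 p.2 := by
  obtain ⟨g, hg, y, hy⟩ := x.2
  exact ⟨(g, y), hg, hy⟩

/-- (2) The reduction map, as a function: `ρ₀ x = red y / ḡ(j̄)` for a chosen presentation
`(g, y)` of `x`. -/
def ga_rhoex_fun (x : ↥(ga_M W res N)) : LaurentSeries k :=
  coeffMap res (Classical.choose (ga_rhoex_exists_Pres W res N x)).2 /
    evalL (jqModC k) ((Classical.choose (ga_rhoex_exists_Pres W res N x)).1.map res)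

/-- (2) The characteristic property: `ρ₀ x * ḡ(j̄) = red y` for EVERY presentation `(g, y)`
of `x`. -/
theorem ga_rhoex_fun_spec (x : ↥(ga_M W res N)) {g : Polynomial ↥W} {y : LaurentSeries ↥W}
    (h : ga_rhoex_Pres W res N (x : ↥(FL L N)) g y) :
    ga_rhoex_fun W res N x * evalL (jqModC k) (g.map res) = coeffMap res y := by
  have h₀ := Classical.choose_spec (ga_rhoex_exists_Pres W res N x)
  have hne := ga_rhoex_evalL_ne_zero W res h₀.1
  have hc := ga_rhoex_compat W res N h₀ h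
  rw [ga_rhoex_fun, div_mul_eq_mul_div, div_eq_iff hne, mul_comm (coeffMap res y), ← hc,
    mul_comm]

/-- Uniqueness: `ρ₀ x` is determined by any presentation of `x`. -/
theorem ga_rhoex_fun_eq_of_mul_eq (x : ↥(ga_M W res N)) {g : Polynomial ↥W}
    {y : LaurentSeries ↥W} (h : ga_rhoex_Pres W res N (x : ↥(FL L N)) g y)
    {z : LaurentSeries k} (hz : z * evalL (jqModC k) (g.map res) = coeffMap res y) :
    ga_rhoex_fun W res N x = z :=
  mul_right_cancel₀ (ga_rhoex_evalL_ne_zero W res h.1)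
    ((ga_rhoex_fun_spec W res N x h).trans hz.symm)

/-- (3) The reduction map `ρ : M' → k((q))`. -/
def ga_rhoex_rho : ↥(ga_M W res N) →+* LaurentSeries k where
  toFun := ga_rhoex_fun W res N
  map_one' := by
    refine ga_rhoex_fun_eq_of_mul_eq W res N 1 (ga_rhoex_Pres_one W res N) ?_
    rw [Polynomial.map_one, map_one, map_one, mul_one]
  map_mul' := by
    intro x₁ x₂
    obtain ⟨p₁, h₁⟩ := ga_rhoex_exists_Pres W res N x₁
    obtain ⟨p₂, h₂⟩ := ga_rhoex_exists_Pres W res N x₂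
    refine ga_rhoex_fun_eq_of_mul_eq W res N (x₁ * x₂) (ga_rhoex_Pres_mul W res N h₁ h₂) ?_
    rw [Polynomial.map_mul, map_mul, map_mul, ← ga_rhoex_fun_spec W res N x₁ h₁,
      ← ga_rhoex_fun_spec W res N x₂ h₂]
    ring
  map_zero' := by
    refine ga_rhoex_fun_eq_of_mul_eq W res N 0 (ga_rhoex_Pres_zero W res N) ?_
    rw [zero_mul, map_zero]
  map_add' := by
    intro x₁ x₂
    obtain ⟨p₁, h₁⟩ := ga_rhoex_exists_Pres W res N x₁
    obtain ⟨p₂, h₂⟩ := ga_rhoex_exists_Pres W res N x₂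
    refine ga_rhoex_fun_eq_of_mul_eq W res N (x₁ + x₂) (ga_rhoex_Pres_add W res N h₁ h₂) ?_
    rw [Polynomial.map_mul, map_mul, map_add, map_mul, map_mul, ga_rhoex_red_evalL,
      ga_rhoex_red_evalL, ← ga_rhoex_fun_spec W res N x₁ h₁,
      ← ga_rhoex_fun_spec W res N x₂ h₂]
    ring

theorem ga_rhoex_rho_apply (x : ↥(ga_M W res N)) :
    ga_rhoex_rho W res N x = ga_rhoex_fun W res N x := rfl

/-- The map `ga_rhoex_rho` has the characteristic property of the reduction map. -/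
theorem ga_rhoex_isRho : ga_IsRho W res N (ga_rhoex_rho W res N) :=
  fun x _ _ hg hy => ga_rhoex_fun_spec W res N x ⟨hg, hy⟩

end RhoEx

/-- (G5a) The reduction map `ρ : M' → k((q))` exists. -/
theorem ga_rhoex_main : ga_RhoExStatement := by
  intro N _ L _ _ W k _ res
  exact ⟨ga_rhoex_rho W res N, ga_rhoex_isRho W res N⟩

end

end Fermat.Agent.S18
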