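/-
S18 / block G (twin A) — package GA/RhoKer (G5b): `ker ρ = ϖ M'`.

For a reduction map `ρ : M' → k((q))` (characterised by `ga_IsRho`), an element `x ∈ M'` is killed
by `ρ` if and only if `x = ϖ x'` with `x' ∈ M'`.
-/
import Fermat.Agent.S18.GAInterfaces

set_option autoImplicit false

open ModularCurve AlgebraicCurve Polynomial Fermat.Agent.S28

namespace Fermat.Agent.S18

noncomputable section

/-- Division of a Laurent series over a domain by a nonzero constant dividing all its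
coefficients. -/
theorem ga_rhoker_div {R : Type*} [CommRing R] [IsDomain R] {c : R} (hc : c ≠ 0)
    (y : LaurentSeries R) (h : ∀ n : ℤ, c ∣ y.coeff n) :
    ∃ y' : LaurentSeries R, HahnSeries.C c * y' = y := by
  choose d hd using h
  refine ⟨⟨d, y.isPWO_support.mono fun n hn => ?_⟩, ?_⟩
  · simp only [Function.mem_support, ne_eq] at hn ⊢
    intro h0
    apply hn
    have h1 := hd n
    rw [h0] at h1
    exact (mul_eq_zero.mp h1.symm).resolve_left hc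
  · ext n
    rw [HahnSeries.C_mul_eq_smul, HahnSeries.coeff_smul, smul_eq_mul]
    exact (hd n).symm

section

variable {N ℓ : ℕ} [NeZero N] {L : Type} [Field L] [Algebra ℚ L] {W : ValuationSubring L}
  {k : Type} [Field k] {res : ↥W →+* k} {ϖ : ↥W}

/-- `ϖ` (as a constant of `F`) lies in `M'`. -/
theorem ga_rhoker_cW_mem (w : ↥W) : cW W N w ∈ ga_M W res N :=
  ga_WInt_mem_M W res N (ga_WInt_cW W N w)

/-- `ρ ϖ = 0`. -/
theorem ga_rhoker_rho_varpi (hD : BaseData N ℓ W res ϖ)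
    (ρ : ↥(ga_M W res N) →+* LaurentSeries k) (hρ : ga_IsRho W res N ρ) :
    ρ ⟨cW W N ϖ, ga_rhoker_cW_mem ϖ⟩ = 0 := by
  have h := hρ ⟨cW W N ϖ, ga_rhoker_cW_mem ϖ⟩ 1 (HahnSeries.C ϖ)
    (by rw [Polynomial.map_one]; exact one_ne_zero)
    (by rw [map_one, one_mul, ga_coe_cW, degMain_coeffMap_C]; rfl)
  rw [Polynomial.map_one, map_one, mul_one, degMain_coeffMap_C, ga_res_varpi hD, map_zero] at h
  exact h

/-- (⟸) `ρ (ϖ x') = 0`. -/
theorem ga_rhoker_of_mul (hD : BaseData N ℓ W res ϖ)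
    (ρ : ↥(ga_M W res N) →+* LaurentSeries k) (hρ : ga_IsRho W res N ρ)
    (x x' : ↥(ga_M W res N)) (hx : (x : ↥(FL L N)) = cW W N ϖ * (x' : ↥(FL L N))) :
    ρ x = 0 := by
  have hx2 : x = ⟨cW W N ϖ, ga_rhoker_cW_mem ϖ⟩ * x' := Subtype.ext hx
  rw [hx2, map_mul, ga_rhoker_rho_varpi hD ρ hρ, zero_mul]

/-- (⟹) If `ρ x = 0` then `ϖ⁻¹ x ∈ M'`. -/
theorem ga_rhoker_inv_mul_mem (hD : BaseData N ℓ W res ϖ)
    (ρ : ↥(ga_M W res N) →+* LaurentSeries k) (hρ : ga_IsRho W res N ρ)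
    (x : ↥(ga_M W res N)) (hx : ρ x = 0) :
    (cW W N ϖ)⁻¹ * (x : ↥(FL L N)) ∈ ga_M W res N := by
  obtain ⟨g, hg, y, hy⟩ := x.2
  have h1 := hρ x g y hg hy
  rw [hx, zero_mul] at h1
  have hdiv : ∀ n : ℤ, ϖ ∣ y.coeff n := by
    intro n
    rw [← ga_res_eq_zero_iff hD]
    have h2 := congrArg (fun z => z.coeff n) h1
    simpa using h2.symm
  obtain ⟨y', hy'⟩ := ga_rhoker_div (ga_varpi_ne_zero hD) y hdiv
  have hc : cW W N ϖ ≠ 0 := ga_cW_varpi_ne_zero hD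
  have hc' : ((cW W N ϖ : ↥(FL L N)) : LaurentSeries L) ≠ 0 := fun h0 =>
    hc (Subtype.ext h0)
  refine ⟨g, hg, y', ?_⟩
  apply mul_left_cancel₀ hc'
  have e1 : ((cW W N ϖ : ↥(FL L N)) : LaurentSeries L) * coeffMap W.subtype y' =
      coeffMap W.subtype y := by
    rw [← hy', map_mul, degMain_coeffMap_C, ga_coe_cW]
    rfl
  have e2 : cW W N ϖ * (evW W N (jF L N) g * ((cW W N ϖ)⁻¹ * (x : ↥(FL L N)))) =
      evW W N (jF L N) g * (x : ↥(FL L N)) := by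
    field_simp
  rw [e1, hy, ← e2]
  rfl

end

/-- (G5b) `ker ρ = ϖ M'`. -/
theorem ga_rhoker_main : ga_RhoKerStatement := by
  intro N _ ℓ _ L _ _ W _ k _ _ _ res ϖ hD ρ hρ x
  constructor
  · intro hx
    exact ⟨⟨(cW W N ϖ)⁻¹ * (x : ↥(FL L N)), ga_rhoker_inv_mul_mem hD ρ hρ x hx⟩,
      (mul_inv_cancel_left₀ (ga_cW_varpi_ne_zero hD) _).symm⟩
  · rintro ⟨x', hx'⟩
    exact ga_rhoker_of_mul hD ρ hρ x x' hx'

end

end Fermat.Agent.S18
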