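/-
S18 / block G (twin A) — package GA/RhoRange (G5c): `ρ(M') = F_k`.

Notation in the comments: `j̄ = jqModC k`, `K̄ = k(j̄) = IntermediateField.adjoin k {j̄} ≤ F_k`,
`m̄ i = coeffMap (Int.castRingHom k) (m i)`, `b i = ga_bF L N (m i)`, `g(j) = evW W N (jF L N) g`,
`ḡ = g.map res`.
-/
import Fermat.Agent.S18.GAInterfaces

set_option autoImplicit false

open ModularCurve AlgebraicCurve Polynomial Fermat.Agent.S28

namespace Fermat.Agent.S18

noncomputable section

section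

variable {L : Type} [Field L] [Algebra ℚ L] (W : ValuationSubring L) {k : Type} [Field k]
  (res : ↥W →+* k) (N : ℕ) [NeZero N]

omit [NeZero N] in
/-- `p(j̄) ∈ K̄ ≤ F_k`. -/
theorem ga_rhorange_evalL_mem_Fk (p : Polynomial k) : evalL (jqModC k) p ∈ Fk k N := by
  have h : IntermediateField.adjoin k {jqModC k} ≤ Fk k N :=
    IntermediateField.adjoin_le_iff.mpr (by
      intro x hx
      rw [Set.mem_singleton_iff] at hx
      rw [hx]
      exact jqModC_mem_full k N)
  exact h (degMain_evalL_mem_adjoin _ p)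

omit [Algebra ℚ L] in
/-- `ḡ ≠ 0 → ḡ(j̄) ≠ 0`. -/
theorem ga_rhorange_evalL_ne_zero {g : Polynomial ↥W} (hg : g.map res ≠ 0) :
    evalL (jqModC k) (g.map res) ≠ 0 :=
  fun h => hg (degMain_evalL_eq_zero _ h)

/-- (A) FORMULA: if `g(j) * x = ∑ f_i(j) * b_i` with `ḡ ≠ 0`, then
`ρ x * ḡ(j̄) = ∑ f̄_i(j̄) * m̄_i`. -/
theorem ga_rhorange_formula {m : Fin (dedekindPsi N) → LaurentSeries ℤ}
    (hm : ∀ i, coeffMap (Int.castRingHom ℚ) (m i) ∈ modularFunctionFieldFull N)
    {ρ : ↥(ga_M W res N) →+* LaurentSeries k} (hρ : ga_IsRho W res N ρ)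
    (x : ↥(ga_M W res N)) {g : Polynomial ↥W} (f : Fin (dedekindPsi N) → Polynomial ↥W)
    (hg : g.map res ≠ 0)
    (h : evW W N (jF L N) g * (x : ↥(FL L N)) =
      ∑ i, evW W N (jF L N) (f i) * ga_bF L N (m i)) :
    ρ x * evalL (jqModC k) (g.map res) =
      ∑ i, evalL (jqModC k) ((f i).map res) * coeffMap (Int.castRingHom k) (m i) := by
  rw [← ga_red_S]
  refine hρ x g (ga_S W N m f) hg ?_
  rw [h, ga_coe_sum W N hm f]

/-- On elements with coefficients in `W`, `ρ` is the coefficientwise reduction. -/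
theorem ga_rhorange_red {ρ : ↥(ga_M W res N) →+* LaurentSeries k} (hρ : ga_IsRho W res N ρ)
    (x : ↥(ga_M W res N)) (y : LaurentSeries ↥W)
    (hy : coeffMap W.subtype y = ((x : ↥(FL L N)) : LaurentSeries L)) :
    ρ x = coeffMap res y := by
  have h := hρ x 1 y (by rw [Polynomial.map_one]; exact one_ne_zero)
    (by rw [map_one, one_mul]; exact hy)
  rwa [Polynomial.map_one, map_one, mul_one] at h

/-- (i) constants lie in the range of `ρ`. -/
theorem ga_rhorange_const (hres : Function.Surjective res)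
    {ρ : ↥(ga_M W res N) →+* LaurentSeries k} (hρ : ga_IsRho W res N ρ) (c : k) :
    ∃ x : ↥(ga_M W res N), ρ x = HahnSeries.C c := by
  obtain ⟨w, rfl⟩ := hres c
  refine ⟨⟨cW W N w, ga_WInt_mem_M W res N (ga_WInt_cW W N w)⟩, ?_⟩
  rw [ga_rhorange_red W res N hρ _ (HahnSeries.C w)
    (by rw [degMain_coeffMap_C]; exact (ga_coe_cW W N w).symm), degMain_coeffMap_C]

omit [NeZero N] in
/-- `j(q^d) ∈ F_L` for `d ∣ N`. -/
theorem ga_rhorange_qExpand_mem (d : ℕ) [NeZero d] (hd : d ∣ N) :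
    qExpand L d (jqModC L) ∈ FL L N := by
  have h : qExpand L d (jqModC L) = coeffEmb L (qExpand ℚ d jq) := by
    rw [coeffEmb, coeffMap_qExpand, ← jqModC_rat, coeffMap_jqModC]
  rw [h]
  exact coeffEmb_mem_laurentBaseChange L (jqd_mem_full N hd)

/-- (ii) the generators `j̄(q^d)`, `d ∣ N`, lie in the range of `ρ`. -/
theorem ga_rhorange_gen {ρ : ↥(ga_M W res N) →+* LaurentSeries k} (hρ : ga_IsRho W res N ρ)
    (d : ℕ) [NeZero d] (hd : d ∣ N) :
    ∃ x : ↥(ga_M W res N), ρ x = qExpand k d (jqModC k) := by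
  have hy : coeffMap W.subtype (qExpand ↥W d (jqModC ↥W)) = qExpand L d (jqModC L) := by
    rw [coeffMap_qExpand, coeffMap_jqModC]
  refine ⟨⟨⟨qExpand L d (jqModC L), ga_rhorange_qExpand_mem N d hd⟩,
    ga_WInt_mem_M W res N ⟨_, hy⟩⟩, ?_⟩
  rw [ga_rhorange_red W res N hρ _ (qExpand ↥W d (jqModC ↥W)) hy, coeffMap_qExpand,
    coeffMap_jqModC]

/-- The range of `ρ` contains `K̄ = k(j̄)`. -/
theorem ga_rhorange_K (hres : Function.Surjective res)
    {ρ : ↥(ga_M W res N) →+* LaurentSeries k} (hρ : ga_IsRho W res N ρ) (c : LaurentSeries k)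
    (hc : c ∈ IntermediateField.adjoin k {jqModC k}) : ∃ x : ↥(ga_M W res N), ρ x = c := by
  obtain ⟨R, S, hS, h⟩ := degMain_exists_frac (jqModC k) c hc
  obtain ⟨p, rfl⟩ := Polynomial.map_surjective res hres R
  obtain ⟨q, rfl⟩ := Polynomial.map_surjective res hres S
  have hq : q.map res ≠ 0 := fun h0 => hS (by rw [h0, map_zero])
  have hq0 : evW W N (jF L N) q ≠ 0 :=
    ga_evW_j_ne_zero W N (ga_ne_zero_of_map_ne_zero W res hq)
  have hmem : evW W N (jF L N) p / evW W N (jF L N) q ∈ ga_M W res N :=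
    ga_gaussO_le_M W res N (ga_div_mem_gaussO W res N p hq)
  refine ⟨⟨_, hmem⟩, ?_⟩
  have h1 := hρ ⟨_, hmem⟩ q (evalL (jqModC ↥W) p) hq (by
    rw [← ga_coe_evW_j W N p]
    exact congrArg (fun t : ↥(FL L N) => (t : LaurentSeries L)) (mul_div_cancel₀ _ hq0).symm)
  rw [degMain_coeffMap_evalL, coeffMap_jqModC, ← h] at h1
  exact mul_right_cancel₀ hS h1

variable {m : Fin (dedekindPsi N) → LaurentSeries ℤ}

/-- Every `ρ x` lies in the `K̄`-span of the `m̄ i`. -/
theorem ga_rhorange_mem_span (hm : ga_IsMonoFamily N k m)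
    (hnf : ∀ x : ↥(FL L N), x ∈ ga_M W res N →
      ∃ (g : Polynomial ↥W) (f : Fin (dedekindPsi N) → Polynomial ↥W), g.map res ≠ 0 ∧
        evW W N (jF L N) g * x = ∑ i, evW W N (jF L N) (f i) * ga_bF L N (m i))
    {ρ : ↥(ga_M W res N) →+* LaurentSeries k} (hρ : ga_IsRho W res N ρ)
    (x : ↥(ga_M W res N)) :
    ρ x ∈ Submodule.span ↥(IntermediateField.adjoin k {jqModC k})
      (Set.range fun i => coeffMap (Int.castRingHom k) (m i)) := by
  obtain ⟨g, f, hg, h⟩ := hnf x x.2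
  have hA := ga_rhorange_formula W res N hm.memQ hρ x f hg h
  have hg0 := ga_rhorange_evalL_ne_zero W res hg
  have hx : ρ x = ∑ i, (⟨evalL (jqModC k) ((f i).map res) / evalL (jqModC k) (g.map res),
      div_mem (degMain_evalL_mem_adjoin _ _) (degMain_evalL_mem_adjoin _ _)⟩ :
      ↥(IntermediateField.adjoin k {jqModC k})) • coeffMap (Int.castRingHom k) (m i) := by
    rw [eq_div_of_mul_eq hg0 hA, Finset.sum_div]
    refine Finset.sum_congr rfl fun i _ => ?_
    rw [mul_div_right_comm]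
    rfl
  rw [hx]
  exact Submodule.sum_mem _ fun i _ => Submodule.smul_mem _ _ (Submodule.subset_span ⟨i, rfl⟩)

/-- (⟸) `ρ x ∈ F_k`. -/
theorem ga_rhorange_mem_Fk (hm : ga_IsMonoFamily N k m)
    (hnf : ∀ x : ↥(FL L N), x ∈ ga_M W res N →
      ∃ (g : Polynomial ↥W) (f : Fin (dedekindPsi N) → Polynomial ↥W), g.map res ≠ 0 ∧
        evW W N (jF L N) g * x = ∑ i, evW W N (jF L N) (f i) * ga_bF L N (m i))
    {ρ : ↥(ga_M W res N) →+* LaurentSeries k} (hρ : ga_IsRho W res N ρ)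
    (x : ↥(ga_M W res N)) : ρ x ∈ Fk k N := by
  obtain ⟨g, f, hg, h⟩ := hnf x x.2
  have hA := ga_rhorange_formula W res N hm.memQ hρ x f hg h
  have hg0 := ga_rhorange_evalL_ne_zero W res hg
  rw [eq_div_of_mul_eq hg0 hA]
  exact div_mem (sum_mem fun i _ => mul_mem (ga_rhorange_evalL_mem_Fk N _) (hm.memk i))
    (ga_rhorange_evalL_mem_Fk N _)

/-- (iii) the range of `ρ` is closed under inverses. -/
theorem ga_rhorange_inv (hres : Function.Surjective res) (hm : ga_IsMonoFamily N k m)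
    (hnf : ∀ x : ↥(FL L N), x ∈ ga_M W res N →
      ∃ (g : Polynomial ↥W) (f : Fin (dedekindPsi N) → Polynomial ↥W), g.map res ≠ 0 ∧
        evW W N (jF L N) g * x = ∑ i, evW W N (jF L N) (f i) * ga_bF L N (m i))
    {ρ : ↥(ga_M W res N) →+* LaurentSeries k} (hρ : ga_IsRho W res N ρ)
    (x : ↥(ga_M W res N)) : ∃ x' : ↥(ga_M W res N), ρ x' = (ρ x)⁻¹ := by
  let S : Subalgebra ↥(IntermediateField.adjoin k {jqModC k}) (LaurentSeries k) :=
    { carrier := Set.range ρ
      mul_mem' := by rintro _ _ ⟨a, rfl⟩ ⟨b, rfl⟩; exact ⟨a * b, map_mul ρ a b⟩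
      one_mem' := ⟨1, map_one ρ⟩
      add_mem' := by rintro _ _ ⟨a, rfl⟩ ⟨b, rfl⟩; exact ⟨a + b, map_add ρ a b⟩
      zero_mem' := ⟨0, map_zero ρ⟩
      algebraMap_mem' := fun r => ga_rhorange_K W res N hres hρ r.1 r.2 }
  have hle : Subalgebra.toSubmodule S ≤ Submodule.span ↥(IntermediateField.adjoin k {jqModC k})
      (Set.range fun i => coeffMap (Int.castRingHom k) (m i)) := by
    rintro _ ⟨a, rfl⟩
    exact ga_rhorange_mem_span W res N hm hnf hρ a
  have hfg : (Subalgebra.toSubmodule S).FG :=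
    isNoetherian_submodule.mp (isNoetherian_span_of_finite _ (Set.finite_range _)) _ hle
  have hint : IsIntegral ↥(IntermediateField.adjoin k {jqModC k}) (ρ x) :=
    IsIntegral.of_mem_of_fg S hfg (ρ x) ⟨x, rfl⟩
  exact Subalgebra.inv_mem_of_algebraic (A := S) (x := ⟨ρ x, ⟨x, rfl⟩⟩) hint.isAlgebraic

end

/-- (G5c) `ρ(M') = F_k`. -/
theorem ga_rhorange_main : ga_MonoExStatement → ga_NFStatement → ga_RhoRangeStatement := by
  intro hME hNF N _ ℓ _ L _ _ W _ k _ _ _ res ϖ hD ρ hρ z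
  obtain ⟨m, hm⟩ := hME N ℓ hD.not_dvd k
  have hnf := hNF N ℓ L W k res ϖ hD m hm
  constructor
  · intro hz
    have key : ∀ z' ∈ Subfield.closure
        (Set.range (algebraMap k (LaurentSeries k)) ∪ divisorExpansionsC k N),
        ∃ x : ↥(ga_M W res N), ρ x = z' := by
      intro z' hz'
      induction hz' using Subfield.closure_induction with
      | mem y hy =>
        rcases hy with ⟨c, rfl⟩ | ⟨d, hd0, hd, rfl⟩
        · rw [degMain_algebraMap_eq_C]
          exact ga_rhorange_const W res N hD.res_surjective hρ c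
        · have := hd0
          exact ga_rhorange_gen W res N hρ d hd
      | one => exact ⟨1, map_one ρ⟩
      | add a b _ _ ha hb =>
        obtain ⟨x, rfl⟩ := ha
        obtain ⟨y, rfl⟩ := hb
        exact ⟨x + y, map_add ρ x y⟩
      | neg a _ ha =>
        obtain ⟨x, rfl⟩ := ha
        exact ⟨-x, map_neg ρ x⟩
      | inv a _ ha =>
        obtain ⟨x, rfl⟩ := ha
        exact ga_rhorange_inv W res N hD.res_surjective hm hnf hρ x
      | mul a b _ _ ha hb =>
        obtain ⟨x, rfl⟩ := ha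
        obtain ⟨y, rfl⟩ := hb
        exact ⟨x * y, map_mul ρ x y⟩
    exact key z hz
  · rintro ⟨x, rfl⟩
    exact ga_rhorange_mem_Fk W res N hm hnf hρ x

end

end Fermat.Agent.S18
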