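/-
S18 / block G (twin A) — package GA/Val (file `GAVal`).

(G6): every nonzero `x ∈ F` is `ϖ ^ n * u` with `n ∈ ℤ` and `u` a unit of `M' = ga_M W res N`.
-/
import Fermat.Agent.S18.GAInterfaces

set_option autoImplicit false

open ModularCurve AlgebraicCurve Polynomial Fermat.Agent.S28

namespace Fermat.Agent.S18

noncomputable section

/-- Field computation: from `π ^ a * G * x = π ^ b * S` get `x = π ^ (b - a) * (S / G)`. -/
theorem ga_val_field {E : Type*} [Field E] {π G S x : E} (a b : ℕ) (hπ : π ≠ 0) (hG : G ≠ 0)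
    (h : π ^ a * G * x = π ^ b * S) : x = π ^ ((b : ℤ) - (a : ℤ)) * (S / G) := by
  have hπa : π ^ a ≠ 0 := pow_ne_zero a hπ
  rw [zpow_sub₀ hπ, zpow_natCast, zpow_natCast, div_mul_div_comm, eq_div_iff (mul_ne_zero hπa hG),
    ← h]
  ring

/-- Field computation: from `u⁻¹ = (π ^ (p + 1))⁻¹ * v` get `u * v = π ^ (p + 1)`. -/
theorem ga_val_field_inv {E : Type*} [Field E] {π u v : E} (p : ℕ) (hπ : π ≠ 0) (hu : u ≠ 0)
    (h : u⁻¹ = (π ^ (p + 1))⁻¹ * v) : u * v = π ^ (p + 1) := by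
  have hπp : π ^ (p + 1) ≠ 0 := pow_ne_zero _ hπ
  have h1 : u * u⁻¹ = 1 := mul_inv_cancel₀ hu
  rw [h] at h1
  have h2 : π ^ (p + 1) * (u * ((π ^ (p + 1))⁻¹ * v)) = π ^ (p + 1) * 1 := by rw [h1]
  rw [mul_one] at h2
  rw [← h2]
  field_simp

section

variable {N : ℕ} [NeZero N] {ℓ : ℕ} {L : Type} [Field L] [Algebra ℚ L] {W : ValuationSubring L}
  {k : Type} [Field k] {res : ↥W →+* k} {ϖ : ↥W}

/-- `ϖ ∈ M'`. -/
theorem ga_val_varpi_mem : cW W N ϖ ∈ ga_M W res N :=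
  ga_WInt_mem_M W res N (ga_WInt_cW W N ϖ)

/-- (ρ1) `ρ ϖ = 0`. -/
theorem ga_val_rho_varpi (hD : BaseData N ℓ W res ϖ)
    {ρ : ↥(ga_M W res N) →+* LaurentSeries k} (hρ : ga_IsRho W res N ρ) :
    ρ ⟨cW W N ϖ, ga_val_varpi_mem⟩ = 0 := by
  have h := hρ ⟨cW W N ϖ, ga_val_varpi_mem⟩ 1 (HahnSeries.C ϖ)
    (by rw [Polynomial.map_one]; exact one_ne_zero)
    (by
      show coeffMap W.subtype (HahnSeries.C ϖ) =
        ((evW W N (jF L N) 1 * cW W N ϖ : ↥(FL L N)) : LaurentSeries L)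
      rw [map_one, one_mul, ga_coe_cW, degMain_coeffMap_C]; rfl)
  rw [Polynomial.map_one, map_one, mul_one, degMain_coeffMap_C, ga_res_varpi hD, map_zero] at h
  exact h

/-- (ρ2) an element of `M'` with a normal form whose numerators are not all divisible by `ϖ`
is not in the kernel of `ρ`. -/
theorem ga_val_rho_ne_zero {m : Fin (dedekindPsi N) → LaurentSeries ℤ}
    (hm : ga_IsMonoFamily N k m) {ρ : ↥(ga_M W res N) →+* LaurentSeries k}
    (hρ : ga_IsRho W res N ρ) (u : ↥(ga_M W res N)) (g : Polynomial ↥W)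
    (f : Fin (dedekindPsi N) → Polynomial ↥W) (hg : g.map res ≠ 0)
    (he : evW W N (jF L N) g * (u : ↥(FL L N)) =
      ∑ i, evW W N (jF L N) (f i) * ga_bF L N (m i))
    (hf : ∃ i, (f i).map res ≠ 0) : ρ u ≠ 0 := by
  intro h0
  have h := hρ u g (ga_S W N m f) hg (by rw [he, ga_coe_sum W N hm.memQ f])
  rw [h0, zero_mul] at h
  obtain ⟨i, hi⟩ := hf
  exact hi (ga_degW W res N hm f h.symm i)

/-- The sums `∑ f_i(j) * b_i` have coefficients in `W`. -/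
theorem ga_val_WInt_sum {m : Fin (dedekindPsi N) → LaurentSeries ℤ}
    (hm : ∀ i, coeffMap (Int.castRingHom ℚ) (m i) ∈ modularFunctionFieldFull N)
    (f : Fin (dedekindPsi N) → Polynomial ↥W) :
    ga_WInt W N (∑ i, evW W N (jF L N) (f i) * ga_bF L N (m i)) :=
  ⟨ga_S W N m f, (ga_coe_sum W N hm f).symm⟩

/-- Content removal in a relation `g(j) * x = ∑ f_i(j) * b_i` with `g ≠ 0`, `x ≠ 0`. -/
theorem ga_val_content [IsDiscreteValuationRing ↥W] (hD : BaseData N ℓ W res ϖ)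
    {b : Fin (dedekindPsi N) → ↥(FL L N)} {x : ↥(FL L N)} (hx : x ≠ 0) {g : Polynomial ↥W}
    (hg : g ≠ 0) {f : Fin (dedekindPsi N) → Polynomial ↥W}
    (hrel : evW W N (jF L N) g * x = ∑ i, evW W N (jF L N) (f i) * b i) :
    ∃ (a c : ℕ) (g' : Polynomial ↥W) (f' : Fin (dedekindPsi N) → Polynomial ↥W),
      g'.map res ≠ 0 ∧ (∃ i, (f' i).map res ≠ 0) ∧
      cW W N ϖ ^ a * evW W N (jF L N) g' * x =
        cW W N ϖ ^ c * ∑ i, evW W N (jF L N) (f' i) * b i := by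
  have hf : ∃ i, f i ≠ 0 := by
    by_contra hall
    rw [not_exists] at hall
    have h0 : ∑ i, evW W N (jF L N) (f i) * b i = 0 :=
      Finset.sum_eq_zero fun i _ => by rw [not_not.mp (hall i), map_zero, zero_mul]
    rw [h0] at hrel
    exact mul_ne_zero (ga_evW_j_ne_zero W N hg) hx hrel
  obtain ⟨a, G', hG', ⟨u, hu⟩⟩ := ga_content_removal hD (fun _ : Unit => g) ⟨(), hg⟩
  obtain ⟨c, f', hf', hne⟩ := ga_content_removal hD f hf
  refine ⟨a, c, G' u, f', hu, hne, ?_⟩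
  have h1 : evW W N (jF L N) g = cW W N ϖ ^ a * evW W N (jF L N) (G' u) := by
    conv_lhs => rw [hG' u]
    rw [map_mul, map_pow, ga_evW_C]
  have h2 : ∑ i, evW W N (jF L N) (f i) * b i =
      cW W N ϖ ^ c * ∑ i, evW W N (jF L N) (f' i) * b i := by
    rw [Finset.mul_sum]
    refine Finset.sum_congr rfl fun i _ => ?_
    conv_lhs => rw [hf' i]
    rw [map_mul, map_pow, ga_evW_C, mul_assoc]
  rw [← h1, hrel, h2]

/-- (Dw) weak form of the decomposition: every nonzero `x ∈ F` is `ϖ ^ n * u` with `u ∈ M'` and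
`ρ u ≠ 0`. -/
theorem ga_val_weak [Fact ℓ.Prime] [IsDiscreteValuationRing ↥W] [IsAlgClosed k] [CharP k ℓ]
    (hB : ga_BasisStatement) (hD : BaseData N ℓ W res ϖ)
    {m : Fin (dedekindPsi N) → LaurentSeries ℤ} (hm : ga_IsMonoFamily N k m)
    {ρ : ↥(ga_M W res N) →+* LaurentSeries k} (hρ : ga_IsRho W res N ρ)
    (x : ↥(FL L N)) (hx : x ≠ 0) :
    ∃ (n : ℤ) (u : ↥(FL L N)) (hu : u ∈ ga_M W res N),
      x = cW W N ϖ ^ n * u ∧ ρ ⟨u, hu⟩ ≠ 0 := by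
  obtain ⟨g, f, hg, -, hrel⟩ := hB N ℓ L W k res ϖ hD m hm x
  obtain ⟨a, c, g', f', hg', hf', hrel'⟩ := ga_val_content hD hx hg hrel
  have hG : evW W N (jF L N) g' ≠ 0 :=
    ga_evW_j_ne_zero W N (ga_ne_zero_of_map_ne_zero W res hg')
  have hGu : evW W N (jF L N) g' *
      ((∑ i, evW W N (jF L N) (f' i) * ga_bF L N (m i)) / evW W N (jF L N) g') =
      ∑ i, evW W N (jF L N) (f' i) * ga_bF L N (m i) := mul_div_cancel₀ _ hG
  have hu : (∑ i, evW W N (jF L N) (f' i) * ga_bF L N (m i)) / evW W N (jF L N) g' ∈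
      ga_M W res N :=
    ⟨g', hg', by rw [hGu]; exact ga_val_WInt_sum hm.memQ f'⟩
  exact ⟨(c : ℤ) - (a : ℤ), _, hu, ga_val_field a c (ga_cW_varpi_ne_zero hD) hG hrel',
    ga_val_rho_ne_zero hm hρ ⟨_, hu⟩ g' f' hg' hGu hf'⟩

/-- (U) an element of `M'` outside the kernel of `ρ` is a unit of `M'`. -/
theorem ga_val_unit [Fact ℓ.Prime] [IsDiscreteValuationRing ↥W] [IsAlgClosed k] [CharP k ℓ]
    (hB : ga_BasisStatement) (hD : BaseData N ℓ W res ϖ)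
    {m : Fin (dedekindPsi N) → LaurentSeries ℤ} (hm : ga_IsMonoFamily N k m)
    {ρ : ↥(ga_M W res N) →+* LaurentSeries k} (hρ : ga_IsRho W res N ρ)
    (u : ↥(FL L N)) (hu : u ∈ ga_M W res N) (hρu : ρ ⟨u, hu⟩ ≠ 0) :
    u⁻¹ ∈ ga_M W res N := by
  have hu0 : u ≠ 0 := by
    intro h0
    apply hρu
    have : (⟨u, hu⟩ : ↥(ga_M W res N)) = 0 := Subtype.ext h0
    rw [this, map_zero]
  obtain ⟨n, v, hv, hxv, hρv⟩ := ga_val_weak hB hD hm hρ u⁻¹ (inv_ne_zero hu0)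
  rcases lt_or_ge n 0 with hn | hn
  · obtain ⟨p, rfl⟩ := Int.eq_negSucc_of_lt_zero hn
    rw [zpow_negSucc] at hxv
    have key : u * v = cW W N ϖ ^ (p + 1) :=
      ga_val_field_inv p (ga_cW_varpi_ne_zero hD) hu0 hxv
    have key' : (⟨u, hu⟩ : ↥(ga_M W res N)) * ⟨v, hv⟩ =
        (⟨cW W N ϖ, ga_val_varpi_mem⟩ : ↥(ga_M W res N)) ^ (p + 1) := Subtype.ext key
    have h3 := congrArg ρ key'
    rw [map_mul, map_pow, ga_val_rho_varpi hD hρ, zero_pow (Nat.succ_ne_zero p)] at h3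
    exact absurd h3 (mul_ne_zero hρu hρv)
  · obtain ⟨p, rfl⟩ := Int.eq_ofNat_of_zero_le hn
    rw [hxv, zpow_natCast]
    exact mul_mem (pow_mem ga_val_varpi_mem p) hv

end

/-- (G6) every nonzero `x ∈ F` is `ϖ ^ n * u` with `u` a unit of `M'`. -/
theorem ga_val_main :
    ga_MonoExStatement → ga_BasisStatement → ga_RhoExStatement → ga_ValStatement := by
  intro hM hB hR N _ ℓ _ L _ _ W _ k _ _ _ res ϖ hD x hx
  obtain ⟨m, hm⟩ := hM N ℓ hD.not_dvd k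
  obtain ⟨ρ, hρ⟩ := hR N L W k res
  obtain ⟨n, u, hu, hxu, hρu⟩ := ga_val_weak hB hD hm hρ x hx
  exact ⟨n, u, hxu, hu, ga_val_unit hB hD hm hρ u hu hρu⟩

end

end Fermat.Agent.S18
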