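/-
S18, block G (twin A) — hypothesis-free intermediate statements of the Gauss chain
(everything except the final packages `Gauss`, `Sep`, `Prim`, `RedO`, `Mono`).
-/
import Fermat.Agent.S18.GAMainFin
import Fermat.Agent.S18.GAMainChart
import Fermat.Agent.S18.GAMonoEx
import Fermat.Agent.S18.GABasis
import Fermat.Agent.S18.GANF
import Fermat.Agent.S18.GAVal
import Fermat.Agent.S18.GARhoEx
import Fermat.Agent.S18.GARhoKer
import Fermat.Agent.S18.GARhoRange
import Fermat.Agent.S28.TAMain
import Fermat.Agent.S28.PBMain

set_option autoImplicit false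

namespace Fermat.Agent.S18

open Fermat.Agent.S28 in
/-- The degree mod `ℓ` (S28), hypothesis-free. -/
theorem ga_modLDeg : Fermat.Agent.S28.ModLDegStatement :=
  ta_main c_modEq (pb_irred c_modEq (pb_level c_modEq c_hasse))

/-- Monomial families exist, hypothesis-free. -/
theorem ga_monoEx : ga_MonoExStatement := ga_monoex_main Fermat.Agent.S28.c_char0Deg ga_modLDeg

/-- Normalised relations over the monomial family, hypothesis-free. -/
theorem ga_basis : ga_BasisStatement := ga_basis_main ga_ldeg ga_frac_main

/-- Normal form of `M'`, hypothesis-free. -/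
theorem ga_nf : ga_NFStatement := ga_nf_main ga_basis

/-- `F ∩ ι(W((q))) ⊆ V`, hypothesis-free. -/
theorem ga_wintV : ga_WIntVStatement := ga_nf_wintv ga_monoEx ga_nf

/-- Every nonzero element is `ϖ ^ n * unit`, hypothesis-free. -/
theorem ga_val : ga_ValStatement := ga_val_main ga_monoEx ga_basis ga_rhoex_main

/-- `ρ(M') = F_k`, hypothesis-free. -/
theorem ga_rhoRange : ga_RhoRangeStatement := ga_rhorange_main ga_monoEx ga_nf

end Fermat.Agent.S18
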