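/-
S18, block G (twin A) — hypothesis-free deliverable (G2): `ga_gauss : GaussStatement`
(`V ⊇ F ∩ W((q))`, `V` is the unique valuation ring of `F` over `O₀` in which `ϖ` is not a unit,
and the reduction map `ρ : V → k((q))` with `ker ρ = ϖ V`, `ρ(V) = F_k`).
-/
import Fermat.Agent.S18.GAMainPre
import Fermat.Agent.S18.GAGaussT

set_option autoImplicit false

namespace Fermat.Agent.S18

/-- `M' = V`, hypothesis-free. -/
theorem ga_meqV : ga_MeqVStatement := ga_gausst_meqv ga_wintV ga_val

/-- (G2) `GaussStatement`, hypothesis-free. -/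
theorem ga_gauss : GaussStatement :=
  ga_gausst_main ga_meqV ga_wintV ga_val ga_rhoex_main ga_rhoker_main ga_rhoRange

end Fermat.Agent.S18
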