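/-
S18, block G (twin A) — second interface file: statement of the package `Prim`.

`ga_PrimStatement`: `F_k / k(j̄)` has a separable primitive element of degree at least `ψ(N)`.
-/
import Fermat.Agent.S18.GAInterfaces

set_option autoImplicit false

open ModularCurve AlgebraicCurve Polynomial Fermat.Agent.S28

namespace Fermat.Agent.S18

noncomputable section

/-- (Prim) There is `θ̄ ∈ F_k`, integral over `k(j̄)`, whose minimal polynomial over `k(j̄)` is
separable of degree at least `ψ(N)`. -/
def ga_PrimStatement : Prop :=
  ∀ (N : ℕ) [NeZero N] (ℓ : ℕ) [Fact ℓ.Prime], ¬ ℓ ∣ N →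
    ∀ (k : Type) [Field k] [CharP k ℓ] [IsAlgClosed k],
      ∃ t : LaurentSeries k, t ∈ Fk k N ∧
        IsIntegral ↥(IntermediateField.adjoin k {jqModC k}) t ∧
        (minpoly ↥(IntermediateField.adjoin k {jqModC k}) t).Separable ∧
        dedekindPsi N ≤ (minpoly ↥(IntermediateField.adjoin k {jqModC k}) t).natDegree

end

end Fermat.Agent.S18
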