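/-
S18 / block G (twin A) — package GA/Prim (file GAPrimT).

A separable primitive element of `F_k / k(j̄)` of degree at least `ψ(N)`: pure field theory inside
`Ω = k((q))`, from the separability of `F_k / k(j̄)` (`FkSepStatement`) and the degree bound mod `ℓ`
(`ModLDegStatement`).
-/
import Fermat.Agent.S18.GAInterfaces2

set_option autoImplicit false

open ModularCurve AlgebraicCurve Polynomial Fermat.Agent.S28

namespace Fermat.Agent.S18

noncomputable section

/-- The field `F_k`, as an intermediate field of `k((q)) / k(j̄)`. -/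
abbrev ga_primt_E (k : Type) [Field k] (N : ℕ) :
    IntermediateField ↥(IntermediateField.adjoin k {jqModC k}) (LaurentSeries k) :=
  IntermediateField.adjoin ↥(IntermediateField.adjoin k {jqModC k}) (divisorExpansionsC k N)

/-- `F_k ⊆ E`. -/
theorem ga_primt_mem_E_of_mem_Fk (k : Type) [Field k] (N : ℕ) {x : LaurentSeries k}
    (hx : x ∈ Fk k N) : x ∈ ga_primt_E k N := by
  have h1 : modularFunctionFieldFullC k N ≤ (ga_primt_E k N).restrictScalars k := by
    rw [modularFunctionFieldFullC, IntermediateField.adjoin_le_iff]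
    intro z hz
    have hz' : z ∈ ga_primt_E k N := IntermediateField.subset_adjoin _ _ hz
    exact hz'
  exact h1 hx

/-- `E ⊆ F_k`. -/
theorem ga_primt_mem_Fk_of_mem_E (k : Type) [Field k] (N : ℕ) {x : LaurentSeries k}
    (hx : x ∈ ga_primt_E k N) : x ∈ Fk k N := by
  have hle : IntermediateField.adjoin k {jqModC k} ≤ Fk k N := by
    rw [IntermediateField.adjoin_simple_le_iff]; exact jqModC_mem_full k N
  induction hx using IntermediateField.adjoin_induction with
  | mem z hz => exact IntermediateField.subset_adjoin _ _ hz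
  | algebraMap c => exact hle c.2
  | add z w _ _ hz hw => exact add_mem hz hw
  | inv z _ hz => exact inv_mem hz
  | mul z w _ _ hz hw => exact mul_mem hz hw

/-- The set of generators `j(q^d)`, `d ∣ N`, is finite. -/
theorem ga_primt_finite (k : Type) [Field k] (N : ℕ) [NeZero N] :
    (divisorExpansionsC k N).Finite := by
  classical
  let f : ℕ → LaurentSeries k :=
    fun d => if h : d = 0 then 0 else @qExpand k _ d ⟨h⟩ (jqModC k)
  refine ((Finset.finite_toSet N.divisors).image f).subset ?_
  rintro x ⟨d, hd, hdN, rfl⟩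
  refine ⟨d, Finset.mem_coe.mpr (Nat.mem_divisors.mpr ⟨hdN, NeZero.ne N⟩), ?_⟩
  show (if h : d = 0 then 0 else @qExpand k _ d ⟨h⟩ (jqModC k)) = _
  rw [dif_neg (NeZero.ne d)]

/-- `E / k(j̄)` is finite, if the generators are separable. -/
theorem ga_primt_finiteDimensional (k : Type) [Field k] (N : ℕ) [NeZero N]
    (hsep : ∀ x ∈ Fk k N, IsSeparable ↥(IntermediateField.adjoin k {jqModC k}) x) :
    FiniteDimensional ↥(IntermediateField.adjoin k {jqModC k}) ↥(ga_primt_E k N) := by
  have : Finite ↥(divisorExpansionsC k N) := (ga_primt_finite k N).to_subtype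
  exact IntermediateField.finiteDimensional_adjoin fun x hx =>
    (hsep x (IntermediateField.subset_adjoin _ _ hx)).isIntegral

/-- `E / k(j̄)` is separable, if the generators are separable. -/
theorem ga_primt_isSeparable (k : Type) [Field k] (N : ℕ)
    (hsep : ∀ x ∈ Fk k N, IsSeparable ↥(IntermediateField.adjoin k {jqModC k}) x) :
    Algebra.IsSeparable ↥(IntermediateField.adjoin k {jqModC k}) ↥(ga_primt_E k N) :=
  (IntermediateField.isSeparable_adjoin_iff_isSeparable _ _).mpr fun x hx =>
    hsep x (IntermediateField.subset_adjoin _ _ hx)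

/-- `ψ(N) ≤ [E : k(j̄)]`, from a linearly independent family of `ψ(N)` elements of `F_k`. -/
theorem ga_primt_le_finrank (k : Type) [Field k] (N : ℕ)
    [FiniteDimensional ↥(IntermediateField.adjoin k {jqModC k}) ↥(ga_primt_E k N)]
    (n : ℕ) (b : Fin n → LaurentSeries k) (hb : ∀ i, b i ∈ Fk k N)
    (hli : LinearIndependent ↥(IntermediateField.adjoin k {jqModC k}) b) :
    n ≤ Module.finrank ↥(IntermediateField.adjoin k {jqModC k}) ↥(ga_primt_E k N) := by
  have hb' : LinearIndependent ↥(IntermediateField.adjoin k {jqModC k})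
      (fun i => (⟨b i, ga_primt_mem_E_of_mem_Fk k N (hb i)⟩ : ↥(ga_primt_E k N))) := by
    apply LinearIndependent.of_comp (ga_primt_E k N).val.toLinearMap
    exact hli
  have h := hb'.fintype_card_le_finrank
  rwa [Fintype.card_fin] at h

/-- (Prim) A separable primitive element of `F_k / k(j̄)` of degree at least `ψ(N)`. -/
theorem ga_primt_main : FkSepStatement → ModLDegStatement → ga_PrimStatement := by
  intro hSep hDeg N _ ℓ _ hℓ k _ _ _
  have hsep := hSep N ℓ hℓ k
  obtain ⟨b, hb, hli⟩ := hDeg N ℓ hℓ k
  have := ga_primt_finiteDimensional k N hsep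
  have := ga_primt_isSeparable k N hsep
  obtain ⟨α, hα⟩ := Field.exists_primitive_element
    ↥(IntermediateField.adjoin k {jqModC k}) ↥(ga_primt_E k N)
  have hdeg := (Field.primitive_element_iff_minpoly_natDegree_eq
    ↥(IntermediateField.adjoin k {jqModC k}) α).mp hα
  have hmin : minpoly ↥(IntermediateField.adjoin k {jqModC k}) α =
      minpoly ↥(IntermediateField.adjoin k {jqModC k}) (α : LaurentSeries k) :=
    IntermediateField.minpoly_eq α
  have hαF : (α : LaurentSeries k) ∈ Fk k N := ga_primt_mem_Fk_of_mem_E k N α.2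
  have hαsep : IsSeparable ↥(IntermediateField.adjoin k {jqModC k}) (α : LaurentSeries k) :=
    hsep _ hαF
  refine ⟨(α : LaurentSeries k), hαF, hαsep.isIntegral, hαsep, ?_⟩
  rw [← hmin, hdeg]
  exact ga_primt_le_finrank k N (dedekindPsi N) b hb hli

end

end Fermat.Agent.S18
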