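/-
S18, block G (twin A) — package Sep: (G4) `F_k / k(j̄)` is separable (`FkSepStatement`).

Pure characteristic-`ℓ` field theory inside `Ω = LaurentSeries k`: with `K̄ = k(j̄)` and `S` the
separable closure of `K̄` in `Ω`, every generator `j(y^d)`, `d ∣ N`, of `F_k` lies in `S`, by
induction on `d` through the modular equation of prime level `r ∣ d` (whose `r + 1` roots
`j(y^(a r r))`, `j(ζ^b y^a)` are pairwise distinct after the substitution `y ↦ y^r`).
-/
import Fermat.Agent.S18.GAInterfaces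
import Fermat.Agent.S28.TABasic

set_option autoImplicit false

open ModularCurve AlgebraicCurve Polynomial Fermat.Agent.S28

namespace Fermat.Agent.S18

noncomputable section

/-- `K̄ = k(j̄) ⊆ Ω = k((y))`. -/
abbrev ga_sep_K (k : Type) [Field k] : IntermediateField k (LaurentSeries k) :=
  IntermediateField.adjoin k {jqModC k}

/-- The separable closure `S` of `K̄` in `Ω`. -/
abbrev ga_sep_S (k : Type) [Field k] : IntermediateField ↥(ga_sep_K k) (LaurentSeries k) :=
  separableClosure ↥(ga_sep_K k) (LaurentSeries k)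

/-- (0) Closedness: a root in `Ω` of a separable polynomial over `S` lies in `S`. -/
theorem ga_sep_closed (k : Type) [Field k] (y : LaurentSeries k)
    (P₁ : Polynomial ↥(ga_sep_S k)) (hsep : P₁.Separable)
    (hroot : Polynomial.aeval y P₁ = 0) : y ∈ ga_sep_S k := by
  have h1 : IsSeparable ↥(ga_sep_S k) y := hsep.of_dvd (minpoly.dvd _ y hroot)
  have h2 : y ∈ separableClosure ↥(ga_sep_S k) (LaurentSeries k) :=
    mem_separableClosure_iff.mpr h1
  rw [separableClosure.separableClosure_eq_bot, IntermediateField.mem_bot] at h2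
  obtain ⟨s, rfl⟩ := h2
  exact s.2

/-- Constants lie in `S`. -/
theorem ga_sep_const_mem (k : Type) [Field k] (c : k) :
    algebraMap k (LaurentSeries k) c ∈ ga_sep_S k :=
  (ga_sep_S k).algebraMap_mem ⟨_, (ga_sep_K k).algebraMap_mem c⟩

/-- Polynomial expressions over `k` in an element of `S` lie in `S`. -/
theorem ga_sep_evalL_mem (k : Type) [Field k] {x : LaurentSeries k} (hx : x ∈ ga_sep_S k)
    (p : k[X]) : evalL x p ∈ ga_sep_S k := by
  rw [ta_evalL_eq_aeval]
  induction p using Polynomial.induction_on with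
  | C a =>
    rw [Polynomial.aeval_C]
    exact ga_sep_const_mem k a
  | add p q hp hq =>
    rw [map_add]
    exact add_mem hp hq
  | monomial n a _ =>
    rw [map_mul, Polynomial.aeval_C, map_pow, Polynomial.aeval_X]
    exact mul_mem (ga_sep_const_mem k a) (pow_mem hx _)

/-- The `r + 1` roots `j(y^(a r r))`, `j(ζ^b y^a)` (`b < r`) are pairwise distinct. -/
theorem ga_sep_prod_separable (k : Type) [Field k] (r : ℕ) (hr : r.Prime) (ζ : k)
    (hζ : IsPrimitiveRoot ζ r) (a : ℕ) (ha : a ≠ 0) :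
    ((X - C (ta_J k 1 (a * (r * r)))) *
      ∏ b ∈ Finset.range r, (X - C (ta_J k (ζ ^ b) a)) :
        Polynomial (LaurentSeries k)).Separable := by
  have hζ0 : ζ ≠ 0 := hζ.ne_zero hr.ne_zero
  refine Polynomial.Separable.mul Polynomial.separable_X_sub_C ?_ ?_
  · rw [Polynomial.separable_prod_X_sub_C_iff']
    intro b hb b' hb' h
    exact hζ.pow_inj (Finset.mem_range.mp hb) (Finset.mem_range.mp hb')
      (ta_J_inj k _ _ (pow_ne_zero _ hζ0) (pow_ne_zero _ hζ0) ha ha h).2
  · refine IsCoprime.prod_right fun b _ => ?_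
    refine Polynomial.isCoprime_X_sub_C_of_isUnit_sub (sub_ne_zero_of_ne ?_).isUnit
    intro h
    have h1 := (ta_J_inj k _ _ one_ne_zero (pow_ne_zero _ hζ0)
      (Nat.mul_ne_zero ha (Nat.mul_ne_zero hr.ne_zero hr.ne_zero)) ha h).1
    have h2 : r * r = 1 :=
      Nat.eq_of_mul_eq_mul_left (Nat.pos_of_ne_zero ha) (h1.trans (mul_one a).symm)
    have h3 := hr.two_le
    nlinarith

/-- (1) One step: `j(y^a) ∈ S` implies `j(y^(a r)) ∈ S` for a prime `r` different from the
characteristic, by the modular equation of level `r`. -/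
theorem ga_sep_step (hME : ModEqStatement) (ℓ : ℕ) [Fact ℓ.Prime] (k : Type) [Field k]
    [CharP k ℓ] [IsAlgClosed k] (r : ℕ) (hr : r.Prime) (hrl : ¬ ℓ ∣ r) (a : ℕ) (ha : a ≠ 0)
    (hx : ta_J k 1 a ∈ ga_sep_S k) : ta_J k 1 (a * r) ∈ ga_sep_S k := by
  have : NeZero r := ⟨hr.ne_zero⟩
  obtain ⟨ζ, hζ⟩ := ta_exists_primitiveRoot ℓ k hrl
  obtain ⟨Φ, -, -, hfac, hroot⟩ := ta_modEq_pack hME k r hr ζ hζ
  have hP : (Φ.map (evalL (ta_J k 1 a))).Separable := by
    rw [← Polynomial.separable_map (qExpand k r), Polynomial.map_map,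
      substB_hom_comp_evalL (qExpand k r) (fun b => qExpand_C r b), ta_qExpand_J k 1 ha r]
    have h := hfac 1 one_ne_zero a ha
    rw [one_pow, one_pow] at h
    rw [h]
    simp only [mul_one]
    exact ga_sep_prod_separable k r hr ζ hζ a ha
  let θ : k[X] →+* ↥(ga_sep_S k) :=
    (evalL (ta_J k 1 a)).codRestrict (ga_sep_S k) (fun p => ga_sep_evalL_mem k hx p)
  have hθ : (algebraMap ↥(ga_sep_S k) (LaurentSeries k)).comp θ = evalL (ta_J k 1 a) :=
    RingHom.ext fun _ => rfl
  have hmap : (Φ.map θ).map (algebraMap ↥(ga_sep_S k) (LaurentSeries k)) =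
      Φ.map (evalL (ta_J k 1 a)) := by
    rw [Polynomial.map_map, hθ]
  refine ga_sep_closed k _ (Φ.map θ) ?_ ?_
  · rw [← Polynomial.separable_map (algebraMap ↥(ga_sep_S k) (LaurentSeries k)), hmap]
    exact hP
  · rw [Polynomial.aeval_def, Polynomial.eval₂_eq_eval_map, hmap]
    exact hroot a ha

/-- (2) All generators `j(y^d)`, `d ∣ N`, lie in `S`. -/
theorem ga_sep_gen (hME : ModEqStatement) (N : ℕ) (ℓ : ℕ) [Fact ℓ.Prime] (hℓ : ¬ ℓ ∣ N)
    (k : Type) [Field k] [CharP k ℓ] [IsAlgClosed k] :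
    ∀ d : ℕ, d ≠ 0 → d ∣ N → ta_J k 1 d ∈ ga_sep_S k := by
  intro d
  induction d using Nat.strong_induction_on with
  | _ d ih =>
    intro hd0 hdN
    by_cases hd1 : d = 1
    · subst hd1
      rw [ta_J_one_one]
      exact (ga_sep_S k).algebraMap_mem
        ⟨jqModC k, IntermediateField.mem_adjoin_simple_self k _⟩
    · have hr : d.minFac.Prime := Nat.minFac_prime hd1
      have hrd : d.minFac ∣ d := Nat.minFac_dvd d
      have hrl : ¬ ℓ ∣ d.minFac := fun h => hℓ (h.trans (hrd.trans hdN))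
      have hq : d / d.minFac * d.minFac = d := Nat.div_mul_cancel hrd
      have hq0 : d / d.minFac ≠ 0 := fun h => hd0 (by rw [← hq, h, zero_mul])
      have hlt : d / d.minFac < d := Nat.div_lt_self (Nat.pos_of_ne_zero hd0) hr.one_lt
      have hqN : d / d.minFac ∣ N := (Dvd.intro _ hq).trans hdN
      have h1 := ga_sep_step hME ℓ k d.minFac hr hrl (d / d.minFac) hq0 (ih _ hlt hq0 hqN)
      rwa [hq] at h1

/-- (G4) `F_k / k(j̄)` is separable. -/
theorem ga_sep_main : ModEqStatement → FkSepStatement := by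
  intro hME N _ ℓ _ hℓ k _ _ _ x hx
  have key : x ∈ ga_sep_S k := by
    induction hx using IntermediateField.adjoin_induction with
    | mem x hx =>
      obtain ⟨d, hd, hdN, rfl⟩ := hx
      rw [← ta_J_one_eq]
      exact ga_sep_gen hME N ℓ hℓ k d (NeZero.ne d) hdN
    | algebraMap c => exact ga_sep_const_mem k c
    | add x y _ _ hx hy => exact add_mem hx hy
    | inv x _ hx => exact inv_mem hx
    | mul x y _ _ hx hy => exact mul_mem hx hy
  exact mem_separableClosure_iff.mp key

end

end Fermat.Agent.S18
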