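/-
S18, block G (twin A) — hypothesis-free deliverable (G4): `ga_sep : FkSepStatement`
(`F_k / k(j̄)` is separable), and the separable primitive element of degree `≥ ψ(N)`.
-/
import Fermat.Agent.S18.GAMainPre
import Fermat.Agent.S18.GASep
import Fermat.Agent.S18.GAPrimT

set_option autoImplicit false

namespace Fermat.Agent.S18

/-- (G4) `FkSepStatement`, hypothesis-free. -/
theorem ga_sep : FkSepStatement := ga_sep_main Fermat.Agent.S28.c_modEq

/-- A separable primitive element of `F_k / k(j̄)` of degree at least `ψ(N)`, hypothesis-free. -/
theorem ga_prim : ga_PrimStatement := ga_primt_main ga_sep ga_modLDeg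

end Fermat.Agent.S18
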