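/-
S18 / package C1 — the cuspidal Kummer cover `v ^ N = 1/j` of the chart `A₂` near the cusps.

`E = F(v)` with `v ^ N = 1/j` (constructed as `AdjoinRoot g` for an irreducible factor `g` of
`X ^ N - C j⁻¹`), `h = 1 - 1728 X ^ N`, so that `h(v) = (j - 1728)/j` and `Λ = W[v, j/(j - 1728)]`.
Main result: `cCuspA_main : FinLStatement → ExistsCover2Statement`.
-/
import Fermat.Agent.S18.SInterfaces

set_option autoImplicit false

open ModularCurve AlgebraicCurve Polynomial

namespace Fermat.Agent.S18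

noncomputable section

section Generic

variable {L : Type} [Field L] [Algebra ℚ L] (W : ValuationSubring L) {k : Type} [Field k]
  (res : ↥W →+* k) (N : ℕ) (E : Type) [Field E] [Algebra ↥(FL L N) E]

/-- The polynomial `h = 1 - 1728 X ^ N ∈ W[X]`. -/
def cCuspA_h {L : Type} [Field L] (W : ValuationSubring L) (N : ℕ) : Polynomial ↥W :=
  1 - C 1728 * X ^ N

theorem cCuspA_evWE_h (t : E) : evWE W N E t (cCuspA_h W N) = 1 - 1728 * t ^ N := by
  simp [cCuspA_h, evWE, map_ofNat]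

omit [Algebra ℚ L] in
theorem cCuspA_h_res (hN : N ≠ 0) : (cCuspA_h W N).map res ≠ 0 := by
  intro h0
  have h1 := congrArg (fun p : k[X] => p.coeff 0) h0
  simp [cCuspA_h, Polynomial.coeff_X_pow, hN.symm] at h1

theorem cCuspA_cWE_mem (S : Set E) (a : ↥W) : cWE W N E a ∈ baseRingE W N E S :=
  Subring.subset_closure (Or.inl ⟨a, rfl⟩)

theorem cCuspA_mem_baseRingE (S : Set E) {x : E} (hx : x ∈ S) : x ∈ baseRingE W N E S :=
  Subring.subset_closure (Or.inr hx)

theorem cCuspA_sigma_cWE (σ : E ≃ₐ[↥(FL L N)] E) (a : ↥W) : σ (cWE W N E a) = cWE W N E a := by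
  simp [cWE]

variable [NeZero N]

theorem cCuspA_sigma_jE (σ : E ≃ₐ[↥(FL L N)] E) : σ (jE L N E) = jE L N E := by
  simp [jE]

theorem cCuspA_jE_ne_zero (hj : jF L N ≠ 0) : jE L N E ≠ 0 := by
  unfold jE
  exact (map_ne_zero (algebraMap ↥(FL L N) E)).2 hj

theorem cCuspA_h_t (hj : jF L N ≠ 0) (t : E) (ht : t ^ N = (jE L N E)⁻¹) :
    (evWE W N E t (cCuspA_h W N))⁻¹ = jE L N E / (jE L N E - 1728) := by
  have hj' := cCuspA_jE_ne_zero N E hj
  rw [cCuspA_evWE_h, ht, ← inv_div]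
  congr 1
  field_simp

/-- Stability of `Λ = W[t, 1/h(t)]` under `Gal(E/F)`. -/
theorem cCuspA_stab (hj : jF L N ≠ 0) (t : E) (ht : t ^ N = (jE L N E)⁻¹)
    (ζ : ↥W) (hζ : IsPrimitiveRoot (ζ : L) N)
    (σ : E ≃ₐ[↥(FL L N)] E) :
    ∀ x ∈ coverRing W N E t (cCuspA_h W N), σ x ∈ coverRing W N E t (cCuspA_h W N) := by
  have hj' := cCuspA_jE_ne_zero N E hj
  have hN : N ≠ 0 := NeZero.ne N
  have ht0 : t ≠ 0 := by
    rintro rfl
    rw [zero_pow hN] at ht
    exact inv_ne_zero hj' ht.symm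
  -- the primitive root of unity in `E`
  have hζE : IsPrimitiveRoot (cWE W N E ζ) N := by
    have : cWE W N E ζ = ((algebraMap ↥(FL L N) E).comp (algebraMap L ↥(FL L N))) (ζ : L) := rfl
    rw [this]
    exact hζ.map_of_injective (RingHom.injective _)
  -- `σ t = ζ ^ i * t`
  have hσt : (σ t) ^ N = t ^ N := by
    rw [← map_pow, ht, map_inv₀, cCuspA_sigma_jE]
  have hquot : (σ t / t) ^ N = 1 := by
    rw [div_pow, hσt, div_self (pow_ne_zero N ht0)]
  obtain ⟨i, -, hi⟩ := hζE.eq_pow_of_pow_eq_one hquot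
  have hσt' : σ t = cWE W N E ζ ^ i * t := by
    rw [hi, div_mul_cancel₀ _ ht0]
  have hσh : σ (evWE W N E t (cCuspA_h W N))⁻¹ = (evWE W N E t (cCuspA_h W N))⁻¹ := by
    rw [map_inv₀, cCuspA_evWE_h, map_sub, map_mul, map_one, map_pow, hσt, map_ofNat]
  have hζmem : cWE W N E ζ ∈ coverRing W N E t (cCuspA_h W N) := cCuspA_cWE_mem W N E _ ζ
  have htmem : t ∈ coverRing W N E t (cCuspA_h W N) :=
    cCuspA_mem_baseRingE W N E _ (Or.inl rfl)
  have hhmem : (evWE W N E t (cCuspA_h W N))⁻¹ ∈ coverRing W N E t (cCuspA_h W N) :=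
    cCuspA_mem_baseRingE W N E _ (Or.inr rfl)
  intro x hx
  induction hx using Subring.closure_induction with
  | mem x hx =>
    rcases hx with ⟨a, rfl⟩ | hx
    · rw [cCuspA_sigma_cWE]
      exact cCuspA_cWE_mem W N E _ a
    · rcases hx with rfl | hx
      · rw [hσt']
        exact mul_mem (pow_mem hζmem i) htmem
      · rw [Set.mem_singleton_iff] at hx
        rw [hx, hσh]
        exact hhmem
  | zero => rw [map_zero]; exact zero_mem _
  | one => rw [map_one]; exact one_mem _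
  | add x y _ _ hx hy => rw [map_add]; exact add_mem hx hy
  | neg x _ hx => rw [map_neg]; exact neg_mem hx
  | mul x y _ _ hx hy => rw [map_mul]; exact mul_mem hx hy

/-- `E = F(t)` with `t ^ N = 1/j` is Galois over `F`. -/
theorem cCuspA_galois (hj : jF L N ≠ 0) (t : E) (ht : t ^ N = (jE L N E)⁻¹)
    (hgen : Algebra.adjoin ↥(FL L N) {t} = ⊤)
    (ζ : ↥W) (hζ : IsPrimitiveRoot (ζ : L) N) : IsGalois ↥(FL L N) E := by
  have hN : N ≠ 0 := NeZero.ne N
  have hζE : IsPrimitiveRoot (cWE W N E ζ) N := by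
    have : cWE W N E ζ = ((algebraMap ↥(FL L N) E).comp (algebraMap L ↥(FL L N))) (ζ : L) := rfl
    rw [this]
    exact hζ.map_of_injective (RingHom.injective _)
  have hL0 : CharZero L := algebraRat.charZero L
  have hF0 : CharZero ↥(FL L N) :=
    charZero_of_injective_algebraMap (algebraMap L ↥(FL L N)).injective
  have hmap : (X ^ N - C (jF L N)⁻¹ : (↥(FL L N))[X]).map (algebraMap ↥(FL L N) E)
      = X ^ N - C (jE L N E)⁻¹ := by
    rw [Polynomial.map_sub, Polynomial.map_pow, map_X, map_C, map_inv₀]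
    rfl
  have hsplit : IsSplittingField ↥(FL L N) E (X ^ N - C (jF L N)⁻¹) := by
    constructor
    · rw [hmap]
      exact X_pow_sub_C_splits_of_isPrimitiveRoot hζE ht
    · rw [eq_top_iff, ← hgen]
      apply Algebra.adjoin_mono
      rw [Set.singleton_subset_iff, mem_rootSet']
      refine ⟨?_, ?_⟩
      · rw [hmap]
        exact X_pow_sub_C_ne_zero (Nat.pos_of_ne_zero hN) _
      · rw [aeval_def, ← eval_map, hmap]
        simp [ht]
  exact IsGalois.of_separable_splitting_field (p := X ^ N - C (jF L N)⁻¹)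
    (separable_X_pow_sub_C _ (by exact_mod_cast hN) (inv_ne_zero hj))

/-- The cover data: if `E = F(t)` with `t ^ N = 1/j`, then `(E, t, 1 - 1728 X ^ N)` is a cuspidal
cover. -/
theorem cCuspA_isCover2 (hj : jF L N ≠ 0) (t : E) (ht : t ^ N = (jE L N E)⁻¹)
    (hgen : Algebra.adjoin ↥(FL L N) {t} = ⊤)
    (ζ : ↥W) (hζ : IsPrimitiveRoot (ζ : L) N) : IsCover2 W res N E t (cCuspA_h W N) := by
  have hN : N ≠ 0 := NeZero.ne N
  have hj' := cCuspA_jE_ne_zero N E hj
  have htmem : t ∈ coverRing W N E t (cCuspA_h W N) :=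
    cCuspA_mem_baseRingE W N E _ (Or.inl rfl)
  have hhmem : (evWE W N E t (cCuspA_h W N))⁻¹ ∈ coverRing W N E t (cCuspA_h W N) :=
    cCuspA_mem_baseRingE W N E _ (Or.inr rfl)
  have hbase : ∀ x ∈ baseRingE W N E {(jE L N E)⁻¹, jE L N E / (jE L N E - 1728)},
      IsIntegral ↥(baseRingE W N E {(jE L N E)⁻¹, jE L N E / (jE L N E - 1728)}) x := by
    intro x hx
    exact isIntegral_algebraMap (x := (⟨x, hx⟩ :
      ↥(baseRingE W N E {(jE L N E)⁻¹, jE L N E / (jE L N E - 1728)})))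
  refine
    { gen := IntermediateField.adjoin_eq_top_of_algebra _ _ hgen
      h_res := cCuspA_h_res W res N hN
      galois := cCuspA_galois W N E hj t ht hgen ζ hζ
      stab := cCuspA_stab W N E hj t ht ζ hζ
      jrat := ?_
      jinv_mem := ?_
      jfrac_mem := ?_
      int_t := ?_
      int_h := ?_
      raminf := ?_ }
  · refine ⟨1, X ^ N, ?_, ?_, ?_⟩
    · rw [Polynomial.map_pow, map_X]
      exact pow_ne_zero _ X_ne_zero
    · intro c hc
      have h1 := congrArg (fun p : k[X] => p.coeff 0) hc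
      simp [Polynomial.coeff_X_pow, hN.symm] at h1
    · simp [evWE, ht, hj']
  · rw [← ht]
    exact pow_mem htmem N
  · rw [← cCuspA_h_t W N E hj t ht]
    exact hhmem
  · refine IsIntegral.of_pow (Nat.pos_of_ne_zero hN) ?_
    rw [ht]
    exact hbase _ (cCuspA_mem_baseRingE W N E _ (Or.inl rfl))
  · rw [cCuspA_h_t W N E hj t ht]
    exact hbase _ (cCuspA_mem_baseRingE W N E _ (Or.inr rfl))
  · exact ⟨t, htmem, 1, one_mem _, 1, one_mem _, one_mul 1, by rw [one_mul, ht]⟩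

end Generic

/-- (C1) The cuspidal Kummer cover `v ^ N = 1/j` exists. -/
theorem cCuspA_main : FinLStatement → ExistsCover2Statement := by
  intro hFin N _ ℓ _ L _ _ W _ k _ _ _ res ϖ hD
  have hj : jF L N ≠ 0 := by
    intro h0
    exact (hFin N L).1 (h0 ▸ isAlgebraic_zero)
  have hN : N ≠ 0 := NeZero.ne N
  obtain ⟨ζ, hζ⟩ := hD.roots N hD.not_dvd
  have hdeg : 0 < (X ^ N - C (jF L N)⁻¹ : (↥(FL L N))[X]).natDegree := by
    rw [natDegree_X_pow_sub_C]
    exact Nat.pos_of_ne_zero hN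
  obtain ⟨g, hg, hgdvd⟩ := exists_irreducible_of_natDegree_pos hdeg
  have hgF : Fact (Irreducible g) := ⟨hg⟩
  refine ⟨AdjoinRoot g, inferInstance, inferInstance, AdjoinRoot.root g, cCuspA_h W N, ?_⟩
  refine cCuspA_isCover2 W res N (AdjoinRoot g) hj (AdjoinRoot.root g) ?_
    AdjoinRoot.adjoinRoot_eq_top ζ hζ
  obtain ⟨q, hq⟩ := hgdvd
  have h1 := congrArg (fun p : (↥(FL L N))[X] => aeval (AdjoinRoot.root g) p) hq
  simp only [map_sub, map_pow, aeval_X, aeval_C, map_mul, AdjoinRoot.aeval_eq,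
    AdjoinRoot.mk_self, zero_mul, sub_eq_zero] at h1
  rw [h1, map_inv₀]
  rfl

end

end Fermat.Agent.S18
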