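/-
S18 / package C3 (Hesse cover), part 1: generic algebra.

`φ(x) = 27 x³ (x³ + 8)³ / (x³ - 1)³` is the Hesse `j`-function; the solutions `x` of `φ(x) = φ(μ)` are
the twelve tetrahedral transforms of `μ`: `ω^a μ` and `ω^a (ω^b μ + 2)/(ω^b μ - 1)`.
-/
import Fermat.Agent.S18.SInterfaces

set_option autoImplicit false

namespace Fermat.Agent.S18

/-- The norm form of `ℤ[m]/(m³ - s)` splits over the cube roots of unity. -/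
theorem cHesA_norm {R : Type*} [CommRing R] (a b c m ω : R) (hω : ω ^ 2 + ω + 1 = 0) :
    (a + b * m + c * m ^ 2) * (a + b * (ω * m) + c * (ω * m) ^ 2) *
        (a + b * (ω ^ 2 * m) + c * (ω ^ 2 * m) ^ 2) =
      a ^ 3 + b ^ 3 * m ^ 3 + c ^ 3 * m ^ 6 - 3 * a * b * c * m ^ 3 := by
  linear_combination
    (a^2*b*m + a^2*c*m^2*ω^2 - a^2*c*m^2*ω + a^2*c*m^2 + a*b^2*m^2*ω + a*b*c*m^3*ω^3
      + a*b*c*m^3*ω^2 - 2*a*b*c*m^3*ω + 3*a*b*c*m^3 + a*c^2*m^4*ω^4 - a*c^2*m^4*ω^3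
      + a*c^2*m^4*ω^2 + b^3*m^3*ω - b^3*m^3 + b^2*c*m^4*ω^3 + b*c^2*m^5*ω^4 + c^3*m^6*ω^4
      - c^3*m^6*ω^3 + c^3*m^6*ω - c^3*m^6) * hω

/-- One factor `(m - 1)³ Y - (m + 2)³`, reduced modulo `m³ = s`. -/
theorem cHesA_factor {R : Type*} [CommRing R] (m s Y : R) (hm : m ^ 3 = s) :
    (m - 1) ^ 3 * Y - (m + 2) ^ 3 =
      ((Y - 1) * s - (Y + 8)) + (3 * Y - 12) * m + (-(3 * Y + 6)) * m ^ 2 := by
  linear_combination (Y - 1) * hm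

/-- The factorisation of the Hesse quartic `(μ³-1)³ · 27 Y (Y+8)³ - 27 μ³ (μ³+8)³ (Y-1)³`. -/
theorem cHesA_quartic {R : Type*} [CommRing R] (μ ω Y : R) (hω : ω ^ 2 + ω + 1 = 0) :
    (μ ^ 3 - 1) ^ 3 * (27 * Y * (Y + 8) ^ 3) - 27 * μ ^ 3 * (μ ^ 3 + 8) ^ 3 * (Y - 1) ^ 3 =
      27 * (Y - μ ^ 3) * (((μ - 1) ^ 3 * Y - (μ + 2) ^ 3) *
        ((ω * μ - 1) ^ 3 * Y - (ω * μ + 2) ^ 3) *
        ((ω ^ 2 * μ - 1) ^ 3 * Y - (ω ^ 2 * μ + 2) ^ 3)) := by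
  have hω3 : ω ^ 3 = 1 := by linear_combination (ω - 1) * hω
  rw [cHesA_factor μ (μ ^ 3) Y rfl,
    cHesA_factor (ω * μ) (μ ^ 3) Y (by rw [mul_pow, hω3, one_mul]),
    cHesA_factor (ω ^ 2 * μ) (μ ^ 3) Y (by linear_combination (ω ^ 3 + 1) * μ ^ 3 * hω3),
    cHesA_norm _ _ _ μ ω hω]
  ring

/-- Cube roots: `A³ = B³` implies `A = ω^a B`. -/
theorem cHesA_cube {K : Type*} [CommRing K] [IsDomain K] (ω A B : K) (hω : ω ^ 2 + ω + 1 = 0)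
    (h : A ^ 3 = B ^ 3) : A = B ∨ A = ω * B ∨ A = ω ^ 2 * B := by
  have h' : (A - B) * ((A - ω * B) * (A - ω ^ 2 * B)) = 0 := by
    linear_combination h + (-A^2*B + A*B^2*ω - B^3*ω + B^3) * hω
  rcases mul_eq_zero.mp h' with h1 | h1
  · exact Or.inl (sub_eq_zero.mp h1)
  · rcases mul_eq_zero.mp h1 with h2 | h2
    · exact Or.inr (Or.inl (sub_eq_zero.mp h2))
    · exact Or.inr (Or.inr (sub_eq_zero.mp h2))

/-- `μ³ ≠ 1` for a point of the Hesse family (when `3 ≠ 0`). -/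
theorem cHesA_ne_one {K : Type*} [Field K] (h3 : (3 : K) ≠ 0) (J μ : K)
    (hμ : 27 * μ ^ 3 * (μ ^ 3 + 8) ^ 3 = J * (μ ^ 3 - 1) ^ 3) : μ ^ 3 - 1 ≠ 0 := by
  intro h
  have h1 : μ ^ 3 = 1 := by linear_combination h
  rw [h, h1] at hμ
  have h9 : (3 : K) ^ 9 = 0 := by linear_combination hμ
  exact h3 (pow_eq_zero_iff (by norm_num) |>.mp h9)

/-- The solutions `x` of `φ(x) = φ(μ)`. -/
theorem cHesA_roots {K : Type*} [Field K] (h3 : (3 : K) ≠ 0) (J μ ω x : K)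
    (hω : ω ^ 2 + ω + 1 = 0)
    (hμ : 27 * μ ^ 3 * (μ ^ 3 + 8) ^ 3 = J * (μ ^ 3 - 1) ^ 3)
    (hx : 27 * x ^ 3 * (x ^ 3 + 8) ^ 3 = J * (x ^ 3 - 1) ^ 3) :
    ∃ ε m : K, (ε = 1 ∨ ε = ω ∨ ε = ω ^ 2) ∧ (m = μ ∨ m = ω * μ ∨ m = ω ^ 2 * μ) ∧
      (x = ε * μ ∨ (m - 1) * x = ε * (m + 2)) := by
  have h27 : (27 : K) ≠ 0 := by
    have : (27 : K) = 3 ^ 3 := by norm_num
    rw [this]; exact pow_ne_zero 3 h3
  have hq := cHesA_quartic μ ω (x ^ 3) hω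
  have h0 : (μ ^ 3 - 1) ^ 3 * (27 * x ^ 3 * (x ^ 3 + 8) ^ 3) -
      27 * μ ^ 3 * (μ ^ 3 + 8) ^ 3 * (x ^ 3 - 1) ^ 3 = 0 := by
    linear_combination (μ ^ 3 - 1) ^ 3 * hx - (x ^ 3 - 1) ^ 3 * hμ
  rw [h0] at hq
  have key : ∀ m : K, (m - 1) ^ 3 * x ^ 3 - (m + 2) ^ 3 = 0 →
      ∃ ε : K, (ε = 1 ∨ ε = ω ∨ ε = ω ^ 2) ∧ (m - 1) * x = ε * (m + 2) := by
    intro m hm
    have hc : ((m - 1) * x) ^ 3 = (m + 2) ^ 3 := by linear_combination hm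
    rcases cHesA_cube ω _ _ hω hc with h | h | h
    · exact ⟨1, Or.inl rfl, by rw [h, one_mul]⟩
    · exact ⟨ω, Or.inr (Or.inl rfl), h⟩
    · exact ⟨ω ^ 2, Or.inr (Or.inr rfl), h⟩
  rcases mul_eq_zero.mp hq.symm with h1 | h1
  · rcases mul_eq_zero.mp h1 with h2 | h2
    · exact absurd h2 h27
    · have hc : x ^ 3 = μ ^ 3 := by linear_combination h2
      rcases cHesA_cube ω _ _ hω hc with h | h | h
      · exact ⟨1, μ, Or.inl rfl, Or.inl rfl, Or.inl (by rw [h, one_mul])⟩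
      · exact ⟨ω, μ, Or.inr (Or.inl rfl), Or.inl rfl, Or.inl h⟩
      · exact ⟨ω ^ 2, μ, Or.inr (Or.inr rfl), Or.inl rfl, Or.inl h⟩
  · rcases mul_eq_zero.mp h1 with h2 | h2
    · rcases mul_eq_zero.mp h2 with h3' | h3'
      · obtain ⟨ε, hε, he⟩ := key μ h3'
        exact ⟨ε, μ, hε, Or.inl rfl, Or.inr he⟩
      · obtain ⟨ε, hε, he⟩ := key (ω * μ) h3'
        exact ⟨ε, ω * μ, hε, Or.inr (Or.inl rfl), Or.inr he⟩
    · obtain ⟨ε, hε, he⟩ := key (ω ^ 2 * μ) h2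
      exact ⟨ε, ω ^ 2 * μ, hε, Or.inr (Or.inr rfl), Or.inr he⟩

/-- Every solution `x` of `φ(x) = φ(μ)` lies in any subring `Λ` containing `μ`, `1/(μ³-1)`, `ω`, `1/3`,
and so does `1/(x³-1)`. -/
theorem cHesA_root_mem {K : Type*} [Field K] (Λ : Subring K) (J μ ω u i3 x : K)
    (hω : ω ^ 2 + ω + 1 = 0)
    (hμ : 27 * μ ^ 3 * (μ ^ 3 + 8) ^ 3 = J * (μ ^ 3 - 1) ^ 3)
    (hx : 27 * x ^ 3 * (x ^ 3 + 8) ^ 3 = J * (x ^ 3 - 1) ^ 3)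
    (hu : (μ ^ 3 - 1) * u = 1) (hi3 : 3 * i3 = 1)
    (hμΛ : μ ∈ Λ) (hωΛ : ω ∈ Λ) (huΛ : u ∈ Λ) (hiΛ : i3 ∈ Λ) :
    x ∈ Λ ∧ (x ^ 3 - 1)⁻¹ ∈ Λ := by
  have h3 : (3 : K) ≠ 0 := by
    intro h
    rw [h, zero_mul] at hi3
    exact zero_ne_one hi3
  have hω3 : ω ^ 3 = 1 := by linear_combination (ω - 1) * hω
  obtain ⟨ε, m, hε, hm, hcase⟩ := cHesA_roots h3 J μ ω x hω hμ hx
  have hεΛ : ε ∈ Λ := by
    rcases hε with rfl | rfl | rfl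
    · exact one_mem Λ
    · exact hωΛ
    · exact pow_mem hωΛ 2
  have hε3 : ε ^ 3 = 1 := by
    rcases hε with rfl | rfl | rfl
    · exact one_pow 3
    · exact hω3
    · linear_combination (ω ^ 3 + 1) * hω3
  have hmΛ : m ∈ Λ := by
    rcases hm with rfl | rfl | rfl
    · exact hμΛ
    · exact mul_mem hωΛ hμΛ
    · exact mul_mem (pow_mem hωΛ 2) hμΛ
  have hm3 : m ^ 3 = μ ^ 3 := by
    rcases hm with rfl | rfl | rfl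
    · rfl
    · rw [mul_pow, hω3, one_mul]
    · linear_combination (ω ^ 3 + 1) * μ ^ 3 * hω3
  rcases hcase with hc | hc
  · refine ⟨hc ▸ mul_mem hεΛ hμΛ, ?_⟩
    have : (x ^ 3 - 1)⁻¹ = u := by
      apply inv_eq_of_mul_eq_one_right
      rw [hc]
      linear_combination hu + μ ^ 3 * u * hε3
    rw [this]; exact huΛ
  · have hxe : x = ε * (m + 2) * (m ^ 2 + m + 1) * u := by
      linear_combination (-x) * hu - x * u * hm3 + (m ^ 2 + m + 1) * u * hc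
    have hc3 : ((m - 1) * x) ^ 3 = (ε * (m + 2)) ^ 3 := by rw [hc]
    have h1 : (m - 1) ^ 3 * (x ^ 3 - 1) = 9 * (m ^ 2 + m + 1) := by
      linear_combination hc3 + (m + 2) ^ 3 * hε3
    have hinv : (x ^ 3 - 1)⁻¹ = (m - 1) ^ 4 * u * i3 ^ 2 := by
      apply inv_eq_of_mul_eq_one_right
      linear_combination (m - 1) * u * i3 ^ 2 * h1 + 9 * i3 ^ 2 * u * hm3 + 9 * i3 ^ 2 * hu +
        (3 * i3 + 1) * hi3
    refine ⟨?_, ?_⟩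
    · rw [hxe]
      exact mul_mem (mul_mem (mul_mem hεΛ (add_mem hmΛ (ofNat_mem Λ 2)))
        (add_mem (add_mem (pow_mem hmΛ 2) hmΛ) (one_mem Λ))) huΛ
    · rw [hinv]
      exact mul_mem (mul_mem (pow_mem (sub_mem hmΛ (one_mem Λ)) 4) huΛ) (pow_mem hiΛ 2)

end Fermat.Agent.S18
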