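/-
S18 / package C3 (Hesse cover), part 2: construction of the cover field `E = F(μ)` and its normality.
-/
import Fermat.Agent.S18.CHesAAlg

set_option autoImplicit false

open Polynomial

namespace Fermat.Agent.S18

/-- Over a field `F` of characteristic `0` containing a primitive cube root of unity `ω`, for every
`j : F` there is a Galois extension `E = F(t)` with `27 t³ (t³ + 8)³ = j (t³ - 1)³`. -/
theorem cHesA_exists (F : Type) [Field F] [CharZero F] (j ω : F) (hω : ω ^ 2 + ω + 1 = 0) :
    ∃ (E : Type) (_ : Field E) (_ : Algebra F E) (t : E),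
      IntermediateField.adjoin F {t} = ⊤ ∧ IsGalois F E ∧
      27 * t ^ 3 * (t ^ 3 + 8) ^ 3 = algebraMap F E j * (t ^ 3 - 1) ^ 3 := by
  classical
  let P : F[X] := C 27 * X ^ 3 * (X ^ 3 + C 8) ^ 3 - C j * (X ^ 3 - C 1) ^ 3
  have hdeg : P.degree ≠ 0 := by
    have h : P.natDegree = 12 := by
      simp only [P]
      compute_degree!
    intro h0
    rw [degree_eq_natDegree (by intro hz; rw [hz] at h; simp at h), h] at h0
    norm_num at h0
  obtain ⟨t₀, ht₀⟩ := IsAlgClosed.exists_aeval_eq_zero (AlgebraicClosure F) P hdeg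
  have hP : ∀ x : AlgebraicClosure F, aeval x P = 0 →
      27 * x ^ 3 * (x ^ 3 + 8) ^ 3 = algebraMap F (AlgebraicClosure F) j * (x ^ 3 - 1) ^ 3 := by
    intro x hx
    simpa [P, sub_eq_zero, map_ofNat] using hx
  have ht₀' := hP t₀ ht₀
  have h3 : (3 : AlgebraicClosure F) ≠ 0 := by norm_num
  have hne := cHesA_ne_one h3 _ t₀ ht₀'
  have hω' : (algebraMap F (AlgebraicClosure F) ω) ^ 2 + algebraMap F (AlgebraicClosure F) ω + 1
      = 0 := by
    rw [← map_pow, ← map_add, ← map_one (algebraMap F (AlgebraicClosure F)), ← map_add, hω,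
      map_zero]
  -- every root of `P` lies in `F(t₀)`
  have hroots : ∀ x : AlgebraicClosure F, aeval x P = 0 →
      x ∈ IntermediateField.adjoin F {t₀} := by
    intro x hx
    have ht₀mem : t₀ ∈ IntermediateField.adjoin F {t₀} :=
      IntermediateField.mem_adjoin_simple_self F t₀
    have hu : (t₀ ^ 3 - 1)⁻¹ ∈ IntermediateField.adjoin F {t₀} :=
      inv_mem (sub_mem (pow_mem ht₀mem 3) (one_mem _))
    have hi : (3 : AlgebraicClosure F)⁻¹ ∈ IntermediateField.adjoin F {t₀} :=
      inv_mem (ofNat_mem _ 3)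
    exact (cHesA_root_mem (IntermediateField.adjoin F {t₀}).toSubring _ t₀
      (algebraMap F (AlgebraicClosure F) ω) (t₀ ^ 3 - 1)⁻¹ 3⁻¹ x hω' ht₀' (hP x hx)
      (mul_inv_cancel₀ hne) (mul_inv_cancel₀ h3) ht₀mem
      ((IntermediateField.adjoin F {t₀}).algebraMap_mem ω) hu hi).1
  have hint : IsIntegral F t₀ := Algebra.IsIntegral.isIntegral t₀
  have hsplit : ((minpoly F t₀).map
      (algebraMap F ↥(IntermediateField.adjoin F {t₀}))).Splits := by
    refine IntermediateField.splits_of_splits (IsAlgClosed.splits _) ?_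
    intro x hx
    apply hroots
    have hx' : aeval x (minpoly F t₀) = 0 := (mem_rootSet.mp hx).2
    obtain ⟨Q, hQ⟩ := minpoly.dvd F t₀ ht₀
    rw [hQ, map_mul, hx', zero_mul]
  have hnormal : Normal F ↥(IntermediateField.adjoin F {t₀}) := by
    refine normal_iff.mpr fun x => ⟨Algebra.IsIntegral.isIntegral x, ?_⟩
    have := IntermediateField.splits_of_mem_adjoin (F := F) (K := AlgebraicClosure F)
      (L := ↥(IntermediateField.adjoin F {t₀})) (S := {t₀})
      (fun y hy => by rw [Set.mem_singleton_iff.mp hy]; exact ⟨hint, hsplit⟩) x.2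
    rwa [IntermediateField.minpoly_eq]
  refine ⟨↥(IntermediateField.adjoin F {t₀}), inferInstance, inferInstance,
    IntermediateField.AdjoinSimple.gen F t₀, ?_, ?_, ?_⟩
  · apply IntermediateField.lift_injective
    rw [IntermediateField.lift_adjoin, IntermediateField.lift_top]
    simp
  · exact isGalois_iff.mpr ⟨inferInstance, hnormal⟩
  · apply (algebraMap ↥(IntermediateField.adjoin F {t₀}) (AlgebraicClosure F)).injective
    simp only [map_mul, map_pow, map_add, map_sub, map_ofNat, map_one]
    rw [← IsScalarTower.algebraMap_apply, IntermediateField.AdjoinSimple.algebraMap_gen]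
    exact ht₀'

end Fermat.Agent.S18
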