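/-
S18 / package C3 (Hesse cover), part 3: the cover data `IsCover1` and the main theorem.

`t = μ` with `27 μ³ (μ³ + 8)³ = j (μ³ - 1)³`, `h = X³ - 1`, `Λ = W[μ, 1/(μ³ - 1)]`.
-/
import Fermat.Agent.S18.CHesAGal

set_option autoImplicit false

open Polynomial

namespace Fermat.Agent.S18

/-- `j ∈ Λ`, `j = 1 · a³` and `j - 1728 = unit · b²` in `Λ`. -/
theorem cHesA_ram {E : Type*} [Field E] (Λ : Subring E) (J μ u i3 : E)
    (hμ : 27 * μ ^ 3 * (μ ^ 3 + 8) ^ 3 = J * (μ ^ 3 - 1) ^ 3) (hu : (μ ^ 3 - 1) * u = 1)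
    (h3 : 3 * i3 = 1) (hμΛ : μ ∈ Λ) (huΛ : u ∈ Λ) (hiΛ : i3 ∈ Λ) :
    J ∈ Λ ∧ (∃ a ∈ Λ, ∃ u' ∈ Λ, ∃ v ∈ Λ, u' * v = 1 ∧ J = u' * a ^ 3) ∧
      (∃ b ∈ Λ, ∃ u' ∈ Λ, ∃ v ∈ Λ, u' * v = 1 ∧ J - 1728 = u' * b ^ 2) := by
  have hJ : J = 27 * μ ^ 3 * (μ ^ 3 + 8) ^ 3 * u ^ 3 := by
    linear_combination (-u ^ 3) * hμ - J * (((μ ^ 3 - 1) * u) ^ 2 + (μ ^ 3 - 1) * u + 1) * hu
  have h8 : μ ^ 3 + 8 ∈ Λ := add_mem (pow_mem hμΛ 3) (ofNat_mem Λ 8)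
  refine ⟨?_, ?_, ?_⟩
  · rw [hJ]
    exact mul_mem (mul_mem (mul_mem (ofNat_mem Λ 27) (pow_mem hμΛ 3)) (pow_mem h8 3))
      (pow_mem huΛ 3)
  · refine ⟨3 * μ * (μ ^ 3 + 8) * u, mul_mem (mul_mem (mul_mem (ofNat_mem Λ 3) hμΛ) h8) huΛ,
      1, one_mem Λ, 1, one_mem Λ, one_mul 1, ?_⟩
    rw [hJ]; ring
  · refine ⟨(μ ^ 6 - 20 * μ ^ 3 - 8) * u ^ 2, ?_, 27 * (μ ^ 3 - 1), ?_, u * i3 ^ 3, ?_, ?_, ?_⟩
    · exact mul_mem (sub_mem (sub_mem (pow_mem hμΛ 6) (mul_mem (ofNat_mem Λ 20) (pow_mem hμΛ 3)))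
        (ofNat_mem Λ 8)) (pow_mem huΛ 2)
    · exact mul_mem (ofNat_mem Λ 27) (sub_mem (pow_mem hμΛ 3) (one_mem Λ))
    · exact mul_mem huΛ (pow_mem hiΛ 3)
    · linear_combination 27 * i3 ^ 3 * hu + (9 * i3 ^ 2 + 3 * i3 + 1) * h3
    · linear_combination hJ + (1728 * (((μ ^ 3 - 1) * u) ^ 2 + (μ ^ 3 - 1) * u + 1) -
        27 * (μ ^ 6 - 20 * μ ^ 3 - 8) ^ 2 * u ^ 3) * hu

/-- `μ` and `1/(μ³ - 1)` are integral over any subring containing `j` and `1/3`. -/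
theorem cHesA_int {E : Type*} [Field E] (B : Subring E) (J μ u i3 : E) (hJ : J ∈ B)
    (hi3 : i3 ∈ B) (h3 : 3 * i3 = 1)
    (hμ : 27 * μ ^ 3 * (μ ^ 3 + 8) ^ 3 = J * (μ ^ 3 - 1) ^ 3) (hu : (μ ^ 3 - 1) * u = 1) :
    IsIntegral ↥B μ ∧ IsIntegral ↥B u := by
  constructor
  · refine ⟨X ^ 3 * (X ^ 3 + C 8) ^ 3 -
      C (⟨J * i3 ^ 3, mul_mem hJ (pow_mem hi3 3)⟩ : ↥B) * (X ^ 3 - C 1) ^ 3, by monicity!, ?_⟩
    simp only [eval₂_sub, eval₂_mul, eval₂_pow, eval₂_add, eval₂_X, eval₂_C]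
    simp only [map_ofNat, map_one]
    change μ ^ 3 * (μ ^ 3 + 8) ^ 3 - J * i3 ^ 3 * (μ ^ 3 - 1) ^ 3 = 0
    linear_combination i3 ^ 3 * hμ - μ ^ 3 * (μ ^ 3 + 8) ^ 3 * (9 * i3 ^ 2 + 3 * i3 + 1) * h3
  · have hsu : μ ^ 3 * u = u + 1 := by linear_combination hu
    have h27 : 27 * (u + 1) * (9 * u + 1) ^ 3 = J * u := by
      calc 27 * (u + 1) * (9 * u + 1) ^ 3
          = 27 * (μ ^ 3 * u) * (μ ^ 3 * u + 8 * u) ^ 3 := by rw [hsu]; ring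
        _ = (27 * μ ^ 3 * (μ ^ 3 + 8) ^ 3) * u ^ 4 := by ring
        _ = J * (μ ^ 3 - 1) ^ 3 * u ^ 4 := by rw [hμ]
        _ = J * u * ((μ ^ 3 - 1) * u) ^ 3 := by ring
        _ = J * u := by rw [hu]; ring
    refine ⟨(X + C 1) * (X + C (⟨i3 ^ 2, pow_mem hi3 2⟩ : ↥B)) ^ 3 -
      C (⟨J * i3 ^ 9, mul_mem hJ (pow_mem hi3 9)⟩ : ↥B) * X, by monicity!, ?_⟩
    simp only [eval₂_sub, eval₂_mul, eval₂_pow, eval₂_add, eval₂_X, eval₂_C]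
    simp only [map_one]
    change (u + 1) * (u + i3 ^ 2) ^ 3 - J * i3 ^ 9 * u = 0
    have h9 : u + i3 ^ 2 = i3 ^ 2 * (9 * u + 1) := by
      linear_combination (-(3 * i3 + 1) * u) * h3
    rw [h9]
    linear_combination i3 ^ 9 * h27 -
      (u + 1) * (9 * u + 1) ^ 3 * i3 ^ 6 * (9 * i3 ^ 2 + 3 * i3 + 1) * h3

/-- The reductions of `q = (X³ - 1)³` and `p = 27 X³ (X³ + 8)³`: `q ≠ 0` and `p` is not a constant
multiple of `q`. -/
theorem cHesA_jrat_poly {W k : Type*} [CommRing W] [Field k] (res : W →+* k) (h3k : (3 : k) ≠ 0) :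
    ((X ^ 3 - C 1) ^ 3 : W[X]).map res ≠ 0 ∧
      ∀ c : k, (C 27 * X ^ 3 * (X ^ 3 + C 8) ^ 3 : W[X]).map res ≠
        C c * ((X ^ 3 - C 1) ^ 3 : W[X]).map res := by
  have hq : ((X ^ 3 - C 1) ^ 3 : W[X]).map res = (X ^ 3 - C 1) ^ 3 := by
    simp only [Polynomial.map_pow, Polynomial.map_sub, map_X, Polynomial.map_C]
    simp only [map_one]
  have hp : (C 27 * X ^ 3 * (X ^ 3 + C 8) ^ 3 : W[X]).map res =
      C 27 * X ^ 3 * (X ^ 3 + C 8) ^ 3 := by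
    simp only [Polynomial.map_mul, Polynomial.map_pow, Polynomial.map_add, map_X,
      Polynomial.map_C]
    simp only [map_ofNat]
  rw [hq, hp]
  refine ⟨pow_ne_zero 3 (X_pow_sub_C_ne_zero (by norm_num) 1), ?_⟩
  intro c h
  have h27 : (27 : k) ≠ 0 := by
    have : (27 : k) = 3 ^ 3 := by norm_num
    rw [this]; exact pow_ne_zero 3 h3k
  have h0 := congrArg (eval 0) h
  simp only [eval_mul, eval_pow, eval_add, eval_sub, eval_X, eval_C] at h0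
  have hc : c = 0 := by linear_combination h0
  rw [hc, map_zero, zero_mul] at h
  exact absurd h (mul_ne_zero (mul_ne_zero (C_ne_zero.mpr h27) (pow_ne_zero 3 X_ne_zero))
    (pow_ne_zero 3 (X_pow_add_C_ne_zero (by norm_num) _)))

/-- Values of `h`, `q`, `p` at `t`. -/
theorem cHesA_eval {W E : Type*} [CommRing W] [CommRing E] (c : W →+* E) (t : E) :
    eval₂ c t (X ^ 3 - 1) = t ^ 3 - 1 ∧
    eval₂ c t ((X ^ 3 - C 1) ^ 3) = (t ^ 3 - 1) ^ 3 ∧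
      eval₂ c t (C 27 * X ^ 3 * (X ^ 3 + C 8) ^ 3) = 27 * t ^ 3 * (t ^ 3 + 8) ^ 3 := by
  refine ⟨?_, ?_, ?_⟩
  · simp only [eval₂_sub, eval₂_pow, eval₂_X, eval₂_one]
  · simp only [eval₂_sub, eval₂_pow, eval₂_X, eval₂_C]
    simp only [map_one]
  · simp only [eval₂_mul, eval₂_add, eval₂_pow, eval₂_X, eval₂_C]
    simp only [map_ofNat]

/-- `h = X³ - 1` does not vanish modulo `ϖ`. -/
theorem cHesA_map_h {W k : Type*} [CommRing W] [Field k] (res : W →+* k) :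
    ((X ^ 3 - 1 : W[X])).map res ≠ 0 := by
  have : ((X : W[X]) ^ 3 - 1).map res = X ^ 3 - C 1 := by
    simp only [Polynomial.map_pow, Polynomial.map_sub, map_X, Polynomial.map_one, map_one]
  rw [this]
  exact X_pow_sub_C_ne_zero (by norm_num) 1

section Data

/-- `3 ≠ 0` in characteristic `ℓ ≠ 3`. -/
theorem cHesA_three_ne_zero {ℓ : ℕ} [Fact ℓ.Prime] (k : Type) [Field k] [CharP k ℓ]
    (hℓ : ℓ ≠ 3) : (3 : k) ≠ 0 := by
  intro h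
  have h' : ((3 : ℕ) : k) = 0 := by exact_mod_cast h
  rw [CharP.cast_eq_zero_iff k ℓ] at h'
  exact hℓ ((Nat.prime_dvd_prime_iff_eq Fact.out Nat.prime_three).mp h')

/-- `3` is a unit of `W` when `ℓ ≠ 3`. -/
theorem cHesA_three_unit {N : ℕ} {ℓ : ℕ} [Fact ℓ.Prime] {L : Type} [Field L]
    (W : ValuationSubring L) {k : Type} [Field k] [CharP k ℓ] (res : ↥W →+* k) (ϖ : ↥W)
    (hD : BaseData N ℓ W res ϖ) (hℓ : ℓ ≠ 3) : ∃ w3 : ↥W, 3 * w3 = 1 := by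
  have h3k : (3 : k) ≠ 0 := cHesA_three_ne_zero (ℓ := ℓ) k hℓ
  have hunit : IsUnit (3 : ↥W) := by
    by_contra hnu
    have hmem : (3 : ↥W) ∈ IsLocalRing.maximalIdeal ↥W := (IsLocalRing.mem_maximalIdeal _).mpr hnu
    have hker : RingHom.ker res = IsLocalRing.maximalIdeal ↥W :=
      IsLocalRing.eq_maximalIdeal (RingHom.ker_isMaximal_of_surjective res hD.res_surjective)
    rw [← hker, RingHom.mem_ker, map_ofNat] at hmem
    exact h3k hmem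
  obtain ⟨u, hu⟩ := hunit
  exact ⟨↑u⁻¹, by rw [← hu]; exact u.mul_inv⟩

/-- `W` contains a primitive cube root of unity when `ℓ ≠ 3`. -/
theorem cHesA_omega {N : ℕ} {ℓ : ℕ} [Fact ℓ.Prime] {L : Type} [Field L]
    (W : ValuationSubring L) {k : Type} [Field k] (res : ↥W →+* k) (ϖ : ↥W)
    (hD : BaseData N ℓ W res ϖ) (hℓ : ℓ ≠ 3) : ∃ ζ : ↥W, ζ ^ 2 + ζ + 1 = 0 := by
  obtain ⟨ζ, hζ⟩ := hD.roots 3
    (fun h => hℓ ((Nat.prime_dvd_prime_iff_eq Fact.out Nat.prime_three).mp h))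
  refine ⟨ζ, ?_⟩
  have h1 : (ζ : L) ^ 3 = 1 := hζ.pow_eq_one
  have h2 : (ζ : L) ≠ 1 := hζ.ne_one (by norm_num)
  have h3 : ((ζ : L) - 1) * ((ζ : L) ^ 2 + ζ + 1) = 0 := by linear_combination h1
  have h4 : (ζ : L) ^ 2 + ζ + 1 = 0 := (mul_eq_zero.mp h3).resolve_left (sub_ne_zero.mpr h2)
  apply Subtype.ext
  push_cast
  exact h4

/-- The Hesse cover data. -/
theorem cHesA_isCover1 {N : ℕ} [NeZero N] {ℓ : ℕ} [Fact ℓ.Prime] {L : Type} [Field L]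
    [Algebra ℚ L] (W : ValuationSubring L) {k : Type} [Field k] [CharP k ℓ] (res : ↥W →+* k)
    (hℓ : ℓ ≠ 3) (E : Type) [Field E] [Algebra ↥(FL L N) E] (t : E) (ζ w3 : ↥W)
    (hζ : ζ ^ 2 + ζ + 1 = 0) (hw3 : 3 * w3 = 1)
    (hgen : IntermediateField.adjoin ↥(FL L N) {t} = ⊤) (hgal : IsGalois ↥(FL L N) E)
    (ht : 27 * t ^ 3 * (t ^ 3 + 8) ^ 3 = jE L N E * (t ^ 3 - 1) ^ 3) :
    IsCover1 W res N E t (X ^ 3 - 1) := by
  have hev : evWE W N E t (X ^ 3 - 1) = t ^ 3 - 1 := (cHesA_eval (cWE W N E) t).1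
  have h3E : (3 : E) * cWE W N E w3 = 1 := by
    rw [← map_ofNat (cWE W N E) 3, ← map_mul, hw3, map_one]
  have h3 : (3 : E) ≠ 0 := left_ne_zero_of_mul_eq_one h3E
  have hne : t ^ 3 - 1 ≠ 0 := cHesA_ne_one h3 (jE L N E) t ht
  have hu : (t ^ 3 - 1) * (t ^ 3 - 1)⁻¹ = 1 := mul_inv_cancel₀ hne
  have hωE : (cWE W N E ζ) ^ 2 + cWE W N E ζ + 1 = 0 := by
    rw [← map_pow, ← map_add, ← map_one (cWE W N E), ← map_add, hζ, map_zero]
  -- memberships in `Λ`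
  have hcΛ : ∀ w, cWE W N E w ∈ coverRing W N E t (X ^ 3 - 1) := fun w =>
    Subring.subset_closure (Or.inl ⟨w, rfl⟩)
  have htΛ : t ∈ coverRing W N E t (X ^ 3 - 1) := Subring.subset_closure (Or.inr (Or.inl rfl))
  have huΛ : (t ^ 3 - 1)⁻¹ ∈ coverRing W N E t (X ^ 3 - 1) := by
    have : (evWE W N E t (X ^ 3 - 1))⁻¹ ∈ coverRing W N E t (X ^ 3 - 1) :=
      Subring.subset_closure (Or.inr (Or.inr rfl))
    rwa [hev] at this
  obtain ⟨hJΛ, hram0, hram1728⟩ := cHesA_ram (coverRing W N E t (X ^ 3 - 1)) (jE L N E) t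
    (t ^ 3 - 1)⁻¹ (cWE W N E w3) ht hu h3E htΛ huΛ (hcΛ w3)
  -- memberships in `W[j]`
  have hcB : ∀ w, cWE W N E w ∈ baseRingE W N E {jE L N E} := fun w =>
    Subring.subset_closure (Or.inl ⟨w, rfl⟩)
  have hJB : jE L N E ∈ baseRingE W N E {jE L N E} := Subring.subset_closure (Or.inr rfl)
  obtain ⟨hint_t, hint_u⟩ := cHesA_int (baseRingE W N E {jE L N E}) (jE L N E) t (t ^ 3 - 1)⁻¹
    (cWE W N E w3) hJB (hcB w3) h3E ht hu
  have h3k : (3 : k) ≠ 0 := cHesA_three_ne_zero (ℓ := ℓ) k hℓ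
  refine { gen := hgen, h_res := ?_, galois := hgal, stab := ?_, jrat := ?_, j_mem := hJΛ,
           int_t := hint_t, int_h := by rw [hev]; exact hint_u, ram0 := hram0,
           ram1728 := hram1728 }
  · -- `h_res`
    exact cHesA_map_h res
  · -- `stab`
    intro σ
    have hσJ : σ (jE L N E) = jE L N E := σ.commutes _
    have hσt : 27 * (σ t) ^ 3 * ((σ t) ^ 3 + 8) ^ 3 = jE L N E * ((σ t) ^ 3 - 1) ^ 3 := by
      have := congrArg σ ht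
      simpa only [map_mul, map_pow, map_add, map_sub, map_ofNat, map_one, hσJ] using this
    have hmem := cHesA_root_mem (coverRing W N E t (X ^ 3 - 1)) (jE L N E) t (cWE W N E ζ)
      (t ^ 3 - 1)⁻¹ (cWE W N E w3) (σ t) hωE ht hσt hu h3E htΛ (hcΛ ζ) huΛ (hcΛ w3)
    have hle : coverRing W N E t (X ^ 3 - 1) ≤
        (coverRing W N E t (X ^ 3 - 1)).comap (σ : E →+* E) := by
      refine Subring.closure_le.mpr ?_
      rintro y (⟨w, rfl⟩ | hy)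
      · show σ (cWE W N E w) ∈ coverRing W N E t (X ^ 3 - 1)
        rw [show cWE W N E w = algebraMap ↥(FL L N) E (cW W N w) from rfl, σ.commutes]
        exact hcΛ w
      · rcases hy with rfl | rfl
        · exact hmem.1
        · show σ ((evWE W N E t (X ^ 3 - 1))⁻¹) ∈ coverRing W N E t (X ^ 3 - 1)
          rw [hev, map_inv₀, map_sub, map_pow, map_one]
          exact hmem.2
    exact fun x hx => hle hx
  · -- `jrat`
    refine ⟨C 27 * X ^ 3 * (X ^ 3 + C 8) ^ 3, (X ^ 3 - C 1) ^ 3, (cHesA_jrat_poly res h3k).1,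
      (cHesA_jrat_poly res h3k).2, ?_⟩
    have h1 : evWE W N E t ((X ^ 3 - C 1) ^ 3) = (t ^ 3 - 1) ^ 3 :=
      (cHesA_eval (cWE W N E) t).2.1
    have h2 : evWE W N E t (C 27 * X ^ 3 * (X ^ 3 + C 8) ^ 3) = 27 * t ^ 3 * (t ^ 3 + 8) ^ 3 :=
      (cHesA_eval (cWE W N E) t).2.2
    rw [h1, h2]
    linear_combination -ht

end Data

/-- **C3** (Hesse cover): existence of a cover of the chart `A₁` for `ℓ ≠ 3`. -/
theorem cHesA_main : FinLStatement → ExistsCoverHesseStatement := by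
  intro _ N _ ℓ _ L _ _ W _ k _ _ _ res ϖ hD hℓ
  have : CharZero L := algebraRat.charZero L
  have : CharZero ↥(FL L N) :=
    charZero_of_injective_algebraMap (algebraMap L ↥(FL L N)).injective
  obtain ⟨ζ, hζ⟩ := cHesA_omega W res ϖ hD hℓ
  obtain ⟨w3, hw3⟩ := cHesA_three_unit W res ϖ hD hℓ
  have hζ' : (cW W N ζ) ^ 2 + cW W N ζ + 1 = 0 := by
    rw [← map_pow, ← map_add, ← map_one (cW W N), ← map_add, hζ, map_zero]
  obtain ⟨E, iF, iA, t, hgen, hgal, ht⟩ := cHesA_exists ↥(FL L N) (jF L N) (cW W N ζ) hζ'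
  exact ⟨E, iF, iA, t, X ^ 3 - 1, cHesA_isCover1 W res hℓ E t ζ w3 hζ hw3 hgen hgal ht⟩

end Fermat.Agent.S18
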