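/-
S18 — package C2 (Legendre cover), twin B: generic algebra behind the Legendre cover.

`p = 256 (X² - X + 1)³`, `q = X² (X - 1)²`; a "Legendre parameter" of `j` is a `t` with
`q(t) j = p(t)`.  This file contains the field-level facts: the two-variable identity, the six
conjugates of `t`, their membership in `ℤ[t, 1/(t(t-1))]`, the Galois property of `F(t)/F`, and the
integrality statements.
-/
import Fermat.Agent.S18.SInterfaces

set_option autoImplicit false

open Polynomial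

namespace Fermat.Agent.S18

/-- The two-variable identity behind the `S₃`-action on the Legendre parameter. -/
theorem cLegB_two_var {R : Type*} [CommRing R] (x y : R) :
    256 * (x ^ 2 - x + 1) ^ 3 * (y ^ 2 * (y - 1) ^ 2) -
        256 * (y ^ 2 - y + 1) ^ 3 * (x ^ 2 * (x - 1) ^ 2) =
      -256 * (x - y) * (x - (1 - y)) * (y * x - 1) * ((1 - y) * x - 1) * (y * x - (y - 1)) *
        ((y - 1) * x - y) := by
  ring

/-- The identity for `j - 1728`. -/
theorem cLegB_1728 {R : Type*} [CommRing R] (x : R) :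
    256 * (x ^ 2 - x + 1) ^ 3 - 1728 * (x ^ 2 * (x - 1) ^ 2) =
      64 * ((x + 1) * (x - 2) * (2 * x - 1)) ^ 2 := by
  ring

/-- A Legendre parameter is different from `0` and `1`. -/
theorem cLegB_ne {E : Type*} [Field E] [CharZero E] {t j : E}
    (ht : t ^ 2 * (t - 1) ^ 2 * j = 256 * (t ^ 2 - t + 1) ^ 3) : t ≠ 0 ∧ t - 1 ≠ 0 := by
  constructor
  · rintro rfl
    norm_num at ht
  · intro h
    have h1 : t = 1 := by linear_combination h
    subst h1
    norm_num at ht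

/-- Two Legendre parameters of the same `j` differ by one of the six Möbius transformations. -/
theorem cLegB_root_cases {E : Type*} [Field E] [CharZero E] {t s j : E}
    (ht : t ^ 2 * (t - 1) ^ 2 * j = 256 * (t ^ 2 - t + 1) ^ 3)
    (hs : s ^ 2 * (s - 1) ^ 2 * j = 256 * (s ^ 2 - s + 1) ^ 3) :
    s = t ∨ s = 1 - t ∨ t * s = 1 ∨ (1 - t) * s = 1 ∨ t * s = t - 1 ∨ (t - 1) * s = t := by
  have h := cLegB_two_var s t
  have h0 : -256 * (s - t) * (s - (1 - t)) * (t * s - 1) * ((1 - t) * s - 1) *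
      (t * s - (t - 1)) * ((t - 1) * s - t) = 0 := by
    rw [← h]
    linear_combination (-(t ^ 2 * (t - 1) ^ 2)) * hs + (s ^ 2 * (s - 1) ^ 2) * ht
  simp only [mul_eq_zero, neg_eq_zero, OfNat.ofNat_ne_zero, false_or, sub_eq_zero] at h0
  tauto

/-- The six conjugates `s` of `t` and the elements `1/(s(s-1))` lie in every subring containing
`t` and `1/(t(t-1))`. -/
theorem cLegB_mem_cases {E : Type*} [Field E] (Λ : Subring E) {t s : E} (ht0 : t ≠ 0)
    (ht1 : t - 1 ≠ 0) (htΛ : t ∈ Λ) (huΛ : (t * (t - 1))⁻¹ ∈ Λ)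
    (hs : s = t ∨ s = 1 - t ∨ t * s = 1 ∨ (1 - t) * s = 1 ∨ t * s = t - 1 ∨ (t - 1) * s = t) :
    s ∈ Λ ∧ (s * (s - 1))⁻¹ ∈ Λ := by
  have hu1 : t * (t - 1) * (t * (t - 1))⁻¹ = 1 := mul_inv_cancel₀ (mul_ne_zero ht0 ht1)
  generalize (t * (t - 1))⁻¹ = u at huΛ hu1
  have h1 : (1 : E) ∈ Λ := Λ.one_mem
  have ht1Λ : t - 1 ∈ Λ := Λ.sub_mem htΛ h1
  rcases hs with rfl | rfl | h | h | h | h
  · exact ⟨htΛ, by rw [inv_eq_of_mul_eq_one_right hu1]; exact huΛ⟩
  · refine ⟨Λ.sub_mem h1 htΛ, ?_⟩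
    have h2 : (1 - t) * (1 - t - 1) * u = 1 := by linear_combination hu1
    rw [inv_eq_of_mul_eq_one_right h2]; exact huΛ
  · have hs : s = (t - 1) * u := by linear_combination ((t - 1) * u) * h - s * hu1
    have h2 : s * (s - 1) * (-t ^ 3 * u) = 1 := by
      linear_combination (-t * u * (t * s + 1 - t)) * h + hu1
    rw [inv_eq_of_mul_eq_one_right h2]
    exact ⟨hs ▸ Λ.mul_mem ht1Λ huΛ, Λ.mul_mem (Λ.neg_mem (Λ.pow_mem htΛ 3)) huΛ⟩
  · have hs : s = -t * u := by linear_combination (-t * u) * h - s * hu1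
    have h2 : s * (s - 1) * ((t - 1) ^ 3 * u) = 1 := by
      linear_combination (u * (t - 1) * ((1 - t) * s + t)) * h + hu1
    rw [inv_eq_of_mul_eq_one_right h2]
    exact ⟨hs ▸ Λ.mul_mem (Λ.neg_mem htΛ) huΛ, Λ.mul_mem (Λ.pow_mem ht1Λ 3) huΛ⟩
  · have hs : s = (t - 1) ^ 2 * u := by linear_combination ((t - 1) * u) * h - s * hu1
    have h2 : s * (s - 1) * (-t ^ 3 * u) = 1 := by
      linear_combination (-u * t * (t * s - 1)) * h + hu1
    rw [inv_eq_of_mul_eq_one_right h2]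
    exact ⟨hs ▸ Λ.mul_mem (Λ.pow_mem ht1Λ 2) huΛ, Λ.mul_mem (Λ.neg_mem (Λ.pow_mem htΛ 3)) huΛ⟩
  · have hs : s = t ^ 2 * u := by linear_combination (t * u) * h - s * hu1
    have h2 : s * (s - 1) * ((t - 1) ^ 3 * u) = 1 := by
      linear_combination (u * (t - 1) * ((t - 1) * s + 1)) * h + hu1
    rw [inv_eq_of_mul_eq_one_right h2]
    exact ⟨hs ▸ Λ.mul_mem (Λ.pow_mem htΛ 2) huΛ, Λ.mul_mem (Λ.pow_mem ht1Λ 3) huΛ⟩

/-- A root of `256 (X² - X + 1)³ - j X² (X - 1)²` is a Legendre parameter of `j`. -/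
theorem cLegB_of_aeval {F E : Type*} [Field F] [Field E] [Algebra F E] (j : F) (t : E)
    (h0 : aeval t (256 * (X ^ 2 - X + 1) ^ 3 - C j * (X ^ 2 * (X - 1) ^ 2) : F[X]) = 0) :
    t ^ 2 * (t - 1) ^ 2 * algebraMap F E j = 256 * (t ^ 2 - t + 1) ^ 3 := by
  simp only [map_sub, map_mul, map_pow, map_add, aeval_X, map_one, aeval_C, map_ofNat] at h0
  linear_combination -h0

/-- `F(t)/F` is Galois when `t` is a Legendre parameter of `j ∈ F` (characteristic `0`): the six
conjugates of `t` are Möbius transforms of `t`. -/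
theorem cLegB_galois {F E : Type*} [Field F] [Field E] [CharZero F] [Algebra F E] (j : F) (t : E)
    (hgen : Algebra.adjoin F {t} = ⊤)
    (ht : t ^ 2 * (t - 1) ^ 2 * algebraMap F E j = 256 * (t ^ 2 - t + 1) ^ 3) : IsGalois F E := by
  have : CharZero E := charZero_of_injective_algebraMap (algebraMap F E).injective
  obtain ⟨ht0, ht1⟩ := cLegB_ne ht
  set P : F[X] := 256 * (X ^ 2 - X + 1) ^ 3 - C j * (X ^ 2 * (X - 1) ^ 2) with hP
  have hmap : P.map (algebraMap F E) =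
      256 * (X ^ 2 - X + 1) ^ 3 - C (algebraMap F E j) * (X ^ 2 * (X - 1) ^ 2) := by
    simp [hP, Polynomial.map_sub, Polynomial.map_mul, Polynomial.map_pow, Polynomial.map_add]
  have hroot : aeval t P = 0 := by
    simp only [hP, map_sub, map_mul, map_pow, map_add, aeval_X, map_one, aeval_C, map_ofNat]
    linear_combination -ht
  have hPne : P ≠ 0 := by
    intro h0
    have h1 : P.eval 0 = 0 := by rw [h0, eval_zero]
    simp [hP] at h1
  have hsplit : (P.map (algebraMap F E)).Splits := by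
    have hJ : C t ^ 2 * (C t - 1) ^ 2 * C (algebraMap F E j) = 256 * (C t ^ 2 - C t + 1) ^ 3 := by
      have := congrArg (C : E → E[X]) ht
      simpa only [map_mul, map_pow, map_sub, map_add, map_one, map_ofNat] using this
    have key : C (t ^ 2 * (t - 1) ^ 2) * P.map (algebraMap F E) =
        C (-256) * (X - C t) * (X - C (1 - t)) * (C t * X - 1) * (C (1 - t) * X - 1) *
          (C t * X - C (t - 1)) * (C (t - 1) * X - C t) := by
      rw [hmap]
      simp only [map_mul, map_pow, map_sub, map_neg, map_one, map_ofNat]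
      linear_combination (-(X ^ 2 * (X - 1) ^ 2)) * hJ + cLegB_two_var X (C t)
    have hspl : (C (t ^ 2 * (t - 1) ^ 2) * P.map (algebraMap F E)).Splits := by
      rw [key]
      refine Splits.mul (Splits.mul (Splits.mul (Splits.mul (Splits.mul (Splits.mul
        (Splits.C _) ?_) ?_) ?_) ?_) ?_) ?_
      all_goals
        apply Splits.of_degree_le_one
        compute_degree
    have hne : C (t ^ 2 * (t - 1) ^ 2) * P.map (algebraMap F E) ≠ 0 :=
      mul_ne_zero (C_ne_zero.2 (mul_ne_zero (pow_ne_zero _ ht0) (pow_ne_zero _ ht1)))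
        ((Polynomial.map_ne_zero_iff (algebraMap F E).injective).2 hPne)
    exact hspl.of_dvd hne (Dvd.intro_left _ rfl)
  have : IsSplittingField F E P :=
    ⟨hsplit, top_le_iff.1 (hgen ▸ Algebra.adjoin_mono
      (Set.singleton_subset_iff.2 ((mem_rootSet_of_ne hPne).2 hroot)))⟩
  have : Normal F E := Normal.of_isSplittingField P
  have : Algebra.IsSeparable F E := Algebra.IsAlgebraic.isSeparable_of_perfectField
  exact isGalois_iff.2 ⟨inferInstance, inferInstance⟩

/-- Existence of a field `E = F[t]` generated by a Legendre parameter `t` of `j` (the quotient of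
`F[X]` by an irreducible factor of `256 (X² - X + 1)³ - j X² (X - 1)²`). -/
theorem cLegB_exists_root {F : Type} [Field F] [CharZero F] (j : F) :
    ∃ (E : Type) (_ : Field E) (_ : Algebra F E) (t : E), Algebra.adjoin F {t} = ⊤ ∧
      t ^ 2 * (t - 1) ^ 2 * algebraMap F E j = 256 * (t ^ 2 - t + 1) ^ 3 := by
  have hdeg : (256 * (X ^ 2 - X + 1) ^ 3 - C j * (X ^ 2 * (X - 1) ^ 2) : F[X]).natDegree = 6 := by
    compute_degree!
  obtain ⟨g, hg, hdvd⟩ := exists_irreducible_of_natDegree_pos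
    (f := (256 * (X ^ 2 - X + 1) ^ 3 - C j * (X ^ 2 * (X - 1) ^ 2) : F[X])) (by omega)
  have hgF : Fact (Irreducible g) := ⟨hg⟩
  refine ⟨AdjoinRoot g, inferInstance, inferInstance, AdjoinRoot.root g,
    AdjoinRoot.adjoinRoot_eq_top, ?_⟩
  have h0 : aeval (AdjoinRoot.root g)
      (256 * (X ^ 2 - X + 1) ^ 3 - C j * (X ^ 2 * (X - 1) ^ 2) : F[X]) = 0 := by
    obtain ⟨r, hr⟩ := hdvd
    rw [hr, map_mul, AdjoinRoot.aeval_eq, AdjoinRoot.mk_self, zero_mul]
  exact cLegB_of_aeval j _ h0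

/-- `t` is integral over any subring containing `j` and `1/256`. -/
theorem cLegB_int_t {E : Type*} [Field E] (B : Subring E) {t j c : E} (hj : j ∈ B) (hc : c ∈ B)
    (hc256 : c * 256 = 1) (ht : t ^ 2 * (t - 1) ^ 2 * j = 256 * (t ^ 2 - t + 1) ^ 3) :
    IsIntegral ↥B t := by
  refine ⟨(X ^ 2 - X + 1) ^ 3 - C ((⟨c, hc⟩ : ↥B) * ⟨j, hj⟩) * (X ^ 2 * (X - 1) ^ 2), ?_, ?_⟩
  · monicity!
  · simp only [eval₂_sub, eval₂_mul, eval₂_pow, eval₂_add, eval₂_X, eval₂_one, eval₂_C, map_mul]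
    show (t ^ 2 - t + 1) ^ 3 - c * j * (t ^ 2 * (t - 1) ^ 2) = 0
    linear_combination (-c) * ht - (t ^ 2 - t + 1) ^ 3 * hc256

/-- `1/(t(t-1))` is integral over any subring containing `j` and `1/256`. -/
theorem cLegB_int_u {E : Type*} [Field E] [CharZero E] (B : Subring E) {t j c : E} (hj : j ∈ B)
    (hc : c ∈ B) (hc256 : c * 256 = 1)
    (ht : t ^ 2 * (t - 1) ^ 2 * j = 256 * (t ^ 2 - t + 1) ^ 3) :
    IsIntegral ↥B (t * (t - 1))⁻¹ := by
  obtain ⟨ht0, ht1⟩ := cLegB_ne ht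
  have hu1 : t * (t - 1) * (t * (t - 1))⁻¹ = 1 := mul_inv_cancel₀ (mul_ne_zero ht0 ht1)
  generalize (t * (t - 1))⁻¹ = u at hu1
  refine ⟨(1 + X) ^ 3 - C ((⟨c, hc⟩ : ↥B) * ⟨j, hj⟩) * X, ?_, ?_⟩
  · monicity!
  · simp only [eval₂_sub, eval₂_mul, eval₂_pow, eval₂_add, eval₂_X, eval₂_one, eval₂_C, map_mul]
    show (1 + u) ^ 3 - c * j * u = 0
    linear_combination (-c * u ^ 3) * ht +
      (c * j * u * (t * (t - 1) * u + 1) - 256 * c * (3 * (1 + u) ^ 2 +
        3 * (1 + u) * (t * (t - 1) * u - 1) + (t * (t - 1) * u - 1) ^ 2)) * hu1 -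
      (1 + u) ^ 3 * hc256

end Fermat.Agent.S18
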