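/-
S18 — package C2 (Legendre cover), twin B: the Legendre cover of the chart `A₁` for `ℓ ≠ 2`.

`E = F[X]/(g)` for an irreducible factor `g` of `256 (X² - X + 1)³ - j X² (X - 1)²`, `t = λ` the class
of `X`, `h = T (T - 1)`, `Λ = W[λ, 1/(λ(λ-1))]`.  Main theorem: `cLegB_main`.
-/
import Fermat.Agent.S18.CLegBAlg

set_option autoImplicit false

open Polynomial

namespace Fermat.Agent.S18

noncomputable section

/-- `256 ≠ 0` in characteristic `ℓ ≠ 2`. -/
theorem cLegB_256_ne {ℓ : ℕ} [Fact ℓ.Prime] (k : Type) [Field k] [CharP k ℓ] (hℓ : ℓ ≠ 2) :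
    (256 : k) ≠ 0 := by
  have h2 : (2 : k) ≠ 0 := by
    intro h
    have h' : ((2 : ℕ) : k) = 0 := by exact_mod_cast h
    rw [CharP.cast_eq_zero_iff k ℓ] at h'
    exact hℓ ((Nat.prime_dvd_prime_iff_eq Fact.out Nat.prime_two).1 h')
  have h256 : (256 : k) = 2 ^ 8 := by norm_num
  rw [h256]
  exact pow_ne_zero _ h2

/-- `256` is a unit of `W` when `ℓ ≠ 2`. -/
theorem cLegB_unit {N ℓ : ℕ} [Fact ℓ.Prime] {L : Type} [Field L] (W : ValuationSubring L)
    {k : Type} [Field k] [CharP k ℓ] (res : ↥W →+* k) (ϖ : ↥W) (hD : BaseData N ℓ W res ϖ)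
    (hℓ : ℓ ≠ 2) : ∃ c : ↥W, c * 256 = 1 := by
  have h256 : res 256 ≠ 0 := by
    rw [map_ofNat]
    exact cLegB_256_ne k hℓ
  have hunit : IsUnit (256 : ↥W) := by
    by_contra hnu
    have hmem : (256 : ↥W) ∈ IsLocalRing.maximalIdeal ↥W := hnu
    have hker : RingHom.ker res = IsLocalRing.maximalIdeal ↥W := by
      have hmax := RingHom.ker_isMaximal_of_surjective res hD.res_surjective
      exact IsLocalRing.eq_maximalIdeal hmax
    rw [← hker, RingHom.mem_ker] at hmem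
    exact h256 hmem
  obtain ⟨c, hc⟩ := hunit.exists_left_inv
  exact ⟨c, hc⟩

section Cover

variable {L : Type} [Field L] [Algebra ℚ L] (W : ValuationSubring L) {k : Type} [Field k]
  (res : ↥W →+* k) (N : ℕ) [NeZero N] (E : Type) [Field E] [Algebra ↥(FL L N) E]

/-- `h = T (T - 1)`. -/
def cLegB_h : (↥W)[X] := X * (X - 1)

/-- `p = 256 (T² - T + 1)³`. -/
def cLegB_p : (↥W)[X] := 256 * (X ^ 2 - X + 1) ^ 3

/-- `q = T² (T - 1)²`. -/
def cLegB_q : (↥W)[X] := X ^ 2 * (X - 1) ^ 2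

omit [NeZero N] in
theorem cLegB_evWE_X (t : E) : evWE W N E t X = t := eval₂_X _ _

omit [NeZero N] in
theorem cLegB_evWE_h (t : E) : evWE W N E t (cLegB_h W) = t * (t - 1) := by
  simp only [cLegB_h, map_mul, map_sub, map_one, cLegB_evWE_X]

omit [NeZero N] in
theorem cLegB_evWE_p (t : E) : evWE W N E t (cLegB_p W) = 256 * (t ^ 2 - t + 1) ^ 3 := by
  simp only [cLegB_p, map_mul, map_pow, map_sub, map_add, map_one, map_ofNat, cLegB_evWE_X]

omit [NeZero N] in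
theorem cLegB_evWE_q (t : E) : evWE W N E t (cLegB_q W) = t ^ 2 * (t - 1) ^ 2 := by
  simp only [cLegB_q, map_mul, map_pow, map_sub, map_one, cLegB_evWE_X]

/-- `Λ = W[t, 1/(t(t-1))]` is stable under `Gal(E/F)`. -/
theorem cLegB_stab [CharZero E] (t : E)
    (ht : t ^ 2 * (t - 1) ^ 2 * jE L N E = 256 * (t ^ 2 - t + 1) ^ 3)
    (σ : E ≃ₐ[↥(FL L N)] E) :
    ∀ x ∈ coverRing W N E t (cLegB_h W), σ x ∈ coverRing W N E t (cLegB_h W) := by
  obtain ⟨ht0, ht1⟩ := cLegB_ne ht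
  have htΛ : t ∈ coverRing W N E t (cLegB_h W) := Subring.subset_closure (Or.inr (Or.inl rfl))
  have huΛ : (t * (t - 1))⁻¹ ∈ coverRing W N E t (cLegB_h W) := by
    have h : (evWE W N E t (cLegB_h W))⁻¹ ∈ coverRing W N E t (cLegB_h W) :=
      Subring.subset_closure (Or.inr (Or.inr rfl))
    rwa [cLegB_evWE_h] at h
  have hσj : σ (jE L N E) = jE L N E := σ.commutes _
  have hs : σ t ^ 2 * (σ t - 1) ^ 2 * jE L N E = 256 * (σ t ^ 2 - σ t + 1) ^ 3 := by
    have h := congrArg σ ht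
    simpa only [map_mul, map_pow, map_sub, map_add, map_one, map_ofNat, hσj] using h
  have hmem := cLegB_mem_cases (coverRing W N E t (cLegB_h W)) ht0 ht1 htΛ huΛ
    (cLegB_root_cases ht hs)
  intro x hx
  induction hx using Subring.closure_induction with
  | mem x hx =>
    rcases hx with ⟨w, rfl⟩ | rfl | rfl
    · have h : σ (cWE W N E w) = cWE W N E w := σ.commutes _
      rw [h]
      exact Subring.subset_closure (Or.inl ⟨w, rfl⟩)
    · exact hmem.1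
    · rw [cLegB_evWE_h, map_inv₀, map_mul, map_sub, map_one]
      exact hmem.2
  | zero => rw [map_zero]; exact Subring.zero_mem _
  | one => rw [map_one]; exact Subring.one_mem _
  | add x y _ _ ihx ihy => rw [map_add]; exact Subring.add_mem _ ihx ihy
  | neg x _ ih => rw [map_neg]; exact Subring.neg_mem _ ih
  | mul x y _ _ ihx ihy => rw [map_mul]; exact Subring.mul_mem _ ihx ihy

/-- The Legendre cover: if `E = F[t]` and `t²(t-1)² j = 256 (t²-t+1)³`, then `(E, t, T(T-1))` is a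
cover of the chart `A₁` (for `ℓ ≠ 2`). -/
theorem cLegB_isCover1 {ℓ : ℕ} [Fact ℓ.Prime] [CharP k ℓ] (ϖ : ↥W)
    (hD : BaseData N ℓ W res ϖ) (hℓ : ℓ ≠ 2) (t : E)
    (hgen : Algebra.adjoin ↥(FL L N) {t} = ⊤)
    (ht : t ^ 2 * (t - 1) ^ 2 * jE L N E = 256 * (t ^ 2 - t + 1) ^ 3) :
    IsCover1 W res N E t (cLegB_h W) := by
  have hL0 : CharZero L := algebraRat.charZero L
  have hF0 : CharZero ↥(FL L N) :=
    charZero_of_injective_algebraMap (algebraMap L ↥(FL L N)).injective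
  have hE0 : CharZero E := charZero_of_injective_algebraMap (algebraMap ↥(FL L N) E).injective
  obtain ⟨ht0, ht1⟩ := cLegB_ne ht
  obtain ⟨c, hc⟩ := cLegB_unit W res ϖ hD hℓ
  have hcE : cWE W N E c * 256 = 1 := by
    have h := congrArg (cWE W N E) hc
    simpa only [map_mul, map_ofNat, map_one] using h
  have htΛ : t ∈ coverRing W N E t (cLegB_h W) := Subring.subset_closure (Or.inr (Or.inl rfl))
  have huΛ : (t * (t - 1))⁻¹ ∈ coverRing W N E t (cLegB_h W) := by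
    have h : (evWE W N E t (cLegB_h W))⁻¹ ∈ coverRing W N E t (cLegB_h W) :=
      Subring.subset_closure (Or.inr (Or.inr rfl))
    rwa [cLegB_evWE_h] at h
  have hcΛ : cWE W N E c ∈ coverRing W N E t (cLegB_h W) :=
    Subring.subset_closure (Or.inl ⟨c, rfl⟩)
  have h1Λ : (1 : E) ∈ coverRing W N E t (cLegB_h W) := Subring.one_mem _
  have hu1 : t * (t - 1) * (t * (t - 1))⁻¹ = 1 := mul_inv_cancel₀ (mul_ne_zero ht0 ht1)
  have hint_h : IsIntegral ↥(baseRingE W N E {jE L N E}) (evWE W N E t (cLegB_h W))⁻¹ := by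
    rw [cLegB_evWE_h]
    exact cLegB_int_u (baseRingE W N E {jE L N E}) (Subring.subset_closure (Or.inr rfl))
      (Subring.subset_closure (Or.inl ⟨c, rfl⟩)) hcE ht
  generalize (t * (t - 1))⁻¹ = u at huΛ hu1
  generalize hΛ : coverRing W N E t (cLegB_h W) = Λ at htΛ huΛ hcΛ h1Λ
  have hj : jE L N E = 256 * (t ^ 2 - t + 1) ^ 3 * u ^ 2 := by
    linear_combination (u ^ 2) * ht - (jE L N E * (t * (t - 1) * u + 1)) * hu1
  have h256Λ : (256 : E) ∈ Λ := ofNat_mem Λ 256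
  have h64Λ : (64 : E) ∈ Λ := ofNat_mem Λ 64
  have h4Λ : (4 : E) ∈ Λ := ofNat_mem Λ 4
  have h2Λ : (2 : E) ∈ Λ := ofNat_mem Λ 2
  have haΛ : t ^ 2 - t + 1 ∈ Λ := Λ.add_mem (Λ.sub_mem (Λ.pow_mem htΛ 2) htΛ) h1Λ
  refine ⟨⟨?_, ?_, ?_, ?_, ?_⟩, ?_, ?_, ?_, ?_, ?_⟩
  · -- gen
    exact IntermediateField.adjoin_eq_top_of_algebra _ _ hgen
  · -- h_res
    have h : (cLegB_h W).map res = X * (X - C 1) := by simp [cLegB_h]
    rw [h]
    exact mul_ne_zero X_ne_zero (X_sub_C_ne_zero 1)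
  · -- galois
    exact cLegB_galois (jF L N) t hgen ht
  · -- stab
    intro σ
    rw [hΛ]
    exact hΛ ▸ cLegB_stab W N E t ht σ
  · -- jrat
    refine ⟨cLegB_p W, cLegB_q W, ?_, ?_, ?_⟩
    · have h : (cLegB_q W).map res = X ^ 2 * (X - C 1) ^ 2 := by simp [cLegB_q]
      rw [h]
      exact mul_ne_zero (pow_ne_zero _ X_ne_zero) (pow_ne_zero _ (X_sub_C_ne_zero 1))
    · intro a h
      have h' := congrArg (eval 0) h
      simp [cLegB_p, cLegB_q] at h'
      exact cLegB_256_ne k hℓ h'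
    · rw [cLegB_evWE_p, cLegB_evWE_q]
      exact ht
  · -- j_mem
    rw [hΛ, hj]
    exact Λ.mul_mem (Λ.mul_mem h256Λ (Λ.pow_mem haΛ 3)) (Λ.pow_mem huΛ 2)
  · -- int_t
    exact cLegB_int_t (baseRingE W N E {jE L N E}) (Subring.subset_closure (Or.inr rfl))
      (Subring.subset_closure (Or.inl ⟨c, rfl⟩)) hcE ht
  · -- int_h
    exact hint_h
  · -- ram0
    rw [hΛ]
    refine ⟨t ^ 2 - t + 1, haΛ, 256 * u ^ 2, Λ.mul_mem h256Λ (Λ.pow_mem huΛ 2),
      cWE W N E c * (t * (t - 1)) ^ 2,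
      Λ.mul_mem hcΛ (Λ.pow_mem (Λ.mul_mem htΛ (Λ.sub_mem htΛ h1Λ)) 2), ?_, ?_⟩
    · linear_combination ((t * (t - 1) * u) ^ 2) * hcE + (t * (t - 1) * u + 1) * hu1
    · rw [hj]; ring
  · -- ram1728
    rw [hΛ]
    refine ⟨(t + 1) * (t - 2) * (2 * t - 1) * u,
      Λ.mul_mem (Λ.mul_mem (Λ.mul_mem (Λ.add_mem htΛ h1Λ) (Λ.sub_mem htΛ h2Λ))
        (Λ.sub_mem (Λ.mul_mem h2Λ htΛ) h1Λ)) huΛ,
      64, h64Λ, 4 * cWE W N E c, Λ.mul_mem h4Λ hcΛ, ?_, ?_⟩
    · linear_combination hcE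
    · linear_combination hj + u ^ 2 * cLegB_1728 t + 1728 * (t * (t - 1) * u + 1) * hu1

end Cover

/-- (C2) The Legendre cover exists for `ℓ ≠ 2`. -/
theorem cLegB_main : FinLStatement → ExistsCoverLegendreStatement := by
  intro _ N _ ℓ _ L _ _ W _ k _ _ _ res ϖ hD hℓ
  have hL0 : CharZero L := algebraRat.charZero L
  have hF0 : CharZero ↥(FL L N) :=
    charZero_of_injective_algebraMap (algebraMap L ↥(FL L N)).injective
  obtain ⟨E, hE, hA, t, hgen, ht⟩ := cLegB_exists_root (jF L N)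
  exact ⟨E, hE, hA, t, cLegB_h W, cLegB_isCover1 W res N E ϖ hD hℓ t hgen ht⟩

end

end Fermat.Agent.S18
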