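/-
S18 / block G (twin A) — package GA/Mono: (G4b) `MonogenicStatement`.

`V = O₀[θ]` with a Bézout certificate of separability mod `ϖ`: there are `θ ∈ F` with
`F = L(j)(θ)`, a monic `f ∈ O₀[X]` with `f(θ) = 0`, and `A, B, C ∈ O₀[X]` with
`A f + B f' = 1 + ϖ C`.

The proof is carried out in an abstract setting (`ga_mono_generic`): `O ≤ V` subrings of a field
`E`, `O` contained and integrally closed in an intermediate field `K` with `E / K` finite, `V`
integral over `O`, a ring homomorphism `ρ : V → Ω` mapping `O` onto an intermediate field `Kb` of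
`Ω` with `O ∩ ker ρ = π O`, and an element `θ ∈ V` whose image under `ρ` has a separable minimal
polynomial over `Kb` of degree at least `[E : K]`.
-/
import Fermat.Agent.S18.GAInterfaces2
import Fermat.Agent.S18.GASingle

set_option autoImplicit false

open ModularCurve AlgebraicCurve Polynomial Fermat.Agent.S28

namespace Fermat.Agent.S18

noncomputable section

/-- Lifting a Bézout certificate of separability along a surjective ring homomorphism. -/
theorem ga_mono_lift_cert {R K : Type*} [CommRing R] [CommRing K] (φ : R →+* K)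
    (hφ : Function.Surjective φ) (f₀ : Polynomial R) (hsep : (f₀.map φ).Separable) :
    ∃ A₀ B₀ : Polynomial R,
      (A₀ * f₀ + B₀ * Polynomial.derivative f₀ - 1).map φ = 0 := by
  obtain ⟨a, b, hab⟩ := hsep
  obtain ⟨A₀, rfl⟩ := Polynomial.map_surjective φ hφ a
  obtain ⟨B₀, rfl⟩ := Polynomial.map_surjective φ hφ b
  refine ⟨A₀, B₀, ?_⟩
  rw [Polynomial.map_sub, Polynomial.map_add, Polynomial.map_mul, Polynomial.map_mul,
    ← Polynomial.derivative_map, Polynomial.map_one, hab, sub_self]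

/-- The reduction of a root is a root of the reduced polynomial. -/
theorem ga_mono_red_root {E Ω : Type*} [Field E] [Field Ω] {k : Type*} [Field k] [Algebra k Ω]
    (Kb : IntermediateField k Ω) (O V : Subring E) (hOV : O ≤ V) (ρ : ↥V →+* Ω)
    (ρ₀ : ↥O →+* ↥Kb) (hρ₀ : ∀ c : ↥O, ((ρ₀ c : ↥Kb) : Ω) = ρ (Subring.inclusion hOV c))
    (f₀ : Polynomial ↥O) (θV : ↥V)
    (h0 : Polynomial.eval (θV : E) (f₀.map O.subtype) = 0) :
    Polynomial.aeval (ρ θV) (f₀.map ρ₀) = 0 := by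
  have hcomp : (algebraMap ↥Kb Ω).comp ρ₀ = ρ.comp (Subring.inclusion hOV) :=
    RingHom.ext fun c => hρ₀ c
  have hV0 : Polynomial.eval₂ (Subring.inclusion hOV) θV f₀ = 0 := by
    apply Subtype.ext
    have h1 : V.subtype (Polynomial.eval₂ (Subring.inclusion hOV) θV f₀) =
        Polynomial.eval₂ (V.subtype.comp (Subring.inclusion hOV)) (V.subtype θV) f₀ :=
      Polynomial.hom_eval₂ f₀ (Subring.inclusion hOV) V.subtype θV
    have h2 : V.subtype.comp (Subring.inclusion hOV) = O.subtype := RingHom.ext fun _ => rfl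
    rw [h2] at h1
    exact h1.trans ((Polynomial.eval₂_eq_eval_map _).trans h0)
  rw [Polynomial.aeval_def, Polynomial.eval₂_map, hcomp, ← Polynomial.hom_eval₂, hV0, map_zero]

/-- Division of a polynomial over `O` whose reduction vanishes by the uniformiser. -/
theorem ga_mono_div_cert {E Ω : Type*} [Field E] [Field Ω] {k : Type*} [Field k] [Algebra k Ω]
    (Kb : IntermediateField k Ω) (O V : Subring E) (hOV : O ≤ V) (ρ : ↥V →+* Ω)
    (ρ₀ : ↥O →+* ↥Kb) (hρ₀ : ∀ c : ↥O, ((ρ₀ c : ↥Kb) : Ω) = ρ (Subring.inclusion hOV c))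
    (π : E) (hπ : π ≠ 0)
    (hR3 : ∀ c : ↥V, (c : E) ∈ O → ρ c = 0 → ∃ c' : E, c' ∈ O ∧ (c : E) = π * c')
    (D₀ : Polynomial ↥O) (hD₀ : D₀.map ρ₀ = 0) :
    ∃ C : Polynomial E, (∀ n, C.coeff n ∈ O) ∧
      D₀.map O.subtype = Polynomial.C π * C := by
  refine ⟨Polynomial.C π⁻¹ * D₀.map O.subtype, fun n => ?_, ?_⟩
  · have h1 : ρ₀ (D₀.coeff n) = 0 := by
      rw [← Polynomial.coeff_map, hD₀, Polynomial.coeff_zero]
    have h2 : ρ (Subring.inclusion hOV (D₀.coeff n)) = 0 := by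
      rw [← hρ₀, h1]; rfl
    obtain ⟨c', hc', hcc⟩ := hR3 (Subring.inclusion hOV (D₀.coeff n)) (D₀.coeff n).2 h2
    have h3 : (D₀.map O.subtype).coeff n = π * c' := by
      rw [Polynomial.coeff_map]; exact hcc
    rw [Polynomial.coeff_C_mul, h3, inv_mul_cancel_left₀ hπ]
    exact hc'
  · rw [← mul_assoc, ← Polynomial.C_mul, mul_inv_cancel₀ hπ, Polynomial.C_1, one_mul]

/-- The abstract form of the statement. -/
theorem ga_mono_generic {F₀ E : Type*} [Field F₀] [Field E] [Algebra F₀ E]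
    (K : IntermediateField F₀ E) [FiniteDimensional ↥K E]
    (O V : Subring E) (hOV : O ≤ V) (hOK : ∀ c ∈ O, c ∈ K)
    (hcl : ∀ c ∈ K, IsIntegral ↥O c → c ∈ O) (hV : ∀ x ∈ V, IsIntegral ↥O x)
    {k Ω : Type*} [Field k] [Field Ω] [Algebra k Ω] (Kb : IntermediateField k Ω)
    (ρ : ↥V →+* Ω)
    (hR1 : ∀ c : ↥V, (c : E) ∈ O → ρ c ∈ Kb)
    (hR2 : ∀ z : Ω, z ∈ Kb → ∃ c : ↥V, (c : E) ∈ O ∧ ρ c = z)
    (π : E) (hπ : π ≠ 0)
    (hR3 : ∀ c : ↥V, (c : E) ∈ O → ρ c = 0 → ∃ c' : E, c' ∈ O ∧ (c : E) = π * c')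
    (ψ : ℕ) (hψ : Module.finrank ↥K E ≤ ψ)
    (θV : ↥V) (hsep : (minpoly ↥Kb (ρ θV)).Separable)
    (hdeg : ψ ≤ (minpoly ↥Kb (ρ θV)).natDegree) :
    ∃ (θ : E) (f A B C : Polynomial E),
      (∀ n, f.coeff n ∈ O) ∧ (∀ n, A.coeff n ∈ O) ∧ (∀ n, B.coeff n ∈ O) ∧
      (∀ n, C.coeff n ∈ O) ∧ f.Monic ∧ f.eval θ = 0 ∧ IntermediateField.adjoin ↥K {θ} = ⊤ ∧
      A * f + B * Polynomial.derivative f = 1 + Polynomial.C π * C := by
  classical
  have hθ : IsIntegral ↥O (θV : E) := hV _ θV.2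
  -- the reduction map on `O`
  let ρ₀ : ↥O →+* ↥Kb := (ρ.comp (Subring.inclusion hOV)).codRestrict Kb
    (fun c => hR1 (Subring.inclusion hOV c) c.2)
  have hρ₀ : ∀ c : ↥O, ((ρ₀ c : ↥Kb) : Ω) = ρ (Subring.inclusion hOV c) := fun c => rfl
  have hsurj : Function.Surjective ρ₀ := by
    intro z
    obtain ⟨c, hcO, hc⟩ := hR2 (z : Ω) z.2
    refine ⟨⟨(c : E), hcO⟩, Subtype.ext ?_⟩
    rw [hρ₀]
    exact hc
  -- the minimal polynomial of `θ` over `K`
  have hθK : IsIntegral ↥K (θV : E) := IsIntegral.of_finite ↥K _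
  have hμm : (minpoly ↥K (θV : E)).Monic := minpoly.monic hθK
  have hfm : ((minpoly ↥K (θV : E)).map (algebraMap ↥K E)).Monic := hμm.map _
  have hfθ : Polynomial.eval (θV : E) ((minpoly ↥K (θV : E)).map (algebraMap ↥K E)) = 0 := by
    rw [Polynomial.eval_map, ← Polynomial.aeval_def]; exact minpoly.aeval _ _
  have hfc : ∀ n, ((minpoly ↥K (θV : E)).map (algebraMap ↥K E)).coeff n ∈ O := by
    intro n
    rw [Polynomial.coeff_map]
    exact ga_single_minpoly_coeff_mem K O hOK hcl (θV : E) hθ n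
  have hsub : (↑((minpoly ↥K (θV : E)).map (algebraMap ↥K E)).coeffs : Set E) ⊆ O := by
    intro c hc'
    obtain ⟨n, -, rfl⟩ := Polynomial.mem_coeffs_iff.mp hc'
    exact hfc n
  obtain ⟨f, hfdef⟩ : ∃ f : Polynomial E, f = (minpoly ↥K (θV : E)).map (algebraMap ↥K E) :=
    ⟨_, rfl⟩
  rw [← hfdef] at hfm hfθ hfc hsub
  have hfdeg : f.natDegree = (minpoly ↥K (θV : E)).natDegree := by
    rw [hfdef, Polynomial.natDegree_map]
  obtain ⟨f₀, hf₀def⟩ : ∃ f₀ : Polynomial ↥O, f₀ = f.toSubring O hsub := ⟨_, rfl⟩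
  have hf₀m : f₀.Monic := by rw [hf₀def]; exact (Polynomial.monic_toSubring f O hsub).mpr hfm
  have hf₀map : f₀.map O.subtype = f := by rw [hf₀def]; exact Polynomial.map_toSubring f O hsub
  have hf₀deg : f₀.natDegree = f.natDegree := by
    rw [hf₀def]; exact Polynomial.natDegree_toSubring f O hsub
  -- the reduction of `f`
  have hbm : (f₀.map ρ₀).Monic := hf₀m.map ρ₀
  have hbdeg : (f₀.map ρ₀).natDegree = f₀.natDegree := hf₀m.natDegree_map ρ₀
  have hbroot : Polynomial.aeval (ρ θV) (f₀.map ρ₀) = 0 :=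
    ga_mono_red_root Kb O V hOV ρ ρ₀ hρ₀ f₀ θV (by rw [hf₀map]; exact hfθ)
  have htint : IsIntegral ↥Kb (ρ θV) := ⟨f₀.map ρ₀, hbm, hbroot⟩
  have hdvd : minpoly ↥Kb (ρ θV) ∣ f₀.map ρ₀ := minpoly.dvd _ _ hbroot
  have hle1 : (minpoly ↥Kb (ρ θV)).natDegree ≤ (f₀.map ρ₀).natDegree :=
    Polynomial.natDegree_le_of_dvd hdvd hbm.ne_zero
  have hle2 : (minpoly ↥K (θV : E)).natDegree ≤ Module.finrank ↥K E := minpoly.natDegree_le _
  -- (i) `θ` is a primitive element
  have hprim : IntermediateField.adjoin ↥K {(θV : E)} = ⊤ := by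
    rw [Field.primitive_element_iff_minpoly_natDegree_eq]
    omega
  -- (ii) the reduction of `f` is separable
  have hbeq : f₀.map ρ₀ = minpoly ↥Kb (ρ θV) :=
    Polynomial.eq_of_monic_of_dvd_of_natDegree_le (minpoly.monic htint) hbm hdvd (by omega)
  have hbsep : (f₀.map ρ₀).Separable := by rw [hbeq]; exact hsep
  -- the certificate
  obtain ⟨A₀, B₀, hAB⟩ := ga_mono_lift_cert ρ₀ hsurj f₀ hbsep
  obtain ⟨C, hC, hDC⟩ := ga_mono_div_cert Kb O V hOV ρ ρ₀ hρ₀ π hπ hR3 _ hAB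
  refine ⟨(θV : E), f, A₀.map O.subtype, B₀.map O.subtype, C, hfc, fun n => ?_, fun n => ?_, hC,
    hfm, hfθ, hprim, ?_⟩
  · rw [Polynomial.coeff_map]; exact SetLike.coe_mem _
  · rw [Polynomial.coeff_map]; exact SetLike.coe_mem _
  · rw [← hDC, Polynomial.map_sub, Polynomial.map_add, Polynomial.map_mul, Polynomial.map_mul,
      ← Polynomial.derivative_map, Polynomial.map_one, hf₀map]
    ring

/-- (G4b) `MonogenicStatement`. -/
theorem ga_mono_main : GaussStatement → ga_RedOStatement → ga_PrimStatement → ga_LDegStatement →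
    ga_O0ClosedStatement → FinLStatement → MonogenicStatement := by
  intro hG hRed hPrim hLDeg hO0 hFin N _ ℓ _ L _ _ W _ k _ _ _ res ϖ hD
  obtain ⟨-, -, -, -, ρ, hρ⟩ := hG N ℓ L W k res ϖ hD
  obtain ⟨hR1, hR2, hR3⟩ := hRed N ℓ L W k res ϖ hD ρ hρ
  obtain ⟨t, htF, -, htsep, htdeg⟩ := hPrim N ℓ hD.not_dvd k
  obtain ⟨θV, rfl⟩ := (hρ.range t).mp htF
  have hfin : FiniteDimensional ↥(ga_K0 L N) ↥(FL L N) := (hFin N L).2
  have hψ : Module.finrank ↥(ga_K0 L N) ↥(FL L N) ≤ dedekindPsi N :=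
    hLDeg N L _ _ (Module.finBasis ↥(ga_K0 L N) ↥(FL L N)).linearIndependent
  exact ga_mono_generic (ga_K0 L N) (gaussO W res N) (gaussV W res N)
    (fun _ hc => ga_gaussO_le_gaussV W res N hc) (fun _ hc => ga_gaussO_le_K0 W res N hc)
    (fun c hc hci => hO0 N ℓ L W k res ϖ hD c hc hci) (fun _ hx => hx)
    (IntermediateField.adjoin k {jqModC k}) ρ hR1 hR2 (cW W N ϖ) (ga_cW_varpi_ne_zero hD) hR3
    (dedekindPsi N) hψ θV htsep htdeg

end

end Fermat.Agent.S18
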