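/-
S18, block G (twin A) — MAIN FILE.  All deliverables of block G, hypothesis-free:

* `ga_fin   : FinLStatement`        (G0)  — `GAMainFin.lean`
* `ga_gauss : GaussStatement`       (G2)  — `GAMainGauss.lean`
* `ga_chart : ChartGaussStatement`  (G3)  — `GAMainChart.lean`
* `ga_sep   : FkSepStatement`       (G4)  — `GAMainSep.lean`
* `ga_mono  : MonogenicStatement`   (G4b) — this file.
-/
import Fermat.Agent.S18.GAMainFin
import Fermat.Agent.S18.GAMainChart
import Fermat.Agent.S18.GAMainGauss
import Fermat.Agent.S18.GAMainSep
import Fermat.Agent.S18.GARedO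
import Fermat.Agent.S18.GAMono

set_option autoImplicit false

namespace Fermat.Agent.S18

/-- The reduction map on `O₀`, hypothesis-free. -/
theorem ga_redO : ga_RedOStatement := ga_redo_main

/-- (G4b) `MonogenicStatement`, hypothesis-free: `V = O₀[θ]` is étale over `O₀`. -/
theorem ga_mono : MonogenicStatement :=
  ga_mono_main ga_gauss ga_redO ga_prim ga_ldeg ga_o0closed ga_fin

end Fermat.Agent.S18
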