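/-
S18 — block P (purity, twin A): INTERNAL INTERFACE FILE of the PUA block.

Goal of the block: `pua_main : LocSubStatement → PurityStatement`.

Abstract setting of the packages.  `R` is a noetherian local domain whose maximal ideal is
`(ϖ, x)` with `ϖ` a prime element and `ϖ ∤ x` (a regular local ring of dimension 2), `K` its fraction
field, `E / K` a finite extension of characteristic 0 and `integralClosure R E` the integral closure.
In the application `R = locSub Λ 𝔫 ⊆ K₁ ⊆ E`.

Packages (each proves one `…Statement`, hypothesis statements are explicit):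
* `pua_UFDStatement`  : such an `R` is a UFD (Kaplansky);
* `pua_D1Statement`   : `x` is a nonzerodivisor modulo `ϖ` on the integral closure;
* `pua_FreeStatement` : a finite `R`-module on which `ϖ, x` is a regular sequence is free;
* `pua_DiscStatement` : the discriminant of an `R`-basis of the integral closure is a unit if `E / K`
                        is unramified (discriminant form) at every prime element of `R`;
* `pua_RedStatement`  : a finite free algebra with unit discriminant over a local ring is reduced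
                        modulo the maximal ideal;
* `pua_LocStatement`  : the localisations of such an algebra at the primes over `𝔪` are DVRs modulo `ϖ`;
* `pua_CritStatement` : the elementwise DVR criterion (also provided by the LocSub toolkit);
* `pua_TransStatement`, `pua_BridgeStatement` : translation between `Λ, 𝔫, B, M` and `R, B', M'`.
-/
import Fermat.Agent.S18.SInterfaces

set_option autoImplicit false

namespace Fermat.Agent.S18

/-- (P-R) A noetherian local domain with maximal ideal `(ϖ, x)`, `ϖ` prime, `ϖ ∤ x`, is a UFD. -/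
def pua_UFDStatement : Prop :=
  ∀ (R : Type) [CommRing R] [IsDomain R] [IsLocalRing R] [IsNoetherianRing R] (ϖ x : R),
    Prime ϖ → ¬ ϖ ∣ x → IsLocalRing.maximalIdeal R = Ideal.span {ϖ, x} →
    UniqueFactorizationMonoid R

/-- (D1) `R` integrally closed domain, `ϖ` prime, `ϖ ∤ x`, `K = Frac R`, `E / K` algebraic: if `b, b'` are
integral over `R` and `x b = ϖ b'`, then `b = ϖ y` with `y` integral over `R`. -/
def pua_D1Statement : Prop :=
  ∀ (R K E : Type) [CommRing R] [IsDomain R] [IsIntegrallyClosed R] [Field K] [Field E]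
    [Algebra R K] [IsFractionRing R K] [Algebra K E] [Algebra R E] [IsScalarTower R K E]
    [Algebra.IsAlgebraic K E] (ϖ x : R), Prime ϖ → ¬ ϖ ∣ x →
    ∀ b b' : E, IsIntegral R b → IsIntegral R b' →
      algebraMap R E x * b = algebraMap R E ϖ * b' →
      ∃ y : E, IsIntegral R y ∧ b = algebraMap R E ϖ * y

/-- (D2) A finite module `S` over a noetherian local ring with maximal ideal `(ϖ, x)` such that `ϖ, x` is
an `S`-regular sequence is free. -/
def pua_FreeStatement : Prop :=
  ∀ (R S : Type) [CommRing R] [IsLocalRing R] [IsNoetherianRing R] [AddCommGroup S] [Module R S]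
    [Module.Finite R S] (ϖ x : R), IsLocalRing.maximalIdeal R = Ideal.span {ϖ, x} →
    (∀ s : S, ϖ • s = 0 → s = 0) →
    (∀ s s' : S, x • s = ϖ • s' → ∃ t : S, s = ϖ • t) →
    Module.Free R S

/-- `E / K` is unramified at the prime element `p` of `R` (`K = Frac R`), in discriminant form: there is
a `K`-basis `c` of `E` with `sᵢ cᵢ` integral over `R`, `p ∤ sᵢ`, and `s * discr(c) = a` with `p ∤ a s`
(the last equation is stated in `E`). -/
def pua_UnramAt (R K E : Type) [CommRing R] [Field K] [Field E] [Algebra K E] [Algebra R E]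
    (p : R) : Prop :=
  ∃ (r : ℕ) (c : Fin r → E), LinearIndependent K c ∧ Submodule.span K (Set.range c) = ⊤ ∧
    (∀ i, ∃ s : R, ¬ p ∣ s ∧ IsIntegral R (algebraMap R E s * c i)) ∧
    ∃ a s : R, ¬ p ∣ a ∧ ¬ p ∣ s ∧
      algebraMap R E s * algebraMap K E (Algebra.discr K c) = algebraMap R E a

/-- (E) If the integral closure of the UFD `R` in `E` has an `R`-basis `e` and `E / K` is unramified at
every prime element of `R`, then the discriminant of `e` is a unit of `R`. -/
def pua_DiscStatement : Prop :=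
  ∀ (R K E : Type) [CommRing R] [IsDomain R] [UniqueFactorizationMonoid R] [Field K] [Field E]
    [Algebra R K] [IsFractionRing R K] [Algebra K E] [Algebra R E] [IsScalarTower R K E]
    [FiniteDimensional K E] [CharZero K] (ι : Type) [Fintype ι] [DecidableEq ι]
    (e : Module.Basis ι R ↥(integralClosure R E)),
    (∀ p : R, Prime p → pua_UnramAt R K E p) → IsUnit (Algebra.discr R e)

/-- (F) A finite free algebra `S` with unit discriminant over a local ring `R` is reduced modulo the
maximal ideal of `R`. -/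
def pua_RedStatement : Prop :=
  ∀ (R S : Type) [CommRing R] [IsLocalRing R] [CommRing S] [Algebra R S] (ι : Type) [Fintype ι]
    [DecidableEq ι] (e : Module.Basis ι R S), IsUnit (Algebra.discr R e) →
    ∀ b : S, b ^ 2 ∈ (IsLocalRing.maximalIdeal R).map (algebraMap R S) →
      b ∈ (IsLocalRing.maximalIdeal R).map (algebraMap R S)

/-- (T4) Elementwise DVR criterion: `O` noetherian local, `𝔪 = (ϖ, x)`, `x ^ n ∉ (ϖ)` for all `n`. -/
def pua_CritStatement : Prop :=
  ∀ (O : Type) [CommRing O] [IsLocalRing O] [IsNoetherianRing O] (ϖ x : O),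
    IsLocalRing.maximalIdeal O = Ideal.span {ϖ, x} → (∀ n : ℕ, x ^ n ∉ Ideal.span {ϖ}) →
    IsDVRQuot O ϖ

/-- (G) `R` noetherian local with `𝔪 = (ϖ, x)`, `S` a finite `R`-algebra with `𝔪 S` a radical ideal and `x`
a nonzerodivisor modulo `ϖ S`; `M` a prime of `S` containing `ϖ, x`, `O = S_M`: then `O / ϖ` is a DVR. -/
def pua_LocStatement : Prop :=
  ∀ (R S O : Type) [CommRing R] [IsLocalRing R] [IsNoetherianRing R] [CommRing S] [Algebra R S]
    [Module.Finite R S] [CommRing O] [Algebra S O] (ϖ x : R),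
    IsLocalRing.maximalIdeal R = Ideal.span {ϖ, x} →
    (∀ b : S, b ^ 2 ∈ (IsLocalRing.maximalIdeal R).map (algebraMap R S) →
      b ∈ (IsLocalRing.maximalIdeal R).map (algebraMap R S)) →
    (∀ s s' : S, algebraMap R S x * s = algebraMap R S ϖ * s' →
      ∃ t : S, s = algebraMap R S ϖ * t) →
    ∀ (M : Ideal S) [M.IsPrime] [IsLocalization.AtPrime O M],
      algebraMap R S ϖ ∈ M → algebraMap R S x ∈ M →
      IsDVRQuot O (algebraMap S O (algebraMap R S ϖ))

/-! ## Translation between `Λ, 𝔫, B, M` and `R = locSub Λ 𝔫`, `B' = integralClosure R E`, `M'` -/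

/-- `locSub A P` is the localisation of `A` at `P` (algebra structure given by the inclusion). -/
theorem pua_locSub_isLocalization {F : Type*} [Field F] (A : Subring F) (P : Ideal ↥A) [P.IsPrime] :
    letI := (Subring.inclusion (le_locSub A P)).toAlgebra
    IsLocalization.AtPrime ↥(locSub A P) P := by
  let _ := (Subring.inclusion (le_locSub A P)).toAlgebra
  have hmap : ∀ a : ↥A, ((algebraMap ↥A ↥(locSub A P) a : ↥(locSub A P)) : F) = (a : F) :=
    fun _ => rfl
  refine ⟨?_, ?_, ?_⟩
  · rintro ⟨s, hs⟩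
    have hs' : s ∉ P := hs
    have hs0 : (s : F) ≠ 0 := by
      intro h0
      apply hs'
      have : s = 0 := Subtype.ext h0
      rw [this]; exact P.zero_mem
    have hinv : (s : F)⁻¹ ∈ locSub A P := ⟨1, s, hs', by simp [hs0]⟩
    refine IsUnit.of_mul_eq_one (⟨(s : F)⁻¹, hinv⟩ : ↥(locSub A P)) ?_
    apply Subtype.ext
    simp [hmap, hs0]
  · rintro ⟨z, a, s, hs, h⟩
    exact ⟨(a, ⟨s, hs⟩), Subtype.ext (by simpa [hmap] using h)⟩
  · intro a b hab
    refine ⟨1, ?_⟩
    have : (a : F) = (b : F) := by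
      have := congrArg (fun t : ↥(locSub A P) => (t : F)) hab
      simpa [hmap] using this
    simp [Subtype.ext this]

/-- (Trans) In the situation of `PurityStatement`, `R = locSub Λ 𝔫` is a noetherian local domain inside
`K₁` with fraction field `K₁`, maximal ideal `(ϖ, x)`, `ϖ` prime, `ϖ ∤ x`, and `E / K₁` is unramified
(`pua_UnramAt`) at every prime element of `R`. -/
def pua_TransStatement : Prop :=
  ∀ (E : Type) [Field E] [CharZero E] (Λ : Subring E) (K₁ : Subfield E),
    Λ ≤ K₁.toSubring → (∀ x ∈ K₁, ∃ a ∈ Λ, ∃ b ∈ Λ, b ≠ 0 ∧ x * b = a) →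
    IsNoetherianRing ↥Λ →
    ∀ (𝔫 : Ideal ↥Λ) [𝔫.IsMaximal] (ϖ x : ↥Λ), ϖ ≠ 0 → (Ideal.span {ϖ} : Ideal ↥Λ).IsPrime →
      x ∉ (Ideal.span {ϖ} : Ideal ↥Λ) → 𝔫 = Ideal.span {ϖ, x} →
      (∀ 𝔭 : Ideal ↥Λ, 𝔭.IsPrime → 𝔭 ≠ ⊥ → 𝔭 < 𝔫 → UnramAtPrime Λ K₁ 𝔭) →
      ∃ (hRK : locSub Λ 𝔫 ≤ K₁.toSubring) (_ : IsLocalRing ↥(locSub Λ 𝔫))
        (ϖR xR : ↥(locSub Λ 𝔫)),
        (ϖR : E) = (ϖ : E) ∧ (xR : E) = (x : E) ∧ IsNoetherianRing ↥(locSub Λ 𝔫) ∧
        Prime ϖR ∧ ¬ ϖR ∣ xR ∧ IsLocalRing.maximalIdeal ↥(locSub Λ 𝔫) = Ideal.span {ϖR, xR} ∧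
        (letI := (Subring.inclusion hRK).toAlgebra; IsFractionRing ↥(locSub Λ 𝔫) ↥K₁) ∧
        ∀ p : ↥(locSub Λ 𝔫), Prime p → pua_UnramAt ↥(locSub Λ 𝔫) ↥K₁ E p

/-- (Bridge) `B = integralClosure Λ E`, `M` a maximal ideal of `B` over the maximal ideal `𝔫` of `Λ`,
`B' = integralClosure (locSub Λ 𝔫) E`: then `B' ⊆ locSub B M` (the map `f`), and `locSub B M` is the
localisation of `B'` at a prime `M'` containing (the image of) `𝔫`. -/
def pua_BridgeStatement : Prop :=
  ∀ (E : Type) [Field E] (Λ : Subring E) (𝔫 : Ideal ↥Λ) [𝔫.IsMaximal]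
    (M : Ideal ↥(integralClosure ↥Λ E).toSubring) [M.IsMaximal],
    (∀ (a : ↥Λ) (b : ↥(integralClosure ↥Λ E).toSubring), a ∈ 𝔫 → (b : E) = (a : E) → b ∈ M) →
    ∃ (f : ↥(integralClosure ↥(locSub Λ 𝔫) E) →+* ↥(locSub (integralClosure ↥Λ E).toSubring M))
      (M' : Ideal ↥(integralClosure ↥(locSub Λ 𝔫) E)) (_ : M'.IsPrime),
      (∀ z, ((f z : ↥(locSub (integralClosure ↥Λ E).toSubring M)) : E) = (z : E)) ∧
      (∀ (a : ↥Λ) (z : ↥(integralClosure ↥(locSub Λ 𝔫) E)), a ∈ 𝔫 → (z : E) = (a : E) → z ∈ M') ∧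
      (letI := f.toAlgebra;
        IsLocalization.AtPrime ↥(locSub (integralClosure ↥Λ E).toSubring M) M')

end Fermat.Agent.S18
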