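/-
S18 — block P (purity, twin A): package Bridge.
`locSub B M` is the localisation of `B' = integralClosure (locSub Λ 𝔫) E` at a prime over `𝔫`.
-/
import Fermat.Agent.S18.PUAInterfaces
import Fermat.Agent.S18.LocSubB

set_option autoImplicit false

namespace Fermat.Agent.S18

/-- (Bridge) `B' ⊆ locSub B M`, and `locSub B M` is the localisation of `B'` at a prime over `𝔫`. -/
theorem pua_bridgeS_main : pua_BridgeStatement := by
  intro E _ Λ 𝔫 h𝔫 M hMmax hM
  let algΛR : Algebra ↥Λ ↥(locSub Λ 𝔫) := (Subring.inclusion (le_locSub Λ 𝔫)).toAlgebra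
  have hlocR : IsLocalization.AtPrime ↥(locSub Λ 𝔫) 𝔫 := pua_locSub_isLocalization Λ 𝔫
  have tower : IsScalarTower ↥Λ ↥(locSub Λ 𝔫) E := IsScalarTower.of_algebraMap_eq (fun _ => rfl)
  -- `Λ ⊆ B`
  have hΛB : Λ ≤ (integralClosure ↥Λ E).toSubring := fun a ha =>
    (isIntegral_algebraMap (R := ↥Λ) (A := E) (x := ⟨a, ha⟩))
  -- `M ∩ Λ = 𝔫`
  have hcomap : 𝔫 = Ideal.comap (Subring.inclusion hΛB) M := by
    refine h𝔫.eq_of_le (Ideal.comap_ne_top _ hMmax.ne_top) ?_
    intro a ha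
    exact hM a _ ha rfl
  have hmemM : ∀ s : ↥Λ, Subring.inclusion hΛB s ∈ M ↔ s ∈ 𝔫 := by
    intro s
    rw [hcomap, Ideal.mem_comap]
  -- `B ⊆ B'`
  have hBB' : ∀ b : E, IsIntegral ↥Λ b → IsIntegral ↥(locSub Λ 𝔫) b := fun b hb =>
    hb.tower_top
  -- `B' ⊆ O`
  have hB'O : ∀ z : E, IsIntegral ↥(locSub Λ 𝔫) z →
      z ∈ locSub (integralClosure ↥Λ E).toSubring M := by
    intro z hz
    obtain ⟨⟨s, hs⟩, hsz⟩ :=
      IsIntegral.exists_multiple_integral_of_isLocalization 𝔫.primeCompl z hz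
    have hsz' : IsIntegral ↥Λ ((s : E) * z) := hsz
    refine ⟨⟨(s : E) * z, hsz'⟩, Subring.inclusion hΛB s, ?_, ?_⟩
    · rw [hmemM]; exact hs
    · show z * (s : E) = (s : E) * z
      ring
  have hlocO : IsLocalRing ↥(locSub (integralClosure ↥Λ E).toSubring M) :=
    locSubB_isLocalRing _ M
  let f : ↥(integralClosure ↥(locSub Λ 𝔫) E) →+*
      ↥(locSub (integralClosure ↥Λ E).toSubring M) :=
    RingHom.codRestrict ((integralClosure ↥(locSub Λ 𝔫) E).val : _ →+* E)
      (locSub (integralClosure ↥Λ E).toSubring M) (fun z => hB'O z z.2)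
  have hf : ∀ z, ((f z : ↥(locSub (integralClosure ↥Λ E).toSubring M)) : E) = (z : E) :=
    fun _ => rfl
  -- images of elements of `B` in `O`
  have hmaxB : ∀ (b : ↥(integralClosure ↥Λ E).toSubring)
      (o : ↥(locSub (integralClosure ↥Λ E).toSubring M)), (o : E) = (b : E) →
      (o ∈ IsLocalRing.maximalIdeal ↥(locSub (integralClosure ↥Λ E).toSubring M) ↔ b ∈ M) := by
    intro b o hob
    rw [locSubB_mem_maximalIdeal_iff]
    constructor
    · rintro ⟨a, s, ha, hs, h⟩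
      have h2 : b * s = a := Subtype.ext (by push_cast; rw [← hob]; exact h)
      have h3 : b * s ∈ M := h2 ▸ ha
      exact (hMmax.isPrime.mem_or_mem h3).resolve_right hs
    · intro hb
      exact ⟨b, 1, hb, fun h1 => hMmax.ne_top ((Ideal.eq_top_iff_one M).2 h1), by simp [hob]⟩
  refine ⟨f, Ideal.comap f (IsLocalRing.maximalIdeal _), Ideal.comap_isPrime f _, hf, ?_, ?_⟩
  · intro a z ha hz
    rw [Ideal.mem_comap]
    exact (hmaxB (Subring.inclusion hΛB a) (f z) hz).2 (hM a _ ha rfl)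
  · let algSO : Algebra ↥(integralClosure ↥(locSub Λ 𝔫) E)
        ↥(locSub (integralClosure ↥Λ E).toSubring M) := f.toAlgebra
    refine ⟨?_, ?_, ?_⟩
    · rintro ⟨w, hw⟩
      have hw' : f w ∉ IsLocalRing.maximalIdeal _ := hw
      exact IsLocalRing.notMem_maximalIdeal.1 hw'
    · rintro ⟨o, b, s, hs, h⟩
      have hs' : (⟨(s : E), hBB' _ s.2⟩ : ↥(integralClosure ↥(locSub Λ 𝔫) E)) ∉
          Ideal.comap f (IsLocalRing.maximalIdeal _) := by
        rw [Ideal.mem_comap, hmaxB s _ rfl]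
        exact hs
      exact ⟨(⟨(b : E), hBB' _ b.2⟩, ⟨⟨(s : E), hBB' _ s.2⟩, hs'⟩), Subtype.ext h⟩
    · intro a b hab
      refine ⟨1, ?_⟩
      have : (a : E) = (b : E) :=
        congrArg (fun t : ↥(locSub (integralClosure ↥Λ E).toSubring M) => (t : E)) hab
      simp [Subtype.ext this]

end Fermat.Agent.S18
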