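/-
S18 — block P (purity, twin A), package D1:
"`x` is a nonzerodivisor modulo `ϖ` on the integral closure".

`R` an integrally closed domain, `ϖ` a prime element, `ϖ ∤ x`, `K = Frac R`, `E / K` algebraic.
If `b, b'` are integral over `R` and `x b = ϖ b'`, then `b = ϖ y` with `y` integral over `R`.

Proof: put `y = b / ϖ`; the minimal polynomial `μ` of `y` over `K` satisfies
`μ.scaleRoots ϖ = minpoly R b` and `μ.scaleRoots x = minpoly R b'` (both have coefficients in `R`),
hence each coefficient `c` of `μ` satisfies `ϖ ^ n * c ∈ R` and `x ^ n * c ∈ R`, which forces `c ∈ R`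
because `ϖ` is prime and `ϖ ∤ x`.
-/
import Fermat.Agent.S18.PUAInterfaces

set_option autoImplicit false

namespace Fermat.Agent.S18

/-- Key lemma: if `ϖ ^ n * c` and `x ^ n * c` both lie in `R` (`ϖ` prime, `ϖ ∤ x`), then `c ∈ R`. -/
theorem pua_d1_key (R K : Type) [CommRing R] [IsDomain R] [Field K] [Algebra R K]
    [IsFractionRing R K] (ϖ x : R) (hϖ : Prime ϖ) (hx : ¬ ϖ ∣ x) (c : K) (n : ℕ) (a a' : R)
    (h1 : algebraMap R K ϖ ^ n * c = algebraMap R K a)
    (h2 : algebraMap R K x ^ n * c = algebraMap R K a') :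
    ∃ c₀ : R, algebraMap R K c₀ = c := by
  have hinj : Function.Injective (algebraMap R K) := IsFractionRing.injective R K
  have hϖ0 : ϖ ≠ 0 := hϖ.ne_zero
  have heq : x ^ n * a = ϖ ^ n * a' := by
    apply hinj
    rw [map_mul, map_mul, map_pow, map_pow, ← h1, ← h2]
    ring
  have hxn : ¬ ϖ ∣ x ^ n := fun h => hx (hϖ.dvd_of_dvd_pow h)
  have hdvd : ϖ ^ n ∣ a :=
    hϖ.pow_dvd_of_dvd_mul_left n hxn (heq ▸ dvd_mul_right _ _)
  obtain ⟨c₀, rfl⟩ := hdvd
  refine ⟨c₀, ?_⟩
  have hϖK : algebraMap R K ϖ ≠ 0 := fun h => hϖ0 (hinj (by rw [h, map_zero]))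
  have hne : algebraMap R K ϖ ^ n ≠ 0 := pow_ne_zero _ hϖK
  apply mul_left_cancel₀ hne
  rw [h1, map_mul, map_pow]

/-- (D1) `x` is a nonzerodivisor modulo `ϖ` on the integral closure. -/
theorem pua_d1_main : pua_D1Statement := by
  intro R K E _ _ _ _ _ _ _ _ _ _ _ ϖ x hϖ hx b b' hb hb' hxb
  have hinjRK : Function.Injective (algebraMap R K) := IsFractionRing.injective R K
  have hinjKE : Function.Injective (algebraMap K E) := (algebraMap K E).injective
  have hϖ0 : ϖ ≠ 0 := hϖ.ne_zero
  have hx0 : x ≠ 0 := fun h => hx (h ▸ dvd_zero ϖ)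
  have hmap : ∀ r : R, algebraMap R E r = algebraMap K E (algebraMap R K r) :=
    fun r => IsScalarTower.algebraMap_apply R K E r
  have hϖK : algebraMap R K ϖ ≠ 0 := fun h => hϖ0 (hinjRK (by rw [h, map_zero]))
  have hxK : algebraMap R K x ≠ 0 := fun h => hx0 (hinjRK (by rw [h, map_zero]))
  have hϖE : algebraMap R E ϖ ≠ 0 := by
    rw [hmap]
    exact fun h => hϖK (hinjKE (by rw [h, map_zero]))
  -- the candidate `y = b / ϖ`
  obtain ⟨y, hy1⟩ : ∃ y : E, algebraMap R E ϖ * y = b :=
    ⟨(algebraMap R E ϖ)⁻¹ * b, mul_inv_cancel_left₀ hϖE b⟩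
  have hy2 : algebraMap R E x * y = b' := by
    apply mul_left_cancel₀ hϖE
    rw [← hxb, ← hy1]
    ring
  have hyK : IsIntegral K y := Algebra.IsIntegral.isIntegral y
  have hsm1 : algebraMap R K ϖ • y = b := by rw [Algebra.smul_def, ← hmap, hy1]
  have hsm2 : algebraMap R K x • y = b' := by rw [Algebra.smul_def, ← hmap, hy2]
  -- the scaled minimal polynomials have coefficients in `R`
  have hmin1 : (minpoly K y).scaleRoots (algebraMap R K ϖ)
      = (minpoly R b).map (algebraMap R K) := by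
    rw [← IsIntegrallyClosed.minpoly_smul hϖK hyK, hsm1]
    exact minpoly.isIntegrallyClosed_eq_field_fractions' K hb
  have hmin2 : (minpoly K y).scaleRoots (algebraMap R K x)
      = (minpoly R b').map (algebraMap R K) := by
    rw [← IsIntegrallyClosed.minpoly_smul hxK hyK, hsm2]
    exact minpoly.isIntegrallyClosed_eq_field_fractions' K hb'
  -- hence so does the minimal polynomial of `y`
  have hcoeff : ∀ i : ℕ, (minpoly K y).coeff i ∈ Set.range (algebraMap R K) := by
    intro i
    have h1 := congrArg (fun p : Polynomial K => p.coeff i) hmin1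
    have h2 := congrArg (fun p : Polynomial K => p.coeff i) hmin2
    simp only [Polynomial.coeff_scaleRoots, Polynomial.coeff_map] at h1 h2
    exact pua_d1_key R K ϖ x hϖ hx ((minpoly K y).coeff i) ((minpoly K y).natDegree - i) _ _
      (by rw [mul_comm]; exact h1) (by rw [mul_comm]; exact h2)
  have hlift : minpoly K y ∈ Polynomial.lifts (algebraMap R K) :=
    (Polynomial.lifts_iff_coeff_lifts _).2 hcoeff
  obtain ⟨P, hP, -, hPm⟩ :=
    Polynomial.lifts_and_natDegree_eq_and_monic hlift (minpoly.monic hyK)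
  refine ⟨y, ⟨P, hPm, ?_⟩, hy1.symm⟩
  have h0 : Polynomial.aeval y (minpoly K y) = 0 := minpoly.aeval K y
  rw [← hP, Polynomial.aeval_map_algebraMap] at h0
  exact h0

end Fermat.Agent.S18
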