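/-
S18 — block P (purity, twin A), package PUA/Disc.

`pua_disc_main : pua_DiscStatement`: if the integral closure of the UFD `R` in the finite extension
`E / K` (`K = Frac R`, characteristic 0) has an `R`-basis `e` and `E / K` is unramified (discriminant
form `pua_UnramAt`) at every prime element of `R`, then the discriminant of `e` is a unit of `R`.

Proof.  `e` is also a `K`-basis `eK` of `E` with the same discriminant `d` (localisation at `R⁰`);
`d ≠ 0` by separability.  If `d` is not a unit, a prime `p` divides `d`.  The unramifiedness datum at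
`p` gives a `K`-basis `c` of `E` with `sᵢ cᵢ` integral over `R`, `p ∤ sᵢ`, and `s * discr c = a` with
`p ∤ a s`.  Writing the integral elements `sᵢ cᵢ` in the basis `e` (matrix `m` over `R`) gives
`discr (sᵢ cᵢ) = det m ^ 2 * d`, and also `discr (sᵢ cᵢ) = (∏ sᵢ) ^ 2 * discr c`; hence
`s * det m ^ 2 * d = (∏ sᵢ) ^ 2 * a` in `R`, and `p ∣ d` contradicts `p ∤ sᵢ`, `p ∤ a`.
-/
import Fermat.Agent.S18.PUAInterfaces

set_option autoImplicit false

namespace Fermat.Agent.S18

open scoped nonZeroDivisors

/-- Scaling a family by scalars of the base ring multiplies the discriminant by the square of the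
product of the scalars. -/
theorem pua_disc_discr_scale {K E : Type} [CommRing K] [CommRing E] [Algebra K E]
    {ι : Type} [Fintype ι] [DecidableEq ι] (u : ι → K) (c : ι → E) :
    Algebra.discr K (fun i => algebraMap K E (u i) * c i) =
      (∏ i, u i) ^ 2 * Algebra.discr K c := by
  have h : (fun i => algebraMap K E (u i) * c i) =
      Matrix.mulVec ((Matrix.diagonal u).map (algebraMap K E)) c := by
    funext i
    rw [Matrix.mulVec, dotProduct, Finset.sum_eq_single i]
    · simp
    · intro j _ hji
      simp [Matrix.diagonal_apply_ne _ (Ne.symm hji)]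
    · intro hi
      exact absurd (Finset.mem_univ i) hi
  rw [h, Algebra.discr_of_matrix_mulVec, Matrix.det_diagonal]

section

variable {R K E : Type} [CommRing R] [IsDomain R] [Field K] [Field E]
  [Algebra R K] [IsFractionRing R K] [Algebra K E] [Algebra R E] [IsScalarTower R K E]
  [FiniteDimensional K E]

/-- Step 1: an `R`-basis of the integral closure of `R` in `E` is a `K`-basis of `E`, with the same
discriminant. -/
theorem pua_disc_exists_basis {ι : Type} [Fintype ι] [DecidableEq ι]
    (e : Module.Basis ι R ↥(integralClosure R E)) :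
    ∃ eK : Module.Basis ι K E, (∀ i, eK i = ((e i : ↥(integralClosure R E)) : E)) ∧
      Algebra.discr K eK = algebraMap R K (Algebra.discr R e) := by
  have : IsLocalization (Algebra.algebraMapSubmonoid ↥(integralClosure R E) R⁰) E :=
    IsIntegralClosure.isLocalization R K E ↥(integralClosure R E)
  refine ⟨e.localizationLocalization K R⁰ E, fun i => ?_, ?_⟩
  · rw [Module.Basis.localizationLocalization_apply]; rfl
  · exact Algebra.discr_localizationLocalization R R⁰ E e

omit [IsDomain R] [IsFractionRing R K] [FiniteDimensional K E] in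
/-- Step 3: the discriminant of a family of elements of `E` integral over `R` is `t ^ 2 * d`, where
`d` is the discriminant of the integral basis `e`. -/
theorem pua_disc_discr_of_integral {ι : Type} [Fintype ι] [DecidableEq ι]
    (e : Module.Basis ι R ↥(integralClosure R E)) (eK : Module.Basis ι K E)
    (heK : ∀ i, eK i = ((e i : ↥(integralClosure R E)) : E))
    (hd : Algebra.discr K eK = algebraMap R K (Algebra.discr R e))
    (c' : ι → E) (hc' : ∀ i, IsIntegral R (c' i)) :
    ∃ t : R, Algebra.discr K c' = algebraMap R K (t ^ 2 * Algebra.discr R e) := by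
  let z : ι → ↥(integralClosure R E) := fun i => ⟨c' i, hc' i⟩
  let m : Matrix ι ι R := fun i j => e.repr (z i) j
  refine ⟨m.det, ?_⟩
  have hc'eq : c' = Matrix.mulVec ((m.map (algebraMap R K)).map (algebraMap K E)) eK := by
    funext i
    have h1 : z i = ∑ j, m i j • e j := (e.sum_repr (z i)).symm
    have h2 : c' i = ∑ j, algebraMap R E (m i j) * ((e j : ↥(integralClosure R E)) : E) := by
      have := congrArg (fun w : ↥(integralClosure R E) => (w : E)) h1
      simpa [Algebra.smul_def] using this
    rw [h2]
    simp [Matrix.mulVec, dotProduct, heK, IsScalarTower.algebraMap_apply R K E]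
  have hdet : (m.map (algebraMap R K)).det = algebraMap R K m.det := by
    rw [RingHom.map_det, RingHom.mapMatrix_apply]
  rw [hc'eq, Algebra.discr_of_matrix_mulVec, hd, hdet, map_mul, map_pow]

end

/-- (E) If the integral closure of the UFD `R` in `E` has an `R`-basis `e` and `E / K` is unramified
at every prime element of `R`, then the discriminant of `e` is a unit of `R`. -/
theorem pua_disc_main : pua_DiscStatement := by
  intro R K E _ _ _ _ _ _ _ _ _ _ _ _ ι _ _ e hunr
  obtain ⟨eK, heK, hdK⟩ := pua_disc_exists_basis (K := K) e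
  have hsep : Algebra.IsSeparable K E := inferInstance
  have hd0 : Algebra.discr R e ≠ 0 := by
    intro h0
    apply Algebra.discr_not_zero_of_basis K eK
    rw [hdK, h0, map_zero]
  by_contra hnu
  obtain ⟨p, hpirr, hpd⟩ := WfDvdMonoid.exists_irreducible_factor hnu hd0
  have hp : Prime p := UniqueFactorizationMonoid.irreducible_iff_prime.mp hpirr
  obtain ⟨r, c, hli, hsp, hint, a, s, ha, hs, hdisc⟩ := hunr p hp
  let cb : Module.Basis (Fin r) K E := Module.Basis.mk hli (by rw [hsp])
  have hcb : ⇑cb = c := Module.Basis.coe_mk hli _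
  let φ : ι ≃ Fin r := eK.indexEquiv cb
  choose σ hσp hσint using hint
  obtain ⟨t, ht⟩ := pua_disc_discr_of_integral e eK heK hdK
    (fun i => algebraMap R E (σ (φ i)) * c (φ i)) (fun i => hσint (φ i))
  have h2 : Algebra.discr K (fun i => algebraMap R E (σ (φ i)) * c (φ i)) =
      (∏ i, algebraMap R K (σ (φ i))) ^ 2 * Algebra.discr K c := by
    have h3 := pua_disc_discr_scale (E := E) (fun i => algebraMap R K (σ (φ i))) (c ∘ φ)
    have h4 : Algebra.discr K (c ∘ φ) = Algebra.discr K c := by
      have h5 := Algebra.discr_reindex (A := K) cb φ.symm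
      rw [Equiv.symm_symm, hcb] at h5
      exact h5
    rw [h4] at h3
    rw [← h3]
    congr 1
    funext i
    rw [IsScalarTower.algebraMap_apply R K E]
    rfl
  have hdiscK : algebraMap R K s * Algebra.discr K c = algebraMap R K a := by
    apply (algebraMap K E).injective
    rw [map_mul, ← IsScalarTower.algebraMap_apply, ← IsScalarTower.algebraMap_apply]
    exact hdisc
  have key : s * (t ^ 2 * Algebra.discr R e) = (∏ i, σ (φ i)) ^ 2 * a := by
    apply IsFractionRing.injective R K
    rw [map_mul, ← ht, h2, map_mul, map_pow, map_prod, ← hdiscK]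
    ring
  have hdvd : p ∣ (∏ i, σ (φ i)) ^ 2 * a := by
    rw [← key]
    exact Dvd.dvd.mul_left (Dvd.dvd.mul_left hpd _) _
  rcases hp.dvd_or_dvd hdvd with h | h
  · have h' := hp.dvd_of_dvd_pow h
    obtain ⟨i, _, hi⟩ := (Prime.dvd_finsetProd_iff hp _).mp h'
    exact hσp _ hi
  · exact ha h

end Fermat.Agent.S18
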