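/-
S18 — block P (purity, twin A), package PUA/Free.

A finite module `S` over a noetherian local ring `R` with maximal ideal `(ϖ, x)` such that `ϖ, x` is an
`S`-regular sequence is free.  Proof: Mathlib's criterion "`𝔪 ⊗ S → S` injective implies free"
(`Module.free_of_maximalIdeal_rTensor_injective`).
-/
import Fermat.Agent.S18.PUAInterfaces

set_option autoImplicit false

namespace Fermat.Agent.S18

open scoped TensorProduct

/-- (A) If the ideal `I` is generated by `ϖ, x`, every element of `I ⊗ S` is of the form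
`ϖ ⊗ a + x ⊗ b`. -/
theorem pua_free_tensor_repr {R S : Type} [CommRing R] [AddCommGroup S] [Module R S]
    (I : Ideal R) (ϖ' x' : ↥I) (hI : I = Ideal.span {(ϖ' : R), (x' : R)})
    (t : ↥I ⊗[R] S) : ∃ a b : S, t = ϖ' ⊗ₜ[R] a + x' ⊗ₜ[R] b := by
  induction t using TensorProduct.induction_on with
  | zero => exact ⟨0, 0, by simp⟩
  | tmul m s =>
    have hm : (m : R) ∈ Ideal.span {(ϖ' : R), (x' : R)} := hI ▸ m.2
    obtain ⟨r, r', hr⟩ := Ideal.mem_span_pair.mp hm
    have hm' : m = r • ϖ' + r' • x' := Subtype.ext (by simp [← hr])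
    refine ⟨r • s, r' • s, ?_⟩
    rw [hm', TensorProduct.add_tmul, TensorProduct.smul_tmul, TensorProduct.smul_tmul]
  | add t₁ t₂ h₁ h₂ =>
    obtain ⟨a₁, b₁, rfl⟩ := h₁
    obtain ⟨a₂, b₂, rfl⟩ := h₂
    refine ⟨a₁ + a₂, b₁ + b₂, ?_⟩
    rw [TensorProduct.tmul_add, TensorProduct.tmul_add]
    abel

/-- (B) If `ϖ, x` is an `S`-regular sequence and `ϖ • a + x • b = 0`, then `ϖ ⊗ a + x ⊗ b = 0` in
`I ⊗ S` (for any ideal `I` containing `ϖ, x`). -/
theorem pua_free_tensor_eq_zero {R S : Type} [CommRing R] [AddCommGroup S] [Module R S]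
    (I : Ideal R) (ϖ' x' : ↥I)
    (h1 : ∀ s : S, (ϖ' : R) • s = 0 → s = 0)
    (h2 : ∀ s s' : S, (x' : R) • s = (ϖ' : R) • s' → ∃ t : S, s = (ϖ' : R) • t)
    (a b : S) (hab : (ϖ' : R) • a + (x' : R) • b = 0) :
    ϖ' ⊗ₜ[R] a + x' ⊗ₜ[R] b = (0 : ↥I ⊗[R] S) := by
  have hb : (x' : R) • b = (ϖ' : R) • (-a) := by
    rw [smul_neg]
    exact eq_neg_of_add_eq_zero_right hab
  obtain ⟨t, rfl⟩ := h2 b (-a) hb
  have ha : a = -((x' : R) • t) := by
    have h0 : (ϖ' : R) • (a + (x' : R) • t) = 0 := by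
      rw [smul_add, smul_comm (ϖ' : R) (x' : R) t]
      exact hab
    exact eq_neg_of_add_eq_zero_left (h1 _ h0)
  subst ha
  have hcomm : (x' : R) • ϖ' = (ϖ' : R) • x' := Subtype.ext (by simp [mul_comm])
  rw [TensorProduct.tmul_neg, ← TensorProduct.smul_tmul, ← TensorProduct.smul_tmul, hcomm]
  exact neg_add_cancel _

/-- (D2) A finite module `S` over a noetherian local ring with maximal ideal `(ϖ, x)` such that `ϖ, x` is
an `S`-regular sequence is free. -/
theorem pua_free_main : pua_FreeStatement := by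
  intro R S _ _ _ _ _ _ ϖ x hm h1 h2
  have : Module.FinitePresentation R S := Module.finitePresentation_of_finite R S
  have hϖ : ϖ ∈ IsLocalRing.maximalIdeal R := by
    rw [hm]; exact Ideal.subset_span (by simp)
  have hx : x ∈ IsLocalRing.maximalIdeal R := by
    rw [hm]; exact Ideal.subset_span (by simp)
  apply Module.free_of_maximalIdeal_rTensor_injective
  rw [injective_iff_map_eq_zero]
  intro t ht
  obtain ⟨a, b, rfl⟩ := pua_free_tensor_repr (IsLocalRing.maximalIdeal R) ⟨ϖ, hϖ⟩ ⟨x, hx⟩ hm t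
  apply pua_free_tensor_eq_zero (IsLocalRing.maximalIdeal R) ⟨ϖ, hϖ⟩ ⟨x, hx⟩ h1 h2 a b
  have := congrArg (TensorProduct.lid R S) ht
  simpa using this

end Fermat.Agent.S18
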