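/-
S18 — block P (purity, twin A), package PUA/Loc.

`pua_loc_main : pua_CritStatement → pua_LocStatement`: the localisations at the primes over `𝔪` of a
finite `R`-algebra `S` with `𝔪 S` radical and `x` regular modulo `ϖ` are DVRs modulo `ϖ`.
-/
import Fermat.Agent.S18.PUAInterfaces

set_option autoImplicit false

namespace Fermat.Agent.S18

/-- If `b ^ 2 ∈ I → b ∈ I` for all `b`, then `b ^ (2 ^ k) ∈ I → b ∈ I`. -/
theorem pua_loc_rad_pow_two {S : Type} [CommRing S] (I : Ideal S)
    (hrad : ∀ b : S, b ^ 2 ∈ I → b ∈ I) : ∀ (k : ℕ) (b : S), b ^ (2 ^ k) ∈ I → b ∈ I := by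
  intro k
  induction k with
  | zero => intro b hb; simpa using hb
  | succ k ih =>
    intro b hb
    apply ih
    apply hrad
    rw [← pow_mul, ← pow_succ]
    exact hb

/-- If `b ^ 2 ∈ I → b ∈ I` for all `b`, then `b ^ n ∈ I → b ∈ I`. -/
theorem pua_loc_rad_pow {S : Type} [CommRing S] (I : Ideal S)
    (hrad : ∀ b : S, b ^ 2 ∈ I → b ∈ I) (n : ℕ) (b : S) (hb : b ^ n ∈ I) : b ∈ I := by
  apply pua_loc_rad_pow_two I hrad n
  have hle : n ≤ 2 ^ n := Nat.lt_two_pow_self.le
  obtain ⟨d, hd⟩ := Nat.exists_eq_add_of_le hle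
  rw [hd, pow_add]
  exact I.mul_mem_right _ hb

/-- (b) Key lemma: for `z : S` there is `c` with `z * (1 - z * c) ∈ 𝔪 S`. -/
theorem pua_loc_key (R S : Type) [CommRing R] [IsLocalRing R] [CommRing S] [Algebra R S]
    [Module.Finite R S]
    (hrad : ∀ b : S, b ^ 2 ∈ (IsLocalRing.maximalIdeal R).map (algebraMap R S) →
      b ∈ (IsLocalRing.maximalIdeal R).map (algebraMap R S))
    (z : S) :
    ∃ c : S, z * (1 - z * c) ∈ (IsLocalRing.maximalIdeal R).map (algebraMap R S) := by
  have hfin : Module.Finite (R ⧸ IsLocalRing.maximalIdeal R)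
      (S ⧸ (IsLocalRing.maximalIdeal R).map (algebraMap R S)) :=
    Module.Finite.of_restrictScalars_finite R (R ⧸ IsLocalRing.maximalIdeal R)
      (S ⧸ (IsLocalRing.maximalIdeal R).map (algebraMap R S))
  have hartR : IsArtinianRing (R ⧸ IsLocalRing.maximalIdeal R) :=
    inferInstanceAs (IsArtinianRing (IsLocalRing.ResidueField R))
  have hart : IsArtinianRing (S ⧸ (IsLocalRing.maximalIdeal R).map (algebraMap R S)) :=
    IsArtinianRing.of_finite (R ⧸ IsLocalRing.maximalIdeal R)
      (S ⧸ (IsLocalRing.maximalIdeal R).map (algebraMap R S))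
  obtain ⟨n, y, hy⟩ := IsArtinian.exists_pow_succ_smul_dvd
    (Ideal.Quotient.mk ((IsLocalRing.maximalIdeal R).map (algebraMap R S)) z)
    (1 : S ⧸ (IsLocalRing.maximalIdeal R).map (algebraMap R S))
  obtain ⟨c, rfl⟩ := Ideal.Quotient.mk_surjective y
  refine ⟨c, pua_loc_rad_pow _ hrad (n + 1) _ ?_⟩
  have h1 : z ^ n * (1 - z * c) ∈ (IsLocalRing.maximalIdeal R).map (algebraMap R S) := by
    rw [← Ideal.Quotient.eq_zero_iff_mem]
    simp only [smul_eq_mul, mul_one] at hy
    simp only [map_mul, map_sub, map_pow, map_one]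
    rw [mul_sub, mul_one, ← mul_assoc, ← pow_succ, hy, sub_self]
  have h2 : (z * (1 - z * c)) ^ (n + 1) = z ^ n * (1 - z * c) * (z * (1 - z * c) ^ n) := by
    generalize 1 - z * c = w
    ring
  rw [h2]
  exact Ideal.mul_mem_right _ _ h1

/-- (d), ring part: if `x` is regular modulo `ϖ` then so is `x ^ n`. -/
theorem pua_loc_pow_reg {S : Type} [CommRing S] (p x : S)
    (hreg : ∀ s s' : S, x * s = p * s' → ∃ t : S, s = p * t) :
    ∀ (n : ℕ) (u v : S), x ^ n * u = p * v → ∃ u' : S, u = p * u' := by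
  intro n
  induction n with
  | zero => intro u v h; exact ⟨v, by simpa using h⟩
  | succ n ih =>
    intro u v h
    have h' : x * (x ^ n * u) = p * v := by rw [← h]; ring
    obtain ⟨t, ht⟩ := hreg _ _ h'
    exact ih u t ht

theorem pua_loc_main : pua_CritStatement → pua_LocStatement := by
  intro hCrit R S O _ _ _ _ _ _ _ _ ϖ x hm hrad hreg M _ _ hϖM hxM
  have hloc : IsLocalRing O := IsLocalization.AtPrime.isLocalRing O M
  have hSnoeth : IsNoetherianRing S := isNoetherian_of_tower R inferInstance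
  have hOnoeth : IsNoetherianRing O :=
    IsLocalization.isNoetherianRing M.primeCompl O inferInstance
  have hmS : (IsLocalRing.maximalIdeal R).map (algebraMap R S)
      = Ideal.span {algebraMap R S ϖ, algebraMap R S x} := by
    rw [hm, Ideal.map_span, Set.image_pair]
  -- (c)
  have hc : IsLocalRing.maximalIdeal O
      = Ideal.span {algebraMap S O (algebraMap R S ϖ), algebraMap S O (algebraMap R S x)} := by
    rw [← IsLocalization.AtPrime.map_eq_maximalIdeal M O]
    apply le_antisymm
    · rw [Ideal.map_le_iff_le_comap]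
      intro z hz
      rw [Ideal.mem_comap]
      obtain ⟨c, hc⟩ := pua_loc_key R S hrad z
      have hw : (1 - z * c) ∉ M := by
        intro h
        apply (Ideal.IsPrime.ne_top ‹M.IsPrime›)
        rw [Ideal.eq_top_iff_one]
        have : (1 : S) = (1 - z * c) + z * c := by ring
        rw [this]
        exact M.add_mem h (M.mul_mem_right _ hz)
      rw [hmS, Ideal.mem_span_pair] at hc
      obtain ⟨a, b, hab⟩ := hc
      have hu : IsUnit (algebraMap S O (1 - z * c)) :=
        IsLocalization.map_units O (⟨1 - z * c, hw⟩ : M.primeCompl)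
      obtain ⟨u, hu⟩ := hu
      have h3 : algebraMap S O z = ↑u⁻¹ * (algebraMap S O a * algebraMap S O (algebraMap R S ϖ)
          + algebraMap S O b * algebraMap S O (algebraMap R S x)) := by
        rw [← map_mul, ← map_mul, ← map_add, hab, map_mul, ← hu, ← mul_assoc, mul_comm _ (u : O),
          ← mul_assoc, Units.mul_inv, one_mul]
      rw [h3]
      apply Ideal.mul_mem_left
      rw [Ideal.mem_span_pair]
      exact ⟨_, _, rfl⟩
    · rw [Ideal.span_le]
      intro y hy
      rcases hy with rfl | rfl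
      · exact Ideal.mem_map_of_mem _ hϖM
      · exact Ideal.mem_map_of_mem _ hxM
  -- (d)
  have hd : ∀ n : ℕ, algebraMap S O (algebraMap R S x) ^ n
      ∉ Ideal.span {algebraMap S O (algebraMap R S ϖ)} := by
    intro n hn
    rw [Ideal.mem_span_singleton'] at hn
    obtain ⟨o, ho⟩ := hn
    obtain ⟨⟨b, s⟩, hbs⟩ := IsLocalization.surj M.primeCompl o
    have h4 : algebraMap S O ((s : S) * algebraMap R S x ^ n)
        = algebraMap S O (algebraMap R S ϖ * b) := by
      simp only at hbs
      rw [map_mul, map_mul, map_pow, ← ho, ← hbs]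
      ring
    obtain ⟨t, ht⟩ := (IsLocalization.eq_iff_exists M.primeCompl O).mp h4
    have h5 : algebraMap R S x ^ n * ((t : S) * (s : S)) = algebraMap R S ϖ * ((t : S) * b) := by
      linear_combination ht
    obtain ⟨u', hu'⟩ := pua_loc_pow_reg (algebraMap R S ϖ) (algebraMap R S x) hreg n _ _ h5
    have h6 : (t : S) * (s : S) ∈ M := by
      rw [hu']
      exact M.mul_mem_right _ hϖM
    rcases (Ideal.IsPrime.mem_or_mem ‹M.IsPrime› h6) with h | h
    · exact t.2 h
    · exact s.2 h
  exact hCrit O _ _ hc hd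

end Fermat.Agent.S18
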