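/-
S18 — block P (purity, twin A), package PUA/Red (twin T): a finite free algebra with unit discriminant
over a local ring is reduced modulo the maximal ideal (`pua_RedStatement`).

Proof: in coordinates with respect to the basis `e`, membership in `𝔪 S` means that all coordinates
lie in `𝔪`.  If `c ^ 2 ∈ 𝔪 S`, the matrix of multiplication by `c` is nilpotent modulo `𝔪`, hence its
trace lies in `𝔪`.  Applied to `c = b * e j` this shows that `β G` has entries in `𝔪`, where `β` is the
coordinate vector of `b` and `G` the trace matrix; as `det G` is a unit, `β` has entries in `𝔪`.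
-/
import Fermat.Agent.S18.PUAInterfaces

set_option autoImplicit false

namespace Fermat.Agent.S18

/-- (1) Coordinates with respect to a basis `e` of the `R`-algebra `S`: an element of `S` lies in the
extended ideal `I S` iff all its coordinates lie in `I`. -/
theorem pua_redT_mem_map_iff {R S : Type} [CommRing R] [CommRing S] [Algebra R S] {ι : Type}
    (e : Module.Basis ι R S) (I : Ideal R) (s : S) :
    s ∈ I.map (algebraMap R S) ↔ ∀ i, e.repr s i ∈ I := by
  have h1 : s ∈ I.map (algebraMap R S) ↔ s ∈ I • (⊤ : Submodule R S) := by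
    rw [Ideal.smul_top_eq_map]; rfl
  rw [h1, ← e.span_eq, Submodule.mem_ideal_smul_span_iff_exists_sum]
  constructor
  · rintro ⟨a, ha, rfl⟩ i
    have h2 : e.repr (a.sum fun i c => c • e i) = a := e.repr_linearCombination a
    rw [h2]
    exact ha i
  · intro h
    exact ⟨e.repr s, h, e.linearCombination_repr s⟩

/-- (2) If `c ^ 2 ∈ 𝔪 S` then the trace of `c` lies in `𝔪`. -/
theorem pua_redT_trace_mem {R S : Type} [CommRing R] [IsLocalRing R] [CommRing S] [Algebra R S]
    {ι : Type} [Fintype ι] [DecidableEq ι] (e : Module.Basis ι R S) (c : S)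
    (hc : c ^ 2 ∈ (IsLocalRing.maximalIdeal R).map (algebraMap R S)) :
    Algebra.trace R S c ∈ IsLocalRing.maximalIdeal R := by
  have hN2 : ∀ i j, ((Algebra.leftMulMatrix e c) ^ 2) i j ∈ IsLocalRing.maximalIdeal R := by
    intro i j
    have h : (Algebra.leftMulMatrix e c) ^ 2 = Algebra.leftMulMatrix e (c ^ 2) :=
      (map_pow _ _ _).symm
    rw [h, Algebra.leftMulMatrix_eq_repr_mul]
    exact (pua_redT_mem_map_iff e _ _).1 (Ideal.mul_mem_right _ _ hc) i
  have hNbar : ((Algebra.leftMulMatrix e c).map
      (Ideal.Quotient.mk (IsLocalRing.maximalIdeal R))) ^ 2 = 0 := by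
    have h : ((Algebra.leftMulMatrix e c).map
        (Ideal.Quotient.mk (IsLocalRing.maximalIdeal R))) ^ 2
        = ((Algebra.leftMulMatrix e c) ^ 2).map
          (Ideal.Quotient.mk (IsLocalRing.maximalIdeal R)) := by
      rw [← RingHom.mapMatrix_apply, ← RingHom.mapMatrix_apply, map_pow]
    rw [h]
    ext i j
    simp only [Matrix.map_apply, Matrix.zero_apply]
    exact Ideal.Quotient.eq_zero_iff_mem.2 (hN2 i j)
  have hnil : IsNilpotent ((Algebra.leftMulMatrix e c).map
      (Ideal.Quotient.mk (IsLocalRing.maximalIdeal R))) := ⟨2, hNbar⟩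
  have h0 : Matrix.trace ((Algebra.leftMulMatrix e c).map
      (Ideal.Quotient.mk (IsLocalRing.maximalIdeal R))) = 0 :=
    (Matrix.isNilpotent_trace_of_isNilpotent hnil).eq_zero
  have h1 : Matrix.trace ((Algebra.leftMulMatrix e c).map
      (Ideal.Quotient.mk (IsLocalRing.maximalIdeal R)))
      = Ideal.Quotient.mk (IsLocalRing.maximalIdeal R)
        (Matrix.trace (Algebra.leftMulMatrix e c)) := by
    simp [Matrix.trace, map_sum]
  rw [Algebra.trace_eq_matrix_trace e c, ← Ideal.Quotient.eq_zero_iff_mem, ← h1, h0]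

/-- (F) A finite free algebra `S` with unit discriminant over a local ring `R` is reduced modulo the
maximal ideal of `R`. -/
theorem pua_redT_main : pua_RedStatement := by
  intro R S _ _ _ _ ι _ _ e hdisc b hb
  -- (3) the traces `τ j = Tr (b * e j)` lie in `𝔪`
  have hτ : ∀ j, Algebra.trace R S (b * e j) ∈ IsLocalRing.maximalIdeal R := by
    intro j
    apply pua_redT_trace_mem e
    rw [mul_pow]
    exact Ideal.mul_mem_right _ _ hb
  have hG : IsUnit (Algebra.traceMatrix R e).det := hdisc
  -- `τ = β G` (row vector times matrix)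
  have hτ' : (fun j => Algebra.trace R S (b * e j))
      = Matrix.vecMul (fun i => e.repr b i) (Algebra.traceMatrix R e) := by
    funext j
    conv_lhs => rw [← e.sum_repr b]
    rw [Finset.sum_mul, map_sum]
    simp only [Matrix.vecMul, dotProduct]
    refine Finset.sum_congr rfl fun i _ => ?_
    rw [smul_mul_assoc, map_smul, smul_eq_mul, Algebra.traceMatrix_apply, Algebra.traceForm_apply]
  -- (4) `β = τ G⁻¹`
  have hβ : (fun i => e.repr b i)
      = Matrix.vecMul (fun j => Algebra.trace R S (b * e j)) (Algebra.traceMatrix R e)⁻¹ := by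
    rw [hτ', Matrix.vecMul_vecMul, Matrix.mul_nonsing_inv _ hG, Matrix.vecMul_one]
  rw [pua_redT_mem_map_iff e]
  intro i
  have hi := congrFun hβ i
  simp only [Matrix.vecMul, dotProduct] at hi
  rw [hi]
  exact Ideal.sum_mem _ fun j _ => Ideal.mul_mem_right _ _ (hτ j)

end Fermat.Agent.S18
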