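/-
S18 — block P (purity, twin A), package PUA/Trans: translation to `R = locSub Λ 𝔫`.

`R = locSub Λ 𝔫` is a noetherian local domain inside `K₁` with fraction field `K₁`, maximal ideal
`(ϖ, x)`, `ϖ` prime, `ϖ ∤ x`, and unramifiedness (discriminant form) passes from the nonzero primes
`𝔭 < 𝔫` of `Λ` to the prime elements of `R`.  Prefix `pua_trans_`.
-/
import Fermat.Agent.S18.PUAInterfaces

set_option autoImplicit false

namespace Fermat.Agent.S18

section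

variable {E : Type} [Field E] (Λ : Subring E) (P : Ideal ↥Λ) [P.IsPrime]

omit [P.IsPrime] in
/-- An element outside the ideal `P` is nonzero in `E`. -/
theorem pua_trans_coe_ne_zero {s : ↥Λ} (hs : s ∉ P) : (s : E) ≠ 0 := by
  intro h0
  apply hs
  have : s = 0 := Subtype.ext h0
  rw [this]; exact P.zero_mem

/-- (1) `locSub Λ P` is a local ring. -/
theorem pua_trans_isLocalRing : IsLocalRing ↥(locSub Λ P) := by
  let _ : Algebra ↥Λ ↥(locSub Λ P) := (Subring.inclusion (le_locSub Λ P)).toAlgebra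
  have : IsLocalization.AtPrime ↥(locSub Λ P) P := pua_locSub_isLocalization Λ P
  exact IsLocalization.AtPrime.isLocalRing ↥(locSub Λ P) P

/-- (1) `locSub Λ P` is noetherian if `Λ` is. -/
theorem pua_trans_isNoetherianRing [IsNoetherianRing ↥Λ] : IsNoetherianRing ↥(locSub Λ P) := by
  let _ : Algebra ↥Λ ↥(locSub Λ P) := (Subring.inclusion (le_locSub Λ P)).toAlgebra
  have : IsLocalization.AtPrime ↥(locSub Λ P) P := pua_locSub_isLocalization Λ P
  exact IsLocalization.isNoetherianRing P.primeCompl ↥(locSub Λ P) inferInstance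

/-- The image in `locSub Λ P` of an element outside `P` is a unit. -/
theorem pua_trans_isUnit {s : ↥Λ} (hs : s ∉ P) :
    IsUnit (Subring.inclusion (le_locSub Λ P) s) := by
  have hs0 : (s : E) ≠ 0 := pua_trans_coe_ne_zero Λ P hs
  have hinv : (s : E)⁻¹ ∈ locSub Λ P := ⟨1, s, hs, by simp [hs0]⟩
  refine IsUnit.of_mul_eq_one (⟨(s : E)⁻¹, hinv⟩ : ↥(locSub Λ P)) ?_
  apply Subtype.ext
  show (s : E) * (s : E)⁻¹ = 1
  exact mul_inv_cancel₀ hs0

/-- (2) `locSub Λ P ⊆ K₁` if `Λ ⊆ K₁`. -/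
theorem pua_trans_le (K₁ : Subfield E) (hΛK : Λ ≤ K₁.toSubring) :
    locSub Λ P ≤ K₁.toSubring := by
  rintro z ⟨a, s, hs, h⟩
  have hs0 : (s : E) ≠ 0 := pua_trans_coe_ne_zero Λ P hs
  have hz : z = (a : E) * (s : E)⁻¹ := by
    rw [← h]; field_simp
  rw [hz]
  exact K₁.mul_mem (hΛK a.2) (K₁.inv_mem (hΛK s.2))

/-- (3) The maximal ideal of `locSub Λ P` is generated by the images of generators of `P`. -/
theorem pua_trans_maximalIdeal (ϖ x : ↥Λ) (hP : P = Ideal.span {ϖ, x}) :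
    @IsLocalRing.maximalIdeal ↥(locSub Λ P) _ (pua_trans_isLocalRing Λ P) =
      Ideal.span {Subring.inclusion (le_locSub Λ P) ϖ, Subring.inclusion (le_locSub Λ P) x} := by
  let _ : Algebra ↥Λ ↥(locSub Λ P) := (Subring.inclusion (le_locSub Λ P)).toAlgebra
  have : IsLocalization.AtPrime ↥(locSub Λ P) P := pua_locSub_isLocalization Λ P
  have hloc : IsLocalRing ↥(locSub Λ P) := pua_trans_isLocalRing Λ P
  have h1 : P.map (algebraMap ↥Λ ↥(locSub Λ P)) = IsLocalRing.maximalIdeal ↥(locSub Λ P) :=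
    IsLocalization.AtPrime.map_eq_maximalIdeal P ↥(locSub Λ P)
  have h2 : P.map (algebraMap ↥Λ ↥(locSub Λ P)) =
      (Ideal.span {ϖ, x}).map (algebraMap ↥Λ ↥(locSub Λ P)) :=
    congrArg (Ideal.map (algebraMap ↥Λ ↥(locSub Λ P))) hP
  rw [← h1, h2, Ideal.map_span, Set.image_pair]
  rfl

/-- Divisibility by the image of `ϖ` in `locSub Λ P`. -/
theorem pua_trans_dvd_iff (ϖ : ↥Λ) (z : ↥(locSub Λ P)) :
    Subring.inclusion (le_locSub Λ P) ϖ ∣ z ↔
      ∃ a s : ↥Λ, a ∈ (Ideal.span {ϖ} : Ideal ↥Λ) ∧ s ∉ P ∧ (z : E) * (s : E) = (a : E) := by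
  constructor
  · rintro ⟨w, rfl⟩
    obtain ⟨a, s, hs, h⟩ := w.2
    refine ⟨ϖ * a, s, Ideal.mul_mem_right _ _ (Ideal.mem_span_singleton_self ϖ), hs, ?_⟩
    push_cast
    rw [← h]
    show (ϖ : E) * (w : E) * (s : E) = (ϖ : E) * ((w : E) * (s : E))
    ring
  · rintro ⟨a, s, ha, hs, h⟩
    obtain ⟨b, rfl⟩ := Ideal.mem_span_singleton.1 ha
    have hs0 : (s : E) ≠ 0 := pua_trans_coe_ne_zero Λ P hs
    have hmem : (b : E) * (s : E)⁻¹ ∈ locSub Λ P := ⟨b, s, hs, by field_simp⟩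
    refine ⟨⟨(b : E) * (s : E)⁻¹, hmem⟩, ?_⟩
    apply Subtype.ext
    show (z : E) = (ϖ : E) * ((b : E) * (s : E)⁻¹)
    have h' : (z : E) * (s : E) = (ϖ : E) * (b : E) := by
      rw [h]; push_cast; ring
    field_simp
    exact h'

/-- (4) The image of `ϖ` is a prime element of `locSub Λ P`. -/
theorem pua_trans_prime (ϖ : ↥Λ) (hϖ0 : ϖ ≠ 0) (hϖ : (Ideal.span {ϖ} : Ideal ↥Λ).IsPrime)
    (hle : (Ideal.span {ϖ} : Ideal ↥Λ) ≤ P) :
    Prime (Subring.inclusion (le_locSub Λ P) ϖ) := by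
  refine ⟨?_, ?_, ?_⟩
  · intro h0
    apply hϖ0
    apply Subtype.ext
    have := congrArg (fun t : ↥(locSub Λ P) => (t : E)) h0
    simpa using this
  · intro hu
    have h1 : Subring.inclusion (le_locSub Λ P) ϖ ∣ 1 := hu.dvd
    obtain ⟨a, s, ha, hs, h⟩ := (pua_trans_dvd_iff Λ P ϖ 1).1 h1
    apply hs
    have : s = a := by
      apply Subtype.ext
      rw [← h]; simp
    rw [this]
    exact hle ha
  · intro u v huv
    obtain ⟨a, s, ha, hs, h⟩ := (pua_trans_dvd_iff Λ P ϖ (u * v)).1 huv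
    obtain ⟨a₁, s₁, hs₁, h₁⟩ := u.2
    obtain ⟨a₂, s₂, hs₂, h₂⟩ := v.2
    have hmul : a₁ * a₂ * s = a * s₁ * s₂ := by
      apply Subtype.ext
      push_cast
      rw [← h₁, ← h₂, ← h]
      push_cast
      ring
    have hmem : a₁ * a₂ * s ∈ (Ideal.span {ϖ} : Ideal ↥Λ) := by
      rw [hmul]
      exact Ideal.mul_mem_right _ _ (Ideal.mul_mem_right _ _ ha)
    have hs' : s ∉ (Ideal.span {ϖ} : Ideal ↥Λ) := fun hmem' => hs (hle hmem')
    rcases hϖ.mem_or_mem hmem with h12 | h3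
    · rcases hϖ.mem_or_mem h12 with h1 | h2
      · left
        exact (pua_trans_dvd_iff Λ P ϖ u).2 ⟨a₁, s₁, h1, hs₁, h₁⟩
      · right
        exact (pua_trans_dvd_iff Λ P ϖ v).2 ⟨a₂, s₂, h2, hs₂, h₂⟩
    · exact absurd h3 hs'

/-- (5) The image of `ϖ` does not divide the image of `x ∉ (ϖ)`. -/
theorem pua_trans_not_dvd (ϖ x : ↥Λ) (hϖ : (Ideal.span {ϖ} : Ideal ↥Λ).IsPrime)
    (hle : (Ideal.span {ϖ} : Ideal ↥Λ) ≤ P) (hx : x ∉ (Ideal.span {ϖ} : Ideal ↥Λ)) :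
    ¬ Subring.inclusion (le_locSub Λ P) ϖ ∣ Subring.inclusion (le_locSub Λ P) x := by
  intro hdvd
  obtain ⟨a, s, ha, hs, h⟩ := (pua_trans_dvd_iff Λ P ϖ _).1 hdvd
  have hxs : x * s = a := by
    apply Subtype.ext
    push_cast
    rw [← h]
    rfl
  have hmem : x * s ∈ (Ideal.span {ϖ} : Ideal ↥Λ) := by rw [hxs]; exact ha
  rcases hϖ.mem_or_mem hmem with h1 | h2
  · exact hx h1
  · exact hs (hle h2)

/-- (6) `K₁` is the fraction field of `locSub Λ P`. -/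
theorem pua_trans_isFractionRing (K₁ : Subfield E)
    (hfrac : ∀ x ∈ K₁, ∃ a ∈ Λ, ∃ b ∈ Λ, b ≠ 0 ∧ x * b = a)
    (hRK : locSub Λ P ≤ K₁.toSubring) :
    letI := (Subring.inclusion hRK).toAlgebra
    IsFractionRing ↥(locSub Λ P) ↥K₁ := by
  let _ := (Subring.inclusion hRK).toAlgebra
  have hmap : ∀ r : ↥(locSub Λ P), ((algebraMap ↥(locSub Λ P) ↥K₁ r : ↥K₁) : E) = (r : E) :=
    fun _ => rfl
  have hinj : Function.Injective (algebraMap ↥(locSub Λ P) ↥K₁) := by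
    intro r r' h
    apply Subtype.ext
    rw [← hmap r, ← hmap r', h]
  have : FaithfulSMul ↥(locSub Λ P) ↥K₁ := (faithfulSMul_iff_algebraMap_injective _ _).2 hinj
  refine IsFractionRing.of_field (R := ↥(locSub Λ P)) (K := ↥K₁) ?_
  intro z
  obtain ⟨a, ha, b, hb, hb0, h⟩ := hfrac (z : E) z.2
  refine ⟨⟨a, le_locSub Λ P ha⟩, ⟨b, le_locSub Λ P hb⟩, ?_⟩
  apply Subtype.ext
  push_cast
  rw [hmap, hmap]
  show (z : E) = a / b
  rw [eq_div_iff hb0]
  exact h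

/-- (7) Unramifiedness passes from the primes of `Λ` below `P = (ϖ, x)` to the prime elements of
`locSub Λ P`. -/
theorem pua_trans_unram (K₁ : Subfield E) (ϖ x : ↥Λ) (hϖ0 : ϖ ≠ 0)
    (hϖ : (Ideal.span {ϖ} : Ideal ↥Λ).IsPrime) (hx : x ∉ (Ideal.span {ϖ} : Ideal ↥Λ))
    (hP : P = Ideal.span {ϖ, x})
    (hun : ∀ 𝔭 : Ideal ↥Λ, 𝔭.IsPrime → 𝔭 ≠ ⊥ → 𝔭 < P → UnramAtPrime Λ K₁ 𝔭)
    (p : ↥(locSub Λ P)) (hp : Prime p) :
    pua_UnramAt ↥(locSub Λ P) ↥K₁ E p := by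
  have hϖP : ϖ ∈ P := by
    rw [hP]; exact Ideal.subset_span (Set.mem_insert _ _)
  have hxP : x ∈ P := by
    rw [hP]; exact Ideal.subset_span (Set.mem_insert_of_mem _ rfl)
  have hle : (Ideal.span {ϖ} : Ideal ↥Λ) ≤ P := by
    rw [Ideal.span_singleton_le_iff_mem]; exact hϖP
  have hprime : Prime (Subring.inclusion (le_locSub Λ P) ϖ) := pua_trans_prime Λ P ϖ hϖ0 hϖ hle
  have hndvd := pua_trans_not_dvd Λ P ϖ x hϖ hle hx
  -- the prime `𝔭 = (p) ∩ Λ`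
  have hmem : ∀ t : ↥Λ, t ∈ Ideal.comap (Subring.inclusion (le_locSub Λ P)) (Ideal.span {p}) ↔
      p ∣ Subring.inclusion (le_locSub Λ P) t := fun t => by
    rw [Ideal.mem_comap, Ideal.mem_span_singleton]
  have h𝔭prime : (Ideal.comap (Subring.inclusion (le_locSub Λ P)) (Ideal.span {p})).IsPrime := by
    have : (Ideal.span {p} : Ideal ↥(locSub Λ P)).IsPrime :=
      (Ideal.span_singleton_prime hp.ne_zero).2 hp
    exact Ideal.comap_isPrime _ _
  have h𝔭bot : Ideal.comap (Subring.inclusion (le_locSub Λ P)) (Ideal.span {p}) ≠ ⊥ := by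
    obtain ⟨a, s, hs, h⟩ := p.2
    have hs0 : (s : E) ≠ 0 := pua_trans_coe_ne_zero Λ P hs
    have hp0 : (p : E) ≠ 0 := by
      intro h0
      exact hp.ne_zero (Subtype.ext h0)
    have ha : a ∈ Ideal.comap (Subring.inclusion (le_locSub Λ P)) (Ideal.span {p}) := by
      rw [hmem]
      refine ⟨Subring.inclusion (le_locSub Λ P) s, ?_⟩
      apply Subtype.ext
      exact h.symm
    intro hbot
    rw [hbot, Ideal.mem_bot] at ha
    have : (a : E) = 0 := by rw [ha]; rfl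
    rw [← h] at this
    exact (mul_ne_zero hp0 hs0) this
  have h𝔭le : Ideal.comap (Subring.inclusion (le_locSub Λ P)) (Ideal.span {p}) ≤ P := by
    intro t ht
    by_contra htP
    rw [hmem] at ht
    exact hp.not_isUnit (isUnit_of_dvd_unit ht (pua_trans_isUnit Λ P htP))
  have h𝔭ne : Ideal.comap (Subring.inclusion (le_locSub Λ P)) (Ideal.span {p}) ≠ P := by
    intro heq
    have h1 : p ∣ Subring.inclusion (le_locSub Λ P) ϖ := by
      rw [← hmem, heq]; exact hϖP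
    have h2 : p ∣ Subring.inclusion (le_locSub Λ P) x := by
      rw [← hmem, heq]; exact hxP
    have h3 : Subring.inclusion (le_locSub Λ P) ϖ ∣ p :=
      hp.irreducible.dvd_symm hprime.irreducible h1
    exact hndvd (h3.trans h2)
  obtain ⟨r, c, hli, hsp, hint, a, s, ha, hs, hdisc⟩ :=
    hun _ h𝔭prime h𝔭bot (lt_of_le_of_ne h𝔭le h𝔭ne)
  let _ : Algebra ↥Λ ↥(locSub Λ P) := (Subring.inclusion (le_locSub Λ P)).toAlgebra
  have : IsScalarTower ↥Λ ↥(locSub Λ P) E := IsScalarTower.of_algebraMap_eq (fun _ => rfl)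
  refine ⟨r, c, hli, hsp, fun i => ?_, Subring.inclusion (le_locSub Λ P) a,
    Subring.inclusion (le_locSub Λ P) s, ?_, ?_, hdisc⟩
  · obtain ⟨si, hsi, hinti⟩ := hint i
    refine ⟨Subring.inclusion (le_locSub Λ P) si, ?_, ?_⟩
    · rw [← hmem]; exact hsi
    · exact IsIntegral.tower_top (A := ↥(locSub Λ P)) hinti
  · rw [← hmem]; exact ha
  · rw [← hmem]; exact hs

end

/-- **PUA/Trans.** -/
theorem pua_trans_main : pua_TransStatement := by
  intro E _ _ Λ K₁ hΛK hfrac hnoeth 𝔫 _ ϖ x hϖ0 hϖ hx h𝔫 hun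
  have hϖP : ϖ ∈ 𝔫 := by
    rw [h𝔫]; exact Ideal.subset_span (Set.mem_insert _ _)
  have hle : (Ideal.span {ϖ} : Ideal ↥Λ) ≤ 𝔫 := by
    rw [Ideal.span_singleton_le_iff_mem]; exact hϖP
  refine ⟨pua_trans_le Λ 𝔫 K₁ hΛK, pua_trans_isLocalRing Λ 𝔫,
    Subring.inclusion (le_locSub Λ 𝔫) ϖ, Subring.inclusion (le_locSub Λ 𝔫) x, rfl, rfl,
    pua_trans_isNoetherianRing Λ 𝔫, pua_trans_prime Λ 𝔫 ϖ hϖ0 hϖ hle,
    pua_trans_not_dvd Λ 𝔫 ϖ x hϖ hle hx, pua_trans_maximalIdeal Λ 𝔫 ϖ x h𝔫,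
    pua_trans_isFractionRing Λ 𝔫 K₁ hfrac _, ?_⟩
  intro p hp
  exact pua_trans_unram Λ 𝔫 K₁ ϖ x hϖ0 hϖ hx h𝔫 hun p hp

end Fermat.Agent.S18
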