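/-
S18 — block P (purity, twin A): MAIN THEOREM of the block.

`pua_main : LocSubStatement → PurityStatement` (P1 + P2: freeness of the integral closure over a
two-dimensional regular local ring and purity of the branch locus in discriminant form), assembled by
`pua_assembly` (PUAAssembly.lean) from the packages
`pua_d1_main` (PUAD1), `pua_free_main` (PUAFree), `pua_disc_main` (PUADisc), `pua_redT_main` (PUARedT),
`pua_loc_main` (PUALoc), `pua_crit_main`, `pua_ufd_main` (PUAUfd), `pua_trans_main` (PUATrans),
`pua_bridgeS_main` (PUABridgeS).
-/
import Fermat.Agent.S18.PUAAssembly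
import Fermat.Agent.S18.PUAD1
import Fermat.Agent.S18.PUAFree
import Fermat.Agent.S18.PUADisc
import Fermat.Agent.S18.PUARedT
import Fermat.Agent.S18.PUALoc
import Fermat.Agent.S18.PUATrans
import Fermat.Agent.S18.PUABridgeS

set_option autoImplicit false

namespace Fermat.Agent.S18

/-- (P1+P2) Purity, given the localisation toolkit statement. -/
theorem pua_main : LocSubStatement → PurityStatement :=
  pua_assembly pua_d1_main pua_free_main pua_disc_main pua_redT_main (pua_loc_main pua_crit_main)
    pua_trans_main pua_bridgeS_main

/-- (P1+P2) Purity, hypothesis-free (the toolkit statement is `locSubB_main`). -/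
theorem pua_main' : PurityStatement :=
  pua_main locSubB_main

end Fermat.Agent.S18
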