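/-
S18, block "Quotient lemma" (twin B), package Choose.

`qb_choose_main : qb_GalStatement → qb_ChooseStatement`:
given a maximal ideal `M₁` of `B` over `n` and an ideal `Q ⊉ M₁`, there is `x ∈ M₁ ∖ Q` lying in no
other maximal ideal of `B` over `n`.

Proof: the Galois group acts transitively on the maximal ideals of `B` over `n` (prime avoidance and
norms), and then prime avoidance once more for `Q` and the finitely many conjugates of `M₁` different
from `M₁`.
-/
import Fermat.Agent.S18.QBInterfaces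

set_option autoImplicit false

namespace Fermat.Agent.S18

noncomputable section

/-- Restriction of `σ ∈ Gal(E / F₀)` to the Galois-stable subring `B`. -/
def qb_choose_res {F₀ E : Type} [Field F₀] [Field E] [Algebra F₀ E] {B : Subring E}
    (hS : qb_Setup F₀ B) (σ : E ≃ₐ[F₀] E) : ↥B →+* ↥B :=
  ((σ : E →+* E).comp B.subtype).codRestrict B (fun b => hS.stab σ b b.2)

theorem qb_choose_res_coe {F₀ E : Type} [Field F₀] [Field E] [Algebra F₀ E] {B : Subring E}
    (hS : qb_Setup F₀ B) (σ : E ≃ₐ[F₀] E) (b : ↥B) :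
    ((qb_choose_res hS σ b : ↥B) : E) = σ (b : E) := rfl

theorem qb_choose_res_one {F₀ E : Type} [Field F₀] [Field E] [Algebra F₀ E] {B : Subring E}
    (hS : qb_Setup F₀ B) (b : ↥B) :
    qb_choose_res hS (1 : E ≃ₐ[F₀] E) b = b :=
  Subtype.ext rfl

theorem qb_choose_res_surjective {F₀ E : Type} [Field F₀] [Field E] [Algebra F₀ E] {B : Subring E}
    (hS : qb_Setup F₀ B) (σ : E ≃ₐ[F₀] E) : Function.Surjective (qb_choose_res hS σ) := by
  intro b
  refine ⟨qb_choose_res hS σ.symm b, ?_⟩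
  apply Subtype.ext
  rw [qb_choose_res_coe, qb_choose_res_coe]
  exact σ.apply_symm_apply (b : E)

theorem qb_choose_res_incl {F₀ E : Type} [Field F₀] [Field E] [Algebra F₀ E] {B : Subring E}
    (hS : qb_Setup F₀ B) (σ : E ≃ₐ[F₀] E) (c : ↥(qb_C F₀ B)) :
    qb_choose_res hS σ (qb_incl F₀ B c) = qb_incl F₀ B c := by
  apply Subtype.ext
  rw [qb_choose_res_coe, qb_incl_coe]
  exact σ.commutes (c : F₀)

/-- The conjugate `M^σ = {b | σ b ∈ M}` of an ideal `M` of `B`. -/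
def qb_choose_conj {F₀ E : Type} [Field F₀] [Field E] [Algebra F₀ E] {B : Subring E}
    (hS : qb_Setup F₀ B) (M : Ideal ↥B) (σ : E ≃ₐ[F₀] E) : Ideal ↥B :=
  M.comap (qb_choose_res hS σ)

theorem qb_choose_mem_conj {F₀ E : Type} [Field F₀] [Field E] [Algebra F₀ E] {B : Subring E}
    (hS : qb_Setup F₀ B) (M : Ideal ↥B) (σ : E ≃ₐ[F₀] E) (b : ↥B) :
    b ∈ qb_choose_conj hS M σ ↔ qb_choose_res hS σ b ∈ M := Iff.rfl

theorem qb_choose_conj_isMaximal {F₀ E : Type} [Field F₀] [Field E] [Algebra F₀ E] {B : Subring E}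
    (hS : qb_Setup F₀ B) (M : Ideal ↥B) [M.IsMaximal] (σ : E ≃ₐ[F₀] E) :
    (qb_choose_conj hS M σ).IsMaximal :=
  Ideal.comap_isMaximal_of_surjective (qb_choose_res hS σ) (qb_choose_res_surjective hS σ)

theorem qb_choose_conj_over {F₀ E : Type} [Field F₀] [Field E] [Algebra F₀ E] {B : Subring E}
    (hS : qb_Setup F₀ B) (n : Ideal ↥(qb_C F₀ B)) (M : Ideal ↥B) (hM : qb_Over F₀ B n M)
    (σ : E ≃ₐ[F₀] E) : qb_Over F₀ B n (qb_choose_conj hS M σ) := by
  intro c hc
  rw [qb_choose_mem_conj, qb_choose_res_incl]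
  exact hM c hc

/-- A proper ideal `M` of `B` over the maximal ideal `n` of `C` satisfies `M ∩ C ⊆ n`. -/
theorem qb_choose_mem_of_incl_mem {F₀ E : Type} [Field F₀] [Field E] [Algebra F₀ E] {B : Subring E}
    (n : Ideal ↥(qb_C F₀ B)) [hn : n.IsMaximal] (M : Ideal ↥B) (hM : M ≠ ⊤)
    (hO : qb_Over F₀ B n M) (c : ↥(qb_C F₀ B)) (hc : qb_incl F₀ B c ∈ M) : c ∈ n := by
  have hle : n ≤ M.comap (qb_incl F₀ B) := fun c hc => hO c hc
  have hne : M.comap (qb_incl F₀ B) ≠ ⊤ := by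
    intro h
    apply hM
    rw [Ideal.eq_top_iff_one] at h ⊢
    rw [Ideal.mem_comap, map_one] at h
    exact h
  rw [hn.eq_of_le hne hle]
  exact hc

/-- Transitivity of the Galois action on the maximal ideals of `B` over `n`. -/
theorem qb_choose_trans (hG : qb_GalStatement) {F₀ E : Type} [Field F₀] [Field E] [CharZero F₀]
    [Algebra F₀ E] [FiniteDimensional F₀ E] [IsGalois F₀ E] {B : Subring E} (hS : qb_Setup F₀ B)
    (n : Ideal ↥(qb_C F₀ B)) [n.IsMaximal] (M₁ : Ideal ↥B) [M₁.IsMaximal]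
    (hM₁ : qb_Over F₀ B n M₁) (M : Ideal ↥B) (hM : M.IsMaximal) (hO : qb_Over F₀ B n M) :
    ∃ σ : E ≃ₐ[F₀] E, M = qb_choose_conj hS M₁ σ := by
  classical
  by_contra hcon
  have hnot : ¬ ((M : Set ↥B) ⊆ ⋃ σ ∈ ((Finset.univ : Finset (E ≃ₐ[F₀] E)) : Set (E ≃ₐ[F₀] E)),
      (qb_choose_conj hS M₁ σ : Set ↥B)) := by
    intro hsub
    rw [Ideal.subset_union_prime (1 : E ≃ₐ[F₀] E) 1
      (fun σ _ _ _ => (qb_choose_conj_isMaximal hS M₁ σ).isPrime)] at hsub
    obtain ⟨σ, -, hle⟩ := hsub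
    exact hcon ⟨σ, hM.eq_of_le (qb_choose_conj_isMaximal hS M₁ σ).ne_top hle⟩
  rw [Set.not_subset] at hnot
  obtain ⟨b, hbM, hb⟩ := hnot
  have hb' : ∀ σ : E ≃ₐ[F₀] E, qb_choose_res hS σ b ∉ M₁ := by
    intro σ hσ
    apply hb
    refine Set.mem_biUnion (Finset.mem_coe.2 (Finset.mem_univ σ)) ?_
    exact hσ
  obtain ⟨c, hc⟩ := (hG F₀ E B hS).1 b
  have hN : qb_incl F₀ B c = ∏ σ : E ≃ₐ[F₀] E, qb_choose_res hS σ b := by
    apply Subtype.ext
    rw [qb_incl_coe, hc]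
    exact (map_prod B.subtype (fun σ : E ≃ₐ[F₀] E => qb_choose_res hS σ b) Finset.univ).symm
  have h1 : qb_incl F₀ B c ∉ M₁ := by
    rw [hN]
    intro h
    obtain ⟨σ, -, hσ⟩ := Ideal.IsPrime.prod_mem_iff.1 h
    exact hb' σ hσ
  have h2 : qb_incl F₀ B c ∈ M := by
    rw [hN, ← Finset.mul_prod_erase Finset.univ _ (Finset.mem_univ (1 : E ≃ₐ[F₀] E)),
      qb_choose_res_one]
    exact Ideal.mul_mem_right _ _ hbM
  exact h1 (hM₁ c (qb_choose_mem_of_incl_mem n M hM.ne_top hO c h2))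

/-- (Choose) Given a maximal ideal `M₁` of `B` over `n` and an ideal `Q ⊉ M₁`, there is `x ∈ M₁ ∖ Q`
lying in no other maximal ideal of `B` over `n`. -/
theorem qb_choose_main : qb_GalStatement → qb_ChooseStatement := by
  intro hG F₀ E _ _ _ _ _ _ B hS n _ M₁ _ hM₁ Q hQ
  classical
  -- the family of ideals to avoid
  let f : Option (E ≃ₐ[F₀] E) → Ideal ↥B := fun o =>
    match o with
    | none => Q
    | some σ => qb_choose_conj hS M₁ σ
  let s : Finset (Option (E ≃ₐ[F₀] E)) :=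
    insert none (((Finset.univ : Finset (E ≃ₐ[F₀] E)).filter
      (fun σ => qb_choose_conj hS M₁ σ ≠ M₁)).image some)
  have hnot : ¬ ((M₁ : Set ↥B) ⊆ ⋃ i ∈ (s : Set (Option (E ≃ₐ[F₀] E))), (f i : Set ↥B)) := by
    intro hsub
    have hp : ∀ i ∈ s, i ≠ none → i ≠ none → (f i).IsPrime := by
      intro i _ hi _
      cases i with
      | none => exact absurd rfl hi
      | some σ => exact (qb_choose_conj_isMaximal hS M₁ σ).isPrime
    rw [Ideal.subset_union_prime (none : Option (E ≃ₐ[F₀] E)) none hp] at hsub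
    obtain ⟨i, hi, hle⟩ := hsub
    cases i with
    | none => exact hQ hle
    | some σ =>
      have hmem : σ ∈ (Finset.univ : Finset (E ≃ₐ[F₀] E)).filter
          (fun σ => qb_choose_conj hS M₁ σ ≠ M₁) := by
        rcases Finset.mem_insert.1 hi with h | h
        · exact absurd h (Option.some_ne_none σ)
        · obtain ⟨τ, hτ, hτσ⟩ := Finset.mem_image.1 h
          rw [← Option.some.inj hτσ]
          exact hτ
      have hne : qb_choose_conj hS M₁ σ ≠ M₁ := (Finset.mem_filter.1 hmem).2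
      have hmax : M₁.IsMaximal := inferInstance
      exact hne (hmax.eq_of_le (qb_choose_conj_isMaximal hS M₁ σ).ne_top hle).symm
  rw [Set.not_subset] at hnot
  obtain ⟨x, hxM₁, hx⟩ := hnot
  have hxQ : x ∉ Q := by
    intro h
    apply hx
    exact Set.mem_biUnion (x := (none : Option (E ≃ₐ[F₀] E)))
      (Finset.mem_coe.2 (Finset.mem_insert_self _ _)) h
  have hxσ : ∀ σ : E ≃ₐ[F₀] E, qb_choose_conj hS M₁ σ ≠ M₁ → x ∉ qb_choose_conj hS M₁ σ := by
    intro σ hσ h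
    apply hx
    refine Set.mem_biUnion (x := (some σ : Option (E ≃ₐ[F₀] E))) ?_ h
    exact Finset.mem_coe.2 (Finset.mem_insert_of_mem
      (Finset.mem_image_of_mem some (Finset.mem_filter.2 ⟨Finset.mem_univ σ, hσ⟩)))
  refine ⟨x, hxM₁, hxQ, ?_⟩
  intro M hM hO hxM
  obtain ⟨σ, rfl⟩ := qb_choose_trans hG hS n M₁ hM₁ M hM hO
  by_contra hne
  exact hxσ σ hne hxM

end

end Fermat.Agent.S18
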