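/-
S18, block "Quotient lemma" (P3), twin B — INTERNAL INTERFACE FILE (sub-lead helper387).

Goal of the block: `qb_main : LocSubStatement → QuotientStatement` (file `QBMain.lean`).

Setting.  `E / F₀` finite Galois (characteristic 0), `G = E ≃ₐ[F₀] E`, `B ⊆ E` a subring, integrally
closed in `E`, with fraction field `E`, `G`-stable (`qb_Setup`); `C := B ∩ F₀ = qb_C F₀ B` (a subring of
`F₀`), `qb_incl F₀ B : C →+* B`; `n` a maximal ideal of `C`; `C_n := locSub C n ⊆ F₀`;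
`B_n := qb_Bn F₀ B n = {b / s : b ∈ B, s ∈ C ∖ n} ⊆ E`, a subalgebra of `E` over `C_n`.

Plan of the proof (all packages are independent, they communicate through the `…Statement`s below):
* `Gal`   : norms `∏ σ b ∈ C`, `B` integral over `C`, every element of `E` is `b / c`.
* `Rank`  : a generating family of `B_n` over `C_n` with `≤ [E : F₀]` elements is a basis.
* `Fin`   : a maximal ideal of `B` over `n` exists; `B_n` is a finite `C_n`-module.
* `Unif`  : local analysis of a maximal ideal `M` of `B` with `O_M / ϖ` a DVR.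
* `Choose`: `x ∈ M₁`, outside a given ideal `Q ⊉ M₁` and outside all other maximal ideals over `n`.
* `KCore` : `M₁ B_n = (ϖ, x) B_n` (elementwise, denominators in `C ∖ n`).
* `KSigma`: for every `σ ∈ G`: `C_n → B_n / (ϖ, σ x) B_n` is surjective and kills `n`.
* `Len`   : (abstract) `length_R (S / (ϖ, T) S) ≤ |ι|` if `T = ∏_{j ∈ ι} x_j` and every `S / (ϖ, x_j)` is
            a quotient of the residue field of `R`.
* `Core`  : (abstract) `R` local, `M` finite, `I ⊆ 𝔪`, `length (M / I M) ≤ r`, `M` not generated by fewer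
            than `r` elements and every generating family with `r` elements is free  ⟹  `I = 𝔪`.
* `End`   : `n C_n = (ϖ, T)`, `T = N(x)`, `T ^ m ∉ ϖ C_n`, DVR criterion; assembly (`QBMain.lean`).
-/
import Fermat.Agent.S18.SInterfaces

set_option autoImplicit false

namespace Fermat.Agent.S18

noncomputable section

/-! ## Shared definitions -/

/-- `C = B ∩ F₀` (a subring of `F₀`). -/
abbrev qb_C (F₀ : Type) {E : Type} [Field F₀] [Field E] [Algebra F₀ E] (B : Subring E) :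
    Subring F₀ :=
  B.comap (algebraMap F₀ E)

/-- The inclusion `C → B`. -/
def qb_incl (F₀ : Type) {E : Type} [Field F₀] [Field E] [Algebra F₀ E] (B : Subring E) :
    ↥(qb_C F₀ B) →+* ↥B :=
  (algebraMap F₀ E).restrict (qb_C F₀ B) B (fun _ hx => hx)

@[simp] theorem qb_incl_coe (F₀ : Type) {E : Type} [Field F₀] [Field E] [Algebra F₀ E]
    (B : Subring E) (c : ↥(qb_C F₀ B)) :
    ((qb_incl F₀ B c : ↥B) : E) = algebraMap F₀ E (c : F₀) := rfl

/-- The standing hypotheses on `B ⊆ E`: integrally closed in `E`, fraction field `E`, Galois-stable. -/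
structure qb_Setup (F₀ : Type) {E : Type} [Field F₀] [Field E] [Algebra F₀ E] (B : Subring E) :
    Prop where
  intClosed : ∀ x : E, IsIntegral ↥B x → x ∈ B
  frac : ∀ x : E, ∃ a ∈ B, ∃ b ∈ B, b ≠ 0 ∧ x * b = a
  stab : ∀ (σ : E ≃ₐ[F₀] E), ∀ x ∈ B, σ x ∈ B

/-- The ideal `M` of `B` lies over the ideal `n` of `C` (i.e. `n B ⊆ M`; if `n` is maximal and `M` is
proper this means `M ∩ C = n`). -/
def qb_Over (F₀ : Type) {E : Type} [Field F₀] [Field E] [Algebra F₀ E] (B : Subring E)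
    (n : Ideal ↥(qb_C F₀ B)) (M : Ideal ↥B) : Prop :=
  ∀ c ∈ n, qb_incl F₀ B c ∈ M

/-- `B_n = {y ∈ E | y * s ∈ B for some s ∈ C ∖ n}`, as a subalgebra of `E` over `C_n = locSub C n`
(`E` is an algebra over the subring `C_n` of `F₀` by Mathlib's instance `Subring.toAlgebra`:
`algebraMap ↥C_n E c = algebraMap F₀ E (c : F₀)`, `c • y = algebraMap F₀ E (c : F₀) * y`). -/
def qb_Bn (F₀ : Type) {E : Type} [Field F₀] [Field E] [Algebra F₀ E] (B : Subring E)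
    (n : Ideal ↥(qb_C F₀ B)) [hn : n.IsPrime] : Subalgebra ↥(locSub (qb_C F₀ B) n) E where
  carrier := {y | ∃ b : ↥B, ∃ s : ↥(qb_C F₀ B), s ∉ n ∧ y * algebraMap F₀ E (s : F₀) = (b : E)}
  mul_mem' := by
    rintro y z ⟨b, s, hs, h⟩ ⟨b', s', hs', h'⟩
    refine ⟨b * b', s * s', fun hmem => (hn.mem_or_mem hmem).elim hs hs', ?_⟩
    rw [Subring.coe_mul, Subring.coe_mul, map_mul, ← h, ← h']; ring
  add_mem' := by
    rintro y z ⟨b, s, hs, h⟩ ⟨b', s', hs', h'⟩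
    refine ⟨b * qb_incl F₀ B s' + b' * qb_incl F₀ B s, s * s',
      fun hmem => (hn.mem_or_mem hmem).elim hs hs', ?_⟩
    rw [Subring.coe_add, Subring.coe_mul, Subring.coe_mul, Subring.coe_mul, map_mul, qb_incl_coe,
      qb_incl_coe, ← h, ← h']; ring
  algebraMap_mem' := by
    rintro ⟨c, a, s, hs, h⟩
    refine ⟨qb_incl F₀ B a, s, hs, ?_⟩
    have h2 : algebraMap F₀ E (c * (s : F₀)) = algebraMap F₀ E ((a : ↥(qb_C F₀ B)) : F₀) :=
      congrArg (algebraMap F₀ E) h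
    rw [map_mul] at h2
    exact h2

theorem qb_mem_Bn_iff (F₀ : Type) {E : Type} [Field F₀] [Field E] [Algebra F₀ E] (B : Subring E)
    (n : Ideal ↥(qb_C F₀ B)) [n.IsPrime] (y : E) :
    y ∈ qb_Bn F₀ B n ↔
      ∃ b : ↥B, ∃ s : ↥(qb_C F₀ B), s ∉ n ∧ y * algebraMap F₀ E (s : F₀) = (b : E) := Iff.rfl

theorem qb_le_Bn (F₀ : Type) {E : Type} [Field F₀] [Field E] [Algebra F₀ E] (B : Subring E)
    (n : Ideal ↥(qb_C F₀ B)) [hn : n.IsPrime] (y : E) (hy : y ∈ B) : y ∈ qb_Bn F₀ B n :=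
  ⟨⟨y, hy⟩, 1, fun h => hn.ne_top ((Ideal.eq_top_iff_one n).2 h), by simp⟩

/-! ## Package statements -/

/-- (Gal) Norms of elements of `B` lie in `C`; `B` is integral over `C`; every element of `E` is a
fraction `b / c` with `b ∈ B`, `0 ≠ c ∈ C`. -/
def qb_GalStatement : Prop :=
  ∀ (F₀ E : Type) [Field F₀] [Field E] [CharZero F₀] [Algebra F₀ E] [FiniteDimensional F₀ E]
    [IsGalois F₀ E] (B : Subring E), qb_Setup F₀ B →
    (∀ b : ↥B, ∃ c : ↥(qb_C F₀ B), algebraMap F₀ E (c : F₀) = ∏ σ : E ≃ₐ[F₀] E, σ (b : E)) ∧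
    (∀ b : ↥B, ∃ p : Polynomial ↥(qb_C F₀ B), p.Monic ∧ p.eval₂ (qb_incl F₀ B) b = 0) ∧
    (∀ y : E, ∃ b : ↥B, ∃ c : ↥(qb_C F₀ B), c ≠ 0 ∧ y * algebraMap F₀ E (c : F₀) = (b : E))

/-- (Rank) A family of at most `[E : F₀]` elements generating `B_n` over `C_n` has exactly `[E : F₀]`
elements and is linearly independent. -/
def qb_RankStatement : Prop :=
  ∀ (F₀ E : Type) [Field F₀] [Field E] [CharZero F₀] [Algebra F₀ E] [FiniteDimensional F₀ E]
    [IsGalois F₀ E] (B : Subring E), qb_Setup F₀ B →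
    ∀ (n : Ideal ↥(qb_C F₀ B)) [n.IsMaximal] (s : ℕ) (v : Fin s → ↥(qb_Bn F₀ B n)),
      s ≤ Module.finrank F₀ E →
      Submodule.span ↥(locSub (qb_C F₀ B) n) (Set.range v) = ⊤ →
      s = Module.finrank F₀ E ∧ LinearIndependent ↥(locSub (qb_C F₀ B) n) v

/-- (Fin) Lying over, and `B_n` is a finite `C_n`-module (`C` noetherian). -/
def qb_FinStatement : Prop :=
  ∀ (F₀ E : Type) [Field F₀] [Field E] [CharZero F₀] [Algebra F₀ E] [FiniteDimensional F₀ E]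
    [IsGalois F₀ E] (B : Subring E), qb_Setup F₀ B → IsNoetherianRing ↥(qb_C F₀ B) →
    ∀ (n : Ideal ↥(qb_C F₀ B)) [n.IsMaximal],
      (∃ M₁ : Ideal ↥B, M₁.IsMaximal ∧ qb_Over F₀ B n M₁) ∧
      Module.Finite ↥(locSub (qb_C F₀ B) n) ↥(qb_Bn F₀ B n)

/-- (Unif) Local analysis at a maximal ideal `M` of a subring `B` of a field `E`, `ϖ ∈ M`, such that
`O / ϖ` is a DVR, `O = locSub B M`:  `ϖ O` is a prime ideal of `O` (elementwise), and there is an ideal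
`Q ⊉ M` of `B` (the elements of `B` whose class in `O / ϖ` lies in the square of the maximal ideal) such
that for every `x ∈ M ∖ Q`: `M O = (ϖ, x) O` and `x ∉ ϖ O` (both elementwise). -/
def qb_UnifStatement : Prop :=
  ∀ (E : Type) [Field E] (B : Subring E) (M : Ideal ↥B) [M.IsMaximal] (ϖ : ↥B)
    (hϖ : (ϖ : E) ∈ locSub B M), ϖ ∈ M → IsDVRQuot ↥(locSub B M) ⟨(ϖ : E), hϖ⟩ →
    (∀ y ∈ locSub B M, ∀ z ∈ locSub B M, (∃ w ∈ locSub B M, y * z = (ϖ : E) * w) →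
      (∃ w ∈ locSub B M, y = (ϖ : E) * w) ∨ (∃ w ∈ locSub B M, z = (ϖ : E) * w)) ∧
    ∃ Q : Ideal ↥B, ¬ M ≤ Q ∧ ∀ x ∈ M, x ∉ Q →
      (∀ m ∈ M, ∃ s : ↥B, s ∉ M ∧ ∃ a b : ↥B, s * m = ϖ * a + x * b) ∧
      (∀ s : ↥B, s ∉ M → ∀ a : ↥B, s * x ≠ ϖ * a)

/-- (Choose) Given a maximal ideal `M₁` of `B` over `n` and an ideal `Q ⊉ M₁`, there is `x ∈ M₁ ∖ Q`
lying in no other maximal ideal of `B` over `n`. -/
def qb_ChooseStatement : Prop :=
  ∀ (F₀ E : Type) [Field F₀] [Field E] [CharZero F₀] [Algebra F₀ E] [FiniteDimensional F₀ E]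
    [IsGalois F₀ E] (B : Subring E), qb_Setup F₀ B →
    ∀ (n : Ideal ↥(qb_C F₀ B)) [n.IsMaximal] (M₁ : Ideal ↥B) [M₁.IsMaximal], qb_Over F₀ B n M₁ →
    ∀ Q : Ideal ↥B, ¬ M₁ ≤ Q →
      ∃ x ∈ M₁, x ∉ Q ∧
        ∀ M : Ideal ↥B, M.IsMaximal → qb_Over F₀ B n M → x ∈ M → M = M₁

/-- (KCore) If `x` lies in no maximal ideal over `n` other than `M₁` and `M₁ O_{M₁} = (ϖ, x) O_{M₁}`, then
`M₁ B_n = (ϖ, x) B_n`: every `m ∈ M₁` satisfies `s m ∈ (ϖ, x) B` for some `s ∈ C ∖ n`. -/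
def qb_KCoreStatement : Prop :=
  ∀ (F₀ E : Type) [Field F₀] [Field E] [CharZero F₀] [Algebra F₀ E] [FiniteDimensional F₀ E]
    [IsGalois F₀ E] (B : Subring E), qb_Setup F₀ B →
    ∀ (n : Ideal ↥(qb_C F₀ B)) [n.IsMaximal] (ϖ : ↥(qb_C F₀ B)) (M₁ : Ideal ↥B) [M₁.IsMaximal],
      qb_Over F₀ B n M₁ → ∀ x : ↥B,
      (∀ M : Ideal ↥B, M.IsMaximal → qb_Over F₀ B n M → x ∈ M → M = M₁) →
      (∀ m ∈ M₁, ∃ s : ↥B, s ∉ M₁ ∧ ∃ a b : ↥B, s * m = qb_incl F₀ B ϖ * a + x * b) →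
      ∀ m ∈ M₁, ∃ s : ↥(qb_C F₀ B), s ∉ n ∧
        ∃ a b : ↥B, qb_incl F₀ B s * m = qb_incl F₀ B ϖ * a + x * b

/-- (KSigma) If `M₁ B_n = (ϖ, x) B_n` (in the elementwise form of `qb_KCoreStatement`) and the residue
field of `n` is algebraically closed, then for every `σ ∈ G`: every element of `B_n` is congruent to an
element of `C_n` modulo `(ϖ, σ x) B_n`, and `n ⊆ (ϖ, σ x) B_n`. -/
def qb_KSigmaStatement : Prop :=
  ∀ (F₀ E : Type) [Field F₀] [Field E] [CharZero F₀] [Algebra F₀ E] [FiniteDimensional F₀ E]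
    [IsGalois F₀ E] (B : Subring E), qb_Setup F₀ B →
    ∀ (n : Ideal ↥(qb_C F₀ B)) [n.IsMaximal] (ϖ : ↥(qb_C F₀ B)),
      (∀ p : Polynomial ↥(qb_C F₀ B), p.Monic → 0 < p.natDegree →
        ∃ a : ↥(qb_C F₀ B), p.eval a ∈ n) →
      ∀ (M₁ : Ideal ↥B) [M₁.IsMaximal], qb_Over F₀ B n M₁ → ∀ x : ↥B,
      (∀ m ∈ M₁, ∃ s : ↥(qb_C F₀ B), s ∉ n ∧
        ∃ a b : ↥B, qb_incl F₀ B s * m = qb_incl F₀ B ϖ * a + x * b) →
      ∀ σ : E ≃ₐ[F₀] E,
        (∀ y ∈ qb_Bn F₀ B n, ∃ c : ↥(locSub (qb_C F₀ B) n), ∃ u ∈ qb_Bn F₀ B n,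
          ∃ v ∈ qb_Bn F₀ B n,
            y - algebraMap F₀ E (c : F₀) = algebraMap F₀ E (ϖ : F₀) * u + σ (x : E) * v) ∧
        (∀ c : ↥(qb_C F₀ B), c ∈ n → ∃ u ∈ qb_Bn F₀ B n, ∃ v ∈ qb_Bn F₀ B n,
          algebraMap F₀ E (c : F₀) = algebraMap F₀ E (ϖ : F₀) * u + σ (x : E) * v)

/-- (Len) ABSTRACT length bound.  `R` local, `S` an `R`-algebra, `T = ∏_{j ∈ ι} x_j` in `S`; if for every
`j` the ring `S / (ϖ, x_j) S` is a quotient of the residue field of `R` (every `b ∈ S` is congruent to an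
element of `R`, and the maximal ideal of `R` maps into `(ϖ, x_j) S`), then
`length_R (S / (ϖ, T) S) ≤ |ι|`. -/
def qb_LenStatement : Prop :=
  ∀ (R S : Type) [CommRing R] [IsLocalRing R] [CommRing S] [Algebra R S] (ι : Type) [Fintype ι]
    (ϖ T : R) (x : ι → S), algebraMap R S T = ∏ j, x j →
    (∀ (j : ι) (b : S), ∃ c : R, b - algebraMap R S c ∈ Ideal.span {algebraMap R S ϖ, x j}) →
    (∀ (j : ι), ∀ c ∈ IsLocalRing.maximalIdeal R,
      algebraMap R S c ∈ Ideal.span {algebraMap R S ϖ, x j}) →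
    Module.length R (S ⧸ ((Ideal.span {ϖ, T} : Ideal R) • (⊤ : Submodule R S))) ≤ Fintype.card ι

/-- (Core) ABSTRACT core lemma.  `R` local with maximal ideal `𝔪`, `M` a finite `R`-module, `I ⊆ 𝔪`,
`length_R (M / I M) ≤ r`, and every family of `s ≤ r` generators of `M` has `s = r` elements and is
linearly independent.  Then `I = 𝔪`. -/
def qb_CoreStatement : Prop :=
  ∀ (R M : Type) [CommRing R] [IsLocalRing R] [AddCommGroup M] [Module R M] [Module.Finite R M]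
    (I : Ideal R) (r : ℕ), 0 < r → I ≤ IsLocalRing.maximalIdeal R →
    Module.length R (M ⧸ (I • (⊤ : Submodule R M))) ≤ r →
    (∀ (s : ℕ) (v : Fin s → M), s ≤ r → Submodule.span R (Set.range v) = ⊤ →
      s = r ∧ LinearIndependent R v) →
    I = IsLocalRing.maximalIdeal R

end

end Fermat.Agent.S18
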