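/-
S18, block "Quotient lemma" (twin B), package Core: the abstract core lemma (Nakayama + length).

`qb_core_main : qb_CoreStatement`:  `R` local with maximal ideal `𝔪`, `M` a finite `R`-module, `I ⊆ 𝔪`,
`length_R (M / I M) ≤ r`, every family of `s ≤ r` generators of `M` has `s = r` elements and is linearly
independent.  Then `I = 𝔪`.
-/
import Fermat.Agent.S18.QBInterfaces

set_option autoImplicit false

namespace Fermat.Agent.S18

open IsLocalRing

/-- Nakayama data: with `s = dim_κ (M / 𝔪 M)` we have `length_R (M / 𝔪 M) = s` and `M` is generated by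
`s` elements. -/
theorem qb_core_nak (R M : Type) [CommRing R] [IsLocalRing R] [AddCommGroup M] [Module R M]
    [Module.Finite R M] :
    ∃ s : ℕ, Module.length R (M ⧸ (maximalIdeal R • (⊤ : Submodule R M))) = (s : ℕ∞) ∧
      ∃ v : Fin s → M, Submodule.span R (Set.range v) = ⊤ := by
  let _ : Field (R ⧸ maximalIdeal R) := Ideal.Quotient.field (maximalIdeal R)
  have : Module.Finite (R ⧸ maximalIdeal R) (M ⧸ (maximalIdeal R • (⊤ : Submodule R M))) :=
    Module.Finite.of_restrictScalars_finite R _ _
  refine ⟨Module.finrank (R ⧸ maximalIdeal R) (M ⧸ (maximalIdeal R • (⊤ : Submodule R M))), ?_, ?_⟩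
  · rw [Module.length_eq_of_surjective (S := R) (R := R ⧸ maximalIdeal R)
      Ideal.Quotient.mk_surjective]
    exact Module.length_eq_finrank _ _
  · let b := Module.finBasis (R ⧸ maximalIdeal R) (M ⧸ (maximalIdeal R • (⊤ : Submodule R M)))
    choose v hv using fun i =>
      Submodule.mkQ_surjective (maximalIdeal R • (⊤ : Submodule R M)) (b i)
    refine ⟨v, ?_⟩
    have hcomp : (⇑(Submodule.mkQ (maximalIdeal R • (⊤ : Submodule R M))) ∘ v) = ⇑b := funext hv
    rw [← map_mkQ_eq_top, Submodule.map_span, ← Set.range_comp, hcomp,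
      ← Submodule.restrictScalars_span R (R ⧸ maximalIdeal R) Ideal.Quotient.mk_surjective,
      Submodule.restrictScalars_eq_top_iff, b.span_eq]

/-- Length comparison: if `I ⊆ 𝔪`, `length (M / I M) ≤ r` and `length (M / 𝔪 M) = s`, then `s ≤ r`, and
if `s = r` then `𝔪 M ⊆ I M`. -/
theorem qb_core_len (R M : Type) [CommRing R] [IsLocalRing R] [AddCommGroup M] [Module R M]
    (I : Ideal R) (hI : I ≤ maximalIdeal R) (r s : ℕ)
    (hlen : Module.length R (M ⧸ (I • (⊤ : Submodule R M))) ≤ r)
    (hs : Module.length R (M ⧸ (maximalIdeal R • (⊤ : Submodule R M))) = (s : ℕ∞)) :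
    s ≤ r ∧ (s = r → maximalIdeal R • (⊤ : Submodule R M) ≤ I • (⊤ : Submodule R M)) := by
  have hle : I • (⊤ : Submodule R M) ≤ maximalIdeal R • (⊤ : Submodule R M) :=
    Submodule.smul_mono_left hI
  have hsurj : Function.Surjective (Submodule.factor hle) := Submodule.factor_surjective hle
  have hadd := Module.length_eq_add_of_exact (LinearMap.ker (Submodule.factor hle)).subtype
    (Submodule.factor hle) (Submodule.subtype_injective _) hsurj
    (LinearMap.exact_subtype_ker_map (Submodule.factor hle))
  rw [hs] at hadd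
  rw [hadd] at hlen
  constructor
  · have h1 : (s : ℕ∞) ≤ r := le_trans le_add_self hlen
    exact_mod_cast h1
  · rintro rfl
    have h0 : Module.length R (LinearMap.ker (Submodule.factor hle)) = 0 := by
      have h2 : Module.length R (LinearMap.ker (Submodule.factor hle)) + (s : ℕ∞) ≤ 0 + (s : ℕ∞) := by
        rw [zero_add]; exact hlen
      have h3 := (WithTop.add_le_add_iff_right (ENat.natCast_ne_top s)).mp h2
      exact le_antisymm h3 zero_le
    have hsub : Subsingleton (LinearMap.ker (Submodule.factor hle)) :=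
      Module.length_eq_zero_iff.mp h0
    intro z hz
    have hz' : Submodule.factor hle (Submodule.mkQ (I • (⊤ : Submodule R M)) z) = 0 := by
      rw [Submodule.factor_mk, Submodule.mkQ_apply]
      exact (Submodule.Quotient.mk_eq_zero _).mpr hz
    have h4 : (⟨Submodule.mkQ (I • (⊤ : Submodule R M)) z, hz'⟩ :
        LinearMap.ker (Submodule.factor hle)) = 0 :=
      Subsingleton.elim _ _
    have h5 : Submodule.mkQ (I • (⊤ : Submodule R M)) z = 0 :=
      congrArg Subtype.val h4
    rw [Submodule.mkQ_apply] at h5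
    exact (Submodule.Quotient.mk_eq_zero _).mp h5

/-- The abstract core lemma. -/
theorem qb_core_main : qb_CoreStatement := by
  intro R M _ _ _ _ _ I r hr hI hlen hgen
  obtain ⟨s, hs, v, hv⟩ := qb_core_nak R M
  obtain ⟨hsr, himp⟩ := qb_core_len R M I hI r s hlen hs
  obtain ⟨rfl, hli⟩ := hgen s v hsr hv
  have hmI := himp rfl
  refine le_antisymm hI ?_
  intro c hc
  have i₀ : Fin s := ⟨0, hr⟩
  have h1 : c • v i₀ ∈ maximalIdeal R • (⊤ : Submodule R M) :=
    Submodule.smul_mem_smul hc Submodule.mem_top
  have h2 : c • v i₀ ∈ I • Submodule.span R (Set.range v) := by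
    rw [hv]; exact hmI h1
  obtain ⟨a, ha, hsum⟩ := (Submodule.mem_ideal_smul_span_iff_exists_sum I v _).mp h2
  have h3 : Finsupp.linearCombination R v a =
      Finsupp.linearCombination R v (Finsupp.single i₀ c) := by
    rw [Finsupp.linearCombination_single, Finsupp.linearCombination_apply]; exact hsum
  have h4 : a = Finsupp.single i₀ c := hli h3
  have h5 := ha i₀
  rw [h4, Finsupp.single_eq_same] at h5
  exact h5

end Fermat.Agent.S18
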