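/-
S18, block "Quotient lemma" (P3), twin B — package End: assembly of the block from the package
statements of `QBInterfaces.lean` (all as explicit hypotheses) and the landed toolkit `LocSubB.lean`.

Main result: `qb_end_main`.
-/
import Fermat.Agent.S18.QBInterfaces
import Fermat.Agent.S18.LocSubB

set_option autoImplicit false

namespace Fermat.Agent.S18

/-- Restriction of `σ ∈ Gal(E / F₀)` to the stable subring `B`. -/
noncomputable def qb_end_res {F₀ E : Type} [Field F₀] [Field E] [Algebra F₀ E] (B : Subring E)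
    (hstab : ∀ (σ : E ≃ₐ[F₀] E), ∀ x ∈ B, σ x ∈ B) (σ : E ≃ₐ[F₀] E) : ↥B →+* ↥B :=
  ((σ : E ≃+* E) : E →+* E).restrict B B (fun x hx => hstab σ x hx)

theorem qb_end_res_coe {F₀ E : Type} [Field F₀] [Field E] [Algebra F₀ E] (B : Subring E)
    (hstab : ∀ (σ : E ≃ₐ[F₀] E), ∀ x ∈ B, σ x ∈ B) (σ : E ≃ₐ[F₀] E) (b : ↥B) :
    ((qb_end_res B hstab σ b : ↥B) : E) = σ (b : E) := rfl

theorem qb_end_res_surjective {F₀ E : Type} [Field F₀] [Field E] [Algebra F₀ E] (B : Subring E)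
    (hstab : ∀ (σ : E ≃ₐ[F₀] E), ∀ x ∈ B, σ x ∈ B) (σ : E ≃ₐ[F₀] E) :
    Function.Surjective (qb_end_res B hstab σ) := by
  intro b
  refine ⟨⟨σ.symm (b : E), hstab σ.symm _ b.2⟩, Subtype.ext ?_⟩
  rw [qb_end_res_coe]
  exact σ.apply_symm_apply _

/-- If `M` is a proper ideal of `B` over the maximal ideal `n` of `C`, then `M ∩ C = n`. -/
theorem qb_end_mem_of_incl_mem {F₀ E : Type} [Field F₀] [Field E] [Algebra F₀ E] (B : Subring E)
    (n : Ideal ↥(qb_C F₀ B)) [hn : n.IsMaximal] (M : Ideal ↥B) (hM : M ≠ ⊤)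
    (hover : qb_Over F₀ B n M) (c : ↥(qb_C F₀ B)) (hc : qb_incl F₀ B c ∈ M) : c ∈ n := by
  have hle : n ≤ M.comap (qb_incl F₀ B) := fun a ha => Ideal.mem_comap.2 (hover a ha)
  have hne : M.comap (qb_incl F₀ B) ≠ ⊤ := by
    intro h
    apply hM
    rw [Ideal.eq_top_iff_one]
    have h1 : (1 : ↥(qb_C F₀ B)) ∈ M.comap (qb_incl F₀ B) := by rw [h]; trivial
    have h2 := Ideal.mem_comap.1 h1
    rwa [map_one] at h2
  rw [hn.eq_of_le hne hle]
  exact Ideal.mem_comap.2 hc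

/-- `B_n` is stable under division by elements of `C ∖ n`. -/
theorem qb_end_div_mem {F₀ E : Type} [Field F₀] [Field E] [Algebra F₀ E] (B : Subring E)
    (n : Ideal ↥(qb_C F₀ B)) [hn : n.IsPrime] (y : E) (hy : y ∈ qb_Bn F₀ B n)
    (s : ↥(qb_C F₀ B)) (hs : s ∉ n) : y * (algebraMap F₀ E (s : F₀))⁻¹ ∈ qb_Bn F₀ B n := by
  obtain ⟨b, t, ht, h⟩ := hy
  have hs0 : algebraMap F₀ E (s : F₀) ≠ 0 := by
    intro h0
    apply hs
    have : (s : F₀) = 0 := (algebraMap F₀ E).injective (by rw [h0, map_zero])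
    have hs' : s = 0 := Subtype.ext this
    rw [hs']; exact n.zero_mem
  refine ⟨b, t * s, fun hmem => (hn.mem_or_mem hmem).elim ht hs, ?_⟩
  rw [Subring.coe_mul, map_mul, ← h]
  field_simp

/-- (F5) No power of the norm `N(x) = ∏ σ x` lies in `ϖ · O₁`, `O₁ = locSub B M₁`. -/
theorem qb_end_F5 {F₀ E : Type} [Field F₀] [Field E] [Algebra F₀ E] [FiniteDimensional F₀ E]
    (B : Subring E) (hstab : ∀ (σ : E ≃ₐ[F₀] E), ∀ x ∈ B, σ x ∈ B)
    (n : Ideal ↥(qb_C F₀ B)) [n.IsMaximal] (ϖ : ↥(qb_C F₀ B)) (hϖn : ϖ ∈ n)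
    (M₁ : Ideal ↥B) [hM₁ : M₁.IsMaximal] (hover : qb_Over F₀ B n M₁) (x : ↥B)
    (hprime : ∀ y ∈ locSub B M₁, ∀ z ∈ locSub B M₁,
      (∃ w ∈ locSub B M₁, y * z = ((qb_incl F₀ B ϖ : ↥B) : E) * w) →
      (∃ w ∈ locSub B M₁, y = ((qb_incl F₀ B ϖ : ↥B) : E) * w) ∨
        (∃ w ∈ locSub B M₁, z = ((qb_incl F₀ B ϖ : ↥B) : E) * w))
    (hxuniq : ∀ M : Ideal ↥B, M.IsMaximal → qb_Over F₀ B n M → x ∈ M → M = M₁)
    (hX4 : ∀ s : ↥B, s ∉ M₁ → ∀ a : ↥B, s * x ≠ qb_incl F₀ B ϖ * a)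
    (m : ℕ) (w : E) (hw : w ∈ locSub B M₁) :
    (∏ σ : E ≃ₐ[F₀] E, σ (x : E)) ^ m ≠ ((qb_incl F₀ B ϖ : ↥B) : E) * w := by
  classical
  set ϖB : ↥B := qb_incl F₀ B ϖ with hϖB
  have hϖM : ϖB ∈ M₁ := hover ϖ hϖn
  have hM₁prime : M₁.IsPrime := hM₁.isPrime
  -- the predicate "`y ∈ ϖ O₁`"
  have hP1 : ¬ ∃ w ∈ locSub B M₁, (1 : E) = (ϖB : E) * w := by
    rintro ⟨w, ⟨a, s, hs, hws⟩, h1⟩
    apply hs
    have : s = ϖB * a := by
      apply Subtype.ext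
      rw [Subring.coe_mul, ← hws, ← mul_assoc, ← h1, one_mul]
    rw [this]
    exact M₁.mul_mem_right _ hϖM
  have hσB : ∀ σ : E ≃ₐ[F₀] E, σ (x : E) ∈ locSub B M₁ :=
    fun σ => le_locSub B M₁ (hstab σ _ x.2)
  have hPpow : ∀ (k : ℕ) (y : E), y ∈ locSub B M₁ →
      (∃ w ∈ locSub B M₁, y ^ k = (ϖB : E) * w) → ∃ w ∈ locSub B M₁, y = (ϖB : E) * w := by
    intro k
    induction k with
    | zero =>
      intro y _ h
      rw [pow_zero] at h
      exact absurd h hP1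
    | succ k ih =>
      intro y hy h
      rw [pow_succ] at h
      rcases hprime (y ^ k) (Subring.pow_mem _ hy k) y hy h with h' | h'
      · exact ih y hy h'
      · exact h'
  have hPprod : ∀ t : Finset (E ≃ₐ[F₀] E),
      (∃ w ∈ locSub B M₁, (∏ σ ∈ t, σ (x : E)) = (ϖB : E) * w) →
      ∃ σ : E ≃ₐ[F₀] E, ∃ w ∈ locSub B M₁, σ (x : E) = (ϖB : E) * w := by
    intro t
    induction t using Finset.induction_on with
    | empty =>
      intro h
      rw [Finset.prod_empty] at h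
      exact absurd h hP1
    | insert σ₀ t hσ₀ ih =>
      intro h
      rw [Finset.prod_insert hσ₀] at h
      rcases hprime _ (hσB σ₀) _ (Subring.prod_mem _ (fun σ _ => hσB σ)) h with h' | h'
      · exact ⟨σ₀, h'⟩
      · exact ih h'
  -- no `σ x` lies in `ϖ O₁`
  have hσ : ∀ σ : E ≃ₐ[F₀] E, ¬ ∃ w ∈ locSub B M₁, σ (x : E) = (ϖB : E) * w := by
    rintro σ ⟨w, ⟨a, s, hs, hws⟩, hσx⟩
    set xσ : ↥B := qb_end_res B hstab σ x with hxσ
    have hxσE : (xσ : E) = σ (x : E) := rfl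
    have heq : s * xσ = ϖB * a := by
      apply Subtype.ext
      rw [Subring.coe_mul, Subring.coe_mul, hxσE, hσx, ← hws]
      ring
    by_cases hxσM : xσ ∈ M₁
    · -- then `σ⁻¹ M₁ = M₁`
      have hMmax : (M₁.comap (qb_end_res B hstab σ)).IsMaximal :=
        Ideal.comap_isMaximal_of_surjective _ (qb_end_res_surjective B hstab σ)
      have hMover : qb_Over F₀ B n (M₁.comap (qb_end_res B hstab σ)) := by
        intro c hc
        rw [Ideal.mem_comap]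
        have : qb_end_res B hstab σ (qb_incl F₀ B c) = qb_incl F₀ B c := by
          apply Subtype.ext
          rw [qb_end_res_coe, qb_incl_coe]
          exact σ.commutes _
        rw [this]
        exact hover c hc
      have hMeq := hxuniq _ hMmax hMover (Ideal.mem_comap.2 hxσM)
      set s' : ↥B := ⟨σ.symm (s : E), hstab σ.symm _ s.2⟩ with hs'
      set a' : ↥B := ⟨σ.symm (a : E), hstab σ.symm _ a.2⟩ with ha'
      have hs'M : s' ∉ M₁ := by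
        intro hmem
        rw [← hMeq, Ideal.mem_comap] at hmem
        have : qb_end_res B hstab σ s' = s := by
          apply Subtype.ext
          rw [qb_end_res_coe]
          exact σ.apply_symm_apply _
        rw [this] at hmem
        exact hs hmem
      refine hX4 s' hs'M a' ?_
      apply Subtype.ext
      have h2 : σ.symm ((s : E) * σ (x : E)) = σ.symm ((ϖB : E) * (a : E)) := by
        have := congrArg (fun z : ↥B => σ.symm (z : E)) heq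
        simpa [Subring.coe_mul, hxσE] using this
      rw [map_mul, map_mul, σ.symm_apply_apply] at h2
      have h3 : σ.symm (ϖB : E) = (ϖB : E) := by
        rw [hϖB, qb_incl_coe]
        exact σ.symm.commutes _
      rw [h3] at h2
      rw [Subring.coe_mul, Subring.coe_mul]
      exact h2
    · have h1 : s * xσ ∉ M₁ := fun h => (hM₁prime.mem_or_mem h).elim hs hxσM
      apply h1
      rw [heq]
      exact M₁.mul_mem_right _ hϖM
  intro hTm
  have hprodO : (∏ σ : E ≃ₐ[F₀] E, σ (x : E)) ∈ locSub B M₁ :=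
    Subring.prod_mem _ (fun σ _ => hσB σ)
  obtain ⟨σ, hσ'⟩ := hPprod Finset.univ (hPpow m _ hprodO ⟨w, hw, hTm⟩)
  exact hσ σ hσ'

/-- Assembly of the quotient lemma from the package statements. -/
theorem qb_end_main (hGal : qb_GalStatement) (hRank : qb_RankStatement) (hFin : qb_FinStatement)
    (hUnif : qb_UnifStatement) (hChoose : qb_ChooseStatement) (hKCore : qb_KCoreStatement)
    (hKSigma : qb_KSigmaStatement) (hLen : qb_LenStatement) (hCore : qb_CoreStatement)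
    (hLoc : LocSubStatement) : QuotientStatement := by
  classical
  intro F₀ E _ _ _ _ _ _ B hint hfrac hstab hnoeth n hnmax ϖ _ hϖn hRF hH
  have hS : qb_Setup F₀ B := ⟨hint, hfrac, hstab⟩
  obtain ⟨hG1, -, -⟩ := hGal F₀ E B hS
  obtain ⟨⟨M₁, hM₁max, hM₁over⟩, hfin⟩ := hFin F₀ E B hS hnoeth n
  have := hM₁max
  have := hnoeth
  have hM₁prime : M₁.IsPrime := hM₁max.isPrime
  have hnprime : n.IsPrime := hnmax.isPrime
  -- `ϖ` in `B`
  set ϖB : ↥B := qb_incl F₀ B ϖ with hϖB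
  have hϖM : ϖB ∈ M₁ := hM₁over ϖ hϖn
  have hϖO : (ϖB : E) ∈ locSub B M₁ := le_locSub B M₁ ϖB.2
  -- (H) + LocSub
  have hDVR : IsDVRQuot ↥(locSub B M₁) ⟨(ϖB : E), hϖO⟩ := by
    refine (hLoc E B M₁ ϖB hϖO).1 (hH M₁ ϖB rfl ?_)
    intro c b hc hb
    have : b = qb_incl F₀ B c := Subtype.ext hb
    rw [this]; exact hM₁over c hc
  obtain ⟨hprime, Q, hQ, hQx⟩ := hUnif E B M₁ ϖB hϖO hϖM hDVR
  obtain ⟨x, hxM, hxQ, hxuniq⟩ := hChoose F₀ E B hS n M₁ hM₁over Q hQ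
  obtain ⟨hX2, hX4⟩ := hQx x hxM hxQ
  have hK := hKCore F₀ E B hS n ϖ M₁ hM₁over x hxuniq hX2
  have hKS := hKSigma F₀ E B hS n ϖ hRF M₁ hM₁over x hK
  -- the norm `T`
  obtain ⟨T, hT⟩ := hG1 x
  have hTn : T ∈ n := by
    refine qb_end_mem_of_incl_mem B n M₁ hM₁max.ne_top hM₁over T ?_
    have hy : (∏ σ ∈ (Finset.univ : Finset (E ≃ₐ[F₀] E)).erase 1, σ (x : E)) ∈ B :=
      Subring.prod_mem _ (fun σ _ => hstab σ _ x.2)
    have : qb_incl F₀ B T = x * ⟨_, hy⟩ := by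
      apply Subtype.ext
      rw [qb_incl_coe, hT, Subring.coe_mul,
        ← Finset.mul_prod_erase Finset.univ (fun σ : E ≃ₐ[F₀] E => σ (x : E)) (Finset.mem_univ 1)]
      rfl
    rw [this]
    exact M₁.mul_mem_right _ hxM
  -- the local ring `R = C_n` and the `R`-algebra `S = B_n`
  have hRloc : IsLocalRing ↥(locSub (qb_C F₀ B) n) := locSubB_isLocalRing (qb_C F₀ B) n
  have hRnoeth : IsNoetherianRing ↥(locSub (qb_C F₀ B) n) := locSubB_isNoetherianRing (qb_C F₀ B) n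
  have := hfin
  set ϖR : ↥(locSub (qb_C F₀ B) n) := ⟨(ϖ : F₀), le_locSub _ n ϖ.2⟩ with hϖR
  set TR : ↥(locSub (qb_C F₀ B) n) := ⟨(T : F₀), le_locSub _ n T.2⟩ with hTR
  set xs : (E ≃ₐ[F₀] E) → ↥(qb_Bn F₀ B n) :=
    fun σ => ⟨σ (x : E), qb_le_Bn F₀ B n _ (hstab σ _ x.2)⟩ with hxs
  have hone : (1 : ↥(qb_C F₀ B)) ∉ n := fun h => hnprime.ne_top ((Ideal.eq_top_iff_one n).2 h)
  have hϖRm : ϖR ∈ IsLocalRing.maximalIdeal ↥(locSub (qb_C F₀ B) n) :=
    (locSubB_mem_maximalIdeal_iff (qb_C F₀ B) n ϖR).2 ⟨ϖ, 1, hϖn, hone, by simp [hϖR]⟩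
  have hTRm : TR ∈ IsLocalRing.maximalIdeal ↥(locSub (qb_C F₀ B) n) :=
    (locSubB_mem_maximalIdeal_iff (qb_C F₀ B) n TR).2 ⟨T, 1, hTn, hone, by simp [hTR]⟩
  have hprodT : algebraMap ↥(locSub (qb_C F₀ B) n) ↥(qb_Bn F₀ B n) TR = ∏ σ, xs σ := by
    apply Subtype.ext
    have h1 : ((∏ σ, xs σ : ↥(qb_Bn F₀ B n)) : E) = ∏ σ, ((xs σ : ↥(qb_Bn F₀ B n)) : E) :=
      map_prod (qb_Bn F₀ B n).val xs Finset.univ
    rw [h1]
    exact hT
  have ha : ∀ (σ : E ≃ₐ[F₀] E) (b : ↥(qb_Bn F₀ B n)), ∃ c : ↥(locSub (qb_C F₀ B) n),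
      b - algebraMap ↥(locSub (qb_C F₀ B) n) ↥(qb_Bn F₀ B n) c ∈
        Ideal.span {algebraMap ↥(locSub (qb_C F₀ B) n) ↥(qb_Bn F₀ B n) ϖR, xs σ} := by
    intro σ b
    obtain ⟨c, u, hu, v, hv, h⟩ := (hKS σ).1 (b : E) b.2
    refine ⟨c, Ideal.mem_span_pair.2 ⟨⟨u, hu⟩, ⟨v, hv⟩, Subtype.ext ?_⟩⟩
    change u * algebraMap F₀ E (ϖ : F₀) + v * σ (x : E) = (b : E) - algebraMap F₀ E (c : F₀)
    rw [h]; ring
  have hb : ∀ (σ : E ≃ₐ[F₀] E), ∀ c ∈ IsLocalRing.maximalIdeal ↥(locSub (qb_C F₀ B) n),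
      algebraMap ↥(locSub (qb_C F₀ B) n) ↥(qb_Bn F₀ B n) c ∈
        Ideal.span {algebraMap ↥(locSub (qb_C F₀ B) n) ↥(qb_Bn F₀ B n) ϖR, xs σ} := by
    intro σ c hc
    obtain ⟨a, s, han, hsn, hcs⟩ := (locSubB_mem_maximalIdeal_iff (qb_C F₀ B) n c).1 hc
    obtain ⟨u, hu, v, hv, h⟩ := (hKS σ).2 a han
    have hs0 : algebraMap F₀ E (s : F₀) ≠ 0 := by
      intro h0
      apply hsn
      have : (s : F₀) = 0 := (algebraMap F₀ E).injective (by rw [h0, map_zero])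
      have hs' : s = 0 := Subtype.ext this
      rw [hs']; exact n.zero_mem
    refine Ideal.mem_span_pair.2 ⟨⟨_, qb_end_div_mem B n u hu s hsn⟩,
      ⟨_, qb_end_div_mem B n v hv s hsn⟩, Subtype.ext ?_⟩
    change u * (algebraMap F₀ E (s : F₀))⁻¹ * algebraMap F₀ E (ϖ : F₀) +
      v * (algebraMap F₀ E (s : F₀))⁻¹ * σ (x : E) = algebraMap F₀ E (c : F₀)
    have h2 : algebraMap F₀ E (c : F₀) * algebraMap F₀ E (s : F₀) =
        algebraMap F₀ E ((a : ↥(qb_C F₀ B)) : F₀) := by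
      rw [← map_mul, hcs]
    rw [h] at h2
    field_simp
    linear_combination -h2
  have hlen := hLen ↥(locSub (qb_C F₀ B) n) ↥(qb_Bn F₀ B n) (E ≃ₐ[F₀] E) ϖR TR xs hprodT ha hb
  have hcard : Fintype.card (E ≃ₐ[F₀] E) = Module.finrank F₀ E := by
    rw [← Nat.card_eq_fintype_card]
    exact IsGalois.card_aut_eq_finrank F₀ E
  rw [hcard] at hlen
  have hIle : Ideal.span {ϖR, TR} ≤ IsLocalRing.maximalIdeal ↥(locSub (qb_C F₀ B) n) := by
    rw [Ideal.span_le]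
    rintro y (rfl | rfl)
    · exact hϖRm
    · exact hTRm
  have hmax : Ideal.span {ϖR, TR} = IsLocalRing.maximalIdeal ↥(locSub (qb_C F₀ B) n) :=
    hCore ↥(locSub (qb_C F₀ B) n) ↥(qb_Bn F₀ B n) (Ideal.span {ϖR, TR}) (Module.finrank F₀ E)
      Module.finrank_pos hIle hlen (hRank F₀ E B hS n)
  -- (F5)
  have hF5 : ∀ m : ℕ, TR ^ m ∉ Ideal.span {ϖR} := by
    intro m hm
    obtain ⟨w, hw⟩ := Ideal.mem_span_singleton'.1 hm
    obtain ⟨a, s, hsn, hws⟩ := w.2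
    have hwO : algebraMap F₀ E (w : F₀) ∈ locSub B M₁ := by
      refine ⟨qb_incl F₀ B a, qb_incl F₀ B s, ?_, ?_⟩
      · intro hmem
        exact hsn (qb_end_mem_of_incl_mem B n M₁ hM₁max.ne_top hM₁over s hmem)
      · rw [qb_incl_coe, qb_incl_coe, ← map_mul, hws]
    refine qb_end_F5 B hstab n ϖ hϖn M₁ hM₁over x hprime hxuniq hX4 m _ hwO ?_
    have h2 : (w : F₀) * (ϖ : F₀) = (T : F₀) ^ m := by
      have := congrArg (fun z : ↥(locSub (qb_C F₀ B) n) => (z : F₀)) hw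
      simpa [hϖR, hTR] using this
    rw [← hT, ← map_pow, ← h2, map_mul, qb_incl_coe, mul_comm]
  have hfinal : IsDVRQuot ↥(locSub (qb_C F₀ B) n) ϖR := locSubB_crit ϖR TR hmax.symm hF5
  exact (hLoc F₀ (qb_C F₀ B) n ϖ (le_locSub _ n ϖ.2)).2 hfinal

end Fermat.Agent.S18
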