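/-
S18, block "Quotient lemma" (P3), twin B — package `Fin` (worker helper431).

`qb_fin_main : qb_GalStatement → qb_FinStatement`:
* lying over: a maximal ideal `M₁` of `B` over a maximal ideal `n` of `C = B ∩ F₀` exists
  (`B` is integral over `C`);
* `B` is a finite `C`-module (integral closure of the noetherian integrally closed domain `C` in the
  finite separable extension `E / F₀`), hence `B_n` is a finite `C_n`-module.
-/
import Fermat.Agent.S18.QBInterfaces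

set_option autoImplicit false

namespace Fermat.Agent.S18

noncomputable section

/-- `qb_incl : C → B` is injective. -/
theorem qb_fin_incl_injective (F₀ : Type) {E : Type} [Field F₀] [Field E] [Algebra F₀ E]
    (B : Subring E) : Function.Injective (qb_incl F₀ B) := by
  intro a b h
  apply Subtype.ext
  apply (algebraMap F₀ E).injective
  have h2 : ((qb_incl F₀ B a : ↥B) : E) = ((qb_incl F₀ B b : ↥B) : E) := by rw [h]
  simpa using h2

/-- Lying over: if `B` is integral over `C`, every maximal ideal `n` of `C` lies under a maximal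
ideal of `B`. -/
theorem qb_fin_lyingOver (F₀ : Type) {E : Type} [Field F₀] [Field E] [Algebra F₀ E] (B : Subring E)
    (hint : ∀ b : ↥B, ∃ p : Polynomial ↥(qb_C F₀ B), p.Monic ∧ p.eval₂ (qb_incl F₀ B) b = 0)
    (n : Ideal ↥(qb_C F₀ B)) [n.IsMaximal] :
    ∃ M₁ : Ideal ↥B, M₁.IsMaximal ∧ qb_Over F₀ B n M₁ := by
  let : Algebra ↥(qb_C F₀ B) ↥B := (qb_incl F₀ B).toAlgebra
  have : Algebra.IsIntegral ↥(qb_C F₀ B) ↥B := ⟨fun b => hint b⟩
  have hker : RingHom.ker (algebraMap ↥(qb_C F₀ B) ↥B) ≤ n := by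
    have h0 : RingHom.ker (algebraMap ↥(qb_C F₀ B) ↥B) = ⊥ :=
      (RingHom.injective_iff_ker_eq_bot _).mp (qb_fin_incl_injective F₀ B)
    rw [h0]
    exact bot_le
  obtain ⟨Q, hQ, hQn⟩ := Ideal.exists_ideal_over_maximal_of_isIntegral (S := ↥B) n hker
  refine ⟨Q, hQ, fun c hc => ?_⟩
  rw [← hQn] at hc
  exact hc

/-- `B` is a finite `C`-module, in elementwise form: there are finitely many `g i ∈ B` such that every
element of `B` is a `C`-linear combination of the `g i`. -/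
theorem qb_fin_generators (F₀ : Type) {E : Type} [Field F₀] [Field E] [CharZero F₀] [Algebra F₀ E]
    [FiniteDimensional F₀ E] [IsGalois F₀ E] (B : Subring E) (hS : qb_Setup F₀ B)
    (hN : IsNoetherianRing ↥(qb_C F₀ B))
    (hint : ∀ b : ↥B, ∃ p : Polynomial ↥(qb_C F₀ B), p.Monic ∧ p.eval₂ (qb_incl F₀ B) b = 0)
    (hfrac : ∀ y : E, ∃ b : ↥B, ∃ c : ↥(qb_C F₀ B),
      c ≠ 0 ∧ y * algebraMap F₀ E (c : F₀) = (b : E)) :
    ∃ (m : ℕ) (g : Fin m → ↥B), ∀ b : ↥B, ∃ c : Fin m → ↥(qb_C F₀ B),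
      (b : E) = ∑ i, algebraMap F₀ E (c i : F₀) * (g i : E) := by
  let : Algebra ↥(qb_C F₀ B) ↥B := (qb_incl F₀ B).toAlgebra
  have : IsScalarTower ↥(qb_C F₀ B) ↥B E := IsScalarTower.of_algebraMap_eq (fun c => rfl)
  have : Algebra.IsIntegral ↥(qb_C F₀ B) ↥B := ⟨fun b => hint b⟩
  have : IsFractionRing ↥(qb_C F₀ B) F₀ := by
    refine IsFractionRing.of_field ↥(qb_C F₀ B) F₀ (fun y => ?_)
    obtain ⟨b, c, hc, h⟩ := hfrac (algebraMap F₀ E y)
    have hyc : y * (c : F₀) ∈ qb_C F₀ B := by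
      show algebraMap F₀ E (y * (c : F₀)) ∈ B
      rw [map_mul, h]
      exact b.2
    have hc' : (c : F₀) ≠ 0 := fun h0 => hc (Subtype.ext h0)
    refine ⟨⟨y * c, hyc⟩, c, ?_⟩
    show y = (y * (c : F₀)) / (c : F₀)
    field_simp
  have : IsIntegrallyClosed ↥(qb_C F₀ B) := by
    refine (isIntegrallyClosed_iff F₀).mpr (fun {y} hy => ?_)
    have h1 : IsIntegral ↥(qb_C F₀ B) (algebraMap F₀ E y) :=
      hy.map (IsScalarTower.toAlgHom ↥(qb_C F₀ B) F₀ E)
    have h2 : IsIntegral ↥B (algebraMap F₀ E y) := h1.tower_top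
    exact ⟨⟨y, hS.intClosed _ h2⟩, rfl⟩
  have : IsIntegralClosure ↥B ↥(qb_C F₀ B) E :=
    ⟨Subtype.val_injective, fun {y} =>
      ⟨fun hy => ⟨⟨y, hS.intClosed y hy.tower_top⟩, rfl⟩, by
        rintro ⟨b, rfl⟩
        exact (Algebra.IsIntegral.isIntegral b).algebraMap⟩⟩
  have : Module.Finite ↥(qb_C F₀ B) ↥B := IsIntegralClosure.finite ↥(qb_C F₀ B) F₀ E ↥B
  obtain ⟨m, g, hg⟩ := Module.Finite.exists_fin (R := ↥(qb_C F₀ B)) (M := ↥B)
  refine ⟨m, g, fun b => ?_⟩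
  have hb : b ∈ Submodule.span ↥(qb_C F₀ B) (Set.range g) := by
    rw [hg]; exact Submodule.mem_top
  obtain ⟨c, hc⟩ := (Submodule.mem_span_range_iff_exists_fun _).mp hb
  refine ⟨c, ?_⟩
  rw [← hc]
  simp only [Algebra.smul_def]
  push_cast
  rfl

/-- `B_n` is a finite `C_n`-module as soon as `B` is generated over `C` by finitely many elements. -/
theorem qb_fin_finite_Bn (F₀ : Type) {E : Type} [Field F₀] [Field E] [Algebra F₀ E] (B : Subring E)
    (n : Ideal ↥(qb_C F₀ B)) [hn : n.IsPrime] (m : ℕ) (g : Fin m → ↥B)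
    (hg : ∀ b : ↥B, ∃ c : Fin m → ↥(qb_C F₀ B),
      (b : E) = ∑ i, algebraMap F₀ E (c i : F₀) * (g i : E)) :
    Module.Finite ↥(locSub (qb_C F₀ B) n) ↥(qb_Bn F₀ B n) := by
  let g' : Fin m → ↥(qb_Bn F₀ B n) := fun i => ⟨(g i : E), qb_le_Bn F₀ B n _ (g i).2⟩
  refine Module.finite_def.mpr (Submodule.fg_def.mpr ⟨Set.range g', Set.finite_range g', ?_⟩)
  refine Submodule.eq_top_iff'.mpr (fun y => ?_)
  obtain ⟨b, t, ht, hyt⟩ := (qb_mem_Bn_iff F₀ B n (y : E)).mp y.2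
  obtain ⟨c, hc⟩ := hg b
  have ht0 : (t : F₀) ≠ 0 := fun h0 => ht (by
    have h1 : t = 0 := Subtype.ext h0
    rw [h1]
    exact n.zero_mem)
  have ht0' : algebraMap F₀ E (t : F₀) ≠ 0 := (map_ne_zero _).mpr ht0
  have hr : ∀ i, (c i : F₀) / (t : F₀) ∈ locSub (qb_C F₀ B) n := fun i =>
    (mem_locSub_iff _ _ _).mpr ⟨c i, t, ht, by field_simp⟩
  let r : Fin m → ↥(locSub (qb_C F₀ B) n) := fun i => ⟨(c i : F₀) / (t : F₀), hr i⟩
  have hy : y = ∑ i, r i • g' i := by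
    apply Subtype.ext
    have h1 : ∀ i, ((r i • g' i : ↥(qb_Bn F₀ B n)) : E)
        = algebraMap F₀ E ((c i : F₀) / (t : F₀)) * (g i : E) := fun i => by
      rw [Subalgebra.coe_smul, Subring.smul_def, Algebra.smul_def]
    have h2 : (y : E) = (b : E) / algebraMap F₀ E (t : F₀) := by
      rw [← hyt]
      field_simp
    rw [AddSubmonoidClass.coe_finsetSum, h2, hc, Finset.sum_div]
    refine Finset.sum_congr rfl (fun i _ => ?_)
    rw [h1, map_div₀]
    field_simp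
  rw [hy]
  exact Submodule.sum_mem _ (fun i _ => Submodule.smul_mem _ _ (Submodule.subset_span ⟨i, rfl⟩))

/-- **Package Fin**: lying over, and `B_n` is a finite `C_n`-module. -/
theorem qb_fin_main : qb_GalStatement → qb_FinStatement := by
  intro hG F₀ E _ _ _ _ _ _ B hS hN n _
  obtain ⟨-, hint, hfrac⟩ := hG F₀ E B hS
  refine ⟨qb_fin_lyingOver F₀ B hint n, ?_⟩
  obtain ⟨m, g, hg⟩ := qb_fin_generators F₀ B hS hN hint hfrac
  exact qb_fin_finite_Bn F₀ B n m g hg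

end

end Fermat.Agent.S18
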