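/-
S18, block "Quotient lemma" (twin B), package Gal (Q0): norms of elements of `B` lie in `C = B ∩ F₀`,
`B` is integral over `C`, and every element of `E` is a fraction `b / c` with `b ∈ B`, `0 ≠ c ∈ C`.
-/
import Fermat.Agent.S18.QBInterfaces

set_option autoImplicit false

namespace Fermat.Agent.S18

noncomputable section

open Polynomial

/-- Key fact (K): a Galois-invariant element of `B` comes from `C = B ∩ F₀`. -/
theorem qb_gal_fixed (F₀ E : Type) [Field F₀] [Field E] [Algebra F₀ E] [FiniteDimensional F₀ E]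
    [IsGalois F₀ E] (B : Subring E) (z : E) (hz : z ∈ B) (hfix : ∀ τ : E ≃ₐ[F₀] E, τ z = z) :
    ∃ c : ↥(qb_C F₀ B), algebraMap F₀ E (c : F₀) = z := by
  obtain ⟨c₀, hc₀⟩ := (IsGalois.mem_range_algebraMap_iff_fixed z).2 hfix
  exact ⟨⟨c₀, by rw [Subring.mem_comap, hc₀]; exact hz⟩, hc₀⟩

/-- The norm `∏ σ, σ b` is Galois-invariant. -/
theorem qb_gal_norm_fixed (F₀ E : Type) [Field F₀] [Field E] [Algebra F₀ E]
    [FiniteDimensional F₀ E] (b : E) (τ : E ≃ₐ[F₀] E) :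
    τ (∏ σ : E ≃ₐ[F₀] E, σ b) = ∏ σ : E ≃ₐ[F₀] E, σ b := by
  rw [map_prod]
  exact Fintype.prod_equiv (Equiv.mulLeft τ) _ _ (fun σ => rfl)

/-- The norm `∏ σ, σ b` of an element of `B` lies in `B`. -/
theorem qb_gal_norm_mem (F₀ E : Type) [Field F₀] [Field E] [Algebra F₀ E]
    [FiniteDimensional F₀ E] (B : Subring E) (hS : qb_Setup F₀ B) (b : E) (hb : b ∈ B) :
    (∏ σ : E ≃ₐ[F₀] E, σ b) ∈ B :=
  Subring.prod_mem _ (fun σ _ => hS.stab σ b hb)

/-- (1) The norm of an element of `B` lies in `C`. -/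
theorem qb_gal_norm (F₀ E : Type) [Field F₀] [Field E] [Algebra F₀ E] [FiniteDimensional F₀ E]
    [IsGalois F₀ E] (B : Subring E) (hS : qb_Setup F₀ B) (b : E) (hb : b ∈ B) :
    ∃ c : ↥(qb_C F₀ B), algebraMap F₀ E (c : F₀) = ∏ σ : E ≃ₐ[F₀] E, σ b :=
  qb_gal_fixed F₀ E B _ (qb_gal_norm_mem F₀ E B hS b hb) (qb_gal_norm_fixed F₀ E b)

/-- The characteristic polynomial `∏ σ, (X - σ b)`, formed in `B[X]`. -/
def qb_gal_charpoly (F₀ E : Type) [Field F₀] [Field E] [Algebra F₀ E] [FiniteDimensional F₀ E]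
    (B : Subring E) (hS : qb_Setup F₀ B) (b : ↥B) : Polynomial ↥B :=
  ∏ σ : E ≃ₐ[F₀] E, (X - C (⟨σ (b : E), hS.stab σ b b.2⟩ : ↥B))

theorem qb_gal_charpoly_monic (F₀ E : Type) [Field F₀] [Field E] [Algebra F₀ E]
    [FiniteDimensional F₀ E] (B : Subring E) (hS : qb_Setup F₀ B) (b : ↥B) :
    (qb_gal_charpoly F₀ E B hS b).Monic :=
  monic_prod_of_monic _ _ (fun _ _ => monic_X_sub_C _)

theorem qb_gal_charpoly_eval (F₀ E : Type) [Field F₀] [Field E] [Algebra F₀ E]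
    [FiniteDimensional F₀ E] (B : Subring E) (hS : qb_Setup F₀ B) (b : ↥B) :
    (qb_gal_charpoly F₀ E B hS b).eval b = 0 := by
  rw [qb_gal_charpoly, eval_prod]
  refine Finset.prod_eq_zero (Finset.mem_univ (1 : E ≃ₐ[F₀] E)) ?_
  rw [eval_sub, eval_X, eval_C, sub_eq_zero]
  exact Subtype.ext rfl

theorem qb_gal_charpoly_map (F₀ E : Type) [Field F₀] [Field E] [Algebra F₀ E]
    [FiniteDimensional F₀ E] (B : Subring E) (hS : qb_Setup F₀ B) (b : ↥B) :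
    (qb_gal_charpoly F₀ E B hS b).map B.subtype = ∏ σ : E ≃ₐ[F₀] E, (X - C (σ (b : E))) := by
  rw [qb_gal_charpoly, Polynomial.map_prod]
  refine Finset.prod_congr rfl (fun σ _ => ?_)
  rw [Polynomial.map_sub, map_X, map_C]
  rfl

theorem qb_gal_charpoly_map_fixed (F₀ E : Type) [Field F₀] [Field E] [Algebra F₀ E]
    [FiniteDimensional F₀ E] (b : E) (τ : E ≃ₐ[F₀] E) :
    (∏ σ : E ≃ₐ[F₀] E, (X - C (σ b))).map (τ : E →+* E) = ∏ σ : E ≃ₐ[F₀] E, (X - C (σ b)) := by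
  rw [Polynomial.map_prod]
  refine Fintype.prod_equiv (Equiv.mulLeft τ) _ _ (fun σ => ?_)
  rw [Polynomial.map_sub, map_X, map_C]
  rfl

/-- The coefficients of the characteristic polynomial come from `C`. -/
theorem qb_gal_charpoly_lifts (F₀ E : Type) [Field F₀] [Field E] [Algebra F₀ E]
    [FiniteDimensional F₀ E] [IsGalois F₀ E] (B : Subring E) (hS : qb_Setup F₀ B) (b : ↥B) :
    qb_gal_charpoly F₀ E B hS b ∈ lifts (qb_incl F₀ B) := by
  rw [lifts_iff_coeff_lifts]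
  intro k
  have hmem : ((qb_gal_charpoly F₀ E B hS b).coeff k : E) ∈ B :=
    ((qb_gal_charpoly F₀ E B hS b).coeff k).2
  have hfix : ∀ τ : E ≃ₐ[F₀] E, τ ((qb_gal_charpoly F₀ E B hS b).coeff k : E)
      = ((qb_gal_charpoly F₀ E B hS b).coeff k : E) := by
    intro τ
    have h1 : ((qb_gal_charpoly F₀ E B hS b).coeff k : E)
        = (∏ σ : E ≃ₐ[F₀] E, (X - C (σ (b : E)))).coeff k := by
      rw [← qb_gal_charpoly_map F₀ E B hS b, coeff_map]
      rfl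
    rw [h1]
    conv_rhs => rw [← qb_gal_charpoly_map_fixed F₀ E (b : E) τ]
    rw [coeff_map]
    rfl
  obtain ⟨c, hc⟩ := qb_gal_fixed F₀ E B _ hmem hfix
  exact ⟨c, Subtype.ext hc⟩

/-- (2) `B` is integral over `C`. -/
theorem qb_gal_integral (F₀ E : Type) [Field F₀] [Field E] [Algebra F₀ E]
    [FiniteDimensional F₀ E] [IsGalois F₀ E] (B : Subring E) (hS : qb_Setup F₀ B) (b : ↥B) :
    ∃ p : Polynomial ↥(qb_C F₀ B), p.Monic ∧ p.eval₂ (qb_incl F₀ B) b = 0 := by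
  obtain ⟨p, hp, -, hpm⟩ := lifts_and_natDegree_eq_and_monic
    (qb_gal_charpoly_lifts F₀ E B hS b) (qb_gal_charpoly_monic F₀ E B hS b)
  refine ⟨p, hpm, ?_⟩
  rw [← eval_map, hp]
  exact qb_gal_charpoly_eval F₀ E B hS b

/-- (3) Every element of `E` is a fraction `b / c` with `b ∈ B`, `0 ≠ c ∈ C`. -/
theorem qb_gal_frac (F₀ E : Type) [Field F₀] [Field E] [Algebra F₀ E]
    [FiniteDimensional F₀ E] [IsGalois F₀ E] (B : Subring E) (hS : qb_Setup F₀ B) (y : E) :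
    ∃ b : ↥B, ∃ c : ↥(qb_C F₀ B), c ≠ 0 ∧ y * algebraMap F₀ E (c : F₀) = (b : E) := by
  classical
  obtain ⟨a, ha, b, hb, hb0, hyb⟩ := hS.frac y
  obtain ⟨c, hc⟩ := qb_gal_norm F₀ E B hS b hb
  have hne : (∏ σ : E ≃ₐ[F₀] E, σ b) ≠ 0 := by
    rw [Finset.prod_ne_zero_iff]
    intro σ _
    exact (map_ne_zero_iff σ σ.injective).2 hb0
  have hsplit : (∏ σ : E ≃ₐ[F₀] E, σ b)
      = b * ∏ σ ∈ (Finset.univ : Finset (E ≃ₐ[F₀] E)).erase 1, σ b := by
    rw [← Finset.mul_prod_erase Finset.univ (fun σ : E ≃ₐ[F₀] E => σ b) (Finset.mem_univ 1)]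
    rfl
  have hb' : (∏ σ ∈ (Finset.univ : Finset (E ≃ₐ[F₀] E)).erase 1, σ b) ∈ B :=
    Subring.prod_mem _ (fun σ _ => hS.stab σ b hb)
  refine ⟨⟨a * ∏ σ ∈ (Finset.univ : Finset (E ≃ₐ[F₀] E)).erase 1, σ b, B.mul_mem ha hb'⟩, c, ?_, ?_⟩
  · rintro rfl
    apply hne
    rw [← hc]
    simp
  · rw [hc, hsplit, ← mul_assoc, hyb]

theorem qb_gal_main : qb_GalStatement := by
  intro F₀ E _ _ _ _ _ _ B hS
  exact ⟨fun b => qb_gal_norm F₀ E B hS b b.2, fun b => qb_gal_integral F₀ E B hS b,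
    fun y => qb_gal_frac F₀ E B hS y⟩

end

end Fermat.Agent.S18
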