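/-
S18, block "Quotient lemma" (twin B) — package KSigma (helper436).

`qb_ksigma_main : qb_GalStatement → qb_KSigmaStatement`:
for every `σ ∈ G`, every element of `B_n` is congruent to an element of `C_n` modulo `(ϖ, σ x) B_n`, and
`n ⊆ (ϖ, σ x) B_n`.
-/
import Fermat.Agent.S18.QBInterfaces

set_option autoImplicit false

namespace Fermat.Agent.S18

/-- (R) Residue lemma: if every monic non-constant polynomial over `C'` has a root modulo `n'`, and the
prime ideal `M` of `B'` contains the image of `n'`, then every element of `B'` which is a root modulo `M`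
of a monic polynomial over `C'` is congruent modulo `M` to an element of `C'`. -/
theorem qb_ksigma_residue {C' B' : Type*} [CommRing C'] [CommRing B'] (f : C' →+* B')
    (n' : Ideal C') (M : Ideal B') (hM : M.IsPrime)
    (hover : ∀ c ∈ n', f c ∈ M)
    (hRF : ∀ p : Polynomial C', p.Monic → 0 < p.natDegree → ∃ a : C', p.eval a ∈ n') :
    ∀ (d : ℕ) (p : Polynomial C'), p.natDegree = d → p.Monic → ∀ b : B', p.eval₂ f b ∈ M →
      ∃ c : C', b - f c ∈ M := by
  intro d
  induction d with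
  | zero =>
    intro p hd hp b hb
    have h1 : p = 1 := (Polynomial.Monic.natDegree_eq_zero hp).1 hd
    rw [h1, Polynomial.eval₂_one] at hb
    exact absurd ((Ideal.eq_top_iff_one M).2 hb) hM.ne_top
  | succ d ih =>
    intro p hd hp b hb
    have hnt' : Nontrivial C' := by
      by_contra hnt
      rw [not_nontrivial_iff_subsingleton] at hnt
      have h0 : p = 0 := Subsingleton.elim p 0
      rw [h0, Polynomial.natDegree_zero] at hd
      omega
    obtain ⟨a, ha⟩ := hRF p hp (by omega)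
    have hmon : (Polynomial.X - Polynomial.C a).Monic := Polynomial.monic_X_sub_C a
    have hdiv : p %ₘ (Polynomial.X - Polynomial.C a) +
        (Polynomial.X - Polynomial.C a) * (p /ₘ (Polynomial.X - Polynomial.C a)) = p :=
      Polynomial.modByMonic_add_div p (Polynomial.X - Polynomial.C a)
    rw [Polynomial.modByMonic_X_sub_C_eq_C_eval] at hdiv
    have hqdeg : (p /ₘ (Polynomial.X - Polynomial.C a)).natDegree = d := by
      rw [Polynomial.natDegree_divByMonic p hmon, hd, Polynomial.natDegree_X_sub_C]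
      omega
    have hqmonic : (p /ₘ (Polynomial.X - Polynomial.C a)).Monic := by
      have hle : (Polynomial.X - Polynomial.C a).degree ≤ p.degree := by
        rw [Polynomial.degree_X_sub_C, Polynomial.degree_eq_natDegree hp.ne_zero, hd]
        exact_mod_cast Nat.succ_le_succ (Nat.zero_le d)
      have := Polynomial.leadingCoeff_divByMonic_of_monic hmon hle
      rw [Polynomial.Monic, this]
      exact hp
    have heval : p.eval₂ f b = f (p.eval a) +
        (b - f a) * (p /ₘ (Polynomial.X - Polynomial.C a)).eval₂ f b := by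
      conv_lhs => rw [← hdiv]
      rw [Polynomial.eval₂_add, Polynomial.eval₂_mul, Polynomial.eval₂_sub, Polynomial.eval₂_C,
        Polynomial.eval₂_X, Polynomial.eval₂_C]
    rw [heval] at hb
    have h2 : (b - f a) * (p /ₘ (Polynomial.X - Polynomial.C a)).eval₂ f b ∈ M := by
      have h3 := M.sub_mem hb (hover _ ha)
      rwa [add_sub_cancel_left] at h3
    rcases hM.mem_or_mem h2 with h3 | h3
    · exact ⟨a, h3⟩
    · exact ih _ hqdeg hqmonic b h3

/-- Division of `σ b` (`b ∈ B`) by an element of `C ∖ n` stays in `B_n`. -/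
theorem qb_ksigma_div_mem {F₀ E : Type} [Field F₀] [Field E] [Algebra F₀ E] (B : Subring E)
    (hstab : ∀ (σ : E ≃ₐ[F₀] E), ∀ x ∈ B, σ x ∈ B)
    (n : Ideal ↥(qb_C F₀ B)) [hn : n.IsPrime] (σ : E ≃ₐ[F₀] E) (b : ↥B)
    (s : ↥(qb_C F₀ B)) (hs : s ∉ n) :
    σ (b : E) / algebraMap F₀ E (s : F₀) ∈ qb_Bn F₀ B n := by
  rw [qb_mem_Bn_iff]
  refine ⟨⟨σ (b : E), hstab σ _ b.2⟩, s, hs, ?_⟩
  have hs0 : (s : F₀) ≠ 0 := by
    intro h0
    apply hs
    have : s = 0 := Subtype.ext h0
    rw [this]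
    exact n.zero_mem
  have hs1 : algebraMap F₀ E (s : F₀) ≠ 0 := by
    intro h
    exact hs0 ((map_eq_zero (algebraMap F₀ E)).1 h)
  exact div_mul_cancel₀ _ hs1

theorem qb_ksigma_ne_zero {F₀ E : Type} [Field F₀] [Field E] [Algebra F₀ E] (B : Subring E)
    (n : Ideal ↥(qb_C F₀ B)) (s : ↥(qb_C F₀ B)) (hs : s ∉ n) :
    algebraMap F₀ E (s : F₀) ≠ 0 := by
  have hs0 : (s : F₀) ≠ 0 := by
    intro h0
    apply hs
    have : s = 0 := Subtype.ext h0
    rw [this]
    exact n.zero_mem
  intro h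
  exact hs0 ((map_eq_zero (algebraMap F₀ E)).1 h)

/-- (KSigma) -/
theorem qb_ksigma_main : qb_GalStatement → qb_KSigmaStatement := by
  intro hG F₀ E _ _ _ _ _ _ B hS n hn ϖ hRF M₁ hM₁max hM₁ x hK σ
  have hnp : n.IsPrime := hn.isPrime
  obtain ⟨-, hG2, -⟩ := hG F₀ E B hS
  refine ⟨?_, ?_⟩
  · -- (Ka)
    intro y hy
    obtain ⟨b, s, hs, hys⟩ := (qb_mem_Bn_iff F₀ B n y).1 hy
    obtain ⟨p, hp, hpb⟩ := hG2 ⟨σ.symm (b : E), hS.stab σ.symm _ b.2⟩
    obtain ⟨c, hc⟩ := qb_ksigma_residue (qb_incl F₀ B) n M₁ hM₁max.isPrime hM₁ hRF p.natDegree p rfl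
      hp ⟨σ.symm (b : E), hS.stab σ.symm _ b.2⟩ (by rw [hpb]; exact M₁.zero_mem)
    obtain ⟨s', hs', a, a', haa'⟩ := hK _ hc
    have hE : algebraMap F₀ E (s' : F₀) * (σ.symm (b : E) - algebraMap F₀ E (c : F₀)) =
        algebraMap F₀ E (ϖ : F₀) * (a : E) + (x : E) * (a' : E) := by
      have := congrArg Subtype.val haa'
      simpa using this
    have hE2 : algebraMap F₀ E (s' : F₀) * ((b : E) - algebraMap F₀ E (c : F₀)) =
        algebraMap F₀ E (ϖ : F₀) * σ (a : E) + σ (x : E) * σ (a' : E) := by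
      have := congrArg σ hE
      simpa using this
    have hs0 : algebraMap F₀ E (s : F₀) ≠ 0 := qb_ksigma_ne_zero B n s hs
    have hs'0 : algebraMap F₀ E (s' : F₀) ≠ 0 := qb_ksigma_ne_zero B n s' hs'
    have hsF : (s : F₀) ≠ 0 := fun h => hs0 (by rw [h, map_zero])
    have hss' : s * s' ∉ n := fun hmem => (hnp.mem_or_mem hmem).elim hs hs'
    refine ⟨⟨(c : F₀) / (s : F₀), (mem_locSub_iff _ n _).2 ⟨c, s, hs, div_mul_cancel₀ _ hsF⟩⟩,
      σ (a : E) / algebraMap F₀ E ((s * s' : ↥(qb_C F₀ B)) : F₀),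
      qb_ksigma_div_mem B hS.stab n σ a (s * s') hss',
      σ (a' : E) / algebraMap F₀ E ((s * s' : ↥(qb_C F₀ B)) : F₀),
      qb_ksigma_div_mem B hS.stab n σ a' (s * s') hss', ?_⟩
    have hyb : y = (b : E) / algebraMap F₀ E (s : F₀) := by
      rw [eq_div_iff hs0]; exact hys
    simp only [Subring.coe_mul, map_mul, map_div₀]
    rw [hyb]
    field_simp
    linear_combination hE2
  · -- (Kb)
    intro c hc
    obtain ⟨s, hs, a, b, hab⟩ := hK _ (hM₁ c hc)
    have hE : algebraMap F₀ E (s : F₀) * algebraMap F₀ E (c : F₀) =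
        algebraMap F₀ E (ϖ : F₀) * (a : E) + (x : E) * (b : E) := by
      have := congrArg Subtype.val hab
      simpa using this
    have hE2 : algebraMap F₀ E (s : F₀) * algebraMap F₀ E (c : F₀) =
        algebraMap F₀ E (ϖ : F₀) * σ (a : E) + σ (x : E) * σ (b : E) := by
      have := congrArg σ hE
      simpa using this
    have hs0 : algebraMap F₀ E (s : F₀) ≠ 0 := qb_ksigma_ne_zero B n s hs
    refine ⟨σ (a : E) / algebraMap F₀ E (s : F₀), qb_ksigma_div_mem B hS.stab n σ a s hs,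
      σ (b : E) / algebraMap F₀ E (s : F₀), qb_ksigma_div_mem B hS.stab n σ b s hs, ?_⟩
    field_simp
    linear_combination hE2

end Fermat.Agent.S18
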