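/-
S18, block "Quotient lemma" (twin B), package Len: the ABSTRACT length bound `qb_LenStatement`.

`R` local, `S` an `R`-algebra, `T = ∏_{j ∈ ι} x_j` in `S`; if for every `j` the ring `S / (ϖ, x_j) S` is a
quotient of the residue field of `R`, then `length_R (S / (ϖ, T) S) ≤ |ι|`.
-/
import Fermat.Agent.S18.QBInterfaces

set_option autoImplicit false

namespace Fermat.Agent.S18

/-- The residue field `R ⧸ 𝔪` of a local ring has length one as an `R`-module. -/
theorem qb_len_residue (R : Type) [CommRing R] [IsLocalRing R] :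
    Module.length R (R ⧸ (IsLocalRing.maximalIdeal R : Submodule R R)) = 1 := by
  rw [Module.length_eq_one_iff, isSimpleModule_iff_isCoatom]
  exact (Ideal.isMaximal_def).1 (IsLocalRing.maximalIdeal.isMaximal R)

/-- The `R`-submodule of `S` underlying the ideal `(ϖ, y) S`. -/
noncomputable abbrev qb_len_N (R : Type) {S : Type} [CommRing R] [CommRing S] [Algebra R S]
    (ϖ : R) (y : S) : Submodule R S :=
  (Ideal.span {algebraMap R S ϖ, y} : Ideal S).restrictScalars R

theorem qb_len_mem_N (R : Type) {S : Type} [CommRing R] [CommRing S] [Algebra R S]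
    (ϖ : R) (y z : S) :
    z ∈ qb_len_N R ϖ y ↔ ∃ a b : S, a * algebraMap R S ϖ + b * y = z := by
  rw [qb_len_N, Submodule.restrictScalars_mem, Ideal.mem_span_pair]

theorem qb_len_factor_mk {R M : Type} [CommRing R] [AddCommGroup M] [Module R M]
    {p p' : Submodule R M} (hle : p ≤ p') (z : M) :
    Submodule.factor hle (Submodule.Quotient.mk z) = Submodule.Quotient.mk z :=
  Submodule.factor_mk hle z

/-- One induction step: multiplying the second generator by `xa` increases the length by at most
one, if `S / (ϖ, xa) S` is a quotient of the residue field of `R`. -/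
theorem qb_len_step (R S : Type) [CommRing R] [IsLocalRing R] [CommRing S] [Algebra R S]
    (ϖ : R) (xa y : S)
    (ha : ∀ b : S, ∃ c : R, b - algebraMap R S c ∈ Ideal.span {algebraMap R S ϖ, xa})
    (hb : ∀ c ∈ IsLocalRing.maximalIdeal R,
      algebraMap R S c ∈ Ideal.span {algebraMap R S ϖ, xa}) :
    Module.length R (S ⧸ qb_len_N R ϖ (xa * y)) ≤
      1 + Module.length R (S ⧸ qb_len_N R ϖ y) := by
  have hle : qb_len_N R ϖ (xa * y) ≤ qb_len_N R ϖ y := by
    intro z hz
    rw [qb_len_mem_N] at hz ⊢
    obtain ⟨a, b, rfl⟩ := hz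
    exact ⟨a, b * xa, by ring⟩
  have hg : Function.Surjective (Submodule.factor hle) := Submodule.factor_surjective hle
  -- the class of `y` in the kernel
  have hy : (Submodule.Quotient.mk y : S ⧸ qb_len_N R ϖ (xa * y)) ∈
      LinearMap.ker (Submodule.factor hle) := by
    rw [LinearMap.mem_ker, qb_len_factor_mk, Submodule.Quotient.mk_eq_zero, qb_len_mem_N]
    exact ⟨0, 1, by ring⟩
  have hker : (IsLocalRing.maximalIdeal R : Submodule R R) ≤
      LinearMap.ker (LinearMap.toSpanSingleton R (LinearMap.ker (Submodule.factor hle))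
        ⟨Submodule.Quotient.mk y, hy⟩) := by
    intro c hc
    rw [LinearMap.mem_ker, LinearMap.toSpanSingleton_apply]
    apply Subtype.ext
    rw [Submodule.coe_smul, Submodule.coe_zero, ← Submodule.Quotient.mk_smul,
      Submodule.Quotient.mk_eq_zero, qb_len_mem_N]
    obtain ⟨u, v, huv⟩ := Ideal.mem_span_pair.1 (hb c hc)
    refine ⟨u * y, v, ?_⟩
    rw [Algebra.smul_def, ← huv]; ring
  have hsurj : Function.Surjective
      (Submodule.liftQ (IsLocalRing.maximalIdeal R : Submodule R R)
        (LinearMap.toSpanSingleton R (LinearMap.ker (Submodule.factor hle))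
          ⟨Submodule.Quotient.mk y, hy⟩) hker) := by
    rintro ⟨w, hw⟩
    obtain ⟨z, rfl⟩ := Submodule.Quotient.mk_surjective _ w
    rw [LinearMap.mem_ker, qb_len_factor_mk, Submodule.Quotient.mk_eq_zero, qb_len_mem_N] at hw
    obtain ⟨u, v, rfl⟩ := hw
    obtain ⟨c, hc⟩ := ha v
    obtain ⟨u', v', huv⟩ := Ideal.mem_span_pair.1 hc
    refine ⟨Submodule.Quotient.mk c, ?_⟩
    rw [Submodule.liftQ_apply, LinearMap.toSpanSingleton_apply]
    apply Subtype.ext
    rw [Submodule.coe_smul, ← Submodule.Quotient.mk_smul]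
    rw [Submodule.Quotient.eq, qb_len_mem_N]
    refine ⟨-(u' * y) - u, -v', ?_⟩
    rw [Algebra.smul_def]
    have h2 : v = algebraMap R S c + (u' * algebraMap R S ϖ + v' * xa) := by
      rw [huv]; ring
    rw [h2]; ring
  have hK : Module.length R (LinearMap.ker (Submodule.factor hle)) ≤ 1 := by
    rw [← qb_len_residue R]
    exact Module.length_le_of_surjective _ hsurj
  rw [Module.length_eq_add_of_exact (LinearMap.ker (Submodule.factor hle)).subtype
    (Submodule.factor hle) (Submodule.subtype_injective _) hg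
    (LinearMap.exact_subtype_ker_map _)]
  exact add_le_add_left hK _

/-- Main claim: the length of `S / (ϖ, ∏_{j ∈ s} x_j) S` is at most `|s|`. -/
theorem qb_len_finset (R S : Type) [CommRing R] [IsLocalRing R] [CommRing S] [Algebra R S]
    (ι : Type) (ϖ : R) (x : ι → S)
    (ha : ∀ (j : ι) (b : S), ∃ c : R,
      b - algebraMap R S c ∈ Ideal.span {algebraMap R S ϖ, x j})
    (hb : ∀ (j : ι), ∀ c ∈ IsLocalRing.maximalIdeal R,
      algebraMap R S c ∈ Ideal.span {algebraMap R S ϖ, x j})
    (s : Finset ι) :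
    Module.length R (S ⧸ qb_len_N R ϖ (∏ j ∈ s, x j)) ≤ s.card := by
  classical
  induction s using Finset.induction_on with
  | empty =>
    have hsub : Subsingleton (S ⧸ qb_len_N R ϖ (∏ j ∈ (∅ : Finset ι), x j)) := by
      rw [Submodule.Quotient.subsingleton_iff, eq_top_iff]
      intro z _
      rw [qb_len_mem_N]
      exact ⟨0, z, by simp⟩
    rw [Module.length_eq_zero_iff.2 hsub]
    exact zero_le
  | insert a s has ih =>
    rw [Finset.prod_insert has, Finset.card_insert_of_notMem has]
    refine (qb_len_step R S ϖ (x a) (∏ j ∈ s, x j) (ha a) (hb a)).trans ?_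
    rw [Nat.cast_add, Nat.cast_one, add_comm (s.card : ℕ∞) 1]
    gcongr

/-- (Len) The abstract length bound. -/
theorem qb_len_main : qb_LenStatement := by
  intro R S _ _ _ _ ι _ ϖ T x hT ha hb
  have h1 : (Ideal.span {ϖ, T} : Ideal R) • (⊤ : Submodule R S) =
      qb_len_N R ϖ (∏ j, x j) := by
    rw [Ideal.smul_top_eq_map, Ideal.map_span, Set.image_pair, hT]
  rw [h1]
  exact qb_len_finset R S ι ϖ x ha hb Finset.univ

end Fermat.Agent.S18
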