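/-
S18, block "Quotient lemma" (twin B) — package Rank (helper430).

`qb_rank_main : qb_GalStatement → qb_RankStatement`: a family of at most `[E : F₀]` elements generating
`B_n` over `C_n` has exactly `[E : F₀]` elements and is linearly independent.
-/
import Fermat.Agent.S18.QBInterfaces

set_option autoImplicit false

namespace Fermat.Agent.S18

theorem qb_rank_main : qb_GalStatement → qb_RankStatement := by
  intro hG F₀ E _ _ _ _ _ _ B hS n _ s v hs hv
  obtain ⟨-, -, hfrac⟩ := hG F₀ E B hS
  classical
  -- the family in `E`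
  have hw : ∀ (g : Fin s → ↥(locSub (qb_C F₀ B) n)),
      ((∑ i, g i • v i : ↥(qb_Bn F₀ B n)) : E) = ∑ i, ((g i : F₀)) • (v i : E) := by
    intro g
    rw [← Subalgebra.coe_val, map_sum]
    rfl
  -- (a) the family spans `E` over `F₀`
  have hspan : Submodule.span F₀ (Set.range (fun i => (v i : E))) = ⊤ := by
    rw [eq_top_iff]
    rintro y -
    obtain ⟨b, c, hc, hyc⟩ := hfrac y
    have hb : (b : E) ∈ qb_Bn F₀ B n := qb_le_Bn F₀ B n b b.2
    have hmem : (⟨(b : E), hb⟩ : ↥(qb_Bn F₀ B n)) ∈
        Submodule.span ↥(locSub (qb_C F₀ B) n) (Set.range v) := by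
      rw [hv]; trivial
    rw [Submodule.mem_span_range_iff_exists_fun] at hmem
    obtain ⟨r, hr⟩ := hmem
    have hr' : (b : E) = ∑ i, (r i : F₀) • (v i : E) := by
      rw [← hw r, hr]
    have hc0 : (c : F₀) ≠ 0 := fun h => hc (Subtype.ext h)
    have hc' : algebraMap F₀ E (c : F₀) ≠ 0 := by
      rw [Ne, map_eq_zero]
      exact hc0
    have hy : y = ∑ i, ((r i : F₀) / (c : F₀)) • (v i : E) := by
      have h1 : y = (b : E) * (algebraMap F₀ E (c : F₀))⁻¹ := by
        rw [← hyc, mul_assoc, mul_inv_cancel₀ hc', mul_one]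
      rw [h1, hr', Finset.sum_mul]
      refine Finset.sum_congr rfl (fun i _ => ?_)
      rw [Algebra.smul_def, Algebra.smul_def, map_div₀, div_eq_mul_inv]
      ring
    rw [hy]
    exact Submodule.sum_mem _
      (fun i _ => Submodule.smul_mem _ _ (Submodule.subset_span ⟨i, rfl⟩))
  -- (b) hence `[E : F₀] ≤ s`
  have hle : Module.finrank F₀ E ≤ s := by
    have h1 := finrank_range_le_card (R := F₀) (fun i : Fin s => (v i : E))
    rw [Fintype.card_fin] at h1
    have h2 : Module.finrank F₀ ↥(Submodule.span F₀ (Set.range (fun i : Fin s => (v i : E)))) =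
        Module.finrank F₀ E := by
      rw [hspan]
      exact finrank_top F₀ E
    rw [Set.finrank, h2] at h1
    exact h1
  have hse : s = Module.finrank F₀ E := le_antisymm hs hle
  -- (c) the family is linearly independent over `F₀`
  have hli : LinearIndependent F₀ (fun i : Fin s => (v i : E)) :=
    linearIndependent_of_top_le_span_of_card_eq_finrank hspan.ge (by rw [Fintype.card_fin, hse])
  -- (d) hence over `C_n`
  refine ⟨hse, ?_⟩
  rw [Fintype.linearIndependent_iff]
  intro g hg i
  have h0 : ∑ i, (g i : F₀) • (v i : E) = 0 := by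
    rw [← hw g, hg]
    rfl
  have := (Fintype.linearIndependent_iff.1 hli) (fun i => (g i : F₀)) h0 i
  exact Subtype.ext this

end Fermat.Agent.S18
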