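/-
S18, block "Quotient lemma" (P3), twin B — package Unif (prefix `qb_unif_`).

Local analysis at a maximal ideal `M` of a subring `B` of a field `E`, `ϖ ∈ M`, such that `O / ϖ` is a
DVR, where `O = locSub B M`.
-/
import Fermat.Agent.S18.QBInterfaces
import Fermat.Agent.S18.LocSubB

set_option autoImplicit false

namespace Fermat.Agent.S18

/-- In a DVR there is an element of the maximal ideal which is not in its square. -/
theorem qb_unif_exists_not_mem_sq (D : Type*) [CommRing D] [IsDomain D]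
    [IsDiscreteValuationRing D] :
    ∃ π : D, π ∈ IsLocalRing.maximalIdeal D ∧ π ∉ IsLocalRing.maximalIdeal D ^ 2 := by
  obtain ⟨π, hπ⟩ := IsDiscreteValuationRing.exists_irreducible D
  refine ⟨π, ?_, ?_⟩
  · rw [hπ.maximalIdeal_eq]
    exact Ideal.mem_span_singleton_self π
  · rw [hπ.maximalIdeal_eq, Ideal.span_singleton_pow, Ideal.mem_span_singleton]
    rintro ⟨c, hc⟩
    have h1 : π * 1 = π * (π * c) := by
      rw [mul_one]
      calc π = π ^ 2 * c := hc
        _ = π * (π * c) := by ring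
    have h2 : 1 = π * c := mul_left_cancel₀ hπ.ne_zero h1
    exact hπ.not_isUnit (IsUnit.of_mul_eq_one c h2.symm)

/-- In a DVR, an element of `𝔪 ∖ 𝔪 ^ 2` generates `𝔪` and is nonzero. -/
theorem qb_unif_span_eq (D : Type*) [CommRing D] [IsDomain D] [IsDiscreteValuationRing D]
    (x : D) (hx : x ∈ IsLocalRing.maximalIdeal D) (hx2 : x ∉ IsLocalRing.maximalIdeal D ^ 2) :
    IsLocalRing.maximalIdeal D = Ideal.span {x} ∧ x ≠ 0 := by
  obtain ⟨π, hπ⟩ := IsDiscreteValuationRing.exists_irreducible D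
  have hmax := hπ.maximalIdeal_eq
  have hx' : x ∈ Ideal.span {π} := hmax ▸ hx
  rw [Ideal.mem_span_singleton] at hx'
  obtain ⟨c, rfl⟩ := hx'
  have hc : IsUnit c := by
    by_contra hnu
    have hcm : c ∈ IsLocalRing.maximalIdeal D := by
      rwa [IsLocalRing.mem_maximalIdeal, mem_nonunits_iff]
    rw [hmax, Ideal.mem_span_singleton] at hcm
    obtain ⟨d, rfl⟩ := hcm
    apply hx2
    rw [hmax, Ideal.span_singleton_pow, Ideal.mem_span_singleton]
    exact ⟨d, by ring⟩
  refine ⟨?_, mul_ne_zero hπ.ne_zero hc.ne_zero⟩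
  rw [hmax]
  exact (Ideal.span_singleton_mul_right_unit hc π).symm

/-- (Unif) Local analysis at a maximal ideal `M` with `O_M / ϖ` a DVR. -/
theorem qb_unif_main : qb_UnifStatement := by
  intro E _ B M hM ϖ hϖ hϖM hD
  obtain ⟨hdom, hdvr⟩ := hD
  have hloc : IsLocalRing ↥(locSub B M) := locSubB_isLocalRing B M
  -- notation
  let ι : ↥B →+* ↥(locSub B M) := Subring.inclusion (le_locSub B M)
  let mk : ↥(locSub B M) →+*
      (↥(locSub B M) ⧸ Ideal.span {(⟨(ϖ : E), hϖ⟩ : ↥(locSub B M))}) := Ideal.Quotient.mk _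
  let φ : ↥B →+* (↥(locSub B M) ⧸ Ideal.span {(⟨(ϖ : E), hϖ⟩ : ↥(locSub B M))}) := mk.comp ι
  have hι : ∀ b : ↥B, ((ι b : ↥(locSub B M)) : E) = (b : E) := fun b => rfl
  have h0 : ∀ s : ↥B, s ∉ M → (s : E) ≠ 0 := by
    intro s hs h
    apply hs
    have : s = 0 := Subtype.ext h
    rw [this]; exact M.zero_mem
  have h1M : (1 : ↥B) ∉ M := fun h => hM.ne_top ((Ideal.eq_top_iff_one M).2 h)
  -- the kernel of `mk`
  have hmk0 : ∀ y : ↥(locSub B M),
      mk y = 0 ↔ ∃ w : ↥(locSub B M), (y : E) = (ϖ : E) * (w : E) := by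
    intro y
    rw [Ideal.Quotient.eq_zero_iff_mem, Ideal.mem_span_singleton']
    constructor
    · rintro ⟨w, hw⟩
      refine ⟨w, ?_⟩
      have := congrArg (fun t : ↥(locSub B M) => (t : E)) hw
      simp only [Subring.coe_mul] at this
      rw [← this, mul_comm]
    · rintro ⟨w, hw⟩
      refine ⟨w, Subtype.ext ?_⟩
      rw [Subring.coe_mul, hw, mul_comm]
  -- (a) elements outside `M` become units
  have ha : ∀ s : ↥B, s ∉ M → IsUnit (φ s) := by
    intro s hs
    have : IsUnit (ι s) := by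
      rw [locSubB_isUnit_iff]
      exact ⟨s, 1, hs, h1M, by simp [hι]⟩
    exact this.map mk
  -- (b) elements of `M` land in the maximal ideal
  have hb : ∀ m : ↥B, m ∈ M → φ m ∈ IsLocalRing.maximalIdeal
      (↥(locSub B M) ⧸ Ideal.span {(⟨(ϖ : E), hϖ⟩ : ↥(locSub B M))}) := by
    intro m hm
    rw [IsLocalRing.mem_maximalIdeal, mem_nonunits_iff]
    intro hu
    obtain ⟨z, hz⟩ := isUnit_iff_exists_inv.1 hu
    obtain ⟨w, rfl⟩ := Ideal.Quotient.mk_surjective z
    have hz' : mk (ι m * w - 1) = 0 := by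
      rw [map_sub, map_mul, map_one, sub_eq_zero]; exact hz
    rw [hmk0] at hz'
    obtain ⟨w', hw'⟩ := hz'
    obtain ⟨a, s, hs, h⟩ := w.2
    obtain ⟨a', s', hs', h'⟩ := w'.2
    have hw'' : (m : E) * (w : E) - 1 = (ϖ : E) * (w' : E) := hw'
    have hE : ((s * s' : ↥B) : E) = ((m * a * s' - ϖ * a' * s : ↥B) : E) := by
      push_cast
      rw [← h, ← h']
      linear_combination (-((s : E) * (s' : E))) * hw''
    have heq : s * s' = m * a * s' - ϖ * a' * s := Subtype.ext hE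
    have hmem : s * s' ∈ M := by
      rw [heq]
      exact M.sub_mem (M.mul_mem_right _ (M.mul_mem_right _ hm))
        (M.mul_mem_right _ (M.mul_mem_right _ hϖM))
    exact (hM.isPrime.mem_or_mem hmem).elim hs hs'
  -- (c) every element of the quotient is a fraction
  have hc : ∀ d : (↥(locSub B M) ⧸ Ideal.span {(⟨(ϖ : E), hϖ⟩ : ↥(locSub B M))}),
      ∃ a s : ↥B, s ∉ M ∧ d * φ s = φ a := by
    intro d
    obtain ⟨w, rfl⟩ := Ideal.Quotient.mk_surjective d
    obtain ⟨a, s, hs, h⟩ := w.2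
    refine ⟨a, s, hs, ?_⟩
    have : w * ι s = ι a := Subtype.ext (by rw [Subring.coe_mul]; exact h)
    show mk w * mk (ι s) = mk (ι a)
    rw [← map_mul, this]
  -- (d) the kernel of `φ`
  have hd : ∀ b : ↥B, φ b = 0 ↔ ∃ s : ↥B, s ∉ M ∧ ∃ a : ↥B, s * b = ϖ * a := by
    intro b
    show mk (ι b) = 0 ↔ _
    rw [hmk0]
    constructor
    · rintro ⟨w, hw⟩
      obtain ⟨a, s, hs, h⟩ := w.2
      refine ⟨s, hs, a, Subtype.ext ?_⟩
      have hw2 : (b : E) = (ϖ : E) * (w : E) := hw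
      push_cast
      rw [← h, hw2]; ring
    · rintro ⟨s, hs, a, h⟩
      have hs0 := h0 s hs
      have hE : (s : E) * (b : E) = (ϖ : E) * (a : E) := by
        have := congrArg (fun t : ↥B => (t : E)) h
        simpa using this
      refine ⟨⟨(a : E) / (s : E), a, s, hs, by field_simp⟩, ?_⟩
      show (b : E) = (ϖ : E) * ((a : E) / (s : E))
      rw [← mul_div_assoc, eq_div_iff hs0, ← hE, mul_comm]
  refine ⟨?_, ?_⟩
  · -- (1) `ϖ O` is prime
    rintro y hy z hz ⟨w, hw, hyz⟩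
    have hprod : mk ⟨y, hy⟩ * mk ⟨z, hz⟩ = 0 := by
      rw [← map_mul, hmk0]
      exact ⟨⟨w, hw⟩, hyz⟩
    rcases mul_eq_zero.1 hprod with h | h
    · left
      obtain ⟨w', hw'⟩ := (hmk0 _).1 h
      exact ⟨w', w'.2, hw'⟩
    · right
      obtain ⟨w', hw'⟩ := (hmk0 _).1 h
      exact ⟨w', w'.2, hw'⟩
  · -- (2)
    refine ⟨Ideal.comap φ (IsLocalRing.maximalIdeal
      (↥(locSub B M) ⧸ Ideal.span {(⟨(ϖ : E), hϖ⟩ : ↥(locSub B M))}) ^ 2), ?_, ?_⟩
    · intro hle
      obtain ⟨π, hπ1, hπ2⟩ := qb_unif_exists_not_mem_sq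
        (↥(locSub B M) ⧸ Ideal.span {(⟨(ϖ : E), hϖ⟩ : ↥(locSub B M))})
      obtain ⟨y, s, hs, h⟩ := hc π
      have hus := ha s hs
      have hy : y ∈ M := by
        by_contra hy
        have huy := ha y hy
        rw [← h] at huy
        have hπu : IsUnit π := isUnit_of_mul_isUnit_left huy
        exact (IsLocalRing.mem_maximalIdeal _).1 hπ1 hπu
      have hmem := hle hy
      rw [Ideal.mem_comap, ← h] at hmem
      exact hπ2 ((Ideal.mul_unit_mem_iff_mem _ hus).1 hmem)
    · intro x hxM hxQ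
      have hx1 := hb x hxM
      have hx2 : φ x ∉ IsLocalRing.maximalIdeal
          (↥(locSub B M) ⧸ Ideal.span {(⟨(ϖ : E), hϖ⟩ : ↥(locSub B M))}) ^ 2 := hxQ
      obtain ⟨hspan, hx0⟩ := qb_unif_span_eq _ (φ x) hx1 hx2
      refine ⟨?_, ?_⟩
      · intro m hm
        have hm1 := hb m hm
        rw [hspan, Ideal.mem_span_singleton'] at hm1
        obtain ⟨d, hd'⟩ := hm1
        obtain ⟨b, s, hs, h⟩ := hc d
        have hzero : φ (s * m - b * x) = 0 := by
          rw [map_sub, map_mul, map_mul, ← hd', ← h]; ring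
        obtain ⟨s', hs', a, hsa⟩ := (hd _).1 hzero
        refine ⟨s' * s, fun hmem => (hM.isPrime.mem_or_mem hmem).elim hs' hs, a, b * s', ?_⟩
        linear_combination hsa
      · intro s hs a hsa
        exact hx0 ((hd x).2 ⟨s, hs, a, hsa⟩)

end Fermat.Agent.S18
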