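/-
S18, block "Quotient lemma" (P3), twin B — MAIN THEOREM of the block.

`qb_main : LocSubStatement → QuotientStatement`: the quotient of a "smooth relative curve" by a finite
group is smooth (no tameness assumption).  Assembly (`qb_end_main`, file `QBEnd.lean`) of the packages
`Gal`, `Rank`, `Fin`, `Unif`, `Choose`, `KCore`, `KSigma`, `Len`, `Core`.
-/
import Fermat.Agent.S18.QBEnd
import Fermat.Agent.S18.QBGal
import Fermat.Agent.S18.QBRank
import Fermat.Agent.S18.QBFin
import Fermat.Agent.S18.QBUnif
import Fermat.Agent.S18.QBChoose
import Fermat.Agent.S18.QBKCore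
import Fermat.Agent.S18.QBKSigma
import Fermat.Agent.S18.QBLen
import Fermat.Agent.S18.QBCore

set_option autoImplicit false

namespace Fermat.Agent.S18

/-- (P3) The quotient lemma. -/
theorem qb_main : LocSubStatement → QuotientStatement := fun hLoc =>
  qb_end_main qb_gal_main (qb_rank_main qb_gal_main) (qb_fin_main qb_gal_main) qb_unif_main
    (qb_choose_main qb_gal_main) (qb_kcore_main qb_gal_main) (qb_ksigma_main qb_gal_main)
    qb_len_main qb_core_main hLoc

end Fermat.Agent.S18
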