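/-
S18 — second interface file of the smoothness half: the statement exchanged between block S-I (the
smoothness engine on the cover: structure of `Λ = W[t, 1/h(t)]`, vertical and horizontal
unramifiedness, purity) and block S-II (descent to the charts by the quotient lemma, glueing).
-/
import Fermat.Agent.S18.SInterfaces

set_option autoImplicit false

open ModularCurve AlgebraicCurve Polynomial

namespace Fermat.Agent.S18

noncomputable section

/-- (S-I) For a cover of type 1 (`IsCover1`): for every maximal ideal `M ∋ ϖ` of the integral closure `B`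
of `Λ = W[t, 1/h(t)]` in `E`, the ring `B_M / ϖ` is a DVR. -/
def SmB1Statement : Prop :=
  ∀ (N : ℕ) [NeZero N] (ℓ : ℕ) [Fact ℓ.Prime] (L : Type) [Field L] [Algebra ℚ L]
    (W : ValuationSubring L) [IsDiscreteValuationRing ↥W] (k : Type) [Field k] [IsAlgClosed k]
    [CharP k ℓ] (res : ↥W →+* k) (ϖ : ↥W), BaseData N ℓ W res ϖ → HorizAt L N →
    ∀ (E : Type) [Field E] [Algebra ↥(FL L N) E] (t : E) (h : Polynomial ↥W),
      IsCover1 W res N E t h →
      ∀ (M : Ideal ↥(integralClosure ↥(coverRing W N E t h) E).toSubring) [M.IsMaximal]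
        (ϖB : ↥(integralClosure ↥(coverRing W N E t h) E).toSubring),
        (ϖB : E) = cWE W N E ϖ → ϖB ∈ M →
        IsDVRQuot (Localization.AtPrime M)
          (algebraMap ↥(integralClosure ↥(coverRing W N E t h) E).toSubring
            (Localization.AtPrime M) ϖB)

/-- (S-I) The same for a cover of type 2 (`IsCover2`, cuspidal Kummer cover). -/
def SmB2Statement : Prop :=
  ∀ (N : ℕ) [NeZero N] (ℓ : ℕ) [Fact ℓ.Prime] (L : Type) [Field L] [Algebra ℚ L]
    (W : ValuationSubring L) [IsDiscreteValuationRing ↥W] (k : Type) [Field k] [IsAlgClosed k]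
    [CharP k ℓ] (res : ↥W →+* k) (ϖ : ↥W), BaseData N ℓ W res ϖ → HorizAt L N →
    ∀ (E : Type) [Field E] [Algebra ↥(FL L N) E] (t : E) (h : Polynomial ↥W),
      IsCover2 W res N E t h →
      ∀ (M : Ideal ↥(integralClosure ↥(coverRing W N E t h) E).toSubring) [M.IsMaximal]
        (ϖB : ↥(integralClosure ↥(coverRing W N E t h) E).toSubring),
        (ϖB : E) = cWE W N E ϖ → ϖB ∈ M →
        IsDVRQuot (Localization.AtPrime M)
          (algebraMap ↥(integralClosure ↥(coverRing W N E t h) E).toSubring
            (Localization.AtPrime M) ϖB)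

end

end Fermat.Agent.S18
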