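/-
S18 — block S-II (twin B): INTERNAL INTERFACE FILE.  Descent from the cover to the charts (quotient
lemma) and glueing of the two charts.  Shared definitions, a few basic lemmas, and one statement-`Prop`
per work package.  Namespace `Fermat.Agent.S18`, prefix `sIIB_`.

Notation: `F = ↥(FL L N)`, `j = jF L N`, `W[S] = baseRing W N S ⊆ F`, `chart W N S` = integral closure of
`W[S]` in `F`; `S₂ = sIIB_S2 L N = {1/j, j/(j-1728)}`; for a cover `E ⊇ F`, `Λ = coverRing W N E t h`,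
`B = (integralClosure ↥Λ E).toSubring`.
-/
import Fermat.Agent.S18.SInterfaces2

set_option autoImplicit false

open ModularCurve AlgebraicCurve Polynomial

namespace Fermat.Agent.S18

noncomputable section

/-! ## Shared definitions and basic lemmas -/

section Basic

variable {L : Type} [Field L] [Algebra ℚ L] (W : ValuationSubring L) (N : ℕ)

theorem sIIB_cW_mem_baseRing (S : Set ↥(FL L N)) (w : ↥W) : cW W N w ∈ baseRing W N S :=
  Subring.subset_closure (Or.inl ⟨w, rfl⟩)

theorem sIIB_mem_baseRing {S : Set ↥(FL L N)} {x : ↥(FL L N)} (hx : x ∈ S) :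
    x ∈ baseRing W N S :=
  Subring.subset_closure (Or.inr hx)

theorem sIIB_baseRing_mono {S T : Set ↥(FL L N)} (h : S ⊆ T) : baseRing W N S ≤ baseRing W N T :=
  Subring.closure_mono (Set.union_subset_union_right _ h)

theorem sIIB_baseRing_le_chart (S : Set ↥(FL L N)) : baseRing W N S ≤ chart W N S := fun x hx =>
  (mem_chart_iff W N S x).2 (isIntegral_algebraMap (R := ↥(baseRing W N S)) (x := ⟨x, hx⟩))

theorem sIIB_cW_mem_chart (S : Set ↥(FL L N)) (w : ↥W) : cW W N w ∈ chart W N S :=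
  sIIB_baseRing_le_chart W N S (sIIB_cW_mem_baseRing W N S w)

theorem sIIB_mem_chart {S : Set ↥(FL L N)} {x : ↥(FL L N)} (hx : x ∈ S) : x ∈ chart W N S :=
  sIIB_baseRing_le_chart W N S (sIIB_mem_baseRing W N hx)

/-- Integrality over a smaller subring implies integrality over a larger one. -/
theorem sIIB_isIntegral_of_le {F : Type*} [Field F] {R R' : Subring F} (h : R ≤ R') {x : F}
    (hx : IsIntegral ↥R x) : IsIntegral ↥R' x :=
  IsIntegral.map_of_comp_eq (Subring.inclusion h) (RingHom.id F) rfl hx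

theorem sIIB_chart_mono {S T : Set ↥(FL L N)} (h : S ⊆ T) : chart W N S ≤ chart W N T := fun _ hx =>
  sIIB_isIntegral_of_le (sIIB_baseRing_mono W N h) hx

/-- `S₂ = {1/j, j/(j - 1728)}`. -/
def sIIB_S2 (L : Type) [Field L] [Algebra ℚ L] (N : ℕ) [NeZero N] : Set ↥(FL L N) :=
  {(jF L N)⁻¹, jF L N / (jF L N - 1728)}

/-- Smoothness of `chart W N S` at every maximal ideal containing `ϖ`. -/
def sIIB_SmChart (N : ℕ) {L : Type} [Field L] [Algebra ℚ L] (W : ValuationSubring L) (ϖ : ↥W)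
    (S : Set ↥(FL L N)) : Prop :=
  ∀ (n : Ideal ↥(chart W N S)) [n.IsMaximal] (ϖc : ↥(chart W N S)),
    (ϖc : ↥(FL L N)) = cW W N ϖ → ϖc ∈ n →
    IsDVRQuot (Localization.AtPrime n) (algebraMap ↥(chart W N S) (Localization.AtPrime n) ϖc)

end Basic

/-- From `FinLStatement`: `j ≠ 0` and `j ≠ 1728`. -/
theorem sIIB_j_ne (hFin : FinLStatement) (N : ℕ) [NeZero N] (L : Type) [Field L] [Algebra ℚ L] :
    jF L N ≠ 0 ∧ jF L N - 1728 ≠ 0 := by
  have htr : Transcendental L (jF L N) := (hFin N L).1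
  constructor
  · intro h0
    exact htr (h0 ▸ isAlgebraic_zero)
  · intro h0
    have h1 : jF L N = algebraMap L ↥(FL L N) 1728 := by
      rw [map_ofNat]
      exact sub_eq_zero.1 h0
    exact htr (h1 ▸ isAlgebraic_algebraMap (1728 : L))

/-! ## Package Noeth (D0) -/

/-- (D0) For `s ∈ F` transcendental over `L` with `F / L(s)` finite, the integral closure of `W[s]` in `F`
is a noetherian ring. -/
def sIIB_NoethStatement : Prop :=
  ∀ (N : ℕ) (L : Type) [Field L] [Algebra ℚ L] (W : ValuationSubring L)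
    [IsDiscreteValuationRing ↥W] (s : ↥(FL L N)), Transcendental L s →
    FiniteDimensional ↥(IntermediateField.adjoin L {s}) ↥(FL L N) →
    IsNoetherianRing ↥(chart W N {s})

/-! ## Package Frac (fractions of the integral closure in the cover) -/

/-- (Q2) If `E / F` and `F / L(s)` are algebraic and `Λ ⊆ E` contains (the images of) `W` and `s`, then
every element of `E` is a fraction of elements of the integral closure `B` of `Λ` in `E`. -/
def sIIB_FracStatement : Prop :=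
  ∀ (N : ℕ) [NeZero N] (L : Type) [Field L] [Algebra ℚ L] (W : ValuationSubring L)
    (E : Type) [Field E] [Algebra ↥(FL L N) E] (Λ : Subring E) (s : ↥(FL L N)),
    Algebra.IsAlgebraic ↥(FL L N) E →
    Algebra.IsAlgebraic ↥(IntermediateField.adjoin L {s}) ↥(FL L N) →
    (∀ w : ↥W, cWE W N E w ∈ Λ) → algebraMap ↥(FL L N) E s ∈ Λ →
    ∀ x : E, ∃ a ∈ (integralClosure ↥Λ E).toSubring, ∃ b ∈ (integralClosure ↥Λ E).toSubring,
      b ≠ 0 ∧ x * b = a

/-! ## Package Res (RF) -/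

/-- (RF) For a FINITE set `S ⊆ F` and a maximal ideal `n ∋ ϖ` of `A = chart W N S`: `W → A / n` is
surjective, and every monic polynomial of positive degree over `A` has a root modulo `n`. -/
def sIIB_ResStatement : Prop :=
  ∀ (N : ℕ) [NeZero N] (ℓ : ℕ) [Fact ℓ.Prime] (L : Type) [Field L] [Algebra ℚ L]
    (W : ValuationSubring L) [IsDiscreteValuationRing ↥W] (k : Type) [Field k] [IsAlgClosed k]
    [CharP k ℓ] (res : ↥W →+* k) (ϖ : ↥W), BaseData N ℓ W res ϖ →
    ∀ S : Set ↥(FL L N), S.Finite →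
    ∀ (n : Ideal ↥(chart W N S)) [n.IsMaximal] (ϖc : ↥(chart W N S)),
      (ϖc : ↥(FL L N)) = cW W N ϖ → ϖc ∈ n →
      (∀ a : ↥(chart W N S), ∃ (w : ↥W) (wc : ↥(chart W N S)),
        (wc : ↥(FL L N)) = cW W N w ∧ a - wc ∈ n) ∧
      (∀ p : Polynomial ↥(chart W N S), p.Monic → 0 < p.natDegree →
        ∃ a : ↥(chart W N S), p.eval a ∈ n)

/-! ## Package Glue (GL): pure algebra inside a field -/

/-- (GL)(a) `A ≤ A' ⊆ A[1/σ]`, `m` a maximal ideal of `A` with `σ ∉ m`: there is a maximal ideal `n` of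
`A'` with `n ∩ A = m` and the same local ring. -/
def sIIB_GlueAStatement : Prop :=
  ∀ (F : Type) [Field F] (A A' : Subring F) (hle : A ≤ A') (σ : ↥A),
    (∀ a' ∈ A', ∃ k : ℕ, (σ : F) ^ k * a' ∈ A) →
    ∀ (m : Ideal ↥A) [m.IsMaximal], σ ∉ m →
    ∃ (n : Ideal ↥A') (hn : n.IsMaximal), n.comap (Subring.inclusion hle) = m ∧
      @locSub F _ A' n hn.isPrime = locSub A m

/-- (GL)(b) `A ≤ A' ⊆ A[1/σ]`, `1/σ ∈ A'`, `n` a prime ideal of `A'`, `m := n ∩ A`: `σ ∉ m` and `A_m = A'_n`. -/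
def sIIB_GlueBStatement : Prop :=
  ∀ (F : Type) [Field F] (A A' : Subring F) (hle : A ≤ A') (σ : ↥A), (σ : F) ≠ 0 →
    (σ : F)⁻¹ ∈ A' → (∀ a' ∈ A', ∃ k : ℕ, (σ : F) ^ k * a' ∈ A) →
    ∀ (n : Ideal ↥A') [n.IsPrime],
      σ ∉ n.comap (Subring.inclusion hle) ∧
      locSub A (n.comap (Subring.inclusion hle)) = locSub A' n

/-- (TR) Transfer of `IsDVRQuot` between two primes with the same local ring (uses `LocSubStatement`). -/
def sIIB_TransferStatement : Prop :=
  ∀ (F : Type) [Field F] (A A' : Subring F) (P : Ideal ↥A) [P.IsPrime] (P' : Ideal ↥A')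
    [P'.IsPrime] (x : ↥A) (x' : ↥A'), locSub A P = locSub A' P' → (x : F) = (x' : F) →
    IsDVRQuot (Localization.AtPrime P') (algebraMap ↥A' (Localization.AtPrime P') x') →
    IsDVRQuot (Localization.AtPrime P) (algebraMap ↥A (Localization.AtPrime P) x)

/-- `A ≤ A' ⊆ A[1/σ]`, `1/σ ∈ A'` (so `A' = A[1/σ]`), `A` noetherian: `A'` is noetherian. -/
def sIIB_NoethLocStatement : Prop :=
  ∀ (F : Type) [Field F] (A A' : Subring F) (σ : F), A ≤ A' → σ ≠ 0 → σ ∈ A → σ⁻¹ ∈ A' →
    (∀ a' ∈ A', ∃ k : ℕ, σ ^ k * a' ∈ A) → IsNoetherianRing ↥A → IsNoetherianRing ↥A'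

/-! ## Package Clear (clearing lemma and its three applications to the charts) -/

/-- (CL) `R ≤ R' ⊆ R[1/σ]`: if `x` is integral over `R'` then `σ ^ k * x` is integral over `R` for some `k`. -/
def sIIB_ClearStatement : Prop :=
  ∀ (F : Type) [Field F] (R R' : Subring F) (σ : F), σ ∈ R → R ≤ R' →
    (∀ y ∈ R', ∃ k : ℕ, σ ^ k * y ∈ R) →
    ∀ x : F, IsIntegral ↥R' x → ∃ k : ℕ, IsIntegral ↥R (σ ^ k * x)

/-- The three instances of the clearing lemma for the charts. -/
def sIIB_ClearChartStatement : Prop :=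
  ∀ (N : ℕ) [NeZero N] (L : Type) [Field L] [Algebra ℚ L] (W : ValuationSubring L),
    jF L N ≠ 0 → jF L N - 1728 ≠ 0 →
    (∀ x ∈ chart W N (sIIB_S2 L N), ∃ k : ℕ, (1 - 1728 * (jF L N)⁻¹) ^ k * x ∈ chart2 W N) ∧
    (∀ x ∈ chart12 W N, ∃ k : ℕ, ((jF L N)⁻¹) ^ k * x ∈ chart2 W N) ∧
    (∀ x ∈ chart12 W N, ∃ k : ℕ, (jF L N) ^ k * x ∈ chart1 W N)

/-! ## Package Id (identification `B ∩ F = chart W N S`, elementary hypotheses of the quotient lemma) -/

/-- (D1/D2) If the images of the elements of `S` lie in `Λ = W[t, 1/h(t)]` and `t`, `1/h(t)` are integral over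
`W[S]` (inside `E`), then `B ∩ F = chart W N S`. -/
def sIIB_IdStatement : Prop :=
  ∀ (N : ℕ) [NeZero N] (L : Type) [Field L] [Algebra ℚ L] (W : ValuationSubring L)
    (E : Type) [Field E] [Algebra ↥(FL L N) E] (t : E) (h : Polynomial ↥W) (S : Set ↥(FL L N)),
    (∀ s ∈ S, algebraMap ↥(FL L N) E s ∈ coverRing W N E t h) →
    IsIntegral ↥(baseRingE W N E (algebraMap ↥(FL L N) E '' S)) t →
    IsIntegral ↥(baseRingE W N E (algebraMap ↥(FL L N) E '' S)) (evWE W N E t h)⁻¹ →
    (integralClosure ↥(coverRing W N E t h) E).toSubring.comap (algebraMap ↥(FL L N) E) =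
      chart W N S

/-- Elementary hypotheses of the quotient lemma: `B` is integrally closed in `E`, stable under the
automorphisms stabilising `Λ`, and `E = F₀(t)` with `t` integral is finite over `F₀`. -/
def sIIB_ElemStatement : Prop :=
  ∀ (F₀ E : Type) [Field F₀] [Field E] [Algebra F₀ E] (Λ : Subring E),
    (∀ x : E, IsIntegral ↥(integralClosure ↥Λ E).toSubring x →
      x ∈ (integralClosure ↥Λ E).toSubring) ∧
    ((∀ (σ : E ≃ₐ[F₀] E), ∀ x ∈ Λ, σ x ∈ Λ) →
      ∀ (σ : E ≃ₐ[F₀] E), ∀ x ∈ (integralClosure ↥Λ E).toSubring,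
        σ x ∈ (integralClosure ↥Λ E).toSubring) ∧
    (∀ t : E, IsIntegral F₀ t → IntermediateField.adjoin F₀ {t} = ⊤ → FiniteDimensional F₀ E)

/-! ## Package Desc (uniform descent by the quotient lemma) -/

/-- (D1/D2, uniform) Descent from a cover: if `B_M / ϖ` is a DVR for every maximal ideal `M ∋ ϖ` of `B`,
then `chart W N S` is smooth at every maximal ideal containing `ϖ` (`S` finite, `s ∈ S` with `F / L(s)`
algebraic, `S ⊆ Λ`, `Λ` integral over `W[S]`, `chart W N S` noetherian). -/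
def sIIB_DescStatement : Prop :=
  ∀ (N : ℕ) [NeZero N] (ℓ : ℕ) [Fact ℓ.Prime] (L : Type) [Field L] [Algebra ℚ L]
    (W : ValuationSubring L) [IsDiscreteValuationRing ↥W] (k : Type) [Field k] [IsAlgClosed k]
    [CharP k ℓ] (res : ↥W →+* k) (ϖ : ↥W), BaseData N ℓ W res ϖ →
    ∀ (E : Type) [Field E] [Algebra ↥(FL L N) E] (t : E) (h : Polynomial ↥W),
      IsCoverBase W res N E t h →
      ∀ (S : Set ↥(FL L N)) (s : ↥(FL L N)), S.Finite → s ∈ S →
        Algebra.IsAlgebraic ↥(IntermediateField.adjoin L {s}) ↥(FL L N) →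
        (∀ x ∈ S, algebraMap ↥(FL L N) E x ∈ coverRing W N E t h) →
        IsIntegral ↥(baseRingE W N E (algebraMap ↥(FL L N) E '' S)) t →
        IsIntegral ↥(baseRingE W N E (algebraMap ↥(FL L N) E '' S)) (evWE W N E t h)⁻¹ →
        IsNoetherianRing ↥(chart W N S) →
        (∀ (M : Ideal ↥(integralClosure ↥(coverRing W N E t h) E).toSubring) [M.IsMaximal]
          (ϖB : ↥(integralClosure ↥(coverRing W N E t h) E).toSubring),
          (ϖB : E) = cWE W N E ϖ → ϖB ∈ M →
          IsDVRQuot (Localization.AtPrime M)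
            (algebraMap ↥(integralClosure ↥(coverRing W N E t h) E).toSubring
              (Localization.AtPrime M) ϖB)) →
        sIIB_SmChart N W ϖ S

/-! ## Package X2 (from `chart W N S₂` to the cuspidal part of `chart2`) -/

/-- (D2, glue part) Smoothness of `chart W N S₂` at all maximal ideals containing `ϖ` gives smoothness of
`chart2` at the maximal ideals containing `ϖ` and `1/j`. -/
def sIIB_X2Statement : Prop :=
  ∀ (N : ℕ) [NeZero N] (L : Type) [Field L] [Algebra ℚ L] (W : ValuationSubring L) (ϖ : ↥W),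
    jF L N ≠ 0 → jF L N - 1728 ≠ 0 → sIIB_SmChart N W ϖ (sIIB_S2 L N) →
    ∀ (m : Ideal ↥(chart2 W N)) [m.IsMaximal] (ϖc ji : ↥(chart2 W N)),
      (ϖc : ↥(FL L N)) = cW W N ϖ → ϖc ∈ m → (ji : ↥(FL L N)) = (jF L N)⁻¹ → ji ∈ m →
      IsDVRQuot (Localization.AtPrime m) (algebraMap ↥(chart2 W N) (Localization.AtPrime m) ϖc)

end

end Fermat.Agent.S18
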