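/-
S18 — block S-II (twin B), package SIIB-Clear: the clearing lemma (CL) for integral closures, its three
instances for the charts, `A[1/σ]` noetherian, and the transfer of `IsDVRQuot` between two primes with
the same local ring.  Name prefix `sIIB_clear_`.
-/
import Fermat.Agent.S18.SIIBInterfaces

set_option autoImplicit false

open ModularCurve AlgebraicCurve Polynomial

namespace Fermat.Agent.S18

/-! ## (TR) Transfer of `IsDVRQuot` -/

/-- Transport of `IsDVRQuot` along an equality of subrings of a field. -/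
theorem sIIB_clear_subst {F : Type*} [Field F] (R R' : Subring F) (h : R = R') (y : F)
    (hy : y ∈ R) (hy' : y ∈ R') (hd : IsDVRQuot ↥R ⟨y, hy⟩) : IsDVRQuot ↥R' ⟨y, hy'⟩ := by
  subst h
  exact hd

theorem sIIB_clear_transfer (hLoc : LocSubStatement) : sIIB_TransferStatement := by
  intro F _ A A' P _ P' _ x x' hloc hxx' hd
  have hx' : (x' : F) ∈ locSub A' P' := le_locSub A' P' x'.2
  have hx : (x : F) ∈ locSub A P := le_locSub A P x.2
  have h1 : IsDVRQuot ↥(locSub A' P') ⟨(x' : F), hx'⟩ := (hLoc F A' P' x' hx').1 hd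
  refine (hLoc F A P x hx).2 ?_
  have hx2 : (x' : F) ∈ locSub A P := hxx' ▸ hx
  have h2 : IsDVRQuot ↥(locSub A P) ⟨(x' : F), hx2⟩ :=
    sIIB_clear_subst (locSub A' P') (locSub A P) hloc.symm (x' : F) hx' hx2 h1
  have h3 : (⟨(x : F), hx⟩ : ↥(locSub A P)) = ⟨(x' : F), hx2⟩ := Subtype.ext hxx'
  rw [h3]
  exact h2

/-! ## (CL) The clearing lemma -/

/-- If `σ ^ k * y ∈ R` and `σ ∈ R`, then `σ ^ l * y ∈ R` for every `l ≥ k`. -/
theorem sIIB_clear_pow_mono {F : Type*} [Field F] (R : Subring F) {σ : F} (hσ : σ ∈ R) {y : F}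
    {k l : ℕ} (h : σ ^ k * y ∈ R) (hkl : k ≤ l) : σ ^ l * y ∈ R := by
  obtain ⟨m, rfl⟩ := Nat.exists_eq_add_of_le hkl
  have h1 : σ ^ (k + m) * y = σ ^ m * (σ ^ k * y) := by ring
  rw [h1]
  exact R.mul_mem (R.pow_mem hσ m) h

/-- A monic polynomial over the ambient field with coefficients in `R` and root `z` witnesses the
integrality of `z` over `R`. -/
theorem sIIB_clear_isIntegral_of_coeff {F : Type*} [Field F] (R : Subring F) (Q : F[X])
    (hQm : Q.Monic) (hQc : ∀ i, Q.coeff i ∈ R) (z : F) (hQz : Q.eval z = 0) : IsIntegral ↥R z := by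
  have hsub : (↑Q.coeffs : Set F) ⊆ ↑R := by
    intro c hc
    obtain ⟨i, -, rfl⟩ := Polynomial.mem_coeffs_iff.1 hc
    exact hQc i
  refine ⟨Q.toSubring R hsub, (Polynomial.monic_toSubring Q R hsub).2 hQm, ?_⟩
  have h : Polynomial.eval₂ R.subtype z (Q.toSubring R hsub) = 0 := by
    rw [← Polynomial.eval_map, Polynomial.map_toSubring]
    exact hQz
  exact h

theorem sIIB_clear_main : sIIB_ClearStatement := by
  intro F _ R R' σ hσ _ hclear x hx
  obtain ⟨p, hpm, hpx⟩ := hx
  -- pass to the polynomial `P` over `F`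
  have hPm : (p.map R'.subtype).Monic := hpm.map _
  have hPx : (p.map R'.subtype).eval x = 0 := by
    rw [Polynomial.eval_map]
    exact hpx
  have hPc : ∀ i, (p.map R'.subtype).coeff i ∈ R' := by
    intro i
    rw [Polynomial.coeff_map]
    exact (p.coeff i).2
  generalize p.map R'.subtype = P at hPm hPx hPc
  -- a uniform exponent for all the coefficients
  choose! f hf using hclear
  have hk : ∀ i, σ ^ (P.support.sup fun i => f (P.coeff i)) * P.coeff i ∈ R := by
    intro i
    by_cases hi : i ∈ P.support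
    · exact sIIB_clear_pow_mono R hσ (hf _ (hPc i))
        (Finset.le_sup (f := fun i => f (P.coeff i)) hi)
    · rw [Polynomial.notMem_support_iff.1 hi, mul_zero]
      exact R.zero_mem
  generalize (P.support.sup fun i => f (P.coeff i)) = k at hk
  refine ⟨k, ?_⟩
  -- the scaled polynomial
  refine sIIB_clear_isIntegral_of_coeff R (P.scaleRoots (σ ^ k))
    ((Polynomial.monic_scaleRoots_iff _).2 hPm) ?_ (σ ^ k * x) ?_
  · intro i
    rw [Polynomial.coeff_scaleRoots]
    rcases lt_trichotomy i P.natDegree with hi | hi | hi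
    · obtain ⟨e, he⟩ : ∃ e : ℕ, P.natDegree - i = e + 1 := ⟨P.natDegree - i - 1, by omega⟩
      have h1 : P.coeff i * (σ ^ k) ^ (P.natDegree - i) = (σ ^ k) ^ e * (σ ^ k * P.coeff i) := by
        rw [he, pow_succ]
        ring
      rw [h1]
      exact R.mul_mem (R.pow_mem (R.pow_mem hσ k) e) (hk i)
    · rw [hi, Nat.sub_self, pow_zero, mul_one, hPm.coeff_natDegree]
      exact R.one_mem
    · rw [Polynomial.coeff_eq_zero_of_natDegree_lt hi, zero_mul]
      exact R.zero_mem
  · rw [Polynomial.scaleRoots_eval_mul, hPx, mul_zero]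

/-! ## The three chart instances -/

/-- If the generators of a subring can be multiplied into `R` by a power of `σ ∈ R`, then so can every
element of the subring they generate. -/
theorem sIIB_clear_closure {F : Type*} [Field F] (R : Subring F) {σ : F} (hσ : σ ∈ R) (X : Set F)
    (hX : ∀ x ∈ X, ∃ k : ℕ, σ ^ k * x ∈ R) :
    ∀ y ∈ Subring.closure X, ∃ k : ℕ, σ ^ k * y ∈ R := by
  intro y hy
  induction hy using Subring.closure_induction with
  | mem x hx => exact hX x hx
  | zero => exact ⟨0, by rw [mul_zero]; exact R.zero_mem⟩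
  | one => exact ⟨0, by rw [pow_zero, mul_one]; exact R.one_mem⟩
  | add a b _ _ ha hb =>
    obtain ⟨k, hk⟩ := ha
    obtain ⟨l, hl⟩ := hb
    refine ⟨k + l, ?_⟩
    rw [mul_add]
    exact R.add_mem (sIIB_clear_pow_mono R hσ hk (Nat.le_add_right k l))
      (sIIB_clear_pow_mono R hσ hl (Nat.le_add_left l k))
  | neg a _ ha =>
    obtain ⟨k, hk⟩ := ha
    exact ⟨k, by rw [mul_neg]; exact R.neg_mem hk⟩
  | mul a b _ _ ha hb =>
    obtain ⟨k, hk⟩ := ha
    obtain ⟨l, hl⟩ := hb
    refine ⟨k + l, ?_⟩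
    have h1 : σ ^ (k + l) * (a * b) = (σ ^ k * a) * (σ ^ l * b) := by ring
    rw [h1]
    exact R.mul_mem hk hl

/-- Field identity behind the first chart instance. -/
theorem sIIB_clear_field_id {F : Type*} [Field F] (j : F) (hj : j ≠ 0) (hj' : j - 1728 ≠ 0) :
    (1 - 1728 * j⁻¹) ^ 1 * (j / (j - 1728)) = 1 := by
  field_simp

/-- The clearing lemma for two charts `chart W N S ⊆ chart W N S'` with `S ⊆ S'`, when the elements of
`S'` can be multiplied into `W[S]` by powers of `σ ∈ W[S]`. -/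
theorem sIIB_clear_chart_aux {L : Type} [Field L] [Algebra ℚ L] (W : ValuationSubring L) (N : ℕ)
    (S S' : Set ↥(FL L N)) (σ : ↥(FL L N)) (hσ : σ ∈ baseRing W N S) (hSS' : S ⊆ S')
    (hS' : ∀ t ∈ S', ∃ k : ℕ, σ ^ k * t ∈ baseRing W N S) :
    ∀ x ∈ chart W N S', ∃ k : ℕ, σ ^ k * x ∈ chart W N S := by
  intro x hx
  have hgen : ∀ y ∈ baseRing W N S', ∃ k : ℕ, σ ^ k * y ∈ baseRing W N S := by
    refine sIIB_clear_closure (baseRing W N S) hσ _ ?_
    rintro t (⟨w, rfl⟩ | ht)
    · exact ⟨0, by rw [pow_zero, one_mul]; exact sIIB_cW_mem_baseRing W N S w⟩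
    · exact hS' t ht
  exact sIIB_clear_main ↥(FL L N) (baseRing W N S) (baseRing W N S') σ hσ
    (sIIB_baseRing_mono W N hSS') hgen x hx

theorem sIIB_clear_chart : sIIB_ClearChartStatement := by
  intro N _ L _ _ W hj hj'
  refine ⟨?_, ?_, ?_⟩
  · refine sIIB_clear_chart_aux W N {(jF L N)⁻¹} (sIIB_S2 L N) (1 - 1728 * (jF L N)⁻¹) ?_ ?_ ?_
    · exact Subring.sub_mem _ (Subring.one_mem _)
        (Subring.mul_mem _ (ofNat_mem _ 1728) (sIIB_mem_baseRing W N rfl))
    · exact Set.singleton_subset_iff.2 (Set.mem_insert _ _)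
    · intro t ht
      rcases ht with rfl | ht
      · exact ⟨0, by rw [pow_zero, one_mul]; exact sIIB_mem_baseRing W N rfl⟩
      · rw [Set.mem_singleton_iff] at ht
        subst ht
        exact ⟨1, by rw [sIIB_clear_field_id _ hj hj']; exact Subring.one_mem _⟩
  · refine sIIB_clear_chart_aux W N {(jF L N)⁻¹} {jF L N, (jF L N)⁻¹} (jF L N)⁻¹
      (sIIB_mem_baseRing W N rfl) ?_ ?_
    · exact Set.singleton_subset_iff.2 (Set.mem_insert_of_mem _ rfl)
    · intro t ht
      rcases ht with rfl | ht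
      · exact ⟨1, by rw [pow_one, inv_mul_cancel₀ hj]; exact Subring.one_mem _⟩
      · rw [Set.mem_singleton_iff] at ht
        subst ht
        exact ⟨0, by rw [pow_zero, one_mul]; exact sIIB_mem_baseRing W N rfl⟩
  · refine sIIB_clear_chart_aux W N {jF L N} {jF L N, (jF L N)⁻¹} (jF L N)
      (sIIB_mem_baseRing W N rfl) ?_ ?_
    · exact Set.singleton_subset_iff.2 (Set.mem_insert _ _)
    · intro t ht
      rcases ht with rfl | ht
      · exact ⟨0, by rw [pow_zero, one_mul]; exact sIIB_mem_baseRing W N rfl⟩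
      · rw [Set.mem_singleton_iff] at ht
        subst ht
        exact ⟨1, by rw [pow_one, mul_inv_cancel₀ hj]; exact Subring.one_mem _⟩

/-! ## `A[1/σ]` is noetherian -/

theorem sIIB_clear_noethLoc : sIIB_NoethLocStatement := by
  intro F _ A A' σ hle hσ0 _ hσinv hclear hA
  have hAn : IsNoetherianRing ↥A := hA
  have hsurj : Function.Surjective
      (Polynomial.eval₂RingHom (Subring.inclusion hle) (⟨σ⁻¹, hσinv⟩ : ↥A')) := by
    intro a'
    obtain ⟨k, hk⟩ := hclear a'.1 a'.2
    refine ⟨Polynomial.C ⟨σ ^ k * a'.1, hk⟩ * Polynomial.X ^ k, ?_⟩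
    apply Subtype.ext
    rw [Polynomial.coe_eval₂RingHom, Polynomial.eval₂_mul, Polynomial.eval₂_C,
      Polynomial.eval₂_pow, Polynomial.eval₂_X]
    change σ ^ k * a'.1 * σ⁻¹ ^ k = a'.1
    rw [mul_comm (σ ^ k) a'.1, mul_assoc, ← mul_pow, mul_inv_cancel₀ hσ0, one_pow, mul_one]
  exact isNoetherianRing_of_surjective (Polynomial ↥A) ↥A' _ hsurj

end Fermat.Agent.S18
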