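/-
S18 — block S-II (twin B): the fraction field of `W[s]` inside `F` is `L(s)` (elementwise form).
Prefix `sIIB_fracField_`.  Shared helper for the packages Noeth and Frac.
-/
import Fermat.Agent.S18.SIIBInterfaces

set_option autoImplicit false

open ModularCurve AlgebraicCurve Polynomial

namespace Fermat.Agent.S18

/-- General form: `L = Frac W`, `F / L` a field extension, `S ⊆ F`.  Every element of `L(S)` is a fraction of
elements of the subring generated by (the image of) `W` and `S`. -/
theorem sIIB_fracField_gen {L F : Type*} [Field L] [Field F] [Algebra L F] (W : ValuationSubring L)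
    (S : Set F) (z : F) (hz : z ∈ IntermediateField.adjoin L S) :
    ∃ x ∈ Subring.closure (Set.range ((algebraMap L F).comp W.subtype) ∪ S),
      ∃ y ∈ Subring.closure (Set.range ((algebraMap L F).comp W.subtype) ∪ S), y ≠ 0 ∧ z * y = x := by
  have hle : Subfield.closure (Set.range (algebraMap L F) ∪ S) ≤
      Subfield.closure (Set.range ((algebraMap L F).comp W.subtype) ∪ S) := by
    rw [Subfield.closure_le]
    rintro x (⟨c, rfl⟩ | hx)
    · obtain ⟨a, b, hb, rfl⟩ := IsFractionRing.div_surjective (A := ↥W) c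
      rw [map_div₀]
      exact div_mem (Subfield.subset_closure (Or.inl ⟨a, rfl⟩))
        (Subfield.subset_closure (Or.inl ⟨b, rfl⟩))
    · exact Subfield.subset_closure (Or.inr hx)
  have hz' : z ∈ Subfield.closure (Set.range ((algebraMap L F).comp W.subtype) ∪ S) := hle hz
  obtain ⟨x, hx, y, hy, rfl⟩ := Subfield.mem_closure_iff.1 hz'
  by_cases hy0 : y = 0
  · refine ⟨0, zero_mem _, 1, one_mem _, one_ne_zero, ?_⟩
    rw [hy0, div_zero, zero_mul]
  · exact ⟨x, hx, y, hy, hy0, div_mul_cancel₀ x hy0⟩

/-- Every element of `L(S) ⊆ F_L` is a fraction of elements of `W[S] = baseRing W N S`. -/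
theorem sIIB_fracField_baseRing {L : Type} [Field L] [Algebra ℚ L] (W : ValuationSubring L) (N : ℕ)
    (S : Set ↥(FL L N)) (z : ↥(FL L N)) (hz : z ∈ IntermediateField.adjoin L S) :
    ∃ x ∈ baseRing W N S, ∃ y ∈ baseRing W N S, y ≠ 0 ∧ z * y = x :=
  sIIB_fracField_gen W S z hz

/-- `W[S] ⊆ L(S)`. -/
theorem sIIB_fracField_baseRing_le {L : Type} [Field L] [Algebra ℚ L] (W : ValuationSubring L)
    (N : ℕ) (S : Set ↥(FL L N)) :
    baseRing W N S ≤ (IntermediateField.adjoin L S).toSubfield.toSubring := by
  refine Subring.closure_le.2 ?_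
  rintro x (⟨w, rfl⟩ | hx)
  · exact (IntermediateField.adjoin L S).algebraMap_mem (w : L)
  · exact IntermediateField.subset_adjoin L S hx

end Fermat.Agent.S18
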