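/-
S18 — block S-II (twin B), package Frac: every element of the cover field `E` is a fraction of elements of
the integral closure `B` of `Λ` in `E` (hypothesis (Q2) of the quotient lemma).  Prefix `sIIB_frac_`.
-/
import Fermat.Agent.S18.SIIBInterfaces
import Fermat.Agent.S18.SIIBFracField
set_option autoImplicit false
open ModularCurve AlgebraicCurve Polynomial
namespace Fermat.Agent.S18

/-- `R ⊆ K ⊆ F` with `K` the fraction field of `R` (elementwise) and `F / K` algebraic: `F` is algebraic
over `R`. -/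
theorem sIIB_frac_alg {L F : Type*} [Field L] [Field F] [Algebra L F] (R : Subring F)
    (K : IntermediateField L F) (hRK : R ≤ K.toSubfield.toSubring)
    (hfrac : ∀ z ∈ K, ∃ x ∈ R, ∃ y ∈ R, y ≠ 0 ∧ z * y = x)
    (halg : Algebra.IsAlgebraic ↥K F) : Algebra.IsAlgebraic ↥R F := by
  let _ : Algebra ↥R ↥K := (R.subtype.codRestrict K (fun r => hRK r.2)).toAlgebra
  have _ : IsScalarTower ↥R ↥K F := IsScalarTower.of_algebraMap_eq (fun _ => rfl)
  have _ : FaithfulSMul ↥R ↥K :=
    (faithfulSMul_iff_algebraMap_injective _ _).2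
      (fun a b h => Subtype.ext (congrArg (fun z : ↥K => (z : F)) h))
  have _ : IsFractionRing ↥R ↥K := IsFractionRing.of_field ↥R ↥K (fun z => by
    obtain ⟨x, hx, y, hy, hy0, h⟩ := hfrac z z.2
    refine ⟨⟨x, hx⟩, ⟨y, hy⟩, ?_⟩
    apply Subtype.ext
    change (z : F) = x / y
    rw [eq_div_iff hy0]
    exact h)
  exact IsFractionRing.comap_isAlgebraic_iff.mpr halg

/-- `F` algebraic over the subring `R`, `E / F` algebraic, `Λ ⊆ E` containing the image of `R`: every
element of `E` is a fraction of elements of the integral closure of `Λ` in `E`. -/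
theorem sIIB_frac_gen {F E : Type*} [Field F] [Field E] [Algebra F E] (R : Subring F) (Λ : Subring E)
    (hR : Algebra.IsAlgebraic ↥R F) (hE : Algebra.IsAlgebraic F E)
    (hmap : ∀ r ∈ R, algebraMap F E r ∈ Λ) (x : E) :
    ∃ a ∈ (integralClosure ↥Λ E).toSubring, ∃ b ∈ (integralClosure ↥Λ E).toSubring,
      b ≠ 0 ∧ x * b = a := by
  let _ : Algebra ↥R E := ((algebraMap F E).comp R.subtype).toAlgebra
  have _ : IsScalarTower ↥R F E := IsScalarTower.of_algebraMap_eq (fun _ => rfl)
  have hx : IsAlgebraic ↥R x := (Algebra.IsAlgebraic.trans ↥R F E).isAlgebraic x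
  obtain ⟨y, hy0, hy⟩ := hx.exists_integral_multiple
  have hyΛ : algebraMap F E (y : F) ∈ Λ := hmap _ y.2
  have hyx : y • x = algebraMap F E (y : F) * x := Algebra.smul_def y x
  rw [hyx] at hy
  refine ⟨x * algebraMap F E (y : F), ?_, algebraMap F E (y : F), ?_, ?_, rfl⟩
  · have h1 : IsIntegral ↥Λ (algebraMap F E (y : F) * x) :=
      IsIntegral.map_of_comp_eq
        (((algebraMap F E).comp R.subtype).codRestrict Λ (fun r => hmap _ r.2)) (RingHom.id E) rfl hy
    rw [mul_comm]
    exact h1
  · exact isIntegral_algebraMap (R := ↥Λ) (x := ⟨_, hyΛ⟩)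
  · intro h
    apply hy0
    apply Subtype.ext
    exact (map_eq_zero (algebraMap F E)).1 h

theorem sIIB_frac_main : sIIB_FracStatement := by
  intro N _ L _ _ W E _ _ Λ s hE hF hW hs x
  have hR : Algebra.IsAlgebraic ↥(baseRing W N {s}) ↥(FL L N) :=
    sIIB_frac_alg (baseRing W N {s}) (IntermediateField.adjoin L {s})
      (sIIB_fracField_baseRing_le W N {s})
      (fun z hz => sIIB_fracField_baseRing W N {s} z hz) hF
  have hle : baseRing W N {s} ≤ Λ.comap (algebraMap ↥(FL L N) E) := by
    refine Subring.closure_le.2 ?_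
    rintro y (⟨w, rfl⟩ | hy)
    · exact hW w
    · rw [Set.mem_singleton_iff] at hy
      subst hy
      exact hs
  exact sIIB_frac_gen (baseRing W N {s}) Λ hR hE (fun r hr => hle hr) x

end Fermat.Agent.S18
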