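/-
S18 — block S-II (twin B), package G: glueing of the two charts (`SmGlueStatement`), assembled from the
block's black-box statements.  Namespace `Fermat.Agent.S18`, prefix `sIIB_g_`.
-/
import Fermat.Agent.S18.SIIBInterfaces
set_option autoImplicit false
open ModularCurve AlgebraicCurve Polynomial
namespace Fermat.Agent.S18

/-- The preimage of a maximal ideal `n` along a ring homomorphism which is surjective modulo `n` is a
maximal ideal. -/
theorem sIIB_g_comap_isMaximal {R S : Type*} [CommRing R] [CommRing S] (φ : R →+* S) (n : Ideal S)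
    [hn : n.IsMaximal] (hsurj : ∀ a : S, ∃ c : R, a - φ c ∈ n) : (n.comap φ).IsMaximal := by
  let _ := Ideal.Quotient.field n
  have hf : Function.Surjective ((Ideal.Quotient.mk n).comp φ) := by
    intro y
    obtain ⟨a, rfl⟩ := Ideal.Quotient.mk_surjective y
    obtain ⟨c, hc⟩ := hsurj a
    exact ⟨c, ((Ideal.Quotient.eq).2 hc).symm⟩
  have hmax : (Ideal.comap ((Ideal.Quotient.mk n).comp φ) ⊥).IsMaximal :=
    Ideal.comap_isMaximal_of_surjective _ hf
  have heq : Ideal.comap ((Ideal.Quotient.mk n).comp φ) ⊥ = n.comap φ := by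
    ext x
    simp only [Ideal.mem_comap, RingHom.comp_apply, Ideal.mem_bot, Ideal.Quotient.eq_zero_iff_mem]
  rw [← heq]
  exact hmax

/-- Abstract form of the glueing step: three subrings `A₁, A₂ ≤ A₁₂` of a field with
`A₁₂ ⊆ A₁[1/j] ∩ A₂[j]`; a maximal ideal of `A₂` not containing `1/j` has the same local ring as a
maximal ideal of `A₁`. -/
theorem sIIB_g_abs (hGA : sIIB_GlueAStatement) (hGB : sIIB_GlueBStatement)
    (hTr : sIIB_TransferStatement)
    (F : Type) [Field F] (A1 A2 A12 : Subring F) (hle1 : A1 ≤ A12) (hle2 : A2 ≤ A12)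
    (j : F) (hj0 : j ≠ 0) (hj1 : j ∈ A1) (hji2 : j⁻¹ ∈ A2)
    (hcl2 : ∀ x ∈ A12, ∃ k : ℕ, (j⁻¹) ^ k * x ∈ A2)
    (hcl1 : ∀ x ∈ A12, ∃ k : ℕ, j ^ k * x ∈ A1)
    (p : F) (hp1 : p ∈ A1)
    (hres : ∀ (n : Ideal ↥A12) [n.IsMaximal] (pc : ↥A12), (pc : F) = p → pc ∈ n →
      ∀ a : ↥A12, ∃ c : ↥A12, (c : F) ∈ A1 ∧ a - c ∈ n)
    (h1 : ∀ (m : Ideal ↥A1) [m.IsMaximal] (pc : ↥A1), (pc : F) = p → pc ∈ m →
      IsDVRQuot (Localization.AtPrime m) (algebraMap ↥A1 (Localization.AtPrime m) pc))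
    (m : Ideal ↥A2) [m.IsMaximal] (pc : ↥A2) (hpc : (pc : F) = p) (hpm : pc ∈ m)
    (hji : (⟨j⁻¹, hji2⟩ : ↥A2) ∉ m) :
    IsDVRQuot (Localization.AtPrime m) (algebraMap ↥A2 (Localization.AtPrime m) pc) := by
  obtain ⟨n, hn, hcomap, hloc⟩ := hGA F A2 A12 hle2 ⟨j⁻¹, hji2⟩ hcl2 m hji
  have := hn
  have hp12 : Subring.inclusion hle2 pc ∈ n := by
    have h : pc ∈ n.comap (Subring.inclusion hle2) := by rw [hcomap]; exact hpm
    exact h
  obtain ⟨-, hlocB⟩ := hGB F A1 A12 hle1 ⟨j, hj1⟩ hj0 (hle2 hji2) hcl1 n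
  have hmax : (n.comap (Subring.inclusion hle1)).IsMaximal := by
    refine sIIB_g_comap_isMaximal (Subring.inclusion hle1) n ?_
    intro a
    obtain ⟨c, hc1, hc⟩ := hres n (Subring.inclusion hle2 pc) hpc hp12 a
    refine ⟨⟨(c : F), hc1⟩, ?_⟩
    have hcc : Subring.inclusion hle1 ⟨(c : F), hc1⟩ = c := Subtype.ext rfl
    rw [hcc]
    exact hc
  have hp1m : (⟨p, hp1⟩ : ↥A1) ∈ n.comap (Subring.inclusion hle1) := by
    have hpp : Subring.inclusion hle1 ⟨p, hp1⟩ = Subring.inclusion hle2 pc := Subtype.ext hpc.symm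
    rw [Ideal.mem_comap, hpp]
    exact hp12
  have hdvr := h1 (n.comap (Subring.inclusion hle1)) ⟨p, hp1⟩ rfl hp1m
  exact hTr F A2 A1 m (n.comap (Subring.inclusion hle1)) pc ⟨p, hp1⟩
    (hloc.symm.trans hlocB.symm) hpc hdvr

/-- (S3) Glueing of the two charts, from the black-box statements of block S-II. -/
theorem sIIB_g_main : FinLStatement → sIIB_GlueAStatement → sIIB_GlueBStatement →
    sIIB_ClearChartStatement → sIIB_TransferStatement → sIIB_ResStatement → SmGlueStatement := by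
  intro hFin hGA hGB hCl hTr hRes N _ ℓ _ L _ _ W _ k _ _ _ res ϖ hD h1 h2
  obtain ⟨hj0, hj1⟩ := sIIB_j_ne hFin N L
  rintro S (rfl | rfl) m _ ϖc hϖc hϖm
  · exact h1 m ϖc hϖc hϖm
  · by_cases hji : (⟨(jF L N)⁻¹, sIIB_mem_chart W N rfl⟩ : ↥(chart2 W N)) ∈ m
    · exact h2 m ϖc _ hϖc hϖm rfl hji
    · have hle1 : chart1 W N ≤ chart12 W N :=
        sIIB_chart_mono W N (Set.singleton_subset_iff.2 (Set.mem_insert _ _))
      have hle2 : chart2 W N ≤ chart12 W N :=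
        sIIB_chart_mono W N (Set.singleton_subset_iff.2 (Set.mem_insert_of_mem _ rfl))
      refine sIIB_g_abs hGA hGB hTr ↥(FL L N) (chart1 W N) (chart2 W N) (chart12 W N) hle1 hle2
        (jF L N) hj0 (sIIB_mem_chart W N rfl) (sIIB_mem_chart W N rfl)
        (hCl N L W hj0 hj1).2.1 (hCl N L W hj0 hj1).2.2
        (cW W N ϖ) (sIIB_cW_mem_chart W N _ ϖ) ?_ h1 m ϖc hϖc hϖm hji
      intro n _ pc hpc hpn a
      obtain ⟨w, wc, hwc, hmem⟩ :=
        (hRes N ℓ L W k res ϖ hD {jF L N, (jF L N)⁻¹} (Set.toFinite _) n pc hpc hpn).1 a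
      exact ⟨wc, hwc ▸ sIIB_cW_mem_chart W N _ w, hmem⟩

end Fermat.Agent.S18
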