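import Fermat.Agent.S18.SIIBInterfaces

set_option autoImplicit false

open ModularCurve AlgebraicCurve Polynomial

namespace Fermat.Agent.S18

/-!
S18 — block S-II (twin B), package Glue (GL): pure commutative algebra inside a field.

`A ≤ A' ⊆ A[1/σ]` subrings of a field `F`.
* `sIIB_glue_b`: for a prime `n` of `A'` (with `1/σ ∈ A'`), `m := n ∩ A` does not contain `σ` and
  `A_m = A'_n` (as subrings of `F`).
* `sIIB_glue_a`: for a maximal ideal `m` of `A` with `σ ∉ m` there is a maximal ideal `n` of `A'` with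
  `n ∩ A = m` and `A'_n = A_m`.
-/

/-- If `σ ^ k * x ∈ A` then `σ ^ l * x ∈ A` for every `l ≥ k`. -/
theorem sIIB_glue_pow_mem {F : Type*} [Field F] (A : Subring F) (σ : ↥A) {x : F} {k : ℕ}
    (h : (σ : F) ^ k * x ∈ A) (l : ℕ) (hl : k ≤ l) : (σ : F) ^ l * x ∈ A := by
  obtain ⟨d, rfl⟩ := Nat.exists_eq_add_of_le hl
  have h1 : (σ : F) ^ (k + d) * x = (σ : F) ^ d * ((σ : F) ^ k * x) := by ring
  rw [h1]
  exact A.mul_mem (A.pow_mem σ.2 d) h

/-- Common denominators: two elements of `A'` are cleared by the same power of `σ`. -/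
theorem sIIB_glue_clear_two {F : Type*} [Field F] (A A' : Subring F) (σ : ↥A)
    (hCL : ∀ a' ∈ A', ∃ k : ℕ, (σ : F) ^ k * a' ∈ A) (x y : ↥A') :
    ∃ k : ℕ, (σ : F) ^ k * (x : F) ∈ A ∧ (σ : F) ^ k * (y : F) ∈ A := by
  obtain ⟨k₁, hk₁⟩ := hCL x x.2
  obtain ⟨k₂, hk₂⟩ := hCL y y.2
  exact ⟨max k₁ k₂, sIIB_glue_pow_mem A σ hk₁ _ (le_max_left _ _),
    sIIB_glue_pow_mem A σ hk₂ _ (le_max_right _ _)⟩

/-- (GL)(b). -/
theorem sIIB_glue_b : sIIB_GlueBStatement := by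
  intro F _ A A' hle σ hσ0 hσinv hCL n hn
  have hσn : σ ∉ n.comap (Subring.inclusion hle) := by
    intro hmem
    rw [Ideal.mem_comap] at hmem
    apply hn.ne_top
    rw [Ideal.eq_top_iff_one]
    have h1 : (1 : ↥A') = ⟨(σ : F)⁻¹, hσinv⟩ * Subring.inclusion hle σ := by
      apply Subtype.ext
      show (1 : F) = (σ : F)⁻¹ * (σ : F)
      rw [inv_mul_cancel₀ hσ0]
    rw [h1]
    exact n.mul_mem_left _ hmem
  refine ⟨hσn, ?_⟩
  apply le_antisymm
  · rintro x ⟨a, s, hs, h⟩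
    exact ⟨Subring.inclusion hle a, Subring.inclusion hle s, fun hmem => hs hmem, h⟩
  · rintro x ⟨a', s', hs', h⟩
    obtain ⟨k, ha, hs⟩ := sIIB_glue_clear_two A A' σ hCL a' s'
    refine ⟨⟨_, ha⟩, ⟨_, hs⟩, ?_, ?_⟩
    · intro hmem
      rw [Ideal.mem_comap] at hmem
      have h2 : Subring.inclusion hle ⟨_, hs⟩ = (Subring.inclusion hle σ) ^ k * s' :=
        Subtype.ext rfl
      rw [h2] at hmem
      rcases hn.mem_or_mem hmem with h3 | h3
      · exact hσn (Ideal.mem_comap.2 (hn.mem_of_pow_mem _ h3))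
      · exact hs' h3
    · show x * ((σ : F) ^ k * (s' : F)) = (σ : F) ^ k * (a' : F)
      rw [← h]; ring

/-- The ideal `n = {a' ∈ A' | ∃ k, σ ^ k * a' ∈ m}` of `A'` attached to an ideal `m` of `A`. -/
def sIIB_glue_ideal {F : Type*} [Field F] (A A' : Subring F) (σ : ↥A)
    (hCL : ∀ a' ∈ A', ∃ k : ℕ, (σ : F) ^ k * a' ∈ A) (m : Ideal ↥A) : Ideal ↥A' where
  carrier := {a' | ∃ k : ℕ, ∃ c ∈ m, (c : F) = (σ : F) ^ k * (a' : F)}
  add_mem' := by
    rintro x y ⟨k, c, hc, hcx⟩ ⟨l, d, hd, hdy⟩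
    refine ⟨k + l, σ ^ l * c + σ ^ k * d,
      m.add_mem (m.mul_mem_left _ hc) (m.mul_mem_left _ hd), ?_⟩
    show (σ : F) ^ l * (c : F) + (σ : F) ^ k * (d : F) = (σ : F) ^ (k + l) * ((x : F) + (y : F))
    rw [hcx, hdy]; ring
  zero_mem' := ⟨0, 0, m.zero_mem, by simp⟩
  smul_mem' := by
    rintro b x ⟨k, c, hc, hcx⟩
    obtain ⟨l, hl⟩ := hCL b b.2
    refine ⟨k + l, ⟨_, hl⟩ * c, m.mul_mem_left _ hc, ?_⟩
    show (σ : F) ^ l * (b : F) * (c : F) = (σ : F) ^ (k + l) * ((b : F) * (x : F))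
    rw [hcx]; ring

theorem sIIB_glue_mem_ideal {F : Type*} [Field F] (A A' : Subring F) (σ : ↥A)
    (hCL : ∀ a' ∈ A', ∃ k : ℕ, (σ : F) ^ k * a' ∈ A) (m : Ideal ↥A) (x : ↥A') :
    x ∈ sIIB_glue_ideal A A' σ hCL m ↔
      ∃ k : ℕ, ∃ c ∈ m, (c : F) = (σ : F) ^ k * (x : F) := Iff.rfl

/-- (GL)(a). -/
theorem sIIB_glue_a : sIIB_GlueAStatement := by
  intro F _ A A' hle σ hCL m hm hσm
  have hmp : m.IsPrime := hm.isPrime
  -- `σ ^ k * a ∈ m → a ∈ m`
  have hkey : ∀ (k : ℕ) (a : ↥A), σ ^ k * a ∈ m → a ∈ m := by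
    intro k a h
    rcases hmp.mem_or_mem h with h1 | h1
    · exact absurd (hmp.mem_of_pow_mem _ h1) hσm
    · exact h1
  have hmem_n : ∀ x : ↥A', x ∈ sIIB_glue_ideal A A' σ hCL m ↔
      ∃ k : ℕ, ∃ c ∈ m, (c : F) = (σ : F) ^ k * (x : F) := fun x => Iff.rfl
  have hcomap : (sIIB_glue_ideal A A' σ hCL m).comap (Subring.inclusion hle) = m := by
    ext a
    rw [Ideal.mem_comap, hmem_n]
    constructor
    · rintro ⟨k, c, hc, hca⟩
      apply hkey k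
      have h1 : σ ^ k * a = c := Subtype.ext hca.symm
      rw [h1]; exact hc
    · intro ha
      exact ⟨0, a, ha, by simp⟩
  have h1n : (1 : ↥A') ∉ sIIB_glue_ideal A A' σ hCL m := by
    rintro ⟨k, c, hc, hc1⟩
    apply hσm
    apply hmp.mem_of_pow_mem k
    have h1 : σ ^ k = c := Subtype.ext (by
      show (σ : F) ^ k = (c : F)
      rw [hc1]
      show (σ : F) ^ k = (σ : F) ^ k * (1 : F)
      rw [mul_one])
    rw [h1]; exact hc
  have hmax : (sIIB_glue_ideal A A' σ hCL m).IsMaximal := by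
    rw [Ideal.isMaximal_iff]
    refine ⟨h1n, ?_⟩
    intro J x hnJ hxn hxJ
    obtain ⟨k, hk⟩ := hCL x x.2
    have ham : (⟨_, hk⟩ : ↥A) ∉ m := fun h => hxn ⟨k, _, h, rfl⟩
    obtain ⟨c, i, hi, hci⟩ := hm.exists_inv ham
    have h1 : (1 : ↥A') =
        Subring.inclusion hle c * Subring.inclusion hle (σ ^ k) * x + Subring.inclusion hle i := by
      apply Subtype.ext
      have h2 := congrArg (fun z : ↥A => (z : F)) hci
      show (1 : F) = (c : F) * (σ : F) ^ k * (x : F) + (i : F)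
      rw [mul_assoc]
      exact h2.symm
    rw [h1]
    exact J.add_mem (J.mul_mem_left _ hxJ) (hnJ ⟨0, i, hi, by simp⟩)
  refine ⟨sIIB_glue_ideal A A' σ hCL m, hmax, hcomap, ?_⟩
  apply le_antisymm
  · rintro x ⟨a', s', hs', h⟩
    obtain ⟨k, ha, hs⟩ := sIIB_glue_clear_two A A' σ hCL a' s'
    refine ⟨⟨_, ha⟩, ⟨_, hs⟩, fun hmem => hs' ⟨k, _, hmem, rfl⟩, ?_⟩
    show x * ((σ : F) ^ k * (s' : F)) = (σ : F) ^ k * (a' : F)
    rw [← h]; ring
  · rintro x ⟨a, s, hs, h⟩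
    refine ⟨Subring.inclusion hle a, Subring.inclusion hle s, fun hmem => hs ?_, h⟩
    rw [← hcomap]
    exact hmem

end Fermat.Agent.S18
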