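/-
S18 — block S-II (twin B), package SIIB-Id: identification `B ∩ F = chart W N S` for the integral closure
`B` of the cover ring `Λ = W[t, 1/h(t)]` in `E`, and the elementary hypotheses of the quotient lemma
(`B` integrally closed in `E`, stable under the automorphisms stabilising `Λ`, `E = F₀(t)` finite over `F₀`).
Name prefix `sIIB_id_`.
-/
import Fermat.Agent.S18.SIIBInterfaces

set_option autoImplicit false

open ModularCurve AlgebraicCurve Polynomial

namespace Fermat.Agent.S18

noncomputable section

/-! ## General lemmas on integrality over subrings -/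

/-- The restriction of a ring homomorphism `f : A →+* B` to a subring `R`, with values in the image
subring `R.map f`. -/
def sIIB_id_res {A B : Type*} [CommRing A] [CommRing B] (f : A →+* B) (R : Subring A) :
    ↥R →+* ↥(R.map f) :=
  (f.comp R.subtype).codRestrict (R.map f) (fun r => ⟨r.1, r.2, rfl⟩)

theorem sIIB_id_res_comp {A B : Type*} [CommRing A] [CommRing B] (f : A →+* B) (R : Subring A) :
    (algebraMap ↥(R.map f) B).comp (sIIB_id_res f R) = f.comp (algebraMap ↥R A) := rfl

theorem sIIB_id_res_surjective {A B : Type*} [CommRing A] [CommRing B] (f : A →+* B)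
    (R : Subring A) : Function.Surjective (sIIB_id_res f R) := by
  rintro ⟨_, r, hr, rfl⟩
  exact ⟨⟨r, hr⟩, rfl⟩

/-- Integrality over a subring `R` gives integrality of the image over the image subring. -/
theorem sIIB_id_isIntegral_map {A B : Type*} [CommRing A] [CommRing B] (f : A →+* B)
    (R : Subring A) {x : A} (hx : IsIntegral ↥R x) : IsIntegral ↥(R.map f) (f x) :=
  IsIntegral.map_of_comp_eq (sIIB_id_res f R) f (sIIB_id_res_comp f R) hx

/-- Integrality of the image over the image subring descends along an injective ring homomorphism: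
a monic polynomial over `R.map f` lifts to a monic polynomial over `R` of the same degree. -/
theorem sIIB_id_isIntegral_of_map {A B : Type*} [CommRing A] [CommRing B] (f : A →+* B)
    (hf : Function.Injective f) (R : Subring A) {x : A}
    (hx : IsIntegral ↥(R.map f) (f x)) : IsIntegral ↥R x := by
  obtain ⟨p, hp, hpx⟩ := hx
  have hlift : p ∈ Polynomial.lifts (sIIB_id_res f R) :=
    (Polynomial.mem_lifts p).2 (Polynomial.map_surjective _ (sIIB_id_res_surjective f R) p)
  obtain ⟨q, hqp, -, hq⟩ := Polynomial.lifts_and_natDegree_eq_and_monic hlift hp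
  refine ⟨q, hq, hf ?_⟩
  rw [← hqp, Polynomial.eval₂_map, sIIB_id_res_comp, ← Polynomial.hom_eval₂] at hpx
  rw [hpx, map_zero]

/-- Transitivity of integrality for subrings `R ≤ R'` of a commutative ring: if every element of `R'` is
integral over `R`, then every element integral over `R'` is integral over `R`. -/
theorem sIIB_id_isIntegral_trans {A : Type*} [CommRing A] {R R' : Subring A} (hle : R ≤ R')
    (hint : ∀ y ∈ R', IsIntegral ↥R y) {x : A} (hx : IsIntegral ↥R' x) : IsIntegral ↥R x := by
  let _ : Algebra ↥R ↥R' := (Subring.inclusion hle).toAlgebra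
  have : IsScalarTower ↥R ↥R' A := IsScalarTower.of_algebraMap_eq (fun _ => rfl)
  have : Algebra.IsIntegral ↥R ↥R' := ⟨fun y =>
    (isIntegral_algebraMap_iff (R := ↥R) (A := ↥R') (B := A) Subtype.val_injective).1
      (hint y.1 y.2)⟩
  exact isIntegral_trans (R := ↥R) (A := ↥R') x hx

/-- A subring is contained in its integral closure. -/
theorem sIIB_id_le_integralClosure {A : Type*} [CommRing A] (R : Subring A) :
    R ≤ (integralClosure ↥R A).toSubring := fun x hx =>
  isIntegral_algebraMap (R := ↥R) (A := A) (x := ⟨x, hx⟩)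

/-- The general form of the identification: for subrings `R ⊆ F` and `R_E ≤ Λ ⊆ E` with
`R_E = ι(R)` and `Λ` integral over `R_E`, the integral closure of `Λ` in `E` meets `F` in the integral
closure of `R` in `F`. -/
theorem sIIB_id_comap_eq {F E : Type*} [Field F] [Field E] [Algebra F E] (R : Subring F)
    (RE Λ : Subring E) (hmap : RE = R.map (algebraMap F E)) (hle : RE ≤ Λ)
    (hint : ∀ y ∈ Λ, IsIntegral ↥RE y) :
    (integralClosure ↥Λ E).toSubring.comap (algebraMap F E) = (integralClosure ↥R F).toSubring := by
  subst hmap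
  ext x
  change IsIntegral ↥Λ (algebraMap F E x) ↔ IsIntegral ↥R x
  constructor
  · intro hx
    exact sIIB_id_isIntegral_of_map (algebraMap F E) (algebraMap F E).injective R
      (sIIB_id_isIntegral_trans hle hint hx)
  · intro hx
    exact IsIntegral.map_of_comp_eq (Subring.inclusion hle) (RingHom.id E) rfl
      (sIIB_id_isIntegral_map (algebraMap F E) R hx)

/-! ## The identification `B ∩ F = chart W N S` -/

/-- (Id, D1/D2) `B ∩ F = chart W N S`. -/
theorem sIIB_id_main : sIIB_IdStatement := by
  intro N _ L _ _ W E _ _ t h S hS ht hh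
  -- (i) `R_E = ι(R)`
  have hmap : baseRingE W N E (algebraMap ↥(FL L N) E '' S) =
      (baseRing W N S).map (algebraMap ↥(FL L N) E) := by
    unfold baseRingE baseRing
    rw [RingHom.map_closure, Set.image_union, ← Set.range_comp]
    rfl
  -- (ii) `R_E ≤ Λ`
  have hle : baseRingE W N E (algebraMap ↥(FL L N) E '' S) ≤ coverRing W N E t h := by
    refine Subring.closure_le.2 ?_
    rintro x (⟨w, rfl⟩ | ⟨s, hs, rfl⟩)
    · exact Subring.subset_closure (Or.inl ⟨w, rfl⟩)
    · exact hS s hs
  -- (iii) `Λ` is integral over `R_E`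
  have hint : ∀ y ∈ coverRing W N E t h,
      IsIntegral ↥(baseRingE W N E (algebraMap ↥(FL L N) E '' S)) y := by
    have hcl : coverRing W N E t h ≤
        (integralClosure ↥(baseRingE W N E (algebraMap ↥(FL L N) E '' S)) E).toSubring := by
      refine Subring.closure_le.2 ?_
      rintro x (⟨w, rfl⟩ | hx)
      · exact sIIB_id_le_integralClosure _ (Subring.subset_closure (Or.inl ⟨w, rfl⟩))
      · rcases hx with rfl | rfl
        · exact ht
        · exact hh
    exact fun y hy => hcl hy
  exact sIIB_id_comap_eq (baseRing W N S) _ (coverRing W N E t h) hmap hle hint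

/-! ## The elementary hypotheses of the quotient lemma -/

/-- (elem.1) The integral closure of a subring `Λ` of a commutative ring is integrally closed. -/
theorem sIIB_id_closed {A : Type*} [CommRing A] (Λ : Subring A) {x : A}
    (hx : IsIntegral ↥(integralClosure ↥Λ A).toSubring x) :
    x ∈ (integralClosure ↥Λ A).toSubring :=
  sIIB_id_isIntegral_trans (sIIB_id_le_integralClosure Λ) (fun _ hy => hy) hx

/-- (elem.2) The integral closure of `Λ` is stable under every ring endomorphism stabilising `Λ`. -/
theorem sIIB_id_stable {A : Type*} [CommRing A] (Λ : Subring A) (ψ : A →+* A)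
    (hψ : ∀ x ∈ Λ, ψ x ∈ Λ) {x : A} (hx : x ∈ (integralClosure ↥Λ A).toSubring) :
    ψ x ∈ (integralClosure ↥Λ A).toSubring :=
  IsIntegral.map_of_comp_eq ((ψ.comp Λ.subtype).codRestrict Λ (fun y => hψ y.1 y.2)) ψ rfl hx

/-- (elem.3) `E = F₀(t)` with `t` integral over `F₀` is finite-dimensional over `F₀`. -/
theorem sIIB_id_finite {F₀ E : Type*} [Field F₀] [Field E] [Algebra F₀ E] (t : E)
    (ht : IsIntegral F₀ t) (htop : IntermediateField.adjoin F₀ {t} = ⊤) :
    FiniteDimensional F₀ E := by
  have : FiniteDimensional F₀ ↥(IntermediateField.adjoin F₀ {t}) :=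
    IntermediateField.adjoin.finiteDimensional ht
  rw [htop] at this
  exact Module.Finite.equiv (IntermediateField.topEquiv (F := F₀) (E := E)).toLinearEquiv

/-- (Elem) The elementary hypotheses of the quotient lemma. -/
theorem sIIB_id_elem : sIIB_ElemStatement := by
  intro F₀ E _ _ _ Λ
  refine ⟨fun x hx => sIIB_id_closed Λ hx, fun hσ σ x hx => ?_, fun t ht htop =>
    sIIB_id_finite t ht htop⟩
  exact sIIB_id_stable Λ (σ : E →+* E) (fun y hy => hσ σ y hy) hx

end

end Fermat.Agent.S18
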