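/-
S18 — block S-II (twin B), package SIIB-Noeth (D0), twin A.  Name prefix `sIIB_noethA_`.

For `s ∈ F = ↥(FL L N)` transcendental over `L` with `F / L(s)` finite, the chart `chart W N {s}`
(the integral closure of `W[s]` in `F`) is a noetherian ring.

The content is proved for an abstract extension `F / L`, a valuation subring `W ⊆ L` which is a discrete
valuation ring, the "constants" map `c : W → F` and `u ∈ F` transcendental over `L`:
`W[u] = Subring.closure (Set.range c ∪ {u})` is isomorphic to `W[X]` (noetherian, integrally closed), its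
fraction field inside `F` is `L(u)`, and `F / L(u)` is finite separable (characteristic `0`).
-/
import Fermat.Agent.S18.SIIBInterfaces

set_option autoImplicit false

open ModularCurve AlgebraicCurve Polynomial

namespace Fermat.Agent.S18

noncomputable section

section General

variable {L F : Type} [Field L] [Field F] [Algebra L F] (W : ValuationSubring L)
  (c : ↥W →+* F) (hc : ∀ w : ↥W, c w = algebraMap L F (w : L))

include hc in
/-- `P(u)` for `P ∈ W[X]` is the value at `u` of the image of `P` in `L[X]`. -/
theorem sIIB_noethA_eval_eq_aeval (u : F) (p : Polynomial ↥W) :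
    Polynomial.eval₂ c u p = Polynomial.aeval u (p.map W.subtype) := by
  have hcc : c = (algebraMap L F).comp W.subtype := RingHom.ext hc
  rw [Polynomial.aeval_def, Polynomial.eval₂_map, hcc]

omit [Algebra L F] in
/-- `P(u) ∈ W[u]`. -/
theorem sIIB_noethA_eval_mem (u : F) (p : Polynomial ↥W) :
    Polynomial.eval₂ c u p ∈ Subring.closure (Set.range c ∪ {u}) := by
  have hu : u ∈ Subring.closure (Set.range c ∪ {u}) :=
    Subring.subset_closure (Set.mem_union_right _ (Set.mem_singleton u))
  have hcm : ∀ w : ↥W, c w ∈ Subring.closure (Set.range c ∪ {u}) := fun w =>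
    Subring.subset_closure (Set.mem_union_left _ ⟨w, rfl⟩)
  rw [Polynomial.eval₂_eq_sum_range]
  refine Subring.sum_mem _ (fun i _ => ?_)
  exact Subring.mul_mem _ (hcm _) (Subring.pow_mem _ hu _)

omit [Algebra L F] in
/-- Every element of `W[u]` is of the form `P(u)`. -/
theorem sIIB_noethA_exists_eval (u : F) {x : F} (hx : x ∈ Subring.closure (Set.range c ∪ {u})) :
    ∃ p : Polynomial ↥W, Polynomial.eval₂ c u p = x := by
  have h : Subring.closure (Set.range c ∪ {u}) ≤ (Polynomial.eval₂RingHom c u).range := by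
    refine Subring.closure_le.2 ?_
    rintro y (⟨w, rfl⟩ | hy)
    · exact ⟨Polynomial.C w, Polynomial.eval₂_C _ _⟩
    · rw [Set.mem_singleton_iff] at hy
      subst hy
      exact ⟨Polynomial.X, Polynomial.eval₂_X _ _⟩
  exact h hx

include hc in
/-- For `u` transcendental over `L`, `P ↦ P(u)` is injective on `W[X]`. -/
theorem sIIB_noethA_eval_injective (u : F) (hu : Transcendental L u) :
    Function.Injective (Polynomial.eval₂RingHom c u) := by
  rw [injective_iff_map_eq_zero]
  intro p hp
  have hp' : Polynomial.eval₂ c u p = 0 := hp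
  rw [sIIB_noethA_eval_eq_aeval W c hc] at hp'
  have h0 : p.map W.subtype = 0 := (transcendental_iff.1 hu) _ hp'
  exact Polynomial.map_injective _ Subtype.val_injective (by rw [h0, Polynomial.map_zero])

/-- The isomorphism `W[X] ≃ W[u]` for `u` transcendental over `L`. -/
def sIIB_noethA_equiv (u : F) (hu : Transcendental L u) :
    Polynomial ↥W ≃+* ↥(Subring.closure (Set.range c ∪ {u})) :=
  RingEquiv.ofBijective
    ((Polynomial.eval₂RingHom c u).codRestrict (Subring.closure (Set.range c ∪ {u}))
      (sIIB_noethA_eval_mem W c u))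
    ⟨fun p q hpq => sIIB_noethA_eval_injective W c hc u hu (congrArg Subtype.val hpq),
     fun x => by
      obtain ⟨p, hp⟩ := sIIB_noethA_exists_eval W c u x.2
      exact ⟨p, Subtype.ext hp⟩⟩

include hc in
/-- `W[u] ⊆ L(u)`. -/
theorem sIIB_noethA_le_adjoin (u : F) :
    ∀ x ∈ Subring.closure (Set.range c ∪ {u}), x ∈ IntermediateField.adjoin L {u} := by
  have h : Subring.closure (Set.range c ∪ {u}) ≤ (IntermediateField.adjoin L {u}).toSubring := by
    refine Subring.closure_le.2 ?_
    rintro y (⟨w, rfl⟩ | hy)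
    · rw [hc]
      exact (IntermediateField.adjoin L {u}).algebraMap_mem (w : L)
    · rw [Set.mem_singleton_iff] at hy
      subst hy
      exact IntermediateField.mem_adjoin_simple_self L y
  exact fun x hx => h hx

include hc in
/-- Clearing denominators: for `p ∈ L[X]` there are `d ∈ W`, `d ≠ 0` and `P ∈ W[X]` with
`P(u) = d * p(u)`. -/
theorem sIIB_noethA_clear (u : F) (p : Polynomial L) :
    ∃ (d : ↥W) (P : Polynomial ↥W), d ≠ 0 ∧
      Polynomial.eval₂ c u P = c d * Polynomial.aeval u p := by
  obtain ⟨d, hd, hP⟩ := IsLocalization.integerNormalization_spec (nonZeroDivisors ↥W) p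
  refine ⟨d, IsLocalization.integerNormalization (nonZeroDivisors ↥W) p,
    nonZeroDivisors.ne_zero hd, ?_⟩
  rw [sIIB_noethA_eval_eq_aeval W c hc]
  have h1 : (IsLocalization.integerNormalization (nonZeroDivisors ↥W) p).map W.subtype
      = d • p := hP
  rw [h1, ← algebraMap_smul L d p, map_smul, Algebra.smul_def, hc]
  rfl

include hc in
/-- Every element of `L(u)` is a fraction of elements of `W[u]`. -/
theorem sIIB_noethA_frac (u : F) :
    ∀ x ∈ IntermediateField.adjoin L {u}, ∃ a ∈ Subring.closure (Set.range c ∪ {u}),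
      ∃ b ∈ Subring.closure (Set.range c ∪ {u}), b ≠ 0 ∧ x * b = a := by
  intro x hx
  obtain ⟨r, q, rfl⟩ := (IntermediateField.mem_adjoin_simple_iff L x).1 hx
  by_cases hq : Polynomial.aeval u q = 0
  · refine ⟨0, Subring.zero_mem _, 1, Subring.one_mem _, one_ne_zero, ?_⟩
    rw [hq, div_zero, zero_mul]
  · obtain ⟨dr, Pr, hdr, hPr⟩ := sIIB_noethA_clear W c hc u r
    obtain ⟨dq, Pq, hdq, hPq⟩ := sIIB_noethA_clear W c hc u q
    have hcinj : ∀ d : ↥W, d ≠ 0 → c d ≠ 0 := by
      intro d hd h
      rw [hc] at h
      have h2 : (d : L) = 0 := (algebraMap L F).injective (h.trans (map_zero _).symm)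
      exact hd (Subtype.ext h2)
    have hcr : c dr ≠ 0 := hcinj dr hdr
    have hcq : c dq ≠ 0 := hcinj dq hdq
    have hcmem : ∀ d : ↥W, c d ∈ Subring.closure (Set.range c ∪ {u}) := fun d =>
      Subring.subset_closure (Or.inl ⟨d, rfl⟩)
    refine ⟨c dq * Polynomial.eval₂ c u Pr,
      Subring.mul_mem _ (hcmem _) (sIIB_noethA_eval_mem W c u Pr),
      c dr * Polynomial.eval₂ c u Pq,
      Subring.mul_mem _ (hcmem _) (sIIB_noethA_eval_mem W c u Pq), ?_, ?_⟩
    · rw [hPq]
      exact mul_ne_zero hcr (mul_ne_zero hcq hq)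
    · rw [hPr, hPq]
      field_simp

/-- Abstract core: `R ⊆ K ⊆ F` with `R` a noetherian integrally closed subring, `K` an intermediate
field (characteristic `0`) consisting of fractions of elements of `R`, and `F / K` finite.  Then the
integral closure of `R` in `F` is noetherian. -/
theorem sIIB_noethA_core [CharZero L] (R : Subring F) (K : IntermediateField L F)
    (hfin : FiniteDimensional ↥K F)
    (h1 : IsNoetherianRing ↥R) (h2 : IsIntegrallyClosed ↥R)
    (h3 : ∀ x ∈ R, x ∈ K)
    (h4 : ∀ x ∈ K, ∃ a ∈ R, ∃ b ∈ R, b ≠ 0 ∧ x * b = a) :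
    IsNoetherianRing ↥(integralClosure ↥R F).toSubring := by
  classical
  let ι : ↥R →+* ↥K :=
    { toFun := fun x => ⟨(x : F), h3 x x.2⟩
      map_one' := rfl
      map_mul' := fun _ _ => rfl
      map_zero' := rfl
      map_add' := fun _ _ => rfl }
  let algRK : Algebra ↥R ↥K := ι.toAlgebra
  have tower : IsScalarTower ↥R ↥K F := IsScalarTower.of_algebraMap_eq (fun _ => rfl)
  have hinj : Function.Injective (algebraMap ↥R ↥K) := by
    intro a b hab
    have : ((algebraMap ↥R ↥K a : ↥K) : F) = ((algebraMap ↥R ↥K b : ↥K) : F) := congrArg _ hab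
    exact Subtype.ext this
  have : FaithfulSMul ↥R ↥K := (faithfulSMul_iff_algebraMap_injective _ _).2 hinj
  have frac : IsFractionRing ↥R ↥K := by
    refine IsFractionRing.of_field ↥R ↥K ?_
    intro z
    obtain ⟨a, ha, b, hb, hb0, hab⟩ := h4 z z.2
    refine ⟨⟨a, ha⟩, ⟨b, hb⟩, ?_⟩
    have hb0' : algebraMap ↥R ↥K ⟨b, hb⟩ ≠ 0 := by
      intro h
      apply hb0
      have : ((algebraMap ↥R ↥K ⟨b, hb⟩ : ↥K) : F) = ((0 : ↥K) : F) := congrArg _ h
      exact this
    rw [eq_div_iff hb0']
    exact Subtype.ext hab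
  have : CharZero ↥K := charZero_of_injective_algebraMap (algebraMap L ↥K).injective
  have : Algebra.IsAlgebraic ↥K F := Algebra.IsAlgebraic.of_finite ↥K F
  have : Algebra.IsSeparable ↥K F := Algebra.IsAlgebraic.isSeparable_of_perfectField
  have := IsIntegralClosure.isNoetherianRing ↥R ↥K F ↥(integralClosure ↥R F)
  exact this

include hc in
/-- General form of (D0): for `u ∈ F` transcendental over `L` with `F / L(u)` finite, the integral
closure of `W[u]` in `F` is a noetherian ring. -/
theorem sIIB_noethA_general [CharZero L] [IsDiscreteValuationRing ↥W] (u : F)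
    (hu : Transcendental L u) (hfin : FiniteDimensional ↥(IntermediateField.adjoin L {u}) F) :
    IsNoetherianRing
      ↥(integralClosure ↥(Subring.closure (Set.range c ∪ {u})) F).toSubring :=
  sIIB_noethA_core (Subring.closure (Set.range c ∪ {u})) (IntermediateField.adjoin L {u}) hfin
    (isNoetherianRing_of_ringEquiv (Polynomial ↥W) (sIIB_noethA_equiv W c hc u hu))
    (IsIntegrallyClosed.of_equiv (sIIB_noethA_equiv W c hc u hu))
    (sIIB_noethA_le_adjoin W c hc u) (sIIB_noethA_frac W c hc u)

end General

/-- (Noeth, D0) For `s ∈ F` transcendental over `L` with `F / L(s)` finite, the chart `chart W N {s}`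
(the integral closure of `W[s]` in `F`) is a noetherian ring. -/
theorem sIIB_noethA_main : sIIB_NoethStatement := by
  intro N L _ _ W _ s hs hfin
  have : CharZero L := algebraRat.charZero L
  exact sIIB_noethA_general W (cW W N) (fun _ => rfl) s hs hfin

end

end Fermat.Agent.S18
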