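/-
S18 — block S-II (twin B), package Res (twin T): residue fields of the charts at maximal ideals
containing `ϖ` (step (RF)).

For a FINITE set `S ⊆ F` and a maximal ideal `n ∋ ϖ` of `A = chart W N S` (the integral closure of `W[S]`
in `F`): the residue field `A / n` is integral over a finitely generated `k`-algebra (`k = W / ϖ`
algebraically closed), hence equal to `k` by Zariski's lemma.  Consequently `W → A / n` is surjective and
every monic polynomial of positive degree over `A` has a root modulo `n`.
-/
import Fermat.Agent.S18.SIIBInterfaces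

set_option autoImplicit false

open ModularCurve AlgebraicCurve Polynomial

namespace Fermat.Agent.S18

/-- Zariski's lemma for a finitely generated algebra over a field which is a field in the `IsField`
sense. -/
theorem sIIB_resT_zariski (k T : Type*) [Field k] [CommRing T] [Algebra k T]
    [Algebra.FiniteType k T] (hT : IsField T) : Module.Finite k T := by
  let := hT.toField
  exact finite_of_finite_type_of_isJacobsonRing k T

/-- A field `κ` which is integral over a finitely generated subalgebra over an algebraically closed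
field `k` is equal to `k`. -/
theorem sIIB_resT_surj {k κ : Type*} [Field k] [IsAlgClosed k] [Field κ] [Algebra k κ]
    (s : Set κ) (hs : s.Finite) (hint : ∀ x : κ, IsIntegral (Algebra.adjoin k s) x) :
    Function.Surjective (algebraMap k κ) := by
  have : Algebra.IsIntegral (Algebra.adjoin k s) κ := ⟨hint⟩
  have hT : IsField (Algebra.adjoin k s) :=
    isField_of_isIntegral_of_isField (S := κ) Subtype.val_injective (Field.toIsField κ)
  have : Algebra.FiniteType k (Algebra.adjoin k s) := Algebra.FiniteType.adjoin_of_finite hs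
  have : Module.Finite k (Algebra.adjoin k s) := sIIB_resT_zariski k _ hT
  have : Algebra.IsIntegral k (Algebra.adjoin k s) := Algebra.IsIntegral.of_finite k _
  have : Algebra.IsIntegral k κ := Algebra.IsIntegral.trans (Algebra.adjoin k s)
  exact (IsAlgClosed.algebraMap_bijective_of_isIntegral).2

/-- The general form of (RF): `A ⊆ F` a subring integral over the subring generated by the image of
`c : W → F` and a finite set `S`, `res : W → k` surjective onto an algebraically closed field, `n` a
maximal ideal of `A` containing the image of `ker res`.  Then `W → A / n` is surjective and `A / n` is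
algebraically closed (in the form: monic polynomials of positive degree over `A` have roots mod `n`). -/
theorem sIIB_resT_general {F W k : Type*} [Field F] [CommRing W] [Field k] [IsAlgClosed k]
    (c : W →+* F) (res : W →+* k) (hres : Function.Surjective res)
    (S : Set F) (hS : S.Finite) (A : Subring F)
    (hcA : ∀ w, c w ∈ A) (hSA : ∀ x ∈ S, x ∈ A)
    (hint : ∀ a ∈ A, IsIntegral ↥(Subring.closure (Set.range c ∪ S)) a)
    (n : Ideal ↥A) [n.IsMaximal]
    (hker : ∀ w : W, res w = 0 → (⟨c w, hcA w⟩ : ↥A) ∈ n) :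
    (∀ a : ↥A, ∃ w : W, a - ⟨c w, hcA w⟩ ∈ n) ∧
    (∀ p : Polynomial ↥A, p.Monic → 0 < p.natDegree → ∃ a : ↥A, p.eval a ∈ n) := by
  classical
  let : Field (↥A ⧸ n) := Ideal.Quotient.field n
  -- the map `W → A → A / n` and its factorisation through `k`
  let cA : W →+* ↥A := c.codRestrict A hcA
  let φ : W →+* (↥A ⧸ n) := (Ideal.Quotient.mk n).comp cA
  have hφ : RingHom.ker res ≤ RingHom.ker φ := by
    intro w hw
    rw [RingHom.mem_ker] at hw ⊢
    exact Ideal.Quotient.eq_zero_iff_mem.2 (hker w hw)
  let ψ : k →+* (↥A ⧸ n) := res.liftOfSurjective hres ⟨φ, hφ⟩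
  have hψ : ∀ w, ψ (res w) = φ w := fun w =>
    RingHom.liftOfSurjective_comp_apply res hres ⟨φ, hφ⟩ w
  let : Algebra k (↥A ⧸ n) := ψ.toAlgebra
  have halg : ∀ y : k, algebraMap k (↥A ⧸ n) y = ψ y := fun _ => rfl
  -- the finite set of generators
  let s : Set (↥A ⧸ n) := Set.range (fun x : S => Ideal.Quotient.mk n ⟨x.1, hSA x.1 x.2⟩)
  have hs : s.Finite := by
    have := hS.to_subtype
    exact Set.finite_range _
  -- the image of `W[S]` lies in `T = k[s]`
  have hR : Subring.closure (Set.range c ∪ S) ≤ A := Subring.closure_le.2 (by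
    rintro x (⟨w, rfl⟩ | hx)
    · exact hcA w
    · exact hSA x hx)
  have hB : Subring.closure (Set.range c ∪ S) ≤
      ((Algebra.adjoin k s).toSubring.comap (Ideal.Quotient.mk n)).map A.subtype :=
    Subring.closure_le.2 (by
      rintro x (⟨w, rfl⟩ | hx)
      · refine ⟨cA w, ?_, rfl⟩
        have h1 : Ideal.Quotient.mk n (cA w) = algebraMap k (↥A ⧸ n) (res w) := by
          rw [halg, hψ]; rfl
        change Ideal.Quotient.mk n (cA w) ∈ Algebra.adjoin k s
        rw [h1]
        exact Subalgebra.algebraMap_mem _ _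
      · refine ⟨⟨x, hSA x hx⟩, ?_, rfl⟩
        change Ideal.Quotient.mk n ⟨x, hSA x hx⟩ ∈ Algebra.adjoin k s
        exact Algebra.subset_adjoin ⟨⟨x, hx⟩, rfl⟩)
  let ι : ↥(Subring.closure (Set.range c ∪ S)) →+* ↥A := Subring.inclusion hR
  have hmem : ∀ r : ↥(Subring.closure (Set.range c ∪ S)),
      ((Ideal.Quotient.mk n).comp ι) r ∈ Algebra.adjoin k s := by
    intro r
    obtain ⟨a, ha, har⟩ := hB r.2
    have : ι r = a := Subtype.ext har.symm
    change Ideal.Quotient.mk n (ι r) ∈ Algebra.adjoin k s
    rw [this]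
    exact ha
  let θ : ↥(Subring.closure (Set.range c ∪ S)) →+* ↥(Algebra.adjoin k s) :=
    ((Ideal.Quotient.mk n).comp ι).codRestrict _ hmem
  -- `A / n` is integral over `T`
  have hint' : ∀ x : ↥A ⧸ n, IsIntegral (Algebra.adjoin k s) x := by
    intro x
    obtain ⟨a, rfl⟩ := Ideal.Quotient.mk_surjective x
    obtain ⟨p, hp, hpa⟩ := hint a a.2
    refine ⟨p.map θ, hp.map θ, ?_⟩
    rw [Polynomial.eval₂_map]
    have h1 : (algebraMap ↥(Algebra.adjoin k s) (↥A ⧸ n)).comp θ = (Ideal.Quotient.mk n).comp ι :=
      rfl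
    rw [h1, ← Polynomial.hom_eval₂]
    have h2 : Polynomial.eval₂ ι a p = 0 := by
      apply Subtype.ext
      have h3 := Polynomial.hom_eval₂ p ι A.subtype a
      have h4 : A.subtype.comp ι = algebraMap ↥(Subring.closure (Set.range c ∪ S)) F := rfl
      rw [h4] at h3
      exact h3.trans hpa
    rw [h2, map_zero]
  have hsurj : Function.Surjective ψ := sIIB_resT_surj s hs hint'
  refine ⟨fun a => ?_, fun p hp hdeg => ?_⟩
  · obtain ⟨y, hy⟩ := hsurj (Ideal.Quotient.mk n a)
    obtain ⟨w, rfl⟩ := hres y
    refine ⟨w, ?_⟩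
    rw [hψ] at hy
    exact Ideal.Quotient.eq.1 hy.symm
  · obtain ⟨q, hq⟩ := Polynomial.map_surjective ψ hsurj (p.map (Ideal.Quotient.mk n))
    have hdq : q.degree ≠ 0 := by
      have h1 : (q.map ψ).natDegree = p.natDegree := by
        rw [hq]; exact hp.natDegree_map _
      rw [Polynomial.natDegree_map] at h1
      intro h0
      have := Polynomial.natDegree_eq_zero_iff_degree_le_zero.2 h0.le
      omega
    obtain ⟨x, hx⟩ := IsAlgClosed.exists_root q hdq
    obtain ⟨a, ha⟩ := Ideal.Quotient.mk_surjective (ψ x)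
    refine ⟨a, Ideal.Quotient.eq_zero_iff_mem.1 ?_⟩
    rw [← Polynomial.eval₂_hom, ha, ← Polynomial.eval_map, ← hq, Polynomial.eval_map,
      Polynomial.eval₂_hom, hx.eq_zero, map_zero]

/-- (RF) For a finite set `S ⊆ F` and a maximal ideal `n ∋ ϖ` of `A = chart W N S`: `W → A / n` is
surjective, and every monic polynomial of positive degree over `A` has a root modulo `n`. -/
theorem sIIB_resT_main : sIIB_ResStatement := by
  intro N _ ℓ _ L _ _ W _ k _ _ _ res ϖ hBD S hS n _ ϖc hϖc hϖn
  have hker : ∀ w : ↥W, res w = 0 →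
      (⟨cW W N w, sIIB_cW_mem_chart W N S w⟩ : ↥(chart W N S)) ∈ n := by
    intro w hw
    have hw' : w ∈ RingHom.ker res := hw
    rw [hBD.ker_res, Ideal.mem_span_singleton] at hw'
    obtain ⟨u, rfl⟩ := hw'
    have h1 : (⟨cW W N (ϖ * u), sIIB_cW_mem_chart W N S (ϖ * u)⟩ : ↥(chart W N S)) =
        ϖc * ⟨cW W N u, sIIB_cW_mem_chart W N S u⟩ := by
      apply Subtype.ext
      change cW W N (ϖ * u) = (ϖc : ↥(FL L N)) * cW W N u
      rw [hϖc, map_mul]
    rw [h1]
    exact Ideal.mul_mem_right _ _ hϖn
  obtain ⟨h1, h2⟩ := sIIB_resT_general (cW W N) res hBD.res_surjective S hS (chart W N S)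
    (sIIB_cW_mem_chart W N S) (fun x hx => sIIB_mem_chart W N hx) (fun a ha => ha) n hker
  refine ⟨fun a => ?_, h2⟩
  obtain ⟨w, hw⟩ := h1 a
  exact ⟨w, ⟨cW W N w, sIIB_cW_mem_chart W N S w⟩, rfl, hw⟩

end Fermat.Agent.S18
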