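/-
S18 — block S-II (twin B), package X2: from `chart W N S₂` to the cuspidal part of `chart2`
(glue part of step (D2)).  Assembly of the black boxes (GL)(a), the clearing lemma for the charts and the
transfer of `IsDVRQuot` between two primes with the same local ring.
-/
import Fermat.Agent.S18.SIIBInterfaces

set_option autoImplicit false

open ModularCurve AlgebraicCurve Polynomial

namespace Fermat.Agent.S18

/-- General form of the glue step, inside an abstract field: `A ≤ A' ⊆ A[1/σ]` with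
`σ = 1 - 1728 * jinv`; if `A'` is smooth at all maximal ideals containing (the element with value) `c`,
then `A` is smooth at the maximal ideals containing `c` and `jinv`. -/
theorem sIIB_x2_general (hGA : sIIB_GlueAStatement) (hTr : sIIB_TransferStatement)
    (F : Type) [Field F] (A A' : Subring F) (hle : A ≤ A') (c jinv : F)
    (hclear : ∀ x ∈ A', ∃ k : ℕ, (1 - 1728 * jinv) ^ k * x ∈ A)
    (hSm : ∀ (n : Ideal ↥A') [n.IsMaximal] (ϖc : ↥A'), (ϖc : F) = c → ϖc ∈ n →
      IsDVRQuot (Localization.AtPrime n) (algebraMap ↥A' (Localization.AtPrime n) ϖc))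
    (m : Ideal ↥A) [hm : m.IsMaximal] (ϖc ji : ↥A) (hϖc : (ϖc : F) = c) (hϖm : ϖc ∈ m)
    (hji : (ji : F) = jinv) (hjim : ji ∈ m) :
    IsDVRQuot (Localization.AtPrime m) (algebraMap ↥A (Localization.AtPrime m) ϖc) := by
  -- the element `σ = 1 - 1728 * ji` of `A`
  have hσF : ((1 - 1728 * ji : ↥A) : F) = 1 - 1728 * jinv := by
    rw [← hji]
    push_cast
    rfl
  -- `σ ∉ m`
  have hσm : (1 - 1728 * ji : ↥A) ∉ m := by
    intro hmem
    apply hm.ne_top
    rw [Ideal.eq_top_iff_one]
    have h1 : (1 : ↥A) = (1 - 1728 * ji) + 1728 * ji := by ring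
    rw [h1]
    exact m.add_mem hmem (m.mul_mem_left _ hjim)
  -- clearing hypothesis of (GL)(a)
  have hclear' : ∀ a' ∈ A', ∃ k : ℕ, (((1 - 1728 * ji : ↥A)) : F) ^ k * a' ∈ A := by
    intro a' ha'
    rw [hσF]
    exact hclear a' ha'
  obtain ⟨n, hn, hcomap, hloc⟩ := hGA F A A' hle (1 - 1728 * ji) hclear' m hσm
  have hn' : n.IsMaximal := hn
  -- the image of `ϖc` in `A'`
  have hϖ'F : ((Subring.inclusion hle ϖc : ↥A') : F) = c := hϖc
  have hϖ'n : Subring.inclusion hle ϖc ∈ n := by
    have : ϖc ∈ n.comap (Subring.inclusion hle) := by rw [hcomap]; exact hϖm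
    exact Ideal.mem_comap.1 this
  have hdvr := hSm n (Subring.inclusion hle ϖc) hϖ'F hϖ'n
  exact hTr F A A' m n ϖc (Subring.inclusion hle ϖc) hloc.symm rfl hdvr

/-- (D2, glue part) Smoothness of `chart W N S₂` at all maximal ideals containing `ϖ` gives smoothness of
`chart2` at the maximal ideals containing `ϖ` and `1/j`. -/
theorem sIIB_x2_main :
    sIIB_GlueAStatement → sIIB_ClearChartStatement → sIIB_TransferStatement → sIIB_X2Statement := by
  intro hGA hCl hTr N _ L _ _ W ϖ hj0 hj1 hS2 m _ ϖc ji hϖc hϖm hji hjim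
  have hsub : ({(jF L N)⁻¹} : Set ↥(FL L N)) ⊆ sIIB_S2 L N := by
    intro x hx
    rw [Set.mem_singleton_iff] at hx
    rw [hx]
    exact Set.mem_insert _ _
  have hle : chart2 W N ≤ chart W N (sIIB_S2 L N) := sIIB_chart_mono W N hsub
  exact sIIB_x2_general hGA hTr ↥(FL L N) (chart2 W N) (chart W N (sIIB_S2 L N)) hle (cW W N ϖ)
    (jF L N)⁻¹ (hCl N L W hj0 hj1).1 hS2 m ϖc ji hϖc hϖm hji hjim

end Fermat.Agent.S18
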