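/-
S18 — block S-II (twin B): INTEGRATION.  Descent from the cover to the charts (quotient lemma) and
glueing of the two charts:
`sIIB_main : QuotientStatement → LocSubStatement → FinLStatement → SmB1Statement → SmB2Statement →
    SmCover1Statement ∧ SmCover2Statement ∧ SmGlueStatement`.
-/
import Fermat.Agent.S18.SIIBInterfaces
import Fermat.Agent.S18.SIIBNoethA
import Fermat.Agent.S18.SIIBFrac
import Fermat.Agent.S18.SIIBGlue
import Fermat.Agent.S18.SIIBClear
import Fermat.Agent.S18.SIIBId
import Fermat.Agent.S18.SIIBDesc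
import Fermat.Agent.S18.SIIBX2
import Fermat.Agent.S18.SIIBG
import Fermat.Agent.S18.SIIBResT

set_option autoImplicit false

open ModularCurve AlgebraicCurve Polynomial

namespace Fermat.Agent.S18

/-- `L(x⁻¹) = L(x)`. -/
theorem sIIB_main_adjoin_inv {L F : Type*} [Field L] [Field F] [Algebra L F] (x : F) :
    IntermediateField.adjoin L {x⁻¹} = IntermediateField.adjoin L {x} := by
  apply le_antisymm
  · rw [IntermediateField.adjoin_simple_le_iff]
    exact inv_mem (IntermediateField.mem_adjoin_simple_self L x)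
  · rw [IntermediateField.adjoin_simple_le_iff]
    have := inv_mem (IntermediateField.mem_adjoin_simple_self L x⁻¹)
    rwa [inv_inv] at this

/-- Transport of finiteness along an equality of intermediate fields. -/
theorem sIIB_main_finite_of_eq {L F : Type*} [Field L] [Field F] [Algebra L F]
    {K K' : IntermediateField L F} (h : K = K') (hK : FiniteDimensional ↥K F) :
    FiniteDimensional ↥K' F := by
  subst h; exact hK

/-- `1/j` is transcendental over `L` and `F` is finite over `L(1/j)`. -/
theorem sIIB_main_inv (hFin : FinLStatement) (N : ℕ) [NeZero N] (L : Type) [Field L]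
    [Algebra ℚ L] :
    Transcendental L (jF L N)⁻¹ ∧
      FiniteDimensional ↥(IntermediateField.adjoin L {(jF L N)⁻¹}) ↥(FL L N) := by
  obtain ⟨htr, hfin⟩ := hFin N L
  refine ⟨fun h => htr ?_, sIIB_main_finite_of_eq (sIIB_main_adjoin_inv (jF L N)).symm hfin⟩
  have := IsAlgebraic.inv h
  rwa [inv_inv] at this

/-- (D1) `SmCover1Statement` from the uniform descent statement. -/
theorem sIIB_main_cover1 (hFin : FinLStatement) (hB1 : SmB1Statement)
    (hNoeth : sIIB_NoethStatement) (hDesc : sIIB_DescStatement) : SmCover1Statement := by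
  intro N _ ℓ _ L _ _ W _ k _ _ _ res ϖ hD hH E _ _ t h hC
  have hfin := hFin N L
  have hfd : FiniteDimensional ↥(IntermediateField.adjoin L {jF L N}) ↥(FL L N) := hfin.2
  have hsm : sIIB_SmChart N W ϖ {jF L N} := by
    refine hDesc N ℓ L W k res ϖ hD E t h hC.toIsCoverBase {jF L N} (jF L N)
      (Set.finite_singleton _) rfl inferInstance ?_ ?_ ?_ (hNoeth N L W (jF L N) hfin.1 hfin.2) ?_
    · rintro x rfl
      exact hC.j_mem
    · rw [Set.image_singleton]
      exact hC.int_t
    · rw [Set.image_singleton]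
      exact hC.int_h
    · intro M _ ϖB h1 h2
      exact hB1 N ℓ L W k res ϖ hD hH E t h hC M ϖB h1 h2
  intro m _ ϖc h1 h2
  exact hsm m ϖc h1 h2

/-- The image of `S₂` in a cover. -/
theorem sIIB_main_image_S2 (N : ℕ) [NeZero N] (L : Type) [Field L] [Algebra ℚ L]
    (E : Type) [Field E] [Algebra ↥(FL L N) E] :
    algebraMap ↥(FL L N) E '' sIIB_S2 L N =
      {(jE L N E)⁻¹, jE L N E / (jE L N E - 1728)} := by
  rw [sIIB_S2, Set.image_pair, map_inv₀, map_div₀, map_sub, map_ofNat]
  rfl

/-- (D2) `SmCover2Statement` from the uniform descent statement and the glue step. -/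
theorem sIIB_main_cover2 (hFin : FinLStatement) (hB2 : SmB2Statement)
    (hNoeth : sIIB_NoethStatement) (hNL : sIIB_NoethLocStatement)
    (hCl : sIIB_ClearChartStatement) (hDesc : sIIB_DescStatement) (hX2 : sIIB_X2Statement) :
    SmCover2Statement := by
  intro N _ ℓ _ L _ _ W _ k _ _ _ res ϖ hD hH E _ _ t h hC
  obtain ⟨hj0, hj1⟩ := sIIB_j_ne hFin N L
  obtain ⟨htr, hfd⟩ := sIIB_main_inv hFin N L
  have hN2 : IsNoetherianRing ↥(chart2 W N) := hNoeth N L W (jF L N)⁻¹ htr hfd
  have hσ : (1 - 1728 * (jF L N)⁻¹)⁻¹ = jF L N / (jF L N - 1728) := by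
    field_simp
  have hσ0 : (1 - 1728 * (jF L N)⁻¹) ≠ 0 := by
    have : 1 - 1728 * (jF L N)⁻¹ = (jF L N - 1728) / jF L N := by field_simp
    rw [this]
    exact div_ne_zero hj1 hj0
  have hsub : ({(jF L N)⁻¹} : Set ↥(FL L N)) ⊆ sIIB_S2 L N := by
    intro x hx
    rw [Set.mem_singleton_iff] at hx
    rw [hx]
    exact Set.mem_insert _ _
  have hσmem : (1 - 1728 * (jF L N)⁻¹) ∈ chart2 W N := by
    refine sub_mem (one_mem _) (mul_mem ?_ (sIIB_mem_chart W N rfl))
    have : (1728 : ↥(FL L N)) = ((1728 : ℕ) : ↥(FL L N)) := by norm_num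
    rw [this]
    exact natCast_mem _ _
  have hN : IsNoetherianRing ↥(chart W N (sIIB_S2 L N)) := by
    refine hNL ↥(FL L N) (chart2 W N) (chart W N (sIIB_S2 L N)) (1 - 1728 * (jF L N)⁻¹)
      (sIIB_chart_mono W N hsub) hσ0 hσmem ?_ (hCl N L W hj0 hj1).1 hN2
    rw [hσ]
    exact sIIB_mem_chart W N (Set.mem_insert_of_mem _ rfl)
  have hfd' : Algebra.IsAlgebraic ↥(IntermediateField.adjoin L {(jF L N)⁻¹}) ↥(FL L N) :=
    inferInstance
  have hsm : sIIB_SmChart N W ϖ (sIIB_S2 L N) := by
    refine hDesc N ℓ L W k res ϖ hD E t h hC.toIsCoverBase (sIIB_S2 L N) (jF L N)⁻¹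
      ((Set.finite_singleton _).insert _) (Set.mem_insert _ _) hfd' ?_ ?_ ?_ hN ?_
    · rintro x (rfl | hx)
      · rw [map_inv₀]
        exact hC.jinv_mem
      · rw [Set.mem_singleton_iff] at hx
        rw [hx, map_div₀, map_sub, map_ofNat]
        exact hC.jfrac_mem
    · rw [sIIB_main_image_S2]
      exact hC.int_t
    · rw [sIIB_main_image_S2]
      exact hC.int_h
    · intro M _ ϖB h1 h2
      exact hB2 N ℓ L W k res ϖ hD hH E t h hC M ϖB h1 h2
  intro m _ ϖc ji h1 h2 h3 h4
  exact hX2 N L W ϖ hj0 hj1 hsm m ϖc ji h1 h2 h3 h4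

/-- Block S-II from the residue-field package (all other packages are imported). -/
theorem sIIB_main_of_res (hRes : sIIB_ResStatement) :
    QuotientStatement → LocSubStatement → FinLStatement → SmB1Statement → SmB2Statement →
      SmCover1Statement ∧ SmCover2Statement ∧ SmGlueStatement := by
  intro hQ hLS hFin hB1 hB2
  have hTr : sIIB_TransferStatement := sIIB_clear_transfer hLS
  have hDesc : sIIB_DescStatement :=
    sIIB_desc_main hQ sIIB_id_main sIIB_id_elem sIIB_frac_main hRes
  have hX2 : sIIB_X2Statement := sIIB_x2_main sIIB_glue_a sIIB_clear_chart hTr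
  exact ⟨sIIB_main_cover1 hFin hB1 sIIB_noethA_main hDesc,
    sIIB_main_cover2 hFin hB2 sIIB_noethA_main sIIB_clear_noethLoc sIIB_clear_chart hDesc hX2,
    sIIB_g_main hFin sIIB_glue_a sIIB_glue_b sIIB_clear_chart hTr hRes⟩

/-- BLOCK S-II: descent from the covers to the charts and glueing of the two charts. -/
theorem sIIB_main : QuotientStatement → LocSubStatement → FinLStatement → SmB1Statement →
    SmB2Statement → SmCover1Statement ∧ SmCover2Statement ∧ SmGlueStatement :=
  sIIB_main_of_res sIIB_resT_main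

end Fermat.Agent.S18
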