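/-
S18 — smoothness half, final assembly: `SmStatement` (smoothness of the two charts of the Igusa model
over an abstract discrete valuation ring `W`), hypothesis-free, together with aliases of the block-G
results consumed by blocks E/H.
-/
import Fermat.Agent.S18.SInterfaces2
import Fermat.Agent.S18.LocSubB
import Fermat.Agent.S18.PUAMain
import Fermat.Agent.S18.QBMain
import Fermat.Agent.S18.CCuspA
import Fermat.Agent.S18.CLegB
import Fermat.Agent.S18.CHesAMain
import Fermat.Agent.S18.GAMain
import Fermat.Agent.S18.GAMainSep
import Fermat.Agent.S18.HMain
import Fermat.Agent.S18.SIAMain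
import Fermat.Agent.S18.SIIBMain

set_option autoImplicit false

namespace Fermat.Agent.S18

/-- Assembly of `SmStatement` from the block theorems (all statements as hypotheses). -/
theorem sm_assembly (hLoc : LocSubStatement) (hPur : PurityStatement)
    (hQuo : QuotientStatement) (hFin : FinLStatement) (hMono : MonogenicStatement)
    (hCusp : ExistsCover2Statement) (hLeg : ExistsCoverLegendreStatement)
    (hHes : ExistsCoverHesseStatement)
    (hSI : PurityStatement → HorizUnramStatement → MonogenicStatement → FinLStatement →
      SmB1Statement ∧ SmB2Statement)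
    (hSII : QuotientStatement → LocSubStatement → FinLStatement → SmB1Statement → SmB2Statement →
      SmCover1Statement ∧ SmCover2Statement ∧ SmGlueStatement)
    (hH : HorizUnramStatement) : SmStatement := by
  obtain ⟨b1, b2⟩ := hSI hPur hH hMono hFin
  obtain ⟨c1, c2, cg⟩ := hSII hQuo hLoc hFin b1 b2
  exact sm_of_blocks c1 c2 cg (existsCover1_of hLeg hHes) hCusp

/-- (Sm) Smoothness of the two charts over `W` (hypothesis-free). -/
theorem sm_main : SmStatement :=
  sm_assembly locSubB_main pua_main' (qb_main locSubB_main) ga_fin ga_mono (cCuspA_main ga_fin)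
    (cLegB_main ga_fin) (cHesA_main ga_fin) sIA_main sIIB_main (h_horizUnram_of ga_fin)

end Fermat.Agent.S18
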