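/-
S18, block E2 (package BaseRing), part A: the residue field of a valuation subring of `ℚ̄` is
algebraically closed, has characteristic `ℓ` when the subring lies over `ℓ`, and roots of unity
lift along the residue map.
-/
import Fermat.Agent.S18.EInterfaces2

set_option autoImplicit false

namespace Fermat.Agent.S18

section

set_option synthInstance.maxHeartbeats 400000

theorem e_basering_a_charP (ℓ : ℕ) [Fact ℓ.Prime] (A : ValuationSubring (AlgebraicClosure ℚ))
    (h : A.LiesOverPrime ℓ) : CharP (IsLocalRing.ResidueField ↥A) ℓ := by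
  rw [CharP.charP_iff_prime_eq_zero (Fact.out : ℓ.Prime)]
  obtain ⟨ha, hmem⟩ := ValuationSubring.mem_nonunits_iff_exists_mem_maximalIdeal.mp h
  have h0 : IsLocalRing.residue ↥A ⟨(ℓ : AlgebraicClosure ℚ), ha⟩ = 0 :=
    (IsLocalRing.residue_eq_zero_iff _).mpr hmem
  have h1 : (⟨(ℓ : AlgebraicClosure ℚ), ha⟩ : ↥A) = ((ℓ : ℕ) : ↥A) := Subtype.ext (by simp)
  rw [h1, map_natCast] at h0
  exact h0

theorem e_basering_a_isAlgClosed (A : ValuationSubring (AlgebraicClosure ℚ)) :
    IsAlgClosed (IsLocalRing.ResidueField ↥A) := by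
  refine IsAlgClosed.of_exists_root _ fun p hp hirr => ?_
  have hsurj : Function.Surjective (IsLocalRing.residue ↥A) := IsLocalRing.residue_surjective
  have hlift : p ∈ Polynomial.lifts (IsLocalRing.residue ↥A) :=
    (Polynomial.mem_lifts p).mpr (Polynomial.map_surjective _ hsurj p)
  obtain ⟨P, hPmap, hPdeg, hPmonic⟩ := Polynomial.lifts_and_degree_eq_and_monic hlift hp
  have hdeg : (P.map (algebraMap ↥A (AlgebraicClosure ℚ))).degree ≠ 0 := by
    rw [Polynomial.degree_map_eq_of_injective (FaithfulSMul.algebraMap_injective _ _), hPdeg]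
    exact Polynomial.degree_ne_of_natDegree_ne hirr.natDegree_pos.ne'
  obtain ⟨x, hx⟩ := IsAlgClosed.exists_root _ hdeg
  have hint : IsIntegral ↥A x := by
    refine ⟨P, hPmonic, ?_⟩
    rw [Polynomial.IsRoot.def, Polynomial.eval_map] at hx
    exact hx
  obtain ⟨a, rfl⟩ := IsIntegrallyClosed.isIntegral_iff.mp hint
  refine ⟨IsLocalRing.residue ↥A a, ?_⟩
  rw [Polynomial.IsRoot.def, Polynomial.eval_map, Polynomial.eval₂_at_apply] at hx
  have hx' : Polynomial.eval a P = 0 :=
    FaithfulSMul.algebraMap_injective ↥A (AlgebraicClosure ℚ) (by rw [hx, map_zero])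
  rw [← hPmap, Polynomial.eval_map, Polynomial.eval₂_at_apply, hx', map_zero]

/-- A root of unity of `ℚ̄` lies in every valuation subring. -/
theorem e_basering_a_mem_of_pow_eq_one (A : ValuationSubring (AlgebraicClosure ℚ)) (m : ℕ)
    (hm : 0 < m) (r : AlgebraicClosure ℚ) (hr : r ^ m = 1) : r ∈ A := by
  have hint : IsIntegral ↥A r := by
    refine ⟨Polynomial.X ^ m - 1, Polynomial.monic_X_pow_sub_C (1 : ↥A) hm.ne', ?_⟩
    simp [hr]
  obtain ⟨a, rfl⟩ := IsIntegrallyClosed.isIntegral_iff.mp hint
  exact a.2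

theorem e_basering_a_lift_root (A : ValuationSubring (AlgebraicClosure ℚ)) (m : ℕ) (hm : 0 < m)
    (x : IsLocalRing.ResidueField ↥A) (hx : x ^ m = 1) :
    ∃ ζ : ↥A, (ζ : AlgebraicClosure ℚ) ^ m = 1 ∧ IsLocalRing.residue ↥A ζ = x := by
  classical
  obtain ⟨a, rfl⟩ := IsLocalRing.residue_surjective x
  set p : Polynomial (AlgebraicClosure ℚ) := Polynomial.X ^ m - 1 with hp
  have hpm : p.Monic := Polynomial.monic_X_pow_sub_C (1 : AlgebraicClosure ℚ) hm.ne'
  have hsplit : p.Splits := IsAlgClosed.splits p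
  have hprod : p = (p.roots.map fun r => Polynomial.X - Polynomial.C r).prod :=
    hsplit.eq_prod_roots_of_monic hpm
  have hroot : ∀ r ∈ p.roots, r ^ m = 1 := by
    intro r hr
    have := (Polynomial.mem_roots hpm.ne_zero).mp hr
    rw [Polynomial.IsRoot.def, hp] at this
    simpa [sub_eq_zero] using this
  let f : AlgebraicClosure ℚ → ↥A := fun r => if h : r ∈ A then ⟨r, h⟩ else 0
  have hf : ∀ r ∈ p.roots, ((f r : ↥A) : AlgebraicClosure ℚ) = r := by
    intro r hr
    have hmem := e_basering_a_mem_of_pow_eq_one A m hm r (hroot r hr)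
    simp [f, hmem]
  have hA : a ^ m - 1 = (p.roots.map fun r => a - f r).prod := by
    apply Subtype.ext
    have h1 : ((a ^ m - 1 : ↥A) : AlgebraicClosure ℚ) = Polynomial.eval (a : AlgebraicClosure ℚ) p := by
      simp [hp]
    have h3 : Polynomial.eval (a : AlgebraicClosure ℚ) p =
        (p.roots.map fun r => (a : AlgebraicClosure ℚ) - r).prod := by
      conv_lhs => rw [hprod]
      rw [Polynomial.eval_multiset_prod, Multiset.map_map]
      congr 1
      apply Multiset.map_congr rfl
      intro r _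
      simp
    have h2 : (((p.roots.map fun r => a - f r).prod : ↥A) : AlgebraicClosure ℚ) =
        ((p.roots.map fun r => a - f r).map (A.subtype)).prod := by
      rw [← map_multiset_prod]; rfl
    rw [h1, h3, h2, Multiset.map_map]
    congr 1
    apply Multiset.map_congr rfl
    intro r hr
    simp [hf r hr]
  have hres : (p.roots.map fun r => IsLocalRing.residue ↥A a - IsLocalRing.residue ↥A (f r)).prod
      = 0 := by
    have := congrArg (IsLocalRing.residue ↥A) hA
    rw [map_sub, map_pow, map_one, hx, sub_self, map_multiset_prod, Multiset.map_map] at this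
    rw [this]
    congr 1
  rw [Multiset.prod_eq_zero_iff, Multiset.mem_map] at hres
  obtain ⟨r, hr, hr0⟩ := hres
  refine ⟨f r, ?_, ?_⟩
  · rw [hf r hr]; exact hroot r hr
  · exact (sub_eq_zero.mp hr0).symm

end

end Fermat.Agent.S18
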