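/-
S18, block E2 (package BaseRing), part B: nonzero elements of the residue field of a valuation
subring of `AlgebraicClosure ℚ` over `ℓ` are roots of unity of order prime to `ℓ`.
-/
import Fermat.Agent.S18.EInterfaces2

set_option autoImplicit false

namespace Fermat.Agent.S18

section

set_option synthInstance.maxHeartbeats 400000

theorem e_basering_b_charP (ℓ : ℕ) [Fact ℓ.Prime] (A : ValuationSubring (AlgebraicClosure ℚ))
    (hA : A.LiesOverPrime ℓ) : CharP (IsLocalRing.ResidueField ↥A) ℓ := by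
  rw [CharP.charP_iff_prime_eq_zero (Fact.out : ℓ.Prime)]
  obtain ⟨ha, hmem⟩ := ValuationSubring.mem_nonunits_iff_exists_mem_maximalIdeal.mp hA
  have h0 : IsLocalRing.residue ↥A ⟨(ℓ : AlgebraicClosure ℚ), ha⟩ = 0 :=
    (IsLocalRing.residue_eq_zero_iff _).mpr hmem
  have h1 : (⟨(ℓ : AlgebraicClosure ℚ), ha⟩ : ↥A) = ((ℓ : ℕ) : ↥A) := Subtype.ext (by simp)
  rw [h1, map_natCast] at h0
  exact h0

/-- A nonzero element of a field of characteristic `ℓ` which is a root of a primitive integer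
polynomial has finite order prime to `ℓ`. -/
theorem e_basering_b_aux (ℓ : ℕ) [Fact ℓ.Prime] (k : Type) [Field k] [CharP k ℓ]
    (g : Polynomial ℤ) (hg : g.IsPrimitive) (x : k) (hx : x ≠ 0)
    (hroot : Polynomial.eval₂ (Int.castRingHom k) x g = 0) :
    ∃ m : ℕ, ¬ ℓ ∣ m ∧ x ^ m = 1 := by
  have hℓ : ℓ.Prime := Fact.out
  let _ : Algebra (ZMod ℓ) k := ZMod.algebra k ℓ
  -- the reduction of `g` mod `ℓ` is nonzero
  have hgne : g.map (Int.castRingHom (ZMod ℓ)) ≠ 0 := by
    intro h0
    have hdvd : Polynomial.C (ℓ : ℤ) ∣ g := by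
      rw [Polynomial.C_dvd_iff_dvd_coeff]
      intro i
      have := congrArg (fun p => Polynomial.coeff p i) h0
      simp only [Polynomial.coeff_map, Polynomial.coeff_zero] at this
      exact (ZMod.intCast_zmod_eq_zero_iff_dvd _ _).mp this
    have hu := hg _ hdvd
    rw [Int.isUnit_iff] at hu
    rcases hu with hu | hu
    · have : ℓ = 1 := by exact_mod_cast hu
      exact hℓ.one_lt.ne' this
    · have : (0 : ℤ) ≤ (ℓ : ℤ) := Int.natCast_nonneg _
      omega
  have hcomp : (algebraMap (ZMod ℓ) k).comp (Int.castRingHom (ZMod ℓ)) = Int.castRingHom k :=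
    RingHom.ext_int _ _
  have hroot' : Polynomial.aeval x (g.map (Int.castRingHom (ZMod ℓ))) = 0 := by
    rw [Polynomial.aeval_def, Polynomial.eval₂_map, hcomp]
    exact hroot
  have halg : IsAlgebraic (ZMod ℓ) x := ⟨_, hgne, hroot'⟩
  have hint : IsIntegral (ZMod ℓ) x := halg.isIntegral
  have : FiniteDimensional (ZMod ℓ) (IntermediateField.adjoin (ZMod ℓ) {x}) :=
    IntermediateField.adjoin.finiteDimensional hint
  have : Finite (IntermediateField.adjoin (ZMod ℓ) {x}) := Module.finite_of_finite (ZMod ℓ)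
  let _ : Fintype (IntermediateField.adjoin (ZMod ℓ) {x}) := Fintype.ofFinite _
  have : CharP (IntermediateField.adjoin (ZMod ℓ) {x}) ℓ :=
    charP_of_injective_algebraMap (algebraMap (ZMod ℓ) _).injective ℓ
  obtain ⟨n, -, hcard⟩ := FiniteField.card (IntermediateField.adjoin (ZMod ℓ) {x}) ℓ
  let y : IntermediateField.adjoin (ZMod ℓ) {x} := ⟨x, IntermediateField.mem_adjoin_simple_self _ x⟩
  have hy : y ≠ 0 := fun h => hx (congrArg Subtype.val h)
  have hpow := FiniteField.pow_card_sub_one_eq_one y hy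
  refine ⟨Fintype.card (IntermediateField.adjoin (ZMod ℓ) {x}) - 1, ?_, ?_⟩
  · rw [hcard]
    intro hdvd
    have h1 : ℓ ∣ ℓ ^ (n : ℕ) := dvd_pow_self ℓ n.pos.ne'
    have h2 : 1 ≤ ℓ ^ (n : ℕ) := Nat.one_le_pow _ _ hℓ.pos
    have h3 : ℓ ∣ 1 := by
      have := (Nat.dvd_sub h1 hdvd)
      rwa [Nat.sub_sub_self h2] at this
    exact hℓ.one_lt.ne' (Nat.dvd_one.mp h3)
  · have := congrArg Subtype.val hpow
    simpa [y] using this

theorem e_basering_b_torsion (ℓ : ℕ) [Fact ℓ.Prime] (A : ValuationSubring (AlgebraicClosure ℚ))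
    (h : A.LiesOverPrime ℓ) (x : IsLocalRing.ResidueField ↥A) (hx : x ≠ 0) :
    ∃ m : ℕ, ¬ ℓ ∣ m ∧ x ^ m = 1 := by
  have : CharP (IsLocalRing.ResidueField ↥A) ℓ := e_basering_b_charP ℓ A h
  obtain ⟨a, rfl⟩ := IsLocalRing.residue_surjective x
  have halgQ : IsAlgebraic ℚ (a : AlgebraicClosure ℚ) :=
    (AlgebraicClosure.isAlgebraic ℚ).isAlgebraic _
  have halgZ : IsAlgebraic ℤ (a : AlgebraicClosure ℚ) :=
    (IsFractionRing.isAlgebraic_iff ℤ ℚ (AlgebraicClosure ℚ)).mpr halgQ
  obtain ⟨f, hf0, hfa⟩ := halgZ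
  have hfa' : Polynomial.eval₂ (Int.castRingHom (AlgebraicClosure ℚ)) (a : AlgebraicClosure ℚ)
      f.primPart = 0 := by
    have h1 : Polynomial.eval₂ (Int.castRingHom (AlgebraicClosure ℚ)) (a : AlgebraicClosure ℚ)
        f = 0 := by
      rw [← hfa, Polynomial.aeval_def]; rfl
    rw [f.eq_C_content_mul_primPart, Polynomial.eval₂_mul, Polynomial.eval₂_C] at h1
    rcases mul_eq_zero.mp h1 with h2 | h2
    · exfalso
      have : f.content = 0 := by simpa using h2
      exact hf0 (Polynomial.content_eq_zero_iff.mp this)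
    · exact h2
  have hfaA : Polynomial.eval₂ (Int.castRingHom ↥A) a f.primPart = 0 := by
    apply Subtype.val_injective
    have := Polynomial.hom_eval₂ f.primPart (Int.castRingHom ↥A) A.subtype a
    rw [show A.subtype.comp (Int.castRingHom ↥A) = Int.castRingHom (AlgebraicClosure ℚ) from
      RingHom.ext_int _ _] at this
    change A.subtype _ = A.subtype 0
    rw [this, map_zero]
    exact hfa'
  have hroot : Polynomial.eval₂ (Int.castRingHom (IsLocalRing.ResidueField ↥A))
      (IsLocalRing.residue ↥A a) f.primPart = 0 := by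
    have := Polynomial.hom_eval₂ f.primPart (Int.castRingHom ↥A) (IsLocalRing.residue ↥A) a
    rw [show (IsLocalRing.residue ↥A).comp (Int.castRingHom ↥A) =
      Int.castRingHom (IsLocalRing.ResidueField ↥A) from RingHom.ext_int _ _] at this
    rw [← this, hfaA, map_zero]
  exact e_basering_b_aux ℓ _ f.primPart (Polynomial.isPrimitive_primPart f) _ hx hroot

end

end Fermat.Agent.S18
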