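import Fermat.Agent.S18.EInterfaces3

set_option autoImplicit false

namespace Fermat.Agent.S18

/-- Elements with valuation exactly one are units of the valuation subring. -/
theorem e_basering_c_unit_of_val {Ω : Type} [Field Ω] (A : ValuationSubring Ω) (u : Ω)
    (hu : A.valuation u = 1) : u ∈ A ∧ u⁻¹ ∈ A := by
  refine ⟨(A.valuation_le_one_iff u).mp hu.le, (A.valuation_le_one_iff u⁻¹).mp ?_⟩
  rw [map_inv₀, hu, inv_one]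

/-- Roots of unity have valuation one. -/
theorem e_basering_c_val_root {Ω : Type} [Field Ω] (A : ValuationSubring Ω) (ζ : Ω) (m : ℕ)
    (hm : m ≠ 0) (hζ : ζ ^ m = 1) : A.valuation ζ = 1 := by
  have h : A.valuation ζ ^ m = 1 := by rw [← map_pow, hζ, map_one]
  exact (pow_eq_one_iff_of_nonneg zero_le hm).mp h

/-- Integers prime to `ℓ` have valuation one. -/
theorem e_basering_c_val_int {Ω : Type} [Field Ω] (A : ValuationSubring Ω) (ℓ : ℕ)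
    [Fact ℓ.Prime] (h : (ℓ : Ω) ∈ A.nonunits) (a : ℤ) (ha : ¬ (ℓ : ℤ) ∣ a) :
    A.valuation (a : Ω) = 1 := by
  have hle : ∀ b : ℤ, A.valuation (b : Ω) ≤ 1 := fun b =>
    (A.valuation_le_one_iff _).mpr (intCast_mem A b)
  refine le_antisymm (hle a) (not_lt.mp fun hlt => ?_)
  have hcop : IsCoprime a (ℓ : ℤ) := by
    have hp : Prime (ℓ : ℤ) := Nat.prime_iff_prime_int.mp (Fact.out : ℓ.Prime)
    exact ((hp.coprime_iff_not_dvd).mpr ha).symm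
  obtain ⟨s, t, hst⟩ := hcop
  have hℓ : A.valuation (ℓ : Ω) < 1 := A.mem_nonunits_iff.mp h
  have h1 : A.valuation ((s : Ω) * a) < 1 := by
    rw [map_mul]
    calc A.valuation (s : Ω) * A.valuation (a : Ω) ≤ 1 * A.valuation (a : Ω) :=
          mul_le_mul_left (hle s) _
      _ < 1 := by rwa [one_mul]
  have h2 : A.valuation ((t : Ω) * (ℓ : Ω)) < 1 := by
    rw [map_mul]
    calc A.valuation (t : Ω) * A.valuation (ℓ : Ω) ≤ 1 * A.valuation (ℓ : Ω) :=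
          mul_le_mul_left (hle t) _
      _ < 1 := by rwa [one_mul]
  have h3 : A.valuation ((s : Ω) * a + (t : Ω) * (ℓ : Ω)) < 1 :=
    lt_of_le_of_lt (A.valuation.map_add _ _) (max_lt h1 h2)
  have h4 : (s : Ω) * a + (t : Ω) * (ℓ : Ω) = 1 := by exact_mod_cast congrArg (Int.cast : ℤ → Ω) hst
  rw [h4, map_one] at h3
  exact lt_irrefl _ h3

/-- The "discretely valued with uniformiser `π`" predicate on elements. -/
def e_basering_c_P {Ω : Type} [Field Ω] (A : ValuationSubring Ω) (π : Ω) (x : Ω) : Prop :=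
  ∃ (n : ℤ) (u : Ω), u ∈ A ∧ u⁻¹ ∈ A ∧ x = π ^ n * u

theorem e_basering_c_P_of_val {Ω : Type} [Field Ω] (A : ValuationSubring Ω) (π : Ω) (x : Ω)
    (hx : A.valuation x = 1) : e_basering_c_P A π x :=
  ⟨0, x, (e_basering_c_unit_of_val A x hx).1, (e_basering_c_unit_of_val A x hx).2, by simp⟩

theorem e_basering_c_P_mul {Ω : Type} [Field Ω] (A : ValuationSubring Ω) (π : Ω) (hπ : π ≠ 0)
    (x y : Ω) (hx : e_basering_c_P A π x) (hy : e_basering_c_P A π y) :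
    e_basering_c_P A π (x * y) := by
  obtain ⟨n, u, hu, hu', rfl⟩ := hx
  obtain ⟨m, v, hv, hv', rfl⟩ := hy
  refine ⟨n + m, u * v, mul_mem hu hv, ?_, ?_⟩
  · rw [mul_inv]; exact mul_mem hu' hv'
  · rw [zpow_add₀ hπ]; ring

theorem e_basering_c_P_inv {Ω : Type} [Field Ω] (A : ValuationSubring Ω) (π : Ω)
    (x : Ω) (hx : e_basering_c_P A π x) :
    e_basering_c_P A π x⁻¹ := by
  obtain ⟨n, u, hu, hu', rfl⟩ := hx
  refine ⟨-n, u⁻¹, hu', by rwa [inv_inv], ?_⟩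
  rw [mul_inv, zpow_neg]

theorem e_basering_c_P_pi {Ω : Type} [Field Ω] (A : ValuationSubring Ω) (π : Ω) :
    e_basering_c_P A π π :=
  ⟨1, 1, one_mem _, by simp [one_mem], by simp⟩

theorem e_basering_c_P_pow {Ω : Type} [Field Ω] (A : ValuationSubring Ω) (π : Ω) (k : ℕ) :
    e_basering_c_P A π (π ^ k) :=
  ⟨k, 1, one_mem _, by simp [one_mem], by simp⟩

/-- (C2) nonzero naturals. -/
theorem e_basering_c_P_nat {Ω : Type} [Field Ω] [CharZero Ω] (A : ValuationSubring Ω) (ℓ : ℕ)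
    [Fact ℓ.Prime] (h : (ℓ : Ω) ∈ A.nonunits) (a : ℕ) (ha : a ≠ 0) :
    e_basering_c_P A (ℓ : Ω) (a : Ω) := by
  have hℓ : (ℓ : Ω) ≠ 0 := Nat.cast_ne_zero.mpr (Fact.out : ℓ.Prime).ne_zero
  obtain ⟨k, b, hb, rfl⟩ := Nat.exists_eq_pow_mul_and_not_dvd ha ℓ (Fact.out : ℓ.Prime).ne_one
  rw [Nat.cast_mul, Nat.cast_pow]
  refine e_basering_c_P_mul A _ hℓ _ _ (e_basering_c_P_pow A _ k) (e_basering_c_P_of_val A _ _ ?_)
  have := e_basering_c_val_int A ℓ h (b : ℤ) (by exact_mod_cast hb)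
  simpa using this

/-- (C2) nonzero rationals. -/
theorem e_basering_c_P_rat {Ω : Type} [Field Ω] [CharZero Ω] (A : ValuationSubring Ω) (ℓ : ℕ)
    [Fact ℓ.Prime] (h : (ℓ : Ω) ∈ A.nonunits) (q : ℚ) (hq : q ≠ 0) :
    e_basering_c_P A (ℓ : Ω) (q : Ω) := by
  have hℓ : (ℓ : Ω) ≠ 0 := Nat.cast_ne_zero.mpr (Fact.out : ℓ.Prime).ne_zero
  have hnum : q.num ≠ 0 := Rat.num_ne_zero.mpr hq
  have hq' : (q : Ω) = ((q.num.sign : ℤ) : Ω) * ((q.num.natAbs : ℕ) : Ω) * ((q.den : ℕ) : Ω)⁻¹ := by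
    rw [Rat.cast_def, div_eq_mul_inv]
    congr 1
    have : q.num = q.num.sign * (q.num.natAbs : ℤ) := (Int.sign_mul_natAbs q.num).symm
    conv_lhs => rw [this]
    rw [Int.cast_mul, Int.cast_natCast]
  rw [hq']
  refine e_basering_c_P_mul A _ hℓ _ _ (e_basering_c_P_mul A _ hℓ _ _ ?_ ?_) ?_
  · refine e_basering_c_P_of_val A _ _ ?_
    rcases Int.sign_trichotomy q.num with hs | hs | hs
    · rw [hs]; simp
    · exact absurd (Int.sign_eq_zero_iff_zero.mp hs) hnum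
    · rw [hs]; simp
  · exact e_basering_c_P_nat A ℓ h _ (Int.natAbs_ne_zero.mpr hnum)
  · exact e_basering_c_P_inv A _ _ (e_basering_c_P_nat A ℓ h _ q.den_ne_zero)

/-- (C3) -/
theorem e_basering_c_step (hU : e_UnramStatement') {Ω : Type} [Field Ω] [CharZero Ω]
    (A : ValuationSubring Ω) (ℓ : ℕ)
    [Fact ℓ.Prime] (h : (ℓ : Ω) ∈ A.nonunits) (ζ : Ω) (m : ℕ) (hm : ¬ ℓ ∣ m) (hζ : ζ ^ m = 1) :
    ∀ x ∈ Subfield.closure ((((algebraMap ℚ Ω).fieldRange : Subfield Ω) : Set Ω) ∪ {ζ}), x ≠ 0 →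
      ∃ (n : ℤ) (u : Ω), u ∈ A ∧ u⁻¹ ∈ A ∧ x = (ℓ : Ω) ^ n * u := by
  have hℓ : (ℓ : Ω) ≠ 0 := Nat.cast_ne_zero.mpr (Fact.out : ℓ.Prime).ne_zero
  have hm0 : m ≠ 0 := fun h0 => hm (h0 ▸ dvd_zero ℓ)
  have hcoeff : ∀ i, ∃ z : ℤ, (Polynomial.X ^ m - 1 : Polynomial Ω).coeff i = (z : Ω) := by
    intro i
    rw [Polynomial.coeff_sub, Polynomial.coeff_X_pow, Polynomial.coeff_one]
    by_cases h1 : i = m <;> by_cases h2 : i = 0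
    · exact absurd (h1 ▸ h2) hm0
    · exact ⟨1, by simp [h1, hm0]⟩
    · exact ⟨-1, by simp [h2, Ne.symm hm0]⟩
    · exact ⟨0, by simp [h1, h2]⟩
  have hd : Polynomial.eval ζ (Polynomial.derivative (Polynomial.X ^ m - 1 : Polynomial Ω))
      = (m : Ω) * ζ ^ (m - 1) := by simp [Polynomial.derivative_X_pow]
  refine hU Ω A (algebraMap ℚ Ω).fieldRange (ℓ : Ω) ⟨(ℓ : ℚ), by simp⟩ hℓ h ?_ ζ
    (Polynomial.X ^ m - 1) ?_ ?_ ?_ ?_ ?_ ?_ ?_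
  · rintro x ⟨q, rfl⟩ hx
    have hq : q ≠ 0 := fun h0 => hx (by simp [h0])
    have := e_basering_c_P_rat A ℓ h q hq
    rw [eq_ratCast]
    exact this
  · exact Polynomial.monic_X_pow_sub_C (1 : Ω) hm0
  · intro i
    obtain ⟨z, hz⟩ := hcoeff i
    rw [hz]
    exact ⟨(z : ℚ), by simp⟩
  · intro i
    obtain ⟨z, hz⟩ := hcoeff i
    rw [hz]
    exact intCast_mem A z
  · exact (e_basering_c_unit_of_val A ζ (e_basering_c_val_root A ζ m hm0 hζ)).1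
  · simp [hζ]
  · rw [hd]
    refine mul_ne_zero (Nat.cast_ne_zero.mpr hm0) (pow_ne_zero _ ?_)
    rintro rfl
    rw [zero_pow hm0] at hζ
    exact zero_ne_one hζ
  · rw [hd]
    refine (e_basering_c_unit_of_val A _ ?_).2
    rw [map_mul, map_pow, e_basering_c_val_root A ζ m hm0 hζ, one_pow, mul_one]
    have := e_basering_c_val_int A ℓ h (m : ℤ) (by exact_mod_cast hm)
    simpa using this

/-- (C4) combination step. -/
theorem e_basering_c_combine (ℓ : ℕ) [Fact ℓ.Prime] (E₀ : Subfield (AlgebraicClosure ℚ))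
    (ξ₁ ξ₂ : AlgebraicClosure ℚ) (M₁ M₂ : ℕ) (h₁ : ¬ ℓ ∣ M₁) (h₂ : ¬ ℓ ∣ M₂)
    (e₁ : ξ₁ ^ M₁ = 1) (e₂ : ξ₂ ^ M₂ = 1) :
    ∃ (ξ : AlgebraicClosure ℚ) (M : ℕ), ¬ ℓ ∣ M ∧ ξ ^ M = 1 ∧
      Subfield.closure ((E₀ : Set (AlgebraicClosure ℚ)) ∪ {ξ₁}) ≤
        Subfield.closure ((E₀ : Set (AlgebraicClosure ℚ)) ∪ {ξ}) ∧
      Subfield.closure ((E₀ : Set (AlgebraicClosure ℚ)) ∪ {ξ₂}) ≤
        Subfield.closure ((E₀ : Set (AlgebraicClosure ℚ)) ∪ {ξ}) := by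
  have hM₁ : M₁ ≠ 0 := fun h0 => h₁ (h0 ▸ dvd_zero ℓ)
  have hM₂ : M₂ ≠ 0 := fun h0 => h₂ (h0 ▸ dvd_zero ℓ)
  have hM : M₁ * M₂ ≠ 0 := mul_ne_zero hM₁ hM₂
  have : NeZero (M₁ * M₂) := ⟨hM⟩
  have : NeZero ((M₁ * M₂ : ℕ) : ℚ) := ⟨Nat.cast_ne_zero.mpr hM⟩
  obtain ⟨ξ, hξ⟩ := HasEnoughRootsOfUnity.exists_primitiveRoot (AlgebraicClosure ℚ) (M₁ * M₂)
  have key : ∀ ζ : AlgebraicClosure ℚ, ζ ^ (M₁ * M₂) = 1 →
      Subfield.closure ((E₀ : Set (AlgebraicClosure ℚ)) ∪ {ζ}) ≤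
        Subfield.closure ((E₀ : Set (AlgebraicClosure ℚ)) ∪ {ξ}) := by
    intro ζ hζ
    obtain ⟨i, -, rfl⟩ := hξ.eq_pow_of_pow_eq_one hζ
    have hξm : ξ ∈ Subfield.closure ((E₀ : Set (AlgebraicClosure ℚ)) ∪ {ξ}) :=
      Subfield.subset_closure (Set.mem_union_right _ rfl)
    rw [Subfield.closure_le]
    rintro x (hx | hx)
    · exact Subfield.subset_closure (Set.mem_union_left _ hx)
    · rw [Set.mem_singleton_iff] at hx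
      rw [hx]
      exact pow_mem hξm i
  refine ⟨ξ, M₁ * M₂, ?_, hξ.pow_eq_one, key ξ₁ ?_, key ξ₂ ?_⟩
  · intro hd
    rcases ((Fact.out : ℓ.Prime).dvd_mul).mp hd with hd | hd
    · exact h₁ hd
    · exact h₂ hd
  · rw [pow_mul, e₁, one_pow]
  · rw [mul_comm, pow_mul, e₂, one_pow]

/-- (C4) -/
theorem e_basering_c_single (ℓ : ℕ) [Fact ℓ.Prime] (E₀ : Subfield (AlgebraicClosure ℚ)) :
    ∀ x ∈ Subfield.closure {ζ : AlgebraicClosure ℚ | ∃ m : ℕ, ¬ ℓ ∣ m ∧ ζ ^ m = 1},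
      ∃ (ξ : AlgebraicClosure ℚ) (M : ℕ), ¬ ℓ ∣ M ∧ ξ ^ M = 1 ∧
        x ∈ Subfield.closure ((E₀ : Set (AlgebraicClosure ℚ)) ∪ {ξ}) := by
  intro x hx
  induction hx using Subfield.closure_induction with
  | mem x hx =>
    obtain ⟨m, hm, hζ⟩ := hx
    exact ⟨x, m, hm, hζ, Subfield.subset_closure (Set.mem_union_right _ rfl)⟩
  | one =>
    exact ⟨1, 1, (Fact.out : ℓ.Prime).not_dvd_one, one_pow 1, one_mem _⟩
  | add x y _ _ ihx ihy =>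
    obtain ⟨ξ₁, M₁, h₁, e₁, m₁⟩ := ihx
    obtain ⟨ξ₂, M₂, h₂, e₂, m₂⟩ := ihy
    obtain ⟨ξ, M, hM, e, l₁, l₂⟩ := e_basering_c_combine ℓ E₀ ξ₁ ξ₂ M₁ M₂ h₁ h₂ e₁ e₂
    exact ⟨ξ, M, hM, e, add_mem (l₁ m₁) (l₂ m₂)⟩
  | neg x _ ihx =>
    obtain ⟨ξ₁, M₁, h₁, e₁, m₁⟩ := ihx
    exact ⟨ξ₁, M₁, h₁, e₁, neg_mem m₁⟩
  | inv x _ ihx =>
    obtain ⟨ξ₁, M₁, h₁, e₁, m₁⟩ := ihx
    exact ⟨ξ₁, M₁, h₁, e₁, inv_mem m₁⟩
  | mul x y _ _ ihx ihy =>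
    obtain ⟨ξ₁, M₁, h₁, e₁, m₁⟩ := ihx
    obtain ⟨ξ₂, M₂, h₂, e₂, m₂⟩ := ihy
    obtain ⟨ξ, M, hM, e, l₁, l₂⟩ := e_basering_c_combine ℓ E₀ ξ₁ ξ₂ M₁ M₂ h₁ h₂ e₁ e₂
    exact ⟨ξ, M, hM, e, mul_mem (l₁ m₁) (l₂ m₂)⟩

theorem e_basering_c_cyclo (hU : e_UnramStatement') (ℓ : ℕ) [Fact ℓ.Prime]
    (A : ValuationSubring (AlgebraicClosure ℚ)) (h : A.LiesOverPrime ℓ) :
    ∀ x ∈ Subfield.closure {ζ : AlgebraicClosure ℚ | ∃ m : ℕ, ¬ ℓ ∣ m ∧ ζ ^ m = 1}, x ≠ 0 →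
      ∃ (n : ℤ) (u : AlgebraicClosure ℚ), u ∈ A ∧ u⁻¹ ∈ A ∧
        x = (ℓ : AlgebraicClosure ℚ) ^ n * u := by
  intro x hx hx0
  obtain ⟨ξ, M, hM, e, hmem⟩ :=
    e_basering_c_single ℓ (algebraMap ℚ (AlgebraicClosure ℚ)).fieldRange x hx
  exact e_basering_c_step hU A ℓ h ξ M hM e x hmem hx0

end Fermat.Agent.S18
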