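import Fermat.Agent.S18.EInterfaces2
set_option autoImplicit false

namespace Fermat.Agent.S18

set_option synthInstance.maxHeartbeats 400000 in
theorem e_baseringTA_charP (ℓ : ℕ) [Fact ℓ.Prime] (A : ValuationSubring (AlgebraicClosure ℚ))
    (hA : (ℓ : AlgebraicClosure ℚ) ∈ A.nonunits) :
    CharP (IsLocalRing.ResidueField ↥A) ℓ := by
  have hℓ : ℓ.Prime := Fact.out
  have hmem : ((ℓ : ℕ) : ↥A) ∈ IsLocalRing.maximalIdeal ↥A := by
    rw [IsLocalRing.mem_maximalIdeal]
    intro hu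
    have h1 : ((((ℓ : ℕ) : ↥A) : AlgebraicClosure ℚ)) ∈ A.nonunits := by
      simpa using hA
    rw [ValuationSubring.mem_nonunits_iff_exists_mem_maximalIdeal] at h1
    obtain ⟨ha, h2⟩ := h1
    rw [IsLocalRing.mem_maximalIdeal] at h2
    exact h2 hu
  have h0 : ((ℓ : ℕ) : IsLocalRing.ResidueField ↥A) = 0 := by
    have := (IsLocalRing.residue_eq_zero_iff (R := ↥A) ((ℓ : ℕ) : ↥A)).mpr hmem
    simpa using this
  have := ringChar.charP (IsLocalRing.ResidueField ↥A)
  have hdvd : ringChar (IsLocalRing.ResidueField ↥A) ∣ ℓ :=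
    (CharP.cast_eq_zero_iff (IsLocalRing.ResidueField ↥A) _ ℓ).mp h0
  have hne : ringChar (IsLocalRing.ResidueField ↥A) ≠ 1 :=
    CharP.ringChar_ne_one
  have heq : ringChar (IsLocalRing.ResidueField ↥A) = ℓ :=
    ((Nat.dvd_prime hℓ).mp hdvd).resolve_left hne
  rw [← heq]
  infer_instance

set_option synthInstance.maxHeartbeats 400000 in
theorem e_baseringTA_algClosed (A : ValuationSubring (AlgebraicClosure ℚ)) :
    IsAlgClosed (IsLocalRing.ResidueField ↥A) := by
  apply IsAlgClosed.of_exists_root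
  intro p hp hirr
  obtain ⟨P, hPmap, hPdeg, hPmonic⟩ :=
    Polynomial.lifts_and_degree_eq_and_monic (f := IsLocalRing.residue ↥A)
      (Polynomial.mem_lifts_of_surjective IsLocalRing.residue_surjective p) hp
  have hPQ : (P.map (algebraMap ↥A (AlgebraicClosure ℚ))).degree ≠ 0 := by
    rw [hPmonic.degree_map, hPdeg]
    exact Polynomial.degree_pos_of_irreducible hirr |>.ne'
  obtain ⟨c, hc⟩ := IsAlgClosed.exists_root _ hPQ
  have hint : IsIntegral ↥A c := by
    refine ⟨P, hPmonic, ?_⟩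
    have hc' : Polynomial.eval c (P.map (algebraMap ↥A (AlgebraicClosure ℚ))) = 0 := hc
    rwa [Polynomial.eval_map] at hc'
  obtain ⟨y, hy⟩ := (IsIntegrallyClosed.isIntegral_iff (R := ↥A) (K := AlgebraicClosure ℚ)).mp hint
  refine ⟨IsLocalRing.residue ↥A y, ?_⟩
  have hy0 : Polynomial.eval y P = 0 := by
    have h1 : algebraMap ↥A (AlgebraicClosure ℚ) (Polynomial.eval y P) = 0 := by
      have hc' : Polynomial.eval c (P.map (algebraMap ↥A (AlgebraicClosure ℚ))) = 0 := hc
      rw [Polynomial.eval_map, ← hy, Polynomial.eval₂_at_apply] at hc'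
      exact hc'
    exact (FaithfulSMul.algebraMap_injective ↥A (AlgebraicClosure ℚ)) (by rw [h1, map_zero])
  rw [← hPmap, Polynomial.eval_map, Polynomial.eval₂_at_apply, hy0, map_zero]

theorem e_baseringTA_main (ℓ : ℕ) [Fact ℓ.Prime] (A : ValuationSubring (AlgebraicClosure ℚ))
    (hA : (ℓ : AlgebraicClosure ℚ) ∈ A.nonunits) :
    IsAlgClosed (IsLocalRing.ResidueField ↥A) ∧ CharP (IsLocalRing.ResidueField ↥A) ℓ :=
  ⟨e_baseringTA_algClosed A, e_baseringTA_charP ℓ A hA⟩

end Fermat.Agent.S18
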