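/-
S18, block E, package Cap (twin T): `B₁ ∩ B₂` consists of constants.
-/
import Fermat.Agent.S18.EInterfaces4

set_option autoImplicit false

namespace Fermat.Agent.S18

noncomputable section

/-- An element which is a root of a monic polynomial whose coefficients are mapped into a
valuation subring lies in that valuation subring. -/
theorem e_capT_mem_valuationSubring {K A : Type} [Field K] [CommRing A] (O : ValuationSubring K)
    (f : A →+* K) (hf : ∀ a, f a ∈ O) (z : K) (hz : f.IsIntegralElem z) : z ∈ O := by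
  obtain ⟨Q, hQ, hQz⟩ := hz
  let f' : A →+* ↥O := f.codRestrict O.toSubring hf
  have hint : IsIntegral ↥O z := by
    refine ⟨Q.map f', hQ.map f', ?_⟩
    rw [Polynomial.eval₂_map]
    exact hQz
  obtain ⟨w, hw⟩ := (IsIntegrallyClosed.isIntegral_iff (R := ↥O) (K := K)).1 hint
  rw [← hw]
  exact w.2

/-- Generic form: `z` is algebraic over `L`. -/
theorem e_capT_alg {F L K : Type} [Field F] [Field L] [Field K] (g : F →+* K) (ι : L →+* F)
    (W₀ : Subring F) (j : F) (hW : ∀ w ∈ W₀, ∃ c : L, ι c = w) (z : K)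
    (h1 : (g.comp (Subring.closure ((W₀ : Set F) ∪ {j})).subtype).IsIntegralElem z)
    (h2 : (g.comp (Subring.closure ((W₀ : Set F) ∪ {j⁻¹})).subtype).IsIntegralElem z) :
    ∃ P : Polynomial L, P ≠ 0 ∧ Polynomial.eval₂ (g.comp ι) z P = 0 := by
  classical
  set s : Set K := Set.range (g.comp ι) with hs
  -- Step 1: `z` lies in every valuation subring containing `s`.
  have hmem : ∀ O : ValuationSubring K, s ⊆ O.toSubring → z ∈ O := by
    intro O hO
    have hWO : ∀ w ∈ W₀, g w ∈ O := by
      intro w hw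
      obtain ⟨c, rfl⟩ := hW w hw
      exact hO ⟨c, rfl⟩
    have key : ∀ x : F, g x ∈ O → (∀ a ∈ Subring.closure ((W₀ : Set F) ∪ {x}), g a ∈ O) := by
      intro x hx a ha
      have : Subring.closure ((W₀ : Set F) ∪ {x}) ≤ O.toSubring.comap g := by
        rw [Subring.closure_le]
        rintro b (hb | hb)
        · exact hWO b hb
        · rw [Set.mem_singleton_iff] at hb
          subst hb
          exact hx
      exact this ha
    rcases O.mem_or_inv_mem (g j) with hj | hj
    · exact e_capT_mem_valuationSubring O _ (fun a => key j hj a.1 a.2) z h1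
    · rw [← map_inv₀] at hj
      exact e_capT_mem_valuationSubring O _ (fun a => key j⁻¹ hj a.1 a.2) z h2
  -- Step 2: `z` is integral over `Subring.closure s`.
  have hz : z ∈ (integralClosure (Subring.closure s) K).toSubring := by
    rw [← iInf_valuationSubring_superset, Subring.mem_iInf]
    rintro ⟨O, hO⟩
    exact hmem O hO
  have hz' : IsIntegral ↥(Subring.closure s) z := hz
  obtain ⟨Q, hQ, hQz⟩ := hz'
  have hcl : Subring.closure s = (g.comp ι).range := by
    rw [hs, ← RingHom.coe_range, Subring.closure_eq]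
  let φ : L →+* ↥(Subring.closure s) :=
    (g.comp ι).codRestrict (Subring.closure s) (fun x => Subring.subset_closure ⟨x, rfl⟩)
  have hφ : Function.Surjective φ := by
    rintro ⟨x, hx⟩
    rw [hcl] at hx
    obtain ⟨c, hc⟩ := hx
    exact ⟨c, Subtype.ext hc⟩
  obtain ⟨P, hP⟩ := Polynomial.map_surjective φ hφ Q
  refine ⟨P, ?_, ?_⟩
  · rintro rfl
    rw [Polynomial.map_zero] at hP
    exact hQ.ne_zero hP.symm
  · have : (g.comp ι) = (algebraMap ↥(Subring.closure s) K).comp φ := rfl
    rw [this, ← Polynomial.eval₂_map, hP]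
    exact hQz

theorem e_capT_main : e_CapStatement := by
  intro F L _ _ p y ι W₀ j hirr hW hAC z h1 h2
  have : Fact (Irreducible (e_pol F p y)) := ⟨hirr⟩
  obtain ⟨c, hc⟩ := hAC z (e_capT_alg (e_of p y) ι W₀ j hW z h1 h2)
  refine ⟨c, hc, ?_⟩
  obtain ⟨Q, hQ, hQz⟩ := h1
  refine ⟨Q, hQ, ?_⟩
  rw [hc, ← Polynomial.hom_eval₂] at hQz
  exact (e_of p y).injective (hQz.trans (map_zero _).symm)

end

end Fermat.Agent.S18
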