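/-
S18, block E4 (ConstExt): every place of `F_L / L` extends to a place of `F_Qbar / Qbar` with the
same order function on `F_L`.  Part A: the abstract valuation-theoretic theorem.
-/
import Fermat.Agent.S18.EInterfaces3

set_option autoImplicit false

open ModularCurve AlgebraicCurve

namespace Fermat.Agent.S18

/-! ## Valuation subrings in which every nonzero element is `π ^ n * unit` -/

/-- `π ^ n * u ∈ O` iff `0 ≤ n` (for `π ∈ O` a nonunit and `u` a unit of `O`). -/
theorem e_constext_zpow_mem {Ω : Type} [Field Ω] (O : ValuationSubring Ω) (π : Ω)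
    (hπO : π ∈ O) (hπi : π⁻¹ ∉ O) {n : ℤ} {u : Ω} (hu : u ∈ O) (hui : u⁻¹ ∈ O) (hu0 : u ≠ 0) :
    π ^ n * u ∈ O ↔ 0 ≤ n := by
  have hπ0 : π ≠ 0 := by
    rintro rfl
    exact hπi (by simp [O.zero_mem])
  constructor
  · intro h
    by_contra hn
    rw [not_le] at hn
    obtain ⟨m, rfl⟩ : ∃ m : ℕ, n = -((m : ℤ) + 1) := ⟨(-n - 1).toNat, by omega⟩
    have h1 : π ^ (-((m : ℤ) + 1)) ∈ O := by
      have := O.mul_mem _ _ h hui
      rwa [mul_assoc, mul_inv_cancel₀ hu0, mul_one] at this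
    have h2 : π ^ (-((m : ℤ) + 1)) * π ^ m ∈ O := O.mul_mem _ _ h1 (O.pow_mem hπO m)
    have h3 : π ^ (-((m : ℤ) + 1)) * π ^ m = π⁻¹ := by
      rw [← zpow_natCast, ← zpow_add₀ hπ0]
      have : -((m : ℤ) + 1) + (m : ℤ) = -1 := by ring
      rw [this, zpow_neg_one]
    rw [h3] at h2
    exact hπi h2
  · intro hn
    obtain ⟨m, rfl⟩ : ∃ m : ℕ, n = (m : ℤ) := ⟨n.toNat, by omega⟩
    rw [zpow_natCast]
    exact O.mul_mem _ _ (O.pow_mem hπO m) hu

/-- An element of `O` whose inverse lies in `O` is a unit of `O`. -/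
theorem e_constext_isUnit {Ω : Type} [Field Ω] (O : ValuationSubring Ω) (a : ↥O)
    (ha0 : (a : Ω) ≠ 0) (hai : (a : Ω)⁻¹ ∈ O) : IsUnit a :=
  ⟨⟨a, ⟨(a : Ω)⁻¹, hai⟩, Subtype.ext (mul_inv_cancel₀ ha0), Subtype.ext (inv_mul_cancel₀ ha0)⟩, rfl⟩

/-- If every nonzero element of `Ω` is `π ^ n * unit`, then `O` is a discrete valuation ring with
uniformiser `π`. -/
theorem e_constext_dvr {Ω : Type} [Field Ω] (O : ValuationSubring Ω) (π : Ω)
    (hπO : π ∈ O) (hπi : π⁻¹ ∉ O)
    (H : ∀ z : Ω, z ≠ 0 → ∃ (n : ℤ) (u : Ω), u ∈ O ∧ u⁻¹ ∈ O ∧ z = π ^ n * u) :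
    O ≠ ⊤ ∧ IsPrincipalIdealRing ↥O ∧ Irreducible (⟨π, hπO⟩ : ↥O) := by
  have hπ0 : π ≠ 0 := by
    rintro rfl
    exact hπi (by simp [O.zero_mem])
  have hirr : Irreducible (⟨π, hπO⟩ : ↥O) := by
    rw [irreducible_iff]
    constructor
    · rintro ⟨⟨a, b, hab, hba⟩, ha⟩
      apply hπi
      have ha' : a = ⟨π, hπO⟩ := ha
      subst ha'
      have h1 : π * (b : Ω) = 1 := congrArg Subtype.val hab
      have h2 : π⁻¹ = (b : Ω) := inv_eq_of_mul_eq_one_right h1
      rw [h2]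
      exact b.2
    · intro a b hab
      have hab' : π = (a : Ω) * (b : Ω) := congrArg Subtype.val hab
      have ha0 : (a : Ω) ≠ 0 := by
        intro h
        rw [h, zero_mul] at hab'
        exact hπ0 hab'
      have hb0 : (b : Ω) ≠ 0 := by
        intro h
        rw [h, mul_zero] at hab'
        exact hπ0 hab'
      obtain ⟨n, u, hu, hui, hau⟩ := H _ ha0
      obtain ⟨m, v, hv, hvi, hbv⟩ := H _ hb0
      have hu0 : u ≠ 0 := by
        rintro rfl
        rw [mul_zero] at hau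
        exact ha0 hau
      have hv0 : v ≠ 0 := by
        rintro rfl
        rw [mul_zero] at hbv
        exact hb0 hbv
      have hn : 0 ≤ n := (e_constext_zpow_mem O π hπO hπi hu hui hu0).1 (hau ▸ a.2)
      have hm : 0 ≤ m := (e_constext_zpow_mem O π hπO hπi hv hvi hv0).1 (hbv ▸ b.2)
      have hkey : π ^ (1 - n - m) * 1 = u * v := by
        rw [mul_one, sub_sub, zpow_sub₀ hπ0, zpow_one, zpow_add₀ hπ0]
        have h3 : π = π ^ n * u * (π ^ m * v) := by rw [← hau, ← hbv]; exact hab'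
        have hn0 : π ^ n ≠ 0 := zpow_ne_zero _ hπ0
        have hm0 : π ^ m ≠ 0 := zpow_ne_zero _ hπ0
        rw [div_eq_iff (mul_ne_zero hn0 hm0)]
        calc π = π ^ n * u * (π ^ m * v) := h3
          _ = u * v * (π ^ n * π ^ m) := by ring
      have hle : 0 ≤ 1 - n - m :=
        (e_constext_zpow_mem O π hπO hπi O.one_mem (by simp [O.one_mem]) one_ne_zero).1
          (hkey ▸ O.mul_mem _ _ hu hv)
      have hcase : n = 0 ∨ m = 0 := by omega
      rcases hcase with h0 | h0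
      · left
        apply e_constext_isUnit O a ha0
        rw [hau, h0, zpow_zero, one_mul]
        exact hui
      · right
        apply e_constext_isUnit O b hb0
        rw [hbv, h0, zpow_zero, one_mul]
        exact hvi
  have hfact : IsDiscreteValuationRing.HasUnitMulPowIrreducibleFactorization ↥O := by
    refine ⟨⟨π, hπO⟩, hirr, ?_⟩
    intro x hx
    have hx0 : (x : Ω) ≠ 0 := fun h => hx (Subtype.ext h)
    obtain ⟨n, u, hu, hui, hxu⟩ := H _ hx0
    have hu0 : u ≠ 0 := by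
      rintro rfl
      rw [mul_zero] at hxu
      exact hx0 hxu
    have hn : 0 ≤ n := (e_constext_zpow_mem O π hπO hπi hu hui hu0).1 (hxu ▸ x.2)
    obtain ⟨k, rfl⟩ : ∃ k : ℕ, n = (k : ℤ) := ⟨n.toNat, by omega⟩
    refine ⟨k, ?_⟩
    obtain ⟨w, hw⟩ := e_constext_isUnit O ⟨u, hu⟩ hu0 hui
    refine ⟨w, ?_⟩
    rw [hw]
    apply Subtype.ext
    rw [hxu, zpow_natCast]
    rfl
  refine ⟨?_, ?_, hirr⟩
  · intro h
    apply hπi
    rw [h]
    exact ValuationSubring.mem_top _
  · have : IsDiscreteValuationRing ↥O :=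
      IsDiscreteValuationRing.ofHasUnitMulPowIrreducibleFactorization hfact
    infer_instance

/-! ## Dominating valuation subrings -/

/-- A valuation subring of `F` extends along a field embedding `φ : F → Ω`. -/
theorem e_constext_exists_dominating {F Ω : Type} [Field F] [Field Ω] (φ : F →+* Ω)
    (O' : ValuationSubring F) :
    ∃ O : ValuationSubring Ω, ∀ x : F, φ x ∈ O ↔ x ∈ O' := by
  obtain ⟨O, hle, hloc⟩ := LocalSubring.exists_le_valuationSubring (O'.toLocalSubring.map φ)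
  refine ⟨O, fun x => ⟨fun hx => ?_, fun hx => hle ⟨x, hx, rfl⟩⟩⟩
  by_contra hxO'
  have hxi : x⁻¹ ∈ O' := (O'.mem_or_inv_mem x).resolve_left hxO'
  have hx0 : x ≠ 0 := fun h => hxO' (h ▸ O'.zero_mem)
  have hmem : φ x⁻¹ ∈ (O'.toLocalSubring.map φ).toSubring := ⟨x⁻¹, hxi, rfl⟩
  have hunit : IsUnit (Subring.inclusion hle ⟨φ x⁻¹, hmem⟩) := by
    refine ⟨⟨_, ⟨φ x, hx⟩, ?_, ?_⟩, rfl⟩
    · apply Subtype.ext
      change φ x⁻¹ * φ x = 1
      rw [← map_mul, inv_mul_cancel₀ hx0, map_one]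
    · apply Subtype.ext
      change φ x * φ x⁻¹ = 1
      rw [← map_mul, mul_inv_cancel₀ hx0, map_one]
  have hunit' := hloc.map_nonunit _ hunit
  obtain ⟨⟨_, ⟨_, w, hw, rfl⟩, hab, _⟩, rfl⟩ := hunit'
  have h1 : φ x⁻¹ * φ w = 1 := congrArg Subtype.val hab
  rw [← map_mul] at h1
  have h2 : x⁻¹ * w = 1 := φ.injective (by rw [h1, map_one])
  have h3 : w = x := by
    have := eq_inv_of_mul_eq_one_right h2
    rwa [inv_inv] at this
  exact hxO' (h3 ▸ hw)

/-! ## The abstract constant field extension theorem -/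

section Abstract

variable {K F Ω : Type} [Field K] [Field F] [Field Ω] [Algebra K Ω] [Algebra ℚ K]

/-- Rational constants of `Ω` come from `F`. -/
theorem e_constext_rat (φ : F →+* Ω) (q : ℚ) :
    algebraMap K Ω (algebraMap ℚ K q) = φ (q : F) := by
  rw [eq_ratCast, map_ratCast, map_ratCast]

/-- Constants of `Ω` lie in every valuation subring containing the image of the constants of
`F` (as `K` is algebraic over `ℚ`). -/
theorem e_constext_const_mem [Algebra.IsAlgebraic ℚ K] (φ : F →+* Ω) (O : ValuationSubring Ω)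
    (hO : ∀ q : ℚ, φ (q : F) ∈ O) (c : K) : algebraMap K Ω c ∈ O := by
  have hq : ∀ q : ℚ, ((algebraMap K Ω).comp (algebraMap ℚ K)) q ∈ O.toSubring := by
    intro q
    change algebraMap K Ω (algebraMap ℚ K q) ∈ O
    rw [e_constext_rat φ q]
    exact hO _
  let ρ : ℚ →+* ↥O.toSubring := RingHom.codRestrict _ O.toSubring hq
  have hc : IsIntegral ℚ c := Algebra.IsIntegral.isIntegral c
  have hint : IsIntegral ↥O (algebraMap K Ω c) := by
    refine ⟨(minpoly ℚ c).map ρ, (minpoly.monic hc).map ρ, ?_⟩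
    rw [Polynomial.eval₂_map]
    have h1 : (algebraMap ↥O Ω).comp ρ = (algebraMap K Ω).comp (algebraMap ℚ K) :=
      Subsingleton.elim _ _
    rw [h1, ← Polynomial.hom_eval₂]
    have h2 : Polynomial.eval₂ (algebraMap ℚ K) c (minpoly ℚ c) = 0 := minpoly.aeval ℚ c
    rw [h2, map_zero]
  obtain ⟨y, hy⟩ := IsIntegrallyClosed.algebraMap_eq_of_integral hint
  rw [← hy]
  exact y.2

/-- The subfields `E(c)`, `c` a constant, form a directed family. -/
theorem e_constext_directed [Algebra.IsAlgebraic ℚ K] (φ : F →+* Ω) (c₁ c₂ : K) :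
    ∃ c₃ : K,
      Subfield.closure ((φ.fieldRange : Set Ω) ∪ {algebraMap K Ω c₁}) ≤
        Subfield.closure ((φ.fieldRange : Set Ω) ∪ {algebraMap K Ω c₃}) ∧
      Subfield.closure ((φ.fieldRange : Set Ω) ∪ {algebraMap K Ω c₂}) ≤
        Subfield.closure ((φ.fieldRange : Set Ω) ∪ {algebraMap K Ω c₃}) := by
  obtain ⟨γ, hγ⟩ := Field.primitive_element_inf_aux ℚ c₁ c₂
  have hT : (IntermediateField.adjoin ℚ {γ}).toSubfield ≤
      (Subfield.closure ((φ.fieldRange : Set Ω) ∪ {algebraMap K Ω γ})).comap (algebraMap K Ω) := by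
    change Subfield.closure (Set.range (algebraMap ℚ K) ∪ {γ}) ≤ _
    rw [Subfield.closure_le]
    rintro x (⟨q, rfl⟩ | hx)
    · change algebraMap K Ω (algebraMap ℚ K q) ∈ Subfield.closure _
      rw [e_constext_rat φ q]
      exact Subfield.subset_closure (Or.inl ⟨_, rfl⟩)
    · rw [Set.mem_singleton_iff] at hx
      subst hx
      exact Subfield.subset_closure (Or.inr rfl)
  have h1 : c₁ ∈ IntermediateField.adjoin ℚ {γ} := by
    rw [← hγ]
    exact IntermediateField.subset_adjoin ℚ _ (by simp)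
  have h2 : c₂ ∈ IntermediateField.adjoin ℚ {γ} := by
    rw [← hγ]
    exact IntermediateField.subset_adjoin ℚ _ (by simp)
  refine ⟨γ, ?_, ?_⟩
  · rw [Subfield.closure_le]
    rintro x (hx | hx)
    · exact Subfield.subset_closure (Or.inl hx)
    · rw [Set.mem_singleton_iff] at hx
      subst hx
      exact hT h1
  · rw [Subfield.closure_le]
    rintro x (hx | hx)
    · exact Subfield.subset_closure (Or.inl hx)
    · rw [Set.mem_singleton_iff] at hx
      subst hx
      exact hT h2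

/-- Every element of `Ω` lies in `E(c)` for a single constant `c`. -/
theorem e_constext_exists_const [Algebra.IsAlgebraic ℚ K] (φ : F →+* Ω)
    (hgen : Subfield.closure (Set.range (algebraMap K Ω) ∪ Set.range φ) = ⊤) (z : Ω) :
    ∃ c : K, z ∈ Subfield.closure ((φ.fieldRange : Set Ω) ∪ {algebraMap K Ω c}) := by
  have hz : z ∈ Subfield.closure (Set.range (algebraMap K Ω) ∪ Set.range φ) := by
    rw [hgen]; exact Subfield.mem_top z
  induction hz using Subfield.closure_induction with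
  | mem y hy =>
      rcases hy with ⟨c, rfl⟩ | ⟨x, rfl⟩
      · exact ⟨c, Subfield.subset_closure (Or.inr rfl)⟩
      · exact ⟨0, Subfield.subset_closure (Or.inl ⟨x, rfl⟩)⟩
  | one => exact ⟨0, one_mem _⟩
  | add x y _ _ hx hy =>
      obtain ⟨c₁, h₁⟩ := hx
      obtain ⟨c₂, h₂⟩ := hy
      obtain ⟨c₃, h13, h23⟩ := e_constext_directed φ c₁ c₂
      exact ⟨c₃, add_mem (h13 h₁) (h23 h₂)⟩
  | neg x _ hx =>
      obtain ⟨c₁, h₁⟩ := hx
      exact ⟨c₁, neg_mem h₁⟩
  | inv x _ hx =>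
      obtain ⟨c₁, h₁⟩ := hx
      exact ⟨c₁, inv_mem h₁⟩
  | mul x y _ _ hx hy =>
      obtain ⟨c₁, h₁⟩ := hx
      obtain ⟨c₂, h₂⟩ := hy
      obtain ⟨c₃, h13, h23⟩ := e_constext_directed φ c₁ c₂
      exact ⟨c₃, mul_mem (h13 h₁) (h23 h₂)⟩

/-- The abstract constant field extension theorem. -/
theorem e_constext_abstract (hU : e_UnramStatement') [Algebra.IsAlgebraic ℚ K]
    {L : Type} [Field L] [Algebra L F] (φ : F →+* Ω)
    (hgen : Subfield.closure (Set.range (algebraMap K Ω) ∪ Set.range φ) = ⊤)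
    (P' : Place L F) :
    ∃ P : Place K Ω, ∀ x : F, P.ord (φ x) = P'.ord x := by
  obtain ⟨O, hO⟩ := e_constext_exists_dominating φ P'.toValuationSubring
  obtain ⟨π', hπ'⟩ := IsDiscreteValuationRing.exists_irreducible ↥P'.toValuationSubring
  have hπ'0 : (π' : F) ≠ 0 := fun h => hπ'.ne_zero (Subtype.ext h)
  have hπ'i : (π' : F)⁻¹ ∉ P'.toValuationSubring := by
    intro h
    exact hπ'.not_isUnit (e_constext_isUnit _ π' hπ'0 h)
  -- constants
  have hrat : ∀ q : ℚ, (q : F) ∈ P'.toValuationSubring := by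
    intro q
    have := P'.algebraMap_mem' (q : L)
    rwa [map_ratCast] at this
  have hconst : ∀ c : K, algebraMap K Ω c ∈ O :=
    e_constext_const_mem φ O (fun q => (hO _).2 (hrat q))
  -- the uniformiser
  have hπO : φ π' ∈ O := (hO _).2 π'.2
  have hπi : (φ π')⁻¹ ∉ O := by
    rw [← map_inv₀, hO]
    exact hπ'i
  have hπ0 : φ (π' : F) ≠ 0 := (map_ne_zero φ).2 hπ'0
  have hπnon : φ π' ∈ O.nonunits := by
    rw [ValuationSubring.mem_nonunits_iff_or]
    exact Or.inr hπi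
  -- `E` is discretely valued
  have hE : ∀ x ∈ φ.fieldRange, x ≠ 0 →
      ∃ (n : ℤ) (u : Ω), u ∈ O ∧ u⁻¹ ∈ O ∧ x = φ π' ^ n * u := by
    rintro _ ⟨x, rfl⟩ hx
    have hx0 : x ≠ 0 := (map_ne_zero φ).1 hx
    obtain ⟨u, hu⟩ := P'.exists_unit_mul_zpow hx0 hπ'
    refine ⟨P'.ord x, φ ((u : ↥P'.toValuationSubring) : F), (hO _).2 (SetLike.coe_mem _), ?_, ?_⟩
    · rw [← map_inv₀, hO]
      have : (((u⁻¹ : (↥P'.toValuationSubring)ˣ) : ↥P'.toValuationSubring) : F) =
          (((u : ↥P'.toValuationSubring) : F))⁻¹ := by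
        apply eq_inv_of_mul_eq_one_left
        have := congrArg Subtype.val (Units.inv_mul u)
        exact this
      rw [← this]
      exact SetLike.coe_mem _
    · conv_lhs => rw [hu]
      rw [map_mul, map_zpow₀, mul_comm]
  -- every nonzero element is `π ^ n * unit`
  have hall : ∀ z : Ω, z ≠ 0 → ∃ (n : ℤ) (u : Ω), u ∈ O ∧ u⁻¹ ∈ O ∧ z = φ π' ^ n * u := by
    intro z hz
    obtain ⟨c₀, hc₀⟩ := e_constext_exists_const φ hgen z
    have hc : IsIntegral ℚ c₀ := Algebra.IsIntegral.isIntegral c₀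
    let ψ : ℚ →+* Ω := (algebraMap K Ω).comp (algebraMap ℚ K)
    have hψ : ∀ q : ℚ, ψ q = φ (q : F) := fun q => e_constext_rat φ q
    have hsep : (minpoly ℚ c₀).Separable := (minpoly.irreducible hc).separable
    have hroot : Polynomial.eval₂ (algebraMap ℚ K) c₀ (minpoly ℚ c₀) = 0 := minpoly.aeval ℚ c₀
    have hder : Polynomial.eval₂ (algebraMap ℚ K) c₀ (Polynomial.derivative (minpoly ℚ c₀)) ≠ 0 :=
      hsep.aeval_derivative_ne_zero hroot
    refine hU Ω O φ.fieldRange (φ π') ⟨_, rfl⟩ hπ0 hπnon hE (algebraMap K Ω c₀)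
      ((minpoly ℚ c₀).map ψ) ((minpoly.monic hc).map ψ) ?_ ?_ (hconst c₀) ?_ ?_ ?_ z hc₀ hz
    · intro i
      rw [Polynomial.coeff_map, hψ]
      exact ⟨_, rfl⟩
    · intro i
      rw [Polynomial.coeff_map, hψ, hO]
      exact hrat _
    · rw [Polynomial.eval_map, ← Polynomial.hom_eval₂, hroot, map_zero]
    · rw [Polynomial.derivative_map, Polynomial.eval_map, ← Polynomial.hom_eval₂]
      exact (map_ne_zero _).2 hder
    · rw [Polynomial.derivative_map, Polynomial.eval_map, ← Polynomial.hom_eval₂, ← map_inv₀]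
      exact hconst _
  obtain ⟨hne, hpid, hirr⟩ := e_constext_dvr O (φ π') hπO hπi hall
  refine ⟨⟨O, hconst, hne, hpid⟩, fun x => ?_⟩
  rcases eq_or_ne x 0 with rfl | hx0
  · rw [map_zero, Place.ord_zero, Place.ord_zero]
  obtain ⟨u, hu⟩ := P'.exists_unit_mul_zpow hx0 hπ'
  have huO : φ ((u : ↥P'.toValuationSubring) : F) ∈ O := (hO _).2 (SetLike.coe_mem _)
  have hu0 : φ ((u : ↥P'.toValuationSubring) : F) ≠ 0 := by
    rw [map_ne_zero]
    intro h
    exact u.ne_zero (Subtype.ext h)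
  have huiO : (φ ((u : ↥P'.toValuationSubring) : F))⁻¹ ∈ O := by
    rw [← map_inv₀, hO]
    have : (((u⁻¹ : (↥P'.toValuationSubring)ˣ) : ↥P'.toValuationSubring) : F) =
        (((u : ↥P'.toValuationSubring) : F))⁻¹ := by
      apply eq_inv_of_mul_eq_one_left
      have := congrArg Subtype.val (Units.inv_mul u)
      exact this
    rw [← this]
    exact SetLike.coe_mem _
  obtain ⟨w, hw⟩ := e_constext_isUnit O ⟨_, huO⟩ hu0 huiO
  have hx : φ x = ((w : ↥O) : Ω) * (((⟨φ π', hπO⟩ : ↥O) : Ω) ^ (P'.ord x)) := by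
    rw [hw]
    conv_lhs => rw [hu]
    rw [map_mul, map_zpow₀]
  rw [hx]
  exact Place.ord_unit_smul_zpow (v := (⟨O, hconst, hne, hpid⟩ : Place K Ω)) w hirr (P'.ord x)

end Abstract

end Fermat.Agent.S18
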