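/-
S18, block E4 (ConstExt): every place of `F_L / L` extends to a place of `F_Qbar / Qbar` with the
same order function on `F_L`.  Part B: instantiation of the abstract theorem of `EConstExtA.lean`.
-/
import Fermat.Agent.S18.EConstExtA
import Fermat.Agent.S18.EDescentT
import Fermat.Agent.S18.EGeomConnT

set_option autoImplicit false

open ModularCurve AlgebraicCurve

namespace Fermat.Agent.S18

/-! ## Instantiation -/

/-- `F_M` is generated by the constants and the image of `F_L` (general form). -/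
theorem e_constext_gen_aux {L M : Type} [Field L] [Field M] [Algebra ℚ L] [Algebra ℚ M]
    (ι : L →+* M) (F₀ : IntermediateField ℚ (LaurentSeries ℚ))
    (φ : ↥(laurentBaseChange L F₀) →+* ↥(laurentBaseChange M F₀))
    (hφ : ∀ x : ↥(laurentBaseChange L F₀),
      ((φ x : ↥(laurentBaseChange M F₀)) : LaurentSeries M) = coeffMap ι (x : LaurentSeries L)) :
    Subfield.closure
      (Set.range (algebraMap M ↥(laurentBaseChange M F₀)) ∪ Set.range φ) = ⊤ := by
  have key : Subfield.closure
      (Set.range (algebraMap M (LaurentSeries M)) ∪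
        (⇑(coeffEmb M) '' (F₀ : Set (LaurentSeries ℚ)))) ≤
      (Subfield.closure
        (Set.range (algebraMap M ↥(laurentBaseChange M F₀)) ∪ Set.range φ)).map
        (laurentBaseChange M F₀).val.toRingHom := by
    rw [Subfield.closure_le]
    rintro y (⟨c, rfl⟩ | ⟨z₀, hz₀, rfl⟩)
    · exact ⟨algebraMap M ↥(laurentBaseChange M F₀) c,
        Subfield.subset_closure (Or.inl ⟨c, rfl⟩), rfl⟩
    · refine ⟨φ ⟨coeffEmb L z₀, coeffEmb_mem_laurentBaseChange L hz₀⟩,
        Subfield.subset_closure (Or.inr ⟨_, rfl⟩), ?_⟩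
      change ((φ ⟨coeffEmb L z₀, coeffEmb_mem_laurentBaseChange L hz₀⟩ :
        ↥(laurentBaseChange M F₀)) : LaurentSeries M) = _
      rw [hφ]
      exact e_descentT_coeffMap_coeffEmb ι z₀
  rw [eq_top_iff]
  rintro ⟨z, hz⟩ -
  obtain ⟨z', hz', hzz'⟩ := key (mem_laurentBaseChange_iff.1 hz)
  have : z' = ⟨z, hz⟩ := Subtype.ext hzz'
  rw [← this]
  exact hz'

/-- (E4) ConstExt. -/
theorem e_constext_main : e_UnramStatement' → e_IotaStatement → e_ConstExtStatement := by
  intro hU hι N _ L _ _ ι P'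
  let _ : Algebra ℚ (AlgebraicClosure ℚ) := AlgebraicClosure.instAlgebra ℚ
  obtain ⟨P, hP⟩ := e_constext_abstract hU (e_geomconnT_iotaF hι N L ι)
    (e_constext_gen_aux ι _ (e_geomconnT_iotaF hι N L ι) (fun _ => rfl)) P'
  exact ⟨P, fun x hx => hP x⟩

end Fermat.Agent.S18
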