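/-
S18, block E, package EGMain (endgame assembly; sub-lead helper500) — INTERNAL INTERFACE FILE.

Definitions and statement-`Prop`s of the sub-packages (A), (B), (B3), (C), (D), (E1), (E2), (F1), (F)
of the endgame assembly.  Proofs are in the files `EEGMain<Part>.lean`.

Notation: `F` a field, `V ⊆ F` the Gauss valuation ring, `ϖ ∈ F` its uniformiser, `y ∈ F` with
`T ^ p - y` irreducible, `F' = e_Fp F p y`, `e_of p y : F →+* F'`, `e_rt p y` the root `t`;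
`e_IsInt p y A z`: `z ∈ F'` is integral over the subring `A ⊆ F`; "`x ∈ ϖ V'`" is written
`e_IsInt p y V (e_of p y ϖ⁻¹ * x)`.
-/
import Fermat.Agent.S18.EInterfaces4
import Fermat.Agent.S18.LocSubB

set_option autoImplicit false

open ModularCurve AlgebraicCurve

namespace Fermat.Agent.S18

noncomputable section

/-! ## Bundled data -/

/-- `V` is a valuation ring of `F` with maximal ideal `ϖ V` (and integrally closed in `F`). -/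
structure e_egmain_VData {F : Type} [Field F] (V : Subring F) (ϖ : F) : Prop where
  total : ∀ x : F, x ∈ V ∨ x⁻¹ ∈ V
  ne_zero : ϖ ≠ 0
  inv_not_mem : ϖ⁻¹ ∉ V
  max : ∀ x ∈ V, x⁻¹ ∉ V → ϖ⁻¹ * x ∈ V
  closed : ∀ x : F, IsIntegral ↥V x → x ∈ V

/-- `y` and `h₀` are units of `V` with `y ≡ h₀ ^ p` modulo `ϖ V`. -/
structure e_egmain_YData {F : Type} [Field F] (V : Subring F) (ϖ : F) (p : ℕ) (y h₀ : F) :
    Prop where
  y_ne : y ≠ 0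
  y_mem : y ∈ V
  y_inv_mem : y⁻¹ ∈ V
  h_ne : h₀ ≠ 0
  h_mem : h₀ ∈ V
  h_inv_mem : h₀⁻¹ ∈ V
  cong : ϖ⁻¹ * (y * h₀⁻¹ ^ p - 1) ∈ V

/-- (GL1) for the subring `A`: `A`-integral and in `ϖ V'` implies in `ϖ ·` (`A`-integral). -/
def e_egmain_GL1 {F : Type} [Field F] (p : ℕ) (y ϖ : F) (V A : Subring F) : Prop :=
  ∀ z : e_Fp F p y, e_IsInt p y A z → e_IsInt p y V (e_of p y ϖ⁻¹ * z) →
    e_IsInt p y A (e_of p y ϖ⁻¹ * z)

/-- (GL2) for the subring `A`: `τ = t / h₀` is congruent modulo `ϖ V'` to an `A`-integral element. -/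
def e_egmain_GL2 {F : Type} [Field F] (p : ℕ) (y ϖ h₀ : F) (V A : Subring F) : Prop :=
  ∃ b : e_Fp F p y, e_IsInt p y A b ∧
    e_IsInt p y V (e_of p y ϖ⁻¹ * (e_of p y h₀⁻¹ * e_rt p y - b))

/-- (B3) local data of `A ⊆ V` at the maximal ideals containing `ϖ`. -/
def e_egmain_LocB3 {F : Type} [Field F] (ϖ : F) (V A : Subring F) (hϖ : ϖ ∈ A) : Prop :=
  ∀ (m : Ideal ↥A) [m.IsMaximal], (⟨ϖ, hϖ⟩ : ↥A) ∈ m →
    locSub A m ≤ V ∧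
    (∀ x ∈ locSub A m, ϖ⁻¹ * x ∈ V → ϖ⁻¹ * x ∈ locSub A m) ∧
    IsLocalRing ↥(locSub A m) ∧ IsNoetherianRing ↥(locSub A m) ∧ e_IsFrac (locSub A m) ∧
    IsDVRQuot ↥(locSub A m) (⟨ϖ, le_locSub A m hϖ⟩ : ↥(locSub A m))

/-! ## (A) the Gauss valuation ring -/

/-- (A) `V`-data from `GaussStatement`: `V` is a valuation ring with maximal ideal `ϖ V`,
`V ∩ L = W`, `W` is local with maximal ideal `(ϖ)`, `1/p` and `ζ_p` are constants from `W`, and the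
units `y`, `h₀`. -/
def e_egmain_AStatement : Prop :=
  ∀ (N : ℕ) [NeZero N] (ℓ : ℕ) [Fact ℓ.Prime] (L : Type) [Field L] [Algebra ℚ L]
    (W : ValuationSubring L) [IsDiscreteValuationRing ↥W] (k : Type) [Field k] [IsAlgClosed k]
    [CharP k ℓ] (res : ↥W →+* k) (ϖ : ↥W), BaseData N ℓ W res ϖ →
    e_egmain_VData (gaussV W res N) (cW W N ϖ) ∧
    (∀ c : L, algebraMap L ↥(FL L N) c ∈ gaussV W res N → c ∈ W) ∧
    (∀ w : ↥W, (∃ w' : ↥W, w = ϖ * w') ∨ (∃ w' : ↥W, w * w' = 1)) ∧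
    (∀ p : ℕ, p.Prime → p ≠ ℓ → ((p : ℕ) : ↥(FL L N)) ≠ 0 ∧
      (∃ q : ↥W, cW W N q = ((p : ℕ) : ↥(FL L N))⁻¹) ∧
      ∃ ζ : ↥W, IsPrimitiveRoot (cW W N ζ) p) ∧
    (∀ (p : ℕ) (y : LaurentSeries ↥W) (hy : coeffMap W.subtype y ∈ FL L N),
      (∃ h ∈ Fk k N, h ≠ 0 ∧ coeffMap res y = h ^ p) →
      ∃ h₀ : ↥(FL L N),
        e_egmain_YData (gaussV W res N) (cW W N ϖ) p ⟨coeffMap W.subtype y, hy⟩ h₀)

/-! ## (B) the charts -/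

/-- (B0) `j ≠ 0`; for `x₀ ∈ {j, 1/j}`: `x₀` is transcendental over `W` and `F` is spanned by
finitely many elements over the subfield generated by `W` and `x₀`. -/
def e_egmain_B0Statement : Prop :=
  ∀ (N : ℕ) [NeZero N] (L : Type) [Field L] [Algebra ℚ L] (W : ValuationSubring L),
    jF L N ≠ 0 ∧
    ∀ x₀ : ↥(FL L N), (x₀ = jF L N ∨ x₀ = (jF L N)⁻¹) →
      (∀ P : Polynomial ↥W, P ≠ 0 → Polynomial.eval₂ (cW W N) x₀ P ≠ 0) ∧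
      (∃ (r : ℕ) (b : Fin r → ↥(FL L N)), ∀ z : ↥(FL L N), ∃ c : Fin r → ↥(FL L N),
        (∀ i, c i ∈ Subfield.closure (Set.range (cW W N) ∪ {x₀})) ∧ z = ∑ i, c i * b i)

/-- (B1)+(B2) the charts `A₁`, `A₂` are noetherian with fraction field `F`. -/
def e_egmain_BStatement : Prop :=
  ∀ (N : ℕ) [NeZero N] (L : Type) [Field L] [Algebra ℚ L] (W : ValuationSubring L)
    [IsDiscreteValuationRing ↥W],
    ∀ S : Set ↥(FL L N), (S = {jF L N} ∨ S = {(jF L N)⁻¹}) →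
      IsNoetherianRing ↥(chart W N S) ∧ e_IsFrac (chart W N S)

/-- (B3), abstract form: local data from smoothness. -/
def e_egmain_B3Statement : Prop :=
  ∀ (F : Type) [Field F] (ϖ : F) (V A : Subring F), e_egmain_VData V ϖ → A ≤ V →
    (∀ x ∈ A, ϖ⁻¹ * x ∈ V → ϖ⁻¹ * x ∈ A) → IsNoetherianRing ↥A → e_IsFrac A →
    (∀ (m : Ideal ↥A) [m.IsMaximal] (ϖc : ↥A), (ϖc : F) = ϖ → ϖc ∈ m →
      IsDVRQuot (Localization.AtPrime m) (algebraMap ↥A (Localization.AtPrime m) ϖc)) →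
    ∀ hϖ : ϖ ∈ A, e_egmain_LocB3 ϖ V A hϖ

/-! ## (C) the hypothesis (H2) of `e_LSFactStatement` -/

/-- (C) a DVR `O` of `F` containing the constants `W` in which `ϖ` is a unit is a place of `F / L`;
hence `y` (all of whose orders are divisible by `p`) is a unit of `O` times a `p`-th power. -/
def e_egmain_CStatement : Prop :=
  ∀ (N : ℕ) [NeZero N] (L : Type) [Field L] [Algebra ℚ L] (W : ValuationSubring L)
    [IsDiscreteValuationRing ↥W] (ϖ : ↥W), Irreducible ϖ →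
    ∀ (p : ℕ) (yF : ↥(FL L N)), yF ≠ 0 → (∀ P : Place L ↥(FL L N), (p : ℤ) ∣ P.ord yF) →
    ∀ O : ValuationSubring ↥(FL L N), (∀ w : ↥W, cW W N w ∈ O) → (cW W N ϖ)⁻¹ ∈ O → O ≠ ⊤ →
      IsPrincipalIdealRing ↥O →
      ∃ z : ↥(FL L N), z ≠ 0 ∧ yF * z ^ p ∈ O ∧ (yF * z ^ p)⁻¹ ∈ O

/-! ## (D) local ⟹ global -/

/-- (D), abstract form: from the local data (B3) and (C), `e_LSFactStatement`, `e_LSIntStatement`
and `e_GlobalStatement` give (GL1) and (GL2) for `A`. -/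
def e_egmain_DStatement : Prop :=
  ∀ (F : Type) [Field F] (p : ℕ) (y ϖ ζ h₀ : F) (V A : Subring F),
    p.Prime → Irreducible (e_pol F p y) → (p : F) ≠ 0 → ((p : F))⁻¹ ∈ A → ζ ∈ A →
    IsPrimitiveRoot ζ p →
    e_egmain_VData V ϖ → e_egmain_YData V ϖ p y h₀ → A ≤ V → ∀ hϖ : ϖ ∈ A,
    e_egmain_LocB3 ϖ V A hϖ →
    (∀ O : ValuationSubring F, A ≤ O.toSubring → ϖ⁻¹ ∈ O → O ≠ ⊤ → IsPrincipalIdealRing ↥O →
      ∃ z : F, z ≠ 0 ∧ y * z ^ p ∈ O ∧ (y * z ^ p)⁻¹ ∈ O) →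
    e_IsInt p y V (e_of p y h₀⁻¹ * e_rt p y) →
    e_egmain_GL1 p y ϖ V A ∧ e_egmain_GL2 p y ϖ h₀ V A

/-! ## (E) the rings `B_S` -/

/-- (E1) an element of `F'` integral over `W[j]` and over `W[1/j]` is a constant from `W`. -/
def e_egmain_E1Statement : Prop :=
  ∀ (N : ℕ) [NeZero N] (L : Type) [Field L] [Algebra ℚ L] (W : ValuationSubring L)
    (V : Subring ↥(FL L N)),
    chart W N {jF L N} ≤ V → (∀ c : L, algebraMap L ↥(FL L N) c ∈ V → c ∈ W) →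
    ∀ (p : ℕ) (yF : ↥(FL L N)), Irreducible (e_pol ↥(FL L N) p yF) → e_AlgClosedIn L N p yF →
    ∀ z : e_Fp ↥(FL L N) p yF, e_IsInt p yF (baseRing W N {jF L N}) z →
      e_IsInt p yF (baseRing W N {(jF L N)⁻¹}) z →
      ∃ w : ↥W, z = e_of p yF (cW W N w)

/-- (E2) `H¹`-finiteness for the concrete charts (in terms of the base rings `W[S]`). -/
def e_egmain_E2Statement : Prop :=
  ∀ (N : ℕ) [NeZero N] (L : Type) [Field L] [Algebra ℚ L] (W : ValuationSubring L)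
    [IsDiscreteValuationRing ↥W] (p : ℕ) (yF : ↥(FL L N)), p.Prime →
    Irreducible (e_pol ↥(FL L N) p yF) →
    (∀ z : e_Fp ↥(FL L N) p yF, e_IsInt p yF (baseRing W N {jF L N, (jF L N)⁻¹}) z →
      ∃ n : ℕ, e_IsInt p yF (baseRing W N {jF L N}) (e_of p yF (jF L N) ^ n * z)) ∧
    (∃ (r : ℕ) (m : Fin r → e_Fp ↥(FL L N) p yF), ∀ z : e_Fp ↥(FL L N) p yF,
      e_IsInt p yF (baseRing W N {jF L N, (jF L N)⁻¹}) z →
      ∃ (b₁ b₂ : e_Fp ↥(FL L N) p yF) (w : Fin r → ↥W),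
        e_IsInt p yF (baseRing W N {jF L N}) b₁ ∧ e_IsInt p yF (baseRing W N {(jF L N)⁻¹}) b₂ ∧
        z = b₁ + b₂ + ∑ i, e_of p yF (cW W N (w i)) * m i)

/-! ## (F) the contradiction -/

/-- (F1) the approximate idempotents `eᵢ = (1/p) ∑_{a<p} bᵢ^a`, `bᵢ ≡ τ` modulo `ϖ V'`. -/
def e_egmain_F1Statement : Prop :=
  ∀ (F : Type) [Field F] (p : ℕ) (y ϖ h₀ : F) (V A₁ A₂ A₁₂ : Subring F),
    p.Prime → Irreducible (e_pol F p y) → (p : F) ≠ 0 → ((p : F))⁻¹ ∈ A₁ → ((p : F))⁻¹ ∈ A₂ →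
    ϖ ≠ 0 → e_egmain_YData V ϖ p y h₀ →
    A₁ ≤ A₁₂ → A₂ ≤ A₁₂ → A₁₂ ≤ V →
    e_egmain_GL1 p y ϖ V A₁ → e_egmain_GL2 p y ϖ h₀ V A₁ →
    e_egmain_GL1 p y ϖ V A₂ → e_egmain_GL2 p y ϖ h₀ V A₂ →
    e_egmain_GL1 p y ϖ V A₁₂ →
    ∃ e₁ e₂ : e_Fp F p y, e_IsInt p y A₁ e₁ ∧ e_IsInt p y A₂ e₂ ∧
      e_IsInt p y A₁ (e_of p y ϖ⁻¹ * (e₁ ^ 2 - e₁)) ∧
      e_IsInt p y A₂ (e_of p y ϖ⁻¹ * (e₂ ^ 2 - e₂)) ∧
      e_IsInt p y A₁₂ (e_of p y ϖ⁻¹ * (e₁ - e₂)) ∧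
      e_IsInt p y V (e_of p y ϖ⁻¹ *
        (e₁ - ∑ a : Fin p, e_of p y ((p : F))⁻¹ * (e_of p y h₀⁻¹ * e_rt p y) ^ (a : ℕ)))

/-- (F) the abstract contradiction: (GL1), (GL2) for `A₁`, `A₂`, (GL1) for `A₁₂`, (E1) and (E2) are
incompatible (by `e_ConnStatement` and `e_IntClStatement`). -/
def e_egmain_FStatement : Prop :=
  ∀ (F : Type) [Field F] (p : ℕ) (y ϖ ζ h₀ : F) (V A₁ A₂ A₁₂ W₀ : Subring F),
    p.Prime → Irreducible (e_pol F p y) → (p : F) ≠ 0 → ((p : F))⁻¹ ∈ W₀ → ζ ∈ W₀ →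
    IsPrimitiveRoot ζ p →
    e_egmain_VData V ϖ → e_egmain_YData V ϖ p y h₀ →
    W₀ ≤ A₁ → W₀ ≤ A₂ → A₁ ≤ A₁₂ → A₂ ≤ A₁₂ → A₁₂ ≤ V → ϖ ∈ W₀ → IsNoetherianRing ↥W₀ →
    (∀ w ∈ W₀, (∃ w' ∈ W₀, w = ϖ * w') ∨ (∃ w' ∈ W₀, w * w' = 1)) →
    e_egmain_GL1 p y ϖ V A₁ → e_egmain_GL2 p y ϖ h₀ V A₁ →
    e_egmain_GL1 p y ϖ V A₂ → e_egmain_GL2 p y ϖ h₀ V A₂ →
    e_egmain_GL1 p y ϖ V A₁₂ →
    (∀ z : e_Fp F p y, e_IsInt p y A₁ z → e_IsInt p y A₂ z → ∃ w ∈ W₀, z = e_of p y w) →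
    (∃ (r : ℕ) (m : Fin r → e_Fp F p y), ∀ z : e_Fp F p y, e_IsInt p y A₁₂ z →
      ∃ (b₁ b₂ : e_Fp F p y) (w : Fin r → F), e_IsInt p y A₁ b₁ ∧ e_IsInt p y A₂ b₂ ∧
        (∀ i, w i ∈ W₀) ∧ z = b₁ + b₂ + ∑ i, e_of p y (w i) * m i) →
    False

end

end Fermat.Agent.S18
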