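/-
S18, block E, package EGMain, part (A): the `V`-data from `GaussStatement`.
-/
import Fermat.Agent.S18.EEGMainDefs

set_option autoImplicit false

open ModularCurve AlgebraicCurve

namespace Fermat.Agent.S18

noncomputable section

/-! ## Abstract lemmas on a valuation ring with a reduction map -/

theorem e_egmainA_pi_mem {F : Type} [Field F] (V : Subring F) (ϖ : F)
    (total : ∀ x : F, x ∈ V ∨ x⁻¹ ∈ V) (hϖ : ϖ⁻¹ ∉ V) : ϖ ∈ V :=
  (total ϖ).resolve_right hϖ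

theorem e_egmainA_pi_ne {F : Type} [Field F] (V : Subring F) (ϖ : F) (hϖ : ϖ⁻¹ ∉ V) : ϖ ≠ 0 := by
  rintro rfl
  exact hϖ (by simp)

/-- `1 + ϖ v` is a unit of `V`. -/
theorem e_egmainA_one_add_inv {F : Type} [Field F] (V : Subring F) (ϖ : F)
    (total : ∀ x : F, x ∈ V ∨ x⁻¹ ∈ V) (hϖ : ϖ⁻¹ ∉ V) (v : F) (hv : v ∈ V) :
    (1 + ϖ * v)⁻¹ ∈ V := by
  have hϖV : ϖ ∈ V := e_egmainA_pi_mem V ϖ total hϖ
  have hϖ0 : ϖ ≠ 0 := e_egmainA_pi_ne V ϖ hϖ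
  by_cases hv0 : v = 0
  · subst hv0
    simp
  have hu0 : ϖ * v ≠ 0 := mul_ne_zero hϖ0 hv0
  have huV : ϖ * v ∈ V := V.mul_mem hϖV hv
  by_cases hw0 : 1 + ϖ * v = 0
  · rw [hw0]; simp
  rcases total ((ϖ * v) * (1 + ϖ * v)⁻¹) with h | h
  · have : (1 + ϖ * v)⁻¹ = 1 - (ϖ * v) * (1 + ϖ * v)⁻¹ := by
      field_simp
      ring
    rw [this]
    exact V.sub_mem V.one_mem h
  · exfalso
    apply hϖ
    have h1 : (ϖ * v)⁻¹ ∈ V := by
      have : (ϖ * v)⁻¹ = ((ϖ * v) * (1 + ϖ * v)⁻¹)⁻¹ - 1 := by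
        field_simp
        ring
      rw [this]
      exact V.sub_mem h V.one_mem
    have : ϖ⁻¹ = v * (ϖ * v)⁻¹ := by
      field_simp
    rw [this]
    exact V.mul_mem hv h1

/-- An element of `V` with nonzero reduction is a unit of `V`. -/
theorem e_egmainA_unit_of_red {F K : Type} [Field F] [Field K] (V : Subring F) (ϖ : F)
    (total : ∀ x : F, x ∈ V ∨ x⁻¹ ∈ V) (hϖ : ϖ⁻¹ ∉ V) (ρ : ↥V →+* K)
    (ker : ∀ x : ↥V, ρ x = 0 ↔ ∃ x' : ↥V, (x : F) = ϖ * (x' : F))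
    (inv : ∀ x : ↥V, ρ x ≠ 0 → ∃ x' : ↥V, ρ x' = (ρ x)⁻¹) (x : ↥V) (hx : ρ x ≠ 0) :
    (x : F)⁻¹ ∈ V := by
  obtain ⟨x', hx'⟩ := inv x hx
  have h0 : ρ (x * x' - 1) = 0 := by
    rw [map_sub, map_mul, hx', map_one, mul_inv_cancel₀ hx, sub_self]
  obtain ⟨v, hv⟩ := (ker _).1 h0
  have hv' : (x : F) * (x' : F) = 1 + ϖ * (v : F) := by
    have : ((x * x' - 1 : ↥V) : F) = (x : F) * (x' : F) - 1 := by push_cast; ring
    rw [this] at hv
    linear_combination hv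
  have hw := e_egmainA_one_add_inv V ϖ total hϖ (v : F) v.2
  have hx0 : (x : F) ≠ 0 := by
    intro h
    apply hx
    have : x = 0 := Subtype.ext h
    rw [this, map_zero]
  have hx'0 : (x' : F) ≠ 0 := by
    intro h
    have : x' = 0 := Subtype.ext h
    rw [this, map_zero] at hx'
    exact inv_ne_zero hx hx'.symm
  have : (x : F)⁻¹ = (x' : F) * (1 + ϖ * (v : F))⁻¹ := by
    rw [← hv', mul_inv, mul_comm (x : F)⁻¹, ← mul_assoc, mul_inv_cancel₀ hx'0, one_mul]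
  rw [this]
  exact V.mul_mem x'.2 hw

/-- An element of `V` with zero reduction lies in `ϖ V`. -/
theorem e_egmainA_div_of_red {F K : Type} [Field F] [Field K] (V : Subring F) (ϖ : F)
    (hϖ : ϖ⁻¹ ∉ V) (ρ : ↥V →+* K)
    (ker : ∀ x : ↥V, ρ x = 0 ↔ ∃ x' : ↥V, (x : F) = ϖ * (x' : F)) (x : ↥V) (hx : ρ x = 0) :
    ϖ⁻¹ * (x : F) ∈ V := by
  obtain ⟨x', hx'⟩ := (ker x).1 hx
  have hϖ0 : ϖ ≠ 0 := e_egmainA_pi_ne V ϖ hϖ
  rw [hx', ← mul_assoc, inv_mul_cancel₀ hϖ0, one_mul]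
  exact x'.2

/-- A valuation ring is integrally closed. -/
theorem e_egmainA_closed {F : Type} [Field F] (V : Subring F)
    (total : ∀ x : F, x ∈ V ∨ x⁻¹ ∈ V) (x : F) (hx : IsIntegral ↥V x) : x ∈ V := by
  let VS : ValuationSubring F := { V with mem_or_inv_mem' := total }
  have hx' : IsIntegral ↥VS x := hx
  obtain ⟨y, hy⟩ := (IsIntegrallyClosed.isIntegral_iff (R := ↥VS) (K := F)).1 hx'
  rw [← hy]
  exact y.2

theorem e_egmainA_vdata {F K : Type} [Field F] [Field K] (V : Subring F) (ϖ : F)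
    (total : ∀ x : F, x ∈ V ∨ x⁻¹ ∈ V) (hϖ : ϖ⁻¹ ∉ V) (ρ : ↥V →+* K)
    (ker : ∀ x : ↥V, ρ x = 0 ↔ ∃ x' : ↥V, (x : F) = ϖ * (x' : F))
    (inv : ∀ x : ↥V, ρ x ≠ 0 → ∃ x' : ↥V, ρ x' = (ρ x)⁻¹) : e_egmain_VData V ϖ where
  total := total
  ne_zero := e_egmainA_pi_ne V ϖ hϖ
  inv_not_mem := hϖ
  max := by
    intro x hxV hxinv
    by_cases h : ρ ⟨x, hxV⟩ = 0
    · exact e_egmainA_div_of_red V ϖ hϖ ρ ker ⟨x, hxV⟩ h
    · exact absurd (e_egmainA_unit_of_red V ϖ total hϖ ρ ker inv ⟨x, hxV⟩ h) hxinv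
  closed := e_egmainA_closed V total

theorem e_egmainA_ydata {F K : Type} [Field F] [Field K] (V : Subring F) (ϖ : F)
    (total : ∀ x : F, x ∈ V ∨ x⁻¹ ∈ V) (hϖ : ϖ⁻¹ ∉ V) (ρ : ↥V →+* K)
    (ker : ∀ x : ↥V, ρ x = 0 ↔ ∃ x' : ↥V, (x : F) = ϖ * (x' : F))
    (inv : ∀ x : ↥V, ρ x ≠ 0 → ∃ x' : ↥V, ρ x' = (ρ x)⁻¹) (p : ℕ) (y h₀ : ↥V)
    (hh : ρ h₀ ≠ 0) (hy : ρ y = ρ h₀ ^ p) : e_egmain_YData V ϖ p (y : F) (h₀ : F) := by
  have hy0 : ρ y ≠ 0 := by rw [hy]; exact pow_ne_zero _ hh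
  have ne0 : ∀ x : ↥V, ρ x ≠ 0 → (x : F) ≠ 0 := by
    intro x hx h
    apply hx
    have : x = 0 := Subtype.ext h
    rw [this, map_zero]
  have hhinv := e_egmainA_unit_of_red V ϖ total hϖ ρ ker inv h₀ hh
  refine ⟨ne0 y hy0, y.2, e_egmainA_unit_of_red V ϖ total hϖ ρ ker inv y hy0, ne0 h₀ hh, h₀.2,
    hhinv, ?_⟩
  have h1 : h₀ * ⟨(h₀ : F)⁻¹, hhinv⟩ = 1 := Subtype.ext (mul_inv_cancel₀ (ne0 h₀ hh))
  have h2 : ρ ⟨(h₀ : F)⁻¹, hhinv⟩ = (ρ h₀)⁻¹ := by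
    have := congrArg ρ h1
    rw [map_mul, map_one] at this
    exact eq_inv_of_mul_eq_one_right this
  have h3 : ρ (y * ⟨(h₀ : F)⁻¹, hhinv⟩ ^ p - 1) = 0 := by
    rw [map_sub, map_mul, map_pow, h2, hy, map_one, ← mul_pow, mul_inv_cancel₀ hh, one_pow,
      sub_self]
  exact e_egmainA_div_of_red V ϖ hϖ ρ ker _ h3

/-! ## The concrete statement -/

theorem e_egmainA_cW_mem {L : Type} [Field L] [Algebra ℚ L] (W : ValuationSubring L) {k : Type}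
    [Field k] (res : ↥W →+* k) (N : ℕ) [NeZero N] (w : ↥W) : cW W N w ∈ gaussV W res N := by
  have h1 : cW W N w ∈ gaussO W res N := by
    apply Subring.subset_closure
    refine ⟨Polynomial.C w, 1, ?_, ?_⟩
    · simp
    · simp [evW]
  exact (integralClosure ↥(gaussO W res N) ↥(FL L N)).algebraMap_mem ⟨cW W N w, h1⟩

theorem e_egmainA_main : GaussStatement → e_egmain_AStatement := by
  intro hG N _ ℓ _ L _ _ W _ k _ _ _ res ϖ hB
  obtain ⟨hGa, hGb, hGc, -, ρ, hρ⟩ := hG N ℓ L W k res ϖ hB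
  have hinv : ∀ x : ↥(gaussV W res N), ρ x ≠ 0 → ∃ x' : ↥(gaussV W res N), ρ x' = (ρ x)⁻¹ := by
    intro x hx
    exact (hρ.range _).1 ((Fk k N).inv_mem ((hρ.range _).2 ⟨x, rfl⟩))
  have hVD := e_egmainA_vdata (gaussV W res N) (cW W N ϖ) hGb hGc ρ hρ.ker hinv
  have hmax : IsLocalRing.maximalIdeal ↥W = Ideal.span {ϖ} := hB.irreducible.maximalIdeal_eq
  have hloc : ∀ w : ↥W, (∃ w' : ↥W, w = ϖ * w') ∨ (∃ w' : ↥W, w * w' = 1) := by
    intro w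
    by_cases hw : w ∈ IsLocalRing.maximalIdeal ↥W
    · left
      rw [hmax, Ideal.mem_span_singleton'] at hw
      obtain ⟨a, ha⟩ := hw
      exact ⟨a, by rw [← ha, mul_comm]⟩
    · right
      have hu : IsUnit w := (IsLocalRing.notMem_maximalIdeal).1 hw
      exact hu.exists_right_inv
  have hinj : Function.Injective (algebraMap L ↥(FL L N)) := (algebraMap L ↥(FL L N)).injective
  refine ⟨hVD, ?_, hloc, ?_, ?_⟩
  · intro c hc
    by_contra hcW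
    have hcinv : c⁻¹ ∈ W := (W.mem_or_inv_mem c).resolve_left hcW
    have hc0 : c ≠ 0 := by
      rintro rfl
      exact hcW W.zero_mem
    rcases hloc ⟨c⁻¹, hcinv⟩ with ⟨w', hw'⟩ | ⟨w', hw'⟩
    · apply hGc
      have hL : c⁻¹ = (ϖ : L) * (w' : L) := congrArg Subtype.val hw'
      have h1 : c * (w' : L) = (ϖ : L)⁻¹ := by
        apply eq_inv_of_mul_eq_one_left
        rw [mul_assoc, mul_comm (w' : L), ← hL, mul_inv_cancel₀ hc0]
      have h2 : (cW W N ϖ)⁻¹ = algebraMap L ↥(FL L N) c * cW W N w' := by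
        show (algebraMap L ↥(FL L N) (ϖ : L))⁻¹ =
          algebraMap L ↥(FL L N) c * algebraMap L ↥(FL L N) (w' : L)
        rw [← map_inv₀, ← map_mul, h1]
      rw [h2]
      exact Subring.mul_mem _ hc (e_egmainA_cW_mem W res N w')
    · apply hcW
      have hL : c⁻¹ * (w' : L) = 1 := congrArg Subtype.val hw'
      have h1 : c = (w' : L) := by
        have := eq_inv_of_mul_eq_one_right hL
        rw [inv_inv] at this
        exact this.symm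
      rw [h1]
      exact w'.2
  · intro p hp hpl
    have : CharZero L := algebraRat.charZero L
    have hndvd : ¬ ℓ ∣ p := fun h => hpl ((Nat.prime_dvd_prime_iff_eq Fact.out hp).1 h).symm
    refine ⟨?_, ?_, ?_⟩
    · have h1 : ((p : ℕ) : ↥(FL L N)) = algebraMap L ↥(FL L N) (p : L) := (map_natCast _ p).symm
      rw [h1]
      exact (map_ne_zero_iff _ hinj).2 (Nat.cast_ne_zero.2 hp.ne_zero)
    · have hres : res (p : ↥W) ≠ 0 := by
        rw [map_natCast]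
        intro h
        exact hndvd ((CharP.cast_eq_zero_iff k ℓ p).1 h)
      have hnm : (p : ↥W) ∉ IsLocalRing.maximalIdeal ↥W := by
        rw [hmax, ← hB.ker_res, RingHom.mem_ker]
        exact hres
      obtain ⟨q, hq⟩ := ((IsLocalRing.notMem_maximalIdeal).1 hnm).exists_right_inv
      refine ⟨q, ?_⟩
      have h1 := congrArg (cW W N) hq
      rw [map_mul, map_one, map_natCast] at h1
      exact eq_inv_of_mul_eq_one_right h1
    · obtain ⟨ζ, hζ⟩ := hB.roots p hndvd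
      exact ⟨ζ, hζ.map_of_injective hinj⟩
  · rintro p y hy ⟨h, hh, hh0, hyh⟩
    obtain ⟨h₀, hh₀⟩ := (hρ.range h).1 hh
    have hyV := hGa y hy
    have hρy : ρ ⟨⟨coeffMap W.subtype y, hy⟩, hyV⟩ = ρ h₀ ^ p := by
      rw [hρ.red y hy hyV, hh₀, hyh]
    exact ⟨h₀, e_egmainA_ydata (gaussV W res N) (cW W N ϖ) hGb hGc ρ hρ.ker hinv p
      ⟨⟨coeffMap W.subtype y, hy⟩, hyV⟩ h₀ (by rw [hh₀]; exact hh0) hρy⟩

end

end Fermat.Agent.S18
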