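/-
S18, block E, package EGMain (sub-lead helper500) — TOOLKIT: basic facts on `e_IsInt`
(integrality of elements of `F' = F[T]/(T ^ p - y)` over subrings of `F`), the subring
`e_egmain_intSub p y A` of `A`-integral elements of `F'`, and on `baseRing` / `chart`.
-/
import Fermat.Agent.S18.EEGMainDefs

set_option autoImplicit false

open ModularCurve AlgebraicCurve

namespace Fermat.Agent.S18

noncomputable section

section Abstract

variable {F : Type} [Field F] {p : ℕ} {y : F}

/-- Integrality over a subring is monotone in the subring (in `F`). -/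
theorem e_egmain_isIntegral_mono {A A' : Subring F} (h : A ≤ A') {x : F}
    (hx : IsIntegral ↥A x) : IsIntegral ↥A' x := by
  obtain ⟨P, hP, h0⟩ := hx
  refine ⟨P.map (Subring.inclusion h), hP.map _, ?_⟩
  rw [Polynomial.eval₂_map]
  exact h0

/-- `e_IsInt` is monotone in the subring. -/
theorem e_egmain_isInt_mono {A A' : Subring F} (h : A ≤ A') {z : e_Fp F p y}
    (hz : e_IsInt p y A z) : e_IsInt p y A' z := by
  obtain ⟨P, hP, h0⟩ := hz
  refine ⟨P.map (Subring.inclusion h), hP.map _, ?_⟩
  rw [Polynomial.eval₂_map]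
  exact h0

/-- The image of an element of `A` is `A`-integral. -/
theorem e_egmain_isInt_of {A : Subring F} {x : F} (hx : x ∈ A) : e_IsInt p y A (e_of p y x) :=
  ((e_of p y).comp A.subtype).isIntegralElem_map (x := ⟨x, hx⟩)

theorem e_egmain_isInt_add {A : Subring F} {z z' : e_Fp F p y} (hz : e_IsInt p y A z)
    (hz' : e_IsInt p y A z') : e_IsInt p y A (z + z') :=
  RingHom.IsIntegralElem.add _ hz hz'

theorem e_egmain_isInt_mul {A : Subring F} {z z' : e_Fp F p y} (hz : e_IsInt p y A z)
    (hz' : e_IsInt p y A z') : e_IsInt p y A (z * z') :=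
  RingHom.IsIntegralElem.mul _ hz hz'

theorem e_egmain_isInt_neg {A : Subring F} {z : e_Fp F p y} (hz : e_IsInt p y A z) :
    e_IsInt p y A (-z) :=
  RingHom.IsIntegralElem.neg _ hz

theorem e_egmain_isInt_sub {A : Subring F} {z z' : e_Fp F p y} (hz : e_IsInt p y A z)
    (hz' : e_IsInt p y A z') : e_IsInt p y A (z - z') :=
  RingHom.IsIntegralElem.sub _ hz hz'

/-- The subring of `F'` of the `A`-integral elements (`B_S` for `A = chart W N S`, `V'` for
`A = V`). -/
def e_egmain_intSub (p : ℕ) (y : F) (A : Subring F) : Subring (e_Fp F p y) where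
  carrier := {z | e_IsInt p y A z}
  mul_mem' := fun ha hb => e_egmain_isInt_mul ha hb
  one_mem' := by
    have h := e_egmain_isInt_of (p := p) (y := y) A.one_mem
    rwa [map_one] at h
  add_mem' := fun ha hb => e_egmain_isInt_add ha hb
  zero_mem' := by
    have h := e_egmain_isInt_of (p := p) (y := y) A.zero_mem
    rwa [map_zero] at h
  neg_mem' := fun ha => e_egmain_isInt_neg ha

theorem e_egmain_mem_intSub {A : Subring F} {z : e_Fp F p y} :
    z ∈ e_egmain_intSub p y A ↔ e_IsInt p y A z := Iff.rfl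

theorem e_egmain_intSub_mono {A A' : Subring F} (h : A ≤ A') :
    e_egmain_intSub p y A ≤ e_egmain_intSub p y A' := fun _ hz => e_egmain_isInt_mono h hz

theorem e_egmain_of_mem_intSub {A : Subring F} {x : F} (hx : x ∈ A) :
    e_of p y x ∈ e_egmain_intSub p y A := e_egmain_isInt_of hx

theorem e_egmain_isInt_one {A : Subring F} : e_IsInt p y A (1 : e_Fp F p y) :=
  (e_egmain_intSub p y A).one_mem

theorem e_egmain_isInt_zero {A : Subring F} : e_IsInt p y A (0 : e_Fp F p y) :=
  (e_egmain_intSub p y A).zero_mem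

theorem e_egmain_isInt_pow {A : Subring F} {z : e_Fp F p y} (hz : e_IsInt p y A z) (n : ℕ) :
    e_IsInt p y A (z ^ n) :=
  pow_mem (S := e_egmain_intSub p y A) hz n

theorem e_egmain_isInt_sum {A : Subring F} {ι : Type*} (s : Finset ι) (g : ι → e_Fp F p y)
    (hg : ∀ i ∈ s, e_IsInt p y A (g i)) : e_IsInt p y A (∑ i ∈ s, g i) :=
  sum_mem (S := e_egmain_intSub p y A) hg

/-- `t ^ p = y` in `F'`. -/
theorem e_egmain_rt_pow (p : ℕ) (y : F) : e_rt p y ^ p = e_of p y y := by
  have h := AdjoinRoot.eval₂_root (e_pol F p y)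
  rw [e_pol, Polynomial.eval₂_sub, Polynomial.eval₂_pow, Polynomial.eval₂_X,
    Polynomial.eval₂_C, sub_eq_zero] at h
  exact h

/-- The root `t` is integral over every subring containing `y` (`p ≠ 0`). -/
theorem e_egmain_isInt_rt {A : Subring F} (hp : p ≠ 0) (hy : y ∈ A) :
    e_IsInt p y A (e_rt p y) := by
  refine ⟨Polynomial.X ^ p - Polynomial.C (⟨y, hy⟩ : ↥A), Polynomial.monic_X_pow_sub_C _ hp, ?_⟩
  rw [Polynomial.eval₂_sub, Polynomial.eval₂_pow, Polynomial.eval₂_X, Polynomial.eval₂_C,
    sub_eq_zero]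
  exact e_egmain_rt_pow p y

/-- `F → F'` is injective. -/
theorem e_egmain_of_injective (hirr : Irreducible (e_pol F p y)) :
    Function.Injective (e_of p y) := by
  have : Fact (Irreducible (e_pol F p y)) := ⟨hirr⟩
  exact (e_of p y).injective

/-- `of x` is `A`-integral iff `x` is integral over `A` in `F`. -/
theorem e_egmain_isInt_of_iff (hirr : Irreducible (e_pol F p y)) {A : Subring F} {x : F} :
    e_IsInt p y A (e_of p y x) ↔ IsIntegral ↥A x := by
  constructor
  · rintro ⟨P, hP, h0⟩
    refine ⟨P, hP, ?_⟩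
    apply e_egmain_of_injective hirr
    rw [map_zero, Polynomial.hom_eval₂]
    exact h0
  · rintro ⟨P, hP, h0⟩
    refine ⟨P, hP, ?_⟩
    have h1 : Polynomial.eval₂ ((e_of p y).comp A.subtype) (e_of p y x) P
        = e_of p y (Polynomial.eval₂ A.subtype x P) := (Polynomial.hom_eval₂ P _ _ x).symm
    rw [h1]
    have h2 : Polynomial.eval₂ A.subtype x P = 0 := h0
    rw [h2, map_zero]

/-- Transitivity of integrality in ring-hom form. -/
theorem e_egmain_isIntegralElem_trans {R S T : Type*} [CommRing R] [CommRing S] [CommRing T]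
    (f : R →+* S) (g : S →+* T) (hf : f.IsIntegral) {z : T} (hz : g.IsIntegralElem z) :
    (g.comp f).IsIntegralElem z := by
  let _ := f.toAlgebra
  let _ := g.toAlgebra
  let _ := (g.comp f).toAlgebra
  have : IsScalarTower R S T := IsScalarTower.of_algebraMap_eq (fun _ => rfl)
  have : Algebra.IsIntegral R S := ⟨hf⟩
  exact isIntegral_trans (R := R) z hz

theorem e_egmain_le_integralClosure (A : Subring F) : A ≤ (integralClosure ↥A F).toSubring :=
  fun x hx => (isIntegral_algebraMap (R := ↥A) (A := F) (x := ⟨x, hx⟩))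

/-- Transitivity: integral over the integral closure of `A` in `F` iff integral over `A`. -/
theorem e_egmain_isInt_closure {A : Subring F} {z : e_Fp F p y} :
    e_IsInt p y (integralClosure ↥A F).toSubring z ↔ e_IsInt p y A z := by
  constructor
  · intro hz
    have hf : (Subring.inclusion (e_egmain_le_integralClosure A)).IsIntegral := by
      rintro ⟨x, hx⟩
      obtain ⟨P, hP, h0⟩ := hx
      refine ⟨P, hP, ?_⟩
      apply Subtype.ext
      have h1 := Polynomial.hom_eval₂ P (Subring.inclusion (e_egmain_le_integralClosure A))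
        (integralClosure ↥A F).toSubring.subtype ⟨x, ⟨P, hP, h0⟩⟩
      rw [show (((Polynomial.eval₂ (Subring.inclusion (e_egmain_le_integralClosure A))
        ⟨x, ⟨P, hP, h0⟩⟩ P : ↥(integralClosure ↥A F).toSubring)) : F) =
        (integralClosure ↥A F).toSubring.subtype (Polynomial.eval₂
          (Subring.inclusion (e_egmain_le_integralClosure A)) ⟨x, ⟨P, hP, h0⟩⟩ P) from rfl, h1]
      exact h0
    exact e_egmain_isIntegralElem_trans _ _ hf hz
  · intro hz
    exact e_egmain_isInt_mono (e_egmain_le_integralClosure A) hz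

end Abstract

section Concrete

variable {L : Type} [Field L] [Algebra ℚ L] (W : ValuationSubring L) (N : ℕ)

theorem e_egmain_cW_mem_baseRing (S : Set ↥(FL L N)) (w : ↥W) : cW W N w ∈ baseRing W N S :=
  Subring.subset_closure (Or.inl ⟨w, rfl⟩)

theorem e_egmain_mem_baseRing_of_mem {S : Set ↥(FL L N)} {s : ↥(FL L N)} (hs : s ∈ S) :
    s ∈ baseRing W N S :=
  Subring.subset_closure (Or.inr hs)

theorem e_egmain_baseRing_le_chart (S : Set ↥(FL L N)) : baseRing W N S ≤ chart W N S :=
  e_egmain_le_integralClosure _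

theorem e_egmain_cW_mem_chart (S : Set ↥(FL L N)) (w : ↥W) : cW W N w ∈ chart W N S :=
  e_egmain_baseRing_le_chart W N S (e_egmain_cW_mem_baseRing W N S w)

theorem e_egmain_mem_chart_of_mem {S : Set ↥(FL L N)} {s : ↥(FL L N)} (hs : s ∈ S) :
    s ∈ chart W N S :=
  e_egmain_baseRing_le_chart W N S (e_egmain_mem_baseRing_of_mem W N hs)

theorem e_egmain_baseRing_mono {S S' : Set ↥(FL L N)} (h : S ⊆ S') :
    baseRing W N S ≤ baseRing W N S' :=
  Subring.closure_mono (Set.union_subset_union_right _ h)

theorem e_egmain_chart_mono {S S' : Set ↥(FL L N)} (h : S ⊆ S') :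
    chart W N S ≤ chart W N S' :=
  fun _ hx => e_egmain_isIntegral_mono (e_egmain_baseRing_mono W N h) hx

/-- `z ∈ F'` is integral over the chart `A_S` iff it is integral over `W[S]`. -/
theorem e_egmain_isInt_chart (S : Set ↥(FL L N)) {p : ℕ} {yF : ↥(FL L N)}
    {z : e_Fp ↥(FL L N) p yF} :
    e_IsInt p yF (chart W N S) z ↔ e_IsInt p yF (baseRing W N S) z :=
  e_egmain_isInt_closure

end Concrete

end

end Fermat.Agent.S18
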