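/-
S18, block E, package EGMain (sub-lead helper500) — the concrete assembly of the endgame from the
internal statements (A), (B0), (B), (B3), (C), (D), (E1), (E2), (F) and `ChartGaussStatement`.
-/
import Fermat.Agent.S18.EEGMainTools

set_option autoImplicit false

open ModularCurve AlgebraicCurve

namespace Fermat.Agent.S18

theorem e_egmain_assembly (hA : e_egmain_AStatement) (hB0 : e_egmain_B0Statement)
    (hB : e_egmain_BStatement) (hB3 : e_egmain_B3Statement) (hC : e_egmain_CStatement)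
    (hD : e_egmain_DStatement) (hE1 : e_egmain_E1Statement) (hE2 : e_egmain_E2Statement)
    (hF : e_egmain_FStatement) (hCG : ChartGaussStatement) : e_EndgameStatement := by
  intro N _ ℓ _ L _ _ W _ k _ _ _ res ϖ hD' hSm p hp hpl y hy hred hord hirr hAC
  obtain ⟨hV, hA4, hWloc, hA3, hA2⟩ := hA N ℓ L W k res ϖ hD'
  obtain ⟨hp0, ⟨q, hq⟩, ζ, hζ⟩ := hA3 p hp hpl
  obtain ⟨h₀, hY⟩ := hA2 p y hy hred
  obtain ⟨hj0, -⟩ := hB0 N L W
  generalize (⟨coeffMap W.subtype y, hy⟩ : ↥(FL L N)) = yF at hord hirr hAC hY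
  obtain ⟨hc1V, -⟩ := hCG N ℓ L W k res ϖ hD' {jF L N} (Or.inl rfl)
  obtain ⟨hc12V, -⟩ := hCG N ℓ L W k res ϖ hD' {jF L N, (jF L N)⁻¹} (Or.inr (Or.inr rfl))
  -- (GL1), (GL2) for the two charts
  have hGL : ∀ S : Set ↥(FL L N), (S = {jF L N} ∨ S = {(jF L N)⁻¹}) →
      e_egmain_GL1 p yF (cW W N ϖ) (gaussV W res N) (chart W N S) ∧
      e_egmain_GL2 p yF (cW W N ϖ) h₀ (gaussV W res N) (chart W N S) := by
    intro S hS
    obtain ⟨hcV, hcG⟩ := hCG N ℓ L W k res ϖ hD' S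
      (hS.elim Or.inl (fun h => Or.inr (Or.inl h)))
    obtain ⟨hNoe, hFrac⟩ := hB N L W S hS
    have hϖc : cW W N ϖ ∈ chart W N S := e_egmain_cW_mem_chart W N S ϖ
    have hloc := hB3 ↥(FL L N) (cW W N ϖ) (gaussV W res N) (chart W N S) hV hcV hcG hNoe hFrac
      (fun m _ ϖc h1 h2 => hSm S hS m ϖc h1 h2) hϖc
    refine hD ↥(FL L N) p yF (cW W N ϖ) (cW W N ζ) h₀ (gaussV W res N) (chart W N S) hp hirr
      hp0 (hq ▸ e_egmain_cW_mem_chart W N S q) (e_egmain_cW_mem_chart W N S ζ) hζ hV hY hcV hϖc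
      hloc ?_ ?_
    · intro O hO hϖO hOtop hOpid
      exact hC N L W ϖ hD'.irreducible p yF hY.y_ne hord O
        (fun w => hO (e_egmain_cW_mem_chart W N S w)) hϖO hOtop hOpid
    · exact e_egmain_isInt_mul (e_egmain_isInt_of hY.h_inv_mem)
        (e_egmain_isInt_rt hp.ne_zero hY.y_mem)
  -- (E3): (GL1) for the chart `A₁₂`
  have hGL12 : e_egmain_GL1 p yF (cW W N ϖ) (gaussV W res N)
      (chart W N {jF L N, (jF L N)⁻¹}) := by
    intro z hz hzV
    obtain ⟨n, hn⟩ := (hE2 N L W p yF hp hirr).1 z ((e_egmain_isInt_chart W N _).1 hz)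
    have hn' : e_IsInt p yF (chart W N {jF L N}) (e_of p yF (jF L N) ^ n * z) :=
      (e_egmain_isInt_chart W N _).2 hn
    have hjV : e_IsInt p yF (gaussV W res N) (e_of p yF (jF L N)) :=
      e_egmain_isInt_of (hc1V (e_egmain_mem_chart_of_mem W N (Set.mem_singleton _)))
    have h1 : e_IsInt p yF (gaussV W res N)
        (e_of p yF (cW W N ϖ)⁻¹ * (e_of p yF (jF L N) ^ n * z)) := by
      have := e_egmain_isInt_mul (e_egmain_isInt_pow hjV n) hzV
      convert this using 1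
      ring
    have h2 := (hGL _ (Or.inl rfl)).1 _ hn' h1
    have h3 : e_IsInt p yF (chart W N {jF L N, (jF L N)⁻¹}) (e_of p yF (jF L N)⁻¹) :=
      e_egmain_isInt_of (e_egmain_mem_chart_of_mem W N (by simp))
    have h4 := e_egmain_isInt_mul (e_egmain_isInt_pow h3 n)
      (e_egmain_isInt_mono (e_egmain_chart_mono W N
        (by simp : ({jF L N} : Set ↥(FL L N)) ⊆ {jF L N, (jF L N)⁻¹})) h2)
    have h5 : e_of p yF (jF L N)⁻¹ ^ n * e_of p yF (jF L N) ^ n = 1 := by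
      rw [← mul_pow, ← map_mul, inv_mul_cancel₀ hj0, map_one, one_pow]
    convert h4 using 1
    calc e_of p yF (cW W N ϖ)⁻¹ * z
        = (e_of p yF (jF L N)⁻¹ ^ n * e_of p yF (jF L N) ^ n) * (e_of p yF (cW W N ϖ)⁻¹ * z) := by
          rw [h5, one_mul]
      _ = _ := by ring
  -- the abstract contradiction
  refine hF ↥(FL L N) p yF (cW W N ϖ) (cW W N ζ) h₀ (gaussV W res N) (chart W N {jF L N})
    (chart W N {(jF L N)⁻¹}) (chart W N {jF L N, (jF L N)⁻¹}) (cW W N).range hp hirr hp0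
    ⟨q, hq⟩ ⟨ζ, rfl⟩ hζ hV hY ?_ ?_ (e_egmain_chart_mono W N (by simp))
    (e_egmain_chart_mono W N (by simp)) hc12V ⟨ϖ, rfl⟩ ?_ ?_ (hGL _ (Or.inl rfl)).1
    (hGL _ (Or.inl rfl)).2 (hGL _ (Or.inr rfl)).1 (hGL _ (Or.inr rfl)).2 hGL12 ?_ ?_
  · rintro _ ⟨w, rfl⟩
    exact e_egmain_cW_mem_chart W N _ w
  · rintro _ ⟨w, rfl⟩
    exact e_egmain_cW_mem_chart W N _ w
  · exact isNoetherianRing_of_surjective ↥W ↥(cW W N).range (cW W N).rangeRestrict
      (cW W N).rangeRestrict_surjective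
  · rintro _ ⟨w, rfl⟩
    rcases hWloc w with ⟨w', rfl⟩ | ⟨w', h⟩
    · exact Or.inl ⟨cW W N w', ⟨w', rfl⟩, map_mul _ _ _⟩
    · exact Or.inr ⟨cW W N w', ⟨w', rfl⟩, by rw [← map_mul, h, map_one]⟩
  · intro z h1 h2
    obtain ⟨w, rfl⟩ := hE1 N L W (gaussV W res N) hc1V hA4 p yF hirr hAC z
      ((e_egmain_isInt_chart W N _).1 h1) ((e_egmain_isInt_chart W N _).1 h2)
    exact ⟨cW W N w, ⟨w, rfl⟩, rfl⟩
  · obtain ⟨r, m, hm⟩ := (hE2 N L W p yF hp hirr).2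
    refine ⟨r, m, fun z hz => ?_⟩
    obtain ⟨b₁, b₂, w, hb₁, hb₂, rfl⟩ := hm z ((e_egmain_isInt_chart W N _).1 hz)
    exact ⟨b₁, b₂, fun i => cW W N (w i), (e_egmain_isInt_chart W N _).2 hb₁,
      (e_egmain_isInt_chart W N _).2 hb₂, fun i => ⟨w i, rfl⟩, rfl⟩

end Fermat.Agent.S18
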