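/-
S18, block E, package EGMain, parts (B0) and (B): the charts `A₁`, `A₂` are noetherian with
fraction field `F` (from `FinLStatement` and `e_IntFinStatement`).
-/
import Fermat.Agent.S18.EEGMainDefs

set_option autoImplicit false

open ModularCurve AlgebraicCurve

namespace Fermat.Agent.S18

/-! ## Abstract lemmas -/

/-- A transcendental element kills no nonzero polynomial with coefficients in `W ⊆ L`. -/
theorem e_egmainB_eval_ne {L F : Type} [Field L] [Field F] [Algebra L F] (W : ValuationSubring L)
    (j : F) (hj : Transcendental L j) (P : Polynomial ↥W) (hP : P ≠ 0) :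
    Polynomial.eval₂ ((algebraMap L F).comp W.subtype) j P ≠ 0 := by
  rw [← Polynomial.eval₂_map, ← Polynomial.aeval_def]
  intro h
  have h0 := (transcendental_iff.1 hj) _ h
  exact hP ((Polynomial.map_eq_zero_iff W.subtype_injective).1 h0)

/-- If `x` kills no nonzero polynomial, neither does `x⁻¹` (for `x ≠ 0`). -/
theorem e_egmainB_eval_inv_ne {R F : Type} [CommRing R] [Field F] (f : R →+* F) (x : F)
    (hx : x ≠ 0) (h : ∀ P : Polynomial R, P ≠ 0 → Polynomial.eval₂ f x P ≠ 0)
    (P : Polynomial R) (hP : P ≠ 0) : Polynomial.eval₂ f x⁻¹ P ≠ 0 := by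
  let _i : Invertible x⁻¹ := invertibleOfNonzero (inv_ne_zero hx)
  have key := Polynomial.eval₂_reverse_mul_pow f x⁻¹ P
  rw [invOf_eq_inv, inv_inv] at key
  rw [← key]
  exact mul_ne_zero (h _ (by simpa using hP)) (pow_ne_zero _ (inv_ne_zero hx))

/-- `L(j)` is contained in the subfield generated by `W` and `x₀ ∈ {j, j⁻¹}`. -/
theorem e_egmainB_adjoin_le {L F : Type} [Field L] [Field F] [Algebra L F]
    (W : ValuationSubring L) (j x₀ : F) (hx : x₀ = j ∨ x₀ = j⁻¹) :
    (IntermediateField.adjoin L {j}).toSubfield ≤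
      Subfield.closure (Set.range ((algebraMap L F).comp W.subtype) ∪ {x₀}) := by
  rw [IntermediateField.adjoin_toSubfield, Subfield.closure_le]
  rintro z (⟨c, rfl⟩ | hz)
  · rcases W.mem_or_inv_mem c with hc | hc
    · exact Subfield.subset_closure (Or.inl ⟨⟨c, hc⟩, rfl⟩)
    · have h1 : algebraMap L F c⁻¹ ∈
          Subfield.closure (Set.range ((algebraMap L F).comp W.subtype) ∪ {x₀}) :=
        Subfield.subset_closure (Or.inl ⟨⟨c⁻¹, hc⟩, rfl⟩)
      have h2 := inv_mem h1
      rwa [map_inv₀, inv_inv] at h2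
  · rw [Set.mem_singleton_iff] at hz
    subst hz
    rcases hx with rfl | rfl
    · exact Subfield.subset_closure (Or.inr rfl)
    · have h1 : z⁻¹ ∈ Subfield.closure (Set.range ((algebraMap L F).comp W.subtype) ∪ {z⁻¹}) :=
        Subfield.subset_closure (Or.inr rfl)
      have h2 := inv_mem h1
      rwa [inv_inv] at h2

/-- The spanning family. -/
theorem e_egmainB_span {L F : Type} [Field L] [Field F] [Algebra L F]
    (W : ValuationSubring L) (j x₀ : F) (hx : x₀ = j ∨ x₀ = j⁻¹)
    (hfin : FiniteDimensional ↥(IntermediateField.adjoin L {j}) F) :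
    ∃ (r : ℕ) (b : Fin r → F), ∀ z : F, ∃ c : Fin r → F,
      (∀ i, c i ∈ Subfield.closure (Set.range ((algebraMap L F).comp W.subtype) ∪ {x₀})) ∧
      z = ∑ i, c i * b i := by
  let b := Module.finBasis ↥(IntermediateField.adjoin L {j}) F
  refine ⟨_, b, fun z => ⟨fun i => ((b.repr z i : ↥(IntermediateField.adjoin L {j})) : F),
    fun i => e_egmainB_adjoin_le W j x₀ hx (b.repr z i).2, ?_⟩⟩
  conv_lhs => rw [← b.sum_repr z]
  rfl

/-- Fraction field: if `F` is spanned by finitely many elements over the subfield generated by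
`s`, then the integral closure in `F` of the subring generated by `s` has fraction field `F`. -/
theorem e_egmainB_isFrac {F : Type} [Field F] (s : Set F)
    (hspan : ∃ (r : ℕ) (b : Fin r → F), ∀ z : F, ∃ c : Fin r → F,
      (∀ i, c i ∈ Subfield.closure s) ∧ z = ∑ i, c i * b i) :
    e_IsFrac (integralClosure ↥(Subring.closure s) F).toSubring := by
  obtain ⟨r, b, hb⟩ := hspan
  have hinj : Function.Injective (algebraMap ↥(Subring.closure s) F) := Subtype.val_injective
  let ψ : FractionRing ↥(Subring.closure s) →+* F := IsFractionRing.lift hinj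
  let _i1 : Algebra (FractionRing ↥(Subring.closure s)) F := ψ.toAlgebra
  have _i2 : IsScalarTower ↥(Subring.closure s) (FractionRing ↥(Subring.closure s)) F :=
    IsScalarTower.of_algebraMap_eq fun x => (IsFractionRing.lift_algebraMap hinj x).symm
  have hK : Subfield.closure s ≤ ψ.fieldRange := by
    rw [Subfield.closure_le]
    intro x hx
    exact ⟨algebraMap ↥(Subring.closure s) (FractionRing ↥(Subring.closure s))
      ⟨x, Subring.subset_closure hx⟩, IsFractionRing.lift_algebraMap hinj _⟩
  have htop : Submodule.span (FractionRing ↥(Subring.closure s)) (Set.range b) = ⊤ := by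
    rw [eq_top_iff]
    rintro z -
    obtain ⟨c, hc, rfl⟩ := hb z
    refine Submodule.sum_mem _ fun i _ => ?_
    obtain ⟨c', hc'⟩ := hK (hc i)
    have h1 : c i * b i = c' • b i := by
      rw [Algebra.smul_def, ← hc']
      rfl
    rw [h1]
    exact Submodule.smul_mem _ _ (Submodule.subset_span (Set.mem_range_self i))
  have _i5 : Module.Finite (FractionRing ↥(Subring.closure s)) F :=
    ⟨by rw [← htop]; exact Submodule.fg_span (Set.finite_range b)⟩
  have _i6 : Algebra.IsAlgebraic (FractionRing ↥(Subring.closure s)) F :=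
    Algebra.IsAlgebraic.of_finite _ _
  have halg : Algebra.IsAlgebraic ↥(Subring.closure s) F :=
    (IsFractionRing.comap_isAlgebraic_iff (K := FractionRing ↥(Subring.closure s))).2 _i6
  intro z
  obtain ⟨y, hy, hint⟩ := (halg.isAlgebraic z).exists_integral_multiple
  refine ⟨⟨y • z, hint⟩, ⟨(y : F), isIntegral_algebraMap (x := y)⟩, ?_, ?_⟩
  · intro h
    have h' : (y : F) = 0 := congrArg Subtype.val h
    exact hy (Subtype.ext h')
  · show z * (y : F) = (y : F) * z
    ring

/-! ## The deliverables -/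

/-- (B0) -/
theorem e_egmainB_zero : FinLStatement → e_egmain_B0Statement := by
  intro hF N _ L _ _ W
  obtain ⟨htr, hfin⟩ := hF N L
  have hj0 : jF L N ≠ 0 := by
    intro h
    rw [h] at htr
    exact htr isAlgebraic_zero
  refine ⟨hj0, ?_⟩
  intro x₀ hx
  refine ⟨?_, e_egmainB_span W (jF L N) x₀ hx hfin⟩
  rcases hx with rfl | rfl
  · exact fun P hP => e_egmainB_eval_ne W _ htr P hP
  · exact fun P hP => e_egmainB_eval_inv_ne _ _ hj0
      (fun Q hQ => e_egmainB_eval_ne W _ htr Q hQ) P hP

/-- (B1)+(B2) -/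
theorem e_egmainB_main : FinLStatement → e_IntFinStatement → e_egmain_BStatement := by
  intro hF hI N _ L _ _ W _ S hS
  obtain ⟨-, hB0⟩ := e_egmainB_zero hF N L W
  have key : ∀ x₀ : ↥(FL L N), (x₀ = jF L N ∨ x₀ = (jF L N)⁻¹) →
      IsNoetherianRing ↥(chart W N {x₀}) ∧ e_IsFrac (chart W N {x₀}) := by
    intro x₀ hx
    obtain ⟨h1, h2⟩ := hB0 x₀ hx
    have _i1 : CharZero L := algebraRat.charZero L
    have _i2 : CharZero ↥(FL L N) :=
      charZero_of_injective_algebraMap (algebraMap L ↥(FL L N)).injective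
    have hinj : Function.Injective (cW W N) :=
      (algebraMap L ↥(FL L N)).injective.comp Subtype.val_injective
    exact ⟨(hI ↥W ↥(FL L N) (cW W N) x₀ hinj h1 h2).2, e_egmainB_isFrac _ h2⟩
  rcases hS with rfl | rfl
  · exact key _ (Or.inl rfl)
  · exact key _ (Or.inr rfl)

end Fermat.Agent.S18
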