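import Fermat.Agent.S18.EEGMainDefs
set_option autoImplicit false

/-!
S18, block E, package EGMain, part (B3): local data of `A ⊆ V` at the maximal ideals containing `ϖ`,
from smoothness.  Prefix `e_egmainB3_`.
-/

namespace Fermat.Agent.S18

/-- An element of `A` outside a maximal ideal containing `ϖ` is a unit of `V`. -/
theorem e_egmainB3_inv_mem {F : Type} [Field F] (ϖ : F) (V A : Subring F)
    (hV : e_egmain_VData V ϖ) (hAV : A ≤ V)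
    (hG : ∀ x ∈ A, ϖ⁻¹ * x ∈ V → ϖ⁻¹ * x ∈ A) (hϖ : ϖ ∈ A)
    (m : Ideal ↥A) (hm : (⟨ϖ, hϖ⟩ : ↥A) ∈ m) (s : ↥A) (hs : s ∉ m) : (s : F)⁻¹ ∈ V := by
  by_contra hinv
  have h1 : ϖ⁻¹ * (s : F) ∈ V := hV.max (s : F) (hAV s.2) hinv
  have h2 : ϖ⁻¹ * (s : F) ∈ A := hG (s : F) s.2 h1
  apply hs
  have h3 : s = (⟨ϖ, hϖ⟩ : ↥A) * ⟨ϖ⁻¹ * (s : F), h2⟩ := by
    apply Subtype.ext
    push_cast
    rw [← mul_assoc, mul_inv_cancel₀ hV.ne_zero, one_mul]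
  rw [h3]
  exact m.mul_mem_right _ hm

/-- `locSub A m ≤ V`. -/
theorem e_egmainB3_le {F : Type} [Field F] (ϖ : F) (V A : Subring F)
    (hV : e_egmain_VData V ϖ) (hAV : A ≤ V)
    (hG : ∀ x ∈ A, ϖ⁻¹ * x ∈ V → ϖ⁻¹ * x ∈ A) (hϖ : ϖ ∈ A)
    (m : Ideal ↥A) [m.IsMaximal] (hm : (⟨ϖ, hϖ⟩ : ↥A) ∈ m) : locSub A m ≤ V := by
  rintro x ⟨a, s, hs, h⟩
  have hinv : (s : F)⁻¹ ∈ V := e_egmainB3_inv_mem ϖ V A hV hAV hG hϖ m hm s hs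
  have hs0 : (s : F) ≠ 0 := by
    intro h0
    apply hs
    have : s = 0 := Subtype.ext h0
    rw [this]; exact m.zero_mem
  have hx : x = (a : F) * (s : F)⁻¹ := by
    rw [← h, mul_assoc, mul_inv_cancel₀ hs0, mul_one]
  rw [hx]
  exact V.mul_mem (hAV a.2) hinv

/-- `locSub A m ∩ ϖ V = ϖ (locSub A m)`. -/
theorem e_egmainB3_sat {F : Type} [Field F] (ϖ : F) (V A : Subring F)
    (hAV : A ≤ V)
    (hG : ∀ x ∈ A, ϖ⁻¹ * x ∈ V → ϖ⁻¹ * x ∈ A)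
    (m : Ideal ↥A) [m.IsMaximal] :
    ∀ x ∈ locSub A m, ϖ⁻¹ * x ∈ V → ϖ⁻¹ * x ∈ locSub A m := by
  rintro x ⟨a, s, hs, h⟩ hxV
  have h1 : ϖ⁻¹ * (a : F) ∈ V := by
    have : ϖ⁻¹ * (a : F) = (ϖ⁻¹ * x) * (s : F) := by rw [← h, mul_assoc]
    rw [this]
    exact V.mul_mem hxV (hAV s.2)
  have h2 : ϖ⁻¹ * (a : F) ∈ A := hG (a : F) a.2 h1
  refine ⟨⟨ϖ⁻¹ * (a : F), h2⟩, s, hs, ?_⟩
  show ϖ⁻¹ * x * (s : F) = ϖ⁻¹ * (a : F)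
  rw [← h, mul_assoc]

/-- `locSub A m` has fraction field `F` if `A` has. -/
theorem e_egmainB3_isFrac {F : Type} [Field F] (A : Subring F) (hF : e_IsFrac A)
    (m : Ideal ↥A) [m.IsMaximal] : e_IsFrac (locSub A m) := by
  intro z
  obtain ⟨a, b, hb, h⟩ := hF z
  refine ⟨⟨(a : F), le_locSub A m a.2⟩, ⟨(b : F), le_locSub A m b.2⟩, ?_, h⟩
  intro h0
  apply hb
  apply Subtype.ext
  have := congrArg (fun w : ↥(locSub A m) => (w : F)) h0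
  simpa using this

/-- (B3) -/
theorem e_egmainB3_main : e_egmain_B3Statement := by
  intro F _ ϖ V A hV hAV hG hN hF hSm hϖ m _ hm
  have : IsNoetherianRing ↥A := hN
  refine ⟨e_egmainB3_le ϖ V A hV hAV hG hϖ m hm, e_egmainB3_sat ϖ V A hAV hG m,
    locSubB_isLocalRing A m, locSubB_isNoetherianRing A m, e_egmainB3_isFrac A hF m, ?_⟩
  exact (locSubB_main F A m ⟨ϖ, hϖ⟩ (le_locSub A m hϖ)).1 (hSm m ⟨ϖ, hϖ⟩ rfl hm)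

end Fermat.Agent.S18
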