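/-
S18, block E, package EGMain, part (C): a DVR `O` of `F` containing the constants `W` in which `ϖ`
is a unit is a place of `F / L`; hence `y` (all of whose orders are divisible by `p`) is a unit of
`O` times a `p`-th power.
-/
import Fermat.Agent.S18.EEGMainDefs

set_option autoImplicit false

open ModularCurve AlgebraicCurve

namespace Fermat.Agent.S18

/-- Abstract form: at a place `P`, an element whose order is divisible by `p` is a unit times a
`p`-th power. -/
theorem e_egmainC_place {K F : Type} [Field K] [Field F] [Algebra K F] (P : Place K F) (p : ℕ)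
    (y : F) (hy : y ≠ 0) (hdiv : (p : ℤ) ∣ P.ord y) :
    ∃ z : F, z ≠ 0 ∧ y * z ^ p ∈ P.toValuationSubring ∧ (y * z ^ p)⁻¹ ∈ P.toValuationSubring := by
  obtain ⟨n, hn⟩ := hdiv
  obtain ⟨π, hπ⟩ := IsDiscreteValuationRing.exists_irreducible ↥P.toValuationSubring
  obtain ⟨u, hu⟩ := P.exists_unit_mul_zpow hy hπ
  have hπF : (π : F) ≠ 0 := by
    simpa [ne_eq, ZeroMemClass.coe_eq_zero] using hπ.ne_zero
  refine ⟨(π : F) ^ (-n), zpow_ne_zero _ hπF, ?_⟩
  have key : y * ((π : F) ^ (-n)) ^ p = ((u : ↥P.toValuationSubring) : F) := by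
    have h1 : ((π : F) ^ (-n)) ^ p = (π : F) ^ (-(P.ord y)) := by
      rw [← zpow_natCast, ← zpow_mul, hn]
      congr 1
      ring
    rw [h1]
    nth_rewrite 1 [hu]
    rw [mul_assoc, ← zpow_add₀ hπF, add_neg_cancel, zpow_zero, mul_one]
  rw [key]
  refine ⟨(u : ↥P.toValuationSubring).2, ?_⟩
  have h2 : (((u : ↥P.toValuationSubring) : F))⁻¹ = (((u⁻¹ : (↥P.toValuationSubring)ˣ) :
      ↥P.toValuationSubring) : F) := by
    have h3 : (((u : ↥P.toValuationSubring) : F)) *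
        (((u⁻¹ : (↥P.toValuationSubring)ˣ) : ↥P.toValuationSubring) : F) = 1 := by
      exact congrArg (Subtype.val) (u.mul_inv)
    exact inv_eq_of_mul_eq_one_right h3
  rw [h2]
  exact ((u⁻¹ : (↥P.toValuationSubring)ˣ) : ↥P.toValuationSubring).2

/-- A valuation subring of `F` containing `W` in which `ϖ` is a unit contains `L`. -/
theorem e_egmainC_const_mem (N : ℕ) [NeZero N] (L : Type) [Field L] [Algebra ℚ L]
    (W : ValuationSubring L) [IsDiscreteValuationRing ↥W] (ϖ : ↥W) (hϖ : Irreducible ϖ)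
    (O : ValuationSubring ↥(FL L N)) (hW : ∀ w : ↥W, cW W N w ∈ O) (hinv : (cW W N ϖ)⁻¹ ∈ O)
    (c : L) : algebraMap L ↥(FL L N) c ∈ O := by
  by_cases hc : c ∈ W
  · exact hW ⟨c, hc⟩
  · have hc0 : c ≠ 0 := fun h => hc (h ▸ W.zero_mem)
    have hci : c⁻¹ ∈ W := (W.mem_or_inv_mem c).resolve_left hc
    have hx0 : (⟨c⁻¹, hci⟩ : ↥W) ≠ 0 := by
      intro h
      exact inv_ne_zero hc0 (congrArg Subtype.val h)
    obtain ⟨n, u, hu⟩ := IsDiscreteValuationRing.eq_unit_mul_pow_irreducible hx0 hϖ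
    have hϖ0 : (ϖ : L) ≠ 0 := by
      intro h
      exact hϖ.ne_zero (Subtype.ext h)
    have hu1 : ((u : ↥W) : L) * (((u⁻¹ : (↥W)ˣ) : ↥W) : L) = 1 := by
      exact congrArg (Subtype.val) (u.mul_inv)
    have hcu : c⁻¹ = ((u : ↥W) : L) * (ϖ : L) ^ n := by
      have := congrArg (Subtype.val) hu
      simpa using this
    have hc' : c = (((u⁻¹ : (↥W)ˣ) : ↥W) : L) * ((ϖ : L)⁻¹) ^ n := by
      have hu0 : ((u : ↥W) : L) ≠ 0 := left_ne_zero_of_mul_eq_one hu1
      rw [← inv_inv c, hcu, mul_inv, inv_pow]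
      congr 1
      exact inv_eq_of_mul_eq_one_right hu1
    have h4 : algebraMap L ↥(FL L N) c =
        cW W N ((u⁻¹ : (↥W)ˣ) : ↥W) * ((cW W N ϖ)⁻¹) ^ n := by
      rw [hc', map_mul, map_pow, map_inv₀]
      rfl
    rw [h4]
    exact O.mul_mem _ _ (hW _) (O.pow_mem hinv n)

theorem e_egmainC_main : e_egmain_CStatement := by
  intro N _ L _ _ W _ ϖ hϖ p yF hy hdiv O hW hinv htop hpir
  exact e_egmainC_place (⟨O, e_egmainC_const_mem N L W ϖ hϖ O hW hinv, htop, hpir⟩ :
    Place L ↥(FL L N)) p yF hy (hdiv _)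

end Fermat.Agent.S18
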