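import Fermat.Agent.S18.EEGMainDefs
set_option autoImplicit false

/-!
S18, block E, package EGMain, part (D): local ⟹ global.  From the local data (B3) and (C),
`e_LSFactStatement`, `e_LSIntStatement` and `e_GlobalStatement` give (GL1) and (GL2) for `A`.
Prefix `e_egmainD_`.
-/

namespace Fermat.Agent.S18

/-- (D) -/
theorem e_egmainD_main :
    e_LSFactStatement → e_LSIntStatement → e_GlobalStatement → e_egmain_DStatement := by
  intro hFact hInt hGlob F _ p y ϖ ζ h₀ V A hp hirr hp0 hpinv hζ hprim hV hY hAV hϖ hLoc hC hx₀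
  have key := hGlob F p y ϖ V A (e_of p y h₀⁻¹ * e_rt p y) hAV hV.ne_zero hϖ hx₀ ?_
  · exact key
  intro m _ hm
  obtain ⟨hRV, hsat, hlocal, hnoeth, hfrac, hdvr⟩ := hLoc m hm
  have hAR : A ≤ locSub A m := le_locSub A m
  obtain ⟨hcl, hfac, hloc⟩ := hFact F p y ϖ V (locSub A m) hp hY.y_ne hV.total hV.ne_zero
    hV.inv_not_mem hV.max hRV (hAR hϖ) hsat hlocal hnoeth hfrac hdvr hY.y_mem hY.y_inv_mem
    (fun O hO => hC O (hAR.trans hO))
  exact hInt F p y ϖ ζ h₀ V (locSub A m) hp hirr hp0 (hAR hpinv) (hAR hζ) hprim hV.total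
    hV.ne_zero hV.inv_not_mem hV.max hRV (hAR hϖ) hsat hdvr hcl hfac hloc hY.h_ne hY.h_mem
    hY.h_inv_mem hY.cong

end Fermat.Agent.S18
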