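/-
S18, block E, package EGMain, part (E1): an element of `F'` integral over `W[j]` and over `W[1/j]`
is a constant from `W` (from `e_CapStatement`).
-/
import Fermat.Agent.S18.EEGMainDefs

set_option autoImplicit false

open ModularCurve AlgebraicCurve

namespace Fermat.Agent.S18

/-- `W[S]` as the closure of the subring `cW(W)` and `S`. -/
theorem e_egmainE1_baseRing_eq (N : ℕ) [NeZero N] (L : Type) [Field L] [Algebra ℚ L]
    (W : ValuationSubring L) (S : Set ↥(FL L N)) :
    Subring.closure ((((cW W N).range : Subring ↥(FL L N)) : Set ↥(FL L N)) ∪ S) =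
      baseRing W N S := rfl

theorem e_egmainE1_main : e_CapStatement → e_egmain_E1Statement := by
  intro hCap N _ L _ _ W V hchart hVL p yF hirr hac z hz1 hz2
  have hW₀ : ∀ w ∈ (cW W N).range, ∃ c : L, algebraMap L ↥(FL L N) c = w := by
    rintro w ⟨a, rfl⟩
    exact ⟨(a : L), rfl⟩
  obtain ⟨c, hc, hint⟩ := hCap ↥(FL L N) L p yF (algebraMap L ↥(FL L N)) (cW W N).range (jF L N)
    hirr hW₀ hac z hz1 hz2
  have hmem : algebraMap L ↥(FL L N) c ∈ chart W N {jF L N} := hint
  exact ⟨⟨c, hVL c (hchart hmem)⟩, hc⟩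

end Fermat.Agent.S18
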