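import Fermat.Agent.S18.EEGMainDefs
set_option autoImplicit false

/-!
S18, block E, package EGMain, part (E2): `H¹`-finiteness for the concrete charts, from
`e_IntFinStatement` (finiteness of the integral closure of `W[j]` in `F'`) and `e_H1GenStatement`.
-/

open ModularCurve AlgebraicCurve

namespace Fermat.Agent.S18

noncomputable section

/-- Integrality over a ring hom only depends on the range of the hom (one inclusion). -/
theorem e_egmainE2_isIntegralElem_of_range_le {R₁ R₂ Ω : Type} [CommRing R₁] [CommRing R₂]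
    [CommRing Ω] (g₁ : R₁ →+* Ω) (g₂ : R₂ →+* Ω) (h : ∀ a : R₁, ∃ b : R₂, g₂ b = g₁ a) (z : Ω)
    (hz : g₁.IsIntegralElem z) : g₂.IsIntegralElem z := by
  rcases subsingleton_or_nontrivial Ω with hΩ | hΩ
  · exact ⟨1, Polynomial.monic_one, Subsingleton.elim _ _⟩
  obtain ⟨P, hP, hPz⟩ := hz
  have hl : P.map g₁ ∈ Polynomial.lifts g₂ := by
    rw [Polynomial.lifts_iff_coeff_lifts]
    intro n
    rw [Polynomial.coeff_map]
    exact h _
  obtain ⟨Q, hQ, -, hQm⟩ := Polynomial.lifts_and_degree_eq_and_monic hl (hP.map g₁)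
  refine ⟨Q, hQm, ?_⟩
  rw [← Polynomial.eval_map, hQ, Polynomial.eval_map]
  exact hPz

/-- The subring generated by the image of `f₀` and `j` is the set of values `P(j)`. -/
theorem e_egmainE2_mem_closure_iff {W F : Type} [CommRing W] [Field F] (f₀ : W →+* F) (j : F)
    (a : F) :
    a ∈ Subring.closure (Set.range f₀ ∪ {j}) ↔ ∃ P : Polynomial W, Polynomial.eval₂ f₀ j P = a := by
  constructor
  · intro ha
    have hle : Subring.closure (Set.range f₀ ∪ {j}) ≤ (Polynomial.eval₂RingHom f₀ j).range := by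
      rw [Subring.closure_le]
      rintro x (⟨w, rfl⟩ | hx)
      · exact ⟨Polynomial.C w, by simp⟩
      · rw [Set.mem_singleton_iff] at hx
        exact ⟨Polynomial.X, by simp [hx]⟩
    obtain ⟨P, hP⟩ := hle ha
    exact ⟨P, hP⟩
  · rintro ⟨P, rfl⟩
    rw [Polynomial.eval₂_eq_sum_range]
    refine Subring.sum_mem _ fun i _ => ?_
    refine Subring.mul_mem _ (Subring.subset_closure (Or.inl ⟨_, rfl⟩)) ?_
    exact pow_mem (Subring.subset_closure (Set.mem_union_right _ (Set.mem_singleton j))) _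

/-- Every element of `F' = F[T]/(T^p - y)` is `∑_{a<p} c_a t^a`. -/
theorem e_egmainE2_exists_sum {F : Type} [Field F] (p : ℕ) (hp : p ≠ 0) (y : F)
    (z : e_Fp F p y) :
    ∃ g : Fin p → F, z = ∑ a : Fin p, e_of p y (g a) * e_rt p y ^ (a : ℕ) := by
  obtain ⟨G, rfl⟩ := AdjoinRoot.mk_surjective z
  have hm : (e_pol F p y).Monic := Polynomial.monic_X_pow_sub_C y hp
  have hdeg : (e_pol F p y).natDegree = p := Polynomial.natDegree_X_pow_sub_C
  have h1 : AdjoinRoot.mk (e_pol F p y) G = AdjoinRoot.mk (e_pol F p y) (G %ₘ e_pol F p y) := by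
    conv_lhs => rw [← Polynomial.modByMonic_add_div G (e_pol F p y)]
    rw [map_add, map_mul, AdjoinRoot.mk_self, zero_mul, add_zero]
  have h2 : (G %ₘ e_pol F p y).natDegree < p := by
    by_cases h0 : G %ₘ e_pol F p y = 0
    · rw [h0, Polynomial.natDegree_zero]; exact Nat.pos_of_ne_zero hp
    · have := Polynomial.degree_modByMonic_lt G hm
      have h3 := Polynomial.natDegree_lt_natDegree h0 this
      rwa [hdeg] at h3
  refine ⟨fun a => (G %ₘ e_pol F p y).coeff (a : ℕ), ?_⟩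
  rw [h1]
  conv_lhs => rw [Polynomial.as_sum_range' (G %ₘ e_pol F p y) p h2]
  rw [map_sum, Fin.sum_univ_eq_sum_range
    (fun a => e_of p y ((G %ₘ e_pol F p y).coeff a) * e_rt p y ^ a) p]
  refine Finset.sum_congr rfl fun a _ => ?_
  rw [← Polynomial.C_mul_X_pow_eq_monomial, map_mul, map_pow, AdjoinRoot.mk_C, AdjoinRoot.mk_X]

/-- Spanning of `F'` over the subfield generated by `W` and `j`. -/
theorem e_egmainE2_span {W F : Type} [CommRing W] [Field F] (f₀ : W →+* F) (j : F) (p : ℕ)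
    (hp : p ≠ 0) (y : F) [Fact (Irreducible (e_pol F p y))]
    (hspan : ∃ (r : ℕ) (b : Fin r → F), ∀ z : F, ∃ c : Fin r → F,
      (∀ i, c i ∈ Subfield.closure (Set.range f₀ ∪ {j})) ∧ z = ∑ i, c i * b i) :
    ∃ (r : ℕ) (b : Fin r → e_Fp F p y), ∀ z : e_Fp F p y, ∃ c : Fin r → e_Fp F p y,
      (∀ i, c i ∈ Subfield.closure (Set.range ((e_of p y).comp f₀) ∪ {e_of p y j})) ∧
        z = ∑ i, c i * b i := by
  obtain ⟨r₀, b₀, hb₀⟩ := hspan
  have hK : ∀ x ∈ Subfield.closure (Set.range f₀ ∪ {j}),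
      e_of p y x ∈ Subfield.closure (Set.range ((e_of p y).comp f₀) ∪ {e_of p y j}) := by
    have hle : Subfield.closure (Set.range f₀ ∪ {j}) ≤
        (Subfield.closure (Set.range ((e_of p y).comp f₀) ∪ {e_of p y j})).comap (e_of p y) := by
      rw [Subfield.closure_le]
      rintro x (⟨w, rfl⟩ | hx)
      · exact Subfield.subset_closure (Or.inl ⟨w, rfl⟩)
      · rw [Set.mem_singleton_iff] at hx
        subst hx
        exact Subfield.subset_closure (Or.inr rfl)
    exact fun x hx => hle hx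
  let e : (Fin r₀ × Fin p) ≃ Fin (Fintype.card (Fin r₀ × Fin p)) := Fintype.equivFin _
  refine ⟨Fintype.card (Fin r₀ × Fin p),
    fun k => e_of p y (b₀ (e.symm k).1) * e_rt p y ^ ((e.symm k).2 : ℕ), fun z => ?_⟩
  obtain ⟨g, rfl⟩ := e_egmainE2_exists_sum p hp y z
  choose c hc hg using fun a => hb₀ (g a)
  refine ⟨fun k => e_of p y (c (e.symm k).2 (e.symm k).1), fun k => hK _ (hc _ _), ?_⟩
  rw [Equiv.sum_comp e.symm (fun x : Fin r₀ × Fin p =>
    e_of p y (c x.2 x.1) * (e_of p y (b₀ x.1) * e_rt p y ^ (x.2 : ℕ))),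
    Fintype.sum_prod_type_right]
  refine Finset.sum_congr rfl fun a _ => ?_
  rw [hg a, map_sum, Finset.sum_mul]
  refine Finset.sum_congr rfl fun i _ => ?_
  rw [map_mul, mul_assoc]

/-- Abstract form of (E2). -/
theorem e_egmainE2_abstract (hIF : e_IntFinStatement) (hH1 : e_H1GenStatement)
    (W F : Type) [CommRing W] [IsDomain W] [IsDiscreteValuationRing W] [Field F] [CharZero F]
    (f₀ : W →+* F) (j : F) (p : ℕ) (y : F) (hp : p.Prime) (hirr : Irreducible (e_pol F p y))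
    (hf₀ : Function.Injective f₀) (hj : j ≠ 0)
    (htr : ∀ P : Polynomial W, P ≠ 0 → Polynomial.eval₂ f₀ j P ≠ 0)
    (hspan : ∃ (r : ℕ) (b : Fin r → F), ∀ z : F, ∃ c : Fin r → F,
      (∀ i, c i ∈ Subfield.closure (Set.range f₀ ∪ {j})) ∧ z = ∑ i, c i * b i) :
    (∀ z : e_Fp F p y, e_IsInt p y (Subring.closure (Set.range f₀ ∪ {j, j⁻¹})) z →
      ∃ n : ℕ, e_IsInt p y (Subring.closure (Set.range f₀ ∪ {j})) (e_of p y j ^ n * z)) ∧
    (∃ (r : ℕ) (m : Fin r → e_Fp F p y), ∀ z : e_Fp F p y,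
      e_IsInt p y (Subring.closure (Set.range f₀ ∪ {j, j⁻¹})) z →
      ∃ (b₁ b₂ : e_Fp F p y) (w : Fin r → W),
        e_IsInt p y (Subring.closure (Set.range f₀ ∪ {j})) b₁ ∧
        e_IsInt p y (Subring.closure (Set.range f₀ ∪ {j⁻¹})) b₂ ∧
        z = b₁ + b₂ + ∑ i, e_of p y (f₀ (w i)) * m i) := by
  have : Fact (Irreducible (e_pol F p y)) := ⟨hirr⟩
  have hofinj : Function.Injective (e_of p y) := (e_of p y).injective
  have : CharZero (e_Fp F p y) := charZero_of_injective_ringHom hofinj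
  -- Step 1
  have hev : ∀ P : Polynomial W, Polynomial.eval₂ ((e_of p y).comp f₀) (e_of p y j) P =
      e_of p y (Polynomial.eval₂ f₀ j P) := fun P => (Polynomial.hom_eval₂ P f₀ (e_of p y) j).symm
  obtain ⟨⟨r, c, hc, hgen⟩, -⟩ := hIF W (e_Fp F p y) ((e_of p y).comp f₀) (e_of p y j)
    (hofinj.comp hf₀)
    (fun P hP => by
      rw [hev]
      exact fun h0 => htr P hP (hofinj (h0.trans (map_zero _).symm)))
    (e_egmainE2_span f₀ j p hp.ne_zero y hspan)
  -- Step 2
  have h12 : ∀ z : e_Fp F p y,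
      (Polynomial.eval₂RingHom ((e_of p y).comp f₀) (e_of p y j)).IsIntegralElem z →
        e_IsInt p y (Subring.closure (Set.range f₀ ∪ {j})) z := by
    intro z hz
    refine e_egmainE2_isIntegralElem_of_range_le _ _ (fun P => ?_) z hz
    refine ⟨⟨Polynomial.eval₂ f₀ j P, (e_egmainE2_mem_closure_iff f₀ j _).2 ⟨P, rfl⟩⟩, ?_⟩
    exact (hev P).symm
  have h21 : ∀ z : e_Fp F p y, e_IsInt p y (Subring.closure (Set.range f₀ ∪ {j})) z →
      (Polynomial.eval₂RingHom ((e_of p y).comp f₀) (e_of p y j)).IsIntegralElem z := by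
    intro z hz
    refine e_egmainE2_isIntegralElem_of_range_le _ _ (fun a => ?_) z hz
    obtain ⟨P, hP⟩ := (e_egmainE2_mem_closure_iff f₀ j _).1 a.2
    refine ⟨P, ?_⟩
    change Polynomial.eval₂ ((e_of p y).comp f₀) (e_of p y j) P = e_of p y (a : F)
    rw [hev, hP]
  -- Step 3
  have hcoe : ((f₀.range : Subring F) : Set F) = Set.range f₀ := RingHom.coe_range f₀
  have hH := hH1 F p y f₀.range j hj
  rw [hcoe] at hH
  obtain ⟨hA, r', m, hm⟩ := hH ⟨r, c, fun i => h12 _ (hc i), fun z hz => by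
    obtain ⟨P, hP⟩ := hgen z (h21 z hz)
    refine ⟨fun i => Polynomial.eval₂ f₀ j (P i),
      fun i => (e_egmainE2_mem_closure_iff f₀ j _).2 ⟨P i, rfl⟩, ?_⟩
    rw [hP]
    exact Finset.sum_congr rfl fun i _ => by rw [hev]⟩
  refine ⟨hA, r', m, fun z hz => ?_⟩
  obtain ⟨b₁, b₂, w, hb₁, hb₂, hw, hz'⟩ := hm z hz
  choose w' hw' using hw
  refine ⟨b₁, b₂, w', hb₁, hb₂, ?_⟩
  rw [hz']
  congr 1
  exact Finset.sum_congr rfl fun i _ => by rw [hw']

/-- (E2) `H¹`-finiteness for the concrete charts. -/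
theorem e_egmainE2_main : e_egmain_B0Statement → e_IntFinStatement → e_H1GenStatement →
    e_egmain_E2Statement := by
  intro hB0 hIF hH1 N _ L _ _ W _ p yF hp hirr
  obtain ⟨hj, hB⟩ := hB0 N L W
  obtain ⟨htr, hspan⟩ := hB (jF L N) (Or.inl rfl)
  have : CharZero L := algebraRat.charZero L
  have : CharZero ↥(FL L N) :=
    charZero_of_injective_ringHom (algebraMap L ↥(FL L N)).injective
  have hinj : Function.Injective (cW W N : ↥W →+* ↥(FL L N)) :=
    (algebraMap L ↥(FL L N)).injective.comp Subtype.val_injective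
  exact e_egmainE2_abstract hIF hH1 ↥W ↥(FL L N) (cW W N) (jF L N) p yF hp hirr hinj hj htr hspan

end

end Fermat.Agent.S18
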