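/-
S18, block E, package EGMain (sub-lead helper500) — part (F): the abstract contradiction, from the
approximate idempotents (F1), the connectedness lemma `e_ConnStatement` and the Kummer integral
closure `e_IntClStatement`.
-/
import Fermat.Agent.S18.EEGMainTools

set_option autoImplicit false

namespace Fermat.Agent.S18

/-- `1 = ∑_a of(δ_{a,0}) τ^a`. -/
theorem e_egmain_sum_delta {R S : Type*} [CommRing R] [CommRing S] (f : R →+* S) (τ : S) (d : R)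
    {p : ℕ} (hp : 0 < p) :
    (∑ a : Fin p, f (if (a : ℕ) = 0 then d else 0) * τ ^ (a : ℕ)) = f d := by
  rw [Finset.sum_eq_single (⟨0, hp⟩ : Fin p)]
  · simp
  · intro b _ hb
    have : (b : ℕ) ≠ 0 := fun h => hb (Fin.ext h)
    simp [this]
  · intro h
    exact absurd (Finset.mem_univ _) h

/-- (F) from (F1), `e_IntClStatement` and `e_ConnStatement`. -/
theorem e_egmain_F_of_F1 (hF1 : e_egmain_F1Statement) (hIntCl : e_IntClStatement)
    (hConn : e_ConnStatement) : e_egmain_FStatement := by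
  intro F _ p y ϖ ζ h₀ V A₁ A₂ A₁₂ W₀ hp hirr hp0 hpinv hζ hζp hV hY hW1 hW2 h1 h2 h12V hϖW
    hNoeth hloc hGL1a hGL2a hGL1b hGL2b hGL1c hE1 hE2
  have : Fact (Irreducible (e_pol F p y)) := ⟨hirr⟩
  obtain ⟨e₁, e₂, he₁, he₂, hid₁, hid₂, h12, hτ⟩ := hF1 F p y ϖ h₀ V A₁ A₂ A₁₂ hp hirr hp0
    (hW1 hpinv) (hW2 hpinv) hV.ne_zero hY h1 h2 h12V hGL1a hGL2a hGL1b hGL2b hGL1c
  have hinj := e_egmain_of_injective hirr
  have hWV : W₀ ≤ V := (hW1.trans h1).trans h12V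
  have h1V : A₁ ≤ V := h1.trans h12V
  have hϖ' : e_of p y ϖ ≠ 0 := fun h => hV.ne_zero (hinj (h.trans (map_zero _).symm))
  have hmulinv : ∀ x : e_Fp F p y, e_of p y ϖ * (e_of p y ϖ⁻¹ * x) = x := by
    intro x
    rw [← mul_assoc, ← map_mul, mul_inv_cancel₀ hV.ne_zero, map_one, one_mul]
  have hinvmul : ∀ x : e_Fp F p y, e_of p y ϖ⁻¹ * (e_of p y ϖ * x) = x := by
    intro x
    rw [← mul_assoc, ← map_mul, inv_mul_cancel₀ hV.ne_zero, map_one, one_mul]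
  -- the connectedness lemma
  have hconn := hConn (e_Fp F p y) (W₀.map (e_of p y)) (e_egmain_intSub p y A₁)
    (e_egmain_intSub p y A₂) (e_egmain_intSub p y A₁₂) (e_of p y ϖ)
    (by rintro _ ⟨w, hw, rfl⟩; exact e_egmain_isInt_of (hW1 hw))
    (by rintro _ ⟨w, hw, rfl⟩; exact e_egmain_isInt_of (hW2 hw))
    (e_egmain_intSub_mono h1) (e_egmain_intSub_mono h2) ⟨ϖ, hϖW, rfl⟩
    (by
      have := hNoeth
      exact isNoetherianRing_of_ringEquiv ↥W₀ (W₀.equivMapOfInjective (e_of p y) hinj))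
    (by
      rintro _ ⟨w, hw, rfl⟩
      rcases hloc w hw with ⟨w', hw', rfl⟩ | ⟨w', hw', h⟩
      · exact Or.inl ⟨e_of p y w', ⟨w', hw', rfl⟩, map_mul _ _ _⟩
      · exact Or.inr ⟨e_of p y w', ⟨w', hw', rfl⟩, by rw [← map_mul, h, map_one]⟩)
    (fun x h => (mul_eq_zero.mp h).resolve_left hϖ')
    (by
      intro x hx1 hx2
      obtain ⟨w, hw, rfl⟩ := hE1 x hx1 hx2
      exact ⟨w, hw, rfl⟩)
    (by
      rintro ⟨b, hb, h⟩
      have hb' : b = e_of p y ϖ⁻¹ := by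
        have := congrArg (fun x => e_of p y ϖ⁻¹ * x) h
        simp only [mul_one, hinvmul] at this
        exact this.symm
      rw [hb'] at hb
      have h3 : e_IsInt p y V (e_of p y ϖ⁻¹) := e_egmain_isInt_mono h1V hb
      exact hV.inv_not_mem (hV.closed _ ((e_egmain_isInt_of_iff hirr).1 h3)))
    (by
      obtain ⟨r, m, hm⟩ := hE2
      refine ⟨r, m, fun x hx => ?_⟩
      obtain ⟨b₁, b₂, w, hb₁, hb₂, hw, rfl⟩ := hm x hx
      exact ⟨b₁, hb₁, b₂, hb₂, fun i => e_of p y (w i), fun i => ⟨w i, hw i, rfl⟩, rfl⟩)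
    e₁ e₂ he₁ he₂
    ⟨_, hid₁, (hmulinv _).symm⟩ ⟨_, hid₂, (hmulinv _).symm⟩ ⟨_, h12, (hmulinv _).symm⟩
  -- the Kummer integral closure over `V`
  have hu_inv : (y * h₀⁻¹ ^ p)⁻¹ = y⁻¹ * h₀ ^ p := by
    rw [mul_inv, inv_pow, inv_inv]
  have hyu : y = y * h₀⁻¹ ^ p * h₀ ^ p := by
    rw [mul_assoc, ← mul_pow, inv_mul_cancel₀ hY.h_ne, one_pow, mul_one]
  obtain ⟨-, hiff⟩ := hIntCl F p y V h₀ (y * h₀⁻¹ ^ p) ζ hp hirr hp0 (hWV hpinv) (hWV hζ) hζp
    hV.closed hY.h_ne (mul_ne_zero hY.y_ne (pow_ne_zero _ (inv_ne_zero hY.h_ne)))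
    (V.mul_mem hY.y_mem (V.pow_mem hY.h_inv_mem p))
    (by rw [hu_inv]; exact V.mul_mem hY.y_inv_mem (V.pow_mem hY.h_mem p)) hyu
  -- key claim: `(d - E(τ)) / ϖ` is not `V`-integral
  have hkey : ∀ d : F, ¬ e_IsInt p y V (e_of p y ϖ⁻¹ * (e_of p y d -
      ∑ a : Fin p, e_of p y ((p : F))⁻¹ * (e_of p y h₀⁻¹ * e_rt p y) ^ (a : ℕ))) := by
    intro d hd
    have hrw : e_of p y ϖ⁻¹ * (e_of p y d -
        ∑ a : Fin p, e_of p y ((p : F))⁻¹ * (e_of p y h₀⁻¹ * e_rt p y) ^ (a : ℕ)) =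
        ∑ a : Fin p, e_of p y (ϖ⁻¹ * ((if (a : ℕ) = 0 then d else 0) - ((p : F))⁻¹)) *
          (e_of p y h₀⁻¹ * e_rt p y) ^ (a : ℕ) := by
      rw [← e_egmain_sum_delta (e_of p y) (e_of p y h₀⁻¹ * e_rt p y) d hp.pos,
        ← Finset.sum_sub_distrib, Finset.mul_sum]
      refine Finset.sum_congr rfl fun a _ => ?_
      rw [map_mul, map_sub]
      ring
    rw [hrw] at hd
    have h4 := (hiff _).1 hd ⟨1, hp.one_lt⟩
    simp only [one_ne_zero, if_false, zero_sub] at h4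
    have h5 : ϖ⁻¹ = -(ϖ⁻¹ * -((p : F))⁻¹) * (p : F) := by
      field_simp
    apply hV.inv_not_mem
    rw [h5]
    exact V.mul_mem (V.neg_mem h4) (natCast_mem V p)
  rcases hconn with ⟨b, hb, hb'⟩ | ⟨b, hb, hb'⟩
  · apply hkey 0
    have h6 : e_IsInt p y V (e_of p y ϖ⁻¹ * e₁) := by
      rw [hb', hinvmul]
      exact e_egmain_isInt_mono h1V hb
    have h7 := e_egmain_isInt_sub hτ h6
    convert h7 using 1
    rw [map_zero]
    ring
  · apply hkey 1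
    have h6 : e_IsInt p y V (e_of p y ϖ⁻¹ * (1 - e₁)) := by
      rw [hb', hinvmul]
      exact e_egmain_isInt_mono h1V hb
    have h7 := e_egmain_isInt_add h6 hτ
    convert h7 using 1
    rw [map_one]
    ring

end Fermat.Agent.S18
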