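/-
S18, block E, package EGMain, part (F1) (helper557): the approximate idempotents
`eᵢ = (1/p) ∑_{a<p} bᵢ^a`, `bᵢ ≡ τ` modulo `ϖ V'`.  Purely abstract commutative algebra.
-/
import Fermat.Agent.S18.EEGMainTools

set_option autoImplicit false

namespace Fermat.Agent.S18

noncomputable section

/-- Ring identity: for `E = c * ∑_{a<p} z^a` with `c * p = 1`,
`E^2 - E = c^2 * (z^p - 1) * ∑_{a<p} ∑_{b<a} z^b`. -/
theorem e_egmainF1_idem {R : Type*} [CommRing R] (z c : R) (p : ℕ) (hc : c * (p : R) = 1) :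
    (c * ∑ a ∈ Finset.range p, z ^ a) ^ 2 - c * ∑ a ∈ Finset.range p, z ^ a =
      c ^ 2 * (z ^ p - 1) * ∑ a ∈ Finset.range p, ∑ b ∈ Finset.range a, z ^ b := by
  have h1 : (∑ a ∈ Finset.range p, z ^ a) * (z - 1) = z ^ p - 1 := geom_sum_mul z p
  have h2 : (∑ a ∈ Finset.range p, z ^ a) - (p : R) =
      (∑ a ∈ Finset.range p, ∑ b ∈ Finset.range a, z ^ b) * (z - 1) := by
    rw [Finset.sum_mul]
    have h : ∀ a ∈ Finset.range p, (∑ b ∈ Finset.range a, z ^ b) * (z - 1) = z ^ a - 1 :=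
      fun a _ => geom_sum_mul z a
    rw [Finset.sum_congr rfl h, Finset.sum_sub_distrib]
    simp
  linear_combination (c * ∑ a ∈ Finset.range p, z ^ a) * hc +
    c ^ 2 * (∑ a ∈ Finset.range p, z ^ a) * h2 +
    c ^ 2 * (∑ a ∈ Finset.range p, ∑ b ∈ Finset.range a, z ^ b) * h1

/-- Congruences modulo `c⁻¹ S` pass to powers. -/
theorem e_egmainF1_pow_sub {R : Type*} [CommRing R] (S : Subring R) (c : R) {x x' : R}
    (hx : x ∈ S) (hx' : x' ∈ S) (h : c * (x - x') ∈ S) (n : ℕ) :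
    c * (x ^ n - x' ^ n) ∈ S := by
  induction n with
  | zero => simp
  | succ n ih =>
    have e : c * (x ^ (n + 1) - x' ^ (n + 1)) =
        x * (c * (x ^ n - x' ^ n)) + c * (x - x') * x' ^ n := by ring
    rw [e]
    exact S.add_mem (S.mul_mem hx ih) (S.mul_mem h (S.pow_mem hx' n))

/-- Congruences modulo `c⁻¹ S` pass to `d * ∑_{a<p} x^a`, `d ∈ S`. -/
theorem e_egmainF1_geom_sub {R : Type*} [CommRing R] (S : Subring R) (c d : R) {x x' : R}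
    (hd : d ∈ S) (hx : x ∈ S) (hx' : x' ∈ S) (h : c * (x - x') ∈ S) (p : ℕ) :
    c * (d * ∑ a ∈ Finset.range p, x ^ a - d * ∑ a ∈ Finset.range p, x' ^ a) ∈ S := by
  have e : c * (d * ∑ a ∈ Finset.range p, x ^ a - d * ∑ a ∈ Finset.range p, x' ^ a) =
      d * ∑ a ∈ Finset.range p, c * (x ^ a - x' ^ a) := by
    rw [← Finset.mul_sum, Finset.sum_sub_distrib]
    ring
  rw [e]
  exact S.mul_mem hd (S.sum_mem fun a _ => e_egmainF1_pow_sub S c hx hx' h a)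

/-- `τ = t / h₀` is `V`-integral and `τ ^ p ≡ 1` modulo `ϖ V'`. -/
theorem e_egmainF1_tau {F : Type} [Field F] (p : ℕ) (y ϖ h₀ : F) (V : Subring F) (hp : p ≠ 0)
    (hY : e_egmain_YData V ϖ p y h₀) :
    e_IsInt p y V (e_of p y h₀⁻¹ * e_rt p y) ∧
      e_IsInt p y V (e_of p y ϖ⁻¹ * ((e_of p y h₀⁻¹ * e_rt p y) ^ p - 1)) := by
  refine ⟨e_egmain_isInt_mul (e_egmain_isInt_of hY.h_inv_mem) (e_egmain_isInt_rt hp hY.y_mem), ?_⟩
  have e : e_of p y ϖ⁻¹ * ((e_of p y h₀⁻¹ * e_rt p y) ^ p - 1) =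
      e_of p y (ϖ⁻¹ * (y * h₀⁻¹ ^ p - 1)) := by
    rw [mul_pow, e_egmain_rt_pow]
    simp only [map_mul, map_sub, map_pow, map_one]
    ring
  rw [e]
  exact e_egmain_isInt_of hY.cong

/-- One chart: `e = (1/p) ∑_{a<p} b^a` is `A`-integral and `e^2 - e ∈ ϖ B_A`. -/
theorem e_egmainF1_chart {F : Type} [Field F] (p : ℕ) (y ϖ h₀ : F) (V A : Subring F)
    (hp : p ≠ 0) (hp0 : (p : F) ≠ 0) (hpA : ((p : F))⁻¹ ∈ A)
    (hY : e_egmain_YData V ϖ p y h₀) (hAV : A ≤ V)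
    (G1 : e_egmain_GL1 p y ϖ V A) (b : e_Fp F p y) (hb : e_IsInt p y A b)
    (hbV : e_IsInt p y V (e_of p y ϖ⁻¹ * (e_of p y h₀⁻¹ * e_rt p y - b))) :
    e_IsInt p y A (e_of p y ((p : F))⁻¹ * ∑ a ∈ Finset.range p, b ^ a) ∧
      e_IsInt p y A (e_of p y ϖ⁻¹ *
        ((e_of p y ((p : F))⁻¹ * ∑ a ∈ Finset.range p, b ^ a) ^ 2 -
          e_of p y ((p : F))⁻¹ * ∑ a ∈ Finset.range p, b ^ a)) := by
  obtain ⟨hτ, hτp⟩ := e_egmainF1_tau p y ϖ h₀ V hp hY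
  have hbV' : e_IsInt p y V b := e_egmain_isInt_mono hAV hb
  have hd : e_IsInt p y A (e_of p y ((p : F))⁻¹) := e_egmain_isInt_of hpA
  have hsub : e_of p y ϖ⁻¹ * (b - e_of p y h₀⁻¹ * e_rt p y) ∈ e_egmain_intSub p y V := by
    have e : e_of p y ϖ⁻¹ * (b - e_of p y h₀⁻¹ * e_rt p y) =
        -(e_of p y ϖ⁻¹ * (e_of p y h₀⁻¹ * e_rt p y - b)) := by ring
    rw [e]
    exact e_egmain_isInt_neg hbV
  have h3 := e_egmainF1_pow_sub (e_egmain_intSub p y V) (e_of p y ϖ⁻¹) hbV' hτ hsub p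
  have h4 : e_IsInt p y V (e_of p y ϖ⁻¹ * (b ^ p - 1)) := by
    have e : e_of p y ϖ⁻¹ * (b ^ p - 1) =
        e_of p y ϖ⁻¹ * (b ^ p - (e_of p y h₀⁻¹ * e_rt p y) ^ p) +
          e_of p y ϖ⁻¹ * ((e_of p y h₀⁻¹ * e_rt p y) ^ p - 1) := by ring
    rw [e]
    exact e_egmain_isInt_add h3 hτp
  have h5 : e_IsInt p y A (e_of p y ϖ⁻¹ * (b ^ p - 1)) :=
    G1 _ (e_egmain_isInt_sub (e_egmain_isInt_pow hb p) e_egmain_isInt_one) h4
  have hc : e_of p y ((p : F))⁻¹ * ((p : ℕ) : e_Fp F p y) = 1 := by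
    rw [← map_natCast (e_of p y) p, ← map_mul, inv_mul_cancel₀ hp0, map_one]
  refine ⟨e_egmain_isInt_mul hd (e_egmain_isInt_sum _ _ fun a _ => e_egmain_isInt_pow hb a), ?_⟩
  rw [e_egmainF1_idem b (e_of p y ((p : F))⁻¹) p hc]
  have e : e_of p y ϖ⁻¹ * (e_of p y ((p : F))⁻¹ ^ 2 * (b ^ p - 1) *
        ∑ a ∈ Finset.range p, ∑ c ∈ Finset.range a, b ^ c) =
      e_of p y ((p : F))⁻¹ ^ 2 * (e_of p y ϖ⁻¹ * (b ^ p - 1)) *
        ∑ a ∈ Finset.range p, ∑ c ∈ Finset.range a, b ^ c := by ring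
  rw [e]
  exact e_egmain_isInt_mul (e_egmain_isInt_mul (e_egmain_isInt_pow hd 2) h5)
    (e_egmain_isInt_sum _ _ fun a _ => e_egmain_isInt_sum _ _ fun c _ => e_egmain_isInt_pow hb c)

/-- (F1) the approximate idempotents. -/
theorem e_egmainF1_main : e_egmain_F1Statement := by
  intro F _ p y ϖ h₀ V A₁ A₂ A₁₂ hp _ hp0 hpA₁ hpA₂ _ hY h1 h2 h12 G1a G2a G1b G2b G1c
  obtain ⟨b₁, hb₁, hb₁V⟩ := G2a
  obtain ⟨b₂, hb₂, hb₂V⟩ := G2b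
  have hpn : p ≠ 0 := hp.ne_zero
  obtain ⟨hτ, -⟩ := e_egmainF1_tau p y ϖ h₀ V hpn hY
  obtain ⟨he₁, hi₁⟩ := e_egmainF1_chart p y ϖ h₀ V A₁ hpn hp0 hpA₁ hY (h1.trans h12) G1a b₁ hb₁ hb₁V
  obtain ⟨he₂, hi₂⟩ := e_egmainF1_chart p y ϖ h₀ V A₂ hpn hp0 hpA₂ hY (h2.trans h12) G1b b₂ hb₂ hb₂V
  have hb₁' : e_IsInt p y V b₁ := e_egmain_isInt_mono (h1.trans h12) hb₁
  have hb₂' : e_IsInt p y V b₂ := e_egmain_isInt_mono (h2.trans h12) hb₂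
  have hdV : e_IsInt p y V (e_of p y ((p : F))⁻¹) := e_egmain_isInt_of (h12 (h1 hpA₁))
  refine ⟨_, _, he₁, he₂, hi₁, hi₂, ?_, ?_⟩
  · refine G1c _ (e_egmain_isInt_sub (e_egmain_isInt_mono h1 he₁) (e_egmain_isInt_mono h2 he₂)) ?_
    have h : e_of p y ϖ⁻¹ * (b₁ - b₂) ∈ e_egmain_intSub p y V := by
      have e : e_of p y ϖ⁻¹ * (b₁ - b₂) =
          e_of p y ϖ⁻¹ * (e_of p y h₀⁻¹ * e_rt p y - b₂) -
            e_of p y ϖ⁻¹ * (e_of p y h₀⁻¹ * e_rt p y - b₁) := by ring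
      rw [e]
      exact e_egmain_isInt_sub hb₂V hb₁V
    exact e_egmainF1_geom_sub (e_egmain_intSub p y V) (e_of p y ϖ⁻¹) _ hdV hb₁' hb₂' h p
  · have h : e_of p y ϖ⁻¹ * (b₁ - e_of p y h₀⁻¹ * e_rt p y) ∈ e_egmain_intSub p y V := by
      have e : e_of p y ϖ⁻¹ * (b₁ - e_of p y h₀⁻¹ * e_rt p y) =
          -(e_of p y ϖ⁻¹ * (e_of p y h₀⁻¹ * e_rt p y - b₁)) := by ring
      rw [e]
      exact e_egmain_isInt_neg hb₁V
    have e : ∑ a : Fin p, e_of p y ((p : F))⁻¹ * (e_of p y h₀⁻¹ * e_rt p y) ^ (a : ℕ) =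
        e_of p y ((p : F))⁻¹ * ∑ a ∈ Finset.range p, (e_of p y h₀⁻¹ * e_rt p y) ^ a := by
      rw [Finset.mul_sum]
      exact Fin.sum_univ_eq_sum_range
        (fun a => e_of p y ((p : F))⁻¹ * (e_of p y h₀⁻¹ * e_rt p y) ^ a) p
    rw [e]
    exact e_egmainF1_geom_sub (e_egmain_intSub p y V) (e_of p y ϖ⁻¹) _ hdV hb₁' hτ h p

end

end Fermat.Agent.S18
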