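/-
S18, block E — package IntCl (Kummer integral closure, abstract).
Main result: `e_intcl_main : e_IntClStatement`.
-/
import Fermat.Agent.S18.EInterfaces4

set_option autoImplicit false

open Polynomial

namespace Fermat.Agent.S18

noncomputable section

variable {F : Type} [Field F]

theorem e_intcl_pol_monic (p : ℕ) (hp : p ≠ 0) (y : F) : (e_pol F p y).Monic :=
  monic_X_pow_sub_C y hp

theorem e_intcl_pol_natDegree (p : ℕ) (_hp : p ≠ 0) (y : F) : (e_pol F p y).natDegree = p :=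
  natDegree_X_pow_sub_C

theorem e_intcl_of_injective (p : ℕ) (hp : p ≠ 0) (y : F) : Function.Injective (e_of p y) := by
  apply AdjoinRoot.of.injective_of_degree_ne_zero
  rw [degree_eq_natDegree (e_intcl_pol_monic p hp y).ne_zero, e_intcl_pol_natDegree p hp y]
  exact_mod_cast hp

theorem e_intcl_rt_pow (p : ℕ) (y : F) : (e_rt p y) ^ p = e_of p y y := by
  have h := AdjoinRoot.eval₂_root (e_pol F p y)
  rw [e_pol, eval₂_sub, eval₂_X_pow, eval₂_C, sub_eq_zero] at h
  exact h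

/-- `τ ^ p = u`. -/
theorem e_intcl_tau_pow (p : ℕ) (y h u : F) (hh : h ≠ 0) (hy : y = u * h ^ p) :
    (e_of p y h⁻¹ * e_rt p y) ^ p = e_of p y u := by
  rw [mul_pow, e_intcl_rt_pow, ← map_pow, ← map_mul]
  congr 1
  rw [hy, inv_pow, mul_comm, mul_assoc, mul_inv_cancel₀ (pow_ne_zero _ hh), mul_one]

/-- Spanning by powers of the root. -/
theorem e_intcl_span_rt (p : ℕ) (hp : p ≠ 0) (y : F) (z : e_Fp F p y) :
    ∃ c : Fin p → F, z = ∑ a : Fin p, e_of p y (c a) * (e_rt p y) ^ (a : ℕ) := by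
  obtain ⟨f, rfl⟩ := AdjoinRoot.mk_surjective z
  have hm := e_intcl_pol_monic p hp y
  set g := f %ₘ (e_pol F p y) with hg
  have hdeg : g.natDegree < p := by
    have := natDegree_modByMonic_lt f hm (by
      intro h1
      have := e_intcl_pol_natDegree p hp y
      rw [h1] at this
      simp at this
      exact hp this.symm)
    rwa [e_intcl_pol_natDegree p hp y] at this
  have hfg : AdjoinRoot.mk (e_pol F p y) f = AdjoinRoot.mk (e_pol F p y) g := by
    rw [AdjoinRoot.mk_eq_mk]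
    refine ⟨f /ₘ (e_pol F p y), ?_⟩
    have := modByMonic_add_div f (e_pol F p y)
    rw [hg]
    linear_combination this.symm
  refine ⟨fun a => g.coeff a, ?_⟩
  rw [hfg]
  conv_lhs => rw [as_sum_range' g p hdeg]
  rw [map_sum, ← Fin.sum_univ_eq_sum_range (fun a => AdjoinRoot.mk (e_pol F p y) (monomial a (g.coeff a)))]
  refine Finset.sum_congr rfl fun a _ => ?_
  rw [← C_mul_X_pow_eq_monomial, map_mul, map_pow, AdjoinRoot.mk_C, AdjoinRoot.mk_X]

/-- Spanning by powers of `τ`. -/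
theorem e_intcl_span (p : ℕ) (hp : p ≠ 0) (y h : F) (hh : h ≠ 0) (z : e_Fp F p y) :
    ∃ c : Fin p → F,
      z = ∑ a : Fin p, e_of p y (c a) * (e_of p y h⁻¹ * e_rt p y) ^ (a : ℕ) := by
  obtain ⟨c, hc⟩ := e_intcl_span_rt p hp y z
  refine ⟨fun a => c a * h ^ (a : ℕ), ?_⟩
  rw [hc]
  refine Finset.sum_congr rfl fun a _ => ?_
  rw [mul_pow, ← map_pow, ← mul_assoc, ← map_mul]
  congr 2
  rw [inv_pow, mul_assoc, mul_inv_cancel₀ (pow_ne_zero _ hh), mul_one]

theorem e_intcl_isInt_sum {p : ℕ} {y : F} {R : Subring F} {ι : Type} (s : Finset ι)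
    (f : ι → e_Fp F p y) (hf : ∀ i ∈ s, e_IsInt p y R (f i)) :
    e_IsInt p y R (∑ i ∈ s, f i) := by
  classical
  induction s using Finset.induction_on with
  | empty => rw [Finset.sum_empty]; exact RingHom.isIntegralElem_zero _
  | insert a s ha ih =>
    rw [Finset.sum_insert ha]
    exact RingHom.IsIntegralElem.add _ (hf a (Finset.mem_insert_self a s))
      (ih fun i hi => hf i (Finset.mem_insert_of_mem hi))

theorem e_intcl_isInt_of {p : ℕ} {y : F} {R : Subring F} {x : F} (hx : x ∈ R) :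
    e_IsInt p y R (e_of p y x) :=
  RingHom.isIntegralElem_map ((e_of p y).comp R.subtype) (x := ⟨x, hx⟩)

theorem e_intcl_isInt_mul {p : ℕ} {y : F} {R : Subring F} {a b : e_Fp F p y}
    (ha : e_IsInt p y R a) (hb : e_IsInt p y R b) : e_IsInt p y R (a * b) :=
  RingHom.IsIntegralElem.mul _ ha hb

theorem e_intcl_isInt_pow {p : ℕ} {y : F} {R : Subring F} {a : e_Fp F p y}
    (ha : e_IsInt p y R a) (n : ℕ) : e_IsInt p y R (a ^ n) := by
  induction n with
  | zero => rw [pow_zero]; exact RingHom.isIntegralElem_one _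
  | succ n ih => rw [pow_succ]; exact e_intcl_isInt_mul ih ha

/-- `τ` is integral. -/
theorem e_intcl_isInt_tau (p : ℕ) (hp : p ≠ 0) (y h u : F) (R : Subring F) (hh : h ≠ 0)
    (hu : u ∈ R) (hy : y = u * h ^ p) : e_IsInt p y R (e_of p y h⁻¹ * e_rt p y) := by
  refine ⟨X ^ p - C (⟨u, hu⟩ : ↥R), monic_X_pow_sub_C _ hp, ?_⟩
  rw [eval₂_sub, eval₂_X_pow, eval₂_C, e_intcl_tau_pow p y h u hh hy]
  simp

/-- An element `of x` integral over `R` in `F'` comes from an `x` integral over `R` in `F`. -/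
theorem e_intcl_isInt_of_iff (p : ℕ) (hp : p ≠ 0) (y : F) (R : Subring F) (x : F)
    (hx : e_IsInt p y R (e_of p y x)) : IsIntegral ↥R x := by
  obtain ⟨P, hP, h0⟩ := hx
  refine ⟨P, hP, ?_⟩
  apply e_intcl_of_injective p hp y
  rw [map_zero, hom_eval₂]
  exact h0

theorem e_intcl_sigma_aux (p : ℕ) (y η : F) (hη : η ^ p = 1) :
    eval₂ (e_of p y) (e_of p y η * e_rt p y) (X ^ p - C y) = 0 := by
  rw [eval₂_sub, eval₂_X_pow, eval₂_C, mul_pow, e_intcl_rt_pow, ← map_pow, hη, map_one,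
    one_mul, sub_self]

/-- The automorphism-like map `t ↦ η t` for `η ^ p = 1`. -/
def e_intcl_sigma (p : ℕ) (y η : F) (hη : η ^ p = 1) : e_Fp F p y →+* e_Fp F p y :=
  AdjoinRoot.lift (f := e_pol F p y) (e_of p y) (e_of p y η * e_rt p y)
    (e_intcl_sigma_aux p y η hη)

theorem e_intcl_sigma_of (p : ℕ) (y η : F) (hη : η ^ p = 1) (x : F) :
    e_intcl_sigma p y η hη (e_of p y x) = e_of p y x :=
  AdjoinRoot.lift_of _

theorem e_intcl_sigma_rt (p : ℕ) (y η : F) (hη : η ^ p = 1) :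
    e_intcl_sigma p y η hη (e_rt p y) = e_of p y η * e_rt p y :=
  AdjoinRoot.lift_root _

theorem e_intcl_sigma_isInt (p : ℕ) (y η : F) (hη : η ^ p = 1) (R : Subring F)
    (z : e_Fp F p y) (hz : e_IsInt p y R z) : e_IsInt p y R (e_intcl_sigma p y η hη z) := by
  obtain ⟨P, hP, h0⟩ := hz
  refine ⟨P, hP, ?_⟩
  have h1 := congrArg (e_intcl_sigma p y η hη) h0
  rw [hom_eval₂, map_zero] at h1
  have h2 : (e_intcl_sigma p y η hη).comp ((e_of p y).comp R.subtype) =
      (e_of p y).comp R.subtype := by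
    ext x
    exact e_intcl_sigma_of p y η hη _
  rw [h2] at h1
  exact h1

theorem e_intcl_sigma_sum (p : ℕ) (y η h : F) (hη : η ^ p = 1) (c : Fin p → F) :
    e_intcl_sigma p y η hη (∑ a : Fin p, e_of p y (c a) * (e_of p y h⁻¹ * e_rt p y) ^ (a : ℕ))
      = ∑ a : Fin p, e_of p y (c a * η ^ (a : ℕ)) * (e_of p y h⁻¹ * e_rt p y) ^ (a : ℕ) := by
  rw [map_sum]
  refine Finset.sum_congr rfl fun a _ => ?_
  rw [map_mul, map_pow, map_mul, e_intcl_sigma_of, e_intcl_sigma_of, e_intcl_sigma_rt, map_mul,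
    map_pow]
  ring

/-- Orthogonality of characters. -/
theorem e_intcl_orth (p : ℕ) (hp : p.Prime) (ζ : F) (hζ : IsPrimitiveRoot ζ p) (a b : Fin p) :
    ∑ i ∈ Finset.range p, ζ ^ (i * (p - (b : ℕ))) * (ζ ^ i) ^ (a : ℕ) =
      if a = b then (p : F) else 0 := by
  have h1 : ∀ i ∈ Finset.range p, ζ ^ (i * (p - (b : ℕ))) * (ζ ^ i) ^ (a : ℕ) =
      (ζ ^ (p - (b : ℕ) + (a : ℕ))) ^ i := by
    intro i _
    rw [← pow_mul, ← pow_mul, ← pow_add]
    congr 1
    ring
  rw [Finset.sum_congr rfl h1]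
  split_ifs with hab
  · subst hab
    have : p - (a : ℕ) + (a : ℕ) = p := Nat.sub_add_cancel a.isLt.le
    rw [this, hζ.pow_eq_one]
    simp
  · have hab' : (a : ℕ) ≠ (b : ℕ) := fun h => hab (Fin.ext h)
    have hcop : Nat.Coprime (p - (b : ℕ) + (a : ℕ)) p := by
      rw [Nat.coprime_comm, hp.coprime_iff_not_dvd]
      intro hd
      obtain ⟨k, hk⟩ := hd
      have ha := a.isLt
      have hb := b.isLt
      have hk1 : k = 1 := by
        rcases k with _ | _ | k
        · omega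
        · rfl
        · exfalso
          have : p * (k + 1 + 1) = p * k + 2 * p := by ring
          omega
      subst hk1
      omega
    exact (hζ.pow_of_coprime _ hcop).geom_sum_eq_zero hp.one_lt

theorem e_intcl_main : e_IntClStatement := by
  intro F _ p y R h u ζ hp hirr hp0 hpinv hζR hζ hRcl hh hu0 huR huinvR hy
  have hpne : p ≠ 0 := hp.ne_zero
  refine ⟨fun z => e_intcl_span p hpne y h hh z, fun c => ⟨fun hint b => ?_, fun hc => ?_⟩⟩
  · set τ := e_of p y h⁻¹ * e_rt p y with hτ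
    -- the averaged element
    have hηi : ∀ i : ℕ, (ζ ^ i) ^ p = 1 := fun i => by
      rw [← pow_mul, mul_comm, pow_mul, hζ.pow_eq_one, one_pow]
    have hw : e_IsInt p y R (∑ i ∈ Finset.range p, e_of p y (ζ ^ (i * (p - (b : ℕ)))) *
        e_intcl_sigma p y (ζ ^ i) (hηi i) (∑ a : Fin p, e_of p y (c a) * τ ^ (a : ℕ))) := by
      refine e_intcl_isInt_sum _ _ fun i _ => e_intcl_isInt_mul ?_ ?_
      · exact e_intcl_isInt_of (R.pow_mem hζR _)
      · exact e_intcl_sigma_isInt p y _ _ R _ hint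
    have hcomp : (∑ i ∈ Finset.range p, e_of p y (ζ ^ (i * (p - (b : ℕ)))) *
        e_intcl_sigma p y (ζ ^ i) (hηi i) (∑ a : Fin p, e_of p y (c a) * τ ^ (a : ℕ))) =
        e_of p y ((p : F) * c b) * τ ^ (b : ℕ) := by
      have h1 : ∀ i ∈ Finset.range p, e_of p y (ζ ^ (i * (p - (b : ℕ)))) *
          e_intcl_sigma p y (ζ ^ i) (hηi i) (∑ a : Fin p, e_of p y (c a) * τ ^ (a : ℕ)) =
          ∑ a : Fin p, e_of p y (c a * (ζ ^ (i * (p - (b : ℕ))) * (ζ ^ i) ^ (a : ℕ))) *
            τ ^ (a : ℕ) := by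
        intro i _
        rw [hτ, e_intcl_sigma_sum, Finset.mul_sum]
        refine Finset.sum_congr rfl fun a _ => ?_
        rw [← mul_assoc, ← map_mul]
        congr 2
        ring
      rw [Finset.sum_congr rfl h1, Finset.sum_comm]
      have h2 : ∀ a : Fin p, ∑ i ∈ Finset.range p,
          e_of p y (c a * (ζ ^ (i * (p - (b : ℕ))) * (ζ ^ i) ^ (a : ℕ))) * τ ^ (a : ℕ) =
          e_of p y (c a * (if a = b then (p : F) else 0)) * τ ^ (a : ℕ) := by
        intro a
        rw [← Finset.sum_mul, ← map_sum, ← Finset.mul_sum, e_intcl_orth p hp ζ hζ a b]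
      rw [Finset.sum_congr rfl fun a _ => h2 a, Finset.sum_eq_single b]
      · rw [if_pos rfl, mul_comm (c b)]
      · intro a _ hab
        rw [if_neg hab, mul_zero, map_zero, zero_mul]
      · intro hb
        exact absurd (Finset.mem_univ b) hb
    rw [hcomp] at hw
    have hw2 := e_intcl_isInt_pow hw p
    have hw3 : (e_of p y ((p : F) * c b) * τ ^ (b : ℕ)) ^ p =
        e_of p y (((p : F) * c b) ^ p * u ^ (b : ℕ)) := by
      rw [mul_pow, ← pow_mul, mul_comm (b : ℕ) p, pow_mul, hτ, e_intcl_tau_pow p y h u hh hy,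
        ← map_pow, ← map_pow, ← map_mul]
    rw [hw3] at hw2
    have h4 : ((p : F) * c b) ^ p * u ^ (b : ℕ) ∈ R :=
      hRcl _ (e_intcl_isInt_of_iff p hpne y R _ hw2)
    have h5 : ((p : F) * c b) ^ p ∈ R := by
      have := R.mul_mem h4 (R.pow_mem huinvR (b : ℕ))
      have e : ((p : F) * c b) ^ p * u ^ (b : ℕ) * u⁻¹ ^ (b : ℕ) = ((p : F) * c b) ^ p := by
        rw [mul_assoc, ← mul_pow, mul_inv_cancel₀ hu0, one_pow, mul_one]
      rwa [e] at this
    have h6 : (p : F) * c b ∈ R := by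
      apply hRcl
      apply IsIntegral.of_pow hp.pos
      exact (isIntegral_algebraMap (R := ↥R) (x := ⟨_, h5⟩))
    have := R.mul_mem hpinv h6
    rwa [← mul_assoc, inv_mul_cancel₀ hp0, one_mul] at this
  · refine e_intcl_isInt_sum _ _ fun a _ => e_intcl_isInt_mul (e_intcl_isInt_of (hc a)) ?_
    exact e_intcl_isInt_pow (e_intcl_isInt_tau p hpne y h u R hh huR hy) _

end

end Fermat.Agent.S18
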