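import Fermat.Agent.S18.EInterfaces3
set_option autoImplicit false

namespace Fermat.Agent.S18

open Polynomial

/-- Abstract key step: if `f(c)` is a non-unit of the local ring `O`, then up to a unit of `O` it is
`π` times another polynomial expression in `c`. -/
theorem e_unram_core {A O : Type} [CommRing A] [CommRing O] [IsLocalRing O] (j : A →+* O) (π : A)
    (hπ : ∀ a : A, IsUnit a ∨ π ∣ a) (hjπ : ¬ IsUnit (j π)) (c : O) (g : A[X])
    (hg : eval₂ j c g = 0) (hg' : IsUnit (eval₂ j c (derivative g))) (f : A[X])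
    (hx : ¬ IsUnit (eval₂ j c f)) :
    ∃ (r : A[X]) (w : O), IsUnit w ∧ eval₂ j c f * w = j π * eval₂ j c r := by
  classical
  have hπnu : ¬ IsUnit π := fun h => hjπ (h.map j)
  have hmax : (Ideal.span {π}).IsMaximal := by
    refine Ideal.isMaximal_iff.mpr ⟨?_, ?_⟩
    · intro h
      exact hπnu (isUnit_of_dvd_one (Ideal.mem_span_singleton.mp h))
    · intro J x _ hx hxJ
      rcases hπ x with hu | hd
      · exact (Ideal.eq_top_iff_one J).mp (Ideal.eq_top_of_isUnit_mem J hxJ hu)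
      · exact absurd (Ideal.mem_span_singleton.mpr hd) hx
  let _ : Field (A ⧸ Ideal.span {π}) := Ideal.Quotient.field _
  let mk : A →+* (A ⧸ Ideal.span {π}) := Ideal.Quotient.mk _
  let ρ : O →+* IsLocalRing.ResidueField O := IsLocalRing.residue O
  have hker : ∀ a ∈ Ideal.span {π}, (ρ.comp j) a = 0 := by
    intro a ha
    obtain ⟨b, rfl⟩ := Ideal.mem_span_singleton.mp ha
    have : ρ (j π) = 0 := (IsLocalRing.residue_eq_zero_iff _).mpr hjπ
    simp [this]
  let ι : (A ⧸ Ideal.span {π}) →+* IsLocalRing.ResidueField O :=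
    Ideal.Quotient.lift _ (ρ.comp j) hker
  have hι : ι.comp mk = ρ.comp j := Ideal.Quotient.lift_comp_mk _ _ hker
  have hev : ∀ p : A[X], eval₂ ι (ρ c) (p.map mk) = ρ (eval₂ j c p) := by
    intro p
    rw [eval₂_map, hι, hom_eval₂]
  have hgbar : eval₂ ι (ρ c) (g.map mk) = 0 := by rw [hev, hg, map_zero]
  have hfbar : eval₂ ι (ρ c) (f.map mk) = 0 := by
    rw [hev]
    by_contra h
    exact hx ((IsLocalRing.residue_ne_zero_iff_isUnit _).mp h)
  have hg'bar : eval₂ ι (ρ c) (derivative (g.map mk)) ≠ 0 := by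
    rw [derivative_map, hev]
    exact (IsLocalRing.residue_ne_zero_iff_isUnit _).mpr hg'
  set μ := EuclideanDomain.gcd (g.map mk) (f.map mk) with hμ
  have hμroot : eval₂ ι (ρ c) μ = 0 := by
    rw [hμ, EuclideanDomain.gcd_eq_gcd_ab, eval₂_add, eval₂_mul, eval₂_mul, hgbar, hfbar]
    simp
  obtain ⟨ν, hν⟩ := EuclideanDomain.gcd_dvd_left (g.map mk) (f.map mk)
  obtain ⟨φ, hφ⟩ := EuclideanDomain.gcd_dvd_right (g.map mk) (f.map mk)
  rw [← hμ] at hν hφ
  have hνroot : eval₂ ι (ρ c) ν ≠ 0 := by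
    intro h
    apply hg'bar
    rw [hν, derivative_mul, eval₂_add, eval₂_mul, eval₂_mul, h, hμroot]
    simp
  obtain ⟨ν', hν'⟩ := Polynomial.map_surjective mk Ideal.Quotient.mk_surjective ν
  obtain ⟨φ', hφ'⟩ := Polynomial.map_surjective mk Ideal.Quotient.mk_surjective φ
  have hzero : (f * ν' - g * φ').map mk = 0 := by
    rw [Polynomial.map_sub, Polynomial.map_mul, Polynomial.map_mul, hν', hφ', hφ, hν]
    ring
  have hdvd : C π ∣ f * ν' - g * φ' := by
    rw [C_dvd_iff_dvd_coeff]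
    intro i
    have := congrArg (fun p => p.coeff i) hzero
    simp only [coeff_map, coeff_zero] at this
    exact Ideal.mem_span_singleton.mp (Ideal.Quotient.eq_zero_iff_mem.mp this)
  obtain ⟨r, hr⟩ := hdvd
  refine ⟨r, eval₂ j c ν', ?_, ?_⟩
  · apply (IsLocalRing.residue_ne_zero_iff_isUnit _).mp
    have := hev ν'
    rw [hν'] at this
    change ρ _ ≠ 0
    rw [← this]
    exact hνroot
  · have := congrArg (eval₂ j c) hr
    rw [eval₂_sub, eval₂_mul, eval₂_mul, eval₂_mul, eval₂_C, hg, zero_mul, sub_zero] at this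
    exact this

/-- Abstract induction: a set of elements of `O` stable under the key step consists of elements
of the form `π ^ n * unit`, provided the archimedean bound holds. -/
theorem e_unram_ind {Ω : Type} [Field Ω] (O : ValuationSubring Ω) (π : Ω) (hπ0 : π ≠ 0)
    (S : Set Ω) (hS : ∀ x ∈ S, x ∈ O)
    (hstep : ∀ x ∈ S, x⁻¹ ∉ O → ∃ y ∈ S, ∃ w : Ω, w ≠ 0 ∧ w ∈ O ∧ w⁻¹ ∈ O ∧ x * w = π * y) :
    ∀ M : ℕ, ∀ x ∈ S, x ≠ 0 → π ^ M * x⁻¹ ∈ O →
      ∃ (n : ℕ) (u : Ω), u ∈ O ∧ u⁻¹ ∈ O ∧ x = π ^ n * u := by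
  intro M
  induction M with
  | zero =>
    intro x hxS _ hM
    have hxO := hS x hxS
    refine ⟨0, x, hxO, by simpa using hM, by simp⟩
  | succ M ih =>
    intro x hxS hx0 hM
    have hxO := hS x hxS
    by_cases hinv : x⁻¹ ∈ O
    · exact ⟨0, x, hxO, hinv, by simp⟩
    · obtain ⟨y, hyS, w, hw0, hwO, hwO', hxy⟩ := hstep x hxS hinv
      have hy : y = π⁻¹ * (x * w) := by rw [hxy]; field_simp
      have hy0 : y ≠ 0 := by
        rw [hy]; exact mul_ne_zero (inv_ne_zero hπ0) (mul_ne_zero hx0 hw0)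
      have hyO : y ∈ O := hS y hyS
      have hyM : π ^ M * y⁻¹ ∈ O := by
        have : π ^ M * y⁻¹ = π ^ (M + 1) * x⁻¹ * w⁻¹ := by
          rw [hy]; field_simp; ring
        rw [this]
        exact O.mul_mem _ _ hM hwO'
      obtain ⟨n, u, hu, hu', hyu⟩ := ih y hyS hy0 hyM
      refine ⟨n + 1, u * w⁻¹, O.mul_mem _ _ hu hwO', ?_, ?_⟩
      · rw [mul_inv, inv_inv]; exact O.mul_mem _ _ hu' hwO
      · have : x = π * y * w⁻¹ := by rw [← hxy]; field_simp
        rw [this, hyu]; ring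

/-- Units of a valuation subring have inverse in the subring and are nonzero. -/
theorem e_unram_unit {Ω : Type} [Field Ω] (O : ValuationSubring Ω) (y : ↥O) (h : IsUnit y) :
    (y : Ω) ≠ 0 ∧ (y : Ω)⁻¹ ∈ O := by
  obtain ⟨z, hz⟩ := isUnit_iff_exists_inv.mp h
  have h1 : (y : Ω) * (z : Ω) = 1 := by exact_mod_cast congrArg Subtype.val hz
  have h0 : (y : Ω) ≠ 0 := left_ne_zero_of_mul_eq_one h1
  refine ⟨h0, ?_⟩
  have : (y : Ω)⁻¹ = z := by
    field_simp
    exact h1.symm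
  rw [this]; exact z.2

/-- Converse: a nonzero element of `O` with inverse in `O` is a unit. -/
theorem e_unram_isUnit {Ω : Type} [Field Ω] (O : ValuationSubring Ω) (y : ↥O)
    (h0 : (y : Ω) ≠ 0) (h : (y : Ω)⁻¹ ∈ O) : IsUnit y := by
  refine isUnit_iff_exists_inv.mpr ⟨⟨(y : Ω)⁻¹, h⟩, ?_⟩
  ext
  push_cast
  exact mul_inv_cancel₀ h0

/-- The corrected (Unram) statement, with the additional hypothesis `g'(c) ≠ 0`; monicity of `g`
is not needed. -/
theorem e_unram_aux :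
    ∀ (Ω : Type) [Field Ω] (O : ValuationSubring Ω) (E : Subfield Ω) (π : Ω),
    π ∈ E → π ≠ 0 → π ∈ O.nonunits →
    (∀ x ∈ E, x ≠ 0 → ∃ (n : ℤ) (u : Ω), u ∈ O ∧ u⁻¹ ∈ O ∧ x = π ^ n * u) →
    ∀ (c : Ω) (g : Polynomial Ω), (∀ i, g.coeff i ∈ E) → (∀ i, g.coeff i ∈ O) →
      c ∈ O → Polynomial.eval c g = 0 →
      Polynomial.eval c (Polynomial.derivative g) ≠ 0 →
      (Polynomial.eval c (Polynomial.derivative g))⁻¹ ∈ O →
      ∀ x ∈ Subfield.closure ((E : Set Ω) ∪ {c}), x ≠ 0 →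
        ∃ (n : ℤ) (u : Ω), u ∈ O ∧ u⁻¹ ∈ O ∧ x = π ^ n * u := by
  intro Ω _ O E π hπE hπ0 hπnu HE c g hgE hgO hcO hgc hg'0 hg'O x hx hx0
  classical
  have hπO : π ∈ O := ValuationSubring.nonunits_subset hπnu
  have hzpow : ∀ k : ℤ, 0 ≤ k → π ^ k ∈ O := by
    intro k hk
    obtain ⟨m, rfl⟩ := Int.eq_ofNat_of_zero_le hk
    rw [zpow_natCast]; exact pow_mem hπO m
  let A : Subring Ω := E.toSubring ⊓ O.toSubring
  let j : ↥A →+* ↥O := Subring.inclusion (inf_le_right : A ≤ O.toSubring)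
  let c' : ↥O := ⟨c, hcO⟩
  let πA : ↥A := ⟨π, hπE, hπO⟩
  have hcoe : ∀ f : (↥A)[X], ((eval₂ j c' f : ↥O) : Ω) = eval c (f.map A.subtype) := by
    intro f
    have := hom_eval₂ f j O.subtype c'
    rw [eval_map]
    exact this
  -- the hypotheses of the abstract key step
  have hπA : ∀ a : ↥A, IsUnit a ∨ πA ∣ a := by
    intro a
    by_cases ha : (a : Ω) = 0
    · right
      exact ⟨0, by ext; simp [ha]⟩
    obtain ⟨n, u, hu, hu', hau⟩ := HE a a.2.1 ha
    rcases le_or_gt n 0 with hn | hn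
    · left
      have hinvO : (a : Ω)⁻¹ ∈ O := by
        rw [hau, mul_inv, ← zpow_neg]
        exact O.mul_mem _ _ (hzpow _ (neg_nonneg.mpr hn)) hu'
      have hinvE : (a : Ω)⁻¹ ∈ E := E.inv_mem a.2.1
      refine isUnit_iff_exists_inv.mpr ⟨⟨(a : Ω)⁻¹, hinvE, hinvO⟩, ?_⟩
      ext
      push_cast
      exact mul_inv_cancel₀ ha
    · right
      have h1 : π ^ (n - 1) * u = π⁻¹ * a := by
        rw [hau, zpow_sub_one₀ hπ0]; ring
      refine ⟨⟨π ^ (n - 1) * u, ?_, ?_⟩, ?_⟩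
      · rw [h1]; exact E.mul_mem (E.inv_mem hπE) a.2.1
      · exact O.mul_mem _ _ (hzpow _ (by omega)) hu
      · ext
        push_cast
        rw [h1]; field_simp; rfl
  have hjπ : ¬ IsUnit (j πA) := by
    intro h
    have := (e_unram_unit O _ h).2
    rcases O.mem_nonunits_iff_or.mp hπnu with h0 | h1
    · exact hπ0 h0
    · exact h1 this
  obtain ⟨gA, hgA⟩ : ∃ gA : (↥A)[X], gA.map A.subtype = g := by
    have : g ∈ Polynomial.lifts A.subtype := by
      rw [Polynomial.lifts_iff_coeff_lifts]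
      intro n
      exact ⟨⟨g.coeff n, hgE n, hgO n⟩, rfl⟩
    exact this
  have hgAc : eval₂ j c' gA = 0 := by
    ext
    rw [hcoe, hgA, hgc]; rfl
  have hgAc' : IsUnit (eval₂ j c' (derivative gA)) := by
    apply e_unram_isUnit
    · rw [hcoe, ← derivative_map, hgA]; exact hg'0
    · rw [hcoe, ← derivative_map, hgA]; exact hg'O
  -- the set of polynomial expressions in `c` with coefficients in `A`
  let S : Set Ω := Set.range (fun f : (↥A)[X] => ((eval₂ j c' f : ↥O) : Ω))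
  have hS : ∀ y ∈ S, y ∈ O := by
    rintro y ⟨f, rfl⟩
    exact (eval₂ j c' f).2
  have hstep : ∀ y ∈ S, y⁻¹ ∉ O →
      ∃ z ∈ S, ∃ w : Ω, w ≠ 0 ∧ w ∈ O ∧ w⁻¹ ∈ O ∧ y * w = π * z := by
    rintro y ⟨f, rfl⟩ hy
    have hnu : ¬ IsUnit (eval₂ j c' f) := fun h => hy (e_unram_unit O _ h).2
    obtain ⟨r, w, hw, hrw⟩ := e_unram_core j πA hπA hjπ c' gA hgAc hgAc' f hnu
    refine ⟨_, ⟨r, rfl⟩, (w : Ω), (e_unram_unit O w hw).1, w.2, (e_unram_unit O w hw).2, ?_⟩
    have := congrArg (Subtype.val : ↥O → Ω) hrw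
    exact this
  have hind := e_unram_ind O π hπ0 S hS hstep
  -- clearing denominators of scalars
  have hscal : ∀ a ∈ E, ∃ m : ℕ, π ^ m * a ∈ O := by
    intro a ha
    by_cases ha0 : a = 0
    · exact ⟨0, by simp [ha0, O.zero_mem]⟩
    obtain ⟨n, u, hu, _, hau⟩ := HE a ha ha0
    refine ⟨(-n).toNat, ?_⟩
    rw [hau, ← mul_assoc, ← zpow_natCast, ← zpow_add₀ hπ0]
    exact O.mul_mem _ _ (hzpow _ (by omega)) hu
  -- clearing denominators of polynomials
  have hclear : ∀ p : (↥E)[X], ∃ m : ℕ, π ^ m * aeval c p ∈ S := by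
    intro p
    induction p using Polynomial.induction_on' with
    | add p q hp hq =>
      obtain ⟨m1, f1, h1⟩ := hp
      obtain ⟨m2, f2, h2⟩ := hq
      refine ⟨m1 + m2, C (πA ^ m2) * f1 + C (πA ^ m1) * f2, ?_⟩
      show ((eval₂ j c' (C (πA ^ m2) * f1 + C (πA ^ m1) * f2) : ↥O) : Ω) = _
      rw [eval₂_add, eval₂_mul, eval₂_mul, eval₂_C, eval₂_C]
      have h1' : ((eval₂ j c' f1 : ↥O) : Ω) = π ^ m1 * aeval c p := h1
      have h2' : ((eval₂ j c' f2 : ↥O) : Ω) = π ^ m2 * aeval c q := h2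
      push_cast
      rw [h1', h2', map_add]
      have e1 : ((j (πA ^ m2) : ↥O) : Ω) = π ^ m2 := rfl
      have e2 : ((j (πA ^ m1) : ↥O) : Ω) = π ^ m1 := rfl
      rw [e1, e2]; ring
    | monomial n a =>
      obtain ⟨m, hm⟩ := hscal a a.2
      refine ⟨m, monomial n ⟨π ^ m * a, E.mul_mem (E.pow_mem hπE m) a.2, hm⟩, ?_⟩
      show ((eval₂ j c' (monomial n _) : ↥O) : Ω) = _
      rw [eval₂_monomial, aeval_monomial]
      push_cast
      exact mul_assoc _ _ _
  -- `E(c) = E[c]` since `c` is algebraic over `E`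
  have halg : IsAlgebraic ↥E c := by
    obtain ⟨gE, hgE'⟩ : ∃ gE : (↥E)[X], gE.map E.subtype = g := by
      have : g ∈ Polynomial.lifts E.subtype := by
        rw [Polynomial.lifts_iff_coeff_lifts]
        intro n
        exact ⟨⟨g.coeff n, hgE n⟩, rfl⟩
      exact this
    refine ⟨gE, ?_, ?_⟩
    · rintro rfl
      rw [Polynomial.map_zero] at hgE'
      apply hg'0
      rw [← hgE', derivative_zero, eval_zero]
    · rw [aeval_def, ← eval_map]
      exact (congrArg (eval c) hgE').trans hgc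
  have hpoly : ∀ y ∈ Subfield.closure ((E : Set Ω) ∪ {c}), ∃ p : (↥E)[X], y = aeval c p := by
    intro y hy
    have hy' : y ∈ IntermediateField.adjoin ↥E {c} := by
      show y ∈ Subfield.closure (Set.range (algebraMap ↥E Ω) ∪ {c})
      have : Set.range (algebraMap ↥E Ω) = (E : Set Ω) := Subtype.range_coe
      rw [this]; exact hy
    have hy'' : y ∈ (IntermediateField.adjoin ↥E {c}).toSubalgebra := hy'
    rw [IntermediateField.adjoin_simple_toSubalgebra_of_isAlgebraic halg,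
      Algebra.adjoin_singleton_eq_range_aeval] at hy''
    obtain ⟨p, hp⟩ := hy''
    exact ⟨p, hp.symm⟩
  obtain ⟨p, hp⟩ := hpoly x hx
  obtain ⟨q, hq⟩ := hpoly x⁻¹ (Subfield.inv_mem _ hx)
  obtain ⟨m, hm⟩ := hclear p
  obtain ⟨m', hm'⟩ := hclear q
  rw [← hp] at hm
  rw [← hq] at hm'
  have hne : π ^ m * x ≠ 0 := mul_ne_zero (pow_ne_zero _ hπ0) hx0
  have hbound : π ^ (m + m') * (π ^ m * x)⁻¹ ∈ O := by
    have : π ^ (m + m') * (π ^ m * x)⁻¹ = π ^ m' * x⁻¹ := by
      field_simp; ring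
    rw [this]; exact hS _ hm'
  obtain ⟨n, u, hu, hu', hxu⟩ := hind (m + m') _ hm hne hbound
  refine ⟨(n : ℤ) - m, u, hu, hu', ?_⟩
  rw [zpow_sub₀ hπ0, zpow_natCast, zpow_natCast]
  field_simp
  rw [← hxu]; ring

/-- (Unram', corrected) Unramified simple extensions, monic case. -/
theorem e_unram_main' : e_UnramStatement' :=
  fun Ω _ O E π h1 h2 h3 h4 c g _ => e_unram_aux Ω O E π h1 h2 h3 h4 c g

/-- (UnramGen) Unramified simple extensions, general (not necessarily monic) case. -/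
theorem e_unram_gen : e_UnramGenStatement :=
  fun Ω _ O E π _ _ => e_unram_aux Ω O E π

end Fermat.Agent.S18
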