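/-
S18 / block G (twin A) — package GA/Mono (file `GAMonoT.lean`, prefix `ga_monot_`).

(G4b) `MonogenicStatement`: there are `θ ∈ F` with `F = L(j)(θ)`, a monic `f ∈ O₀[X]` with
`f(θ) = 0` and `A, B, C ∈ O₀[X]` with `A f + B f' = 1 + ϖ C` (a Bézout certificate of separability
of `f mod ϖ`).

The argument is carried out in an abstract setting (`ga_monot_generic`): a field `E`, an
intermediate field `K` with `E / K` finite of degree at most `ψ`, a subring `O ⊆ K` integrally closed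
in `K`, a subring `V ⊇ O` of `E` integral over `O`, a ring homomorphism `ρ : V → Ω` with
`ρ(O) = K̄` (an intermediate field of `Ω`) and `O ∩ ker ρ = π O`, and an element `t = ρ(θ)` of `Ω`
whose minimal polynomial over `K̄` is separable of degree at least `ψ`.
-/
import Fermat.Agent.S18.GAInterfaces2
import Fermat.Agent.S18.GASingle

set_option autoImplicit false

open ModularCurve AlgebraicCurve Polynomial Fermat.Agent.S28

namespace Fermat.Agent.S18

noncomputable section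

/-! ## Generic algebra -/

/-- Lifting a Bézout certificate of separability along a surjective ring homomorphism. -/
theorem ga_monot_lift_cert {R K : Type*} [CommRing R] [Field K] (φ : R →+* K)
    (hφ : Function.Surjective φ) (f₀ : R[X]) (hsep : (f₀.map φ).Separable) :
    ∃ A₀ B₀ : R[X], (A₀ * f₀ + B₀ * derivative f₀ - 1).map φ = 0 := by
  obtain ⟨a, b, hab⟩ := hsep
  obtain ⟨A₀, rfl⟩ := Polynomial.map_surjective φ hφ a
  obtain ⟨B₀, rfl⟩ := Polynomial.map_surjective φ hφ b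
  refine ⟨A₀, B₀, ?_⟩
  rw [Polynomial.map_sub, Polynomial.map_add, Polynomial.map_mul, Polynomial.map_mul,
    ← Polynomial.derivative_map, Polynomial.map_one, hab, sub_self]

/-- STEP 1: the reduction map on `O`, with values in `K̄`. -/
theorem ga_monot_rho0 {E k Ω : Type*} [Field E] [Field k] [Field Ω] [Algebra k Ω]
    (O V : Subring E) (hOV : O ≤ V) (Kb : IntermediateField k Ω) (ρ : ↥V →+* Ω)
    (R1 : ∀ c : ↥V, (c : E) ∈ O → ρ c ∈ Kb)
    (R2 : ∀ z : Ω, z ∈ Kb → ∃ c : ↥V, (c : E) ∈ O ∧ ρ c = z)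
    (π : E)
    (R3 : ∀ c : ↥V, (c : E) ∈ O → ρ c = 0 → ∃ c' : E, c' ∈ O ∧ (c : E) = π * c') :
    ∃ ρ₀ : ↥O →+* ↥Kb, Function.Surjective ρ₀ ∧
      (∀ c : ↥O, ρ₀ c = 0 → ∃ c' : E, c' ∈ O ∧ (c : E) = π * c') ∧
      (algebraMap ↥Kb Ω).comp ρ₀ = ρ.comp (Subring.inclusion hOV) := by
  refine ⟨(ρ.comp (Subring.inclusion hOV)).codRestrict Kb
    (fun c => R1 (Subring.inclusion hOV c) c.2), ?_, ?_, ?_⟩
  · intro z
    obtain ⟨c, hc, hcz⟩ := R2 (z : Ω) z.2
    refine ⟨⟨(c : E), hc⟩, Subtype.ext ?_⟩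
    rw [RingHom.codRestrict_apply]
    exact hcz
  · intro c hc
    refine R3 (Subring.inclusion hOV c) c.2 ?_
    have h := congrArg (Subtype.val : ↥Kb → Ω) hc
    rw [RingHom.codRestrict_apply] at h
    exact h
  · exact RingHom.ext fun c => rfl

/-- The abstract form of (G4b). -/
theorem ga_monot_generic {F₀ E k Ω : Type*} [Field F₀] [Field E] [Algebra F₀ E] [Field k]
    [Field Ω] [Algebra k Ω]
    (K : IntermediateField F₀ E) [FiniteDimensional ↥K E]
    (O V : Subring E) (hOV : O ≤ V) (hOK : ∀ c ∈ O, c ∈ K)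
    (hcl : ∀ c ∈ K, IsIntegral ↥O c → c ∈ O) (hV : ∀ x ∈ V, IsIntegral ↥O x)
    (Kb : IntermediateField k Ω) (ρ : ↥V →+* Ω)
    (R1 : ∀ c : ↥V, (c : E) ∈ O → ρ c ∈ Kb)
    (R2 : ∀ z : Ω, z ∈ Kb → ∃ c : ↥V, (c : E) ∈ O ∧ ρ c = z)
    (π : E) (hπ : π ≠ 0)
    (R3 : ∀ c : ↥V, (c : E) ∈ O → ρ c = 0 → ∃ c' : E, c' ∈ O ∧ (c : E) = π * c')
    (ψ : ℕ) (hψ : Module.finrank ↥K E ≤ ψ)
    (t : Ω) (θV : ↥V) (hθt : ρ θV = t) (htint : IsIntegral ↥Kb t)
    (htsep : (minpoly ↥Kb t).Separable) (htdeg : ψ ≤ (minpoly ↥Kb t).natDegree) :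
    ∃ (θ : E) (f A B C : Polynomial E),
      (∀ n, f.coeff n ∈ O) ∧ (∀ n, A.coeff n ∈ O) ∧ (∀ n, B.coeff n ∈ O) ∧
      (∀ n, C.coeff n ∈ O) ∧ f.Monic ∧ f.eval θ = 0 ∧
      IntermediateField.adjoin ↥K {θ} = ⊤ ∧
      A * f + B * derivative f = 1 + Polynomial.C π * C := by
  classical
  obtain ⟨ρ₀, hsurj, hker, hcomp⟩ := ga_monot_rho0 O V hOV Kb ρ R1 R2 π R3
  -- STEP 2, 3: `θ`, its minimal polynomial `μ` over `K`, and `f`
  have hθO : IsIntegral ↥O (θV : E) := hV _ θV.2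
  have hθK : IsIntegral ↥K (θV : E) := IsIntegral.of_finite ↥K _
  have hμ : (minpoly ↥K (θV : E)).Monic := minpoly.monic hθK
  have hfm : ((minpoly ↥K (θV : E)).map (algebraMap ↥K E)).Monic := hμ.map _
  have hfc : ∀ n, ((minpoly ↥K (θV : E)).map (algebraMap ↥K E)).coeff n ∈ O := by
    intro n
    rw [Polynomial.coeff_map]
    exact ga_single_minpoly_coeff_mem K O hOK hcl (θV : E) hθO n
  have hfe : ((minpoly ↥K (θV : E)).map (algebraMap ↥K E)).eval (θV : E) = 0 := by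
    rw [Polynomial.eval_map, ← Polynomial.aeval_def]
    exact minpoly.aeval _ _
  have hsub : (↑((minpoly ↥K (θV : E)).map (algebraMap ↥K E)).coeffs : Set E) ⊆ O := by
    intro c hc'
    obtain ⟨n, -, rfl⟩ := Polynomial.mem_coeffs_iff.mp hc'
    exact hfc n
  obtain ⟨f, hf⟩ : ∃ f : Polynomial E, f = (minpoly ↥K (θV : E)).map (algebraMap ↥K E) :=
    ⟨_, rfl⟩
  rw [← hf] at hfm hfc hfe hsub
  have hfdeg : f.natDegree = (minpoly ↥K (θV : E)).natDegree := by
    rw [hf]; exact hμ.natDegree_map _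
  obtain ⟨f₀, hf₀⟩ : ∃ f₀ : Polynomial ↥O, f₀ = f.toSubring O hsub := ⟨_, rfl⟩
  have hf₀m : f₀.Monic := by rw [hf₀]; exact (Polynomial.monic_toSubring f O hsub).mpr hfm
  have hf₀map : f₀.map O.subtype = f := by rw [hf₀]; exact Polynomial.map_toSubring f O hsub
  have hf₀deg : f₀.natDegree = f.natDegree := by
    rw [hf₀]; exact Polynomial.natDegree_toSubring f O hsub
  -- STEP 4: the reduction of `f`
  have hbm : (f₀.map ρ₀).Monic := hf₀m.map ρ₀
  have hbdeg : (f₀.map ρ₀).natDegree = f₀.natDegree := hf₀m.natDegree_map ρ₀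
  have hzero : Polynomial.eval₂ (Subring.inclusion hOV) θV f₀ = 0 := by
    apply Subtype.val_injective
    have h1 : V.subtype (Polynomial.eval₂ (Subring.inclusion hOV) θV f₀) =
        Polynomial.eval₂ (V.subtype.comp (Subring.inclusion hOV)) (V.subtype θV) f₀ :=
      Polynomial.hom_eval₂ f₀ (Subring.inclusion hOV) V.subtype θV
    have h2 : V.subtype.comp (Subring.inclusion hOV) = O.subtype := RingHom.ext fun _ => rfl
    have h3 : Polynomial.eval₂ O.subtype (V.subtype θV) f₀ = 0 := by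
      rw [Polynomial.eval₂_eq_eval_map, hf₀map]; exact hfe
    rw [h2, h3] at h1
    exact h1
  have hroot : Polynomial.aeval t (f₀.map ρ₀) = 0 := by
    rw [Polynomial.aeval_def, Polynomial.eval₂_map, hcomp, ← hθt, ← Polynomial.hom_eval₂,
      hzero, map_zero]
  have hdvd : minpoly ↥Kb t ∣ f₀.map ρ₀ := minpoly.dvd _ _ hroot
  have hle1 : (minpoly ↥Kb t).natDegree ≤ (f₀.map ρ₀).natDegree :=
    Polynomial.natDegree_le_of_dvd hdvd hbm.ne_zero
  have hle2 : (minpoly ↥K (θV : E)).natDegree ≤ Module.finrank ↥K E := minpoly.natDegree_le _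
  have hdegeq : (minpoly ↥K (θV : E)).natDegree = Module.finrank ↥K E := by
    rw [hbdeg, hf₀deg, hfdeg] at hle1
    omega
  have hprim : IntermediateField.adjoin ↥K {(θV : E)} = ⊤ :=
    (Field.primitive_element_iff_minpoly_natDegree_eq ↥K (θV : E)).mpr hdegeq
  have hbeq : f₀.map ρ₀ = minpoly ↥Kb t := by
    refine Polynomial.eq_of_monic_of_dvd_of_natDegree_le (minpoly.monic htint) hbm hdvd ?_
    rw [hbdeg, hf₀deg, hfdeg]
    omega
  have hbsep : (f₀.map ρ₀).Separable := by rw [hbeq]; exact htsep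
  -- STEP 5: lifting the certificate
  obtain ⟨A₀, B₀, hAB⟩ := ga_monot_lift_cert ρ₀ hsurj f₀ hbsep
  have hD : ∀ n, ∃ c' : E, c' ∈ O ∧
      ((A₀ * f₀ + B₀ * derivative f₀ - 1).coeff n : E) = π * c' := by
    intro n
    refine hker _ ?_
    have h := congrArg (fun p : Polynomial ↥Kb => p.coeff n) hAB
    simpa only [Polynomial.coeff_map, Polynomial.coeff_zero] using h
  have hDmap : (A₀ * f₀ + B₀ * derivative f₀ - 1).map O.subtype =
      A₀.map O.subtype * f + B₀.map O.subtype * derivative f - 1 := by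
    rw [Polynomial.map_sub, Polynomial.map_add, Polynomial.map_mul, Polynomial.map_mul,
      ← Polynomial.derivative_map, Polynomial.map_one, hf₀map]
  refine ⟨(θV : E), f, A₀.map O.subtype, B₀.map O.subtype,
    Polynomial.C π⁻¹ * (A₀ * f₀ + B₀ * derivative f₀ - 1).map O.subtype,
    hfc, ?_, ?_, ?_, hfm, hfe, hprim, ?_⟩
  · intro n
    rw [Polynomial.coeff_map]
    exact SetLike.coe_mem _
  · intro n
    rw [Polynomial.coeff_map]
    exact SetLike.coe_mem _
  · intro n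
    obtain ⟨c', hc', hc'e⟩ := hD n
    rw [Polynomial.coeff_C_mul, Polynomial.coeff_map]
    have : O.subtype ((A₀ * f₀ + B₀ * derivative f₀ - 1).coeff n) = π * c' := hc'e
    rw [this, inv_mul_cancel_left₀ hπ]
    exact hc'
  · rw [← mul_assoc, ← Polynomial.C_mul, mul_inv_cancel₀ hπ, Polynomial.C_1, one_mul, hDmap]
    ring

/-! ## The deliverable -/

/-- (G4b) `V = O₀[θ]` with a Bézout certificate of separability modulo `ϖ`. -/
theorem ga_monot_main : GaussStatement → ga_RedOStatement → ga_PrimStatement →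
    ga_LDegStatement → ga_O0ClosedStatement → FinLStatement → MonogenicStatement := by
  intro hG hR hP hLD hcl hFin N _ ℓ _ L _ _ W _ k _ _ _ res ϖ hD
  obtain ⟨-, -, -, -, ρ, hρ⟩ := hG N ℓ L W k res ϖ hD
  obtain ⟨R1, R2, R3⟩ := hR N ℓ L W k res ϖ hD ρ hρ
  obtain ⟨t, htF, htint, htsep, htdeg⟩ := hP N ℓ hD.not_dvd k
  obtain ⟨θV, hθV⟩ := (hρ.range t).mp htF
  have : FiniteDimensional ↥(ga_K0 L N) ↥(FL L N) := (hFin N L).2
  have hψ : Module.finrank ↥(ga_K0 L N) ↥(FL L N) ≤ dedekindPsi N :=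
    hLD N L _ (Module.finBasis ↥(ga_K0 L N) ↥(FL L N))
      (Module.finBasis ↥(ga_K0 L N) ↥(FL L N)).linearIndependent
  exact ga_monot_generic (ga_K0 L N) (gaussO W res N) (gaussV W res N)
    (fun c hc => ga_gaussO_le_gaussV W res N hc) (fun c hc => ga_gaussO_le_K0 W res N hc)
    (fun c hc hci => hcl N ℓ L W k res ϖ hD c hc hci)
    (fun x hx => (mem_gaussV_iff W res N x).mp hx)
    (IntermediateField.adjoin k {jqModC k}) ρ R1 R2 (cW W N ϖ) (ga_cW_varpi_ne_zero hD) R3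
    (dedekindPsi N) hψ t θV hθV htint htsep htdeg

end

end Fermat.Agent.S18
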