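/-
S18 / block G (twin A) — package GA/RedO: the reduction map on `O₀`:
`ρ(O₀) = k(j̄)` and `O₀ ∩ ker ρ = ϖ O₀`.
-/
import Fermat.Agent.S18.GAInterfaces

set_option autoImplicit false

open ModularCurve AlgebraicCurve Polynomial Fermat.Agent.S28

namespace Fermat.Agent.S18

noncomputable section

section

variable {L : Type} [Field L] [Algebra ℚ L] (W : ValuationSubring L) {k : Type} [Field k]
  (res : ↥W →+* k) (N : ℕ) [NeZero N]

/-- (R0) `ρ (g(j)) = ḡ(j̄)`. -/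
theorem ga_redo_rho_ev {ϖ : ↥W} (ρ : ↥(gaussV W res N) →+* LaurentSeries k)
    (hρ : IsGaussRed W res N ϖ ρ) (x : ↥(gaussV W res N)) (g : Polynomial ↥W)
    (hx : (x : ↥(FL L N)) = evW W N (jF L N) g) :
    ρ x = evalL (jqModC k) (g.map res) := by
  have h1 : ((x : ↥(FL L N)) : LaurentSeries L) =
      coeffMap W.subtype (evalL (jqModC ↥W) g) := by
    rw [hx]; exact ga_coe_evW_j W N g
  have hy : coeffMap W.subtype (evalL (jqModC ↥W) g) ∈ FL L N := by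
    rw [← h1]; exact (x : ↥(FL L N)).2
  have hxe : (x : ↥(FL L N)) = ⟨coeffMap W.subtype (evalL (jqModC ↥W) g), hy⟩ :=
    Subtype.ext h1
  have hV : (⟨coeffMap W.subtype (evalL (jqModC ↥W) g), hy⟩ : ↥(FL L N)) ∈ gaussV W res N := by
    rw [← hxe]; exact x.2
  have hx2 : x = ⟨⟨coeffMap W.subtype (evalL (jqModC ↥W) g), hy⟩, hV⟩ := Subtype.ext hxe
  rw [hx2, hρ.red _ hy hV, degMain_coeffMap_evalL, coeffMap_jqModC]

/-- (R1') KEY: if `g(j) * c = f(j)` with `c ∈ V`, then `ḡ(j̄) * ρ c = f̄(j̄)`. -/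
theorem ga_redo_key {ϖ : ↥W} (ρ : ↥(gaussV W res N) →+* LaurentSeries k)
    (hρ : IsGaussRed W res N ϖ ρ) (c : ↥(gaussV W res N)) (f g : Polynomial ↥W)
    (h : evW W N (jF L N) g * (c : ↥(FL L N)) = evW W N (jF L N) f) :
    evalL (jqModC k) (g.map res) * ρ c = evalL (jqModC k) (f.map res) := by
  have hg : evW W N (jF L N) g ∈ gaussV W res N :=
    ga_gaussO_le_gaussV W res N (ga_evW_mem_gaussO W res N g)
  have hf : evW W N (jF L N) f ∈ gaussV W res N :=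
    ga_gaussO_le_gaussV W res N (ga_evW_mem_gaussO W res N f)
  have h1 : (⟨evW W N (jF L N) g, hg⟩ : ↥(gaussV W res N)) * c = ⟨evW W N (jF L N) f, hf⟩ :=
    Subtype.ext h
  have h2 := congrArg ρ h1
  rw [map_mul, ga_redo_rho_ev W res N ρ hρ ⟨_, hg⟩ g rfl,
    ga_redo_rho_ev W res N ρ hρ ⟨_, hf⟩ f rfl] at h2
  exact h2

/-- (R1) `ρ(O₀) ⊆ k(j̄)`. -/
theorem ga_redo_R1 {ϖ : ↥W} (ρ : ↥(gaussV W res N) →+* LaurentSeries k)
    (hρ : IsGaussRed W res N ϖ ρ) (c : ↥(gaussV W res N))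
    (hc : (c : ↥(FL L N)) ∈ gaussO W res N) :
    ρ c ∈ IntermediateField.adjoin k {jqModC k} := by
  obtain ⟨f, g, hg, e⟩ := (ga_mem_gaussO_iff W res N _).mp hc
  have hkey := ga_redo_key W res N ρ hρ c f g e
  have hg0 : evalL (jqModC k) (g.map res) ≠ 0 := fun h => hg (degMain_evalL_eq_zero _ h)
  have h : ρ c = evalL (jqModC k) (f.map res) / evalL (jqModC k) (g.map res) := by
    rw [eq_div_iff hg0, mul_comm]; exact hkey
  rw [h]
  exact div_mem (degMain_evalL_mem_adjoin _ _) (degMain_evalL_mem_adjoin _ _)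

/-- (R2) `k(j̄) ⊆ ρ(O₀)`. -/
theorem ga_redo_R2 {ϖ : ↥W} (hsurj : Function.Surjective res)
    (ρ : ↥(gaussV W res N) →+* LaurentSeries k)
    (hρ : IsGaussRed W res N ϖ ρ) (z : LaurentSeries k)
    (hz : z ∈ IntermediateField.adjoin k {jqModC k}) :
    ∃ c : ↥(gaussV W res N), (c : ↥(FL L N)) ∈ gaussO W res N ∧ ρ c = z := by
  obtain ⟨R, S, hS, hzS⟩ := degMain_exists_frac (jqModC k) z hz
  obtain ⟨p, rfl⟩ := Polynomial.map_surjective res hsurj R
  obtain ⟨q, rfl⟩ := Polynomial.map_surjective res hsurj S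
  have hq : q.map res ≠ 0 := fun h => hS (by rw [h, map_zero])
  have hq0 : evW W N (jF L N) q ≠ 0 :=
    ga_evW_j_ne_zero W N (ga_ne_zero_of_map_ne_zero W res hq)
  have hO : evW W N (jF L N) p / evW W N (jF L N) q ∈ gaussO W res N :=
    ga_div_mem_gaussO W res N p hq
  refine ⟨⟨evW W N (jF L N) p / evW W N (jF L N) q, ga_gaussO_le_gaussV W res N hO⟩, hO, ?_⟩
  have hkey := ga_redo_key W res N ρ hρ
    ⟨evW W N (jF L N) p / evW W N (jF L N) q, ga_gaussO_le_gaussV W res N hO⟩ p q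
    (mul_div_cancel₀ _ hq0)
  apply mul_right_cancel₀ hS
  rw [hzS, mul_comm]
  exact hkey

end

/-- (RedO) The reduction map on `O₀`: `ρ(O₀) = k(j̄)` and `O₀ ∩ ker ρ = ϖ O₀`. -/
theorem ga_redo_main : ga_RedOStatement := by
  intro N _ ℓ _ L _ _ W _ k _ _ _ res ϖ hD ρ hρ
  refine ⟨fun c hc => ga_redo_R1 W res N ρ hρ c hc,
    fun z hz => ga_redo_R2 W res N hD.res_surjective ρ hρ z hz, ?_⟩
  intro c hc hρc
  obtain ⟨f, g, hg, e⟩ := (ga_mem_gaussO_iff W res N _).mp hc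
  have hkey := ga_redo_key W res N ρ hρ c f g e
  rw [hρc, mul_zero] at hkey
  have hf : f.map res = 0 := degMain_evalL_eq_zero _ hkey.symm
  obtain ⟨f', rfl⟩ := (ga_map_res_eq_zero_iff hD f).mp hf
  have hg0 : evW W N (jF L N) g ≠ 0 :=
    ga_evW_j_ne_zero W N (ga_ne_zero_of_map_ne_zero W res hg)
  refine ⟨evW W N (jF L N) f' / evW W N (jF L N) g, ga_div_mem_gaussO W res N f' hg, ?_⟩
  rw [map_mul, ga_evW_C] at e
  rw [← mul_div_assoc, eq_div_iff hg0, mul_comm]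
  exact e

end

end Fermat.Agent.S18
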