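/-
S18, block G (twin B, prefix `gb_`): internal interface file.

Deliverables of the block (file `GBMain.lean`, all hypothesis-free): `gb_fin : FinLStatement`,
`gb_gauss : GaussStatement`, `gb_chart : ChartGaussStatement`, `gb_sep : FkSepStatement`,
`gb_mono : MonogenicStatement`.  This file contains only shared definitions and the statements
(`Prop`s) of the work packages; each package file `GB<Pkg>.lean` proves its statement from other
statements taken as explicit hypotheses.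

Notation used in the comments: `F = ↥(FL L N) ⊆ L((q))`, `j = jF L N`, `Kj = L(j) =
IntermediateField.adjoin L {jF L N} ⊆ F`, `ev = evW W N (jF L N) : W[X] → F` (`P ↦ P(j)`),
`ι = coeffMap W.subtype : W((q)) → L((q))` (injective), `red = coeffMap res : W((q)) → k((q))`,
`jW = jqModC ↥W`, `j̄ = jqModC k`, `Kk = k(j̄) = IntermediateField.adjoin k {jqModC k} ⊆ k((q))`,
`ψ = dedekindPsi N`, "`ϖ ∣ P`" for `P ∈ W[X]` means `P.map res = 0` (⟺ `Polynomial.C ϖ ∣ P`).
-/
import Fermat.Agent.S18.SInterfaces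

set_option autoImplicit false

open ModularCurve AlgebraicCurve

namespace Fermat.Agent.S18

noncomputable section

/-! ## Shared definitions -/

section Defs

variable {L : Type} [Field L] [Algebra ℚ L] (W : ValuationSubring L) {k : Type} [Field k]
  (res : ↥W →+* k) (N : ℕ) [NeZero N]

/-- A monomial family: `ψ` series `m i ∈ W((q))` whose images `b i` over `L` lie in `F` and whose
reductions lie in `F_k` and are linearly independent over `k(j̄)`. -/
structure gb_IsMono (m : Fin (dedekindPsi N) → LaurentSeries ↥W)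
    (b : Fin (dedekindPsi N) → ↥(FL L N)) : Prop where
  coe : ∀ i, ((b i : ↥(FL L N)) : LaurentSeries L) = coeffMap W.subtype (m i)
  memk : ∀ i, coeffMap res (m i) ∈ Fk k N
  indep : LinearIndependent ↥(IntermediateField.adjoin k {jqModC k})
    (fun i => coeffMap res (m i))

/-- `M'`: the `x ∈ F` such that `g(j) * x ∈ ι (W((q)))` for some `g ∈ W[X]` with `g mod ϖ ≠ 0`.
(The block proves `gaussV W res N = gb_M W res N` as sets: `gb_VEqStatement`.) -/
def gb_M : Set ↥(FL L N) :=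
  {x | ∃ (g : Polynomial ↥W) (y : LaurentSeries ↥W), g.map res ≠ 0 ∧
      ((evW W N (jF L N) g * x : ↥(FL L N)) : LaurentSeries L) = coeffMap W.subtype y}

end Defs

/-! ## Toolkit statements -/

/-- (T3) `P(j)`, viewed in `L((q))`, is the image of the series `P(jW) ∈ W((q))`. -/
def gb_EvCoeStatement : Prop :=
  ∀ (N : ℕ) [NeZero N] (L : Type) [Field L] [Algebra ℚ L] (W : ValuationSubring L)
    (P : Polynomial ↥W),
    ((evW W N (jF L N) P : ↥(FL L N)) : LaurentSeries L) =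
      coeffMap W.subtype (S28.evalL (jqModC ↥W) P)

/-- (T1) `P ↦ P(j)` is injective on `W[X]`. -/
def gb_TranscStatement : Prop :=
  ∀ (N : ℕ) [NeZero N] (L : Type) [Field L] [Algebra ℚ L] (W : ValuationSubring L),
    Function.Injective (evW W N (jF L N))

/-- (T2) Every finite family of elements of `L(j)` has a common denominator in `W[j]`. -/
def gb_FracStatement : Prop :=
  ∀ (N : ℕ) [NeZero N] (L : Type) [Field L] [Algebra ℚ L] (W : ValuationSubring L) (n : ℕ)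
    (c : Fin n → ↥(FL L N)), (∀ i, c i ∈ IntermediateField.adjoin L {jF L N}) →
    ∃ (g : Polynomial ↥W) (f : Fin n → Polynomial ↥W), g ≠ 0 ∧
      ∀ i, evW W N (jF L N) g * c i = evW W N (jF L N) (f i)

/-- (T4) Reduction and divisibility by `ϖ`, for polynomials and for series. -/
def gb_ResStatement : Prop :=
  ∀ (N : ℕ) [NeZero N] (ℓ : ℕ) [Fact ℓ.Prime] (L : Type) [Field L] [Algebra ℚ L]
    (W : ValuationSubring L) [IsDiscreteValuationRing ↥W] (k : Type) [Field k] [IsAlgClosed k]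
    [CharP k ℓ] (res : ↥W →+* k) (ϖ : ↥W), BaseData N ℓ W res ϖ →
    (∀ P : Polynomial ↥W, P.map res = 0 ↔ Polynomial.C ϖ ∣ P) ∧
    (∀ y : LaurentSeries ↥W, coeffMap res y = 0 ↔
      ∃ y' : LaurentSeries ↥W, y = HahnSeries.C ϖ * y')

/-- (T5) Removal of the common `ϖ`-content of a tuple `(g, f_0, …, f_{n-1})` in `W[X]`, `g ≠ 0`. -/
def gb_ContentStatement : Prop :=
  ∀ (N : ℕ) [NeZero N] (ℓ : ℕ) [Fact ℓ.Prime] (L : Type) [Field L] [Algebra ℚ L]
    (W : ValuationSubring L) [IsDiscreteValuationRing ↥W] (k : Type) [Field k] [IsAlgClosed k]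
    [CharP k ℓ] (res : ↥W →+* k) (ϖ : ↥W), BaseData N ℓ W res ϖ →
    ∀ (n : ℕ) (g : Polynomial ↥W) (f : Fin n → Polynomial ↥W), g ≠ 0 →
      ∃ (e : ℕ) (g' : Polynomial ↥W) (f' : Fin n → Polynomial ↥W),
        g = Polynomial.C ϖ ^ e * g' ∧ (∀ i, f i = Polynomial.C ϖ ^ e * f' i) ∧
        ¬ (g'.map res = 0 ∧ ∀ i, (f' i).map res = 0)

/-! ## Characteristic zero: the degree bound over `L` -/

/-- (G0b) `[F : L(j)] ≤ ψ(N)`: an `L(j)`-linearly independent family in `F` has at most `ψ(N)`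
members (base change of `Char0DegStatement` from `ℚ` to `L`). -/
def gb_BoundStatement : Prop :=
  ∀ (N : ℕ) [NeZero N] (L : Type) [Field L] [Algebra ℚ L] (s : ℕ) (x : Fin s → ↥(FL L N)),
    LinearIndependent ↥(IntermediateField.adjoin L {jF L N}) x → s ≤ dedekindPsi N

/-! ## The monomial family -/

/-- (G1) A monomial family exists. -/
def gb_MonoStatement : Prop :=
  ∀ (N : ℕ) [NeZero N] (ℓ : ℕ) [Fact ℓ.Prime] (L : Type) [Field L] [Algebra ℚ L]
    (W : ValuationSubring L) [IsDiscreteValuationRing ↥W] (k : Type) [Field k] [IsAlgClosed k]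
    [CharP k ℓ] (res : ↥W →+* k) (ϖ : ↥W), BaseData N ℓ W res ϖ →
    ∃ (m : Fin (dedekindPsi N) → LaurentSeries ↥W) (b : Fin (dedekindPsi N) → ↥(FL L N)),
      gb_IsMono W res N m b

/-- (DEG_W) If the reduction of `∑ f_i(jW) * m_i` vanishes, then all `f_i` vanish mod `ϖ`. -/
def gb_DegWStatement : Prop :=
  ∀ (N : ℕ) [NeZero N] (L : Type) [Field L] [Algebra ℚ L] (W : ValuationSubring L)
    (k : Type) [Field k] (res : ↥W →+* k)
    (m : Fin (dedekindPsi N) → LaurentSeries ↥W) (b : Fin (dedekindPsi N) → ↥(FL L N)),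
    gb_IsMono W res N m b →
    ∀ f : Fin (dedekindPsi N) → Polynomial ↥W,
      coeffMap res (∑ i, S28.evalL (jqModC ↥W) (f i) * m i) = 0 → ∀ i, (f i).map res = 0

/-- (G2) The `b i` span `F` over `L(j)`: every `x ∈ F` satisfies `g(j) * x = ∑ f_i(j) * b i` with
`g ≠ 0`. -/
def gb_BasisStatement : Prop :=
  ∀ (N : ℕ) [NeZero N] (ℓ : ℕ) [Fact ℓ.Prime] (L : Type) [Field L] [Algebra ℚ L]
    (W : ValuationSubring L) [IsDiscreteValuationRing ↥W] (k : Type) [Field k] [IsAlgClosed k]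
    [CharP k ℓ] (res : ↥W →+* k) (ϖ : ↥W), BaseData N ℓ W res ϖ →
    ∀ (m : Fin (dedekindPsi N) → LaurentSeries ↥W) (b : Fin (dedekindPsi N) → ↥(FL L N)),
      gb_IsMono W res N m b → ∀ x : ↥(FL L N),
        ∃ (g : Polynomial ↥W) (f : Fin (dedekindPsi N) → Polynomial ↥W), g ≠ 0 ∧
          evW W N (jF L N) g * x = ∑ i, evW W N (jF L N) (f i) * b i

/-- (G4, KEY) For `x ∈ F ∩ ι (W((q)))` the denominator `g` can be chosen nonzero mod `ϖ`. -/
def gb_KeyStatement : Prop :=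
  ∀ (N : ℕ) [NeZero N] (ℓ : ℕ) [Fact ℓ.Prime] (L : Type) [Field L] [Algebra ℚ L]
    (W : ValuationSubring L) [IsDiscreteValuationRing ↥W] (k : Type) [Field k] [IsAlgClosed k]
    [CharP k ℓ] (res : ↥W →+* k) (ϖ : ↥W), BaseData N ℓ W res ϖ →
    ∀ (m : Fin (dedekindPsi N) → LaurentSeries ↥W) (b : Fin (dedekindPsi N) → ↥(FL L N)),
      gb_IsMono W res N m b → ∀ (x : ↥(FL L N)) (y : LaurentSeries ↥W),
        ((x : ↥(FL L N)) : LaurentSeries L) = coeffMap W.subtype y →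
        ∃ (g : Polynomial ↥W) (f : Fin (dedekindPsi N) → Polynomial ↥W), g.map res ≠ 0 ∧
          evW W N (jF L N) g * x = ∑ i, evW W N (jF L N) (f i) * b i

/-! ## The Gauss valuation ring `O₀` of `L(j)` -/

/-- (O1) `gaussSet` is a subring, i.e. equals its subring closure `gaussO`. -/
def gb_OSubStatement : Prop :=
  ∀ (N : ℕ) [NeZero N] (ℓ : ℕ) [Fact ℓ.Prime] (L : Type) [Field L] [Algebra ℚ L]
    (W : ValuationSubring L) [IsDiscreteValuationRing ↥W] (k : Type) [Field k] [IsAlgClosed k]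
    [CharP k ℓ] (res : ↥W →+* k) (ϖ : ↥W), BaseData N ℓ W res ϖ →
    ∀ c : ↥(FL L N), c ∈ gaussO W res N → c ∈ gaussSet W res N

/-- (O2) `O₀ ⊆ L(j)`. -/
def gb_OLeStatement : Prop :=
  ∀ (N : ℕ) [NeZero N] (ℓ : ℕ) [Fact ℓ.Prime] (L : Type) [Field L] [Algebra ℚ L]
    (W : ValuationSubring L) [IsDiscreteValuationRing ↥W] (k : Type) [Field k] [IsAlgClosed k]
    [CharP k ℓ] (res : ↥W →+* k) (ϖ : ↥W), BaseData N ℓ W res ϖ →
    ∀ c : ↥(FL L N), c ∈ gaussO W res N → c ∈ IntermediateField.adjoin L {jF L N}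

/-- (O3) `O₀` is integrally closed in `L(j)`. -/
def gb_OIntClosedStatement : Prop :=
  ∀ (N : ℕ) [NeZero N] (ℓ : ℕ) [Fact ℓ.Prime] (L : Type) [Field L] [Algebra ℚ L]
    (W : ValuationSubring L) [IsDiscreteValuationRing ↥W] (k : Type) [Field k] [IsAlgClosed k]
    [CharP k ℓ] (res : ↥W →+* k) (ϖ : ↥W), BaseData N ℓ W res ϖ →
    ∀ c : ↥(FL L N), c ∈ IntermediateField.adjoin L {jF L N} →
      IsIntegral ↥(gaussO W res N) c → c ∈ gaussO W res N

/-- (K5b) `O₀ ∩ L[t] ⊆ W[t]` for `t = j` and `t = j⁻¹`: a polynomial over `L` whose value at `t`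
lies in `O₀` has all its coefficients in `W`. -/
def gb_OBAStatement : Prop :=
  ∀ (N : ℕ) [NeZero N] (ℓ : ℕ) [Fact ℓ.Prime] (L : Type) [Field L] [Algebra ℚ L]
    (W : ValuationSubring L) [IsDiscreteValuationRing ↥W] (k : Type) [Field k] [IsAlgClosed k]
    [CharP k ℓ] (res : ↥W →+* k) (ϖ : ↥W), BaseData N ℓ W res ϖ →
    ∀ t : ↥(FL L N), (t = jF L N ∨ t = (jF L N)⁻¹) →
      ∀ p : Polynomial L, Polynomial.aeval t p ∈ gaussO W res N → ∀ n : ℕ, p.coeff n ∈ W

/-- (K5a) `L[t]` is integrally closed in `L(j)` for `t = j` and `t = j⁻¹`. -/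
def gb_ICBStatement : Prop :=
  ∀ (N : ℕ) [NeZero N] (L : Type) [Field L] [Algebra ℚ L] (t : ↥(FL L N)),
    (t = jF L N ∨ t = (jF L N)⁻¹) →
    ∀ c : ↥(FL L N), c ∈ IntermediateField.adjoin L {jF L N} →
      (Polynomial.aeval t : Polynomial L →ₐ[L] ↥(FL L N)).toRingHom.IsIntegralElem c →
      ∃ p : Polynomial L, Polynomial.aeval t p = c

/-! ## The valuation ring `V = M'` -/

/-- (K4) `M' ⊆ V`: the elements of `M'` are integral over `O₀`. -/
def gb_MVStatement : Prop :=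
  ∀ (N : ℕ) [NeZero N] (ℓ : ℕ) [Fact ℓ.Prime] (L : Type) [Field L] [Algebra ℚ L]
    (W : ValuationSubring L) [IsDiscreteValuationRing ↥W] (k : Type) [Field k] [IsAlgClosed k]
    [CharP k ℓ] (res : ↥W →+* k) (ϖ : ↥W), BaseData N ℓ W res ϖ →
    ∀ x : ↥(FL L N), x ∈ gb_M W res N → x ∈ gaussV W res N

/-- (G6) Valuation property of `M'`: every `x ∈ F` lies in `M'` or satisfies `x⁻¹ ∈ ϖ M'`. -/
def gb_ValStatement : Prop :=
  ∀ (N : ℕ) [NeZero N] (ℓ : ℕ) [Fact ℓ.Prime] (L : Type) [Field L] [Algebra ℚ L]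
    (W : ValuationSubring L) [IsDiscreteValuationRing ↥W] (k : Type) [Field k] [IsAlgClosed k]
    [CharP k ℓ] (res : ↥W →+* k) (ϖ : ↥W), BaseData N ℓ W res ϖ →
    ∀ x : ↥(FL L N), x ∈ gb_M W res N ∨
      ∃ z : ↥(FL L N), z ∈ gb_M W res N ∧ x * (cW W N ϖ * z) = 1

/-- (G6) `V = M'`. -/
def gb_VEqStatement : Prop :=
  ∀ (N : ℕ) [NeZero N] (ℓ : ℕ) [Fact ℓ.Prime] (L : Type) [Field L] [Algebra ℚ L]
    (W : ValuationSubring L) [IsDiscreteValuationRing ↥W] (k : Type) [Field k] [IsAlgClosed k]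
    [CharP k ℓ] (res : ↥W →+* k) (ϖ : ↥W), BaseData N ℓ W res ϖ →
    ∀ x : ↥(FL L N), x ∈ gaussV W res N ↔ x ∈ gb_M W res N

/-- The first four components of `GaussStatement`. -/
def gb_Gauss14Statement : Prop :=
  ∀ (N : ℕ) [NeZero N] (ℓ : ℕ) [Fact ℓ.Prime] (L : Type) [Field L] [Algebra ℚ L]
    (W : ValuationSubring L) [IsDiscreteValuationRing ↥W] (k : Type) [Field k] [IsAlgClosed k]
    [CharP k ℓ] (res : ↥W →+* k) (ϖ : ↥W), BaseData N ℓ W res ϖ →
    (∀ (y : LaurentSeries ↥W) (hy : coeffMap W.subtype y ∈ FL L N),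
      (⟨coeffMap W.subtype y, hy⟩ : ↥(FL L N)) ∈ gaussV W res N) ∧
    (∀ x : ↥(FL L N), x ∈ gaussV W res N ∨ x⁻¹ ∈ gaussV W res N) ∧
    (cW W N ϖ)⁻¹ ∉ gaussV W res N ∧
    (∀ V' : ValuationSubring ↥(FL L N), gaussO W res N ≤ V'.toSubring → (cW W N ϖ)⁻¹ ∉ V' →
      V'.toSubring = gaussV W res N)

/-- (G5) The reduction map `ρ`. -/
def gb_RhoStatement : Prop :=
  ∀ (N : ℕ) [NeZero N] (ℓ : ℕ) [Fact ℓ.Prime] (L : Type) [Field L] [Algebra ℚ L]
    (W : ValuationSubring L) [IsDiscreteValuationRing ↥W] (k : Type) [Field k] [IsAlgClosed k]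
    [CharP k ℓ] (res : ↥W →+* k) (ϖ : ↥W), BaseData N ℓ W res ϖ →
    ∃ ρ : ↥(gaussV W res N) →+* LaurentSeries k, IsGaussRed W res N ϖ ρ

/-- (G9a) The restriction of a reduction map `ρ` to `O₀`: a surjective ring homomorphism
`O₀ → k(j̄)` with kernel `ϖ O₀`. -/
def gb_RhoOStatement : Prop :=
  ∀ (N : ℕ) [NeZero N] (ℓ : ℕ) [Fact ℓ.Prime] (L : Type) [Field L] [Algebra ℚ L]
    (W : ValuationSubring L) [IsDiscreteValuationRing ↥W] (k : Type) [Field k] [IsAlgClosed k]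
    [CharP k ℓ] (res : ↥W →+* k) (ϖ : ↥W), BaseData N ℓ W res ϖ →
    ∀ ρ : ↥(gaussV W res N) →+* LaurentSeries k, IsGaussRed W res N ϖ ρ →
      ∃ ρO : ↥(gaussO W res N) →+* ↥(IntermediateField.adjoin k {jqModC k}),
        Function.Surjective ρO ∧
        (∀ c : ↥(gaussO W res N), ρO c = 0 ↔
          ∃ c' : ↥(gaussO W res N), (c : ↥(FL L N)) = cW W N ϖ * (c' : ↥(FL L N))) ∧
        ∀ (c : ↥(gaussO W res N)) (hc : (c : ↥(FL L N)) ∈ gaussV W res N),
          ((ρO c : ↥(IntermediateField.adjoin k {jqModC k})) : LaurentSeries k) =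
            ρ ⟨(c : ↥(FL L N)), hc⟩

/-! ## The charts -/

/-- (K6) If `ϖ * y` is integral over `W[t]` and `y` is integral over `O₀`, then `y` is integral
over `W[t]` (`t = j` or `t = j⁻¹`; integrality over `W[t]` is expressed by `evW W N t`). -/
def gb_K6Statement : Prop :=
  ∀ (N : ℕ) [NeZero N] (ℓ : ℕ) [Fact ℓ.Prime] (L : Type) [Field L] [Algebra ℚ L]
    (W : ValuationSubring L) [IsDiscreteValuationRing ↥W] (k : Type) [Field k] [IsAlgClosed k]
    [CharP k ℓ] (res : ↥W →+* k) (ϖ : ↥W), BaseData N ℓ W res ϖ →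
    ∀ t : ↥(FL L N), (t = jF L N ∨ t = (jF L N)⁻¹) → ∀ y : ↥(FL L N),
      (evW W N t).IsIntegralElem (cW W N ϖ * y) → IsIntegral ↥(gaussO W res N) y →
      (evW W N t).IsIntegralElem y

/-- (CH) Membership in `chart W N {t}` is integrality with respect to `evW W N t`. -/
def gb_CHStatement : Prop :=
  ∀ (N : ℕ) [NeZero N] (L : Type) [Field L] [Algebra ℚ L] (W : ValuationSubring L)
    (t x : ↥(FL L N)), x ∈ chart W N {t} ↔ (evW W N t).IsIntegralElem x

/-- (PM) If `x` is integral over `W[j, j⁻¹]` then `j ^ n * x` is integral over `W[j]` for some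
`n`. -/
def gb_PowMulStatement : Prop :=
  ∀ (N : ℕ) [NeZero N] (L : Type) [Field L] [Algebra ℚ L] (W : ValuationSubring L)
    (x : ↥(FL L N)), x ∈ chart W N {jF L N, (jF L N)⁻¹} →
    ∃ n : ℕ, jF L N ^ n * x ∈ chart W N {jF L N}

/-! ## Separability mod `ℓ` -/

/-- (G8a) One prime step: `j̄(q^{r e})` is a root of a separable polynomial with coefficients in
`k[j̄(q^e)]` (`r` prime, `r ≠ ℓ`): `Φ(X, j̄(q^e))` for the modular equation `Φ` of level `r`. -/
def gb_SepStepStatement : Prop :=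
  ∀ (ℓ : ℕ) [Fact ℓ.Prime] (k : Type) [Field k] [CharP k ℓ] [IsAlgClosed k]
    (r e re : ℕ) [NeZero e] [NeZero re], r.Prime → r ≠ ℓ → re = r * e →
    ∃ Φ : Polynomial (Polynomial k),
      (Φ.map (S28.evalL (qExpand k e (jqModC k)))).Separable ∧
      (Φ.map (S28.evalL (qExpand k e (jqModC k)))).eval (qExpand k re (jqModC k)) = 0

/-- (G9b) A primitive element of `F_k / k(j̄)` of degree at least `ψ(N)`. -/
def gb_PrimStatement : Prop :=
  ∀ (N : ℕ) [NeZero N] (ℓ : ℕ) [Fact ℓ.Prime], ¬ ℓ ∣ N →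
    ∀ (k : Type) [Field k] [CharP k ℓ] [IsAlgClosed k],
      ∃ θ : LaurentSeries k, θ ∈ Fk k N ∧
        dedekindPsi N ≤ (minpoly ↥(IntermediateField.adjoin k {jqModC k}) θ).natDegree

end

end Fermat.Agent.S18
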