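/-
S18, block G (twin B), package `Basis` (G2), prefix `gb_basis_`.

Port of `Fermat/Agent/S28/KBBasis.lean` to an abstract discrete valuation ring `W ⊆ L`: a monomial
family `(m, b)` gives an `L(j)`-basis `b` of `F = ↥(FL L N)`.  It is linearly independent over
`Kj = L(j)` (relations over `W[j]` are divisible by every power of `ϖ`, by `DEG_W`), and it spans
`F` because `[F : L(j)] ≤ ψ(N)`.
-/
import Fermat.Agent.S18.GBInterfaces
import Fermat.Agent.S28.DegMainAux

set_option autoImplicit false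

open ModularCurve AlgebraicCurve

namespace Fermat.Agent.S18

noncomputable section

/-- (★) A `W[j]`-linear combination of the `b i`, viewed in `L((q))`, is the image of the
corresponding combination of the `m i` in `W((q))`. -/
theorem gb_basis_star (hT3 : gb_EvCoeStatement) {N : ℕ} [NeZero N] {L : Type} [Field L]
    [Algebra ℚ L] (W : ValuationSubring L) {k : Type} [Field k] (res : ↥W →+* k)
    (m : Fin (dedekindPsi N) → LaurentSeries ↥W) (b : Fin (dedekindPsi N) → ↥(FL L N))
    (hm : gb_IsMono W res N m b) (f : Fin (dedekindPsi N) → Polynomial ↥W) :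
    ((∑ i, evW W N (jF L N) (f i) * b i : ↥(FL L N)) : LaurentSeries L) =
      coeffMap W.subtype (∑ i, S28.evalL (jqModC ↥W) (f i) * m i) := by
  rw [map_sum, AddSubmonoidClass.coe_finsetSum]
  refine Finset.sum_congr rfl fun i _ => ?_
  rw [map_mul, MulMemClass.coe_mul, hT3, hm.coe]

/-- A polynomial over `W` divisible by all powers of `ϖ` vanishes. -/
theorem gb_basis_eq_zero_of_pow_dvd {L : Type} [Field L] (W : ValuationSubring L)
    [IsDiscreteValuationRing ↥W] (ϖ : ↥W) (hϖ : Irreducible ϖ) (p : Polynomial ↥W)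
    (h : ∀ n : ℕ, Polynomial.C ϖ ^ n ∣ p) : p = 0 := by
  by_contra hne
  have hnu : ¬ IsUnit (Polynomial.C ϖ) := by
    rw [Polynomial.isUnit_C]
    exact hϖ.not_isUnit
  obtain ⟨n, hn⟩ := FiniteMultiplicity.of_not_isUnit hnu hne
  exact hn (h (n + 1))

/-- Descent step: a vanishing relation over `W[jW]` between the `m i` has all its polynomial
coefficients divisible by every power of `ϖ`. -/
theorem gb_basis_pow_dvd (hDeg : gb_DegWStatement) (hRes : gb_ResStatement)
    {N : ℕ} [NeZero N] {ℓ : ℕ} [Fact ℓ.Prime] {L : Type} [Field L] [Algebra ℚ L]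
    (W : ValuationSubring L) [IsDiscreteValuationRing ↥W] {k : Type} [Field k] [IsAlgClosed k]
    [CharP k ℓ] (res : ↥W →+* k) (ϖ : ↥W) (hD : BaseData N ℓ W res ϖ)
    (m : Fin (dedekindPsi N) → LaurentSeries ↥W) (b : Fin (dedekindPsi N) → ↥(FL L N))
    (hm : gb_IsMono W res N m b) (n : ℕ) :
    ∀ f : Fin (dedekindPsi N) → Polynomial ↥W,
      ∑ i, S28.evalL (jqModC ↥W) (f i) * m i = 0 → ∀ i, Polynomial.C ϖ ^ n ∣ f i := by
  induction n with
  | zero => intro f _ i; simp
  | succ n ih =>
    intro f hf i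
    have hdvd : ∀ i, Polynomial.C ϖ ∣ f i := by
      intro i
      rw [← (hRes N ℓ L W k res ϖ hD).1]
      exact hDeg N L W k res m b hm f (by rw [hf, map_zero]) i
    choose f' hf' using hdvd
    have hϖ : (HahnSeries.C ϖ : LaurentSeries ↥W) ≠ 0 :=
      HahnSeries.C_ne_zero hD.irreducible.ne_zero
    have hsum : (HahnSeries.C ϖ : LaurentSeries ↥W) *
        ∑ i, S28.evalL (jqModC ↥W) (f' i) * m i = 0 := by
      rw [← hf, Finset.mul_sum]
      refine Finset.sum_congr rfl fun i _ => ?_
      rw [hf' i, map_mul, mul_assoc]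
      congr 1
      simp [S28.evalL]
    have hsum' : ∑ i, S28.evalL (jqModC ↥W) (f' i) * m i = 0 :=
      (mul_eq_zero.mp hsum).resolve_left hϖ
    rw [hf' i, pow_succ']
    exact mul_dvd_mul_left _ (ih f' hsum' i)

/-- Step 1: relations over `W[jW]` between the `m i` are trivial. -/
theorem gb_basis_step1 (hDeg : gb_DegWStatement) (hRes : gb_ResStatement)
    {N : ℕ} [NeZero N] {ℓ : ℕ} [Fact ℓ.Prime] {L : Type} [Field L] [Algebra ℚ L]
    (W : ValuationSubring L) [IsDiscreteValuationRing ↥W] {k : Type} [Field k] [IsAlgClosed k]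
    [CharP k ℓ] (res : ↥W →+* k) (ϖ : ↥W) (hD : BaseData N ℓ W res ϖ)
    (m : Fin (dedekindPsi N) → LaurentSeries ↥W) (b : Fin (dedekindPsi N) → ↥(FL L N))
    (hm : gb_IsMono W res N m b) (f : Fin (dedekindPsi N) → Polynomial ↥W)
    (hf : ∑ i, S28.evalL (jqModC ↥W) (f i) * m i = 0) : ∀ i, f i = 0 :=
  fun i => gb_basis_eq_zero_of_pow_dvd W ϖ hD.irreducible (f i) fun n =>
    gb_basis_pow_dvd hDeg hRes W res ϖ hD m b hm n f hf i

/-- Step 2 (K1): the `b i` are linearly independent over `Kj = L(j)`. -/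
theorem gb_basis_linearIndependent (hDeg : gb_DegWStatement) (hT1 : gb_TranscStatement)
    (hT2 : gb_FracStatement) (hT3 : gb_EvCoeStatement) (hRes : gb_ResStatement)
    {N : ℕ} [NeZero N] {ℓ : ℕ} [Fact ℓ.Prime] {L : Type} [Field L] [Algebra ℚ L]
    (W : ValuationSubring L) [IsDiscreteValuationRing ↥W] {k : Type} [Field k] [IsAlgClosed k]
    [CharP k ℓ] (res : ↥W →+* k) (ϖ : ↥W) (hD : BaseData N ℓ W res ϖ)
    (m : Fin (dedekindPsi N) → LaurentSeries ↥W) (b : Fin (dedekindPsi N) → ↥(FL L N))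
    (hm : gb_IsMono W res N m b) :
    LinearIndependent ↥(IntermediateField.adjoin L {jF L N}) b := by
  rw [Fintype.linearIndependent_iff]
  intro c hc i
  obtain ⟨g, f, hg, hgf⟩ := hT2 N L W (dedekindPsi N) (fun i => (c i : ↥(FL L N)))
    (fun i => (c i).2)
  have hrel : ∑ i, evW W N (jF L N) (f i) * b i = 0 := by
    have h1 : ∑ i, evW W N (jF L N) (f i) * b i = evW W N (jF L N) g * ∑ i, c i • b i := by
      rw [Finset.mul_sum]
      refine Finset.sum_congr rfl fun i _ => ?_
      rw [← hgf i, IntermediateField.smul_def, smul_eq_mul, mul_assoc]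
    rw [h1, hc, mul_zero]
  have hrel' : ∑ i, S28.evalL (jqModC ↥W) (f i) * m i = 0 := by
    apply S28.degMain_coeffMap_injective W.subtype Subtype.val_injective
    rw [← gb_basis_star hT3 W res m b hm f, hrel, map_zero, ZeroMemClass.coe_zero]
  have hfi := gb_basis_step1 hDeg hRes W res ϖ hD m b hm f hrel' i
  have hgc := hgf i
  rw [hfi, map_zero] at hgc
  have hg' : evW W N (jF L N) g ≠ 0 := (map_ne_zero_iff _ (hT1 N L W)).mpr hg
  exact Subtype.ext ((mul_eq_zero.mp hgc).resolve_left hg')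

/-- (G2) The `b i` of a monomial family span `F` over `L(j)`, with denominators in `W[j]`. -/
theorem gb_basis_main : gb_BoundStatement → gb_DegWStatement → gb_TranscStatement →
    gb_FracStatement → gb_EvCoeStatement → gb_ResStatement → gb_ContentStatement →
    gb_BasisStatement := by
  intro hBound hDeg hT1 hT2 hT3 hRes _ N _ ℓ _ L _ _ W _ k _ _ _ res ϖ hD m b hm x
  have hli := gb_basis_linearIndependent hDeg hT1 hT2 hT3 hRes W res ϖ hD m b hm
  have hnot : ¬ LinearIndependent ↥(IntermediateField.adjoin L {jF L N})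
      (Fin.cons x b : Fin (dedekindPsi N + 1) → ↥(FL L N)) := by
    intro h
    have hle := hBound N L (dedekindPsi N + 1) _ h
    omega
  rw [linearIndependent_finCons] at hnot
  have hxs : x ∈ Submodule.span ↥(IntermediateField.adjoin L {jF L N}) (Set.range b) := by
    by_contra h
    exact hnot ⟨hli, h⟩
  obtain ⟨c, hc⟩ := (Submodule.mem_span_range_iff_exists_fun _).1 hxs
  obtain ⟨g, f, hg, hgf⟩ := hT2 N L W (dedekindPsi N) (fun i => (c i : ↥(FL L N)))
    (fun i => (c i).2)
  refine ⟨g, f, hg, ?_⟩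
  rw [← hc, Finset.mul_sum]
  refine Finset.sum_congr rfl fun i _ => ?_
  rw [← hgf i, IntermediateField.smul_def, smul_eq_mul, mul_assoc]

end

end Fermat.Agent.S18
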