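/-
S18, block G (twin B), package Bound (G0b): the degree bound `[F_L : L(j)] ≤ ψ(N)` over an arbitrary
field `L` of characteristic 0, by base change of `S28.Char0DegStatement` from `ℚ` to `L`, and the
finiteness statement `FinLStatement`.

Deliverables: `gb_bound_main : S28.Char0DegStatement → gb_BoundStatement`,
`gb_bound_fin : S28.Char0DegStatement → FinLStatement`.
-/
import Fermat.Agent.S18.GBInterfaces
import Fermat.Agent.S28.DegMainAux

set_option autoImplicit false

open ModularCurve AlgebraicCurve

namespace Fermat.Agent.S18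

noncomputable section

/-! ## General linear algebra -/

/-- (A) If every independent family with members in `T` has at most `ψ` members, there is a family
with members in `T`, of size at most `ψ`, whose span contains `T`. -/
theorem gb_bound_maxFamily {K V : Type*} [Field K] [AddCommGroup V] [Module K V] (T : Set V)
    (ψ : ℕ)
    (hb : ∀ (s : ℕ) (x : Fin s → V), (∀ i, x i ∈ T) → LinearIndependent K x → s ≤ ψ) :
    ∃ (s₀ : ℕ) (x : Fin s₀ → V), s₀ ≤ ψ ∧ (∀ i, x i ∈ T) ∧
      ∀ y ∈ T, y ∈ Submodule.span K (Set.range x) := by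
  classical
  let P : ℕ → Prop := fun s => ∃ x : Fin s → V, (∀ i, x i ∈ T) ∧ LinearIndependent K x
  have h0 : P 0 := ⟨Fin.elim0, fun i => i.elim0, linearIndependent_empty_type⟩
  have hs : P (Nat.findGreatest P ψ) := Nat.findGreatest_spec (Nat.zero_le ψ) h0
  obtain ⟨x, hxT, hx⟩ := hs
  refine ⟨Nat.findGreatest P ψ, x, Nat.findGreatest_le ψ, hxT, ?_⟩
  intro y hy
  by_contra hys
  have hcons : LinearIndependent K (Fin.cons y x : Fin (Nat.findGreatest P ψ + 1) → V) :=
    linearIndependent_finCons.mpr ⟨hx, hys⟩
  have hmem : ∀ i, (Fin.cons y x : Fin (Nat.findGreatest P ψ + 1) → V) i ∈ T := by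
    intro i
    refine Fin.cases ?_ ?_ i
    · simpa using hy
    · intro j
      simpa using hxT j
  have hle : Nat.findGreatest P ψ + 1 ≤ ψ := hb _ _ hmem hcons
  have hP : P (Nat.findGreatest P ψ + 1) := ⟨_, hmem, hcons⟩
  have := Nat.le_findGreatest hle hP
  omega

/-- (C, counting) an independent family inside the span of `s₀` vectors has at most `s₀`
members. -/
theorem gb_bound_card_le {K V : Type*} [Field K] [AddCommGroup V] [Module K V] {s s₀ : ℕ}
    (y : Fin s → V) (x : Fin s₀ → V) (hy : LinearIndependent K y)
    (hsub : ∀ i, y i ∈ Submodule.span K (Set.range x)) : s ≤ s₀ := by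
  classical
  have h := linearIndependent_le_span' y hy (Set.range x)
    (by rintro _ ⟨i, rfl⟩; exact hsub i)
  rw [Cardinal.mk_fin, Nat.cast_le] at h
  have h2 := Fintype.card_range_le x
  rw [Fintype.card_fin] at h2
  exact h.trans h2

/-- (B) A finitely generated `K`-subspace of a field `E ⊇ K` which contains `1` and the products of
its generators is a subfield: it contains `L(T)` as soon as it contains `T`. -/
theorem gb_bound_span_field {L E : Type*} [Field L] [Field E] [Algebra L E]
    (K : IntermediateField L E) {s₀ : ℕ} (x : Fin s₀ → E) (T : Set E)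
    (h1 : (1 : E) ∈ Submodule.span ↥K (Set.range x))
    (hmul : ∀ a b, x a * x b ∈ Submodule.span ↥K (Set.range x))
    (hT : T ⊆ Submodule.span ↥K (Set.range x)) :
    ∀ z ∈ IntermediateField.adjoin L T, z ∈ Submodule.span ↥K (Set.range x) := by
  have hmulS : ∀ u v, u ∈ Submodule.span ↥K (Set.range x) →
      v ∈ Submodule.span ↥K (Set.range x) → u * v ∈ Submodule.span ↥K (Set.range x) := by
    intro u v hu hv
    have h := Submodule.mul_mem_mul hu hv
    rw [Submodule.span_mul_span] at h
    refine Submodule.span_le.mpr ?_ h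
    rintro _ ⟨_, ⟨a, rfl⟩, _, ⟨b, rfl⟩, rfl⟩
    exact hmul a b
  let A : Subalgebra ↥K E := (Submodule.span ↥K (Set.range x)).toSubalgebra h1 hmulS
  have hfg : (Subalgebra.toSubmodule A).FG := by
    have : Subalgebra.toSubmodule A = Submodule.span ↥K (Set.range x) := by
      ext z
      rfl
    rw [this]
    exact Submodule.fg_span (Set.finite_range x)
  have hinv : ∀ u, u ∈ Submodule.span ↥K (Set.range x) →
      u⁻¹ ∈ Submodule.span ↥K (Set.range x) := by
    intro u hu
    have hint : IsIntegral ↥K u := IsIntegral.of_mem_of_fg A hfg u hu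
    exact A.inv_mem_of_algebraic (x := ⟨u, hu⟩) hint.isAlgebraic
  intro z hz
  change z ∈ Subfield.closure (Set.range (algebraMap L E) ∪ T) at hz
  induction hz using Subfield.closure_induction with
  | mem y hy =>
    rcases hy with ⟨c, rfl⟩ | hy
    · have : algebraMap L E c = (algebraMap L ↥K c) • (1 : E) := by
        rw [Algebra.smul_def, mul_one]
        rfl
      rw [this]
      exact Submodule.smul_mem _ _ h1
    · exact hT hy
  | one => exact h1
  | add u v _ _ hu hv => exact Submodule.add_mem _ hu hv
  | neg u _ hu => exact Submodule.neg_mem _ hu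
  | inv u _ hu => exact hinv u hu
  | mul u v _ _ hu hv => exact hmulS u v hu hv

/-- (C, transport) independence over `L(t) ⊆ F` implies independence over `L(t) ⊆ E` of the images
in `E`, for an intermediate field `F` of `E / L` and `t ∈ F`. -/
theorem gb_bound_indep_coe {L E : Type*} [Field L] [Field E] [Algebra L E]
    (F : IntermediateField L E) (t : ↥F) {s : ℕ} (x : Fin s → ↥F)
    (hx : LinearIndependent ↥(IntermediateField.adjoin L {t}) x) :
    LinearIndependent ↥(IntermediateField.adjoin L {(t : E)}) (fun i => (x i : E)) := by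
  have hK : ∀ c ∈ IntermediateField.adjoin L {(t : E)},
      ∃ c' : ↥F, c' ∈ IntermediateField.adjoin L {t} ∧ (c' : E) = c := by
    intro c hc
    have h := IntermediateField.adjoin_map L {t} F.val
    rw [Set.image_singleton] at h
    have hc' : c ∈ (IntermediateField.adjoin L {t}).map F.val := by
      rw [h]
      exact hc
    obtain ⟨c', hc', rfl⟩ := hc'
    exact ⟨c', hc', rfl⟩
  rw [Fintype.linearIndependent_iff] at hx ⊢
  intro g hg i
  choose g' hg'mem hg'eq using fun i => hK (g i) (g i).2
  have h0 := hx (fun i => ⟨g' i, hg'mem i⟩) (by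
    apply Subtype.ext
    rw [IntermediateField.coe_sum, IntermediateField.coe_zero, ← hg]
    refine Finset.sum_congr rfl fun i _ => ?_
    rw [Algebra.smul_def, Algebra.smul_def, IntermediateField.coe_mul]
    congr 1
    exact hg'eq i) i
  apply Subtype.ext
  rw [← hg'eq i]
  have := congrArg (fun c : ↥(IntermediateField.adjoin L {t}) => ((c : ↥F) : E)) h0
  simpa using this

/-! ## Base change of the degree bound -/

/-- `coeffEmb L` maps `ℚ(jq)` into `L(j)`. -/
theorem gb_bound_coeffEmb_mem (L : Type) [Field L] [Algebra ℚ L] (c : LaurentSeries ℚ)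
    (hc : c ∈ IntermediateField.adjoin ℚ {jq}) :
    coeffEmb L c ∈ IntermediateField.adjoin L {jqModC L} := by
  have h : (IntermediateField.adjoin ℚ {jq}).toSubfield ≤
      (IntermediateField.adjoin L {jqModC L}).toSubfield.comap (coeffEmb L) := by
    apply IntermediateField.adjoin_le_subfield
    · rintro _ ⟨c, rfl⟩
      show coeffEmb L (algebraMap ℚ (LaurentSeries ℚ) c) ∈ IntermediateField.adjoin L {jqModC L}
      rw [algebraMap_laurentSeries_eq_single, coeffEmb, coeffMap_single,
        ← algebraMap_laurentSeries_eq_single]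
      exact IntermediateField.algebraMap_mem _ _
    · rintro _ rfl
      show coeffEmb L jq ∈ IntermediateField.adjoin L {jqModC L}
      rw [coeffEmb_jq]
      exact IntermediateField.subset_adjoin L _ rfl
  exact h hc

/-- (G0b) the degree bound over `L`. -/
theorem gb_bound_main : S28.Char0DegStatement → gb_BoundStatement := by
  intro hdeg N _ L _ _ s x' hx'
  -- (A) a maximal family over `ℚ`
  obtain ⟨s₀, x, hs₀, hxF, hspan⟩ :=
    gb_bound_maxFamily (K := ↥(IntermediateField.adjoin ℚ {jq})) (V := LaurentSeries ℚ)
      (modularFunctionFieldFull N : Set (LaurentSeries ℚ)) (dedekindPsi N)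
      (fun s x hx hli => hdeg N s x hx hli)
  -- (B) the span of its image over `L(j)` contains `F_L`
  have hstep2 : ∀ y ∈ modularFunctionFieldFull N, coeffEmb L y ∈
      Submodule.span ↥(IntermediateField.adjoin L {jqModC L})
        (Set.range (fun i => coeffEmb L (x i))) := by
    intro y hy
    obtain ⟨c, rfl⟩ := (Submodule.mem_span_range_iff_exists_fun _).mp (hspan y hy)
    rw [map_sum]
    refine Submodule.sum_mem _ fun i _ => ?_
    have : coeffEmb L (c i • x i) =
        (⟨coeffEmb L (c i : LaurentSeries ℚ), gb_bound_coeffEmb_mem L _ (c i).2⟩ :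
          ↥(IntermediateField.adjoin L {jqModC L})) • coeffEmb L (x i) := by
      rw [Algebra.smul_def, Algebra.smul_def, map_mul]
      rfl
    rw [this]
    exact Submodule.smul_mem _ _ (Submodule.subset_span ⟨i, rfl⟩)
  have hFL := gb_bound_span_field (IntermediateField.adjoin L {jqModC L})
    (fun i => coeffEmb L (x i))
    (⇑(coeffEmb L) '' (modularFunctionFieldFull N : Set (LaurentSeries ℚ)))
    (by simpa using hstep2 1 (one_mem _))
    (fun a b => by
      rw [← map_mul]
      exact hstep2 _ (mul_mem (hxF a) (hxF b)))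
    (by
      rintro _ ⟨y, hy, rfl⟩
      exact hstep2 y hy)
  -- (C) counting
  have hli := gb_bound_indep_coe (FL L N) (jF L N) x' hx'
  exact (gb_bound_card_le _ _ hli (fun i => hFL _ (x' i).2)).trans hs₀

/-- (G0) `j` is transcendental over `L` and `F_L` is finite over `L(j)`. -/
theorem gb_bound_fin : S28.Char0DegStatement → FinLStatement := by
  intro hdeg N _ L _ _
  refine ⟨?_, ?_⟩
  · rw [transcendental_iff]
    intro p hp
    apply S28.degMain_evalL_eq_zero p
    rw [S28.degMain_evalL_eq_aeval]
    have h := Polynomial.aeval_algHom_apply (FL L N).val (jF L N) p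
    rw [hp, map_zero] at h
    exact h
  · have hb := gb_bound_main hdeg N L
    have hrank : Module.rank ↥(IntermediateField.adjoin L {jF L N}) ↥(FL L N) ≤
        (dedekindPsi N : ℕ) := by
      apply rank_le
      intro t ht
      exact hb t.card (fun i => ((t.equivFin.symm i : t) : ↥(FL L N)))
        (ht.comp _ t.equivFin.symm.injective)
    exact Module.rank_lt_aleph0_iff.mp (hrank.trans_lt (Cardinal.natCast_lt_aleph0))

end

end Fermat.Agent.S18
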