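/-
S18, block G (twin B), package CH: membership in the chart `chart W N {t}` is integrality with
respect to the evaluation homomorphism `evW W N t : W[X] → F` (`gb_CHStatement`), and an element
integral over `W[j, j⁻¹]` becomes integral over `W[j]` after multiplication by a power of `j`
(`gb_PowMulStatement`).
-/
import Fermat.Agent.S18.GBInterfaces

set_option autoImplicit false

open ModularCurve AlgebraicCurve

namespace Fermat.Agent.S18

noncomputable section

section

variable {L : Type} [Field L] [Algebra ℚ L] (W : ValuationSubring L) (N : ℕ)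

/-- `W[t]` is the range of `P ↦ P(t)`. -/
theorem gb_ch_mem_baseRing_iff (t y : ↥(FL L N)) :
    y ∈ baseRing W N {t} ↔ ∃ P : Polynomial ↥W, evW W N t P = y := by
  constructor
  · intro hy
    have hle : baseRing W N {t} ≤ (evW W N t).range := by
      rw [baseRing, Subring.closure_le]
      rintro x (⟨w, rfl⟩ | hx)
      · exact ⟨Polynomial.C w, by rw [evW, Polynomial.coe_eval₂RingHom, Polynomial.eval₂_C]⟩
      · rw [Set.mem_singleton_iff] at hx
        subst hx
        exact ⟨Polynomial.X, by rw [evW, Polynomial.coe_eval₂RingHom, Polynomial.eval₂_X]⟩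
    exact hle hy
  · rintro ⟨P, rfl⟩
    have hc : ∀ w : ↥W, cW W N w ∈ baseRing W N {t} := fun w =>
      Subring.subset_closure (Or.inl ⟨w, rfl⟩)
    have ht : t ∈ baseRing W N {t} := Subring.subset_closure (Or.inr rfl)
    rw [evW, Polynomial.coe_eval₂RingHom, Polynomial.eval₂_eq_sum_range]
    exact Subring.sum_mem _ (fun i _ => mul_mem (hc _) (pow_mem ht i))

/-- The corestriction of `evW W N t` to `W[t]`. -/
def gb_ch_pi (t : ↥(FL L N)) : Polynomial ↥W →+* ↥(baseRing W N {t}) :=
  RingHom.codRestrict (evW W N t) (baseRing W N {t})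
    (fun P => (gb_ch_mem_baseRing_iff W N t _).mpr ⟨P, rfl⟩)

theorem gb_ch_pi_surj (t : ↥(FL L N)) : Function.Surjective (gb_ch_pi W N t) := by
  rintro ⟨a, ha⟩
  obtain ⟨P, hP⟩ := (gb_ch_mem_baseRing_iff W N t a).mp ha
  exact ⟨P, Subtype.ext hP⟩

theorem gb_ch_comp (t : ↥(FL L N)) :
    (baseRing W N {t}).subtype.comp (gb_ch_pi W N t) = evW W N t :=
  RingHom.ext fun _ => rfl

/-- integrality over `W[t]` is integrality with respect to `evW W N t`. -/
theorem gb_ch_isIntegral_iff (t x : ↥(FL L N)) :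
    IsIntegral ↥(baseRing W N {t}) x ↔ (evW W N t).IsIntegralElem x := by
  constructor
  · rintro ⟨p, hp, hpx⟩
    have hlift : p ∈ Polynomial.lifts (gb_ch_pi W N t) := by
      rw [Polynomial.lifts_iff_coeff_lifts]
      intro n
      exact gb_ch_pi_surj W N t _
    obtain ⟨P, hPp, -, hPm⟩ := Polynomial.lifts_and_natDegree_eq_and_monic hlift hp
    refine ⟨P, hPm, ?_⟩
    rw [← gb_ch_comp, ← Polynomial.eval₂_map, hPp]
    exact hpx
  · rintro ⟨P, hPm, hPx⟩
    refine ⟨P.map (gb_ch_pi W N t), hPm.map _, ?_⟩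
    have h : Polynomial.eval₂ (baseRing W N {t}).subtype x (P.map (gb_ch_pi W N t)) = 0 := by
      rw [Polynomial.eval₂_map, gb_ch_comp]
      exact hPx
    exact h

end

/-- Package CH, first part: membership in `chart W N {t}` is integrality with respect to
`evW W N t`. -/
theorem gb_ch_ch : gb_CHStatement := by
  intro N _ L _ _ W t x
  rw [mem_chart_iff]
  exact gb_ch_isIntegral_iff W N t x

/-! ## Powers of `s` clear the denominators `s⁻¹` -/

section

variable {L : Type} [Field L] [Algebra ℚ L] (W : ValuationSubring L) (N : ℕ)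

/-- If `y ∈ W[s, s⁻¹]` then `s ^ n * y ∈ W[s]` for some `n`. -/
theorem gb_ch_pow_mul_mem_baseRing {s : ↥(FL L N)} (hs0 : s ≠ 0) {y : ↥(FL L N)}
    (hy : y ∈ baseRing W N {s, s⁻¹}) : ∃ n : ℕ, s ^ n * y ∈ baseRing W N {s} := by
  have hsB : s ∈ baseRing W N {s} := Subring.subset_closure (Or.inr rfl)
  have hcB : ∀ w : ↥W, cW W N w ∈ baseRing W N {s} := fun w =>
    Subring.subset_closure (Or.inl ⟨w, rfl⟩)
  rw [baseRing] at hy
  induction hy using Subring.closure_induction with
  | mem y hy =>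
    rcases hy with ⟨w, rfl⟩ | rfl | hy
    · exact ⟨0, by rw [pow_zero, one_mul]; exact hcB w⟩
    · exact ⟨0, by rw [pow_zero, one_mul]; exact hsB⟩
    · rw [Set.mem_singleton_iff] at hy
      subst hy
      exact ⟨1, by rw [pow_one, mul_inv_cancel₀ hs0]; exact one_mem _⟩
  | zero => exact ⟨0, by rw [mul_zero]; exact zero_mem _⟩
  | one => exact ⟨0, by rw [pow_zero, one_mul]; exact one_mem _⟩
  | add y z _ _ hy hz =>
    obtain ⟨m, hm⟩ := hy
    obtain ⟨n, hn⟩ := hz
    refine ⟨m + n, ?_⟩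
    have : s ^ (m + n) * (y + z) = s ^ n * (s ^ m * y) + s ^ m * (s ^ n * z) := by ring
    rw [this]
    exact add_mem (mul_mem (pow_mem hsB n) hm) (mul_mem (pow_mem hsB m) hn)
  | neg y _ hy =>
    obtain ⟨m, hm⟩ := hy
    exact ⟨m, by rw [mul_neg]; exact neg_mem hm⟩
  | mul y z _ _ hy hz =>
    obtain ⟨m, hm⟩ := hy
    obtain ⟨n, hn⟩ := hz
    refine ⟨m + n, ?_⟩
    have : s ^ (m + n) * (y * z) = (s ^ m * y) * (s ^ n * z) := by ring
    rw [this]
    exact mul_mem hm hn

/-- If `x` is integral over `W[s, s⁻¹]` then `s ^ n * x` is integral over `W[s]` for some `n`. -/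
theorem gb_ch_pow_mul_mem_chart {s : ↥(FL L N)} (hs0 : s ≠ 0) {x : ↥(FL L N)}
    (hx : x ∈ chart W N {s, s⁻¹}) : ∃ n : ℕ, s ^ n * x ∈ chart W N {s} := by
  classical
  obtain ⟨p, hmonic, hroot⟩ := (mem_chart_iff W N _ x).mp hx
  have hsB : s ∈ baseRing W N {s} := Subring.subset_closure (Or.inr rfl)
  have hcoeff : ∀ i, ∃ n : ℕ, s ^ n * (p.coeff i : ↥(FL L N)) ∈ baseRing W N {s} :=
    fun i => gb_ch_pow_mul_mem_baseRing W N hs0 (p.coeff i).2
  choose n hn using hcoeff
  set M : ℕ := ∑ i ∈ Finset.range (p.natDegree + 1), n i with hM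
  have hnM : ∀ i ≤ p.natDegree, n i ≤ M := fun i hi =>
    Finset.single_le_sum (f := n) (fun _ _ => Nat.zero_le _)
      (Finset.mem_range.mpr (Nat.lt_succ_of_le hi))
  set q : Polynomial ↥(FL L N) :=
    (p.map (baseRing W N {s, s⁻¹}).subtype).scaleRoots (s ^ M) with hq
  have hqmonic : q.Monic := (Polynomial.monic_scaleRoots_iff _).mpr (hmonic.map _)
  have hqroot : q.eval (s ^ M * x) = 0 := by
    rw [hq, Polynomial.scaleRoots_eval_mul, Polynomial.eval_map]
    have h0 : Polynomial.eval₂ (baseRing W N {s, s⁻¹}).subtype x p = 0 := hroot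
    rw [h0, mul_zero]
  have hqcoeff : ∀ i, q.coeff i ∈ baseRing W N {s} := by
    intro i
    rw [hq, Polynomial.coeff_scaleRoots, Polynomial.coeff_map, hmonic.natDegree_map]
    by_cases hi : i < p.natDegree
    · have hle : n i ≤ M * (p.natDegree - i) := by
        calc n i ≤ M := hnM i hi.le
          _ = M * 1 := (mul_one M).symm
          _ ≤ M * (p.natDegree - i) :=
            Nat.mul_le_mul_left M (Nat.one_le_iff_ne_zero.mpr (by omega))
      obtain ⟨k, hk⟩ := Nat.exists_eq_add_of_le hle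
      have h1 : (s ^ M) ^ (p.natDegree - i) = s ^ k * s ^ n i := by
        rw [← pow_mul, hk, pow_add, mul_comm]
      rw [h1, Subring.subtype_apply,
        show (p.coeff i : ↥(FL L N)) * (s ^ k * s ^ n i) =
          s ^ k * (s ^ n i * (p.coeff i : ↥(FL L N))) by ring]
      exact mul_mem (pow_mem hsB k) (hn i)
    · rcases (not_lt.mp hi).lt_or_eq with hlt | heq
      · rw [Polynomial.coeff_eq_zero_of_natDegree_lt hlt, map_zero, zero_mul]
        exact zero_mem _
      · rw [← heq, hmonic.coeff_natDegree, map_one, one_mul, Nat.sub_self, pow_zero]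
        exact one_mem _
  have hlifts : q ∈ Polynomial.lifts (baseRing W N {s}).subtype :=
    (Polynomial.lifts_iff_coeff_lifts q).mpr fun i => ⟨⟨q.coeff i, hqcoeff i⟩, rfl⟩
  obtain ⟨q', hq'q, -, hq'monic⟩ := Polynomial.lifts_and_natDegree_eq_and_monic hlifts hqmonic
  refine ⟨M, (mem_chart_iff W N _ _).mpr ⟨q', hq'monic, ?_⟩⟩
  have h2 : Polynomial.eval₂ (baseRing W N {s}).subtype (s ^ M * x) q' = 0 := by
    rw [Polynomial.eval₂_eq_eval_map, hq'q, hqroot]
  exact h2

end

theorem gb_ch_jF_ne_zero (L : Type) [Field L] [Algebra ℚ L] (N : ℕ) [NeZero N] : jF L N ≠ 0 := by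
  intro h
  have h1 : jqModC L = 0 := by
    have h2 := congrArg Subtype.val h
    rw [← coe_jF L N]
    exact h2
  exact jqModC_ne_zero_of_nontrivial L h1

/-- Package CH, second part: if `x` is integral over `W[j, j⁻¹]` then `j ^ n * x` is integral over
`W[j]` for some `n`. -/
theorem gb_ch_powmul : gb_PowMulStatement := by
  intro N _ L _ _ W x hx
  exact gb_ch_pow_mul_mem_chart W N (gb_ch_jF_ne_zero L N) hx

/-- Package CH. -/
theorem gb_ch_main : gb_CHStatement ∧ gb_PowMulStatement := ⟨gb_ch_ch, gb_ch_powmul⟩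

end

end Fermat.Agent.S18
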