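/-
S18, block G (twin B): assembly of `ChartGaussStatement` from the packages K6, CH, PowMul.
-/
import Fermat.Agent.S18.GBInterfaces

set_option autoImplicit false

open ModularCurve AlgebraicCurve

namespace Fermat.Agent.S18

noncomputable section

section

variable {L : Type} [Field L] [Algebra ℚ L] (W : ValuationSubring L) {k : Type} [Field k]
  (res : ↥W →+* k) (N : ℕ) [NeZero N]

theorem gb_chart_jF_ne_zero : jF L N ≠ 0 := by
  intro h
  have h1 : jqModC L = 0 := by
    have := congrArg Subtype.val h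
    simpa using this
  exact jqModC_ne_zero_of_nontrivial L h1

theorem gb_chart_cW_mem (w : ↥W) : cW W N w ∈ gaussO W res N := by
  refine Subring.subset_closure ⟨Polynomial.C w, 1, ?_, ?_⟩
  · rw [Polynomial.map_one]; exact one_ne_zero
  · rw [map_one, one_mul, evW, Polynomial.coe_eval₂RingHom, Polynomial.eval₂_C]

theorem gb_chart_j_mem : jF L N ∈ gaussO W res N := by
  refine Subring.subset_closure ⟨Polynomial.X, 1, ?_, ?_⟩
  · rw [Polynomial.map_one]; exact one_ne_zero
  · rw [map_one, one_mul, evW, Polynomial.coe_eval₂RingHom, Polynomial.eval₂_X]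

theorem gb_chart_jinv_mem : (jF L N)⁻¹ ∈ gaussO W res N := by
  refine Subring.subset_closure ⟨1, Polynomial.X, ?_, ?_⟩
  · rw [Polynomial.map_X]; exact Polynomial.X_ne_zero
  · rw [map_one, evW, Polynomial.coe_eval₂RingHom, Polynomial.eval₂_X,
      mul_inv_cancel₀ (gb_chart_jF_ne_zero N)]

theorem gb_chart_baseRing_le (S : Set ↥(FL L N))
    (hS : S ⊆ {jF L N, (jF L N)⁻¹}) : baseRing W N S ≤ gaussO W res N := by
  rw [baseRing, Subring.closure_le]
  rintro x (⟨w, rfl⟩ | hx)
  · exact gb_chart_cW_mem W res N w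
  · rcases hS hx with rfl | rfl
    · exact gb_chart_j_mem W res N
    · exact gb_chart_jinv_mem W res N

/-- integrality over a subring passes to a larger subring. -/
theorem gb_chart_isIntegral_mono {E : Type*} [Field E] {A B : Subring E} (h : A ≤ B) {x : E}
    (hx : IsIntegral ↥A x) : IsIntegral ↥B x := by
  obtain ⟨p, hp, hpx⟩ := hx
  refine ⟨p.map (Subring.inclusion h), hp.map _, ?_⟩
  rw [Polynomial.eval₂_map]
  exact hpx

theorem gb_chart_le (S : Set ↥(FL L N)) (hS : S ⊆ {jF L N, (jF L N)⁻¹}) :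
    chart W N S ≤ gaussV W res N := by
  intro x hx
  rw [mem_chart_iff] at hx
  rw [mem_gaussV_iff]
  exact gb_chart_isIntegral_mono (gb_chart_baseRing_le W res N S hS) hx

omit [NeZero N] in
theorem gb_chart_mono {S S' : Set ↥(FL L N)} (h : S ⊆ S') : chart W N S ≤ chart W N S' := by
  intro x hx
  rw [mem_chart_iff] at hx ⊢
  refine gb_chart_isIntegral_mono ?_ hx
  rw [baseRing, baseRing]
  exact Subring.closure_mono (Set.union_subset_union_right _ h)

omit [NeZero N] in
theorem gb_chart_subset (S : Set ↥(FL L N)) : S ⊆ (chart W N S : Set ↥(FL L N)) := by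
  intro x hx
  have hx' : x ∈ baseRing W N S := Subring.subset_closure (Or.inr hx)
  refine (mem_chart_iff W N S x).mpr ⟨Polynomial.X - Polynomial.C ⟨x, hx'⟩,
    Polynomial.monic_X_sub_C _, ?_⟩
  rw [Polynomial.eval₂_sub, Polynomial.eval₂_X, Polynomial.eval₂_C]
  exact sub_self x

end

/-- The single-generator case. -/
theorem gb_chart_single (hK6 : gb_K6Statement) (hCH : gb_CHStatement)
    (N : ℕ) [NeZero N] (ℓ : ℕ) [Fact ℓ.Prime] (L : Type) [Field L] [Algebra ℚ L]
    (W : ValuationSubring L) [IsDiscreteValuationRing ↥W] (k : Type) [Field k] [IsAlgClosed k]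
    [CharP k ℓ] (res : ↥W →+* k) (ϖ : ↥W) (hD : BaseData N ℓ W res ϖ)
    (t : ↥(FL L N)) (ht : t = jF L N ∨ t = (jF L N)⁻¹) (x : ↥(FL L N))
    (hx : x ∈ chart W N {t}) (hV : (cW W N ϖ)⁻¹ * x ∈ gaussV W res N) :
    (cW W N ϖ)⁻¹ * x ∈ chart W N {t} := by
  have hϖ : cW W N ϖ ≠ 0 := by
    intro h
    have h1 : (ϖ : L) = 0 := (algebraMap L ↥(FL L N)).injective (by rw [map_zero]; exact h)
    exact hD.irreducible.ne_zero (Subtype.ext h1)
  rw [hCH N L W t] at hx ⊢
  refine hK6 N ℓ L W k res ϖ hD t ht _ ?_ ((mem_gaussV_iff W res N _).mp hV)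
  rw [mul_inv_cancel_left₀ hϖ]
  exact hx

/-- Assembly of the chart statement. -/
theorem gb_chart_main (hK6 : gb_K6Statement) (hCH : gb_CHStatement) (hPM : gb_PowMulStatement) :
    ChartGaussStatement := by
  intro N _ ℓ _ L _ _ W _ k _ _ _ res ϖ hD S hS
  have hj0 : jF L N ≠ 0 := gb_chart_jF_ne_zero N
  rcases hS with rfl | rfl | rfl
  · refine ⟨gb_chart_le W res N _ (by simp), fun x hx hV => ?_⟩
    exact gb_chart_single hK6 hCH N ℓ L W k res ϖ hD _ (Or.inl rfl) x hx hV
  · refine ⟨gb_chart_le W res N _ (by simp), fun x hx hV => ?_⟩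
    exact gb_chart_single hK6 hCH N ℓ L W k res ϖ hD _ (Or.inr rfl) x hx hV
  · refine ⟨gb_chart_le W res N _ (le_refl _), fun x hx hV => ?_⟩
    obtain ⟨n, hn⟩ := hPM N L W x hx
    have hjV : jF L N ^ n ∈ gaussV W res N :=
      pow_mem (gb_chart_le W res N {jF L N} (by simp) (gb_chart_subset W N _ rfl)) n
    have hV' : (cW W N ϖ)⁻¹ * (jF L N ^ n * x) ∈ gaussV W res N := by
      have := mul_mem hjV hV
      rwa [mul_left_comm] at this
    have h1 := gb_chart_single hK6 hCH N ℓ L W k res ϖ hD _ (Or.inl rfl) _ hn hV'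
    have h2 : (cW W N ϖ)⁻¹ * (jF L N ^ n * x) ∈ chart W N {jF L N, (jF L N)⁻¹} :=
      gb_chart_mono W N (by simp) h1
    have h3 : (jF L N)⁻¹ ^ n ∈ chart W N {jF L N, (jF L N)⁻¹} :=
      pow_mem (gb_chart_subset W N _ (by simp)) n
    have h4 := mul_mem h3 h2
    have h5 : (jF L N)⁻¹ ^ n * ((cW W N ϖ)⁻¹ * (jF L N ^ n * x)) = (cW W N ϖ)⁻¹ * x := by
      rw [mul_left_comm, ← mul_assoc ((jF L N)⁻¹ ^ n), ← mul_pow, inv_mul_cancel₀ hj0, one_pow,
        one_mul]
    rw [h5] at h4
    exact h4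

end

end Fermat.Agent.S18
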