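/-
S18, block G (twin B), package Fin (G0): `j` is transcendental over `L` and `F_L` is finite over
`L(j)`.

Deliverable: `gb_finl_main : S28.Char0DegStatement → FinLStatement`.

Sketch.  (a) `p(j) = 0` in `F ⊆ L((q))` forces `p = 0` by looking at the lowest coefficient
(`S28.degMain_evalL_eq_zero`).  (b) `F_L = L(j(q^d) : d ∣ N)` (`gb_finl_FL_eq`), a field generated
over `L` by finitely many series, each of which is algebraic over `L(j)` by the integral relation
`G(j, j(q^d)) = 0` (`S28.degMain_exists_rel`, a consequence of the degree bound over `ℚ`)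
transported along `ℤ → L`.
-/
import Fermat.Agent.S18.GBInterfaces
import Fermat.Agent.S28.DegMain

set_option autoImplicit false

open ModularCurve AlgebraicCurve

namespace Fermat.Agent.S18

noncomputable section

/-- (a) `j` is transcendental over `L`. -/
theorem gb_finl_transc (N : ℕ) [NeZero N] (L : Type) [Field L] [Algebra ℚ L] :
    Transcendental L (jF L N) := by
  rintro ⟨p, hp, h⟩
  apply hp
  apply S28.degMain_evalL_eq_zero p
  rw [S28.degMain_evalL_eq_aeval]
  have h1 := congrArg (FL L N).val h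
  rw [← Polynomial.aeval_algHom_apply, map_zero] at h1
  exact h1

/-- `coeffEmb L` maps constants to constants. -/
theorem gb_finl_coeffEmb_algebraMap (L : Type) [Field L] [Algebra ℚ L] (c : ℚ) :
    coeffEmb L (algebraMap ℚ (LaurentSeries ℚ) c) =
      algebraMap L (LaurentSeries L) (algebraMap ℚ L c) := by
  rw [algebraMap_laurentSeries_eq_single, algebraMap_laurentSeries_eq_single, coeffEmb,
    coeffMap_single]

/-- `coeffEmb L (j(q^d)) = j(q^d)`. -/
theorem gb_finl_coeffEmb_qExpand (L : Type) [Field L] [Algebra ℚ L] (d : ℕ) [NeZero d] :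
    coeffEmb L (qExpand ℚ d jq) = qExpand L d (jqModC L) := by
  rw [coeffEmb, coeffMap_qExpand, ← jqModC_rat, coeffMap_jqModC]

/-- `coeffEmb L` maps `ℚ(j(q^d) : d ∣ N)` into `L(j(q^d) : d ∣ N)`. -/
theorem gb_finl_coeffEmb_mem (N : ℕ) (L : Type) [Field L] [Algebra ℚ L]
    (x : LaurentSeries ℚ) (hx : x ∈ IntermediateField.adjoin ℚ (divisorExpansions N)) :
    coeffEmb L x ∈ modularFunctionFieldFullC L N := by
  induction hx using IntermediateField.adjoin_induction with
  | mem y hy =>
    obtain ⟨d, hd0, hd, rfl⟩ := hy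
    have := hd0
    rw [gb_finl_coeffEmb_qExpand]
    exact jqModCd_mem_full L N hd
  | algebraMap c =>
    rw [gb_finl_coeffEmb_algebraMap]
    exact (modularFunctionFieldFullC L N).algebraMap_mem _
  | add y z _ _ hy hz => rw [map_add]; exact add_mem hy hz
  | inv y _ hy => rw [map_inv₀]; exact inv_mem hy
  | mul y z _ _ hy hz => rw [map_mul]; exact mul_mem hy hz

/-- Step 1: `F_L = L(j(q^d) : d ∣ N)`. -/
theorem gb_finl_FL_eq (N : ℕ) (L : Type) [Field L] [Algebra ℚ L] :
    FL L N = modularFunctionFieldFullC L N := by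
  apply le_antisymm
  · rw [FL, laurentBaseChange, IntermediateField.adjoin_le_iff]
    rintro _ ⟨x, hx, rfl⟩
    exact gb_finl_coeffEmb_mem N L x hx
  · rw [modularFunctionFieldFullC, IntermediateField.adjoin_le_iff]
    rintro _ ⟨d, hd0, hd, rfl⟩
    have := hd0
    rw [← gb_finl_coeffEmb_qExpand]
    exact coeffEmb_mem_laurentBaseChange L (jqd_mem_full N hd)

/-- the generating set `{j(q^d) : d ∣ N}` is finite. -/
theorem gb_finl_finite (L : Type) [Field L] (N : ℕ) [NeZero N] :
    (divisorExpansionsC L N).Finite := by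
  classical
  refine (N.divisors.finite_toSet.image
    (fun d => if h : d = 0 then 0 else @qExpand L _ d ⟨h⟩ (jqModC L))).subset ?_
  rintro _ ⟨d, hd0, hd, rfl⟩
  refine ⟨d, Finset.mem_coe.mpr (Nat.mem_divisors.mpr ⟨hd, NeZero.ne N⟩), ?_⟩
  exact dif_neg hd0.out

/-- `j` as an element of `L(j) ⊆ F`. -/
def gb_finl_jK (N : ℕ) [NeZero N] (L : Type) [Field L] [Algebra ℚ L] :
    ↥(IntermediateField.adjoin L {jF L N}) :=
  ⟨jF L N, IntermediateField.mem_adjoin_simple_self L (jF L N)⟩

/-- `ℤ[T] → L(j)`, `T ↦ j`. -/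
def gb_finl_theta (N : ℕ) [NeZero N] (L : Type) [Field L] [Algebra ℚ L] :
    Polynomial ℤ →+* ↥(IntermediateField.adjoin L {jF L N}) :=
  Polynomial.eval₂RingHom (Int.castRingHom _) (gb_finl_jK N L)

/-- the composite `ℤ[T] → L(j) → F → L((q))` is `p ↦ p(j)`, computed over `ℤ`. -/
theorem gb_finl_theta_coe (N : ℕ) [NeZero N] (L : Type) [Field L] [Algebra ℚ L] :
    ((FL L N).val : ↥(FL L N) →+* LaurentSeries L).comp
      ((algebraMap ↥(IntermediateField.adjoin L {jF L N}) ↥(FL L N)).comp (gb_finl_theta N L)) =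
      (coeffMap (Int.castRingHom L)).comp (S28.evalL (jqModC ℤ)) := by
  refine Polynomial.ringHom_ext' (Subsingleton.elim _ _) ?_
  show ((algebraMap ↥(IntermediateField.adjoin L {jF L N}) ↥(FL L N)
      (Polynomial.eval₂ (Int.castRingHom _) (gb_finl_jK N L) Polynomial.X) : ↥(FL L N)) :
        LaurentSeries L) =
    coeffMap (Int.castRingHom L) (Polynomial.eval₂ HahnSeries.C (jqModC ℤ) Polynomial.X)
  rw [Polynomial.eval₂_X, Polynomial.eval₂_X, coeffMap_jqModC]
  rfl

theorem gb_finl_theta_injective (N : ℕ) [NeZero N] (L : Type) [Field L] [Algebra ℚ L] :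
    Function.Injective (gb_finl_theta N L) := by
  have : CharZero L := algebraRat.charZero L
  rw [injective_iff_map_eq_zero]
  intro p hp
  have h1 := congrArg (fun f : Polynomial ℤ →+* LaurentSeries L => f p) (gb_finl_theta_coe N L)
  simp only [RingHom.comp_apply] at h1
  rw [hp, map_zero, map_zero] at h1
  apply S28.degMain_evalL_eq_zero p
  apply S28.degMain_coeffMap_injective (Int.castRingHom L) Int.cast_injective
  rw [map_zero]
  exact h1.symm

/-- Step 2: each `j(q^d)`, `d ∣ N`, is integral over `L(j)`. -/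
theorem gb_finl_isIntegral (h0 : S28.Char0DegStatement) (N : ℕ) [NeZero N] (L : Type) [Field L]
    [Algebra ℚ L] (x : ↥(FL L N)) (hx : (x : LaurentSeries L) ∈ divisorExpansionsC L N) :
    IsIntegral ↥(IntermediateField.adjoin L {jF L N}) x := by
  obtain ⟨d, hd0, hd, hxd⟩ := hx
  have := hd0
  obtain ⟨G, hG, hΨ⟩ := S28.degMain_exists_rel h0 N d hd
  apply IsAlgebraic.isIntegral
  refine ⟨G.map (gb_finl_theta N L), ?_, ?_⟩
  · rwa [Polynomial.map_ne_zero_iff (gb_finl_theta_injective N L)]
  · apply Subtype.val_injective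
    show ((FL L N).val : ↥(FL L N) →+* LaurentSeries L)
      (Polynomial.aeval x (G.map (gb_finl_theta N L))) = 0
    have hx' : ((FL L N).val : ↥(FL L N) →+* LaurentSeries L) x =
        coeffMap (Int.castRingHom L) (qExpand ℤ d (jqModC ℤ)) := by
      rw [coeffMap_qExpand, coeffMap_jqModC]
      exact hxd
    have h2 : Polynomial.eval₂ (S28.evalL (jqModC ℤ)) (qExpand ℤ d (jqModC ℤ)) G = 0 := hΨ
    rw [Polynomial.aeval_def, Polynomial.eval₂_map, Polynomial.hom_eval₂, gb_finl_theta_coe, hx',
      ← Polynomial.hom_eval₂, h2, map_zero]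

/-- (b) `F_L` is finite over `L(j)`. -/
theorem gb_finl_finiteDimensional (h0 : S28.Char0DegStatement) (N : ℕ) [NeZero N] (L : Type)
    [Field L] [Algebra ℚ L] :
    FiniteDimensional ↥(IntermediateField.adjoin L {jF L N}) ↥(FL L N) := by
  let S : Set ↥(FL L N) := {x | (x : LaurentSeries L) ∈ divisorExpansionsC L N}
  have hSfin : S.Finite := (gb_finl_finite L N).preimage Subtype.val_injective.injOn
  have : Finite S := hSfin.to_subtype
  have hfd : FiniteDimensional ↥(IntermediateField.adjoin L {jF L N})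
      ↥(IntermediateField.adjoin ↥(IntermediateField.adjoin L {jF L N}) S) :=
    IntermediateField.finiteDimensional_adjoin (fun x hx => gb_finl_isIntegral h0 N L x hx)
  have himg : (Subtype.val '' S : Set (LaurentSeries L)) = divisorExpansionsC L N := by
    ext y
    constructor
    · rintro ⟨x, hx, rfl⟩
      exact hx
    · intro hy
      have hyF : y ∈ FL L N := by
        rw [gb_finl_FL_eq]
        exact IntermediateField.subset_adjoin L _ hy
      exact ⟨⟨y, hyF⟩, hy, rfl⟩
  have htopL : IntermediateField.adjoin L S = ⊤ := by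
    apply IntermediateField.lift_injective (FL L N)
    rw [IntermediateField.lift_top, IntermediateField.lift_adjoin, himg]
    exact (gb_finl_FL_eq N L).symm
  have htop : IntermediateField.adjoin ↥(IntermediateField.adjoin L {jF L N}) S = ⊤ :=
    IntermediateField.adjoin_eq_top_of_adjoin_eq_top (F := L) htopL
  rw [htop] at hfd
  exact Module.Finite.equiv
    (IntermediateField.topEquiv (F := ↥(IntermediateField.adjoin L {jF L N}))
      (E := ↥(FL L N))).toLinearEquiv

/-- (G0) `j` is transcendental over `L` and `F_L` is finite over `L(j)`. -/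
theorem gb_finl_main : S28.Char0DegStatement → FinLStatement := by
  intro h0 N _ L _ _
  exact ⟨gb_finl_transc N L, gb_finl_finiteDimensional h0 N L⟩

end

end Fermat.Agent.S18
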