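/-
S18, block G (twin B): the hypothesis-free finiteness statement `gb_fin : FinLStatement`
(`j` is transcendental over `L` and `F_L` is finite over `L(j)`), from the package `GBFin` and the
S28 degree bound `S28.c_char0Deg`.
-/
import Fermat.Agent.S18.GBFin
import Fermat.Agent.S28.CMain

set_option autoImplicit false

namespace Fermat.Agent.S18

/-- (G0) `j` is transcendental over `L` and `F_L` is finite over `L(j)`. -/
theorem gb_fin : FinLStatement := gb_finl_main S28.c_char0Deg

end Fermat.Agent.S18
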