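/-
S18, block G (twin B), package G14 (G6): `V = M'` (`gaussV W res N = gb_M W res N` as sets) and
parts 1–4 of `GaussStatement`, from `M' ⊆ V` (MV) and the valuation property of `M'` (Val).
-/
import Fermat.Agent.S18.GBInterfaces
import Fermat.Agent.S28.DegMainAux

set_option autoImplicit false

open ModularCurve AlgebraicCurve

namespace Fermat.Agent.S18

noncomputable section

section

variable {L : Type} [Field L] [Algebra ℚ L] (W : ValuationSubring L) {k : Type} [Field k]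
  (res : ↥W →+* k) (N : ℕ) [NeZero N]

/-- An element of `F` whose series has all its coefficients in `W` lies in `M'`. -/
theorem gb_g14_mem_of_coe (u : ↥(FL L N)) (y : LaurentSeries ↥W)
    (h : ((u : ↥(FL L N)) : LaurentSeries L) = coeffMap W.subtype y) : u ∈ gb_M W res N := by
  refine ⟨1, y, ?_, ?_⟩
  · rw [Polynomial.map_one]; exact one_ne_zero
  · rw [map_one, one_mul, h]

theorem gb_g14_zero_mem : (0 : ↥(FL L N)) ∈ gb_M W res N :=
  gb_g14_mem_of_coe W res N 0 0 (by rw [map_zero]; rfl)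

theorem gb_g14_one_mem : (1 : ↥(FL L N)) ∈ gb_M W res N :=
  gb_g14_mem_of_coe W res N 1 1 (by rw [map_one]; rfl)

theorem gb_g14_mul_mem {x₁ x₂ : ↥(FL L N)} (h₁ : x₁ ∈ gb_M W res N)
    (h₂ : x₂ ∈ gb_M W res N) : x₁ * x₂ ∈ gb_M W res N := by
  obtain ⟨g₁, y₁, hg₁, hy₁⟩ := h₁
  obtain ⟨g₂, y₂, hg₂, hy₂⟩ := h₂
  refine ⟨g₁ * g₂, y₁ * y₂, ?_, ?_⟩
  · rw [Polynomial.map_mul]; exact mul_ne_zero hg₁ hg₂
  · rw [map_mul, mul_mul_mul_comm, IntermediateField.coe_mul, hy₁, hy₂, map_mul]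

theorem gb_g14_add_mem (hE : gb_EvCoeStatement) {x₁ x₂ : ↥(FL L N)}
    (h₁ : x₁ ∈ gb_M W res N) (h₂ : x₂ ∈ gb_M W res N) : x₁ + x₂ ∈ gb_M W res N := by
  obtain ⟨g₁, y₁, hg₁, hy₁⟩ := h₁
  obtain ⟨g₂, y₂, hg₂, hy₂⟩ := h₂
  refine ⟨g₁ * g₂, S28.evalL (jqModC ↥W) g₂ * y₁ + S28.evalL (jqModC ↥W) g₁ * y₂, ?_, ?_⟩
  · rw [Polynomial.map_mul]; exact mul_ne_zero hg₁ hg₂
  · have h : evW W N (jF L N) (g₁ * g₂) * (x₁ + x₂) =
        evW W N (jF L N) g₂ * (evW W N (jF L N) g₁ * x₁) +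
          evW W N (jF L N) g₁ * (evW W N (jF L N) g₂ * x₂) := by
      rw [map_mul]; ring
    rw [h, IntermediateField.coe_add,
      IntermediateField.coe_mul _ (evW W N (jF L N) g₂) (evW W N (jF L N) g₁ * x₁),
      IntermediateField.coe_mul _ (evW W N (jF L N) g₁) (evW W N (jF L N) g₂ * x₂),
      hy₁, hy₂, hE N L W g₁, hE N L W g₂, map_add, map_mul, map_mul]

theorem gb_g14_neg_mem {x : ↥(FL L N)} (h : x ∈ gb_M W res N) : -x ∈ gb_M W res N := by
  obtain ⟨g, y, hg, hy⟩ := h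
  refine ⟨g, -y, hg, ?_⟩
  rw [mul_neg, IntermediateField.coe_neg, hy, map_neg]

omit [NeZero N] in
/-- The constant `w ∈ W` is the value at `j` of the constant polynomial `w`. -/
theorem gb_g14_cW_eq_ev (t : ↥(FL L N)) (w : ↥W) :
    cW W N w = evW W N t (Polynomial.C w) := by
  rw [evW, Polynomial.coe_eval₂RingHom, Polynomial.eval₂_C]

/-- The constants of `W` lie in `M'`. -/
theorem gb_g14_cW_mem (hE : gb_EvCoeStatement) (w : ↥W) : cW W N w ∈ gb_M W res N := by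
  refine gb_g14_mem_of_coe W res N _ (S28.evalL (jqModC ↥W) (Polynomial.C w)) ?_
  rw [gb_g14_cW_eq_ev W N (jF L N) w, hE N L W (Polynomial.C w)]

/-- `gaussSet ⊆ M'`. -/
theorem gb_g14_gaussSet_sub (hE : gb_EvCoeStatement) {c : ↥(FL L N)}
    (hc : c ∈ gaussSet W res N) : c ∈ gb_M W res N := by
  obtain ⟨f, g, hg, h⟩ := hc
  exact ⟨g, S28.evalL (jqModC ↥W) f, hg, by rw [h, hE N L W f]⟩

/-- `M'` as a subring of `F`. -/
def gb_g14_Msub (hE : gb_EvCoeStatement) : Subring ↥(FL L N) where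
  carrier := gb_M W res N
  mul_mem' := fun h₁ h₂ => gb_g14_mul_mem W res N h₁ h₂
  one_mem' := gb_g14_one_mem W res N
  add_mem' := fun h₁ h₂ => gb_g14_add_mem W res N hE h₁ h₂
  zero_mem' := gb_g14_zero_mem W res N
  neg_mem' := fun h => gb_g14_neg_mem W res N h

/-- (2) Integrality transport: an element integral over `O₀` lies in every valuation ring of
`F` containing `O₀`. -/
theorem gb_g14_integral_mem (V' : ValuationSubring ↥(FL L N))
    (hle : gaussO W res N ≤ V'.toSubring) (x : ↥(FL L N))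
    (hx : IsIntegral ↥(gaussO W res N) x) : x ∈ V' := by
  obtain ⟨p, hp, hpx⟩ := hx
  have hc' : IsIntegral ↥V' x := by
    refine ⟨p.map (Subring.inclusion hle), hp.map _, ?_⟩
    rw [Polynomial.eval₂_map]
    exact hpx
  obtain ⟨y, hy⟩ := IsIntegrallyClosed.isIntegral_iff.mp hc'
  rw [← hy]
  exact y.2

end

/-- `M'` as a valuation subring of `F` (using the valuation property Val). -/
def gb_g14_MV (hV : gb_ValStatement) (hE : gb_EvCoeStatement)
    (N : ℕ) [NeZero N] (ℓ : ℕ) [Fact ℓ.Prime] (L : Type) [Field L] [Algebra ℚ L]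
    (W : ValuationSubring L) [IsDiscreteValuationRing ↥W] (k : Type) [Field k] [IsAlgClosed k]
    [CharP k ℓ] (res : ↥W →+* k) (ϖ : ↥W) (hD : BaseData N ℓ W res ϖ) :
    ValuationSubring ↥(FL L N) :=
  { gb_g14_Msub W res N hE with
    mem_or_inv_mem' := fun x => by
      rcases hV N ℓ L W k res ϖ hD x with h | ⟨z, hz, hxz⟩
      · exact Or.inl h
      · right
        rw [inv_eq_of_mul_eq_one_right hxz]
        exact gb_g14_mul_mem W res N (gb_g14_cW_mem W res N hE ϖ) hz }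

theorem gb_g14_mem_MV (hV : gb_ValStatement) (hE : gb_EvCoeStatement)
    (N : ℕ) [NeZero N] (ℓ : ℕ) [Fact ℓ.Prime] (L : Type) [Field L] [Algebra ℚ L]
    (W : ValuationSubring L) [IsDiscreteValuationRing ↥W] (k : Type) [Field k] [IsAlgClosed k]
    [CharP k ℓ] (res : ↥W →+* k) (ϖ : ↥W) (hD : BaseData N ℓ W res ϖ) (x : ↥(FL L N)) :
    x ∈ gb_g14_MV hV hE N ℓ L W k res ϖ hD ↔ x ∈ gb_M W res N := Iff.rfl

/-- `O₀ ⊆ M'`. -/
theorem gb_g14_gaussO_le (hV : gb_ValStatement) (hE : gb_EvCoeStatement)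
    (N : ℕ) [NeZero N] (ℓ : ℕ) [Fact ℓ.Prime] (L : Type) [Field L] [Algebra ℚ L]
    (W : ValuationSubring L) [IsDiscreteValuationRing ↥W] (k : Type) [Field k] [IsAlgClosed k]
    [CharP k ℓ] (res : ↥W →+* k) (ϖ : ↥W) (hD : BaseData N ℓ W res ϖ) :
    gaussO W res N ≤ (gb_g14_MV hV hE N ℓ L W k res ϖ hD).toSubring := by
  rw [gaussO, Subring.closure_le]
  intro c hc
  exact gb_g14_gaussSet_sub W res N hE hc

/-- (VEq) `V = M'`. -/
theorem gb_g14_veq (hMV : gb_MVStatement) (hV : gb_ValStatement) (hE : gb_EvCoeStatement) :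
    gb_VEqStatement := by
  intro N _ ℓ _ L _ _ W _ k _ _ _ res ϖ hD x
  constructor
  · intro hx
    exact (gb_g14_mem_MV hV hE N ℓ L W k res ϖ hD x).mp
      (gb_g14_integral_mem W res N (gb_g14_MV hV hE N ℓ L W k res ϖ hD)
        (gb_g14_gaussO_le hV hE N ℓ L W k res ϖ hD) x ((mem_gaussV_iff W res N x).mp hx))
  · exact hMV N ℓ L W k res ϖ hD x

/-- (G14.1) `F ∩ ι (W((q))) ⊆ V`. -/
theorem gb_g14_part1 (hMV : gb_MVStatement)
    (N : ℕ) [NeZero N] (ℓ : ℕ) [Fact ℓ.Prime] (L : Type) [Field L] [Algebra ℚ L]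
    (W : ValuationSubring L) [IsDiscreteValuationRing ↥W] (k : Type) [Field k] [IsAlgClosed k]
    [CharP k ℓ] (res : ↥W →+* k) (ϖ : ↥W) (hD : BaseData N ℓ W res ϖ)
    (y : LaurentSeries ↥W) (hy : coeffMap W.subtype y ∈ FL L N) :
    (⟨coeffMap W.subtype y, hy⟩ : ↥(FL L N)) ∈ gaussV W res N :=
  hMV N ℓ L W k res ϖ hD _ (gb_g14_mem_of_coe W res N _ y rfl)

/-- (G14.2) `V` is a valuation ring of `F`. -/
theorem gb_g14_part2 (hMV : gb_MVStatement) (hV : gb_ValStatement) (hE : gb_EvCoeStatement)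
    (N : ℕ) [NeZero N] (ℓ : ℕ) [Fact ℓ.Prime] (L : Type) [Field L] [Algebra ℚ L]
    (W : ValuationSubring L) [IsDiscreteValuationRing ↥W] (k : Type) [Field k] [IsAlgClosed k]
    [CharP k ℓ] (res : ↥W →+* k) (ϖ : ↥W) (hD : BaseData N ℓ W res ϖ) (x : ↥(FL L N)) :
    x ∈ gaussV W res N ∨ x⁻¹ ∈ gaussV W res N := by
  rcases hV N ℓ L W k res ϖ hD x with h | ⟨z, hz, hxz⟩
  · exact Or.inl (hMV N ℓ L W k res ϖ hD x h)
  · right
    rw [inv_eq_of_mul_eq_one_right hxz]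
    exact hMV N ℓ L W k res ϖ hD _
      (gb_g14_mul_mem W res N (gb_g14_cW_mem W res N hE ϖ) hz)

/-- (G14.3) `ϖ` is not a unit of `V`. -/
theorem gb_g14_part3 (hMV : gb_MVStatement) (hV : gb_ValStatement) (hE : gb_EvCoeStatement)
    (N : ℕ) [NeZero N] (ℓ : ℕ) [Fact ℓ.Prime] (L : Type) [Field L] [Algebra ℚ L]
    (W : ValuationSubring L) [IsDiscreteValuationRing ↥W] (k : Type) [Field k] [IsAlgClosed k]
    [CharP k ℓ] (res : ↥W →+* k) (ϖ : ↥W) (hD : BaseData N ℓ W res ϖ) :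
    (cW W N ϖ)⁻¹ ∉ gaussV W res N := by
  intro hmem
  obtain ⟨g, y, hg, hy⟩ := (gb_g14_veq hMV hV hE N ℓ L W k res ϖ hD _).mp hmem
  have hinj := S28.degMain_coeffMap_injective W.subtype Subtype.val_injective
  have hϖ0 : cW W N ϖ ≠ 0 := by
    intro h
    have h1 : (ϖ : L) = 0 := (algebraMap L ↥(FL L N)).injective (by rw [map_zero]; exact h)
    exact hD.irreducible.ne_zero (Subtype.ext h1)
  have hresϖ : res ϖ = 0 :=
    RingHom.mem_ker.mp (by rw [hD.ker_res]; exact Ideal.mem_span_singleton_self ϖ)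
  have h1 : evW W N (jF L N) g = cW W N ϖ * (evW W N (jF L N) g * (cW W N ϖ)⁻¹) := by
    rw [mul_left_comm, mul_inv_cancel₀ hϖ0, mul_one]
  have h2 : coeffMap W.subtype (S28.evalL (jqModC ↥W) g) =
      coeffMap W.subtype (S28.evalL (jqModC ↥W) (Polynomial.C ϖ) * y) := by
    rw [← hE N L W g, h1, IntermediateField.coe_mul, hy, gb_g14_cW_eq_ev W N (jF L N) ϖ,
      hE N L W (Polynomial.C ϖ), map_mul]
  have h3 := congrArg (coeffMap res) (hinj h2)
  rw [map_mul, S28.degMain_coeffMap_evalL, S28.degMain_coeffMap_evalL, Polynomial.map_C, hresϖ,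
    map_zero, map_zero, zero_mul, coeffMap_jqModC] at h3
  exact hg (S28.degMain_evalL_eq_zero _ h3)

/-- (G14.4) `V` is the unique valuation ring of `F` containing `O₀` in which `ϖ` is not a
unit. -/
theorem gb_g14_part4 (hMV : gb_MVStatement) (hV : gb_ValStatement)
    (N : ℕ) [NeZero N] (ℓ : ℕ) [Fact ℓ.Prime] (L : Type) [Field L] [Algebra ℚ L]
    (W : ValuationSubring L) [IsDiscreteValuationRing ↥W] (k : Type) [Field k] [IsAlgClosed k]
    [CharP k ℓ] (res : ↥W →+* k) (ϖ : ↥W) (hD : BaseData N ℓ W res ϖ)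
    (V' : ValuationSubring ↥(FL L N)) (hle : gaussO W res N ≤ V'.toSubring)
    (hnot : (cW W N ϖ)⁻¹ ∉ V') : V'.toSubring = gaussV W res N := by
  apply le_antisymm
  · intro x hx
    rcases hV N ℓ L W k res ϖ hD x with h | ⟨z, hz, hxz⟩
    · exact hMV N ℓ L W k res ϖ hD x h
    · exfalso
      apply hnot
      have hzV' : z ∈ V' := gb_g14_integral_mem W res N V' hle z
        ((mem_gaussV_iff W res N z).mp (hMV N ℓ L W k res ϖ hD z hz))
      have h1 : (cW W N ϖ)⁻¹ = x * z :=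
        inv_eq_of_mul_eq_one_right (by rw [mul_left_comm]; exact hxz)
      rw [h1]
      exact mul_mem hx hzV'
  · intro x hx
    exact gb_g14_integral_mem W res N V' hle x ((mem_gaussV_iff W res N x).mp hx)

/-- Package G14: `V = M'` and the first four components of `GaussStatement`. -/
theorem gb_g14_main : gb_MVStatement → gb_ValStatement → gb_EvCoeStatement → gb_TranscStatement →
    gb_VEqStatement ∧ gb_Gauss14Statement := by
  intro hMV hV hE _
  refine ⟨gb_g14_veq hMV hV hE, ?_⟩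
  intro N _ ℓ _ L _ _ W _ k _ _ _ res ϖ hD
  exact ⟨fun y hy => gb_g14_part1 hMV N ℓ L W k res ϖ hD y hy,
    fun x => gb_g14_part2 hMV hV hE N ℓ L W k res ϖ hD x,
    gb_g14_part3 hMV hV hE N ℓ L W k res ϖ hD,
    fun V' hle hnot => gb_g14_part4 hMV hV N ℓ L W k res ϖ hD V' hle hnot⟩

end

end Fermat.Agent.S18
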