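/-
S18, block G (twin B), package ICB (K5a): `L[t]` is integrally closed in `L(j)` for `t = j` and
`t = j⁻¹` (port of the S28 package `KBICB` to an abstract field `L`).

Main theorem: `gb_icb_main : gb_ICBStatement`.
-/
import Fermat.Agent.S18.GBInterfaces
import Fermat.Agent.S28.DegMainAux

set_option autoImplicit false

open ModularCurve AlgebraicCurve

namespace Fermat.Agent.S18

noncomputable section

/-- General lemma: if `φ : L[X] →+* K` is an injective ring homomorphism into a field and `c : K`
is a fraction of two values of `φ` which is integral with respect to `φ`, then `c` is a value of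
`φ` (because `L[X]` is integrally closed in its fraction field). -/
theorem gb_icb_general {L K : Type*} [Field L] [Field K] (φ : Polynomial L →+* K)
    (hφ : Function.Injective φ) (c : K)
    (hfrac : ∃ r s : Polynomial L, s ≠ 0 ∧ φ s * c = φ r) (hint : φ.IsIntegralElem c) :
    ∃ p : Polynomial L, φ p = c := by
  obtain ⟨r, s, hs, hrs⟩ := hfrac
  obtain ⟨P, hP, hPc⟩ := hint
  have hψ : ∀ a : Polynomial L, (IsFractionRing.lift hφ : FractionRing (Polynomial L) →+* K)
      (algebraMap (Polynomial L) (FractionRing (Polynomial L)) a) = φ a :=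
    fun a => IsFractionRing.lift_algebraMap hφ a
  have hφs : φ s ≠ 0 := fun h => hs (hφ (by rw [h, map_zero]))
  have hzc : (IsFractionRing.lift hφ : FractionRing (Polynomial L) →+* K)
      (algebraMap (Polynomial L) (FractionRing (Polynomial L)) r /
        algebraMap (Polynomial L) (FractionRing (Polynomial L)) s) = c := by
    rw [map_div₀, hψ, hψ, div_eq_iff hφs, mul_comm]
    exact hrs.symm
  have hcomp : (IsFractionRing.lift hφ : FractionRing (Polynomial L) →+* K).comp
      (algebraMap (Polynomial L) (FractionRing (Polynomial L))) = φ := RingHom.ext hψ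
  have hint' : IsIntegral (Polynomial L)
      (algebraMap (Polynomial L) (FractionRing (Polynomial L)) r /
        algebraMap (Polynomial L) (FractionRing (Polynomial L)) s) := by
    refine ⟨P, hP, ?_⟩
    apply (IsFractionRing.lift hφ : FractionRing (Polynomial L) →+* K).injective
    rw [Polynomial.hom_eval₂, map_zero, hzc, hcomp]
    exact hPc
  obtain ⟨p, hp⟩ := IsIntegrallyClosed.isIntegral_iff.mp hint'
  exact ⟨p, by rw [← hψ, hp, hzc]⟩

/-- The coercion `F → L((q))` commutes with evaluation of polynomials over `L`. -/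
theorem gb_icb_coe_aeval (N : ℕ) (L : Type) [Field L] [Algebra ℚ L] (t : ↥(FL L N))
    (p : Polynomial L) :
    ((Polynomial.aeval t p : ↥(FL L N)) : LaurentSeries L) =
      Polynomial.aeval (t : LaurentSeries L) p :=
  (Polynomial.aeval_algHom_apply (FL L N).val t p).symm

/-- (I) for `t = j`: `j` is transcendental over `L`. -/
theorem gb_icb_aeval_j_eq_zero (N : ℕ) [NeZero N] (L : Type) [Field L] [Algebra ℚ L]
    (p : Polynomial L) (hp : Polynomial.aeval (jF L N) p = 0) : p = 0 := by
  apply S28.degMain_evalL_eq_zero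
  rw [S28.degMain_evalL_eq_aeval, ← coe_jF L N, ← gb_icb_coe_aeval, hp]
  rfl

/-- (I) for `t = j`, as injectivity of the ring homomorphism. -/
theorem gb_icb_inj_j (N : ℕ) [NeZero N] (L : Type) [Field L] [Algebra ℚ L] :
    Function.Injective (Polynomial.aeval (jF L N) : Polynomial L →ₐ[L] ↥(FL L N)).toRingHom := by
  rw [injective_iff_map_eq_zero]
  intro p hp
  exact gb_icb_aeval_j_eq_zero N L p hp

/-- (S) for `t = j`: every element of `L(j)` is a fraction of values at `j`. -/
theorem gb_icb_frac_j (N : ℕ) [NeZero N] (L : Type) [Field L] [Algebra ℚ L] (c : ↥(FL L N))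
    (hc : c ∈ IntermediateField.adjoin L {jF L N}) :
    ∃ r s : Polynomial L, s ≠ 0 ∧
      Polynomial.aeval (jF L N) s * c = Polynomial.aeval (jF L N) r := by
  obtain ⟨r, s, rfl⟩ := (IntermediateField.mem_adjoin_simple_iff L c).mp hc
  by_cases hs : Polynomial.aeval (jF L N) s = 0
  · refine ⟨0, 1, one_ne_zero, ?_⟩
    rw [hs, div_zero, mul_zero, map_zero]
  · refine ⟨r, s, ?_, ?_⟩
    · rintro rfl
      exact hs (map_zero _)
    · rw [mul_div_cancel₀ _ hs]

/-- `j ≠ 0` in `F`. -/
theorem gb_icb_j_ne_zero (N : ℕ) [NeZero N] (L : Type) [Field L] [Algebra ℚ L] :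
    jF L N ≠ 0 := by
  intro h
  exact Polynomial.X_ne_zero (gb_icb_aeval_j_eq_zero N L Polynomial.X (by rw [Polynomial.aeval_X, h]))

/-- Evaluation at `j⁻¹` of the reflected polynomial. -/
theorem gb_icb_reflect (N : ℕ) [NeZero N] (L : Type) [Field L] [Algebra ℚ L] (n : ℕ)
    (f : Polynomial L) (hf : f.natDegree ≤ n) :
    Polynomial.aeval (jF L N)⁻¹ (Polynomial.reflect n f) * jF L N ^ n =
      Polynomial.aeval (jF L N) f := by
  let _ : Invertible (jF L N) := invertibleOfNonzero (gb_icb_j_ne_zero N L)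
  have h := Polynomial.eval₂_reflect_mul_pow (algebraMap L ↥(FL L N)) (jF L N) n f hf
  rw [invOf_eq_inv] at h
  rw [Polynomial.aeval_def, Polynomial.aeval_def]
  exact h

/-- Evaluation at `j` of the reflected polynomial. -/
theorem gb_icb_reflect' (N : ℕ) [NeZero N] (L : Type) [Field L] [Algebra ℚ L] (n : ℕ)
    (f : Polynomial L) (hf : f.natDegree ≤ n) :
    Polynomial.aeval (jF L N) (Polynomial.reflect n f) * (jF L N)⁻¹ ^ n =
      Polynomial.aeval (jF L N)⁻¹ f := by
  let _ : Invertible ((jF L N)⁻¹ : ↥(FL L N)) :=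
    invertibleOfNonzero (inv_ne_zero (gb_icb_j_ne_zero N L))
  have h := Polynomial.eval₂_reflect_mul_pow (algebraMap L ↥(FL L N))
    ((jF L N)⁻¹ : ↥(FL L N)) n f hf
  rw [invOf_eq_inv, inv_inv] at h
  rw [Polynomial.aeval_def, Polynomial.aeval_def]
  exact h

/-- (I) for `t = j⁻¹`. -/
theorem gb_icb_inj_jinv (N : ℕ) [NeZero N] (L : Type) [Field L] [Algebra ℚ L] :
    Function.Injective
      (Polynomial.aeval (jF L N)⁻¹ : Polynomial L →ₐ[L] ↥(FL L N)).toRingHom := by
  rw [injective_iff_map_eq_zero]
  intro p hp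
  have hp' : Polynomial.aeval (jF L N)⁻¹ p = 0 := hp
  have h := gb_icb_reflect' N L p.natDegree p le_rfl
  rw [hp'] at h
  have h0 : Polynomial.aeval (jF L N) (Polynomial.reflect p.natDegree p) = 0 := by
    rcases mul_eq_zero.mp h with h' | h'
    · exact h'
    · exact absurd h' (pow_ne_zero _ (inv_ne_zero (gb_icb_j_ne_zero N L)))
  exact Polynomial.reflect_eq_zero_iff.mp (gb_icb_aeval_j_eq_zero N L _ h0)

/-- (S) for `t = j⁻¹`: every element of `L(j)` is a fraction of values at `j⁻¹`. -/
theorem gb_icb_frac_jinv (N : ℕ) [NeZero N] (L : Type) [Field L] [Algebra ℚ L] (c : ↥(FL L N))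
    (hc : c ∈ IntermediateField.adjoin L {jF L N}) :
    ∃ r s : Polynomial L, s ≠ 0 ∧
      Polynomial.aeval (jF L N)⁻¹ s * c = Polynomial.aeval (jF L N)⁻¹ r := by
  obtain ⟨r, s, hs, hrs⟩ := gb_icb_frac_j N L c hc
  refine ⟨Polynomial.reflect (max r.natDegree s.natDegree) r,
    Polynomial.reflect (max r.natDegree s.natDegree) s,
    fun h => hs (Polynomial.reflect_eq_zero_iff.mp h), ?_⟩
  apply mul_right_cancel₀ (pow_ne_zero (max r.natDegree s.natDegree) (gb_icb_j_ne_zero N L))
  rw [gb_icb_reflect N L _ r (le_max_left _ _), mul_right_comm,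
    gb_icb_reflect N L _ s (le_max_right _ _)]
  exact hrs

/-- (K5a) `L[t]` is integrally closed in `L(j)` for `t = j` and `t = j⁻¹`. -/
theorem gb_icb_main : gb_ICBStatement := by
  intro N _ L _ _ t ht c hc hint
  rcases ht with rfl | rfl
  · exact gb_icb_general _ (gb_icb_inj_j N L) c (gb_icb_frac_j N L c hc) hint
  · exact gb_icb_general _ (gb_icb_inj_jinv N L) c (gb_icb_frac_jinv N L c hc) hint

end

end Fermat.Agent.S18
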