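/-
S18, block G (twin B, prefix `gb_`): second internal interface file (the reduction map `ρ`, split
into its construction and its properties).
-/
import Fermat.Agent.S18.GBInterfaces

set_option autoImplicit false

open ModularCurve AlgebraicCurve

namespace Fermat.Agent.S18

noncomputable section

/-- The defining property of the reduction map: `ρ x * ḡ(j̄) = red y` for EVERY witness `(g, y)` of
`x ∈ M'` (i.e. `g mod ϖ ≠ 0` and `g(j) * x = ι y`). -/
def gb_RhoSpec {L : Type} [Field L] [Algebra ℚ L] (W : ValuationSubring L) {k : Type} [Field k]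
    (res : ↥W →+* k) (N : ℕ) [NeZero N] (ρ : ↥(gaussV W res N) →+* LaurentSeries k) : Prop :=
  ∀ (x : ↥(gaussV W res N)) (g : Polynomial ↥W) (y : LaurentSeries ↥W), g.map res ≠ 0 →
    ((evW W N (jF L N) g * (x : ↥(FL L N)) : ↥(FL L N)) : LaurentSeries L) = coeffMap W.subtype y →
    ρ x * S28.evalL (jqModC k) (g.map res) = coeffMap res y

/-- (G5a) Existence of a ring homomorphism `ρ : V → k((q))` with `gb_RhoSpec`. -/
def gb_RhoExStatement : Prop :=
  ∀ (N : ℕ) [NeZero N] (ℓ : ℕ) [Fact ℓ.Prime] (L : Type) [Field L] [Algebra ℚ L]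
    (W : ValuationSubring L) [IsDiscreteValuationRing ↥W] (k : Type) [Field k] [IsAlgClosed k]
    [CharP k ℓ] (res : ↥W →+* k) (ϖ : ↥W), BaseData N ℓ W res ϖ →
    ∃ ρ : ↥(gaussV W res N) →+* LaurentSeries k, gb_RhoSpec W res N ρ

/-- (G5b) Every ring homomorphism `ρ : V → k((q))` with `gb_RhoSpec` is a reduction map in the
sense of `IsGaussRed`. -/
def gb_RhoPropStatement : Prop :=
  ∀ (N : ℕ) [NeZero N] (ℓ : ℕ) [Fact ℓ.Prime] (L : Type) [Field L] [Algebra ℚ L]
    (W : ValuationSubring L) [IsDiscreteValuationRing ↥W] (k : Type) [Field k] [IsAlgClosed k]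
    [CharP k ℓ] (res : ↥W →+* k) (ϖ : ↥W), BaseData N ℓ W res ϖ →
    ∀ ρ : ↥(gaussV W res N) →+* LaurentSeries k, gb_RhoSpec W res N ρ →
      IsGaussRed W res N ϖ ρ

end

end Fermat.Agent.S18
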