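/-
S18, block G (twin B), package K6 (minimal polynomial argument over a general DVR `W`).

`gb_k6_main : gb_ICBStatement → gb_OBAStatement → gb_OIntClosedStatement → gb_OLeStatement →
  gb_K6Statement`  (port of `S28.kb_k6_main`, reusing `S28.kb_k6_abstract`).
-/
import Fermat.Agent.S18.GBInterfaces
import Fermat.Agent.S28.KBK6

set_option autoImplicit false

open ModularCurve AlgebraicCurve

namespace Fermat.Agent.S18

noncomputable section

/-- The package K6 over `W`. -/
theorem gb_k6_main : gb_ICBStatement → gb_OBAStatement → gb_OIntClosedStatement →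
    gb_OLeStatement → gb_K6Statement := by
  intro hICB hOBA hOIC hOLe N _ ℓ _ L _ _ W _ k _ _ _ res ϖ hD t ht y hly hyO
  -- `t ∈ L(j)`
  have htK : t ∈ IntermediateField.adjoin L {jF L N} := by
    rcases ht with rfl | rfl
    · exact IntermediateField.mem_adjoin_simple_self L _
    · exact inv_mem (IntermediateField.mem_adjoin_simple_self L _)
  -- the three maps to `L(j)`
  let b : Polynomial L →+* ↥(IntermediateField.adjoin L {jF L N}) :=
    (Polynomial.aeval (⟨t, htK⟩ : ↥(IntermediateField.adjoin L {jF L N}))).toRingHom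
  let a : Polynomial ↥W →+* ↥(IntermediateField.adjoin L {jF L N}) :=
    b.comp (Polynomial.mapRingHom W.subtype)
  let o : ↥(gaussO W res N) →+* ↥(IntermediateField.adjoin L {jF L N}) :=
    RingHom.codRestrict (gaussO W res N).subtype (IntermediateField.adjoin L {jF L N})
      (fun u => hOLe N ℓ L W k res ϖ hD u u.2)
  have hb : ∀ p : Polynomial L,
      ((b p : ↥(IntermediateField.adjoin L {jF L N})) : ↥(FL L N)) = Polynomial.aeval t p := by
    intro p
    exact (Polynomial.aeval_algHom_apply (IntermediateField.adjoin L {jF L N}).val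
      (⟨t, htK⟩ : ↥(IntermediateField.adjoin L {jF L N})) p).symm
  have hβ : (algebraMap ↥(IntermediateField.adjoin L {jF L N}) ↥(FL L N)).comp b =
      (Polynomial.aeval t : Polynomial L →ₐ[L] ↥(FL L N)).toRingHom :=
    RingHom.ext fun p => hb p
  have ha : (algebraMap ↥(IntermediateField.adjoin L {jF L N}) ↥(FL L N)).comp a =
      evW W N t := by
    refine RingHom.ext fun q => ?_
    show ((b (q.map W.subtype) : ↥(IntermediateField.adjoin L {jF L N})) : ↥(FL L N)) = _
    rw [hb, Polynomial.aeval_def, Polynomial.eval₂_map]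
    rfl
  have ho : (algebraMap ↥(IntermediateField.adjoin L {jF L N}) ↥(FL L N)).comp o =
      (gaussO W res N).subtype := RingHom.ext fun u => rfl
  have hϖ : (ϖ : L) ≠ 0 := fun h => hD.irreducible.ne_zero (Subtype.ext h)
  rw [← ha]
  refine S28.kb_k6_abstract (K := ↥(IntermediateField.adjoin L {jF L N})) (L := ↥(FL L N))
    a b o ?_ ?_ ?_ y ?_ ?_
  · -- `L[t]` is integrally closed in `L(j)`
    rintro c ⟨P, hPm, hP0⟩
    have hc : (Polynomial.aeval t : Polynomial L →ₐ[L] ↥(FL L N)).toRingHom.IsIntegralElem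
        (c : ↥(FL L N)) := by
      refine ⟨P, hPm, ?_⟩
      have h := Polynomial.hom_eval₂ P b
        (algebraMap ↥(IntermediateField.adjoin L {jF L N}) ↥(FL L N)) c
      rw [hP0, map_zero] at h
      rw [← hβ]
      exact h.symm
    obtain ⟨p, hp⟩ := hICB N L t ht c c.2 hc
    exact ⟨p, Subtype.ext ((hb p).trans hp)⟩
  · -- `O₀` is integrally closed in `L(j)`
    rintro c ⟨P, hPm, hP0⟩
    have hc : IsIntegral ↥(gaussO W res N) (c : ↥(FL L N)) := by
      refine ⟨P, hPm, ?_⟩
      have h := Polynomial.hom_eval₂ P o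
        (algebraMap ↥(IntermediateField.adjoin L {jF L N}) ↥(FL L N)) c
      rw [hP0, map_zero, ho] at h
      exact h.symm
    exact ⟨⟨(c : ↥(FL L N)), hOIC N ℓ L W k res ϖ hD c c.2 hc⟩, Subtype.ext rfl⟩
  · -- `O₀ ∩ L[t] ⊆ W[t]`
    rintro c ⟨u, hu⟩ ⟨p, hp⟩
    have hmem : Polynomial.aeval t p ∈ gaussO W res N := by
      rw [← hb, hp, ← hu]
      exact u.2
    have hcoef := hOBA N ℓ L W k res ϖ hD t ht p hmem
    have hpl : p ∈ Polynomial.lifts W.subtype := by
      rw [Polynomial.lifts_iff_coeff_lifts]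
      intro n
      exact ⟨⟨p.coeff n, hcoef n⟩, rfl⟩
    obtain ⟨q, hq⟩ := (Polynomial.mem_lifts p).mp hpl
    refine ⟨q, ?_⟩
    show b (q.map W.subtype) = c
    rw [hq, hp]
  · -- integrality of `y` over `L[t]`
    obtain ⟨P, hPm, hP0⟩ := hly
    set β : Polynomial L →+* ↥(FL L N) :=
      (algebraMap ↥(IntermediateField.adjoin L {jF L N}) ↥(FL L N)).comp b with hβdef
    have hfac : evW W N t = β.comp (Polynomial.mapRingHom W.subtype) := by
      rw [← ha]
      rfl
    have h1 : β.IsIntegralElem (cW W N ϖ * y) := by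
      refine ⟨P.map (Polynomial.mapRingHom W.subtype), hPm.map _, ?_⟩
      rw [Polynomial.eval₂_map, ← hfac]
      exact hP0
    have h2 : β.IsIntegralElem (β (Polynomial.C ((ϖ : L)⁻¹))) := β.isIntegralElem_map
    have h3 : β (Polynomial.C ((ϖ : L)⁻¹)) * (cW W N ϖ * y) = y := by
      have h4 : β (Polynomial.C ((ϖ : L)⁻¹)) * cW W N ϖ = 1 := by
        have h5 : cW W N ϖ = β (Polynomial.C (ϖ : L)) := by
          rw [hβ]
          show _ = Polynomial.aeval t (Polynomial.C (ϖ : L))
          rw [Polynomial.aeval_C]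
          rfl
        rw [h5, ← map_mul, ← Polynomial.C_mul, inv_mul_cancel₀ hϖ, Polynomial.C_1, map_one]
      rw [← mul_assoc, h4, one_mul]
    rw [← h3]
    exact RingHom.IsIntegralElem.mul β h2 h1
  · -- integrality of `y` over `O₀`
    rw [ho]
    exact hyO

end

end Fermat.Agent.S18
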