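/-
S18, block G (twin B), package `Key` (G4: K3 + K4), prefix `gb_key_`
(port of `Fermat/Agent/S28/KBIntO.lean` to an abstract discrete valuation ring `W ⊆ L`):

* `gb_key_main` (K3): for `x ∈ F ∩ ι (W((q)))` the denominator `g` of a presentation
  `g(j) * x = ∑ f_i(j) * b i` over a monomial family can be chosen nonzero modulo `ϖ`;
* `gb_key_mv` (K4): the elements of `M'` are integral over the Gauss valuation ring `O₀`.
-/
import Fermat.Agent.S18.GBInterfaces

set_option autoImplicit false

open ModularCurve AlgebraicCurve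

namespace Fermat.Agent.S18

noncomputable section

/-- The coefficientwise inclusion `W((q)) → L((q))` is injective. -/
theorem gb_key_iota_injective {L : Type} [Field L] (W : ValuationSubring L) :
    Function.Injective (coeffMap W.subtype) := by
  intro x y h
  ext n
  exact congrArg (fun z : LaurentSeries L => z.coeff n) h

/-- `(C ϖ * P)(jW) = ϖ * P(jW)` in `W((q))`. -/
theorem gb_key_evalL_C_mul {R : Type} [CommRing R] (x : LaurentSeries R) (a : R)
    (P : Polynomial R) :
    S28.evalL x (Polynomial.C a * P) = HahnSeries.C a * S28.evalL x P := by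
  rw [map_mul]
  congr 1
  exact Polynomial.eval₂_C _ _

/-- (K3) For `x ∈ F ∩ ι (W((q)))` the denominator `g` can be chosen nonzero mod `ϖ`. -/
theorem gb_key_main : gb_BasisStatement → gb_DegWStatement → gb_EvCoeStatement →
    gb_TranscStatement → gb_ResStatement → gb_ContentStatement → gb_KeyStatement := by
  intro hBasis hDegW hEvCoe hTransc hRes hContent N _ ℓ _ L _ _ W _ k _ _ _ res ϖ hBD m b hm x y hxy
  obtain ⟨g₀, f₀, hg₀, h₀⟩ := hBasis N ℓ L W k res ϖ hBD m b hm x
  obtain ⟨e, g, f, hg, hf, hnorm⟩ := hContent N ℓ L W k res ϖ hBD (dedekindPsi N) g₀ f₀ hg₀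
  have hϖ : (Polynomial.C ϖ : Polynomial ↥W) ≠ 0 :=
    Polynomial.C_ne_zero.mpr hBD.irreducible.ne_zero
  have hc0 : evW W N (jF L N) (Polynomial.C ϖ ^ e) ≠ 0 := fun h =>
    pow_ne_zero e hϖ (hTransc N L W (h.trans (map_zero _).symm))
  have h1 : evW W N (jF L N) g * x = ∑ i, evW W N (jF L N) (f i) * b i := by
    apply mul_left_cancel₀ hc0
    rw [Finset.mul_sum, ← mul_assoc, ← map_mul, ← hg, h₀]
    refine Finset.sum_congr rfl fun i _ => ?_
    rw [hf i, map_mul, mul_assoc]
  refine ⟨g, f, ?_, h1⟩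
  intro hgres
  apply hnorm
  refine ⟨hgres, ?_⟩
  obtain ⟨g₁, hg₁⟩ := ((hRes N ℓ L W k res ϖ hBD).1 g).mp hgres
  apply hDegW N L W k res m b hm f
  rw [(hRes N ℓ L W k res ϖ hBD).2]
  refine ⟨S28.evalL (jqModC ↥W) g₁ * y, ?_⟩
  apply gb_key_iota_injective W
  have h2 := congrArg (fun z : ↥(FL L N) => (z : LaurentSeries L)) h1
  simp only [IntermediateField.coe_mul, IntermediateField.coe_sum] at h2
  rw [map_sum, ← mul_assoc, ← gb_key_evalL_C_mul, ← hg₁, map_mul, ← hEvCoe N L W g, ← hxy, h2]
  refine Finset.sum_congr rfl fun i _ => ?_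
  rw [map_mul, ← hEvCoe N L W (f i), hm.coe i]

/-- (K3') If `u ∈ F` is the image of a series over `W`, then `u` lies in the `O₀`-span of a
monomial family. -/
theorem gb_key_mem_span (hKey : gb_KeyStatement) (hTransc : gb_TranscStatement)
    (N : ℕ) [NeZero N] (ℓ : ℕ) [Fact ℓ.Prime] (L : Type) [Field L] [Algebra ℚ L]
    (W : ValuationSubring L) [IsDiscreteValuationRing ↥W] (k : Type) [Field k] [IsAlgClosed k]
    [CharP k ℓ] (res : ↥W →+* k) (ϖ : ↥W) (hBD : BaseData N ℓ W res ϖ)
    (m : Fin (dedekindPsi N) → LaurentSeries ↥W) (b : Fin (dedekindPsi N) → ↥(FL L N))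
    (hm : gb_IsMono W res N m b) (u : ↥(FL L N)) (y : LaurentSeries ↥W)
    (hu : ((u : ↥(FL L N)) : LaurentSeries L) = coeffMap W.subtype y) :
    u ∈ Submodule.span ↥(gaussO W res N) (Set.range b) := by
  obtain ⟨g, f, hg, h⟩ := hKey N ℓ L W k res ϖ hBD m b hm u y hu
  have hg0 : g ≠ 0 := by
    rintro rfl
    exact hg (Polynomial.map_zero res)
  have hgK : evW W N (jF L N) g ≠ 0 := fun h0 =>
    hg0 (hTransc N L W (h0.trans (map_zero _).symm))
  have hcg : ∀ i, evW W N (jF L N) g * (evW W N (jF L N) (f i) / evW W N (jF L N) g) =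
      evW W N (jF L N) (f i) := fun i => by
    field_simp
  have hc : ∀ i, evW W N (jF L N) (f i) / evW W N (jF L N) g ∈ gaussO W res N := fun i =>
    Subring.subset_closure ⟨f i, g, hg, hcg i⟩
  have hu' : u = ∑ i, (⟨evW W N (jF L N) (f i) / evW W N (jF L N) g, hc i⟩ :
      ↥(gaussO W res N)) • b i := by
    apply mul_left_cancel₀ hgK
    rw [h, Finset.mul_sum]
    refine Finset.sum_congr rfl fun i _ => ?_
    show _ = evW W N (jF L N) g *
      (evW W N (jF L N) (f i) / evW W N (jF L N) g * b i)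
    rw [← mul_assoc, hcg i]
  rw [hu']
  exact Submodule.sum_mem _ fun i _ => Submodule.smul_mem _ _ (Submodule.subset_span ⟨i, rfl⟩)

/-- (K4) `M' ⊆ V`: the elements of `M'` are integral over `O₀`. -/
theorem gb_key_mv : gb_MonoStatement → gb_KeyStatement → gb_EvCoeStatement →
    gb_TranscStatement → gb_MVStatement := by
  intro hMono hKey hEvCoe hTransc N _ ℓ _ L _ _ W _ k _ _ _ res ϖ hBD x hx
  obtain ⟨m, b, hm⟩ := hMono N ℓ L W k res ϖ hBD
  rw [mem_gaussV_iff]
  obtain ⟨g, y, hg, hxy⟩ := hx
  have key : ∀ (u : ↥(FL L N)) (y' : LaurentSeries ↥W),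
      ((u : ↥(FL L N)) : LaurentSeries L) = coeffMap W.subtype y' →
      u ∈ Submodule.span ↥(gaussO W res N) (Set.range b) := fun u y' hu =>
    gb_key_mem_span hKey hTransc N ℓ L W k res ϖ hBD m b hm u y' hu
  have hg0 : g ≠ 0 := by
    rintro rfl
    exact hg (Polynomial.map_zero res)
  have hgK : evW W N (jF L N) g ≠ 0 := fun h0 =>
    hg0 (hTransc N L W (h0.trans (map_zero _).symm))
  have hinv : 1 / evW W N (jF L N) g ∈ gaussO W res N :=
    Subring.subset_closure ⟨1, g, hg, by rw [map_one]; field_simp⟩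
  refine isIntegral_of_smul_mem_submodule
    (Submodule.span ↥(gaussO W res N) (Set.range b)) ?_
    (Submodule.fg_span (Set.finite_range b)) x ?_
  · rw [Submodule.ne_bot_iff]
    refine ⟨1, key 1 1 ?_, one_ne_zero⟩
    rw [map_one]
    rfl
  · intro n hn
    induction hn using Submodule.span_induction with
    | mem n hn =>
      obtain ⟨i, rfl⟩ := hn
      have h1 : evW W N (jF L N) g * (x * b i) ∈
          Submodule.span ↥(gaussO W res N) (Set.range b) := by
        refine key _ (y * m i) ?_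
        rw [← mul_assoc, IntermediateField.coe_mul, hxy, hm.coe i, map_mul]
      have h2 : x • b i = (⟨1 / evW W N (jF L N) g, hinv⟩ : ↥(gaussO W res N)) •
          (evW W N (jF L N) g * (x * b i)) := by
        show x * b i = 1 / evW W N (jF L N) g * (evW W N (jF L N) g * (x * b i))
        field_simp
      rw [h2]
      exact Submodule.smul_mem _ _ h1
    | zero => rw [smul_zero]; exact Submodule.zero_mem _
    | add a b _ _ ha hb => rw [smul_add]; exact Submodule.add_mem _ ha hb
    | smul c a _ ha =>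
      have hca : x • c • a = c • x • a := by
        rw [smul_eq_mul, smul_eq_mul, Algebra.smul_def, Algebra.smul_def, mul_left_comm]
      rw [hca]
      exact Submodule.smul_mem _ c ha

end

end Fermat.Agent.S18
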