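/-
S18, block G (twin B), package Mono (G1): existence of a monomial family (`gb_MonoStatement`) and
the lifted independence statement (`gb_DegWStatement`).

`gb_mono_main` generalises `S28.degMain_main` from `(ℚ, ℤ_(ℓ), \bar{𝔽}_ℓ)` to the abstract data
`(L, W, k)`: the degree mod `ℓ` gives `ψ(N)` elements of `F_k` independent over `k(j̄)`; by the
characteristic zero bound every `j̄(q^d)` is algebraic over `k(j̄)`, so `F_k` is spanned over `k(j̄)`
by monomials in the `j̄(q^d)`; `ψ(N)` independent monomials are extracted and lifted to `ℤ((q))`,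
hence to `W((q))`.
-/
import Fermat.Agent.S18.GBInterfaces
import Fermat.Agent.S28.DegMain

set_option autoImplicit false

open ModularCurve AlgebraicCurve

namespace Fermat.Agent.S18

noncomputable section

/-- Monomials in the `j̄(q^d)`, `d ∣ N`, lie in `F_k`. -/
theorem gb_mono_closure_le (k : Type) [Field k] (N : ℕ) (x : LaurentSeries k)
    (hx : x ∈ Submonoid.closure (divisorExpansionsC k N)) : x ∈ Fk k N := by
  induction hx using Submonoid.closure_induction with
  | mem y hy => exact IntermediateField.subset_adjoin k _ hy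
  | one => exact one_mem _
  | mul y z _ _ hy hz => exact mul_mem hy hz

/-- Reduction of an integral series through `W`. -/
theorem gb_mono_res_int {L : Type} [Field L] (W : ValuationSubring L) {k : Type} [Field k]
    (res : ↥W →+* k) (x : LaurentSeries ℤ) :
    coeffMap res (coeffMap (Int.castRingHom ↥W) x) = coeffMap (Int.castRingHom k) x := by
  rw [coeffMap_coeffMap]
  exact coeffMap_congr (RingHom.ext_int _ _) x

/-- The image over `L` of an integral series through `W` is its image through `ℚ`. -/
theorem gb_mono_subtype_int {L : Type} [Field L] [Algebra ℚ L] (W : ValuationSubring L)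
    (x : LaurentSeries ℤ) :
    coeffMap W.subtype (coeffMap (Int.castRingHom ↥W) x) =
      coeffEmb L (coeffMap (Int.castRingHom ℚ) x) := by
  rw [coeffEmb, coeffMap_coeffMap, coeffMap_coeffMap]
  exact coeffMap_congr (RingHom.ext_int _ _) x

/-- (G1) A monomial family exists. -/
theorem gb_mono_main : S28.Char0DegStatement → S28.ModLDegStatement → gb_MonoStatement := by
  intro h0 hL N _ ℓ _ L _ _ W _ k _ _ _ res ϖ hD
  obtain ⟨b₀, hb₀, hb₀li⟩ := hL N ℓ hD.not_dvd k
  have halg : ∀ x ∈ divisorExpansionsC k N,
      IsAlgebraic ↥(IntermediateField.adjoin k {jqModC k}) x := by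
    rintro x ⟨d, hd0, hd, rfl⟩
    have := hd0
    exact S28.degMain_isAlgebraic h0 N ℓ k d hd
  obtain ⟨mbar, hmbar, hmbarli⟩ := S28.degMain_exists_linearIndependent_of_mem_span
    (Submonoid.closure (divisorExpansionsC k N) : Set (LaurentSeries k)) (dedekindPsi N) b₀ hb₀li
    (fun i => S28.degMain_mem_span k N halg (b₀ i) (hb₀ i))
  choose mZ hmZ hmZQ using fun i => S28.degMain_lift_monomial k N (mbar i) (hmbar i)
  have hres : ∀ i, coeffMap res (coeffMap (Int.castRingHom ↥W) (mZ i)) = mbar i := by
    intro i
    rw [gb_mono_res_int, hmZ]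
  have hmem : ∀ i, coeffMap W.subtype (coeffMap (Int.castRingHom ↥W) (mZ i)) ∈ FL L N := by
    intro i
    rw [gb_mono_subtype_int]
    exact coeffEmb_mem_laurentBaseChange L (hmZQ i)
  refine ⟨fun i => coeffMap (Int.castRingHom ↥W) (mZ i), fun i => ⟨_, hmem i⟩, ?_⟩
  refine ⟨fun i => rfl, fun i => ?_, ?_⟩
  · rw [hres]
    exact gb_mono_closure_le k N _ (hmbar i)
  · have hfun : (fun i => coeffMap res (coeffMap (Int.castRingHom ↥W) (mZ i))) = mbar :=
      funext hres
    rw [hfun]
    exact hmbarli

/-- (DEG_W) If the reduction of `∑ f_i(jW) * m_i` vanishes, then all `f_i` vanish mod `ϖ`. -/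
theorem gb_mono_degw : gb_DegWStatement := by
  intro N _ L _ _ W k _ res m b hm f hf i
  have hsum : ∑ i, (⟨S28.evalL (jqModC k) ((f i).map res),
      S28.degMain_evalL_mem_adjoin _ _⟩ : ↥(IntermediateField.adjoin k {jqModC k})) •
        coeffMap res (m i) = 0 := by
    rw [map_sum] at hf
    rw [← hf]
    refine Finset.sum_congr rfl fun i _ => ?_
    rw [map_mul, S28.degMain_coeffMap_evalL, coeffMap_jqModC]
    rfl
  have h2 := Fintype.linearIndependent_iff.mp hm.indep _ hsum i
  have h3 : S28.evalL (jqModC k) ((f i).map res) = 0 := congrArg Subtype.val h2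
  exact S28.degMain_evalL_eq_zero _ h3

end

end Fermat.Agent.S18
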