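/-
S18, block G (twin B), package MonoB (G9: the monogenic étale certificate).

`gb_monob_main : GaussStatement → gb_RhoOStatement → gb_PrimStatement → FkSepStatement →
  gb_BoundStatement → FinLStatement → gb_OLeStatement → gb_OIntClosedStatement →
  MonogenicStatement`.
-/
import Fermat.Agent.S18.GBInterfaces
import Fermat.Agent.S28.KBK6

set_option autoImplicit false

open ModularCurve AlgebraicCurve

namespace Fermat.Agent.S18

noncomputable section

/-- Abstract form of the monogenic étale certificate.  `K ⊆ F` a finite field extension, `o : RO → K`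
a ring which is integrally closed in `K` (via `o`), `ρO : RO → Kk` a surjection onto a field whose
kernel is contained in `ϖO RO`, `θ ∈ F` integral over `RO` and `θbar` (in an extension `E` of `Kk`)
a "reduction" of `θ` which is separable over `Kk` of degree at least `ψ ≥ [F : K]`.  Then the minimal
polynomial of `θ` over `K` lifts to a monic `fO ∈ RO[X]`, `F = K(θ)`, and `fO` is separable
modulo `ϖO` (Bézout certificate). -/
theorem gb_monob_abstract {K F RO Kk E : Type*} [Field K] [Field F] [Algebra K F]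
    [FiniteDimensional K F] [CommRing RO] [Field Kk] [Field E] [Algebra Kk E]
    (o : RO →+* K) (hO : ∀ c : K, o.IsIntegralElem c → ∃ u, o u = c)
    (ρO : RO →+* Kk) (hsurj : Function.Surjective ρO)
    (ϖO : RO) (hker : ∀ c : RO, ρO c = 0 → ϖO ∣ c)
    (θ : F) (hθ : ((algebraMap K F).comp o).IsIntegralElem θ) (θbar : E)
    (hred : ∀ p : Polynomial RO, p.eval₂ ((algebraMap K F).comp o) θ = 0 →
      p.eval₂ ((algebraMap Kk E).comp ρO) θbar = 0)
    (ψ : ℕ) (hψ : Module.finrank K F ≤ ψ) (hdeg : ψ ≤ (minpoly Kk θbar).natDegree)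
    (hsep : IsSeparable Kk θbar) :
    ∃ fO AO BO CO : Polynomial RO, fO.Monic ∧ fO.eval₂ ((algebraMap K F).comp o) θ = 0 ∧
      IntermediateField.adjoin K {θ} = ⊤ ∧
      AO * fO + BO * Polynomial.derivative fO = 1 + Polynomial.C ϖO * CO := by
  have hθK : IsIntegral K θ := IsIntegral.of_finite K θ
  -- the minimal polynomial of `θ` over `K` has coefficients in (the image of) `RO`
  have hlifts : minpoly K θ ∈ Polynomial.lifts o := by
    rw [Polynomial.lifts_iff_coeff_lifts]
    intro i
    exact hO _ (S28.kb_k6_coeff o θ hθ i)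
  obtain ⟨fO, hfO, hdegO, hfOm⟩ :=
    Polynomial.lifts_and_natDegree_eq_and_monic hlifts (minpoly.monic hθK)
  have hroot : fO.eval₂ ((algebraMap K F).comp o) θ = 0 := by
    rw [← Polynomial.eval₂_map, hfO, ← Polynomial.aeval_def]
    exact minpoly.aeval K θ
  -- reduction
  have hfbm : (fO.map ρO).Monic := hfOm.map ρO
  have hfbdeg : (fO.map ρO).natDegree = fO.natDegree := hfOm.natDegree_map ρO
  have hfbroot : Polynomial.aeval θbar (fO.map ρO) = 0 := by
    rw [Polynomial.aeval_def, Polynomial.eval₂_map]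
    exact hred fO hroot
  have hdvd : minpoly Kk θbar ∣ fO.map ρO := minpoly.dvd Kk θbar hfbroot
  have h1 : (minpoly Kk θbar).natDegree ≤ (fO.map ρO).natDegree :=
    Polynomial.natDegree_le_of_dvd hdvd hfbm.ne_zero
  have h2 : (minpoly K θ).natDegree ≤ Module.finrank K F := minpoly.natDegree_le θ
  -- degrees
  have hprim : IntermediateField.adjoin K {θ} = ⊤ :=
    (Field.primitive_element_iff_minpoly_natDegree_eq K θ).mpr (by omega)
  have hθbint : IsIntegral Kk θbar := hsep.isIntegral
  have heq : fO.map ρO = minpoly Kk θbar :=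
    Polynomial.eq_of_monic_of_dvd_of_natDegree_le (minpoly.monic hθbint) hfbm hdvd (by omega)
  have hfbsep : (fO.map ρO).Separable := by
    rw [heq]
    exact hsep
  -- Bézout and lifting
  obtain ⟨a, b, hab⟩ := hfbsep
  obtain ⟨AO, rfl⟩ := Polynomial.map_surjective ρO hsurj a
  obtain ⟨BO, rfl⟩ := Polynomial.map_surjective ρO hsurj b
  have hDO : (AO * fO + BO * Polynomial.derivative fO - 1).map ρO = 0 := by
    rw [Polynomial.map_sub, Polynomial.map_add, Polynomial.map_mul, Polynomial.map_mul,
      Polynomial.map_one, ← Polynomial.derivative_map, hab, sub_self]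
  have hdiv : Polynomial.C ϖO ∣ AO * fO + BO * Polynomial.derivative fO - 1 :=
    (Polynomial.C_dvd_iff_dvd_coeff _ _).mpr fun n =>
      hker _ (by rw [← Polynomial.coeff_map, hDO, Polynomial.coeff_zero])
  obtain ⟨CO, hCO⟩ := hdiv
  exact ⟨fO, AO, BO, CO, hfOm, hroot, hprim, by linear_combination hCO⟩

/-- The package MonoB: the monogenic étale certificate. -/
theorem gb_monob_main : GaussStatement → gb_RhoOStatement → gb_PrimStatement → FkSepStatement →
    gb_BoundStatement → FinLStatement → gb_OLeStatement → gb_OIntClosedStatement →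
    MonogenicStatement := by
  intro hG hRhoO hPrim hSep hBound hFin hOLe hOIC N _ ℓ _ L _ _ W _ k _ _ _ res ϖ hD
  obtain ⟨-, -, -, -, ρ, hρ⟩ := hG N ℓ L W k res ϖ hD
  obtain ⟨ρO, hsurj, hker, hcompat⟩ := hRhoO N ℓ L W k res ϖ hD ρ hρ
  obtain ⟨θbar, hθmem, hdeg⟩ := hPrim N ℓ hD.not_dvd k
  have hsep : IsSeparable ↥(IntermediateField.adjoin k {jqModC k}) θbar :=
    hSep N ℓ hD.not_dvd k θbar hθmem
  have hfd : FiniteDimensional ↥(IntermediateField.adjoin L {jF L N}) ↥(FL L N) := (hFin N L).2
  -- Step 1: a lift `θ ∈ V` of `θbar`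
  obtain ⟨θV, hθV⟩ := (hρ.range θbar).mp hθmem
  have hθ : IsIntegral ↥(gaussO W res N) (θV : ↥(FL L N)) := θV.2
  have hle : gaussO W res N ≤ gaussV W res N := by
    intro c hc
    exact isIntegral_algebraMap (x := (⟨c, hc⟩ : ↥(gaussO W res N)))
  -- the inclusion `O₀ → L(j)`
  let o : ↥(gaussO W res N) →+* ↥(IntermediateField.adjoin L {jF L N}) :=
    RingHom.codRestrict (gaussO W res N).subtype (IntermediateField.adjoin L {jF L N})
      (fun u => hOLe N ℓ L W k res ϖ hD u u.2)
  have ho : (algebraMap ↥(IntermediateField.adjoin L {jF L N}) ↥(FL L N)).comp o =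
      (gaussO W res N).subtype := RingHom.ext fun u => rfl
  have hO : ∀ c : ↥(IntermediateField.adjoin L {jF L N}), o.IsIntegralElem c → ∃ u, o u = c := by
    rintro c ⟨P, hPm, hP0⟩
    have hc : IsIntegral ↥(gaussO W res N) (c : ↥(FL L N)) := by
      refine ⟨P, hPm, ?_⟩
      have h := Polynomial.hom_eval₂ P o
        (algebraMap ↥(IntermediateField.adjoin L {jF L N}) ↥(FL L N)) c
      rw [hP0, map_zero, ho] at h
      exact h.symm
    exact ⟨⟨(c : ↥(FL L N)), hOIC N ℓ L W k res ϖ hD c c.2 hc⟩, Subtype.ext rfl⟩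
  -- `ϖ ∈ O₀`
  have hϖmem : cW W N ϖ ∈ gaussO W res N := by
    refine Subring.subset_closure ⟨Polynomial.C ϖ, 1, ?_, ?_⟩
    · rw [Polynomial.map_one]
      exact one_ne_zero
    · rw [map_one, one_mul]
      show _ = Polynomial.eval₂ (cW W N) (jF L N) (Polynomial.C ϖ)
      rw [Polynomial.eval₂_C]
  have hker' : ∀ c : ↥(gaussO W res N), ρO c = 0 →
      (⟨cW W N ϖ, hϖmem⟩ : ↥(gaussO W res N)) ∣ c := by
    intro c hc
    obtain ⟨c', hc'⟩ := (hker c).mp hc
    exact ⟨c', Subtype.ext hc'⟩
  -- reduction of polynomial relations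
  have hred : ∀ p : Polynomial ↥(gaussO W res N),
      p.eval₂ ((algebraMap ↥(IntermediateField.adjoin L {jF L N}) ↥(FL L N)).comp o)
        (θV : ↥(FL L N)) = 0 →
      p.eval₂ ((algebraMap ↥(IntermediateField.adjoin k {jqModC k}) (LaurentSeries k)).comp ρO)
        θbar = 0 := by
    intro p hp
    rw [ho] at hp
    have hV : p.eval₂ (Subring.inclusion hle) θV = 0 := by
      apply Subtype.val_injective
      have h := Polynomial.hom_eval₂ p (Subring.inclusion hle) (gaussV W res N).subtype θV
      exact h.trans hp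
    have h := Polynomial.hom_eval₂ p (Subring.inclusion hle) ρ θV
    rw [hV, map_zero, hθV] at h
    have hcomp : ρ.comp (Subring.inclusion hle) =
        (algebraMap ↥(IntermediateField.adjoin k {jqModC k}) (LaurentSeries k)).comp ρO :=
      RingHom.ext fun c => (hcompat c (hle c.2)).symm
    rw [← hcomp]
    exact h.symm
  -- `[F : L(j)] ≤ ψ(N)`
  have hψ : Module.finrank ↥(IntermediateField.adjoin L {jF L N}) ↥(FL L N) ≤ dedekindPsi N :=
    hBound N L _ _
      (Module.finBasis ↥(IntermediateField.adjoin L {jF L N}) ↥(FL L N)).linearIndependent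
  obtain ⟨fO, AO, BO, CO, hfOm, hroot, hprim, hid⟩ :=
    gb_monob_abstract o hO ρO hsurj ⟨cW W N ϖ, hϖmem⟩ hker' (θV : ↥(FL L N))
      (by rw [ho]; exact hθ) θbar hred (dedekindPsi N) hψ hdeg hsep
  refine ⟨(θV : ↥(FL L N)), fO.map (gaussO W res N).subtype, AO.map (gaussO W res N).subtype,
    BO.map (gaussO W res N).subtype, CO.map (gaussO W res N).subtype,
    ?_, ?_, ?_, ?_, hfOm.map _, ?_, hprim, ?_⟩
  · intro n
    rw [Polynomial.coeff_map]
    exact (fO.coeff n).2
  · intro n
    rw [Polynomial.coeff_map]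
    exact (AO.coeff n).2
  · intro n
    rw [Polynomial.coeff_map]
    exact (BO.coeff n).2
  · intro n
    rw [Polynomial.coeff_map]
    exact (CO.coeff n).2
  · rw [Polynomial.eval_map, ← ho]
    exact hroot
  · have h := congrArg (Polynomial.map (gaussO W res N).subtype) hid
    rw [Polynomial.map_add, Polynomial.map_mul, Polynomial.map_mul, Polynomial.map_add,
      Polynomial.map_one, Polynomial.map_mul, Polynomial.map_C,
      ← Polynomial.derivative_map] at h
    exact h

end

end Fermat.Agent.S18
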