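/-
S18, block G (twin B), package `O` (prefix `gb_o_`): the Gauss valuation ring `O₀ = gaussO W res N`
of `L(j)` (port of `Fermat/Agent/S28/KBO.lean` to an abstract discrete valuation ring `W ⊆ L`).

* `gb_o_sub : gb_OSubStatement`: the set `gaussSet W res N` is already a subring;
* `gb_o_le`: `O₀ ⊆ L(j)`;
* `gb_o_intClosed`: `O₀` is integrally closed in `L(j)` (it is a valuation ring of `L(j)`);
* `gb_o_main`: the three together.
-/
import Fermat.Agent.S18.GBInterfaces

set_option autoImplicit false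

open ModularCurve AlgebraicCurve

namespace Fermat.Agent.S18

noncomputable section

section General

variable {L : Type} [Field L] [Algebra ℚ L] (W : ValuationSubring L) {k : Type} [Field k]
  (res : ↥W →+* k) (N : ℕ)

/-- `ev (C w) = cW w`. -/
theorem gb_o_ev_C (t : ↥(FL L N)) (w : ↥W) : evW W N t (Polynomial.C w) = cW W N w := by
  unfold evW
  rw [Polynomial.coe_eval₂RingHom, Polynomial.eval₂_C]

variable [NeZero N]

/-- The set `gaussSet W res N` is closed under the ring operations: the subring `gaussO W res N`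
it generates is not bigger. -/
theorem gb_o_mem_gaussSet (c : ↥(FL L N)) (hc : c ∈ gaussO W res N) : c ∈ gaussSet W res N := by
  unfold gaussO at hc
  induction hc using Subring.closure_induction with
  | mem x hx => exact hx
  | zero => exact ⟨0, 1, by rw [Polynomial.map_one]; exact one_ne_zero, by simp⟩
  | one => exact ⟨1, 1, by rw [Polynomial.map_one]; exact one_ne_zero, by simp⟩
  | add x y hx hy ihx ihy =>
    obtain ⟨f₁, g₁, hg₁, h₁⟩ := ihx
    obtain ⟨f₂, g₂, hg₂, h₂⟩ := ihy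
    refine ⟨f₁ * g₂ + f₂ * g₁, g₁ * g₂, ?_, ?_⟩
    · rw [Polynomial.map_mul]
      exact mul_ne_zero hg₁ hg₂
    · rw [map_mul, map_add, map_mul, map_mul, ← h₁, ← h₂]
      ring
  | neg x hx ihx =>
    obtain ⟨f, g, hg, h⟩ := ihx
    refine ⟨-f, g, hg, ?_⟩
    rw [map_neg, ← h]
    ring
  | mul x y hx hy ihx ihy =>
    obtain ⟨f₁, g₁, hg₁, h₁⟩ := ihx
    obtain ⟨f₂, g₂, hg₂, h₂⟩ := ihy
    refine ⟨f₁ * f₂, g₁ * g₂, ?_, ?_⟩
    · rw [Polynomial.map_mul]
      exact mul_ne_zero hg₁ hg₂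
    · rw [map_mul, map_mul, ← h₁, ← h₂]
      ring

/-- The constants of `W` lie in `gaussSet W res N`. -/
theorem gb_o_cW_mem_gaussSet (w : ↥W) : cW W N w ∈ gaussSet W res N :=
  ⟨Polynomial.C w, 1, by rw [Polynomial.map_one]; exact one_ne_zero, by
    rw [map_one, one_mul, gb_o_ev_C]⟩

/-- `P(j) ∈ L(j)` for every `P ∈ W[X]`. -/
theorem gb_o_ev_mem (P : Polynomial ↥W) :
    evW W N (jF L N) P ∈ IntermediateField.adjoin L {jF L N} := by
  unfold evW
  rw [Polynomial.coe_eval₂RingHom, Polynomial.eval₂_eq_sum_range]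
  refine sum_mem fun i _ => mul_mem ?_ (pow_mem (IntermediateField.mem_adjoin_simple_self L _) _)
  exact IntermediateField.algebraMap_mem _ _

/-- `O₀ ⊆ L(j)`, given the transcendence of `j`. -/
theorem gb_o_mem_adjoin (hT : gb_TranscStatement) (c : ↥(FL L N)) (hc : c ∈ gaussO W res N) :
    c ∈ IntermediateField.adjoin L {jF L N} := by
  obtain ⟨f, g, hg, h⟩ := gb_o_mem_gaussSet W res N c hc
  have hg0 : g ≠ 0 := fun h0 => hg (by rw [h0, Polynomial.map_zero])
  have hev : evW W N (jF L N) g ≠ 0 := fun h0 =>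
    hg0 (hT N L W (h0.trans (map_zero _).symm))
  have hc' : c = evW W N (jF L N) f * (evW W N (jF L N) g)⁻¹ := by
    rw [eq_mul_inv_iff_mul_eq₀ hev, mul_comm]
    exact h
  rw [hc']
  exact mul_mem (gb_o_ev_mem W N f) (inv_mem (gb_o_ev_mem W N g))

end General

/-- A nonzero element `x` of a field which is integral over a subring `O` containing `x⁻¹` lies
in `O`. -/
theorem gb_o_mem_of_integral_of_inv_mem {E : Type} [Field E] (O : Subring E) (x : E)
    (hx : O.subtype.IsIntegralElem x) (hinv : x⁻¹ ∈ O) : x ∈ O := by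
  by_cases hx0 : x = 0
  · rw [hx0]
    exact zero_mem _
  obtain ⟨p, hpm, hpx⟩ := hx
  have hsum : x ^ p.natDegree =
      -∑ i ∈ Finset.range p.natDegree, ((p.coeff i : ↥O) : E) * x ^ i := by
    rw [hpm.as_sum, Polynomial.eval₂_add, Polynomial.eval₂_pow, Polynomial.eval₂_X,
      Polynomial.eval₂_finsetSum, add_eq_zero_iff_eq_neg] at hpx
    rw [hpx]
    congr 1
    refine Finset.sum_congr rfl fun i _ => ?_
    rw [Polynomial.eval₂_mul, Polynomial.eval₂_pow, Polynomial.eval₂_C, Polynomial.eval₂_X]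
    rfl
  rcases Nat.eq_zero_or_pos p.natDegree with hn | hn
  · rw [hn] at hsum
    simp at hsum
  · obtain ⟨m, hm⟩ : ∃ m, p.natDegree = m + 1 := Nat.exists_eq_succ_of_ne_zero hn.ne'
    rw [hm] at hsum
    have hxm : x = x ^ (m + 1) * x⁻¹ ^ m := by
      rw [pow_succ, mul_assoc, mul_comm x, ← mul_assoc, ← mul_pow, mul_inv_cancel₀ hx0, one_pow,
        one_mul]
    have hx' : x = -∑ i ∈ Finset.range (m + 1), ((p.coeff i : ↥O) : E) * x⁻¹ ^ (m - i) := by
      conv_lhs => rw [hxm, hsum, neg_mul, Finset.sum_mul]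
      congr 1
      refine Finset.sum_congr rfl fun i hi => ?_
      have him : i ≤ m := Nat.lt_succ_iff.mp (Finset.mem_range.mp hi)
      have hpow : x ^ i * x⁻¹ ^ m = x⁻¹ ^ (m - i) := by
        conv_lhs => rw [← Nat.sub_add_cancel him, pow_add, mul_comm (x⁻¹ ^ (m - i)), ← mul_assoc,
          ← mul_pow, mul_inv_cancel₀ hx0, one_pow, one_mul]
      rw [mul_assoc, hpow]
    rw [hx']
    exact neg_mem (sum_mem fun i _ => mul_mem (p.coeff i).2 (pow_mem hinv _))

/-- (O1) `gaussSet` is a subring, i.e. equals its subring closure `gaussO`. -/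
theorem gb_o_sub : gb_OSubStatement := by
  intro N _ ℓ _ L _ _ W _ k _ _ _ res ϖ _ c hc
  exact gb_o_mem_gaussSet W res N c hc

/-- (O2) `O₀ ⊆ L(j)`. -/
theorem gb_o_le : gb_TranscStatement → gb_OLeStatement := by
  intro hT N _ ℓ _ L _ _ W _ k _ _ _ res ϖ _ c hc
  exact gb_o_mem_adjoin W res N hT c hc

/-- The valuation property of `O₀` in `L(j)`: every `c ∈ L(j)` lies in `O₀`, or `c ≠ 0` and
`c⁻¹ ∈ ϖ O₀`. -/
theorem gb_o_mem_or_inv_mem (hT : gb_TranscStatement) (hF : gb_FracStatement)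
    (hC : gb_ContentStatement) (hR : gb_ResStatement)
    (N : ℕ) [NeZero N] (ℓ : ℕ) [Fact ℓ.Prime] (L : Type) [Field L] [Algebra ℚ L]
    (W : ValuationSubring L) [IsDiscreteValuationRing ↥W] (k : Type) [Field k] [IsAlgClosed k]
    [CharP k ℓ] (res : ↥W →+* k) (ϖ : ↥W) (hD : BaseData N ℓ W res ϖ)
    (c : ↥(FL L N)) (hc : c ∈ IntermediateField.adjoin L {jF L N}) :
    c ∈ gaussSet W res N ∨ (c ≠ 0 ∧ ∃ d ∈ gaussSet W res N, c⁻¹ = cW W N ϖ * d) := by
  obtain ⟨g, f, hg, hgf⟩ := hF N L W 1 (fun _ => c) (fun _ => hc)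
  obtain ⟨e, g', f', hg', hf', hnot⟩ := hC N ℓ L W k res ϖ hD 1 g f hg
  have hpe : evW W N (jF L N) (Polynomial.C ϖ ^ e) ≠ 0 := by
    intro h
    have h0 : Polynomial.C ϖ ^ e = 0 := hT N L W (h.trans (map_zero _).symm)
    exact pow_ne_zero e (Polynomial.C_ne_zero.mpr hD.irreducible.ne_zero) h0
  have key : evW W N (jF L N) g' * c = evW W N (jF L N) (f' 0) := by
    have h := hgf 0
    rw [hg', hf' 0, map_mul, map_mul, mul_assoc] at h
    exact mul_left_cancel₀ hpe h
  by_cases h1 : g'.map res = 0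
  · right
    have h2 : (f' 0).map res ≠ 0 := fun h =>
      hnot ⟨h1, fun i => by rw [Fin.eq_zero i]; exact h⟩
    have hf0 : f' 0 ≠ 0 := fun h0 => h2 (by rw [h0, Polynomial.map_zero])
    have hevf : evW W N (jF L N) (f' 0) ≠ 0 := fun h0 =>
      hf0 (hT N L W (h0.trans (map_zero _).symm))
    have hc0 : c ≠ 0 := by
      intro h0
      rw [h0, mul_zero] at key
      exact hevf key.symm
    obtain ⟨g'', hg''⟩ := ((hR N ℓ L W k res ϖ hD).1 g').mp h1
    have key' : cW W N ϖ * evW W N (jF L N) g'' * c = evW W N (jF L N) (f' 0) := by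
      rw [← key, hg'', map_mul, gb_o_ev_C]
    refine ⟨hc0, evW W N (jF L N) g'' * (evW W N (jF L N) (f' 0))⁻¹, ⟨g'', f' 0, h2, ?_⟩, ?_⟩
    · rw [mul_comm (evW W N (jF L N) g''), ← mul_assoc, mul_inv_cancel₀ hevf, one_mul]
    · have hA : cW W N ϖ * evW W N (jF L N) g'' ≠ 0 := by
        intro h0
        rw [h0, zero_mul] at key'
        exact hevf key'.symm
      have hinv : (evW W N (jF L N) (f' 0))⁻¹ =
          (cW W N ϖ * evW W N (jF L N) g'')⁻¹ * c⁻¹ := by
        rw [← key']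
        exact mul_inv _ _
      calc c⁻¹ = cW W N ϖ * evW W N (jF L N) g'' *
            (cW W N ϖ * evW W N (jF L N) g'')⁻¹ * c⁻¹ := by
            rw [mul_inv_cancel₀ hA, one_mul]
        _ = cW W N ϖ * (evW W N (jF L N) g'' *
            ((cW W N ϖ * evW W N (jF L N) g'')⁻¹ * c⁻¹)) := by
            simp only [mul_assoc]
        _ = cW W N ϖ * (evW W N (jF L N) g'' * (evW W N (jF L N) (f' 0))⁻¹) := by
            rw [hinv]
  · left
    exact ⟨f' 0, g', h1, key⟩

/-- (O3) `O₀` is integrally closed in `L(j)`. -/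
theorem gb_o_intClosed : gb_TranscStatement → gb_FracStatement → gb_ContentStatement →
    gb_ResStatement → gb_OIntClosedStatement := by
  intro hT hF hC hR N _ ℓ _ L _ _ W _ k _ _ _ res ϖ hD c hc hint
  rcases gb_o_mem_or_inv_mem hT hF hC hR N ℓ L W k res ϖ hD c hc with h | ⟨_, d, hd, hcd⟩
  · exact Subring.subset_closure h
  · refine gb_o_mem_of_integral_of_inv_mem (gaussO W res N) c hint ?_
    rw [hcd]
    exact mul_mem (Subring.subset_closure (gb_o_cW_mem_gaussSet W res N ϖ))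
      (Subring.subset_closure hd)

/-- Package `O`: `gaussSet` is a subring, `O₀ ⊆ L(j)`, and `O₀` is integrally closed in `L(j)`. -/
theorem gb_o_main : gb_TranscStatement → gb_FracStatement → gb_ContentStatement →
    gb_ResStatement → gb_OSubStatement ∧ gb_OLeStatement ∧ gb_OIntClosedStatement :=
  fun hT hF hC hR => ⟨gb_o_sub, gb_o_le hT, gb_o_intClosed hT hF hC hR⟩

end

end Fermat.Agent.S18
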