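/-
S18, block G (twin B), package OBA (K5b): `O₀ ∩ L[t] ⊆ W[t]` for `t = j` and `t = j⁻¹`
(port of `Fermat/Agent/S28/KBOBA.lean` to an abstract discrete valuation ring `W ⊆ L`).

Main theorem:
`gb_oba_main : gb_TranscStatement → gb_OSubStatement → gb_ResStatement → gb_OBAStatement`.
-/
import Fermat.Agent.S18.GBInterfaces

set_option autoImplicit false

open ModularCurve AlgebraicCurve

namespace Fermat.Agent.S18

noncomputable section

/-- Link lemma: `evW W N t P` is the evaluation at `t` of the image of `P` in `L[X]`. -/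
theorem gb_oba_evW_eq_aeval {L : Type} [Field L] [Algebra ℚ L] (W : ValuationSubring L) (N : ℕ)
    (t : ↥(FL L N)) (P : Polynomial ↥W) :
    evW W N t P = Polynomial.aeval t (P.map W.subtype) := by
  rw [Polynomial.aeval_def, Polynomial.eval₂_map]
  rfl

/-- Clearing denominators of a polynomial over the fraction field of a valuation ring. -/
theorem gb_oba_clear {L : Type} [Field L] (W : ValuationSubring L) (p : Polynomial L) :
    ∃ (d : ↥W) (P : Polynomial ↥W), d ≠ 0 ∧
      P.map W.subtype = Polynomial.C (d : L) * p := by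
  induction p using Polynomial.induction_on' with
  | add p q hp hq =>
    obtain ⟨d₁, P₁, hd₁, h₁⟩ := hp
    obtain ⟨d₂, P₂, hd₂, h₂⟩ := hq
    refine ⟨d₁ * d₂, Polynomial.C d₂ * P₁ + Polynomial.C d₁ * P₂, mul_ne_zero hd₁ hd₂, ?_⟩
    rw [Polynomial.map_add, Polynomial.map_mul, Polynomial.map_mul, h₁, h₂, Polynomial.map_C,
      Polynomial.map_C]
    simp only [ValuationSubring.subtype_apply, MulMemClass.coe_mul, Polynomial.C_mul]
    ring
  | monomial m q =>
    rcases W.mem_or_inv_mem q with hq | hq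
    · refine ⟨1, Polynomial.monomial m ⟨q, hq⟩, one_ne_zero, ?_⟩
      rw [Polynomial.map_monomial, OneMemClass.coe_one, Polynomial.C_1, one_mul]
      rfl
    · by_cases hq0 : q = 0
      · refine ⟨1, 0, one_ne_zero, ?_⟩
        rw [hq0, Polynomial.monomial_zero_right, mul_zero, Polynomial.map_zero]
      · refine ⟨⟨q⁻¹, hq⟩, Polynomial.monomial m 1, ?_, ?_⟩
        · intro h
          exact inv_ne_zero hq0 (congrArg Subtype.val h)
        · rw [Polynomial.map_monomial, Polynomial.C_mul_monomial, map_one]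
          show Polynomial.monomial m 1 = Polynomial.monomial m (q⁻¹ * q)
          rw [inv_mul_cancel₀ hq0]

/-- Clearing denominators in a discrete valuation ring by a power of the uniformiser. -/
theorem gb_oba_clear_pow {L : Type} [Field L] (W : ValuationSubring L)
    [IsDiscreteValuationRing ↥W] (ϖ : ↥W) (hϖ : Irreducible ϖ) (p : Polynomial L) :
    ∃ (a : ℕ) (P : Polynomial ↥W), P.map W.subtype = Polynomial.C ((ϖ : L) ^ a) * p := by
  obtain ⟨d, P₀, hd, hP₀⟩ := gb_oba_clear W p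
  obtain ⟨a, u, hu⟩ := IsDiscreteValuationRing.eq_unit_mul_pow_irreducible hd hϖ
  refine ⟨a, Polynomial.C ((u⁻¹ : (↥W)ˣ) : ↥W) * P₀, ?_⟩
  have hL : (W.subtype ((u⁻¹ : (↥W)ˣ) : ↥W) : L) * (d : L) = (ϖ : L) ^ a := by
    have h1 : ((u⁻¹ : (↥W)ˣ) : ↥W) * d = ϖ ^ a := by
      rw [hu, ← mul_assoc, Units.inv_mul, one_mul]
    have h2 := congrArg W.subtype h1
    rw [map_mul, map_pow] at h2
    exact h2
  rw [Polynomial.map_mul, Polynomial.map_C, hP₀, ← mul_assoc, ← Polynomial.C_mul, hL]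

/-- The case `t = j` of `gb_OBAStatement`. -/
theorem gb_oba_case_j (hT : gb_TranscStatement) (hO : gb_OSubStatement) (hR : gb_ResStatement)
    (N : ℕ) [NeZero N] (ℓ : ℕ) [Fact ℓ.Prime] (L : Type) [Field L] [Algebra ℚ L]
    (W : ValuationSubring L) [IsDiscreteValuationRing ↥W] (k : Type) [Field k] [IsAlgClosed k]
    [CharP k ℓ] (res : ↥W →+* k) (ϖ : ↥W) (hD : BaseData N ℓ W res ϖ)
    (p : Polynomial L) (hp : Polynomial.aeval (jF L N) p ∈ gaussO W res N) (n : ℕ) :
    p.coeff n ∈ W := by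
  have hRes : ∀ P : Polynomial ↥W, P.map res = 0 ↔ Polynomial.C ϖ ∣ P :=
    (hR N ℓ L W k res ϖ hD).1
  have hπ : Prime (Polynomial.C ϖ) := Polynomial.prime_C_iff.mpr hD.irreducible.prime
  obtain ⟨f, g, hg, hgf⟩ := hO N ℓ L W k res ϖ hD _ hp
  obtain ⟨a, P, hP⟩ := gb_oba_clear_pow W ϖ hD.irreducible p
  have hϖ0 : (ϖ : L) ≠ 0 := by
    intro h
    exact hD.irreducible.ne_zero (Subtype.ext h)
  -- `g * P = C ϖ ^ a * f` by transcendence of `j`
  have h1 : g * P = Polynomial.C ϖ ^ a * f := by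
    apply hT N L W
    have hC : evW W N (jF L N) (Polynomial.C ϖ ^ a) =
        Polynomial.aeval (jF L N) (Polynomial.C ((ϖ : L) ^ a)) := by
      rw [gb_oba_evW_eq_aeval, Polynomial.map_pow, Polynomial.map_C, Polynomial.C_pow]
      rfl
    rw [map_mul, map_mul, gb_oba_evW_eq_aeval W N (jF L N) P, hP, map_mul, ← hgf, hC]
    ring
  have hg' : ¬ Polynomial.C ϖ ∣ g := fun h => hg ((hRes g).mpr h)
  have h2 : Polynomial.C ϖ ^ a ∣ P := by
    apply hπ.pow_dvd_of_dvd_mul_left a hg'
    rw [h1]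
    exact dvd_mul_right _ _
  obtain ⟨P', hP'⟩ := h2
  have h3 : P'.map W.subtype = p := by
    have h4 : Polynomial.C ((ϖ : L) ^ a) * P'.map W.subtype = Polynomial.C ((ϖ : L) ^ a) * p := by
      rw [← hP, hP', Polynomial.map_mul, Polynomial.map_pow, Polynomial.map_C, Polynomial.C_pow]
      rfl
    exact mul_left_cancel₀ (Polynomial.C_ne_zero.mpr (pow_ne_zero a hϖ0)) h4
  rw [← h3, Polynomial.coeff_map]
  exact (P'.coeff n).2

/-- `j ≠ 0` in `F`. -/
theorem gb_oba_jF_ne_zero (hT : gb_TranscStatement) {L : Type} [Field L] [Algebra ℚ L]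
    (W : ValuationSubring L) (N : ℕ) [NeZero N] : jF L N ≠ 0 := by
  intro h
  have h1 : evW W N (jF L N) Polynomial.X = evW W N (jF L N) 0 := by
    rw [map_zero, ← h]
    exact Polynomial.eval₂_X _ _
  exact Polynomial.X_ne_zero (hT N L W h1)

/-- `j ∈ O₀`. -/
theorem gb_oba_jF_mem {L : Type} [Field L] [Algebra ℚ L] (W : ValuationSubring L) {k : Type}
    [Field k] (res : ↥W →+* k) (N : ℕ) [NeZero N] : jF L N ∈ gaussO W res N := by
  apply Subring.subset_closure
  refine ⟨Polynomial.X, 1, ?_, ?_⟩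
  · rw [Polynomial.map_one]
    exact one_ne_zero
  · rw [map_one, one_mul]
    exact (Polynomial.eval₂_X _ _).symm

/-- (K5b) `O₀ ∩ L[t] ⊆ W[t]` for `t = j` and `t = j⁻¹`. -/
theorem gb_oba_main :
    gb_TranscStatement → gb_OSubStatement → gb_ResStatement → gb_OBAStatement := by
  intro hT hO hR N _ ℓ _ L _ _ W _ k _ _ _ res ϖ hD t ht p hp n
  rcases ht with rfl | rfl
  · exact gb_oba_case_j hT hO hR N ℓ L W k res ϖ hD p hp n
  · have hj : jF L N ≠ 0 := gb_oba_jF_ne_zero hT W N
    have hrev : Polynomial.aeval (jF L N) p.reverse =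
        Polynomial.aeval (jF L N)⁻¹ p * jF L N ^ p.natDegree := by
      let _ : Invertible ((jF L N)⁻¹) := invertibleOfNonzero (inv_ne_zero hj)
      have h := Polynomial.eval₂_reverse_mul_pow (algebraMap L ↥(FL L N)) ((jF L N)⁻¹) p
      rw [invOf_eq_inv, inv_inv] at h
      rw [Polynomial.aeval_def, Polynomial.aeval_def, ← h, mul_assoc, ← mul_pow,
        inv_mul_cancel₀ hj, one_pow, mul_one]
    have hmem : Polynomial.aeval (jF L N) p.reverse ∈ gaussO W res N := by
      rw [hrev]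
      exact Subring.mul_mem _ hp (Subring.pow_mem _ (gb_oba_jF_mem W res N) _)
    have hcoef := gb_oba_case_j hT hO hR N ℓ L W k res ϖ hD p.reverse hmem
    by_cases hn : n ≤ p.natDegree
    · have h := hcoef (p.natDegree - n)
      rw [Polynomial.coeff_reverse, Polynomial.revAt_le (Nat.sub_le _ _), Nat.sub_sub_self hn] at h
      exact h
    · rw [Polynomial.coeff_eq_zero_of_natDegree_lt (not_le.mp hn)]
      exact W.zero_mem

end

end Fermat.Agent.S18
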