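/-
S18, block G (twin B), package Prim (G9b): a primitive element of `F_k / k(j̄)` of degree at least
`ψ(N)`.

Main theorem:
`gb_prim_main : S28.ModLDegStatement → FkSepStatement → gb_PrimStatement`.
-/
import Fermat.Agent.S18.GBInterfaces

set_option autoImplicit false

open ModularCurve AlgebraicCurve

namespace Fermat.Agent.S18

noncomputable section

/-- (1) The set of the divisor expansions `j̄(q^d)`, `d ∣ N`, is finite. -/
theorem gb_prim_finite (k : Type) [Field k] (N : ℕ) [NeZero N] :
    (divisorExpansionsC k N).Finite := by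
  classical
  let f : ℕ → LaurentSeries k := fun d =>
    if h : d = 0 then 0 else (haveI : NeZero d := ⟨h⟩; qExpand k d (jqModC k))
  refine Set.Finite.subset ((Finset.finite_toSet (Finset.range (N + 1))).image f) ?_
  rintro x ⟨d, hd, hdN, rfl⟩
  refine ⟨d, ?_, ?_⟩
  · rw [Finset.mem_coe, Finset.mem_range]
    exact Nat.lt_succ_of_le (Nat.le_of_dvd (Nat.pos_of_ne_zero (NeZero.ne N)) hdN)
  · show (if h : d = 0 then 0 else (haveI : NeZero d := ⟨h⟩; qExpand k d (jqModC k))) = _
    rw [dif_neg (NeZero.ne d)]

/-- `k(j̄) ⊆ F_k`. -/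
theorem gb_prim_Kk_le (k : Type) [Field k] (N : ℕ) [NeZero N] :
    IntermediateField.adjoin k {jqModC k} ≤ Fk k N := by
  rw [IntermediateField.adjoin_le_iff]
  intro x hx
  rw [Set.mem_singleton_iff] at hx
  rw [hx]
  exact jqModC_mem_full k N

/-- (2, ⊆) `k(j̄)(T) ⊆ F_k`, where `T` is the set of divisor expansions. -/
theorem gb_prim_mem_Fk (k : Type) [Field k] (N : ℕ) [NeZero N] (x : LaurentSeries k)
    (hx : x ∈ IntermediateField.adjoin ↥(IntermediateField.adjoin k {jqModC k})
      (divisorExpansionsC k N)) : x ∈ Fk k N := by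
  have hle : IntermediateField.adjoin ↥(IntermediateField.adjoin k {jqModC k})
      (divisorExpansionsC k N) ≤ IntermediateField.extendScalars (gb_prim_Kk_le k N) := by
    rw [IntermediateField.adjoin_le_iff]
    intro y hy
    rw [SetLike.mem_coe, IntermediateField.mem_extendScalars]
    exact IntermediateField.subset_adjoin k _ hy
  exact (IntermediateField.mem_extendScalars _).mp (hle hx)

/-- (2, ⊇) `F_k ⊆ k(j̄)(T)`. -/
theorem gb_prim_mem_Ek (k : Type) [Field k] (N : ℕ) [NeZero N] (x : LaurentSeries k)
    (hx : x ∈ Fk k N) :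
    x ∈ IntermediateField.adjoin ↥(IntermediateField.adjoin k {jqModC k})
      (divisorExpansionsC k N) := by
  have hle : Fk k N ≤ (IntermediateField.adjoin ↥(IntermediateField.adjoin k {jqModC k})
      (divisorExpansionsC k N)).restrictScalars k := by
    show IntermediateField.adjoin k (divisorExpansionsC k N) ≤ _
    rw [IntermediateField.adjoin_le_iff]
    intro y hy
    rw [SetLike.mem_coe, IntermediateField.mem_restrictScalars]
    exact IntermediateField.subset_adjoin ↥(IntermediateField.adjoin k {jqModC k})
      (divisorExpansionsC k N) hy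
  exact (IntermediateField.mem_restrictScalars k).mp (hle hx)

/-- (G9b) A primitive element of `F_k / k(j̄)` of degree at least `ψ(N)`. -/
theorem gb_prim_main : S28.ModLDegStatement → FkSepStatement → gb_PrimStatement := by
  intro hM hS N _ ℓ _ hℓN k _ _ _
  have hsepT : ∀ x ∈ divisorExpansionsC k N,
      IsSeparable ↥(IntermediateField.adjoin k {jqModC k}) x :=
    fun x hx => hS N ℓ hℓN k x (IntermediateField.subset_adjoin k _ hx)
  have : Finite ↥(divisorExpansionsC k N) := (gb_prim_finite k N).to_subtype
  have hfd : FiniteDimensional ↥(IntermediateField.adjoin k {jqModC k})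
      ↥(IntermediateField.adjoin ↥(IntermediateField.adjoin k {jqModC k})
        (divisorExpansionsC k N)) :=
    IntermediateField.finiteDimensional_adjoin (fun x hx => (hsepT x hx).isIntegral)
  have hsep : Algebra.IsSeparable ↥(IntermediateField.adjoin k {jqModC k})
      ↥(IntermediateField.adjoin ↥(IntermediateField.adjoin k {jqModC k})
        (divisorExpansionsC k N)) :=
    (IntermediateField.isSeparable_adjoin_iff_isSeparable _ _).mpr hsepT
  obtain ⟨α, hα⟩ := Field.exists_primitive_element ↥(IntermediateField.adjoin k {jqModC k})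
    ↥(IntermediateField.adjoin ↥(IntermediateField.adjoin k {jqModC k})
      (divisorExpansionsC k N))
  have hdeg := (Field.primitive_element_iff_minpoly_natDegree_eq
    ↥(IntermediateField.adjoin k {jqModC k}) α).mp hα
  obtain ⟨b, hb, hbi⟩ := hM N ℓ hℓN k
  have hli : LinearIndependent ↥(IntermediateField.adjoin k {jqModC k})
      (fun i => (⟨b i, gb_prim_mem_Ek k N (b i) (hb i)⟩ :
        ↥(IntermediateField.adjoin ↥(IntermediateField.adjoin k {jqModC k})
          (divisorExpansionsC k N)))) := by
    apply LinearIndependent.of_comp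
      (IntermediateField.adjoin ↥(IntermediateField.adjoin k {jqModC k})
        (divisorExpansionsC k N)).val.toLinearMap
    exact hbi
  have hcard := hli.fintype_card_le_finrank
  rw [Fintype.card_fin] at hcard
  refine ⟨(α : LaurentSeries k), gb_prim_mem_Fk k N _ α.2, ?_⟩
  rw [← IntermediateField.minpoly_eq, hdeg]
  exact hcard

end

end Fermat.Agent.S18
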