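/-
S18, block G (twin B), package `RhoA` (G5a), prefix `gb_rhoa_`:
construction of the reduction map `ρ : V → k((q))` with `gb_RhoSpec`
(`ρ x * ḡ(j̄) = red y` for every witness `(g, y)` of `x ∈ V = M'`).
-/
import Fermat.Agent.S18.GBInterfaces2
import Fermat.Agent.S28.DegMainAux

set_option autoImplicit false

open ModularCurve AlgebraicCurve

namespace Fermat.Agent.S18

noncomputable section

section

variable {L : Type} [Field L] [Algebra ℚ L] (W : ValuationSubring L) {k : Type} [Field k]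
  (res : ↥W →+* k) (N : ℕ) [NeZero N]

omit [Algebra ℚ L] in
/-- (a) `ḡ(j̄) ≠ 0` when `g mod ϖ ≠ 0`. -/
theorem gb_rhoa_ebar_ne_zero (g : Polynomial ↥W) (hg : g.map res ≠ 0) :
    S28.evalL (jqModC k) (g.map res) ≠ 0 :=
  fun h => hg (S28.degMain_evalL_eq_zero _ h)

omit [Algebra ℚ L] in
/-- (b) the reduction of `g(jW)` is `ḡ(j̄)`. -/
theorem gb_rhoa_red_evalL (g : Polynomial ↥W) :
    coeffMap res (S28.evalL (jqModC ↥W) g) = S28.evalL (jqModC k) (g.map res) := by
  rw [S28.degMain_coeffMap_evalL, coeffMap_jqModC]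

/-- Step 1: independence of the witness. -/
theorem gb_rhoa_indep (hE : gb_EvCoeStatement) (x : ↥(FL L N)) (g₁ g₂ : Polynomial ↥W)
    (y₁ y₂ : LaurentSeries ↥W)
    (h₁ : ((evW W N (jF L N) g₁ * x : ↥(FL L N)) : LaurentSeries L) = coeffMap W.subtype y₁)
    (h₂ : ((evW W N (jF L N) g₂ * x : ↥(FL L N)) : LaurentSeries L) = coeffMap W.subtype y₂) :
    coeffMap res y₁ * S28.evalL (jqModC k) (g₂.map res) =
      coeffMap res y₂ * S28.evalL (jqModC k) (g₁.map res) := by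
  have hinj := S28.degMain_coeffMap_injective W.subtype W.subtype_injective
  have h : S28.evalL (jqModC ↥W) g₂ * y₁ = S28.evalL (jqModC ↥W) g₁ * y₂ := by
    apply hinj
    rw [map_mul, map_mul, ← hE N L W g₂, ← hE N L W g₁, ← h₁, ← h₂, ← IntermediateField.coe_mul,
      ← IntermediateField.coe_mul, mul_left_comm]
  have h' := congrArg (coeffMap res) h
  rw [map_mul, map_mul, gb_rhoa_red_evalL, gb_rhoa_red_evalL] at h'
  rw [mul_comm, h', mul_comm]

/-- Step 2: the reduction map as a function on `F` (meaningful on `M'`): the element `z` of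
`k((q))` with `z * ḡ(j̄) = red y` for every witness `(g, y)` of `x`. -/
def gb_rhoa_fun (x : ↥(FL L N)) : LaurentSeries k :=
  Classical.epsilon fun z : LaurentSeries k =>
    ∀ (g : Polynomial ↥W) (y : LaurentSeries ↥W), g.map res ≠ 0 →
      ((evW W N (jF L N) g * x : ↥(FL L N)) : LaurentSeries L) = coeffMap W.subtype y →
      z * S28.evalL (jqModC k) (g.map res) = coeffMap res y

/-- The defining property of `gb_rhoa_fun`. -/
theorem gb_rhoa_fun_spec (hE : gb_EvCoeStatement) (x : ↥(FL L N)) (g : Polynomial ↥W)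
    (y : LaurentSeries ↥W) (hg : g.map res ≠ 0)
    (hxy : ((evW W N (jF L N) g * x : ↥(FL L N)) : LaurentSeries L) = coeffMap W.subtype y) :
    gb_rhoa_fun W res N x * S28.evalL (jqModC k) (g.map res) = coeffMap res y := by
  have hex : ∃ z : LaurentSeries k, ∀ (g' : Polynomial ↥W) (y' : LaurentSeries ↥W),
      g'.map res ≠ 0 →
      ((evW W N (jF L N) g' * x : ↥(FL L N)) : LaurentSeries L) = coeffMap W.subtype y' →
      z * S28.evalL (jqModC k) (g'.map res) = coeffMap res y' := by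
    refine ⟨coeffMap res y * (S28.evalL (jqModC k) (g.map res))⁻¹, fun g' y' _ hxy' => ?_⟩
    have h := gb_rhoa_indep W res N hE x g g' y y' hxy hxy'
    rw [mul_right_comm, h, mul_assoc, mul_inv_cancel₀ (gb_rhoa_ebar_ne_zero W res g hg), mul_one]
  exact Classical.epsilon_spec hex g y hg hxy

theorem gb_rhoa_fun_one (hE : gb_EvCoeStatement) :
    gb_rhoa_fun W res N (1 : ↥(FL L N)) = 1 := by
  have h := gb_rhoa_fun_spec W res N hE 1 1 1 (by rw [Polynomial.map_one]; exact one_ne_zero)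
    (by rw [map_one, mul_one, map_one]; rfl)
  rw [Polynomial.map_one, map_one, mul_one, map_one] at h
  exact h

theorem gb_rhoa_fun_zero (hE : gb_EvCoeStatement) :
    gb_rhoa_fun W res N (0 : ↥(FL L N)) = 0 := by
  have h := gb_rhoa_fun_spec W res N hE 0 1 0 (by rw [Polynomial.map_one]; exact one_ne_zero)
    (by rw [mul_zero, map_zero]; rfl)
  rw [Polynomial.map_one, map_one, mul_one, map_zero] at h
  exact h

theorem gb_rhoa_fun_mul (hE : gb_EvCoeStatement) (x₁ x₂ : ↥(FL L N))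
    (h₁ : x₁ ∈ gb_M W res N) (h₂ : x₂ ∈ gb_M W res N) :
    gb_rhoa_fun W res N (x₁ * x₂) = gb_rhoa_fun W res N x₁ * gb_rhoa_fun W res N x₂ := by
  obtain ⟨g₁, y₁, hg₁, hy₁⟩ := h₁
  obtain ⟨g₂, y₂, hg₂, hy₂⟩ := h₂
  have hg : (g₁ * g₂).map res ≠ 0 := by
    rw [Polynomial.map_mul]
    exact mul_ne_zero hg₁ hg₂
  have hy : ((evW W N (jF L N) (g₁ * g₂) * (x₁ * x₂) : ↥(FL L N)) : LaurentSeries L) =
      coeffMap W.subtype (y₁ * y₂) := by
    rw [map_mul, map_mul, mul_mul_mul_comm, IntermediateField.coe_mul, hy₁, hy₂]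
  have h := gb_rhoa_fun_spec W res N hE (x₁ * x₂) (g₁ * g₂) (y₁ * y₂) hg hy
  have e₁ := gb_rhoa_fun_spec W res N hE x₁ g₁ y₁ hg₁ hy₁
  have e₂ := gb_rhoa_fun_spec W res N hE x₂ g₂ y₂ hg₂ hy₂
  apply mul_right_cancel₀ (gb_rhoa_ebar_ne_zero W res _ hg)
  rw [h, map_mul, ← e₁, ← e₂, Polynomial.map_mul, map_mul, mul_mul_mul_comm]

theorem gb_rhoa_fun_add (hE : gb_EvCoeStatement) (x₁ x₂ : ↥(FL L N))
    (h₁ : x₁ ∈ gb_M W res N) (h₂ : x₂ ∈ gb_M W res N) :
    gb_rhoa_fun W res N (x₁ + x₂) = gb_rhoa_fun W res N x₁ + gb_rhoa_fun W res N x₂ := by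
  obtain ⟨g₁, y₁, hg₁, hy₁⟩ := h₁
  obtain ⟨g₂, y₂, hg₂, hy₂⟩ := h₂
  have hg : (g₁ * g₂).map res ≠ 0 := by
    rw [Polynomial.map_mul]
    exact mul_ne_zero hg₁ hg₂
  have hy : ((evW W N (jF L N) (g₁ * g₂) * (x₁ + x₂) : ↥(FL L N)) : LaurentSeries L) =
      coeffMap W.subtype
        (S28.evalL (jqModC ↥W) g₂ * y₁ + S28.evalL (jqModC ↥W) g₁ * y₂) := by
    have hsplit : evW W N (jF L N) (g₁ * g₂) * (x₁ + x₂) =
        evW W N (jF L N) g₂ * (evW W N (jF L N) g₁ * x₁) +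
          evW W N (jF L N) g₁ * (evW W N (jF L N) g₂ * x₂) := by
      rw [map_mul]
      ring
    rw [hsplit, IntermediateField.coe_add,
      IntermediateField.coe_mul _ (evW W N (jF L N) g₂) (evW W N (jF L N) g₁ * x₁),
      IntermediateField.coe_mul _ (evW W N (jF L N) g₁) (evW W N (jF L N) g₂ * x₂),
      hy₁, hy₂, hE N L W g₁, hE N L W g₂, map_add, map_mul, map_mul]
  have h := gb_rhoa_fun_spec W res N hE (x₁ + x₂) (g₁ * g₂) _ hg hy
  have e₁ := gb_rhoa_fun_spec W res N hE x₁ g₁ y₁ hg₁ hy₁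
  have e₂ := gb_rhoa_fun_spec W res N hE x₂ g₂ y₂ hg₂ hy₂
  apply mul_right_cancel₀ (gb_rhoa_ebar_ne_zero W res _ hg)
  rw [h, map_add, map_mul, map_mul, gb_rhoa_red_evalL, gb_rhoa_red_evalL, ← e₁, ← e₂,
    Polynomial.map_mul, map_mul]
  ring

end

/-- (G5a) Existence of a ring homomorphism `ρ : V → k((q))` with `gb_RhoSpec`. -/
theorem gb_rhoa_main : gb_VEqStatement → gb_EvCoeStatement → gb_RhoExStatement := by
  intro hVEq hE N _ ℓ _ L _ _ W _ k _ _ _ res ϖ hD
  have hwit : ∀ x : ↥(gaussV W res N), (x : ↥(FL L N)) ∈ gb_M W res N :=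
    fun x => (hVEq N ℓ L W k res ϖ hD x.1).mp x.2
  refine ⟨{ toFun := fun x => gb_rhoa_fun W res N (x : ↥(FL L N))
            map_one' := gb_rhoa_fun_one W res N hE
            map_mul' := fun x₁ x₂ => gb_rhoa_fun_mul W res N hE _ _ (hwit x₁) (hwit x₂)
            map_zero' := gb_rhoa_fun_zero W res N hE
            map_add' := fun x₁ x₂ => gb_rhoa_fun_add W res N hE _ _ (hwit x₁) (hwit x₂) }, ?_⟩
  intro x g y hg hxy
  exact gb_rhoa_fun_spec W res N hE (x : ↥(FL L N)) g y hg hxy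

end

end Fermat.Agent.S18
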