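/-
S18, block G (twin B), package `RhoB` (G5b), prefix `gb_rhob_`.

Every ring homomorphism `ρ : V → k((q))` satisfying `gb_RhoSpec` (`ρ x * ḡ(j̄) = red y` for every
witness `(g, y)` of `x ∈ M'`) is a reduction map in the sense of `IsGaussRed`: it is the
coefficientwise reduction on `F ∩ ι (W((q)))`, its kernel is `ϖ V`, and its image is `F_k`.
-/
import Fermat.Agent.S18.GBInterfaces2
import Fermat.Agent.S28.DegMainAux

set_option autoImplicit false

open ModularCurve AlgebraicCurve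

namespace Fermat.Agent.S18

noncomputable section

/-! ## Elementary facts -/

/-- `p(j̄) ≠ 0` for `p ≠ 0`. -/
theorem gb_rhob_ebar_ne_zero {k : Type} [Field k] (p : Polynomial k) (hp : p ≠ 0) :
    S28.evalL (jqModC k) p ≠ 0 := fun h => hp (S28.degMain_evalL_eq_zero p h)

/-- `p(j̄) ∈ F_k`. -/
theorem gb_rhob_ebar_mem {k : Type} [Field k] (N : ℕ) [NeZero N] (p : Polynomial k) :
    S28.evalL (jqModC k) p ∈ Fk k N := by
  have h1 := S28.degMain_evalL_mem_adjoin (jqModC k) p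
  have h2 : IntermediateField.adjoin k {jqModC k} ≤ Fk k N := by
    rw [IntermediateField.adjoin_le_iff, Set.singleton_subset_iff]
    exact jqModC_mem_full k N
  exact h2 h1

/-- `red (P(jW)) = P̄(j̄)`. -/
theorem gb_rhob_red_evalL {R S : Type} [CommRing R] [CommRing S] (f : R →+* S)
    (P : Polynomial R) :
    coeffMap f (S28.evalL (jqModC R) P) = S28.evalL (jqModC S) (P.map f) := by
  rw [S28.degMain_coeffMap_evalL, coeffMap_jqModC]

/-- The constant `w ∈ W`, viewed in `L((q))`, is the image of the constant series. -/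
theorem gb_rhob_coe_cW {L : Type} [Field L] [Algebra ℚ L] (W : ValuationSubring L) (N : ℕ)
    (w : ↥W) :
    ((cW W N w : ↥(FL L N)) : LaurentSeries L) = coeffMap W.subtype (HahnSeries.C w) := by
  rw [S28.degMain_coeffMap_C]
  show algebraMap L (LaurentSeries L) (w : L) = _
  rw [S28.degMain_algebraMap_eq_C]
  rfl

/-- `cW` is injective. -/
theorem gb_rhob_cW_ne_zero {L : Type} [Field L] [Algebra ℚ L] (W : ValuationSubring L) (N : ℕ)
    (w : ↥W) (hw : w ≠ 0) : cW W N w ≠ 0 := by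
  have hinj : Function.Injective (cW W N : ↥W →+* ↥(FL L N)) :=
    (algebraMap L ↥(FL L N)).injective.comp Subtype.val_injective
  exact (map_ne_zero_iff _ hinj).mpr hw

/-- The series `j(q^d)`, `d ∣ N`, over `L` lies in `F`. -/
theorem gb_rhob_qExpand_mem {L : Type} [Field L] [Algebra ℚ L] (N d : ℕ) [NeZero d]
    (hd : d ∣ N) : qExpand L d (jqModC L) ∈ FL L N := by
  have h := coeffEmb_mem_laurentBaseChange L (jqd_mem_full N hd)
  rwa [coeffEmb, coeffMap_qExpand, ← coeffEmb, coeffEmb_jq] at h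

section Data

variable {N : ℕ} [NeZero N] {ℓ : ℕ} [Fact ℓ.Prime] {L : Type} [Field L] [Algebra ℚ L]
  (W : ValuationSubring L) [IsDiscreteValuationRing ↥W] {k : Type} [Field k] [IsAlgClosed k]
  [CharP k ℓ] (res : ↥W →+* k) (ϖ : ↥W)

omit [NeZero N] [Fact ℓ.Prime] [Algebra ℚ L] [IsDiscreteValuationRing ↥W] [IsAlgClosed k]
  [CharP k ℓ] in
/-- `res ϖ = 0`. -/
theorem gb_rhob_res_unif (hD : BaseData N ℓ W res ϖ) : res ϖ = 0 := by
  have h : ϖ ∈ RingHom.ker res := by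
    rw [hD.ker_res]
    exact Ideal.mem_span_singleton_self ϖ
  exact RingHom.mem_ker.mp h

/-- An element of `F` which is the image of a series over `W` lies in `V`. -/
theorem gb_rhob_mem_of_coe (hVEq : gb_VEqStatement) (hD : BaseData N ℓ W res ϖ)
    (u : ↥(FL L N)) (y : LaurentSeries ↥W)
    (h : ((u : ↥(FL L N)) : LaurentSeries L) = coeffMap W.subtype y) :
    u ∈ gaussV W res N := by
  rw [hVEq N ℓ L W k res ϖ hD]
  refine ⟨1, y, ?_, ?_⟩
  · rw [Polynomial.map_one]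
    exact one_ne_zero
  · rw [map_one, one_mul]
    exact h

omit [Fact ℓ.Prime] [IsDiscreteValuationRing ↥W] [IsAlgClosed k] [CharP k ℓ] in
/-- (red) On images of series over `W` the map `ρ` is the coefficientwise reduction. -/
theorem gb_rhob_red (ρ : ↥(gaussV W res N) →+* LaurentSeries k) (hρ : gb_RhoSpec W res N ρ)
    (x : ↥(gaussV W res N)) (y : LaurentSeries ↥W)
    (h : (((x : ↥(FL L N))) : LaurentSeries L) = coeffMap W.subtype y) :
    ρ x = coeffMap res y := by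
  have h1 := hρ x 1 y (by rw [Polynomial.map_one]; exact one_ne_zero)
    (by rw [map_one, one_mul]; exact h)
  rwa [Polynomial.map_one, map_one, mul_one] at h1

/-- (ker ←) `ρ` vanishes on `ϖ V`. -/
theorem gb_rhob_ker_of_mul (hVEq : gb_VEqStatement) (hD : BaseData N ℓ W res ϖ)
    (ρ : ↥(gaussV W res N) →+* LaurentSeries k) (hρ : gb_RhoSpec W res N ρ)
    (x x' : ↥(gaussV W res N))
    (hx : (x : ↥(FL L N)) = cW W N ϖ * (x' : ↥(FL L N))) : ρ x = 0 := by
  obtain ⟨g, y', hg, hy'⟩ := (hVEq N ℓ L W k res ϖ hD (x' : ↥(FL L N))).1 x'.2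
  have h1 : ((evW W N (jF L N) g * (x : ↥(FL L N)) : ↥(FL L N)) : LaurentSeries L) =
      coeffMap W.subtype (HahnSeries.C ϖ * y') := by
    rw [hx, mul_left_comm, MulMemClass.coe_mul, hy', gb_rhob_coe_cW, map_mul]
  have h2 := hρ x g _ hg h1
  rw [map_mul, S28.degMain_coeffMap_C, gb_rhob_res_unif W res ϖ hD, map_zero, zero_mul] at h2
  exact (mul_eq_zero.mp h2).resolve_right (gb_rhob_ebar_ne_zero _ hg)

/-- (ker →) The kernel of `ρ` is contained in `ϖ V`. -/
theorem gb_rhob_ker_exists (hVEq : gb_VEqStatement) (hRes : gb_ResStatement)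
    (hD : BaseData N ℓ W res ϖ)
    (ρ : ↥(gaussV W res N) →+* LaurentSeries k) (hρ : gb_RhoSpec W res N ρ)
    (x : ↥(gaussV W res N)) (hx : ρ x = 0) :
    ∃ x' : ↥(gaussV W res N), (x : ↥(FL L N)) = cW W N ϖ * (x' : ↥(FL L N)) := by
  obtain ⟨g, y, hg, hy⟩ := (hVEq N ℓ L W k res ϖ hD (x : ↥(FL L N))).1 x.2
  have h1 := hρ x g y hg hy
  rw [hx, zero_mul] at h1
  obtain ⟨y', rfl⟩ := ((hRes N ℓ L W k res ϖ hD).2 y).1 h1.symm
  have hϖ : cW W N ϖ ≠ 0 := gb_rhob_cW_ne_zero W N ϖ hD.irreducible.ne_zero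
  have hc : ((cW W N ϖ : ↥(FL L N)) : LaurentSeries L) ≠ 0 := fun h0 =>
    hϖ (Subtype.ext h0)
  have hx' : (cW W N ϖ)⁻¹ * (x : ↥(FL L N)) ∈ gaussV W res N := by
    rw [hVEq N ℓ L W k res ϖ hD]
    refine ⟨g, y', hg, ?_⟩
    apply mul_left_cancel₀ hc
    rw [← MulMemClass.coe_mul, gb_rhob_coe_cW, ← map_mul, ← hy]
    congr 1
    rw [mul_left_comm, mul_inv_cancel_left₀ hϖ]
  exact ⟨⟨_, hx'⟩, (mul_inv_cancel_left₀ hϖ _).symm⟩

/-- The reduction of a series over `W` whose image over `L` lies in `F` lies in `F_k`. -/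
theorem gb_rhob_red_mem (hMono : gb_MonoStatement) (hKey : gb_KeyStatement)
    (hT3 : gb_EvCoeStatement) (hD : BaseData N ℓ W res ϖ)
    (u : ↥(FL L N)) (y : LaurentSeries ↥W)
    (hu : ((u : ↥(FL L N)) : LaurentSeries L) = coeffMap W.subtype y) :
    coeffMap res y ∈ Fk k N := by
  obtain ⟨m, b, hm⟩ := hMono N ℓ L W k res ϖ hD
  obtain ⟨g', f, hg', hgf⟩ := hKey N ℓ L W k res ϖ hD m b hm u y hu
  have h1 : S28.evalL (jqModC ↥W) g' * y = ∑ i, S28.evalL (jqModC ↥W) (f i) * m i := by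
    apply S28.degMain_coeffMap_injective W.subtype Subtype.val_injective
    rw [map_mul, map_sum, ← hT3 N L W g', ← hu, ← MulMemClass.coe_mul, hgf,
      AddSubmonoidClass.coe_finsetSum]
    refine Finset.sum_congr rfl fun i _ => ?_
    rw [MulMemClass.coe_mul, hT3, hm.coe, map_mul]
  have h2 : S28.evalL (jqModC k) (g'.map res) * coeffMap res y =
      ∑ i, S28.evalL (jqModC k) ((f i).map res) * coeffMap res (m i) := by
    have h := congrArg (coeffMap res) h1
    rw [map_mul, map_sum, gb_rhob_red_evalL] at h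
    rw [h]
    refine Finset.sum_congr rfl fun i _ => ?_
    rw [map_mul, gb_rhob_red_evalL]
  have h3 : S28.evalL (jqModC k) (g'.map res) ≠ 0 := gb_rhob_ebar_ne_zero _ hg'
  have h4 : coeffMap res y = (S28.evalL (jqModC k) (g'.map res))⁻¹ *
      (S28.evalL (jqModC k) (g'.map res) * coeffMap res y) := by
    rw [← mul_assoc, inv_mul_cancel₀ h3, one_mul]
  rw [h4, h2]
  exact mul_mem (inv_mem (gb_rhob_ebar_mem N _))
    (sum_mem fun i _ => mul_mem (gb_rhob_ebar_mem N _) (hm.memk i))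

/-- (range ←) The image of `ρ` is contained in `F_k`. -/
theorem gb_rhob_range_le (hVEq : gb_VEqStatement) (hMono : gb_MonoStatement)
    (hKey : gb_KeyStatement) (hT3 : gb_EvCoeStatement) (hD : BaseData N ℓ W res ϖ)
    (ρ : ↥(gaussV W res N) →+* LaurentSeries k) (hρ : gb_RhoSpec W res N ρ)
    (x : ↥(gaussV W res N)) : ρ x ∈ Fk k N := by
  obtain ⟨g, y, hg, hy⟩ := (hVEq N ℓ L W k res ϖ hD (x : ↥(FL L N))).1 x.2
  have h1 := hρ x g y hg hy
  have h3 : S28.evalL (jqModC k) (g.map res) ≠ 0 := gb_rhob_ebar_ne_zero _ hg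
  have h4 : ρ x = coeffMap res y * (S28.evalL (jqModC k) (g.map res))⁻¹ := by
    rw [← h1, mul_inv_cancel_right₀ h3]
  rw [h4]
  exact mul_mem (gb_rhob_red_mem W res ϖ hMono hKey hT3 hD _ y hy)
    (inv_mem (gb_rhob_ebar_mem N _))

/-- The image of `ρ` is closed under inverses. -/
theorem gb_rhob_range_inv (hVEq : gb_VEqStatement) (hVal : gb_ValStatement)
    (hD : BaseData N ℓ W res ϖ)
    (ρ : ↥(gaussV W res N) →+* LaurentSeries k) (hρ : gb_RhoSpec W res N ρ)
    (x : ↥(gaussV W res N)) : ∃ x' : ↥(gaussV W res N), ρ x' = (ρ x)⁻¹ := by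
  by_cases h0 : ρ x = 0
  · exact ⟨0, by rw [h0, inv_zero, map_zero]⟩
  have hx0 : (x : ↥(FL L N)) ≠ 0 := by
    intro h
    apply h0
    have hx : x = 0 := Subtype.ext h
    rw [hx, map_zero]
  rcases hVal N ℓ L W k res ϖ hD (x : ↥(FL L N))⁻¹ with h | ⟨z, hz, hxz⟩
  · have hV : (x : ↥(FL L N))⁻¹ ∈ gaussV W res N := (hVEq N ℓ L W k res ϖ hD _).2 h
    refine ⟨⟨_, hV⟩, eq_inv_of_mul_eq_one_left ?_⟩
    rw [← map_mul]
    have h1 : (⟨(x : ↥(FL L N))⁻¹, hV⟩ : ↥(gaussV W res N)) * x = 1 :=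
      Subtype.ext (inv_mul_cancel₀ hx0)
    rw [h1, map_one]
  · exfalso
    apply h0
    have hV : z ∈ gaussV W res N := (hVEq N ℓ L W k res ϖ hD _).2 hz
    refine gb_rhob_ker_of_mul W res ϖ hVEq hD ρ hρ x ⟨z, hV⟩ ?_
    have h1 := congrArg (fun t => (x : ↥(FL L N)) * t) hxz
    simp only [mul_one] at h1
    rw [mul_inv_cancel_left₀ hx0] at h1
    exact h1.symm

/-- (range →) Every element of `F_k` is in the image of `ρ`. -/
theorem gb_rhob_range_ge (hVEq : gb_VEqStatement) (hVal : gb_ValStatement)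
    (hD : BaseData N ℓ W res ϖ)
    (ρ : ↥(gaussV W res N) →+* LaurentSeries k) (hρ : gb_RhoSpec W res N ρ)
    (z : LaurentSeries k) (hz : z ∈ Fk k N) : ∃ x : ↥(gaussV W res N), ρ x = z := by
  induction hz using IntermediateField.adjoin_induction with
  | mem z hz =>
    obtain ⟨d, hd, hdN, rfl⟩ := hz
    have := hd
    have hcoe : coeffMap W.subtype (qExpand ↥W d (jqModC ↥W)) = qExpand L d (jqModC L) := by
      rw [coeffMap_qExpand, coeffMap_jqModC]
    have hmem : coeffMap W.subtype (qExpand ↥W d (jqModC ↥W)) ∈ FL L N := by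
      rw [hcoe]
      exact gb_rhob_qExpand_mem N d hdN
    have hV := gb_rhob_mem_of_coe W res ϖ hVEq hD ⟨_, hmem⟩ (qExpand ↥W d (jqModC ↥W)) rfl
    refine ⟨⟨_, hV⟩, ?_⟩
    rw [gb_rhob_red W res ρ hρ ⟨_, hV⟩ (qExpand ↥W d (jqModC ↥W)) rfl, coeffMap_qExpand,
      coeffMap_jqModC]
  | algebraMap c =>
    obtain ⟨w, rfl⟩ := hD.res_surjective c
    have hV := gb_rhob_mem_of_coe W res ϖ hVEq hD (cW W N w) (HahnSeries.C w)
      (gb_rhob_coe_cW W N w)
    refine ⟨⟨_, hV⟩, ?_⟩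
    rw [gb_rhob_red W res ρ hρ ⟨_, hV⟩ (HahnSeries.C w) (gb_rhob_coe_cW W N w),
      S28.degMain_coeffMap_C, S28.degMain_algebraMap_eq_C]
  | add a b _ _ ha hb =>
    obtain ⟨u, rfl⟩ := ha
    obtain ⟨v, rfl⟩ := hb
    exact ⟨u + v, map_add ρ u v⟩
  | inv a _ ha =>
    obtain ⟨u, rfl⟩ := ha
    exact gb_rhob_range_inv W res ϖ hVEq hVal hD ρ hρ u
  | mul a b _ _ ha hb =>
    obtain ⟨u, rfl⟩ := ha
    obtain ⟨v, rfl⟩ := hb
    exact ⟨u * v, map_mul ρ u v⟩

end Data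

/-- (G5b) Every `ρ : V → k((q))` with `gb_RhoSpec` is a reduction map (`IsGaussRed`). -/
theorem gb_rhob_main : gb_VEqStatement → gb_ValStatement → gb_MonoStatement → gb_KeyStatement →
    gb_EvCoeStatement → gb_ResStatement → gb_RhoPropStatement := by
  intro hVEq hVal hMono hKey hT3 hRes N _ ℓ _ L _ _ W _ k _ _ _ res ϖ hD ρ hρ
  refine ⟨?_, ?_, ?_⟩
  · intro y hy hV
    exact gb_rhob_red W res ρ hρ ⟨⟨_, hy⟩, hV⟩ y rfl
  · intro x
    constructor
    · exact gb_rhob_ker_exists W res ϖ hVEq hRes hD ρ hρ x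
    · rintro ⟨x', hx'⟩
      exact gb_rhob_ker_of_mul W res ϖ hVEq hD ρ hρ x x' hx'
  · intro z
    constructor
    · exact gb_rhob_range_ge W res ϖ hVEq hVal hD ρ hρ z
    · rintro ⟨x, rfl⟩
      exact gb_rhob_range_le W res ϖ hVEq hMono hKey hT3 hD ρ hρ x

end

end Fermat.Agent.S18
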