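/-
S18, block G (twin B), package RhoO (G9a): the restriction of a reduction map `ρ : V → k((q))` to
the Gauss ring `O₀` is a surjective ring homomorphism `O₀ → k(j̄)` with kernel `ϖ O₀`
(`gb_RhoOStatement`), from `gb_OSubStatement`, `gb_EvCoeStatement` and `gb_ResStatement`.

Notation: `ev = evW W N (jF L N)`, `ē P = S28.evalL (jqModC k) (P.map res)`.
-/
import Fermat.Agent.S18.GBInterfaces
import Fermat.Agent.S28.DegMainAux

set_option autoImplicit false

open ModularCurve AlgebraicCurve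

namespace Fermat.Agent.S18

noncomputable section

section

variable {L : Type} [Field L] [Algebra ℚ L] (W : ValuationSubring L) {k : Type} [Field k]
  (res : ↥W →+* k) (N : ℕ) [NeZero N]

/-- (1) `O₀ ⊆ V`. -/
theorem gb_rhoo_le : gaussO W res N ≤ gaussV W res N := by
  intro c hc
  rw [mem_gaussV_iff]
  exact isIntegral_algebraMap (R := ↥(gaussO W res N)) (A := ↥(FL L N)) (x := ⟨c, hc⟩)

/-- `P(j)` is a fraction of the Gauss set (denominator `1`). -/
theorem gb_rhoo_ev_mem_set (P : Polynomial ↥W) : evW W N (jF L N) P ∈ gaussSet W res N := by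
  refine ⟨P, 1, ?_, ?_⟩
  · rw [Polynomial.map_one]
    exact one_ne_zero
  · rw [map_one, one_mul]

/-- `P(j) ∈ V`. -/
theorem gb_rhoo_ev_mem_V (P : Polynomial ↥W) : evW W N (jF L N) P ∈ gaussV W res N :=
  gb_rhoo_le W res N (Subring.subset_closure (gb_rhoo_ev_mem_set W res N P))

omit [Algebra ℚ L] in
/-- `P̄(j̄) ≠ 0` if `P mod ϖ ≠ 0`. -/
theorem gb_rhoo_ebar_ne_zero (P : Polynomial ↥W) (hP : P.map res ≠ 0) :
    S28.evalL (jqModC k) (P.map res) ≠ 0 :=
  fun h => hP (S28.degMain_evalL_eq_zero _ h)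

variable {W res N}
variable {ϖ : ↥W} {ρ : ↥(gaussV W res N) →+* LaurentSeries k}

/-- (2) `ρ (P(j)) = P̄(j̄)`. -/
theorem gb_rhoo_rho_ev (hE : gb_EvCoeStatement) (hρ : IsGaussRed W res N ϖ ρ)
    (P : Polynomial ↥W) (hP : evW W N (jF L N) P ∈ gaussV W res N) :
    ρ ⟨evW W N (jF L N) P, hP⟩ = S28.evalL (jqModC k) (P.map res) := by
  have h1 := hE N L W P
  have hy : coeffMap W.subtype (S28.evalL (jqModC ↥W) P) ∈ FL L N := by
    rw [← h1]
    exact (evW W N (jF L N) P).2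
  have h2 : (⟨coeffMap W.subtype (S28.evalL (jqModC ↥W) P), hy⟩ : ↥(FL L N)) =
      evW W N (jF L N) P := Subtype.ext h1.symm
  have hV : (⟨coeffMap W.subtype (S28.evalL (jqModC ↥W) P), hy⟩ : ↥(FL L N)) ∈
      gaussV W res N := by
    rw [h2]
    exact hP
  have h3 := hρ.red (S28.evalL (jqModC ↥W) P) hy hV
  have h4 : coeffMap res (S28.evalL (jqModC ↥W) P) = S28.evalL (jqModC k) (P.map res) := by
    rw [S28.degMain_coeffMap_evalL, coeffMap_jqModC]
  rw [← h4, ← h3]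
  exact congrArg ρ (Subtype.ext h2.symm)

/-- (3) `ḡ(j̄) * ρ c = f̄(j̄)` if `g(j) * c = f(j)`. -/
theorem gb_rhoo_rho_frac (hE : gb_EvCoeStatement) (hρ : IsGaussRed W res N ϖ ρ)
    (c : ↥(FL L N)) (hc : c ∈ gaussV W res N) (f g : Polynomial ↥W)
    (hfg : evW W N (jF L N) g * c = evW W N (jF L N) f) :
    S28.evalL (jqModC k) (g.map res) * ρ ⟨c, hc⟩ = S28.evalL (jqModC k) (f.map res) := by
  rw [← gb_rhoo_rho_ev hE hρ g (gb_rhoo_ev_mem_V W res N g),
    ← gb_rhoo_rho_ev hE hρ f (gb_rhoo_ev_mem_V W res N f), ← map_mul]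
  exact congrArg ρ (Subtype.ext hfg)

/-- `g(j) ≠ 0` if `g mod ϖ ≠ 0`. -/
theorem gb_rhoo_ev_ne_zero (hE : gb_EvCoeStatement) (hρ : IsGaussRed W res N ϖ ρ)
    (g : Polynomial ↥W) (hg : g.map res ≠ 0) : evW W N (jF L N) g ≠ 0 := by
  intro h0
  apply gb_rhoo_ebar_ne_zero W res g hg
  rw [← gb_rhoo_rho_ev hE hρ g (gb_rhoo_ev_mem_V W res N g)]
  have h1 : (⟨evW W N (jF L N) g, gb_rhoo_ev_mem_V W res N g⟩ : ↥(gaussV W res N)) = 0 :=
    Subtype.ext h0
  rw [h1, map_zero]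

/-- (3) `ρ` maps `O₀` into `k(j̄)`. -/
theorem gb_rhoo_rho_mem
    (hS : ∀ c : ↥(FL L N), c ∈ gaussO W res N → c ∈ gaussSet W res N)
    (hE : gb_EvCoeStatement) (hρ : IsGaussRed W res N ϖ ρ)
    (c : ↥(FL L N)) (hc : c ∈ gaussO W res N) :
    ρ ⟨c, gb_rhoo_le W res N hc⟩ ∈ IntermediateField.adjoin k {jqModC k} := by
  obtain ⟨f, g, hg, hfg⟩ := hS c hc
  have h1 := gb_rhoo_rho_frac hE hρ c (gb_rhoo_le W res N hc) f g hfg
  have h2 := gb_rhoo_ebar_ne_zero W res g hg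
  have h3 : ρ ⟨c, gb_rhoo_le W res N hc⟩ =
      (S28.evalL (jqModC k) (g.map res))⁻¹ * S28.evalL (jqModC k) (f.map res) := by
    rw [← h1, inv_mul_cancel_left₀ h2]
  rw [h3]
  exact mul_mem (inv_mem (S28.degMain_evalL_mem_adjoin _ _)) (S28.degMain_evalL_mem_adjoin _ _)

/-- (4) every element of `k(j̄)` is the image under `ρ` of an element of `O₀`. -/
theorem gb_rhoo_surj_aux (hres : Function.Surjective res)
    (hE : gb_EvCoeStatement) (hρ : IsGaussRed W res N ϖ ρ)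
    (z : LaurentSeries k) (hz : z ∈ IntermediateField.adjoin k {jqModC k}) :
    ∃ (c : ↥(FL L N)) (hc : c ∈ gaussO W res N), ρ ⟨c, gb_rhoo_le W res N hc⟩ = z := by
  obtain ⟨r, s, hz⟩ := (IntermediateField.mem_adjoin_simple_iff k z).mp hz
  rw [← S28.degMain_evalL_eq_aeval, ← S28.degMain_evalL_eq_aeval] at hz
  by_cases hs : S28.evalL (jqModC k) s = 0
  · refine ⟨0, zero_mem _, ?_⟩
    rw [hz, hs, div_zero]
    exact map_zero ρ
  · obtain ⟨f, rfl⟩ := Polynomial.map_surjective res hres r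
    obtain ⟨g, rfl⟩ := Polynomial.map_surjective res hres s
    have hg : g.map res ≠ 0 := by
      intro h
      apply hs
      rw [h, map_zero]
    have hevg : evW W N (jF L N) g ≠ 0 := gb_rhoo_ev_ne_zero hE hρ g hg
    have hfrac : evW W N (jF L N) g * (evW W N (jF L N) f * (evW W N (jF L N) g)⁻¹) =
        evW W N (jF L N) f := by
      rw [mul_comm, inv_mul_cancel_right₀ hevg]
    have hcO : evW W N (jF L N) f * (evW W N (jF L N) g)⁻¹ ∈ gaussO W res N :=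
      Subring.subset_closure ⟨f, g, hg, hfrac⟩
    refine ⟨_, hcO, ?_⟩
    have h1 := gb_rhoo_rho_frac hE hρ _ (gb_rhoo_le W res N hcO) f g hfrac
    rw [hz, eq_div_iff hs, mul_comm]
    exact h1

/-- (5) the kernel of `ρ` on `O₀` is contained in `ϖ O₀`. -/
theorem gb_rhoo_ker_aux
    (hS : ∀ c : ↥(FL L N), c ∈ gaussO W res N → c ∈ gaussSet W res N)
    (hE : gb_EvCoeStatement)
    (hRP : ∀ P : Polynomial ↥W, P.map res = 0 ↔ Polynomial.C ϖ ∣ P)
    (hρ : IsGaussRed W res N ϖ ρ)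
    (c : ↥(FL L N)) (hc : c ∈ gaussO W res N) (h0 : ρ ⟨c, gb_rhoo_le W res N hc⟩ = 0) :
    ∃ c' : ↥(gaussO W res N), c = cW W N ϖ * (c' : ↥(FL L N)) := by
  obtain ⟨f, g, hg, hfg⟩ := hS c hc
  have h1 := gb_rhoo_rho_frac hE hρ c (gb_rhoo_le W res N hc) f g hfg
  rw [h0, mul_zero] at h1
  have hf : f.map res = 0 := S28.degMain_evalL_eq_zero _ h1.symm
  obtain ⟨f', rfl⟩ := (hRP f).mp hf
  have hevg : evW W N (jF L N) g ≠ 0 := gb_rhoo_ev_ne_zero hE hρ g hg
  have hfrac : evW W N (jF L N) g * (evW W N (jF L N) f' * (evW W N (jF L N) g)⁻¹) =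
      evW W N (jF L N) f' := by
    rw [mul_comm, inv_mul_cancel_right₀ hevg]
  have hcO : evW W N (jF L N) f' * (evW W N (jF L N) g)⁻¹ ∈ gaussO W res N :=
    Subring.subset_closure ⟨f', g, hg, hfrac⟩
  refine ⟨⟨_, hcO⟩, ?_⟩
  have h2 : evW W N (jF L N) (Polynomial.C ϖ * f') = cW W N ϖ * evW W N (jF L N) f' := by
    rw [map_mul]
    congr 1
    exact Polynomial.eval₂_C _ _
  rw [h2] at hfg
  show c = cW W N ϖ * (evW W N (jF L N) f' * (evW W N (jF L N) g)⁻¹)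
  rw [← mul_assoc, ← hfg, mul_comm (evW W N (jF L N) g) c, mul_inv_cancel_right₀ hevg]

end

/-- (G9a) The restriction of a reduction map `ρ` to `O₀`: a surjective ring homomorphism
`O₀ → k(j̄)` with kernel `ϖ O₀`. -/
theorem gb_rhoo_main :
    gb_OSubStatement → gb_EvCoeStatement → gb_ResStatement → gb_RhoOStatement := by
  intro hOS hE hR N _ ℓ _ L _ _ W _ k _ _ _ res ϖ hD ρ hρ
  have hS := hOS N ℓ L W k res ϖ hD
  obtain ⟨hRP, -⟩ := hR N ℓ L W k res ϖ hD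
  have hmem : ∀ c : ↥(gaussO W res N),
      (ρ.comp (Subring.inclusion (gb_rhoo_le W res N))) c ∈
        IntermediateField.adjoin k {jqModC k} :=
    fun c => gb_rhoo_rho_mem hS hE hρ c.1 c.2
  refine ⟨RingHom.codRestrict (ρ.comp (Subring.inclusion (gb_rhoo_le W res N)))
    (IntermediateField.adjoin k {jqModC k}) hmem, ?_, ?_, ?_⟩
  · intro z
    obtain ⟨c, hc, hcz⟩ := gb_rhoo_surj_aux hD.res_surjective hE hρ z.1 z.2
    exact ⟨⟨c, hc⟩, Subtype.ext hcz⟩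
  · intro c
    constructor
    · intro h0
      exact gb_rhoo_ker_aux hS hE hRP hρ c.1 c.2 (congrArg Subtype.val h0)
    · rintro ⟨c', hc'⟩
      apply Subtype.ext
      exact (hρ.ker ⟨c.1, gb_rhoo_le W res N c.2⟩).mpr
        ⟨⟨c'.1, gb_rhoo_le W res N c'.2⟩, hc'⟩
  · intro c hc
    rfl

end

end Fermat.Agent.S18
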