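/-
S18, block G (twin B), package SepChain (G8b): `F_k / k(j̄)` is separable, from the one-step
statement `gb_SepStepStatement`, by induction on the divisors of `N` inside the separable closure
of `k(j̄)` in `k((q))`.

Main theorem: `gb_sepchain_main : gb_SepStepStatement → FkSepStatement`.
-/
import Fermat.Agent.S18.GBInterfaces
import Fermat.Agent.S28.DegMainAux

set_option autoImplicit false

open ModularCurve AlgebraicCurve

namespace Fermat.Agent.S18

noncomputable section

/-- Abstract step: a root of a separable polynomial whose coefficients are separable over `K` is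
separable over `K` (transitivity of separability through the separable closure). -/
theorem gb_sepchain_abs {K E : Type*} [Field K] [Field E] [Algebra K E] (Ψ : Polynomial E)
    (hΨ : Ψ.Separable) (hcoeff : ∀ n : ℕ, IsSeparable K (Ψ.coeff n)) (y : E)
    (hy : Ψ.eval y = 0) : IsSeparable K y := by
  have hsub : (↑Ψ.coeffs : Set E) ⊆ (separableClosure K E).toSubring := by
    intro c hc
    obtain ⟨n, -, rfl⟩ := Polynomial.mem_coeffs_iff.mp hc
    exact hcoeff n
  obtain ⟨g, hmap⟩ : ∃ g : Polynomial ↥(separableClosure K E),
      g.map (algebraMap ↥(separableClosure K E) E) = Ψ :=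
    ⟨_, Ψ.map_toSubring (separableClosure K E).toSubring hsub⟩
  have hgsep : g.Separable := by
    rw [← Polynomial.separable_map (algebraMap ↥(separableClosure K E) E), hmap]
    exact hΨ
  have hgy : Polynomial.aeval y g = 0 := by
    rw [Polynomial.aeval_def, Polynomial.eval₂_eq_eval_map, hmap]
    exact hy
  have hsepS : IsSeparable ↥(separableClosure K E) y :=
    Polynomial.Separable.of_dvd hgsep (minpoly.dvd _ y hgy)
  exact IsSeparable.of_algebra_isSeparable_of_isSeparable K hsepS

/-- Polynomial expressions (with constant coefficients) in a series which is separable over an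
intermediate field `K` of `k((q)) / k` are separable over `K`. -/
theorem gb_sepchain_evalL_sep {k : Type*} [Field k] (K : IntermediateField k (LaurentSeries k))
    (x : LaurentSeries k) (hx : IsSeparable ↥K x) (p : Polynomial k) :
    IsSeparable ↥K (S28.evalL x p) := by
  have h1 : S28.evalL x p ∈ IntermediateField.adjoin k {x} := S28.degMain_evalL_mem_adjoin x p
  have h2 : IntermediateField.adjoin k {x} ≤
      (separableClosure ↥K (LaurentSeries k)).restrictScalars k := by
    rw [IntermediateField.adjoin_simple_le_iff]
    exact hx
  exact h2 h1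

/-- Step B: a root of a separable polynomial of the form `Φ.map (evalL x)`, with `x` separable
over `K`, is separable over `K`. -/
theorem gb_sepchain_step {k : Type*} [Field k] (K : IntermediateField k (LaurentSeries k))
    (x y : LaurentSeries k) (hx : IsSeparable ↥K x) (Φ : Polynomial (Polynomial k))
    (hsep : (Φ.map (S28.evalL x)).Separable) (hroot : (Φ.map (S28.evalL x)).eval y = 0) :
    IsSeparable ↥K y := by
  refine gb_sepchain_abs (Φ.map (S28.evalL x)) hsep (fun n => ?_) y hroot
  rw [Polynomial.coeff_map]
  exact gb_sepchain_evalL_sep K x hx _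

/-- Step C: all the series `j̄(q^d)`, `d ∣ N`, are separable over `k(j̄)`. -/
theorem gb_sepchain_qExpand_sep (hstep : gb_SepStepStatement) (N : ℕ) (ℓ : ℕ) [Fact ℓ.Prime]
    (hℓ : ¬ ℓ ∣ N) (k : Type) [Field k] [CharP k ℓ] [IsAlgClosed k] :
    ∀ d : ℕ, d ∣ N → ∀ [NeZero d],
      IsSeparable ↥(IntermediateField.adjoin k {jqModC k}) (qExpand k d (jqModC k)) := by
  intro d
  induction d using Nat.strong_induction_on with
  | _ d ih =>
    intro hdN _
    by_cases hd1 : d = 1
    · subst hd1
      rw [qExpand_one_apply]
      exact isSeparable_algebraMap (F := ↥(IntermediateField.adjoin k {jqModC k}))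
        (⟨jqModC k, IntermediateField.mem_adjoin_simple_self k (jqModC k)⟩ :
          ↥(IntermediateField.adjoin k {jqModC k}))
    · have hr : d.minFac.Prime := Nat.minFac_prime hd1
      have hrd : d.minFac ∣ d := Nat.minFac_dvd d
      have hde : d = d.minFac * (d / d.minFac) := (Nat.mul_div_cancel' hrd).symm
      have he0 : d / d.minFac ≠ 0 := by
        intro h
        rw [h, mul_zero] at hde
        exact NeZero.ne d hde
      have : NeZero (d / d.minFac) := ⟨he0⟩
      have helt : d / d.minFac < d :=
        Nat.div_lt_self (Nat.pos_of_ne_zero (NeZero.ne d)) hr.one_lt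
      have heN : d / d.minFac ∣ N := (Nat.div_dvd_of_dvd hrd).trans hdN
      have hrℓ : d.minFac ≠ ℓ := by
        intro h
        exact hℓ (h ▸ hrd.trans hdN)
      obtain ⟨Φ, hsep, hroot⟩ := hstep ℓ k d.minFac (d / d.minFac) d hr hrℓ hde
      exact gb_sepchain_step _ _ _ (ih _ helt heN) Φ hsep hroot

/-- (G8b) `F_k / k(j̄)` is separable. -/
theorem gb_sepchain_main : gb_SepStepStatement → FkSepStatement := by
  intro hstep N _ ℓ _ hℓ k _ _ _ x hx
  have hle : Fk k N ≤ (separableClosure ↥(IntermediateField.adjoin k {jqModC k})
      (LaurentSeries k)).restrictScalars k := by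
    rw [Fk, modularFunctionFieldFullC, IntermediateField.adjoin_le_iff]
    rintro z ⟨d, hne, hdN, rfl⟩
    have := hne
    exact gb_sepchain_qExpand_sep hstep N ℓ hℓ k d hdN
  exact hle hx

end

end Fermat.Agent.S18
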