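/-
S18, block G (twin B), package `SepStep` (prefix `gb_sepstep_`): one prime step of the
separability of `F_k / k(j̄)`: for a prime `r ≠ ℓ`, the series `j̄(q^{r e})` is a root of a
separable polynomial with coefficients in `k[j̄(q^e)]`, namely `Φ(X, j̄(q^e))` for the modular
equation `Φ` of level `r`.
-/
import Fermat.Agent.S18.GBInterfaces
import Fermat.Agent.S28.Subst

set_option autoImplicit false

open ModularCurve AlgebraicCurve

namespace Fermat.Agent.S18

noncomputable section

/-- `r` is invertible in a field of characteristic `ℓ ≠ r` (`r`, `ℓ` primes). -/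
theorem gb_sepstep_cast_ne_zero (ℓ : ℕ) [Fact ℓ.Prime] (k : Type) [Field k] [CharP k ℓ] (r : ℕ)
    (hr : r.Prime) (hrl : r ≠ ℓ) : (r : k) ≠ 0 := by
  intro h
  rw [CharP.cast_eq_zero_iff k ℓ] at h
  exact hrl ((Nat.prime_dvd_prime_iff_eq (Fact.out : ℓ.Prime) hr).mp h).symm

/-- An algebraically closed field has a primitive `r`-th root of unity when `r ≠ 0` in it. -/
theorem gb_sepstep_exists_primitiveRoot (k : Type) [Field k] [IsAlgClosed k] (r : ℕ)
    (hrk : (r : k) ≠ 0) : ∃ ζ : k, IsPrimitiveRoot ζ r := by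
  have : NeZero (r : k) := ⟨hrk⟩
  obtain ⟨ζ, hζ⟩ := IsAlgClosed.exists_root (Polynomial.cyclotomic r k)
    (by
      rw [Polynomial.degree_cyclotomic]
      have hr0 : r ≠ 0 := by
        rintro rfl
        exact hrk (by simp)
      have : 0 < Nat.totient r := Nat.totient_pos.mpr (Nat.pos_of_ne_zero hr0)
      exact_mod_cast this.ne')
  exact ⟨ζ, Polynomial.isRoot_cyclotomic_iff.mp hζ⟩

/-- The modular equation of level `r` after the substitution `y ↦ y ^ e`: the image under
`q ↦ q ^ r` of `Φ(X, j̄(q^e))` is the product of the `r + 1` linear factors `X - j̄(q^{e r r})`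
and `X - j̄(ζ^b q^e)`, `b < r`. -/
theorem gb_sepstep_modEq (k : Type) [Field k] (r : ℕ) [NeZero r] (ζ : k)
    (Φ : Polynomial (Polynomial k))
    (hΦ : Φ.map (S28.evalL (qExpand k r (jqModC k))) =
      (Polynomial.X - Polynomial.C (qExpand k (r * r) (jqModC k))) *
        ∏ b ∈ Finset.range r, (Polynomial.X - Polynomial.C (S28.scale (ζ ^ b) (jqModC k))))
    (e : ℕ) [NeZero e] :
    (Φ.map (S28.evalL (qExpand k e (jqModC k)))).map (qExpand k r) =
      (Polynomial.X - Polynomial.C (S28.jsub k 1 (e * (r * r)))) *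
        ∏ b ∈ Finset.range r, (Polynomial.X - Polynomial.C (S28.jsub k (ζ ^ b) e)) := by
  have h1 := S28.subst_modEq k r ζ Φ hΦ 1 one_ne_zero e
  rw [one_pow, one_pow] at h1
  simp only [mul_one] at h1
  rw [← h1, Polynomial.map_map, S28.subst_comp_evalL (qExpand k r) (fun a => qExpand_C r a),
    qExpand_qExpand, S28.subst_jsub_one]
  rw [qExpand_congr (mul_comm r e)]

/-- The root: `Φ(j̄(q^{r e}), j̄(q^e)) = 0`. -/
theorem gb_sepstep_root (k : Type) [Field k] (r : ℕ) [NeZero r] (ζ : k)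
    (Φ : Polynomial (Polynomial k))
    (hΦ : Φ.map (S28.evalL (qExpand k r (jqModC k))) =
      (Polynomial.X - Polynomial.C (qExpand k (r * r) (jqModC k))) *
        ∏ b ∈ Finset.range r, (Polynomial.X - Polynomial.C (S28.scale (ζ ^ b) (jqModC k))))
    (e : ℕ) [NeZero e] :
    (Φ.map (S28.evalL (qExpand k e (jqModC k)))).eval (qExpand k (r * e) (jqModC k)) = 0 := by
  apply qExpand_injective (R := k) r
  rw [map_zero]
  have h2 := congrArg (Polynomial.eval (S28.jsub k 1 (e * (r * r))))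
    (gb_sepstep_modEq k r ζ Φ hΦ e)
  rw [Polynomial.eval_mul, Polynomial.eval_sub, Polynomial.eval_X, Polynomial.eval_C, sub_self,
    zero_mul] at h2
  have hx : S28.jsub k 1 (e * (r * r)) = qExpand k r (qExpand k (r * e) (jqModC k)) := by
    rw [S28.subst_jsub_one, qExpand_qExpand]
    exact qExpand_congr (by ring) _
  rw [hx, Polynomial.eval_map, Polynomial.eval₂_at_apply] at h2
  exact h2

/-- Separability: `Φ(X, j̄(q^e))` is separable, for a primitive `r`-th root of unity `ζ`. -/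
theorem gb_sepstep_separable (k : Type) [Field k] (r : ℕ) [NeZero r] (hr : r.Prime) (ζ : k)
    (hζ : IsPrimitiveRoot ζ r) (Φ : Polynomial (Polynomial k))
    (hΦ : Φ.map (S28.evalL (qExpand k r (jqModC k))) =
      (Polynomial.X - Polynomial.C (qExpand k (r * r) (jqModC k))) *
        ∏ b ∈ Finset.range r, (Polynomial.X - Polynomial.C (S28.scale (ζ ^ b) (jqModC k))))
    (e : ℕ) [NeZero e] :
    (Φ.map (S28.evalL (qExpand k e (jqModC k)))).Separable := by
  have hζ0 : ζ ≠ 0 := hζ.ne_zero hr.ne_zero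
  rw [← Polynomial.separable_map (qExpand k r), gb_sepstep_modEq k r ζ Φ hΦ e]
  refine Polynomial.Separable.mul Polynomial.separable_X_sub_C ?_ ?_
  · rw [Polynomial.separable_prod_X_sub_C_iff']
    intro b hb b' hb' h
    have h' := (S28.subst_jsub_eq_iff k (ζ ^ b) (ζ ^ b') (pow_ne_zero _ hζ0)
      (pow_ne_zero _ hζ0) e e h).2
    exact hζ.pow_inj (Finset.mem_range.mp hb) (Finset.mem_range.mp hb') h'
  · refine IsCoprime.prod_right fun b _ => ?_
    refine Polynomial.isCoprime_X_sub_C_of_isUnit_sub (sub_ne_zero_of_ne ?_).isUnit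
    intro h
    have h' := (S28.subst_jsub_eq_iff k 1 (ζ ^ b) one_ne_zero (pow_ne_zero _ hζ0)
      (e * (r * r)) e h).1
    have he : 0 < e := Nat.pos_of_ne_zero (NeZero.ne e)
    have hr2 : 2 ≤ r := hr.two_le
    have h1 : r * r = 1 := Nat.eq_of_mul_eq_mul_left he (by rw [h', mul_one])
    have h4 : 2 * 2 ≤ r * r := Nat.mul_le_mul hr2 hr2
    omega

/-- (G8a) One prime step: `j̄(q^{r e})` is a root of a separable polynomial with coefficients in
`k[j̄(q^e)]` (`r` prime, `r ≠ ℓ`): `Φ(X, j̄(q^e))` for the modular equation `Φ` of level `r`. -/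
theorem gb_sepstep_main : S28.ModEqStatement → gb_SepStepStatement := by
  intro hME ℓ _ k _ _ _ r e re _ _ hr hrl hre
  subst hre
  have : NeZero r := ⟨hr.ne_zero⟩
  obtain ⟨ζ, hζ⟩ := gb_sepstep_exists_primitiveRoot k r (gb_sepstep_cast_ne_zero ℓ k r hr hrl)
  obtain ⟨Φ, -, -, hΦ⟩ := hME k r hr ζ hζ
  exact ⟨Φ, gb_sepstep_separable k r hr ζ hζ Φ hΦ e, gb_sepstep_root k r ζ Φ hΦ e⟩

end

end Fermat.Agent.S18
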