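/-
S18, block G (twin B), package ToolA: the toolkit statements (T3), (T1), (T2) of
`GBInterfaces.lean` (port of `Fermat/Agent/S28/KBToolA.lean` to an abstract valuation ring `W ⊆ L`):
* `gb_toola_evcoe  : gb_EvCoeStatement`  (`P(j)` is the image of the series `P(jW) ∈ W((q))`),
* `gb_toola_transc : gb_TranscStatement` (`P ↦ P(j)` is injective on `W[X]`),
* `gb_toola_frac   : gb_FracStatement`   (common denominators in `W[j]` for finite families of `L(j)`).
-/
import Fermat.Agent.S18.GBInterfaces
import Fermat.Agent.S28.DegMainAux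

set_option autoImplicit false

open ModularCurve AlgebraicCurve

namespace Fermat.Agent.S18

noncomputable section

section

variable (N : ℕ) [NeZero N] (L : Type) [Field L] [Algebra ℚ L] (W : ValuationSubring L)

/-! ## (T3) -/

/-- The two ring homomorphisms `W[X] → LaurentSeries L` of (T3) agree. -/
theorem gb_toola_homEq :
    (algebraMap ↥(FL L N) (LaurentSeries L)).comp (evW W N (jF L N)) =
      (coeffMap W.subtype).comp (S28.evalL (jqModC ↥W)) := by
  refine Polynomial.ringHom_ext (fun w => ?_) ?_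
  · show algebraMap ↥(FL L N) (LaurentSeries L) (evW W N (jF L N) (Polynomial.C w)) =
      coeffMap W.subtype (S28.evalL (jqModC ↥W) (Polynomial.C w))
    have h1 : evW W N (jF L N) (Polynomial.C w) = cW W N w := by
      show Polynomial.eval₂ (cW W N) (jF L N) (Polynomial.C w) = cW W N w
      rw [Polynomial.eval₂_C]
    have h2 : S28.evalL (jqModC ↥W) (Polynomial.C w) = HahnSeries.C w := by
      show Polynomial.eval₂ (HahnSeries.C : ↥W →+* LaurentSeries ↥W) (jqModC ↥W)
        (Polynomial.C w) = HahnSeries.C w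
      rw [Polynomial.eval₂_C]
    rw [h1, h2, S28.degMain_coeffMap_C]
    show algebraMap L (LaurentSeries L) (w : L) = HahnSeries.C (W.subtype w)
    rw [S28.degMain_algebraMap_eq_C]
    rfl
  · show algebraMap ↥(FL L N) (LaurentSeries L) (evW W N (jF L N) Polynomial.X) =
      coeffMap W.subtype (S28.evalL (jqModC ↥W) Polynomial.X)
    have h1 : evW W N (jF L N) Polynomial.X = jF L N := by
      show Polynomial.eval₂ (cW W N) (jF L N) Polynomial.X = jF L N
      rw [Polynomial.eval₂_X]
    have h2 : S28.evalL (jqModC ↥W) Polynomial.X = jqModC ↥W := by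
      show Polynomial.eval₂ (HahnSeries.C : ↥W →+* LaurentSeries ↥W) (jqModC ↥W)
        Polynomial.X = jqModC ↥W
      rw [Polynomial.eval₂_X]
    rw [h1, h2, coeffMap_jqModC]
    rfl

/-- (T3), with explicit data. -/
theorem gb_toola_evcoe_apply (P : Polynomial ↥W) :
    ((evW W N (jF L N) P : ↥(FL L N)) : LaurentSeries L) =
      coeffMap W.subtype (S28.evalL (jqModC ↥W) P) :=
  RingHom.congr_fun (gb_toola_homEq N L W) P

/-! ## (T1) -/

/-- (T1), with explicit data. -/
theorem gb_toola_transc_apply : Function.Injective (evW W N (jF L N)) := by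
  rw [injective_iff_map_eq_zero]
  intro P hP
  have h3 := gb_toola_evcoe_apply N L W P
  rw [hP] at h3
  have h4 : coeffMap W.subtype (S28.evalL (jqModC ↥W) P) = 0 := by
    rw [← h3]
    rfl
  have h5 : S28.evalL (jqModC ↥W) P = 0 :=
    S28.degMain_coeffMap_injective W.subtype Subtype.val_injective (by rw [h4, map_zero])
  exact S28.degMain_evalL_eq_zero P h5

/-! ## (T2) -/

omit [Algebra ℚ L] in
/-- Clearing denominators of a polynomial over `L = Frac W`. -/
theorem gb_toola_clear (r : Polynomial L) :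
    ∃ (d : ↥W) (R : Polynomial ↥W), d ≠ 0 ∧
      R.map W.subtype = Polynomial.C (d : L) * r := by
  obtain ⟨b, hbM, hb⟩ := IsLocalization.integerNormalization_spec (nonZeroDivisors ↥W) r
  refine ⟨b, IsLocalization.integerNormalization (nonZeroDivisors ↥W) r,
    nonZeroDivisors.ne_zero hbM, ?_⟩
  rw [show W.subtype = algebraMap ↥W L from rfl, hb, Polynomial.C_mul']
  rfl

/-- Link between `evW` and `Polynomial.aeval`. -/
theorem gb_toola_ev_aeval (R : Polynomial ↥W) :
    evW W N (jF L N) R = Polynomial.aeval (jF L N) (R.map W.subtype) := by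
  show Polynomial.eval₂ (cW W N) (jF L N) R = _
  rw [Polynomial.aeval_def, Polynomial.eval₂_map]
  rfl

/-- (T2) for one element. -/
theorem gb_toola_frac_one (c : ↥(FL L N)) (hc : c ∈ IntermediateField.adjoin L {jF L N}) :
    ∃ g f : Polynomial ↥W, g ≠ 0 ∧ evW W N (jF L N) g * c = evW W N (jF L N) f := by
  obtain ⟨r, s, hrs⟩ := (IntermediateField.mem_adjoin_simple_iff L c).mp hc
  by_cases hs : Polynomial.aeval (jF L N) s = 0
  · refine ⟨1, 0, one_ne_zero, ?_⟩
    have hc0 : c = 0 := by rw [hrs, hs, div_zero]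
    rw [hc0, mul_zero, map_zero]
  · obtain ⟨dr, R, hdr, hR⟩ := gb_toola_clear L W r
    obtain ⟨ds, S, hds, hS⟩ := gb_toola_clear L W s
    have hds' : (ds : L) ≠ 0 := fun h => hds (Subtype.ext h)
    have hS0 : S ≠ 0 := by
      rintro rfl
      rw [Polynomial.map_zero] at hS
      have hs0 : s = 0 := by
        rcases mul_eq_zero.mp hS.symm with h | h
        · exact absurd (Polynomial.C_eq_zero.mp h) hds'
        · exact h
      exact hs (by rw [hs0, map_zero])
    have hdr' : (Polynomial.C dr : Polynomial ↥W) ≠ 0 := fun h => hdr (Polynomial.C_eq_zero.mp h)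
    refine ⟨Polynomial.C dr * S, Polynomial.C ds * R, mul_ne_zero hdr' hS0, ?_⟩
    rw [gb_toola_ev_aeval, gb_toola_ev_aeval, Polynomial.map_mul, Polynomial.map_mul, hS, hR,
      Polynomial.map_C, Polynomial.map_C, hrs, map_mul, map_mul, map_mul, map_mul,
      ValuationSubring.subtype_apply, ValuationSubring.subtype_apply]
    field_simp

/-- (T2), with explicit data. -/
theorem gb_toola_frac_apply (n : ℕ) (c : Fin n → ↥(FL L N))
    (hc : ∀ i, c i ∈ IntermediateField.adjoin L {jF L N}) :
    ∃ (g : Polynomial ↥W) (f : Fin n → Polynomial ↥W), g ≠ 0 ∧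
      ∀ i, evW W N (jF L N) g * c i = evW W N (jF L N) (f i) := by
  induction n with
  | zero => exact ⟨1, fun _ => 0, one_ne_zero, fun i => i.elim0⟩
  | succ n ih =>
    obtain ⟨g, f, hg, hf⟩ := ih (fun i => c i.succ) (fun i => hc i.succ)
    obtain ⟨g₀, f₀, hg₀, hf₀⟩ := gb_toola_frac_one N L W (c 0) (hc 0)
    refine ⟨g₀ * g, Fin.cons (f₀ * g) (fun i => g₀ * f i), mul_ne_zero hg₀ hg, ?_⟩
    intro i
    refine Fin.cases ?_ (fun k => ?_) i
    · rw [Fin.cons_zero, map_mul, map_mul, ← hf₀]
      ring
    · rw [Fin.cons_succ, map_mul, map_mul, ← hf k]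
      ring

end

/-- (T3) -/
theorem gb_toola_evcoe : gb_EvCoeStatement := by
  intro N _ L _ _ W P
  exact gb_toola_evcoe_apply N L W P

/-- (T1) -/
theorem gb_toola_transc : gb_TranscStatement := by
  intro N _ L _ _ W
  exact gb_toola_transc_apply N L W

/-- (T2) -/
theorem gb_toola_frac : gb_FracStatement := by
  intro N _ L _ _ W n c hc
  exact gb_toola_frac_apply N L W n c hc

/-- Main theorem of the package ToolA. -/
theorem gb_toola_main : gb_EvCoeStatement ∧ gb_TranscStatement ∧ gb_FracStatement :=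
  ⟨gb_toola_evcoe, gb_toola_transc, gb_toola_frac⟩

end

end Fermat.Agent.S18
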