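/-
S18, block G (twin B), package `ToolB` (prefix `gb_toolb_`): the toolkit statements
`gb_ResStatement` (reduction and divisibility by `ϖ`, for polynomials and for series) and
`gb_ContentStatement` (removal of the common `ϖ`-content).
-/
import Fermat.Agent.S18.GBInterfaces

set_option autoImplicit false

open ModularCurve AlgebraicCurve

namespace Fermat.Agent.S18

noncomputable section

section Generic

variable {R S : Type*} [CommRing R] [CommRing S]

/-- If `ker res = (ϖ)` then `res a = 0 ↔ ϖ ∣ a`. -/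
theorem gb_toolb_res_eq_zero_iff (res : R →+* S) (ϖ : R)
    (hker : RingHom.ker res = Ideal.span {ϖ}) (a : R) : res a = 0 ↔ ϖ ∣ a := by
  rw [← RingHom.mem_ker, hker, Ideal.mem_span_singleton]

/-- (Res, polynomials) If `ker res = (ϖ)` then `P.map res = 0 ↔ C ϖ ∣ P`. -/
theorem gb_toolb_map_eq_zero_iff (res : R →+* S) (ϖ : R)
    (hker : RingHom.ker res = Ideal.span {ϖ}) (P : Polynomial R) :
    P.map res = 0 ↔ Polynomial.C ϖ ∣ P := by
  rw [Polynomial.C_dvd_iff_dvd_coeff, Polynomial.ext_iff]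
  refine forall_congr' fun n => ?_
  rw [Polynomial.coeff_map, Polynomial.coeff_zero, gb_toolb_res_eq_zero_iff res ϖ hker]

/-- A choice of quotient by `ϖ` (with value `0` at `0` and at non-multiples of `ϖ`). -/
def gb_toolb_quot (ϖ a : R) : R :=
  open Classical in
  if a = 0 then 0 else if h : ϖ ∣ a then Classical.choose h else 0

theorem gb_toolb_quot_zero (ϖ : R) : gb_toolb_quot ϖ 0 = 0 := by
  simp [gb_toolb_quot]

theorem gb_toolb_quot_spec (ϖ a : R) (h : ϖ ∣ a) : a = ϖ * gb_toolb_quot ϖ a := by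
  unfold gb_toolb_quot
  by_cases ha : a = 0
  · simp [ha]
  · rw [if_neg ha, dif_pos h]
    exact Classical.choose_spec h

/-- The coefficientwise quotient by `ϖ` of a Laurent series. -/
def gb_toolb_quotSeries (ϖ : R) (y : LaurentSeries R) : LaurentSeries R where
  coeff n := gb_toolb_quot ϖ (y.coeff n)
  isPWO_support' := y.isPWO_support.mono fun n hn => by
    simp only [Function.mem_support, ne_eq] at hn ⊢
    exact fun h => hn (by rw [h, gb_toolb_quot_zero])

/-- (Res, series) If `ker res = (ϖ)` then `coeffMap res y = 0 ↔ ∃ y', y = C ϖ * y'`. -/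
theorem gb_toolb_coeffMap_eq_zero_iff (res : R →+* S) (ϖ : R)
    (hker : RingHom.ker res = Ideal.span {ϖ}) (y : LaurentSeries R) :
    coeffMap res y = 0 ↔ ∃ y' : LaurentSeries R, y = HahnSeries.C ϖ * y' := by
  constructor
  · intro h
    refine ⟨gb_toolb_quotSeries ϖ y, ?_⟩
    ext n
    rw [HahnSeries.C_mul_eq_smul, HahnSeries.coeff_smul, smul_eq_mul]
    have hn : res (y.coeff n) = 0 := by
      rw [← coeffMap_coeff, h, HahnSeries.coeff_zero]
    exact gb_toolb_quot_spec ϖ (y.coeff n) ((gb_toolb_res_eq_zero_iff res ϖ hker _).mp hn)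
  · rintro ⟨y', rfl⟩
    ext n
    rw [coeffMap_coeff, HahnSeries.C_mul_eq_smul, HahnSeries.coeff_smul, smul_eq_mul,
      HahnSeries.coeff_zero]
    exact (gb_toolb_res_eq_zero_iff res ϖ hker _).mpr (dvd_mul_right ϖ _)

/-- Auxiliary for (Content): induction on a bound `k` for the multiplicity of `π` in `g`. -/
theorem gb_toolb_content_aux (π : Polynomial R) (n : ℕ) :
    ∀ (k : ℕ) (g : Polynomial R) (f : Fin n → Polynomial R), ¬ π ^ (k + 1) ∣ g →
      ∃ (e : ℕ) (g' : Polynomial R) (f' : Fin n → Polynomial R),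
        g = π ^ e * g' ∧ (∀ i, f i = π ^ e * f' i) ∧ ¬ (π ∣ g' ∧ ∀ i, π ∣ f' i) := by
  intro k
  induction k with
  | zero =>
    intro g f hg
    refine ⟨0, g, f, by simp, fun i => by simp, fun h => hg ?_⟩
    simpa using h.1
  | succ k ih =>
    intro g f hg
    by_cases hdiv : π ∣ g ∧ ∀ i, π ∣ f i
    · obtain ⟨⟨g₁, hg₁⟩, hf⟩ := hdiv
      choose f₁ hf₁ using hf
      have hg₁' : ¬ π ^ (k + 1) ∣ g₁ := by
        rintro ⟨c, hc⟩
        exact hg ⟨c, by rw [hg₁, hc, pow_succ' π (k + 1), mul_assoc]⟩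
      obtain ⟨e, g', f', h1, h2, h3⟩ := ih g₁ f₁ hg₁'
      refine ⟨e + 1, g', f', ?_, fun i => ?_, h3⟩
      · rw [hg₁, h1, pow_succ', mul_assoc]
      · rw [hf₁ i, h2 i, pow_succ', mul_assoc]
    · exact ⟨0, g, f, by simp, fun i => by simp, hdiv⟩

end Generic

/-- (T4) Reduction and divisibility by `ϖ`, for polynomials and for series. -/
theorem gb_toolb_res : gb_ResStatement := by
  intro N _ ℓ _ L _ _ W _ k _ _ _ res ϖ hD
  exact ⟨gb_toolb_map_eq_zero_iff res ϖ hD.ker_res,
    gb_toolb_coeffMap_eq_zero_iff res ϖ hD.ker_res⟩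

/-- (T5) Removal of the common `ϖ`-content of a tuple `(g, f_0, …, f_{n-1})` in `W[X]`,
`g ≠ 0`. -/
theorem gb_toolb_content : gb_ContentStatement := by
  intro N _ ℓ _ L _ _ W _ k _ _ _ res ϖ hD n g f hg
  have hπ : ¬ IsUnit (Polynomial.C ϖ) := fun h =>
    hD.irreducible.not_isUnit (Polynomial.isUnit_C.mp h)
  have hfin : FiniteMultiplicity (Polynomial.C ϖ) g :=
    FiniteMultiplicity.of_not_isUnit hπ hg
  obtain ⟨m, hm⟩ := hfin
  obtain ⟨e, g', f', h1, h2, h3⟩ := gb_toolb_content_aux (Polynomial.C ϖ) n m g f hm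
  refine ⟨e, g', f', h1, h2, fun h => h3 ⟨?_, fun i => ?_⟩⟩
  · exact (gb_toolb_map_eq_zero_iff res ϖ hD.ker_res g').mp h.1
  · exact (gb_toolb_map_eq_zero_iff res ϖ hD.ker_res (f' i)).mp (h.2 i)

/-- Package `ToolB`: the toolkit statements (Res) and (Content). -/
theorem gb_toolb_main : gb_ResStatement ∧ gb_ContentStatement :=
  ⟨gb_toolb_res, gb_toolb_content⟩

end

end Fermat.Agent.S18
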