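/-
S18, block G (twin B), package Val (G6): the valuation property of
`M' = gb_M W res N`: every `x ∈ F` lies in `M'` or satisfies `x⁻¹ ∈ ϖ M'`.
-/
import Fermat.Agent.S18.GBInterfaces
import Fermat.Agent.S28.DegMainAux

set_option autoImplicit false

open ModularCurve AlgebraicCurve

namespace Fermat.Agent.S18

noncomputable section

section

variable {L : Type} [Field L] [Algebra ℚ L] (W : ValuationSubring L) {k : Type} [Field k]
  (res : ↥W →+* k) (N : ℕ) [NeZero N]

/-- (a) An element of `F` whose series has all its coefficients in `W` lies in `M'`. -/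
theorem gb_val_mem_of_coe (u : ↥(FL L N)) (y : LaurentSeries ↥W)
    (h : ((u : ↥(FL L N)) : LaurentSeries L) = coeffMap W.subtype y) : u ∈ gb_M W res N := by
  refine ⟨1, y, ?_, ?_⟩
  · rw [Polynomial.map_one]; exact one_ne_zero
  · rw [map_one, one_mul, h]

/-- (b) `M'` is stable under multiplication by elements of `W[j]`. -/
theorem gb_val_ev_mul_mem (hEv : gb_EvCoeStatement) (P : Polynomial ↥W) (z : ↥(FL L N))
    (hz : z ∈ gb_M W res N) : evW W N (jF L N) P * z ∈ gb_M W res N := by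
  obtain ⟨g, y, hg, hy⟩ := hz
  refine ⟨g, S28.evalL (jqModC ↥W) P * y, hg, ?_⟩
  rw [mul_left_comm, IntermediateField.coe_mul, hy, hEv N L W P, map_mul]

/-- The series of `∑ f_i(j) * b_i` is the image of `∑ f_i(jW) * m_i`. -/
theorem gb_val_coe_sum (hEv : gb_EvCoeStatement) (m : Fin (dedekindPsi N) → LaurentSeries ↥W)
    (b : Fin (dedekindPsi N) → ↥(FL L N)) (hm : gb_IsMono W res N m b)
    (f : Fin (dedekindPsi N) → Polynomial ↥W) :
    ((∑ i, evW W N (jF L N) (f i) * b i : ↥(FL L N)) : LaurentSeries L) =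
      coeffMap W.subtype (∑ i, S28.evalL (jqModC ↥W) (f i) * m i) := by
  rw [IntermediateField.coe_sum, map_sum]
  refine Finset.sum_congr rfl fun i _ => ?_
  rw [IntermediateField.coe_mul, hEv N L W (f i), hm.coe i, map_mul]

end

/-- (NR) Normalised representation: `g(j) * x = ∑ f_i(j) * b_i` with `g ≠ 0` and
`(g, f_0, …)` not all divisible by `ϖ`. -/
theorem gb_val_nr (hBasis : gb_BasisStatement) (hT : gb_TranscStatement)
    (hC : gb_ContentStatement)
    (N : ℕ) [NeZero N] (ℓ : ℕ) [Fact ℓ.Prime] (L : Type) [Field L] [Algebra ℚ L]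
    (W : ValuationSubring L) [IsDiscreteValuationRing ↥W] (k : Type) [Field k] [IsAlgClosed k]
    [CharP k ℓ] (res : ↥W →+* k) (ϖ : ↥W) (hD : BaseData N ℓ W res ϖ)
    (m : Fin (dedekindPsi N) → LaurentSeries ↥W) (b : Fin (dedekindPsi N) → ↥(FL L N))
    (hm : gb_IsMono W res N m b) (x : ↥(FL L N)) :
    ∃ (g : Polynomial ↥W) (f : Fin (dedekindPsi N) → Polynomial ↥W), g ≠ 0 ∧
      ¬ (g.map res = 0 ∧ ∀ i, (f i).map res = 0) ∧
      evW W N (jF L N) g * x = ∑ i, evW W N (jF L N) (f i) * b i := by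
  obtain ⟨g₀, f₀, hg₀, h₀⟩ := hBasis N ℓ L W k res ϖ hD m b hm x
  obtain ⟨e, g', f', hg', hf', hnot⟩ := hC N ℓ L W k res ϖ hD _ g₀ f₀ hg₀
  refine ⟨g', f', ?_, hnot, ?_⟩
  · rintro rfl
    exact hg₀ (by rw [hg', mul_zero])
  · have hϖe : evW W N (jF L N) (Polynomial.C ϖ ^ e) ≠ 0 := by
      intro h0
      have h1 := hT N L W (h0.trans (map_zero _).symm)
      exact pow_ne_zero e (Polynomial.C_ne_zero.mpr hD.irreducible.ne_zero) h1
    apply mul_left_cancel₀ hϖe
    rw [← mul_assoc, ← map_mul, ← hg', h₀, Finset.mul_sum]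
    refine Finset.sum_congr rfl fun i _ => ?_
    rw [hf' i, map_mul, mul_assoc]

/-- (UNIT) If the series of `u ∈ F` has coefficients in `W` and nonzero reduction, then
`u⁻¹ ∈ M'`. -/
theorem gb_val_unit (hBasis : gb_BasisStatement) (hDeg : gb_DegWStatement)
    (hEv : gb_EvCoeStatement) (hT : gb_TranscStatement) (hC : gb_ContentStatement)
    (N : ℕ) [NeZero N] (ℓ : ℕ) [Fact ℓ.Prime] (L : Type) [Field L] [Algebra ℚ L]
    (W : ValuationSubring L) [IsDiscreteValuationRing ↥W] (k : Type) [Field k] [IsAlgClosed k]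
    [CharP k ℓ] (res : ↥W →+* k) (ϖ : ↥W) (hD : BaseData N ℓ W res ϖ)
    (m : Fin (dedekindPsi N) → LaurentSeries ↥W) (b : Fin (dedekindPsi N) → ↥(FL L N))
    (hm : gb_IsMono W res N m b) (u : ↥(FL L N)) (S₁ : LaurentSeries ↥W)
    (hu : ((u : ↥(FL L N)) : LaurentSeries L) = coeffMap W.subtype S₁)
    (hS₁ : coeffMap res S₁ ≠ 0) : u⁻¹ ∈ gb_M W res N := by
  have hinj := S28.degMain_coeffMap_injective W.subtype Subtype.val_injective
  have hu0 : u ≠ 0 := by
    rintro rfl
    apply hS₁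
    have h1 : coeffMap W.subtype S₁ = coeffMap W.subtype 0 := by
      rw [← hu, map_zero]; rfl
    rw [hinj h1, map_zero]
  obtain ⟨g', f', -, hnot, h'⟩ := gb_val_nr hBasis hT hC N ℓ L W k res ϖ hD m b hm u⁻¹
  have hcoe := gb_val_coe_sum W res N hEv m b hm f'
  by_cases hg'res : g'.map res = 0
  · exfalso
    have hex : ∃ i, (f' i).map res ≠ 0 := by
      by_contra hcon
      exact hnot ⟨hg'res, fun i => by_contra fun hi => hcon ⟨i, hi⟩⟩
    have hredS' : coeffMap res (∑ i, S28.evalL (jqModC ↥W) (f' i) * m i) ≠ 0 := by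
      intro h0
      obtain ⟨i, hi⟩ := hex
      exact hi (hDeg N L W k res m b hm f' h0 i)
    have h1 : evW W N (jF L N) g' = (∑ i, evW W N (jF L N) (f' i) * b i) * u := by
      rw [← h', mul_assoc, inv_mul_cancel₀ hu0, mul_one]
    have h2 : coeffMap W.subtype (S28.evalL (jqModC ↥W) g') =
        coeffMap W.subtype ((∑ i, S28.evalL (jqModC ↥W) (f' i) * m i) * S₁) := by
      rw [← hEv N L W g', h1, IntermediateField.coe_mul, hcoe, hu, map_mul]
    have h4 := congrArg (coeffMap res) (hinj h2)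
    rw [S28.degMain_coeffMap_evalL, hg'res, map_zero, map_mul] at h4
    exact mul_ne_zero hredS' hS₁ h4.symm
  · exact ⟨g', _, hg'res, by rw [h', hcoe]⟩

/-- (G6) The valuation property of `M'`. -/
theorem gb_val_main : gb_MonoStatement → gb_BasisStatement → gb_DegWStatement → gb_EvCoeStatement →
    gb_TranscStatement → gb_ResStatement → gb_ContentStatement → gb_ValStatement := by
  intro hMono hBasis hDeg hEv hT hRes hC N _ ℓ _ L _ _ W _ k _ _ _ res ϖ hD x
  obtain ⟨m, b, hm⟩ := hMono N ℓ L W k res ϖ hD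
  by_cases hx0 : x = 0
  · left
    rw [hx0]
    exact gb_val_mem_of_coe W res N 0 0 (by rw [map_zero]; rfl)
  obtain ⟨g, f, hg0, hnot, hgx⟩ := gb_val_nr hBasis hT hC N ℓ L W k res ϖ hD m b hm x
  have hcoe := gb_val_coe_sum W res N hEv m b hm f
  by_cases hgres : g.map res = 0
  · right
    have hex : ∃ i, (f i).map res ≠ 0 := by
      by_contra hcon
      exact hnot ⟨hgres, fun i => by_contra fun hi => hcon ⟨i, hi⟩⟩
    have hredS : coeffMap res (∑ i, S28.evalL (jqModC ↥W) (f i) * m i) ≠ 0 := by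
      intro h0
      obtain ⟨i, hi⟩ := hex
      exact hi (hDeg N L W k res m b hm f h0 i)
    have hu : ((evW W N (jF L N) g * x : ↥(FL L N)) : LaurentSeries L) =
        coeffMap W.subtype (∑ i, S28.evalL (jqModC ↥W) (f i) * m i) := by
      rw [hgx, hcoe]
    have hinv := gb_val_unit hBasis hDeg hEv hT hC N ℓ L W k res ϖ hD m b hm _ _ hu hredS
    obtain ⟨g₂, hg₂⟩ := ((hRes N ℓ L W k res ϖ hD).1 g).mp hgres
    have hevg : evW W N (jF L N) g ≠ 0 := fun h0 =>
      hg0 (hT N L W (h0.trans (map_zero _).symm))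
    refine ⟨evW W N (jF L N) g₂ * (evW W N (jF L N) g * x)⁻¹,
      gb_val_ev_mul_mem W res N hEv g₂ _ hinv, ?_⟩
    have hcϖ : cW W N ϖ = evW W N (jF L N) (Polynomial.C ϖ) := by
      rw [evW, Polynomial.coe_eval₂RingHom, Polynomial.eval₂_C]
    rw [hcϖ, ← mul_assoc (evW W N (jF L N) (Polynomial.C ϖ)), ← map_mul, ← hg₂, ← mul_assoc,
      mul_comm x, mul_inv_cancel₀ (mul_ne_zero hevg hx0)]
  · left
    exact ⟨g, _, hgres, by rw [hgx, hcoe]⟩

end

end Fermat.Agent.S18
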