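/-
S18, block H/Ab — package AbhBase: the rational function field `L(t) ⊆ Ω` and its `g`-adic structure.
Deliverables: `h_abhbase_ratrep : h_RatRepStatement`, `h_abhbase_main : h_AbhBaseStatement`.
-/
import Fermat.Agent.S18.HInterfaces

set_option autoImplicit false

open Polynomial

namespace Fermat.Agent.S18

/-- (RatRep) Every element of `L(t) ⊆ Ω` is a quotient `p(t) / q(t)`. -/
theorem h_abhbase_ratrep : h_RatRepStatement := by
  intro L Ω _ _ _ t x hx
  induction hx using Subfield.closure_induction with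
  | mem x hx =>
    rcases hx with ⟨a, rfl⟩ | rfl
    · exact ⟨C a, 1, by simp, by simp⟩
    · exact ⟨X, 1, by simp, by simp⟩
  | one => exact ⟨1, 1, by simp, by simp⟩
  | add x y _ _ ihx ihy =>
    obtain ⟨p, q, hq, h⟩ := ihx
    obtain ⟨p', q', hq', h'⟩ := ihy
    refine ⟨p * q' + p' * q, q * q', by simp [hq, hq'], ?_⟩
    simp only [map_add, map_mul]
    rw [← h, ← h']; ring
  | neg x _ ih =>
    obtain ⟨p, q, hq, h⟩ := ih
    exact ⟨-p, q, hq, by simp [← h]⟩
  | inv x _ ih =>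
    obtain ⟨p, q, hq, h⟩ := ih
    by_cases hx0 : x = 0
    · exact ⟨0, 1, by simp, by simp [hx0]⟩
    · have hp : aeval t p ≠ 0 := by rw [← h]; exact mul_ne_zero hx0 hq
      refine ⟨q, p, hp, ?_⟩
      rw [← h, ← mul_assoc, inv_mul_cancel₀ hx0, one_mul]
  | mul x y _ _ ihx ihy =>
    obtain ⟨p, q, hq, h⟩ := ihx
    obtain ⟨p', q', hq', h'⟩ := ihy
    refine ⟨p * p', q * q', by simp [hq, hq'], ?_⟩
    simp only [map_mul]
    rw [← h, ← h']; ring

/-- Values at `t ∈ O` of polynomials with coefficients in `L ⊆ O` lie in `O`. -/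
theorem h_abhbase_aeval_mem {L Ω : Type} [Field L] [Field Ω] [Algebra L Ω] (O : ValuationSubring Ω)
    (t : Ω) (hL : ∀ a : L, algebraMap L Ω a ∈ O) (ht : t ∈ O) (p : L[X]) : aeval t p ∈ O := by
  induction p using Polynomial.induction_on with
  | C a => simpa using hL a
  | add p q hp hq => simpa using O.add_mem _ _ hp hq
  | monomial n a _ =>
    simp only [map_mul, aeval_C, map_pow, aeval_X]
    exact O.mul_mem _ _ (hL a) (pow_mem ht _)

/-- (B1) If `g(t)` is a non-unit of `O` and `g ∤ p` (`g` irreducible), then `p(t)` is a unit of `O`. -/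
theorem h_abhbase_unit {L Ω : Type} [Field L] [Field Ω] [Algebra L Ω] (O : ValuationSubring Ω)
    (t : Ω) (g : L[X]) (hL : ∀ a : L, algebraMap L Ω a ∈ O) (ht : t ∈ O) (hg : Irreducible g)
    (hgt : aeval t g ∈ O.nonunits) (p : L[X]) (hp : ¬ g ∣ p) :
    aeval t p ≠ 0 ∧ (aeval t p)⁻¹ ∈ O := by
  obtain ⟨a, b, hab⟩ := hg.coprime_iff_not_dvd.2 hp
  have hval : aeval t b * aeval t p = 1 - aeval t a * aeval t g := by
    have := congrArg (aeval t) hab
    simp only [map_add, map_mul, map_one] at this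
    rw [← this]; ring
  have hz : O.valuation (aeval t a * aeval t g) < 1 := by
    rw [map_mul]
    have h1 : O.valuation (aeval t a) ≤ 1 :=
      (O.valuation_le_one_iff _).2 (h_abhbase_aeval_mem O t hL ht a)
    have h2 : O.valuation (aeval t g) < 1 := O.mem_nonunits_iff.1 hgt
    exact lt_of_le_of_lt (mul_le_of_le_one_left' h1) h2
  have hone : O.valuation (aeval t b * aeval t p) = 1 := by
    rw [hval]; exact Valuation.map_one_sub_of_lt _ hz
  have hne : aeval t b * aeval t p ≠ 0 := by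
    intro h0; rw [h0, map_zero] at hone; exact zero_ne_one hone
  have hp0 : aeval t p ≠ 0 := right_ne_zero_of_mul hne
  refine ⟨hp0, ?_⟩
  have hinv : (aeval t b * aeval t p)⁻¹ ∈ O := by
    rw [← O.valuation_le_one_iff, map_inv₀, hone, inv_one]
  have : (aeval t p)⁻¹ = aeval t b * (aeval t b * aeval t p)⁻¹ := by
    have hb0 : aeval t b ≠ 0 := left_ne_zero_of_mul hne
    field_simp
  rw [this]
  exact O.mul_mem _ _ (h_abhbase_aeval_mem O t hL ht b) hinv

/-- (AbhBase) The `g`-adic structure of `L(t)`. -/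
theorem h_abhbase_main : h_AbhBaseStatement := by
  intro L Ω _ _ _ O t g hL ht hg hgt hgt0
  refine ⟨fun p hp => h_abhbase_unit O t g hL ht hg hgt p hp, ?_⟩
  intro x hx hx0
  obtain ⟨p₀, q₀, hq₀, h⟩ := h_abhbase_ratrep L Ω t x hx
  have hp₀ : aeval t p₀ ≠ 0 := by rw [← h]; exact mul_ne_zero hx0 hq₀
  have hp₀' : p₀ ≠ 0 := by rintro rfl; simp at hp₀
  have hq₀' : q₀ ≠ 0 := by rintro rfl; simp at hq₀
  obtain ⟨p, hpe, hp⟩ :=
    (FiniteMultiplicity.of_not_isUnit hg.not_isUnit hp₀').exists_eq_pow_mul_and_not_dvd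
  obtain ⟨q, hqe, hq⟩ :=
    (FiniteMultiplicity.of_not_isUnit hg.not_isUnit hq₀').exists_eq_pow_mul_and_not_dvd
  refine ⟨(multiplicity g p₀ : ℤ) - (multiplicity g q₀ : ℤ), p, q, hp, hq, ?_⟩
  have hP : aeval t p₀ = aeval t g ^ multiplicity g p₀ * aeval t p := by
    conv_lhs => rw [hpe]
    simp
  have hQ : aeval t q₀ = aeval t g ^ multiplicity g q₀ * aeval t q := by
    conv_lhs => rw [hqe]
    simp
  rw [hP, hQ] at h
  rw [zpow_sub₀ hgt0, zpow_natCast, zpow_natCast]
  have hgb : aeval t g ^ multiplicity g q₀ ≠ 0 := pow_ne_zero _ hgt0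
  field_simp
  rw [← h]; ring

end Fermat.Agent.S18
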