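/-
S18, block H/Ab — package AbhMid: the Kummer–Abhyankar case analysis inside a valued algebraically
closed field (deliverable `h_abhmid_main`).
-/
import Fermat.Agent.S18.HInterfaces

set_option autoImplicit false

open Polynomial

namespace Fermat.Agent.S18

section

variable {L Ω : Type} [Field L] [Field Ω] [Algebra L Ω]

/-! ### Elementary valuation facts -/

theorem h_abhmid_val_eq_one {O : ValuationSubring Ω} {u : Ω} (h0 : u ≠ 0) (h1 : u ∈ O)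
    (h2 : u⁻¹ ∈ O) : O.valuation u = 1 := by
  have a := (O.valuation_le_one_iff u).2 h1
  have b := (O.valuation_le_one_iff u⁻¹).2 h2
  rw [map_inv₀] at b
  have h : O.valuation u ≠ 0 := (_root_.map_ne_zero _).2 h0
  exact le_antisymm a ((inv_le_one₀ (zero_lt_iff.2 h)).1 b)

theorem h_abhmid_unit_of_val {O : ValuationSubring Ω} {u : Ω} (h : O.valuation u = 1) :
    u ∈ O ∧ u⁻¹ ∈ O := by
  refine ⟨(O.valuation_le_one_iff u).1 h.le, (O.valuation_le_one_iff _).1 ?_⟩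
  rw [map_inv₀, h, inv_one]

theorem h_abhmid_val_eq_one_of_not_nonunits {O : ValuationSubring Ω} {u : Ω} (h1 : u ∈ O)
    (h2 : u ∉ O.nonunits) : O.valuation u = 1 := by
  have a := (O.valuation_le_one_iff u).2 h1
  rw [O.mem_nonunits_iff, not_lt] at h2
  exact le_antisymm a h2

theorem h_abhmid_aeval_mem (S : Subring Ω) (t : Ω) (hL : ∀ a : L, algebraMap L Ω a ∈ S)
    (ht : t ∈ S) (p : L[X]) : aeval t p ∈ S := by
  rw [aeval_eq_sum_range]
  exact Subring.sum_mem _ fun i _ => by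
    rw [Algebra.smul_def]
    exact S.mul_mem (hL _) (S.pow_mem ht _)

theorem h_abhmid_aeval_mem_O (O : ValuationSubring Ω) (t : Ω)
    (hL : ∀ a : L, algebraMap L Ω a ∈ O) (ht : t ∈ O) (p : L[X]) : aeval t p ∈ O :=
  h_abhmid_aeval_mem O.toSubring t hL ht p

theorem h_abhmid_aeval_mem_F (F : Subfield Ω) (t : Ω)
    (hL : ∀ a : L, algebraMap L Ω a ∈ F) (ht : t ∈ F) (p : L[X]) : aeval t p ∈ F :=
  h_abhmid_aeval_mem F.toSubring t hL ht p

theorem h_abhmid_range_mem (t : Ω) (a : L) :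
    algebraMap L Ω a ∈ Subfield.closure (Set.range (algebraMap L Ω) ∪ {t}) :=
  Subfield.subset_closure (Or.inl ⟨a, rfl⟩)

theorem h_abhmid_gen_mem (t : Ω) :
    t ∈ Subfield.closure (Set.range (algebraMap L Ω) ∪ {t}) :=
  Subfield.subset_closure (Or.inr rfl)

theorem h_abhmid_aeval_mem_Lt (t : Ω) (p : L[X]) :
    aeval t p ∈ Subfield.closure (Set.range (algebraMap L Ω) ∪ {t}) :=
  h_abhmid_aeval_mem_F _ t (h_abhmid_range_mem t) (h_abhmid_gen_mem t) p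

theorem h_abhmid_closure_le (F : Subfield Ω) (t : Ω)
    (hL : ∀ a : L, algebraMap L Ω a ∈ F) (ht : t ∈ F) :
    Subfield.closure (Set.range (algebraMap L Ω) ∪ {t}) ≤ F := by
  rw [Subfield.closure_le]
  rintro x (⟨a, rfl⟩ | hx)
  · exact hL a
  · rw [Set.mem_singleton_iff] at hx
    rw [hx]
    exact ht

/-! ### The `g`-adic structure of `L(t)` -/

theorem h_abhmid_val_unit (O : ValuationSubring Ω) (t : Ω) (g : L[X])
    (hL : ∀ a : L, algebraMap L Ω a ∈ O) (ht : t ∈ O)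
    (hB1 : ∀ p : L[X], ¬ g ∣ p → aeval t p ≠ 0 ∧ (aeval t p)⁻¹ ∈ O) (p : L[X]) (hp : ¬ g ∣ p) :
    O.valuation (aeval t p) = 1 :=
  h_abhmid_val_eq_one (hB1 p hp).1 (h_abhmid_aeval_mem_O O t hL ht p) (hB1 p hp).2

theorem h_abhmid_val_eq (O : ValuationSubring Ω) (t : Ω) (g : L[X])
    (hL : ∀ a : L, algebraMap L Ω a ∈ O) (ht : t ∈ O)
    (hB1 : ∀ p : L[X], ¬ g ∣ p → aeval t p ≠ 0 ∧ (aeval t p)⁻¹ ∈ O)
    (hB2 : ∀ x ∈ Subfield.closure (Set.range (algebraMap L Ω) ∪ {t}), x ≠ 0 →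
      ∃ (n : ℤ) (p q : L[X]), ¬ g ∣ p ∧ ¬ g ∣ q ∧ x * aeval t q = aeval t g ^ n * aeval t p)
    (x : Ω) (hx : x ∈ Subfield.closure (Set.range (algebraMap L Ω) ∪ {t})) (hx0 : x ≠ 0) :
    ∃ (n : ℤ) (p q : L[X]), ¬ g ∣ p ∧ ¬ g ∣ q ∧ x * aeval t q = aeval t g ^ n * aeval t p ∧
      O.valuation x = O.valuation (aeval t g) ^ n := by
  obtain ⟨n, p, q, hp, hq, h⟩ := hB2 x hx hx0
  refine ⟨n, p, q, hp, hq, h, ?_⟩
  have := congrArg O.valuation h
  rwa [map_mul, map_mul, map_zpow₀, h_abhmid_val_unit O t g hL ht hB1 p hp,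
    h_abhmid_val_unit O t g hL ht hB1 q hq, mul_one, mul_one] at this

theorem h_abhmid_disc (O : ValuationSubring Ω) (t : Ω) (g : L[X])
    (hL : ∀ a : L, algebraMap L Ω a ∈ O) (ht : t ∈ O)
    (hB1 : ∀ p : L[X], ¬ g ∣ p → aeval t p ≠ 0 ∧ (aeval t p)⁻¹ ∈ O)
    (hB2 : ∀ x ∈ Subfield.closure (Set.range (algebraMap L Ω) ∪ {t}), x ≠ 0 →
      ∃ (n : ℤ) (p q : L[X]), ¬ g ∣ p ∧ ¬ g ∣ q ∧ x * aeval t q = aeval t g ^ n * aeval t p)
    (x : Ω) (hx : x ∈ Subfield.closure (Set.range (algebraMap L Ω) ∪ {t})) (hx0 : x ≠ 0) :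
    ∃ (n : ℤ) (u : Ω), u ∈ O ∧ u⁻¹ ∈ O ∧ x = aeval t g ^ n * u := by
  obtain ⟨n, p, q, hp, hq, h⟩ := hB2 x hx hx0
  have hpu := h_abhmid_val_unit O t g hL ht hB1 p hp
  have hqu := h_abhmid_val_unit O t g hL ht hB1 q hq
  have hu : O.valuation (aeval t p * (aeval t q)⁻¹) = 1 := by
    rw [map_mul, map_inv₀, hpu, hqu, inv_one, mul_one]
  refine ⟨n, aeval t p * (aeval t q)⁻¹, (h_abhmid_unit_of_val hu).1, (h_abhmid_unit_of_val hu).2, ?_⟩
  rw [← mul_assoc, ← h, mul_assoc, mul_inv_cancel₀ (hB1 q hq).1, mul_one]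

theorem h_abhmid_regAt_mem (O : ValuationSubring Ω) (t : Ω) (g : L[X])
    (hL : ∀ a : L, algebraMap L Ω a ∈ O) (ht : t ∈ O)
    (hB1 : ∀ p : L[X], ¬ g ∣ p → aeval t p ≠ 0 ∧ (aeval t p)⁻¹ ∈ O)
    (x : Ω) (hx : RegAt t g x) :
    x ∈ Subfield.closure (Set.range (algebraMap L Ω) ∪ {t}) ∧ x ∈ O := by
  obtain ⟨p, q, hq, h⟩ := hx
  have hx' : x = aeval t p * (aeval t q)⁻¹ := by
    rw [← h, mul_comm, ← mul_assoc, inv_mul_cancel₀ (hB1 q hq).1, one_mul]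
  rw [hx']
  exact ⟨Subfield.mul_mem _ (h_abhmid_aeval_mem_Lt t p) (Subfield.inv_mem _ (h_abhmid_aeval_mem_Lt t q)),
    O.mul_mem _ _ (h_abhmid_aeval_mem_O O t hL ht p) (hB1 q hq).2⟩

theorem h_abhmid_regAt_of_mem (O : ValuationSubring Ω) (t : Ω) (g : L[X])
    (hL : ∀ a : L, algebraMap L Ω a ∈ O) (ht : t ∈ O) (hg : Irreducible g)
    (hγ : aeval t g ∈ O.nonunits) (hγ0 : aeval t g ≠ 0)
    (hB1 : ∀ p : L[X], ¬ g ∣ p → aeval t p ≠ 0 ∧ (aeval t p)⁻¹ ∈ O)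
    (hB2 : ∀ x ∈ Subfield.closure (Set.range (algebraMap L Ω) ∪ {t}), x ≠ 0 →
      ∃ (n : ℤ) (p q : L[X]), ¬ g ∣ p ∧ ¬ g ∣ q ∧ x * aeval t q = aeval t g ^ n * aeval t p)
    (x : Ω) (hx : x ∈ Subfield.closure (Set.range (algebraMap L Ω) ∪ {t})) (hxO : x ∈ O) :
    RegAt t g x := by
  rcases eq_or_ne x 0 with rfl | hx0
  · exact ⟨0, 1, fun h => hg.not_isUnit (isUnit_of_dvd_one h), by simp⟩
  · obtain ⟨n, p, q, hp, hq, h, hv⟩ := h_abhmid_val_eq O t g hL ht hB1 hB2 x hx hx0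
    have hc0 : 0 < O.valuation (aeval t g) := zero_lt_iff.2 ((_root_.map_ne_zero _).2 hγ0)
    have hc1 : O.valuation (aeval t g) < 1 := O.mem_nonunits_iff.1 hγ
    have hn : 0 ≤ n := by
      rw [← zpow_le_one_iff_right_of_lt_one₀ hc0 hc1, ← hv]
      exact (O.valuation_le_one_iff x).2 hxO
    obtain ⟨k, rfl⟩ := Int.eq_ofNat_of_zero_le hn
    refine ⟨g ^ k * p, q, hq, ?_⟩
    rw [mul_comm, h, map_mul, map_pow, zpow_natCast]

/-- a nonzero non-unit of `L(t)` is `g(t)^e * A₁(t)/B(t)` with `e ≥ 1`. -/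
theorem h_abhmid_key (O : ValuationSubring Ω) (t : Ω) (g : L[X])
    (hL : ∀ a : L, algebraMap L Ω a ∈ O) (ht : t ∈ O)
    (hγ : aeval t g ∈ O.nonunits) (hγ0 : aeval t g ≠ 0)
    (hB1 : ∀ p : L[X], ¬ g ∣ p → aeval t p ≠ 0 ∧ (aeval t p)⁻¹ ∈ O)
    (hB2 : ∀ x ∈ Subfield.closure (Set.range (algebraMap L Ω) ∪ {t}), x ≠ 0 →
      ∃ (n : ℤ) (p q : L[X]), ¬ g ∣ p ∧ ¬ g ∣ q ∧ x * aeval t q = aeval t g ^ n * aeval t p)
    (x : Ω) (hx : x ∈ Subfield.closure (Set.range (algebraMap L Ω) ∪ {t})) (hx0 : x ≠ 0)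
    (hxO : x ∈ O.nonunits) :
    ∃ (e : ℕ) (A₁ B : L[X]), 0 < e ∧ ¬ g ∣ A₁ ∧ ¬ g ∣ B ∧
      x * aeval t B = aeval t g ^ e * aeval t A₁ ∧
      O.valuation x = O.valuation (aeval t g) ^ e := by
  obtain ⟨n, p, q, hp, hq, h, hv⟩ := h_abhmid_val_eq O t g hL ht hB1 hB2 x hx hx0
  have hc0 : 0 < O.valuation (aeval t g) := zero_lt_iff.2 ((_root_.map_ne_zero _).2 hγ0)
  have hc1 : O.valuation (aeval t g) < 1 := O.mem_nonunits_iff.1 hγ
  have hn : 0 < n := by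
    rw [← zpow_lt_one_iff_right_of_lt_one₀ hc0 hc1, ← hv]
    exact O.mem_nonunits_iff.1 hxO
  obtain ⟨k, rfl⟩ := Int.eq_ofNat_of_zero_le hn.le
  refine ⟨k, p, q, by exact_mod_cast hn, hp, hq, ?_, ?_⟩
  · rw [h, zpow_natCast]
  · rw [hv, zpow_natCast]

/-- a nonzero element of `L(t) ∩ O` has valuation `v(g(t))^k`, `k ≥ 0`. -/
theorem h_abhmid_key_nat (O : ValuationSubring Ω) (t : Ω) (g : L[X])
    (hL : ∀ a : L, algebraMap L Ω a ∈ O) (ht : t ∈ O)
    (hγ : aeval t g ∈ O.nonunits) (hγ0 : aeval t g ≠ 0)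
    (hB1 : ∀ p : L[X], ¬ g ∣ p → aeval t p ≠ 0 ∧ (aeval t p)⁻¹ ∈ O)
    (hB2 : ∀ x ∈ Subfield.closure (Set.range (algebraMap L Ω) ∪ {t}), x ≠ 0 →
      ∃ (n : ℤ) (p q : L[X]), ¬ g ∣ p ∧ ¬ g ∣ q ∧ x * aeval t q = aeval t g ^ n * aeval t p)
    (x : Ω) (hx : x ∈ Subfield.closure (Set.range (algebraMap L Ω) ∪ {t})) (hx0 : x ≠ 0)
    (hxO : x ∈ O) :
    ∃ k : ℕ, O.valuation x = O.valuation (aeval t g) ^ k := by
  obtain ⟨n, p, q, hp, hq, h, hv⟩ := h_abhmid_val_eq O t g hL ht hB1 hB2 x hx hx0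
  have hc0 : 0 < O.valuation (aeval t g) := zero_lt_iff.2 ((_root_.map_ne_zero _).2 hγ0)
  have hc1 : O.valuation (aeval t g) < 1 := O.mem_nonunits_iff.1 hγ
  have hn : 0 ≤ n := by
    rw [← zpow_le_one_iff_right_of_lt_one₀ hc0 hc1, ← hv]
    exact (O.valuation_le_one_iff x).2 hxO
  obtain ⟨k, rfl⟩ := Int.eq_ofNat_of_zero_le hn
  exact ⟨k, by rw [hv, zpow_natCast]⟩

/-- the divisibility of the exponent: `ϑ = u * a ^ M` with `u` a unit and `a` regular at `g`. -/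
theorem h_abhmid_pow (O : ValuationSubring Ω) (t : Ω) (g : L[X])
    (hL : ∀ a : L, algebraMap L Ω a ∈ O) (ht : t ∈ O)
    (hγ : aeval t g ∈ O.nonunits) (hγ0 : aeval t g ≠ 0)
    (hB1 : ∀ p : L[X], ¬ g ∣ p → aeval t p ≠ 0 ∧ (aeval t p)⁻¹ ∈ O)
    (hB2 : ∀ x ∈ Subfield.closure (Set.range (algebraMap L Ω) ∪ {t}), x ≠ 0 →
      ∃ (n : ℤ) (p q : L[X]), ¬ g ∣ p ∧ ¬ g ∣ q ∧ x * aeval t q = aeval t g ^ n * aeval t p)
    (x : Ω) (hx : x ∈ Subfield.closure (Set.range (algebraMap L Ω) ∪ {t})) (hx0 : x ≠ 0)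
    (hxO : x ∈ O.nonunits) (M : ℕ)
    (hM : ∃ a u v : Ω, RegAt t g a ∧ RegAt t g u ∧ RegAt t g v ∧ u * v = 1 ∧ x = u * a ^ M) :
    ∃ (e : ℕ) (A₁ B : L[X]), 0 < e ∧ M ∣ e ∧ ¬ g ∣ A₁ ∧ ¬ g ∣ B ∧
      x * aeval t B = aeval t g ^ e * aeval t A₁ := by
  obtain ⟨e, A₁, B, he, hA, hB, h, hv⟩ := h_abhmid_key O t g hL ht hγ hγ0 hB1 hB2 x hx hx0 hxO
  refine ⟨e, A₁, B, he, ?_, hA, hB, h⟩
  obtain ⟨a, u, v, ha, hu, hv', huv, hxa⟩ := hM
  have hc0 : 0 < O.valuation (aeval t g) := zero_lt_iff.2 ((_root_.map_ne_zero _).2 hγ0)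
  have hc1 : O.valuation (aeval t g) < 1 := O.mem_nonunits_iff.1 hγ
  have huO := (h_abhmid_regAt_mem O t g hL ht hB1 u hu).2
  have hvO := (h_abhmid_regAt_mem O t g hL ht hB1 v hv').2
  have hv_eq : v = u⁻¹ := eq_inv_of_mul_eq_one_right huv
  have hu0 : u ≠ 0 := left_ne_zero_of_mul_eq_one huv
  have hu1 : O.valuation u = 1 := h_abhmid_val_eq_one hu0 huO (hv_eq ▸ hvO)
  have haM : a ^ M ≠ 0 := by
    rintro h0
    rw [h0, mul_zero] at hxa
    exact hx0 hxa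
  have ha0 : a ≠ 0 := by
    rintro rfl
    rcases Nat.eq_zero_or_pos M with hM0 | hM0
    · subst hM0
      rw [pow_zero, mul_one] at hxa
      rw [hxa, O.mem_nonunits_iff, hu1] at hxO
      exact lt_irrefl _ hxO
    · exact haM (zero_pow hM0.ne')
  obtain ⟨haL, haO⟩ := h_abhmid_regAt_mem O t g hL ht hB1 a ha
  obtain ⟨k, hk⟩ := h_abhmid_key_nat O t g hL ht hγ hγ0 hB1 hB2 a haL ha0 haO
  have hvx : O.valuation x = O.valuation (aeval t g) ^ (k * M) := by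
    rw [hxa, map_mul, hu1, one_mul, map_pow, hk, pow_mul]
  rw [hv] at hvx
  have := pow_right_injective₀ hc0 hc1.ne hvx
  exact ⟨k, by rw [this, mul_comm]⟩

/-! ### Nontriviality of the valuation on `L(j)` -/

theorem h_abhmid_nontriv (O : ValuationSubring Ω) (t j : Ω) (g : L[X])
    (hγ : aeval t g ∈ O.nonunits) (hγ0 : aeval t g ≠ 0)
    (hj : ∀ p : L[X], aeval j p = 0 → p = 0)
    (hjt : ∃ p q : L[X], q ≠ 0 ∧ aeval t q * j = aeval t p) :
    ∃ y ∈ Subfield.closure (Set.range (algebraMap L Ω) ∪ {j}), y ≠ 0 ∧ y ∈ O.nonunits := by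
  by_contra hcon0
  set K : Subfield Ω := Subfield.closure (Set.range (algebraMap L Ω) ∪ {j}) with hK
  have hcon : ∀ y ∈ K, y ≠ 0 → y ∉ O.nonunits := fun y hy hy0 hyn => hcon0 ⟨y, hy, hy0, hyn⟩
  have hKO : ∀ y ∈ K, y ∈ O := by
    intro y hy
    by_contra hyO
    have hy0 : y ≠ 0 := by
      rintro rfl
      exact hyO O.zero_mem
    have : y⁻¹ ∈ O.nonunits := by
      rw [O.inv_mem_nonunits_iff]
      exact Or.inr hyO
    exact hcon y⁻¹ (K.inv_mem hy) (inv_ne_zero hy0) this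
  let φ : L →+* K := (algebraMap L Ω).codRestrict K (fun a => h_abhmid_range_mem j a)
  have hφ : (algebraMap K Ω).comp φ = algebraMap L Ω := by
    ext a
    rfl
  obtain ⟨p, q, hq, hpq⟩ := hjt
  have htalg : IsAlgebraic K t := by
    refine ⟨C (⟨j, h_abhmid_gen_mem j⟩ : K) * q.map φ - p.map φ, ?_, ?_⟩
    · intro h0
      obtain ⟨i, hi⟩ : ∃ i, q.coeff i ≠ 0 := by
        by_contra h
        exact hq (Polynomial.ext fun i => by
          rw [coeff_zero]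
          exact not_not.1 (not_exists.1 h i))
      have h1 := congrArg (fun P : K[X] => ((P.coeff i : K) : Ω)) h0
      simp only [coeff_sub, coeff_C_mul, coeff_map, coeff_zero] at h1
      have h2 : j * algebraMap L Ω (q.coeff i) - algebraMap L Ω (p.coeff i) = 0 := h1
      have hj' : j = algebraMap L Ω (p.coeff i / q.coeff i) := by
        rw [map_div₀, eq_div_iff ((_root_.map_ne_zero _).2 hi)]
        exact sub_eq_zero.1 h2
      have h3 := hj (X - C (p.coeff i / q.coeff i)) (by rw [map_sub, aeval_X, aeval_C, ← hj', sub_self])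
      exact X_sub_C_ne_zero _ h3
    · rw [map_sub, map_mul, aeval_C, aeval_def, aeval_def, eval₂_map, eval₂_map, hφ]
      change j * aeval t q - aeval t p = 0
      rw [mul_comm, hpq, sub_self]
  have hγint : IsIntegral K (aeval t g) :=
    h_abhmid_aeval_mem (integralClosure K Ω).toSubring t
      (fun a => (isIntegral_algebraMap : IsIntegral K (algebraMap K Ω (φ a)))) htalg.isIntegral g
  have hP0 : (minpoly K (aeval t g)).coeff 0 ≠ 0 := minpoly.coeff_zero_ne_zero hγint hγ0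
  have hPe : aeval (aeval t g) (minpoly K (aeval t g)) = 0 := minpoly.aeval _ _
  rw [← divX_mul_X_add (minpoly K (aeval t g)), map_add, map_mul, aeval_X, aeval_C] at hPe
  have hγO : aeval t g ∈ O := O.nonunits_subset hγ
  have hdiv : aeval (aeval t g) (divX (minpoly K (aeval t g))) ∈ O :=
    h_abhmid_aeval_mem_O O (aeval t g) (fun a : K => hKO a a.2) hγO _
  have hc : algebraMap K Ω ((minpoly K (aeval t g)).coeff 0) ∈ O.nonunits := by
    rw [eq_neg_of_add_eq_zero_right hPe, O.mem_nonunits_iff, Valuation.map_neg, map_mul]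
    exact mul_lt_one_of_nonneg_of_lt_one_right ((O.valuation_le_one_iff _).2 hdiv) zero_le
      (O.mem_nonunits_iff.1 hγ)
  exact hcon _ ((minpoly K (aeval t g)).coeff 0).2
    (fun h => hP0 (Subtype.ext h)) hc

/-! ### An irreducible factor with non-unit value -/

theorem h_abhmid_factor (O : ValuationSubring Ω) (j : Ω)
    (hL : ∀ a : L, algebraMap L Ω a ∈ O) (hjO : j ∈ O) (a : L[X]) (ha0 : a ≠ 0)
    (ha : aeval j a ∈ O.nonunits) :
    ∃ π : L[X], Irreducible π ∧ π ∣ a ∧ aeval j π ∈ O.nonunits := by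
  induction a using WfDvdMonoid.induction_on_irreducible with
  | zero => exact absurd rfl ha0
  | unit u hu =>
    exfalso
    obtain ⟨c, hc, rfl⟩ := Polynomial.isUnit_iff.1 hu
    rw [aeval_C, O.mem_nonunits_iff] at ha
    have : O.valuation (algebraMap L Ω c) = 1 :=
      h_abhmid_val_eq_one ((_root_.map_ne_zero _).2 hc.ne_zero) (hL c) (by
        rw [← map_inv₀]
        exact hL _)
    exact ha.ne this
  | mul a π ha0' hπ ih =>
    rw [map_mul, O.mem_nonunits_iff, map_mul] at ha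
    by_cases h1 : aeval j π ∈ O.nonunits
    · exact ⟨π, hπ, dvd_mul_right _ _, h1⟩
    · have := h_abhmid_val_eq_one_of_not_nonunits (h_abhmid_aeval_mem_O O j hL hjO π) h1
      rw [this, one_mul] at ha
      obtain ⟨π', h1, h2, h3⟩ := ih ha0' (O.mem_nonunits_iff.2 ha)
      exact ⟨π', h1, h2.mul_left _, h3⟩

end

/-! ### The main theorem -/

theorem h_abhmid_main : e_SubDiscStatement → e_ValFinStatement → h_RatRepStatement →
    h_AbhBaseStatement → h_AbhCoreStatement → h_AbhMidStatement := by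
  intro hSub hFin hRat hBase hCore N L Ω _ _ _ _ _ O F t j g hN hL hLF ht hg hγ httr hjF hjtr hjt
    hfin hHZ hC0 hC1 hCinf
  have hg0 : g ≠ 0 := hg.ne_zero
  have hγ0 : aeval t g ≠ 0 := fun h => hg0 (httr g h)
  obtain ⟨hB1, hB2⟩ := hBase L Ω O t g hL ht hg hγ hγ0
  have hjLt : j ∈ Subfield.closure (Set.range (algebraMap L Ω) ∪ {t}) := by
    obtain ⟨p, q, hq, h⟩ := hjt
    have hq0 : aeval t q ≠ 0 := fun h0 => hq (httr q h0)
    have : j = aeval t p * (aeval t q)⁻¹ := by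
      rw [← h, mul_comm, ← mul_assoc, inv_mul_cancel₀ hq0, one_mul]
    rw [this]
    exact Subfield.mul_mem _ (h_abhmid_aeval_mem_Lt t p)
      (Subfield.inv_mem _ (h_abhmid_aeval_mem_Lt t q))
  have hj0 : j ≠ 0 := by
    intro h
    exact X_ne_zero (hjtr X (by rw [aeval_X, h]))
  have hj1 : j - 1728 ≠ 0 := by
    intro h
    exact X_sub_C_ne_zero (1728 : L) (hjtr (X - C 1728) (by
      rw [map_sub, aeval_X, aeval_C, map_ofNat]
      exact h))
  have hLjLt := h_abhmid_closure_le (Subfield.closure (Set.range (algebraMap L Ω) ∪ {t})) j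
    (h_abhmid_range_mem t) hjLt
  have hLjF := h_abhmid_closure_le F j hLF hjF
  have hnt := h_abhmid_nontriv O t j g hγ hγ0 hjtr hjt
  obtain ⟨ϖ, hϖ, hϖ0, hϖn, hϖd⟩ := hSub Ω O _ _ (aeval t g) hLjLt (h_abhmid_aeval_mem_Lt t g) hγ0 hγ
    (h_abhmid_disc O t g hL ht hB1 hB2) hnt
  obtain ⟨πw, hπw, hπw0, hπwn, hπwd⟩ := hFin Ω O _ F ϖ hLjF hϖ hϖ0 hϖn hϖd hfin
  obtain ⟨hZ1, hZ2, hZ3, hZ4⟩ := hHZ πw hπw hπw0 hπwn hπwd
  have core : ∀ (ϑ : Ω) (m e : ℕ) (A₁ B : L[X]), ϑ ∈ F → 0 < m → 0 < e → m ∣ e →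
      (∃ u : Ω, u ∈ O ∧ u⁻¹ ∈ O ∧ ϑ = πw ^ m * u) → ¬ g ∣ A₁ → ¬ g ∣ B →
      ϑ * aeval t B = aeval t g ^ e * aeval t A₁ →
      ∀ x ∈ Subfield.closure ((F : Set Ω) ∪ {t}), x ≠ 0 →
        ∃ (n : ℤ) (u : Ω), u ∈ O ∧ u⁻¹ ∈ O ∧ x = aeval t g ^ n * u :=
    fun ϑ m e A₁ B h1 h2 h3 h4 h5 h6 h7 h8 =>
      hCore L Ω O F t g A₁ B πw ϑ m e hL hLF ht hg hγ hγ0 hπw hπw0 hπwn hπwd h1 h2 h3 h4 h5 h6 h7 h8
  by_cases hreg : RegAt t g j
  · have hjO := (h_abhmid_regAt_mem O t g hL ht hB1 j hreg).2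
    by_cases hjn : j ∈ O.nonunits
    · obtain ⟨m, u, hm, hu, hu', hju⟩ := hZ2 hjn
      obtain ⟨e, A₁, B, he, hMe, hA, hB, h⟩ :=
        h_abhmid_pow O t g hL ht hγ hγ0 hB1 hB2 j hjLt hj0 hjn 3 (hC0 hreg)
      exact core j m e A₁ B hjF (Nat.pos_of_dvd_of_pos hm (by norm_num)) he (hm.trans hMe)
        ⟨u, hu, hu', hju⟩ hA hB h
    · by_cases hj1n : j - 1728 ∈ O.nonunits
      · obtain ⟨m, u, hm, hu, hu', hju⟩ := hZ3 hj1n
        have h1728 : (1728 : Ω) ∈ Subfield.closure (Set.range (algebraMap L Ω) ∪ {t}) := by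
          have := h_abhmid_range_mem t (1728 : L)
          rwa [map_ofNat] at this
        have h1728F : (1728 : Ω) ∈ F := by
          have := hLF (1728 : L)
          rwa [map_ofNat] at this
        obtain ⟨e, A₁, B, he, hMe, hA, hB, h⟩ :=
          h_abhmid_pow O t g hL ht hγ hγ0 hB1 hB2 (j - 1728) (Subfield.sub_mem _ hjLt h1728) hj1 hj1n
            2 (hC1 hreg)
        exact core (j - 1728) m e A₁ B (F.sub_mem hjF h1728F)
          (Nat.pos_of_dvd_of_pos hm (by norm_num)) he (hm.trans hMe) ⟨u, hu, hu', hju⟩ hA hB h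
      · obtain ⟨y, hy, hy0, hyn⟩ := hnt
        obtain ⟨a, b, hb, hab⟩ := hRat L Ω j y hy
        have haO := h_abhmid_aeval_mem_O O j hL hjO a
        have hbO := h_abhmid_aeval_mem_O O j hL hjO b
        have han : aeval j a ∈ O.nonunits := by
          rw [← hab, O.mem_nonunits_iff, map_mul]
          exact mul_lt_one_of_nonneg_of_lt_one_left zero_le (O.mem_nonunits_iff.1 hyn)
            ((O.valuation_le_one_iff _).2 hbO)
        have ha0 : a ≠ 0 := by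
          rintro rfl
          rw [map_zero] at hab
          exact (mul_ne_zero hy0 hb) hab
        obtain ⟨π, hπ, hπa, hπn⟩ := h_abhmid_factor O j hL hjO a ha0 han
        have h1728O : j - 1728 ∈ O := by
          have := O.sub_mem hjO (hL (1728 : L))
          rwa [map_ofNat] at this
        have hπndvd : ¬ π ∣ X * (X - C 1728) := by
          rintro ⟨c, hc⟩
          have h1 := congrArg (fun P : L[X] => O.valuation (aeval j P)) hc
          simp only [map_mul, map_sub, aeval_X, map_ofNat] at h1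
          rw [h_abhmid_val_eq_one_of_not_nonunits hjO hjn,
            h_abhmid_val_eq_one_of_not_nonunits h1728O hj1n, one_mul] at h1
          have h2 : O.valuation (aeval j π) * O.valuation (aeval j c) < 1 :=
            mul_lt_one_of_nonneg_of_lt_one_left zero_le (O.mem_nonunits_iff.1 hπn)
              ((O.valuation_le_one_iff _).2 (h_abhmid_aeval_mem_O O j hL hjO c))
          rw [← h1] at h2
          exact lt_irrefl _ h2
        obtain ⟨u, hu, hu', hπu⟩ := hZ4 π hπ hπndvd hπn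
        have hπLt : aeval j π ∈ Subfield.closure (Set.range (algebraMap L Ω) ∪ {t}) :=
          h_abhmid_aeval_mem_F _ j (h_abhmid_range_mem t) hjLt π
        have hπ0 : aeval j π ≠ 0 := fun h => hπ.ne_zero (hjtr π h)
        obtain ⟨e, A₁, B, he, hA, hB, h, -⟩ :=
          h_abhmid_key O t g hL ht hγ hγ0 hB1 hB2 _ hπLt hπ0 hπn
        exact core (aeval j π) 1 e A₁ B (h_abhmid_aeval_mem_F F j hLF hjF π) one_pos he
          (one_dvd _) ⟨u, hu, hu', by rw [pow_one]; exact hπu⟩ hA hB h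
  · have hjO : j ∉ O := fun h =>
      hreg (h_abhmid_regAt_of_mem O t g hL ht hg hγ hγ0 hB1 hB2 j hjLt h)
    have hjn : j⁻¹ ∈ O.nonunits := by
      rw [O.inv_mem_nonunits_iff]
      exact Or.inr hjO
    obtain ⟨m, u, hm, hu, hu', hju⟩ := hZ1 hjO
    obtain ⟨e, A₁, B, he, hMe, hA, hB, h⟩ :=
      h_abhmid_pow O t g hL ht hγ hγ0 hB1 hB2 j⁻¹ (Subfield.inv_mem _ hjLt) (inv_ne_zero hj0) hjn
        N (hCinf hreg)
    exact core j⁻¹ m e A₁ B (F.inv_mem hjF) (Nat.pos_of_dvd_of_pos hm hN) he (hm.trans hMe)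
      ⟨u, hu, hu', hju⟩ hA hB h

end Fermat.Agent.S18
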