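/-
S18, block H — package DiscConc: from the abstract DVR statement `h_DiscAbsStatement` to the concrete
form `h_DiscUnitStatement` (`L[t]_(g) ⊂ L(t) ⊂ E`, `UnramAtPoly`).
-/
import Fermat.Agent.S18.HInterfaces

set_option autoImplicit false

open Polynomial

namespace Fermat.Agent.S18

noncomputable section

section

variable {L E : Type} [Field L] [Field E] [Algebra L E] (t : E)

/-- The evaluation `L[X] → L(t)`, `p ↦ p(t)`. -/
def h_discconc_phi : L[X] →ₐ[L] ↥(IntermediateField.adjoin L {t}) :=
  aeval (⟨t, IntermediateField.mem_adjoin_simple_self L t⟩ : ↥(IntermediateField.adjoin L {t}))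

theorem h_discconc_phi_coe (p : L[X]) :
    ((h_discconc_phi t p : ↥(IntermediateField.adjoin L {t})) : E) = aeval t p := by
  unfold h_discconc_phi
  exact (aeval_algebraMap_apply E
    (⟨t, IntermediateField.mem_adjoin_simple_self L t⟩ : ↥(IntermediateField.adjoin L {t})) p).symm

theorem h_discconc_phi_injective (ht : ∀ p : L[X], aeval t p = 0 → p = 0) :
    Function.Injective (h_discconc_phi (L := L) t) := by
  rw [injective_iff_map_eq_zero]
  intro p hp
  apply ht
  rw [← h_discconc_phi_coe, hp]
  rfl

theorem h_discconc_phi_surj (z : ↥(IntermediateField.adjoin L {t})) :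
    ∃ x y : L[X], z = h_discconc_phi t x / h_discconc_phi t y := by
  obtain ⟨r, s, h⟩ := (IntermediateField.mem_adjoin_simple_iff L (z : E)).1 z.2
  refine ⟨r, s, Subtype.ext ?_⟩
  rw [h]
  push_cast
  rw [h_discconc_phi_coe, h_discconc_phi_coe]

/-- Integrality over `L[X]` (acting through `p ↦ p(t)`) gives integrality over `L[t]`. -/
theorem h_discconc_integral (f : L[X] →+* E) (hf : ∀ p : L[X], f p = aeval t p) (y : E)
    (hy : f.IsIntegralElem y) : IsIntegral ↥(Algebra.adjoin L {t}) y := by
  obtain ⟨p, hp, hpe⟩ := hy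
  let θ : L[X] →+* ↥(Algebra.adjoin L {t}) :=
    (aeval (⟨t, Algebra.subset_adjoin (Set.mem_singleton t)⟩ : ↥(Algebra.adjoin L {t})) :
      L[X] →ₐ[L] ↥(Algebra.adjoin L {t})).toRingHom
  have key : (algebraMap ↥(Algebra.adjoin L {t}) E).comp θ = f := by
    refine RingHom.ext fun q => ?_
    rw [hf]
    exact (Subalgebra.aeval_coe (Algebra.adjoin L {t})
      (⟨t, Algebra.subset_adjoin (Set.mem_singleton t)⟩ : ↥(Algebra.adjoin L {t})) q).symm
  refine ⟨p.map θ, hp.map θ, ?_⟩
  rw [eval₂_map, key]
  exact hpe

end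

theorem h_discconc_main : h_DiscAbsStatement → h_DiscUnitStatement := by
  intro hAbs L E _ _ _ _ t g hg ht hfin hV
  classical
  let φ : L[X] →+* ↥(IntermediateField.adjoin L {t}) := (h_discconc_phi t).toRingHom
  have hφinj : Function.Injective φ := h_discconc_phi_injective t ht
  have hφcoe : ∀ p : L[X], ((φ p : ↥(IntermediateField.adjoin L {t})) : E) = aeval t p :=
    h_discconc_phi_coe t
  let algPK : Algebra L[X] ↥(IntermediateField.adjoin L {t}) := φ.toAlgebra
  have : FaithfulSMul L[X] ↥(IntermediateField.adjoin L {t}) :=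
    (faithfulSMul_iff_algebraMap_injective _ _).2 hφinj
  have : IsFractionRing L[X] ↥(IntermediateField.adjoin L {t}) :=
    IsFractionRing.of_field L[X] ↥(IntermediateField.adjoin L {t}) (h_discconc_phi_surj t)
  have hPprime : (Ideal.span {g} : Ideal L[X]).IsPrime :=
    (Ideal.span_singleton_prime hg.ne_zero).2 hg.prime
  have hP0 : (Ideal.span {g} : Ideal L[X]) ≠ ⊥ := by
    simpa using hg.ne_zero
  have : IsDiscreteValuationRing (Localization.AtPrime (Ideal.span {g} : Ideal L[X])) :=
    IsLocalization.AtPrime.isDiscreteValuationRing_of_dedekind_domain L[X] hP0 _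
  have hunit : ∀ s : (Ideal.span {g} : Ideal L[X]).primeCompl, IsUnit (φ s) := by
    intro s
    refine IsUnit.mk0 _ ?_
    intro h0
    have : (s : L[X]) = 0 := hφinj (by rw [h0, map_zero])
    exact s.2 (by rw [this]; exact Ideal.zero_mem _)
  let ψ : Localization.AtPrime (Ideal.span {g} : Ideal L[X]) →+* ↥(IntermediateField.adjoin L {t}) :=
    IsLocalization.lift hunit
  let algRK : Algebra (Localization.AtPrime (Ideal.span {g} : Ideal L[X]))
      ↥(IntermediateField.adjoin L {t}) := ψ.toAlgebra
  have towPRK : IsScalarTower L[X] (Localization.AtPrime (Ideal.span {g} : Ideal L[X]))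
      ↥(IntermediateField.adjoin L {t}) :=
    IsScalarTower.of_algebraMap_eq (fun x => (IsLocalization.lift_eq hunit x).symm)
  have fracRK : IsFractionRing (Localization.AtPrime (Ideal.span {g} : Ideal L[X]))
      ↥(IntermediateField.adjoin L {t}) :=
    IsFractionRing.isFractionRing_of_isDomain_of_isLocalization
      (Ideal.span {g} : Ideal L[X]).primeCompl _ _
  let algRE : Algebra (Localization.AtPrime (Ideal.span {g} : Ideal L[X])) E :=
    ((algebraMap ↥(IntermediateField.adjoin L {t}) E).comp
      (algebraMap (Localization.AtPrime (Ideal.span {g} : Ideal L[X]))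
        ↥(IntermediateField.adjoin L {t}))).toAlgebra
  have towRKE : IsScalarTower (Localization.AtPrime (Ideal.span {g} : Ideal L[X]))
      ↥(IntermediateField.adjoin L {t}) E :=
    IsScalarTower.of_algebraMap_eq (fun x => rfl)
  let algPE : Algebra L[X] E :=
    ((algebraMap ↥(IntermediateField.adjoin L {t}) E).comp
      (algebraMap L[X] ↥(IntermediateField.adjoin L {t}))).toAlgebra
  have towPRE : IsScalarTower L[X] (Localization.AtPrime (Ideal.span {g} : Ideal L[X])) E :=
    IsScalarTower.of_algebraMap_eq (fun x => by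
      change ((φ x : ↥(IntermediateField.adjoin L {t})) : E) =
        ((ψ (algebraMap L[X] (Localization.AtPrime (Ideal.span {g} : Ideal L[X])) x) :
          ↥(IntermediateField.adjoin L {t})) : E)
      rw [IsLocalization.lift_eq hunit x])
  have hPE : ∀ p : L[X], algebraMap L[X] E p = aeval t p := hφcoe
  have hRE : ∀ p : L[X], algebraMap (Localization.AtPrime (Ideal.span {g} : Ideal L[X])) E
      (algebraMap L[X] (Localization.AtPrime (Ideal.span {g} : Ideal L[X])) p) = aeval t p := by
    intro p
    rw [← IsScalarTower.algebraMap_apply, hPE]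
  have charK : CharZero ↥(IntermediateField.adjoin L {t}) :=
    charZero_of_injective_algebraMap (algebraMap L ↥(IntermediateField.adjoin L {t})).injective
  -- the uniformiser
  have hϖ : Irreducible (algebraMap L[X] (Localization.AtPrime (Ideal.span {g} : Ideal L[X])) g) := by
    rw [IsDiscreteValuationRing.irreducible_iff_uniformizer,
      ← IsLocalization.AtPrime.map_eq_maximalIdeal (Ideal.span {g} : Ideal L[X]),
      Ideal.map_span, Set.image_singleton]
  have hnat : ∀ n : ℕ, n ≠ 0 →
      IsUnit (n : Localization.AtPrime (Ideal.span {g} : Ideal L[X])) := by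
    intro n hn
    have h1 : IsUnit (n : L[X]) := by
      rw [← Polynomial.C_eq_natCast, Polynomial.isUnit_C]
      exact IsUnit.mk0 _ (Nat.cast_ne_zero.2 hn)
    have h2 := h1.map (algebraMap L[X] (Localization.AtPrime (Ideal.span {g} : Ideal L[X])))
    rwa [map_natCast] at h2
  obtain ⟨r, c, hli, hspan, hint, d, hd, hdisc⟩ :=
    hAbs (Localization.AtPrime (Ideal.span {g} : Ideal L[X])) ↥(IntermediateField.adjoin L {t}) E
      (algebraMap L[X] (Localization.AtPrime (Ideal.span {g} : Ideal L[X])) g) hϖ hnat (by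
        intro V hVR hVϖ x hx
        rw [hRE] at hVϖ ⊢
        refine hV V (fun a => ?_) ?_ hVϖ x hx
        · have := hVR (algebraMap L[X] _ (C a))
          rwa [hRE, aeval_C] at this
        · have := hVR (algebraMap L[X] _ X)
          rwa [hRE, aeval_X] at this)
  refine ⟨r, c, hli, hspan, ?_, ?_⟩
  · intro i
    obtain ⟨m, hm⟩ := IsIntegral.exists_multiple_integral_of_isLocalization
      (Ideal.span {g} : Ideal L[X]).primeCompl
      (Rₘ := Localization.AtPrime (Ideal.span {g} : Ideal L[X])) (c i) (hint i)
    refine ⟨(m : L[X]), fun hdvd => m.2 (Ideal.mem_span_singleton.2 hdvd), ?_⟩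
    rw [Submonoid.smul_def, Algebra.smul_def, hPE] at hm
    exact h_discconc_integral t (algebraMap L[X] E) hPE _ hm
  · obtain ⟨a, s, rfl⟩ := IsLocalization.exists_mk'_eq
      (Ideal.span {g} : Ideal L[X]).primeCompl d
    have ha : a ∈ (Ideal.span {g} : Ideal L[X]).primeCompl :=
      (IsLocalization.AtPrime.isUnit_mk'_iff _ (Ideal.span {g} : Ideal L[X]) a s).1 hd
    refine ⟨a, (s : L[X]), fun hdvd => ha (Ideal.mem_span_singleton.2 hdvd),
      fun hdvd => s.2 (Ideal.mem_span_singleton.2 hdvd), ?_⟩
    rw [← hdisc, ← hRE (s : L[X]), ← hRE a, mul_comm]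
    change algebraMap (Localization.AtPrime (Ideal.span {g} : Ideal L[X])) E _ * _ = _
    rw [← map_mul, IsLocalization.mk'_spec]

end

end Fermat.Agent.S18
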