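/-
S18, block H, package DiscRed: discriminant of a finite free algebra over a DVR with reduced special
fibre and residue characteristic `0` is a unit.
-/
import Fermat.Agent.S18.HInterfaces

set_option autoImplicit false

namespace Fermat.Agent.S18

/-- A reduced finite-dimensional commutative algebra over a field of characteristic `0` has
nondegenerate trace form (elementwise version). -/
theorem h_discred_key (K C : Type*) [Field K] [CharZero K] [CommRing C] [Algebra K C]
    [FiniteDimensional K C] [IsReduced C] (x : C)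
    (hx : ∀ y : C, Algebra.trace K C (x * y) = 0) : x = 0 := by
  have : IsArtinianRing C := IsArtinianRing.of_finite K C
  obtain ⟨n, y, hn⟩ := IsArtinian.exists_pow_succ_smul_dvd x (1 : C)
  simp only [smul_eq_mul, mul_one, Nat.succ_eq_add_one] at hn
  have h1 : x ^ n * (1 - x * y) = 0 := by
    have : x ^ n * (1 - x * y) = x ^ n - x ^ (n + 1) * y := by ring
    rw [this, hn, sub_self]
  have h2 : (x * (1 - x * y)) ^ (n + 1) = 0 := by
    generalize 1 - x * y = z at h1 ⊢
    have : (x * z) ^ (n + 1) = x ^ n * z * (x * z ^ n) := by ring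
    rw [this, h1, zero_mul]
  have h3 : x * (1 - x * y) = 0 := IsNilpotent.eq_zero ⟨n + 1, h2⟩
  have h4 : x = x * (x * y) := by
    have : x * (1 - x * y) = x - x * (x * y) := by ring
    rw [this] at h3
    exact sub_eq_zero.mp h3
  have he : IsIdempotentElem (x * y) := by
    change x * y * (x * y) = x * y
    calc x * y * (x * y) = x * (x * y) * y := by ring
      _ = x * y := by rw [← h4]
  have he' : IsIdempotentElem (Algebra.lmul K C (x * y)) := he.map (Algebra.lmul K C)
  have htr : LinearMap.trace K C (Algebra.lmul K C (x * y)) = 0 := by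
    rw [← Algebra.trace_apply]; exact hx y
  have h5 : Algebra.lmul K C (x * y) = 0 := (LinearMap.IsIdempotentElem.trace_eq_zero_iff he').mp htr
  have h6 : x * y = 0 := by
    have := congrArg (fun f : C →ₗ[K] C => f 1) h5
    simpa using this
  rw [h4, h6, mul_zero]

/-- Over a field of characteristic `0`, the discriminant of a basis of a reduced finite-dimensional
commutative algebra is nonzero. -/
theorem h_discred_discr_ne_zero (K C : Type*) [Field K] [CharZero K] [CommRing C] [Algebra K C]
    [FiniteDimensional K C] [IsReduced C] {ι : Type*} [Fintype ι] [DecidableEq ι]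
    (b : Module.Basis ι K C) : Algebra.discr K b ≠ 0 := by
  intro h
  rw [Algebra.discr_def] at h
  obtain ⟨v, hv, hM⟩ := Matrix.exists_mulVec_eq_zero_iff.mpr h
  have hx := Algebra.traceMatrix_of_basis_mulVec b (b.equivFun.symm v)
  rw [LinearEquiv.apply_symm_apply, hM] at hx
  have hx' : ∀ i, Algebra.trace K C (b.equivFun.symm v * b i) = 0 := fun i =>
    (congrFun hx i).symm
  have h0 : b.equivFun.symm v = 0 := by
    refine h_discred_key K C _ (fun y => ?_)
    rw [← b.sum_equivFun y, Finset.mul_sum, map_sum]
    refine Finset.sum_eq_zero (fun i _ => ?_)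
    rw [mul_smul_comm, map_smul, hx' i, smul_zero]
  exact hv ((LinearEquiv.map_eq_zero_iff _).mp h0)

theorem h_discred_main : h_DiscRedStatement := by
  intro R S _ _ _ _ _ _ _ ϖ hϖ hunit hred r b
  let : Field (R ⧸ IsLocalRing.maximalIdeal R) := Ideal.Quotient.field _
  have : CharZero (R ⧸ IsLocalRing.maximalIdeal R) := by
    refine charZero_of_inj_zero (fun n hn => ?_)
    by_contra hn0
    have h1 : ((n : R) : R ⧸ IsLocalRing.maximalIdeal R) = 0 := by
      rw [← hn]; simp
    rw [Ideal.Quotient.eq_zero_iff_mem] at h1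
    exact (IsLocalRing.notMem_maximalIdeal.mpr (hunit n hn0)) h1
  have hI : Ideal.map (algebraMap R S) (IsLocalRing.maximalIdeal R) =
      Ideal.span {algebraMap R S ϖ} := by
    rw [hϖ.maximalIdeal_eq, Ideal.map_span, Set.image_singleton]
  have : IsReduced (S ⧸ Ideal.map (algebraMap R S) (IsLocalRing.maximalIdeal R)) := by
    refine ⟨fun x hx => ?_⟩
    obtain ⟨s, rfl⟩ := Ideal.Quotient.mk_surjective x
    obtain ⟨n, hn⟩ := hx
    rw [← map_pow, Ideal.Quotient.eq_zero_iff_mem, hI, Ideal.mem_span_singleton'] at hn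
    obtain ⟨a, ha⟩ := hn
    obtain ⟨y, hy⟩ := hred s n ⟨a, by rw [← ha, mul_comm]⟩
    rw [Ideal.Quotient.eq_zero_iff_mem, hI, Ideal.mem_span_singleton']
    exact ⟨y, by rw [hy, mul_comm]⟩
  have : Module.Finite (R ⧸ IsLocalRing.maximalIdeal R)
      (S ⧸ Ideal.map (algebraMap R S) (IsLocalRing.maximalIdeal R)) :=
    Module.Finite.of_basis (IsLocalRing.basisQuotient b)
  have hne := h_discred_discr_ne_zero (R ⧸ IsLocalRing.maximalIdeal R)
    (S ⧸ Ideal.map (algebraMap R S) (IsLocalRing.maximalIdeal R)) (IsLocalRing.basisQuotient b)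
  have heq : Algebra.discr (R ⧸ IsLocalRing.maximalIdeal R) (IsLocalRing.basisQuotient b) =
      Ideal.Quotient.mk (IsLocalRing.maximalIdeal R) (Algebra.discr R b) := by
    rw [Algebra.discr_def, Algebra.discr_def, RingHom.map_det]
    congr 1
    ext i j
    simp only [Algebra.traceMatrix_apply, Algebra.traceForm_apply, RingHom.mapMatrix_apply,
      Matrix.map_apply, IsLocalRing.basisQuotient_apply, ← map_mul, Algebra.trace_quotient_mk]
  rw [heq] at hne
  rw [← IsLocalRing.notMem_maximalIdeal]
  intro hmem
  exact hne (Ideal.Quotient.eq_zero_iff_mem.mpr hmem)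

end Fermat.Agent.S18
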