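/-
S18, block H, package HHoriz (twin T): transfer of the horizontal ramification statement from
`Qbar` to an arbitrary field `L` of characteristic zero embedded in `Qbar`.
-/
import Fermat.Agent.S18.EInterfaces
import Fermat.Agent.S24.GalBPlaces

set_option autoImplicit false

open ModularCurve AlgebraicCurve Polynomial

namespace Fermat.Agent.S18

noncomputable section

open Fermat.Agent.S24.GalB in
/-- At a place `P` of `F / K` and `t : F` non-constant such that `t - c` has order at most one for
`c` outside a set of exceptions, the product of `t - c`, `c` in a finite set avoiding the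
exceptions, has order at most one. -/
theorem h_horizT_prod {K F : Type*} [Field K] [Field F] [Algebra K F] (P : Place K F) (t : F)
    (ht : ∀ c : K, t - algebraMap K F c ≠ 0) (E : K → Prop)
    (h1 : ∀ c : K, ¬ E c → P.ord (t - algebraMap K F c) ≤ 1) (s : Finset K)
    (hs : ∀ c ∈ s, ¬ E c) : P.ord (∏ c ∈ s, (t - algebraMap K F c)) ≤ 1 := by
  classical
  have hprod : ∀ s : Finset K, P.ord (∏ c ∈ s, (t - algebraMap K F c)) =
      ∑ c ∈ s, P.ord (t - algebraMap K F c) := by
    intro s
    induction s using Finset.induction_on with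
    | empty => simp
    | insert a s ha ih =>
      rw [Finset.prod_insert ha, Finset.sum_insert ha,
        P.ord_mul (ht a) (Finset.prod_ne_zero_iff.2 fun c _ => ht c), ih]
  rw [hprod]
  by_cases htv : 0 ≤ P.ord t
  · -- `t` integral: all terms nonnegative, at most one positive
    have htm : t ∈ P.toValuationSubring := mem_of_ord_nonneg P htv
    have hmem : ∀ c : K, t - algebraMap K F c ∈ P.toValuationSubring := fun c =>
      sub_mem htm (P.algebraMap_mem' c)
    have hnn : ∀ c : K, 0 ≤ P.ord (t - algebraMap K F c) := fun c => ord_nonneg_of_mem P (hmem c)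
    by_cases hall : ∀ c ∈ s, P.ord (t - algebraMap K F c) = 0
    · rw [Finset.sum_eq_zero hall]; norm_num
    · push Not at hall
      obtain ⟨c₀, hc₀, hc₀'⟩ := hall
      have hpos : 0 < P.ord (t - algebraMap K F c₀) := lt_of_le_of_ne (hnn c₀) (Ne.symm hc₀')
      rw [Finset.sum_eq_single c₀ _ (fun h => absurd hc₀ h)]
      · exact h1 c₀ (hs c₀ hc₀)
      · intro c _ hc
        by_contra hne
        have hpos' : 0 < P.ord (t - algebraMap K F c) := lt_of_le_of_ne (hnn c) (Ne.symm hne)
        have m1 : (⟨t - algebraMap K F c₀, hmem c₀⟩ : P.toValuationSubring) ∈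
            IsLocalRing.maximalIdeal P.toValuationSubring :=
          (mem_maximalIdeal_iff P _).2 (Or.inr hpos)
        have m2 : (⟨t - algebraMap K F c, hmem c⟩ : P.toValuationSubring) ∈
            IsLocalRing.maximalIdeal P.toValuationSubring :=
          (mem_maximalIdeal_iff P _).2 (Or.inr hpos')
        have m3 := Ideal.sub_mem _ m1 m2
        rcases (mem_maximalIdeal_iff P _).1 m3 with h0 | h0
        · have h0' := congrArg Subtype.val h0
          simp only [AddSubgroupClass.coe_sub, ZeroMemClass.coe_zero] at h0'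
          have : algebraMap K F c = algebraMap K F c₀ := by linear_combination h0'
          exact hc ((algebraMap K F).injective this)
        · have : ((⟨t - algebraMap K F c₀, hmem c₀⟩ - ⟨t - algebraMap K F c, hmem c⟩ :
              P.toValuationSubring) : F) = algebraMap K F (c - c₀) := by
            simp only [AddSubgroupClass.coe_sub, map_sub]; ring
          rw [this, ord_algebraMap] at h0
          exact lt_irrefl _ h0
  · -- `t` has a pole: all terms negative
    have hneg : ∀ c ∈ s, P.ord (t - algebraMap K F c) ≤ 0 := by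
      intro c _
      by_contra hc
      push Not at hc
      have hm : t - algebraMap K F c ∈ P.toValuationSubring := mem_of_ord_nonneg P hc.le
      have : t ∈ P.toValuationSubring := by
        have := add_mem hm (P.algebraMap_mem' c)
        simpa using this
      exact htv (ord_nonneg_of_mem P this)
    exact (Finset.sum_nonpos hneg).trans (by norm_num)

/-- For an irreducible `g` over a field `L` of characteristic zero and an embedding `ι` of `L` into
an algebraically closed field, `g.map ι` is a nonzero constant times a product of distinct linear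
factors. -/
theorem h_horizT_factor {L K : Type*} [Field L] [CharZero L] [Field K] [IsAlgClosed K]
    (ι : L →+* K) (g : Polynomial L) (hg : Irreducible g) :
    ∃ (a : K) (s : Finset K), a ≠ 0 ∧ (∀ c ∈ s, (g.map ι).IsRoot c) ∧
      g.map ι = C a * ∏ c ∈ s, (X - C c) := by
  classical
  have hsep : (g.map ι).Separable := hg.separable.map
  have hne : g.map ι ≠ 0 := hsep.ne_zero
  have hsplit : (g.map ι).Splits := IsAlgClosed.splits _
  refine ⟨(g.map ι).leadingCoeff, ⟨(g.map ι).roots, nodup_roots hsep⟩, ?_, ?_, ?_⟩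
  · exact leadingCoeff_ne_zero.2 hne
  · intro c hc
    exact (mem_roots hne).1 hc
  · exact hsplit.eq_prod_roots

/-- The coefficientwise embedding `F_L → F_Qbar`. -/
def h_horizT_iotaF (hι : e_IotaStatement) (N : ℕ) [NeZero N] (L : Type) [Field L] [Algebra ℚ L]
    (ι : L →+* AlgebraicClosure ℚ) : ↥(FL L N) →+* ↥(FL (AlgebraicClosure ℚ) N) :=
  RingHom.codRestrict ((coeffMap ι).comp (FL L N).val.toRingHom) (FL (AlgebraicClosure ℚ) N)
    (fun x => hι N L ι _ x.2)

theorem h_horizT_iotaF_coe (hι : e_IotaStatement) (N : ℕ) [NeZero N] (L : Type) [Field L]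
    [Algebra ℚ L] (ι : L →+* AlgebraicClosure ℚ) (x : ↥(FL L N)) :
    ((h_horizT_iotaF hι N L ι x : ↥(FL (AlgebraicClosure ℚ) N)) :
      LaurentSeries (AlgebraicClosure ℚ)) = coeffMap ι (x : LaurentSeries L) := rfl

theorem h_horizT_iotaF_algebraMap (hι : e_IotaStatement) (N : ℕ) [NeZero N] (L : Type) [Field L]
    [Algebra ℚ L] (ι : L →+* AlgebraicClosure ℚ) (c : L) :
    h_horizT_iotaF hι N L ι (algebraMap L ↥(FL L N) c) =
      algebraMap (AlgebraicClosure ℚ) ↥(FL (AlgebraicClosure ℚ) N) (ι c) := by
  apply Subtype.ext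
  change coeffMap ι (algebraMap L (LaurentSeries L) c) =
    algebraMap (AlgebraicClosure ℚ) (LaurentSeries (AlgebraicClosure ℚ)) (ι c)
  rw [algebraMap_laurentSeries_eq_single, algebraMap_laurentSeries_eq_single, coeffMap_single]

theorem h_horizT_iotaF_jF (hι : e_IotaStatement) (N : ℕ) [NeZero N] (L : Type) [Field L]
    [Algebra ℚ L] (ι : L →+* AlgebraicClosure ℚ) :
    h_horizT_iotaF hι N L ι (jF L N) = jF (AlgebraicClosure ℚ) N := by
  apply Subtype.ext
  change coeffMap ι (jqModC L) = jqModC (AlgebraicClosure ℚ)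
  exact coeffMap_jqModC ι

theorem h_horizT_iotaF_aeval (hι : e_IotaStatement) (N : ℕ) [NeZero N] (L : Type) [Field L]
    [Algebra ℚ L] (ι : L →+* AlgebraicClosure ℚ) (g : Polynomial L) :
    h_horizT_iotaF hι N L ι (Polynomial.aeval (jF L N) g) =
      Polynomial.aeval (jF (AlgebraicClosure ℚ) N) (g.map ι) := by
  rw [Polynomial.aeval_def, Polynomial.aeval_def, Polynomial.hom_eval₂, Polynomial.eval₂_map,
    h_horizT_iotaF_jF]
  congr 1
  exact RingHom.ext fun c => h_horizT_iotaF_algebraMap hι N L ι c

theorem h_horizT_jF_sub_ne (N : ℕ) [NeZero N] (K : Type) [Field K] [Algebra ℚ K] (c : K) :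
    jF K N - algebraMap K ↥(FL K N) c ≠ 0 := by
  intro h
  have h' : jqModC K - algebraMap K (LaurentSeries K) c = 0 := congrArg Subtype.val h
  have h2 := congrArg (fun x : LaurentSeries K => x.coeff (-1 : ℤ)) h'
  simp only [HahnSeries.coeff_sub, coeff_jqModC_neg_one, algebraMap_laurentSeries_eq_single,
    HahnSeries.coeff_zero] at h2
  rw [HahnSeries.coeff_single_of_ne (by norm_num)] at h2
  simp at h2

theorem h_horizT_abs : h_QbarStatement → e_ConstExtStatement → e_IotaStatement →
    h_HorizAbsStatement := by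
  intro hQ hC hι N _ L _ _ ι P'
  have : CharZero L := RingHom.charZero ι
  obtain ⟨P, hP⟩ := hC N L ι P'
  set φ := h_horizT_iotaF hι N L ι with hφ
  have hP' : ∀ x : ↥(FL L N), P.ord (φ x) = P'.ord x := fun x => hP x (hι N L ι _ x.2)
  obtain ⟨q1, q2, q3, q4⟩ := hQ N P
  have hj : φ (jF L N) = jF (AlgebraicClosure ℚ) N := h_horizT_iotaF_jF hι N L ι
  have hj' : φ (jF L N - 1728) = jF (AlgebraicClosure ℚ) N - 1728 := by
    rw [map_sub, hj, map_ofNat]
  rw [← hP', ← hP', hj, hj']
  refine ⟨q1, q2, q3, ?_⟩
  intro g hg hgd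
  rw [← hP', hφ, h_horizT_iotaF_aeval]
  obtain ⟨a, s, ha, hs, hfac⟩ := h_horizT_factor ι g hg
  have hsE : ∀ c ∈ s, ¬ (c = 0 ∨ c = 1728) := by
    intro c hc hE
    have hroot : (g.map ι).eval c = 0 := hs c hc
    apply hgd
    rcases hE with rfl | rfl
    · have h0 : g.eval 0 = 0 := by
        apply ι.injective
        rw [map_zero, ← hroot, Polynomial.eval_map, ← Polynomial.eval₂_hom, map_zero]
      have hd : (X : Polynomial L) ∣ g := by
        rw [Polynomial.X_dvd_iff, Polynomial.coeff_zero_eq_eval_zero, h0]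
      exact (Polynomial.irreducible_X.dvd_symm hg hd).mul_right _
    · have h0 : g.eval 1728 = 0 := by
        apply ι.injective
        rw [map_zero, ← hroot, Polynomial.eval_map, ← Polynomial.eval₂_hom, map_ofNat]
      have hd : (X - C (1728 : L)) ∣ g := Polynomial.dvd_iff_isRoot.2 h0
      exact ((Polynomial.irreducible_X_sub_C _).dvd_symm hg hd).mul_left _
  have hev : Polynomial.aeval (jF (AlgebraicClosure ℚ) N) (g.map ι) =
      algebraMap (AlgebraicClosure ℚ) ↥(FL (AlgebraicClosure ℚ) N) a *
        ∏ c ∈ s, (jF (AlgebraicClosure ℚ) N -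
          algebraMap (AlgebraicClosure ℚ) ↥(FL (AlgebraicClosure ℚ) N) c) := by
    rw [hfac, map_mul, Polynomial.aeval_C, map_prod]
    simp only [map_sub, Polynomial.aeval_X, Polynomial.aeval_C]
  have hne := h_horizT_jF_sub_ne N (AlgebraicClosure ℚ)
  rw [hev, P.ord_mul ((_root_.map_ne_zero _).2 ha) (Finset.prod_ne_zero_iff.2 fun c _ => hne c),
    Fermat.Agent.S24.GalB.ord_algebraMap, zero_add]
  exact h_horizT_prod P _ hne (fun c => c = 0 ∨ c = 1728)
    (fun c hc => q4 c (fun h => hc (Or.inl h)) (fun h => hc (Or.inr h))) s hsE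

set_option synthInstance.maxHeartbeats 400000 in
theorem h_horizT_main : h_QbarStatement → e_ConstExtStatement → e_IotaStatement →
    HorizStatement :=
  fun h1 h2 h3 N _ L => h_horizT_abs h1 h2 h3 N ↥L (algebraMap ↥L (AlgebraicClosure ℚ))

end

end Fermat.Agent.S18
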