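/-
S18, block H, package HQbar (twin T): horizontal ramification of `j` on the function field of
`X₀(N)` over `Qbar`, derived from the landed S24 development (modular model + Galois counting).
-/
import Fermat.Agent.S18.EInterfaces
import Fermat.Agent.S24.ModelCounts
import Fermat.Agent.S24.JSurj
import Fermat.Agent.S24.Conj
import Fermat.Agent.S24.JLocal
import Fermat.Agent.S24.LemmaP
import Fermat.Agent.S24.PointVal
import Fermat.Agent.S24.Places
import Fermat.Agent.S24.Zeros
import Fermat.Agent.S24.GalB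
import Fermat.Agent.S24.FormalQ
import Fermat.Agent.S24.Qexp
import Fermat.Agent.S24.PreModelBuild
import Fermat.Agent.S24.ModelAlg

set_option autoImplicit false

open ModularCurve AlgebraicCurve IntermediateField
open scoped MatrixGroups

namespace Fermat.Agent.S18

noncomputable section

open Fermat.Agent.S24

/-- Ramification index: for a place `W` above `w`, `ord_W = e * ord_w` on the small field. -/
theorem h_qbarT_ord_above {K L M : Type} [Field K] [Field L] [Field M] [Algebra K L]
    [Algebra K M] [Algebra L M] [IsScalarTower K L M] {W : Place K M} {w : Place K L}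
    (h : GalB.IsAbove W w) :
    ∃ e : ℤ, 0 < e ∧ ∀ x : L, W.ord (algebraMap L M x) = e * w.ord x := by
  obtain ⟨π, hπ⟩ := IsDiscreteValuationRing.exists_irreducible w.toValuationSubring
  refine ⟨W.ord (algebraMap L M (π : L)), ?_, ?_⟩
  · rw [h.ord_pos_iff, w.ord_coe_irreducible hπ]
    exact one_pos
  · intro x
    rcases eq_or_ne x 0 with rfl | hx
    · simp
    obtain ⟨u, hu⟩ := w.exists_unit_mul_zpow hx hπ
    have hu0 : W.ord (algebraMap L M ((u : w.toValuationSubring) : L)) = 0 := by
      have h1 : 0 ≤ W.ord (algebraMap L M ((u : w.toValuationSubring) : L)) :=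
        (h.ord_nonneg_iff _).mpr (by rw [w.ord_coe_unit])
      have h2 : ¬ 0 < W.ord (algebraMap L M ((u : w.toValuationSubring) : L)) := by
        rw [h.ord_pos_iff, w.ord_coe_unit]
        exact lt_irrefl 0
      omega
    have hune : algebraMap L M ((u : w.toValuationSubring) : L) ≠ 0 := by
      have : ((u : w.toValuationSubring) : L) ≠ 0 := by
        intro h0
        rw [h0, zero_mul] at hu
        exact hx hu
      simp
    have hπne : algebraMap L M (π : L) ≠ 0 := by
      have : (π : L) ≠ 0 := by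
        intro h0
        exact hπ.ne_zero (Subtype.ext h0)
      simpa using this
    conv_lhs => rw [hu]
    rw [map_mul, map_zpow₀, W.ord_mul hune (zpow_ne_zero _ hπne), hu0, W.ord_zpow, zero_add,
      mul_comm]

/-- In a Galois situation with fixed field `K(s)`: the order of `s` at a place of the
intermediate field `F'` where `s` vanishes divides the (common) order of `s` at the places of
`M` where `s` vanishes. -/
theorem h_qbarT_dvd {K M Γ : Type} [Field K] [Field M] [Algebra K M] [Group Γ]
    (act : Γ →* (M ≃ₐ[K] M)) (s : M) (hfin : Finite act.range)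
    (hfix : ∀ x : M, (∀ γ : Γ, act γ x = x) ↔ x ∈ K⟮s⟯)
    (F' : IntermediateField K M) (hsF : s ∈ F') (W₀ : Place K M) (hW₀ : 0 < W₀.ord s)
    (w : Place K F') (hw : 0 < w.ord (⟨s, hsF⟩ : F')) :
    w.ord (⟨s, hsF⟩ : F') ∣ W₀.ord s := by
  have := hfin
  have hfixH := GalB.fix_fixer act s hfix F' hsF
  have hfinH := GalB.finite_map_fixer act F'
  have hH : IsGaloisGroup ((fixer act F').map act) F' M := GalB.isGaloisGroup_of_fix _ _ hfixH
  have hgal : IsGalois F' M := IsGaloisGroup.isGalois ((fixer act F').map act) F' M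
  have hfd : FiniteDimensional F' M :=
    IsGaloisGroup.finiteDimensional ((fixer act F').map act) F' M
  obtain ⟨W, hW⟩ := GalB.exists_isAbove (M := M) w
  obtain ⟨e, he, hord⟩ := h_qbarT_ord_above hW
  have h1 : W.ord s = e * w.ord (⟨s, hsF⟩ : F') := hord ⟨s, hsF⟩
  have hWpos : 0 < W.ord s := by
    rw [h1]
    exact mul_pos he hw
  obtain ⟨γ, hγ⟩ := GalB.exists_act_smul_eq act s hfix hW₀ hWpos
  have h2 : W.ord s = W₀.ord s := by
    rw [← hγ, GalB.ord_act act s hfix]
  rw [← h2, h1]
  exact dvd_mul_left _ _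

/-- Zeros of `t - c` and poles of `t` at places of `F'`, compared with places of `M`. -/
theorem h_qbarT_abstract {K M Γ : Type} [Field K] [Field M] [Algebra K M] [Group Γ]
    (act : Γ →* (M ≃ₐ[K] M)) (t : M) (hfin : Finite act.range)
    (hfix : ∀ x : M, (∀ γ : Γ, act γ x = x) ↔ x ∈ K⟮t⟯)
    (F' : IntermediateField K M) (htF : t ∈ F') :
    (∀ (c : K) (W₀ : Place K M), 0 < W₀.ord (t - algebraMap K M c) → ∀ w : Place K F',
      0 < w.ord ((⟨t, htF⟩ : F') - algebraMap K F' c) →
      w.ord ((⟨t, htF⟩ : F') - algebraMap K F' c) ∣ W₀.ord (t - algebraMap K M c)) ∧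
    (∀ W₀ : Place K M, W₀.ord t < 0 → ∀ w : Place K F', w.ord (⟨t, htF⟩ : F') < 0 →
      -(w.ord (⟨t, htF⟩ : F')) ∣ -(W₀.ord t)) := by
  constructor
  · intro c W₀ hW₀ w hw
    have hadj := GalB.adjoin_sub_algebraMap (K := K) t c
    have hfix' : ∀ x : M, (∀ γ : Γ, act γ x = x) ↔ x ∈ K⟮t - algebraMap K M c⟯ := by
      intro x
      rw [hadj]
      exact hfix x
    have hsF : t - algebraMap K M c ∈ F' := sub_mem htF (IntermediateField.algebraMap_mem _ c)
    exact h_qbarT_dvd act _ hfin hfix' F' hsF W₀ hW₀ w hw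
  · intro W₀ hW₀ w hw
    have hadj := GalB.adjoin_inv (K := K) t
    have hfix' : ∀ x : M, (∀ γ : Γ, act γ x = x) ↔ x ∈ K⟮t⁻¹⟯ := by
      intro x
      rw [hadj]
      exact hfix x
    have hsF : t⁻¹ ∈ F' := inv_mem htF
    have hW' : 0 < W₀.ord t⁻¹ := by
      rw [Place.ord_inv]
      omega
    have heq : (⟨t⁻¹, hsF⟩ : F') = (⟨t, htF⟩ : F')⁻¹ := rfl
    have hw' : 0 < w.ord (⟨t⁻¹, hsF⟩ : F') := by
      rw [heq, Place.ord_inv]
      omega
    have h := h_qbarT_dvd act _ hfin hfix' F' hsF W₀ hW' w hw'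
    rwa [heq, Place.ord_inv, Place.ord_inv] at h

/-- In a modular model, the pole order of `J` at the distinguished place above `∞` is exactly
`N`. -/
theorem h_qbarT_infty (hG : GalStatement) (N : ℕ) [NeZero N] (m : ModularModel N)
    (W₀ : Place Kbar m.M) (hneg : W₀.ord m.J < 0) (hle : - W₀.ord m.J ≤ (N : ℤ))
    (hT : m.act ModularGroup.T • W₀ = W₀)
    (hTk : ∀ k : ℕ, m.act ModularGroup.T ^ k = 1 → N ∣ k) : - W₀.ord m.J = (N : ℤ) := by
  obtain ⟨-, -, hpole⟩ := hG Kbar m.M SL(2, ℤ) m.act m.J m.finite_range m.J_transc m.fix_iff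
    m.F' m.J_mem
  obtain ⟨hcard, -⟩ := hpole W₀ hneg
  have hmem : m.act ModularGroup.T ∈ (placeStab m.act W₀).map m.act :=
    Subgroup.mem_map_of_mem m.act ((mem_placeStab m.act W₀ ModularGroup.T).mpr hT)
  have hdvd : orderOf (m.act ModularGroup.T) ∣ Nat.card ((placeStab m.act W₀).map m.act) :=
    Subgroup.orderOf_dvd_natCard _ hmem
  have hN : N ∣ orderOf (m.act ModularGroup.T) := hTk _ (pow_orderOf_eq_one _)
  have hN' : (N : ℤ) ∣ - W₀.ord m.J := by
    rw [← hcard]
    exact_mod_cast hN.trans hdvd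
  have h2 : (N : ℤ) ≤ - W₀.ord m.J := Int.le_of_dvd (by omega) hN'
  omega

theorem h_qbarT_jF_eq (N : ℕ) [NeZero N] : jF (AlgebraicClosure ℚ) N = jBar N :=
  Subtype.ext (coeffEmb_jq (AlgebraicClosure ℚ)).symm

/-- (H over `Qbar`), from the S24 statements. -/
theorem h_qbarT_of_statements (hG : GalStatement) (hMM : ModularModelStatement)
    (hMC : ModelCountsStatement) : h_QbarStatement := by
  intro N _ P
  rw [h_qbarT_jF_eq]
  obtain ⟨m⟩ := hMM N
  obtain ⟨hzero, hpole⟩ := h_qbarT_abstract m.act m.J m.finite_range m.fix_iff m.F' m.J_mem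
  have hord : ∀ f : ↥(modularFunctionFieldBar N),
      (ModelCounts.placeEquiv m.θ P).ord (m.θ f) = P.ord f :=
    fun f => ModelCounts.placeEquiv_ord m.θ P f
  have hθsub : ∀ c : Kbar, m.θ (jBar N - algebraMap Kbar _ c)
      = (⟨m.J, m.J_mem⟩ : m.F') - algebraMap Kbar m.F' c := by
    intro c
    rw [map_sub, m.θ_j, AlgEquiv.commutes]
  refine ⟨?_, ?_, ?_, ?_⟩
  · intro hneg
    obtain ⟨W₀, hW₀, hWN, hT, hTk⟩ := m.place_infty
    have hN := h_qbarT_infty hG N m W₀ hW₀ hWN hT hTk
    have h1 : (ModelCounts.placeEquiv m.θ P).ord (⟨m.J, m.J_mem⟩ : m.F') = P.ord (jBar N) := by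
      rw [← m.θ_j, hord]
    have h2 := hpole W₀ hW₀ (ModelCounts.placeEquiv m.θ P) (by rw [h1]; exact hneg)
    rwa [h1, hN] at h2
  · intro hpos
    obtain ⟨W₀, hW₀, -, -⟩ := m.place_rho
    have hW0 : W₀.ord (m.J - algebraMap Kbar m.M 0) = W₀.ord m.J := by rw [map_zero, sub_zero]
    have h1 : (ModelCounts.placeEquiv m.θ P).ord
        ((⟨m.J, m.J_mem⟩ : m.F') - algebraMap Kbar m.F' 0) = P.ord (jBar N) := by
      rw [← hθsub, hord, map_zero, sub_zero]
    have h2 := hzero 0 W₀ (by rw [hW0]; rcases hW₀ with h | h <;> rw [h] <;> norm_num)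
      (ModelCounts.placeEquiv m.θ P) (by rw [h1]; exact hpos)
    rw [h1, hW0] at h2
    rcases hW₀ with h | h
    · rw [h] at h2
      exact h2.trans (one_dvd 3)
    · rwa [h] at h2
  · intro hpos
    obtain ⟨W₀, hW₀, -, -⟩ := m.place_i
    have h1 : (ModelCounts.placeEquiv m.θ P).ord
        ((⟨m.J, m.J_mem⟩ : m.F') - algebraMap Kbar m.F' 1728) = P.ord (jBar N - 1728) := by
      rw [← hθsub, hord, map_ofNat]
    have h2 := hzero 1728 W₀ (by rcases hW₀ with h | h <;> rw [h] <;> norm_num)
      (ModelCounts.placeEquiv m.θ P) (by rw [h1]; exact hpos)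
    rw [h1] at h2
    rcases hW₀ with h | h
    · rw [h] at h2
      exact h2.trans (one_dvd 2)
    · rwa [h] at h2
  · intro c hc0 hc1728
    exact (hMC N).2.2.2.1 c hc0 hc1728 P

/-- (H over `Qbar`). -/
theorem h_qbarT_main : h_QbarStatement := by
  have hZeros : ZerosStatement := Zeros.zerosStatement
  have hPoles : PolesStatement := Zeros.polesStatement
  have hG : GalStatement := GalB.galStatement hZeros hPoles
  have hQexp : QexpStatement := Qexp.qexpStatement
  have hJB : JBasicStatement := JLocal.jBasicStatement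
  have hJO : JOrdersStatement := JLocal.jOrdersStatement
  have hJQ : JQexpStatement := FormalQ.jQexpStatement hQexp
  have hLP : LemmaPStatement := LemmaP.lemmaPStatement hJB hJQ hQexp
  have hCj : ConjStatement := Conj.conjStatement hJB hJQ hQexp
  have hJS : JSurjStatement := JSurj.jSurjStatement hJB
  have hPV : PointValStatement := PointVal.pointValStatement
  have hPM : PreModelStatement :=
    PreModelBuild.preModelStatement hJB hJO hJS hJQ hQexp hLP hCj hPV
  have hMM : ModularModelStatement :=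
    ModelAlg.modularModelStatement hPM Places.valuationPlaceStatement
  have hMC : ModelCountsStatement := ModelCounts.modelCountsStatement hG hZeros hMM
  exact h_qbarT_of_statements hG hMM hMC

end

end Fermat.Agent.S18
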