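import Fermat.Agent.S18.SInterfaces

set_option autoImplicit false

/-!
S18 — package LocSub (T), twin A, part 2: DVR criteria.  Prefix `locSubA_`.

* T3 `locSubA_dvr`: a noetherian local ring whose maximal ideal is principal, generated by a
  non-nilpotent element, is a discrete valuation ring (same statement as the twin's `locSubB_dvr`; kept
  here because T4 below is built on it and this file imports only the interface file);
* T4 `locSubA_crit`: a noetherian local ring `O` with maximal ideal `(ϖ, x)` such that no power of `x`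
  lies in `(ϖ)` satisfies `IsDVRQuot O ϖ`.
-/

namespace Fermat.Agent.S18

/-- In a noetherian local ring with maximal ideal `(π)`, every nonzero element is a unit times a power
of `π`. -/
theorem locSubA_exists_unit_mul_pow {S : Type*} [CommRing S] [IsLocalRing S] [IsNoetherianRing S]
    (π : S) (hmax : IsLocalRing.maximalIdeal S = Ideal.span {π}) (a : S) (ha : a ≠ 0) :
    ∃ (n : ℕ) (u : S), IsUnit u ∧ a = π ^ n * u := by
  have hkrull : ⨅ i : ℕ, IsLocalRing.maximalIdeal S ^ i = ⊥ :=
    Ideal.iInf_pow_eq_bot_of_isLocalRing _ Ideal.IsPrime.ne_top'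
  have hex : ∃ n : ℕ, a ∉ IsLocalRing.maximalIdeal S ^ n := by
    by_contra hcon
    push Not at hcon
    apply ha
    have : a ∈ ⨅ i : ℕ, IsLocalRing.maximalIdeal S ^ i := (Ideal.mem_iInf).2 hcon
    rw [hkrull] at this
    simpa using this
  classical
  have hn := Nat.find_spec hex
  have hmin := fun m => Nat.find_min hex (m := m)
  set n := Nat.find hex with hn_def
  have hn0 : n ≠ 0 := by
    intro h0
    rw [h0] at hn
    simp at hn
  obtain ⟨m, hm⟩ := Nat.exists_eq_succ_of_ne_zero hn0
  have ham : a ∈ IsLocalRing.maximalIdeal S ^ m := by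
    by_contra hcon
    exact hmin m (by omega) hcon
  rw [hmax, Ideal.span_singleton_pow, Ideal.mem_span_singleton'] at ham
  obtain ⟨u, hu⟩ := ham
  refine ⟨m, u, ?_, by rw [← hu, mul_comm]⟩
  by_contra hnu
  have hum : u ∈ IsLocalRing.maximalIdeal S := (IsLocalRing.mem_maximalIdeal u).2 hnu
  rw [hmax, Ideal.mem_span_singleton'] at hum
  obtain ⟨v, hv⟩ := hum
  apply hn
  rw [hm, hmax, Ideal.span_singleton_pow, Ideal.mem_span_singleton']
  refine ⟨v, ?_⟩
  rw [← hu, ← hv, pow_succ]
  ring

/-- T3: a noetherian local ring whose maximal ideal is principal, generated by a non-nilpotent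
element, is a DVR. -/
theorem locSubA_dvr {S : Type*} [CommRing S] [IsLocalRing S] [IsNoetherianRing S] (π : S)
    (hmax : IsLocalRing.maximalIdeal S = Ideal.span {π}) (hnil : ¬ IsNilpotent π) :
    ∃ _ : IsDomain S, IsDiscreteValuationRing S := by
  have hπ0 : ∀ n : ℕ, π ^ n ≠ 0 := fun n h => hnil ⟨n, h⟩
  have hdom : IsDomain S := by
    have : NoZeroDivisors S := by
      refine ⟨fun {a b} hab => ?_⟩
      by_contra hcon
      push Not at hcon
      obtain ⟨n, u, hu, rfl⟩ := locSubA_exists_unit_mul_pow π hmax a hcon.1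
      obtain ⟨m, v, hv, rfl⟩ := locSubA_exists_unit_mul_pow π hmax b hcon.2
      have h1 : π ^ (n + m) * (u * v) = 0 := by
        rw [← hab, pow_add]
        ring
      exact hπ0 (n + m) ((hu.mul hv).mul_left_eq_zero.1 h1)
    exact NoZeroDivisors.to_isDomain S
  refine ⟨hdom, ?_⟩
  have hprinc : (IsLocalRing.maximalIdeal S).IsPrincipal := ⟨⟨π, hmax⟩⟩
  have hpid : IsPrincipalIdealRing S :=
    ((tfae_of_isNoetherianRing_of_isLocalRing_of_isDomain S).out 4 0).1 hprinc
  refine { hpid, (inferInstance : IsLocalRing S) with not_a_field' := ?_ }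
  rw [hmax]
  intro hbot
  rw [Ideal.span_singleton_eq_bot] at hbot
  exact hπ0 1 (by simpa using hbot)

/-- T4: elementwise criterion for a local noetherian ring `O` with maximal ideal `(ϖ, x)`. -/
theorem locSubA_crit {O : Type*} [CommRing O] [IsLocalRing O] [IsNoetherianRing O] (ϖ x : O)
    (hmax : IsLocalRing.maximalIdeal O = Ideal.span {ϖ, x})
    (hx : ∀ n : ℕ, x ^ n ∉ Ideal.span {ϖ}) : IsDVRQuot O ϖ := by
  have hne : (Ideal.span {ϖ} : Ideal O) ≠ ⊤ := by
    intro htop
    apply hx 0
    rw [htop]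
    trivial
  have hnt : Nontrivial (O ⧸ Ideal.span {ϖ}) := Ideal.Quotient.nontrivial_iff.mpr hne
  have hloc : IsLocalRing (O ⧸ Ideal.span {ϖ}) :=
    IsLocalRing.of_surjective' (Ideal.Quotient.mk (Ideal.span {ϖ})) Ideal.Quotient.mk_surjective
  have hmap : (IsLocalRing.maximalIdeal O).map (Ideal.Quotient.mk (Ideal.span {ϖ})) =
      IsLocalRing.maximalIdeal (O ⧸ Ideal.span {ϖ}) := by
    have := IsLocalHom.of_surjective (Ideal.Quotient.mk (Ideal.span {ϖ}))
      Ideal.Quotient.mk_surjective
    ext y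
    obtain ⟨y, rfl⟩ := Ideal.Quotient.mk_surjective y
    simp [sup_eq_left.mpr (IsLocalRing.le_maximalIdeal hne)]
  have hmaxQ : IsLocalRing.maximalIdeal (O ⧸ Ideal.span {ϖ}) =
      Ideal.span {Ideal.Quotient.mk (Ideal.span {ϖ}) x} := by
    rw [← hmap, hmax, Ideal.map_span, Set.image_pair]
    have h0 : Ideal.Quotient.mk (Ideal.span {ϖ}) ϖ = 0 :=
      Ideal.Quotient.eq_zero_iff_mem.2 (Ideal.subset_span rfl)
    rw [h0]
    apply le_antisymm
    · rw [Ideal.span_le]
      rintro z (rfl | rfl)
      · exact Ideal.zero_mem _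
      · exact Ideal.subset_span rfl
    · exact Ideal.span_mono (by simp)
  have hnil : ¬ IsNilpotent (Ideal.Quotient.mk (Ideal.span {ϖ}) x) := by
    rintro ⟨n, hn⟩
    rw [← map_pow, Ideal.Quotient.eq_zero_iff_mem] at hn
    exact hx n hn
  exact locSubA_dvr (Ideal.Quotient.mk (Ideal.span {ϖ}) x) hmaxQ hnil

end Fermat.Agent.S18
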