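/-
S18 — block P (purity, twin A): the DVR criterion and factoriality of the base ring.

`pua_crit_main : pua_CritStatement` (from the LocSub toolkit) and
`pua_ufd_main : pua_UFDStatement` (from the criterion and `e_localufd_main`).
-/
import Fermat.Agent.S18.PUAInterfaces
import Fermat.Agent.S18.LocSubB
import Fermat.Agent.S18.ELocalUFD

set_option autoImplicit false

namespace Fermat.Agent.S18

/-- The elementwise DVR criterion (toolkit `locSubB_crit`). -/
theorem pua_crit_main : pua_CritStatement := by
  intro O _ _ _ ϖ x hmax hx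
  exact locSubB_crit ϖ x hmax hx

/-- A noetherian local domain with maximal ideal `(ϖ, x)`, `ϖ` prime, `ϖ ∤ x`, is a UFD. -/
theorem pua_ufd_main : pua_UFDStatement := by
  intro R _ _ _ _ ϖ x hprime hndvd hmax
  have hϖmem : ϖ ∈ IsLocalRing.maximalIdeal R := by
    rw [hmax]; exact Ideal.subset_span (by simp)
  have hcrit : IsDVRQuot R ϖ := by
    refine pua_crit_main R ϖ x hmax ?_
    intro n hn
    rw [Ideal.mem_span_singleton] at hn
    exact hndvd (hprime.dvd_of_dvd_pow hn)
  exact (e_localufd_main R ϖ hϖmem hcrit).1

end Fermat.Agent.S18
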