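/-
S18 — block P (purity, twin A): ASSEMBLY of `PurityStatement` from the package statements of
`PUAInterfaces.lean` (factoriality of the base ring is already discharged by `pua_ufd_main`).
-/
import Fermat.Agent.S18.PUAUfd

set_option autoImplicit false

namespace Fermat.Agent.S18

/-- Assembly of the purity statement from the packages of the PUA block. -/
theorem pua_assembly (hD1 : pua_D1Statement) (hFree : pua_FreeStatement)
    (hDisc : pua_DiscStatement) (hRed : pua_RedStatement) (hLoc : pua_LocStatement)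
    (hTrans : pua_TransStatement) (hBridge : pua_BridgeStatement) :
    LocSubStatement → PurityStatement := by
  intro hLS E _ _ Λ K₁ hΛK hfrac hfin hnoeth 𝔫 _ ϖ x hϖ0 hϖprime hx h𝔫 hU M _ ϖB hϖB hM
  -- the regular local ring `R = locSub Λ 𝔫`
  obtain ⟨hRK, hloc, ϖR, xR, hϖR, hxR, hnoethR, hprime, hndvd, hmax, hfracR, hU'⟩ :=
    hTrans E Λ K₁ hΛK hfrac hnoeth 𝔫 ϖ x hϖ0 hϖprime hx h𝔫 hU
  let algRK : Algebra ↥(locSub Λ 𝔫) ↥K₁ := (Subring.inclusion hRK).toAlgebra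
  have : IsFractionRing ↥(locSub Λ 𝔫) ↥K₁ := hfracR
  have : IsScalarTower ↥(locSub Λ 𝔫) ↥K₁ E := IsScalarTower.of_algebraMap_eq (fun _ => rfl)
  have : UniqueFactorizationMonoid ↥(locSub Λ 𝔫) :=
    pua_ufd_main ↥(locSub Λ 𝔫) ϖR xR hprime hndvd hmax
  have : IsIntegrallyClosed ↥(locSub Λ 𝔫) := inferInstance
  have : CharZero ↥K₁ := inferInstance
  have : Algebra.IsSeparable ↥K₁ E := inferInstance
  -- the integral closure `B'` of `R` in `E` is a finite `R`-module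
  have : Module.Finite ↥(locSub Λ 𝔫) ↥(integralClosure ↥(locSub Λ 𝔫) E) :=
    IsIntegralClosure.finite ↥(locSub Λ 𝔫) ↥K₁ E ↥(integralClosure ↥(locSub Λ 𝔫) E)
  -- (D1) `x` is a nonzerodivisor on `B' / ϖ B'`
  have hD1S : ∀ s s' : ↥(integralClosure ↥(locSub Λ 𝔫) E),
      algebraMap ↥(locSub Λ 𝔫) ↥(integralClosure ↥(locSub Λ 𝔫) E) xR * s =
        algebraMap ↥(locSub Λ 𝔫) ↥(integralClosure ↥(locSub Λ 𝔫) E) ϖR * s' →
      ∃ t : ↥(integralClosure ↥(locSub Λ 𝔫) E),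
        s = algebraMap ↥(locSub Λ 𝔫) ↥(integralClosure ↥(locSub Λ 𝔫) E) ϖR * t := by
    intro s s' hss
    obtain ⟨y, hy, hsy⟩ := hD1 ↥(locSub Λ 𝔫) ↥K₁ E ϖR xR hprime hndvd (s : E) (s' : E) s.2 s'.2
      (by simpa using congrArg (fun t : ↥(integralClosure ↥(locSub Λ 𝔫) E) => (t : E)) hss)
    exact ⟨⟨y, hy⟩, Subtype.ext (by simpa using hsy)⟩
  -- (D2) `B'` is a free `R`-module
  have hfree : Module.Free ↥(locSub Λ 𝔫) ↥(integralClosure ↥(locSub Λ 𝔫) E) := by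
    refine hFree ↥(locSub Λ 𝔫) ↥(integralClosure ↥(locSub Λ 𝔫) E) ϖR xR hmax ?_ ?_
    · intro s hs
      rw [Algebra.smul_def] at hs
      rcases mul_eq_zero.1 hs with h | h
      · exact absurd ((map_eq_zero_iff _ (FaithfulSMul.algebraMap_injective _ _)).1 h)
          hprime.ne_zero
      · exact h
    · intro s s' hss
      rw [Algebra.smul_def, Algebra.smul_def] at hss
      obtain ⟨t, ht⟩ := hD1S s s' hss
      exact ⟨t, by rw [Algebra.smul_def]; exact ht⟩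
  classical
  let e := Module.Free.chooseBasis ↥(locSub Λ 𝔫) ↥(integralClosure ↥(locSub Λ 𝔫) E)
  -- (E) the discriminant is a unit, (F) `B' / 𝔪 B'` is reduced
  have hdisc : IsUnit (Algebra.discr ↥(locSub Λ 𝔫) e) := hDisc ↥(locSub Λ 𝔫) ↥K₁ E _ e hU'
  have hred := hRed ↥(locSub Λ 𝔫) ↥(integralClosure ↥(locSub Λ 𝔫) E) _ e hdisc
  -- (G) `O = locSub B M` is the localisation of `B'` at a prime over `𝔪`
  obtain ⟨f, M', hM', hf, hmem, hlocO⟩ := hBridge E Λ 𝔫 M hM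
  let algSO : Algebra ↥(integralClosure ↥(locSub Λ 𝔫) E)
      ↥(locSub (integralClosure ↥Λ E).toSubring M) := f.toAlgebra
  have : IsLocalization.AtPrime ↥(locSub (integralClosure ↥Λ E).toSubring M) M' := hlocO
  have hϖn : ϖ ∈ 𝔫 := by rw [h𝔫]; exact Ideal.subset_span (by simp)
  have hxn : x ∈ 𝔫 := by rw [h𝔫]; exact Ideal.subset_span (by simp)
  have key := hLoc ↥(locSub Λ 𝔫) ↥(integralClosure ↥(locSub Λ 𝔫) E)
    ↥(locSub (integralClosure ↥Λ E).toSubring M) ϖR xR hmax hred hD1S M'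
    (hmem ϖ _ hϖn hϖR) (hmem x _ hxn hxR)
  have hϖO : (ϖB : E) ∈ locSub (integralClosure ↥Λ E).toSubring M :=
    le_locSub _ _ ϖB.2
  refine (hLS E (integralClosure ↥Λ E).toSubring M ϖB hϖO).2 ?_
  have heq : algebraMap ↥(integralClosure ↥(locSub Λ 𝔫) E)
      ↥(locSub (integralClosure ↥Λ E).toSubring M)
      (algebraMap ↥(locSub Λ 𝔫) ↥(integralClosure ↥(locSub Λ 𝔫) E) ϖR) = ⟨(ϖB : E), hϖO⟩ := by
    apply Subtype.ext
    rw [show algebraMap ↥(integralClosure ↥(locSub Λ 𝔫) E)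
      ↥(locSub (integralClosure ↥Λ E).toSubring M) = f from rfl, hf]
    rw [hϖB]; exact hϖR
  rw [← heq]
  exact key

end Fermat.Agent.S18
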