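/-
S18 — block Purity (twin B): INTERNAL INTERFACE FILE.

Shared definitions and statement-`Prop`s of the work packages of the block proving
`pub_main : LocSubStatement → PurityStatement`.  Namespace `Fermat.Agent.S18`, prefix `pub_`.

ABSTRACT SIDE.  `R` a noetherian local domain with maximal ideal `(ϖ, x)`, `ϖ` a prime element, `ϖ ∤ x`
(`pub_Reg2 R ϖ x`); `K = Frac R`, `E / K` a finite extension of fields of characteristic 0,
`B' = integralClosure R E`.
CONCRETE SIDE.  `R = locSub Λ 𝔫 ⊆ E`, `K = ↥K₁`, `O = locSub B M` with `B` the integral closure of `Λ`.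
-/
import Fermat.Agent.S18.SInterfaces

set_option autoImplicit false

namespace Fermat.Agent.S18

noncomputable section

/-! ## Toolkit statements (the LocSub toolkit deliverables, as `Prop`s) -/

/-- (T5) `locSub A P` is a local ring, its maximal ideal is `{a / s : a ∈ P, s ∉ P}`, and it is
noetherian if `A` is. -/
def pub_LocStatement : Prop :=
  ∀ (F : Type) [Field F] (A : Subring F) (P : Ideal ↥A) [P.IsPrime],
    ∃ _ : IsLocalRing ↥(locSub A P),
      (∀ y : ↥(locSub A P), y ∈ IsLocalRing.maximalIdeal ↥(locSub A P) ↔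
        ∃ a s : ↥A, a ∈ P ∧ s ∉ P ∧ (y : F) * (s : F) = (a : F)) ∧
      (IsNoetherianRing ↥A → IsNoetherianRing ↥(locSub A P))

/-- (T4) A noetherian local ring `O` with maximal ideal `(ϖ, x)` such that no power of `x` lies in
`(ϖ)`: then `O / ϖ` is a DVR. -/
def pub_CritStatement : Prop :=
  ∀ (O : Type) [CommRing O] [IsLocalRing O] [IsNoetherianRing O] (ϖ x : O),
    IsLocalRing.maximalIdeal O = Ideal.span {ϖ, x} → (∀ n : ℕ, x ^ n ∉ Ideal.span {ϖ}) →
    IsDVRQuot O ϖ

/-! ## Abstract side -/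

/-- `ϖ, x` is a regular system of parameters of the local ring `R` (elementwise form): the maximal
ideal is `(ϖ, x)`, `ϖ` is a prime element and `ϖ ∤ x`. -/
def pub_Reg2 (R : Type) [CommRing R] [IsLocalRing R] (ϖ x : R) : Prop :=
  IsLocalRing.maximalIdeal R = Ideal.span {ϖ, x} ∧ Prime ϖ ∧ ¬ ϖ ∣ x

/-- A prime element of `R` never generates the maximal ideal `(ϖ, x)`. -/
theorem pub_reg2_span_ne {R : Type} [CommRing R] [IsDomain R] [IsLocalRing R] {ϖ x : R}
    (h : pub_Reg2 R ϖ x) (p : R) (hp : Prime p) :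
    Ideal.span {p} ≠ IsLocalRing.maximalIdeal R := by
  obtain ⟨hmax, hϖ, hx⟩ := h
  intro hpm
  have hϖm : ϖ ∈ Ideal.span ({p} : Set R) := by
    rw [hpm, hmax]; exact Ideal.subset_span (by simp)
  have hxm : x ∈ Ideal.span ({p} : Set R) := by
    rw [hpm, hmax]; exact Ideal.subset_span (by simp)
  rw [Ideal.mem_span_singleton] at hϖm hxm
  obtain ⟨u, hu⟩ := hϖm
  rcases hϖ.irreducible.isUnit_or_isUnit hu with h1 | h1
  · exact hp.not_isUnit h1
  · apply hx
    have hpϖ : ϖ ∣ p := by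
      refine ⟨↑(h1.unit⁻¹), ?_⟩
      rw [hu, mul_assoc, IsUnit.mul_val_inv, mul_one]
    exact hpϖ.trans hxm

/-- (P-R) Structure of a 2-dimensional regular local ring: it is a UFD, `R / ϖ` is a DVR, and every
`a ∉ ϖ R` is congruent modulo `ϖ` to a unit times a power of `x`. -/
def pub_RStatement : Prop :=
  ∀ (R : Type) [CommRing R] [IsDomain R] [IsLocalRing R] [IsNoetherianRing R] (ϖ x : R),
    pub_Reg2 R ϖ x →
    UniqueFactorizationMonoid R ∧ IsDVRQuot R ϖ ∧
      (∀ a : R, ¬ ϖ ∣ a → ∃ (s : ℕ) (u : Rˣ), ϖ ∣ a - (u : R) * x ^ s)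

/-- (P-D1) `x` is a nonzerodivisor modulo `ϖ` on the integral closure (Serre's `S₂` in elementwise
form): if `b, b'` are integral over `R` and `x b = ϖ b'`, then `b = ϖ y` with `y` integral. -/
def pub_D1Statement : Prop :=
  ∀ (R K E : Type) [CommRing R] [IsDomain R] [IsIntegrallyClosed R] [Field K] [Field E]
    [Algebra R K] [IsFractionRing R K] [Algebra K E] [Algebra R E] [IsScalarTower R K E]
    [FiniteDimensional K E] (ϖ x : R), Prime ϖ → ¬ ϖ ∣ x →
    ∀ b b' : E, IsIntegral R b → IsIntegral R b' →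
      algebraMap R E x * b = algebraMap R E ϖ * b' →
      ∃ y : E, IsIntegral R y ∧ b = algebraMap R E ϖ * y

/-- (P-Free) A finite torsion-free module `M` over a 2-dimensional regular local ring on which
`ϖ, x` is a regular sequence (`x m ∈ ϖ M ⟹ m ∈ ϖ M`) is free. -/
def pub_FreeStatement : Prop :=
  ∀ (R : Type) [CommRing R] [IsDomain R] [IsLocalRing R] [IsNoetherianRing R] (ϖ x : R),
    pub_Reg2 R ϖ x →
    ∀ (M : Type) [AddCommGroup M] [Module R M] [Module.Finite R M],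
      (∀ (a : R) (m : M), a • m = 0 → a = 0 ∨ m = 0) →
      (∀ m m' : M, x • m = ϖ • m' → ∃ m'' : M, m = ϖ • m'') →
      Module.Free R M

/-- `E / K` is unramified at the prime element `p` of `R` (`K = Frac R`), in discriminant form: there
is a `K`-basis `c` of `E` with `sᵢ cᵢ` integral over `R`, `p ∤ sᵢ`, and `s · discr(c) = a` with
`p ∤ a`, `p ∤ s`. -/
def pub_UnramAt (R K E : Type) [CommRing R] [Field K] [Field E] [Algebra R E] [Algebra K E]
    (p : R) : Prop :=
  ∃ (r : ℕ) (c : Fin r → E), LinearIndependent K c ∧ Submodule.span K (Set.range c) = ⊤ ∧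
    (∀ i, ∃ s : R, ¬ p ∣ s ∧ IsIntegral R (algebraMap R E s * c i)) ∧
    ∃ a s : R, ¬ p ∣ a ∧ ¬ p ∣ s ∧
      algebraMap R E s * algebraMap K E (Algebra.discr K c) = algebraMap R E a

/-- (P-Disc) Purity in discriminant form over a UFD: if `E / K` is unramified at every prime
element of `R` and the integral closure of `R` in `E` is free with basis `e`, then `discr(e)` is a
unit of `R`. -/
def pub_DiscStatement : Prop :=
  ∀ (R K E : Type) [CommRing R] [IsDomain R] [UniqueFactorizationMonoid R] [Field K] [Field E]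
    [CharZero K] [Algebra R K] [IsFractionRing R K] [Algebra K E] [Algebra R E]
    [IsScalarTower R K E] [FiniteDimensional K E],
    (∀ p : R, Prime p → pub_UnramAt R K E p) →
    ∀ (r : ℕ) (e : Module.Basis (Fin r) R ↥(integralClosure R E)), IsUnit (Algebra.discr R e)

/-- (P-Red) A finite free algebra `S` with unit discriminant over a local ring `R`: `S / 𝔪 S` is
reduced and artinian, hence von Neumann regular: every `z` is `z² c` modulo `𝔪 S`. -/
def pub_RedStatement : Prop :=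
  ∀ (R S : Type) [CommRing R] [IsLocalRing R] [CommRing S] [Algebra R S] (r : ℕ)
    (e : Module.Basis (Fin r) R S), IsUnit (Algebra.discr R e) →
    ∀ z : S, ∃ c : S,
      z - z ^ 2 * c ∈ Ideal.map (algebraMap R S) (IsLocalRing.maximalIdeal R)

/-- The output of the abstract side, in elementwise form inside `E` (`B' = integralClosure R E`):
`x` is a nonzerodivisor modulo `ϖ B'`; `B' / (ϖ, x) B'` is von Neumann regular; `B'` is noetherian. -/
def pub_Good (R E : Type) [CommRing R] [Field E] [Algebra R E] (ϖ x : R) : Prop :=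
  (∀ b b' : E, IsIntegral R b → IsIntegral R b' →
      algebraMap R E x * b = algebraMap R E ϖ * b' →
      ∃ y : E, IsIntegral R y ∧ b = algebraMap R E ϖ * y) ∧
  (∀ z : E, IsIntegral R z → ∃ c b₁ b₂ : E, IsIntegral R c ∧ IsIntegral R b₁ ∧ IsIntegral R b₂ ∧
      z - z ^ 2 * c = algebraMap R E ϖ * b₁ + algebraMap R E x * b₂) ∧
  IsNoetherianRing ↥(integralClosure R E)

/-- (Abs) The abstract main statement. -/
def pub_AbsStatement : Prop :=
  ∀ (R K E : Type) [CommRing R] [IsDomain R] [IsLocalRing R] [IsNoetherianRing R] [Field K]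
    [Field E] [CharZero K] [Algebra R K] [IsFractionRing R K] [Algebra K E] [Algebra R E]
    [IsScalarTower R K E] [FiniteDimensional K E] (ϖ x : R), pub_Reg2 R ϖ x →
    (∀ p : R, Prime p → pub_UnramAt R K E p) → pub_Good R E ϖ x

/-! ## Concrete side -/

/-- (P-A) `R = locSub Λ 𝔫` is a noetherian local ring with regular system of parameters `ϖ, x`. -/
def pub_AStatement : Prop :=
  ∀ (E : Type) [Field E] (Λ : Subring E), IsNoetherianRing ↥Λ →
    ∀ (𝔫 : Ideal ↥Λ) [𝔫.IsMaximal] (ϖ x : ↥Λ), ϖ ≠ 0 → (Ideal.span {ϖ} : Ideal ↥Λ).IsPrime →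
      x ∉ (Ideal.span {ϖ} : Ideal ↥Λ) → 𝔫 = Ideal.span {ϖ, x} →
      ∃ (_ : IsLocalRing ↥(locSub Λ 𝔫)) (_ : IsNoetherianRing ↥(locSub Λ 𝔫)),
        pub_Reg2 ↥(locSub Λ 𝔫) (Subring.inclusion (le_locSub Λ 𝔫) ϖ)
          (Subring.inclusion (le_locSub Λ 𝔫) x)

/-- (P-U) Hypothesis (U) of `PurityStatement` gives unramifiedness at every prime element of
`R = locSub Λ 𝔫`. -/
def pub_UStatement : Prop :=
  ∀ (E : Type) [Field E] (Λ : Subring E) (K₁ : Subfield E), Λ ≤ K₁.toSubring →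
    IsNoetherianRing ↥Λ →
    ∀ (𝔫 : Ideal ↥Λ) [𝔫.IsMaximal] (ϖ x : ↥Λ), ϖ ≠ 0 → (Ideal.span {ϖ} : Ideal ↥Λ).IsPrime →
      x ∉ (Ideal.span {ϖ} : Ideal ↥Λ) → 𝔫 = Ideal.span {ϖ, x} →
      (∀ 𝔭 : Ideal ↥Λ, 𝔭.IsPrime → 𝔭 ≠ ⊥ → 𝔭 < 𝔫 → UnramAtPrime Λ K₁ 𝔭) →
      ∀ p : ↥(locSub Λ 𝔫), Prime p → pub_UnramAt ↥(locSub Λ 𝔫) ↥K₁ E p

/-- (P-G) From the abstract output for `R = locSub Λ 𝔫` to the DVR property of `(locSub B M) / ϖ`,
`B` the integral closure of `Λ` in `E`, `M` a maximal ideal of `B` over `𝔫 = (ϖ, x)`. -/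
def pub_GStatement : Prop :=
  ∀ (E : Type) [Field E] (Λ : Subring E) (𝔫 : Ideal ↥Λ) [𝔫.IsMaximal] (ϖ x : ↥Λ),
    𝔫 = Ideal.span {ϖ, x} →
    pub_Good ↥(locSub Λ 𝔫) E (Subring.inclusion (le_locSub Λ 𝔫) ϖ)
      (Subring.inclusion (le_locSub Λ 𝔫) x) →
    ∀ (M : Ideal ↥(integralClosure ↥Λ E).toSubring) [M.IsMaximal]
      (ϖB : ↥(integralClosure ↥Λ E).toSubring), (ϖB : E) = (ϖ : E) →
      (∀ (a : ↥Λ) (b : ↥(integralClosure ↥Λ E).toSubring), a ∈ 𝔫 → (b : E) = (a : E) → b ∈ M) →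
      IsDVRQuot ↥(locSub (integralClosure ↥Λ E).toSubring M)
        ⟨(ϖB : E), le_locSub (integralClosure ↥Λ E).toSubring M ϖB.2⟩

end

end Fermat.Agent.S18
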