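/-
S18 — block Purity (twin B), package P-A: `R = locSub Λ 𝔫` is a noetherian local ring with regular
system of parameters `ϖ, x`.  Prefix `pub_a_`.
-/
import Fermat.Agent.S18.PUBInterfaces
import Fermat.Agent.S18.LocSubB

set_option autoImplicit false

namespace Fermat.Agent.S18

/-- An element of `A` outside the ideal `P` is nonzero in the ambient field. -/
theorem pub_a_coe_ne_zero {E : Type} [Field E] (A : Subring E) (P : Ideal ↥A) (s : ↥A)
    (hs : s ∉ P) : (s : E) ≠ 0 := by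
  intro h0
  apply hs
  have : s = 0 := Subtype.ext h0
  rw [this]; exact P.zero_mem

/-- `1 ∉ P` for a prime ideal `P`. -/
theorem pub_a_one_not_mem {E : Type} [Field E] (A : Subring E) (P : Ideal ↥A) [hP : P.IsPrime] :
    (1 : ↥A) ∉ P := fun h => hP.ne_top ((Ideal.eq_top_iff_one P).2 h)

/-- Divisibility by (the image of) `ϖ` in `locSub A P`, when `ϖ A` is a prime ideal contained in
`P`: if `y * s = a` with `s ∉ P`, then `ϖ ∣ y` in `locSub A P` iff `a ∈ ϖ A`. -/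
theorem pub_a_dvd_iff {E : Type} [Field E] (A : Subring E) (P : Ideal ↥A) [hP : P.IsPrime]
    (ϖ : ↥A) (hϖprime : (Ideal.span {ϖ} : Ideal ↥A).IsPrime) (hϖP : ϖ ∈ P)
    (y : ↥(locSub A P)) (a s : ↥A) (hs : s ∉ P) (h : (y : E) * (s : E) = (a : E)) :
    Subring.inclusion (le_locSub A P) ϖ ∣ y ↔ a ∈ (Ideal.span {ϖ} : Ideal ↥A) := by
  have hle : (Ideal.span {ϖ} : Ideal ↥A) ≤ P := by
    rw [Ideal.span_le, Set.singleton_subset_iff]; exact hϖP
  have hs0 : (s : E) ≠ 0 := pub_a_coe_ne_zero A P s hs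
  constructor
  · rintro ⟨w, hw⟩
    obtain ⟨a', s', hs', h'⟩ := w.2
    have hw' : (y : E) = (ϖ : E) * (w : E) := by
      have := congrArg (fun t : ↥(locSub A P) => (t : E)) hw
      simpa using this
    have h2 : ((a * s' : ↥A) : E) = ((ϖ * (a' * s) : ↥A) : E) := by
      push_cast
      rw [← h, ← h', hw']
      ring
    have h3 : a * s' = ϖ * (a' * s) := Subtype.ext h2
    have h4 : a * s' ∈ (Ideal.span {ϖ} : Ideal ↥A) := by
      rw [h3]; exact Ideal.mul_mem_right _ _ (Ideal.mem_span_singleton_self ϖ)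
    exact (hϖprime.mem_or_mem h4).elim id (fun h5 => absurd (hle h5) hs')
  · intro ha
    rw [Ideal.mem_span_singleton] at ha
    obtain ⟨a₀, ha₀⟩ := ha
    have hmem : (a₀ : E) / (s : E) ∈ locSub A P := ⟨a₀, s, hs, by field_simp⟩
    refine ⟨⟨(a₀ : E) / (s : E), hmem⟩, ?_⟩
    apply Subtype.ext
    show (y : E) = (ϖ : E) * ((a₀ : E) / (s : E))
    have ha₀' : (a : E) = (ϖ : E) * (a₀ : E) := by
      have := congrArg (fun t : ↥A => (t : E)) ha₀
      simpa using this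
    rw [eq_comm, ← mul_div_assoc, div_eq_iff hs0, ← ha₀', h]

/-- (P-A) -/
theorem pub_a_main : pub_AStatement := by
  intro E _ Λ hnoeth 𝔫 _ ϖ x hϖ0 hϖprime hx h𝔫
  have hnoeΛ : IsNoetherianRing ↥Λ := hnoeth
  have hloc : IsLocalRing ↥(locSub Λ 𝔫) := locSubB_isLocalRing Λ 𝔫
  have hnoeR : IsNoetherianRing ↥(locSub Λ 𝔫) := locSubB_isNoetherianRing Λ 𝔫
  have hϖ𝔫 : ϖ ∈ 𝔫 := by rw [h𝔫]; exact Ideal.subset_span (by simp)
  have h1 : (1 : ↥Λ) ∉ 𝔫 := pub_a_one_not_mem Λ 𝔫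
  have hmax : IsLocalRing.maximalIdeal ↥(locSub Λ 𝔫) =
      Ideal.span {Subring.inclusion (le_locSub Λ 𝔫) ϖ, Subring.inclusion (le_locSub Λ 𝔫) x} := by
    have h2 : Ideal.map (Subring.inclusion (le_locSub Λ 𝔫)) 𝔫 =
        Ideal.map (Subring.inclusion (le_locSub Λ 𝔫)) (Ideal.span {ϖ, x}) :=
      congrArg (Ideal.map (Subring.inclusion (le_locSub Λ 𝔫))) h𝔫
    rw [locSubB_maximalIdeal_eq_map, h2, Ideal.map_span, Set.image_pair]
  refine ⟨hloc, hnoeR, hmax, ⟨?_, ?_, ?_⟩, ?_⟩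
  · -- nonzero
    intro h0
    apply hϖ0
    apply Subtype.ext
    have := congrArg (fun t : ↥(locSub Λ 𝔫) => (t : E)) h0
    simpa using this
  · -- not a unit
    have hmem : Subring.inclusion (le_locSub Λ 𝔫) ϖ ∈ IsLocalRing.maximalIdeal ↥(locSub Λ 𝔫) := by
      rw [hmax]; exact Ideal.subset_span (by simp)
    rw [IsLocalRing.mem_maximalIdeal, mem_nonunits_iff] at hmem
    exact hmem
  · -- prime
    intro y z hyz
    obtain ⟨a, s, hs, h⟩ := y.2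
    obtain ⟨a', s', hs', h'⟩ := z.2
    have hss' : s * s' ∉ 𝔫 := fun hmem =>
      ((Ideal.IsMaximal.isPrime ‹𝔫.IsMaximal›).mem_or_mem hmem).elim hs hs'
    have hprod : ((y * z : ↥(locSub Λ 𝔫)) : E) * ((s * s' : ↥Λ) : E) = ((a * a' : ↥Λ) : E) := by
      push_cast
      rw [← h, ← h']; ring
    have h4 := (pub_a_dvd_iff Λ 𝔫 ϖ hϖprime hϖ𝔫 (y * z) (a * a') (s * s') hss' hprod).1 hyz
    rcases hϖprime.mem_or_mem h4 with h5 | h5
    · exact Or.inl ((pub_a_dvd_iff Λ 𝔫 ϖ hϖprime hϖ𝔫 y a s hs h).2 h5)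
    · exact Or.inr ((pub_a_dvd_iff Λ 𝔫 ϖ hϖprime hϖ𝔫 z a' s' hs' h').2 h5)
  · -- `ϖ ∤ x`
    intro hdvd
    apply hx
    refine (pub_a_dvd_iff Λ 𝔫 ϖ hϖprime hϖ𝔫 (Subring.inclusion (le_locSub Λ 𝔫) x) x 1 h1 ?_).1 hdvd
    simp

end Fermat.Agent.S18
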