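/-
S18 — block Purity (twin B): assembly of the abstract side.
-/
import Fermat.Agent.S18.PUBInterfaces

set_option autoImplicit false

namespace Fermat.Agent.S18

/-- Assembly of the abstract main statement from the abstract work packages. -/
theorem pub_abs_main (hR : pub_RStatement) (hD1 : pub_D1Statement) (hFree : pub_FreeStatement)
    (hDisc : pub_DiscStatement) (hRed : pub_RedStatement) : pub_AbsStatement := by
  intro R K E _ _ _ _ _ _ _ _ _ _ _ _ _ ϖ x hreg hU
  obtain ⟨hufd, -, -⟩ := hR R ϖ x hreg
  have := hufd
  have hd1 := hD1 R K E ϖ x hreg.2.1 hreg.2.2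
  have : Algebra.IsSeparable K E := inferInstance
  have hfin : Module.Finite R ↥(integralClosure R E) := IsIntegralClosure.finite R K E _
  have hnoeth : IsNoetherianRing ↥(integralClosure R E) :=
    IsIntegralClosure.isNoetherianRing R K E _
  have hinjRE : Function.Injective (algebraMap R E) := by
    rw [IsScalarTower.algebraMap_eq R K E]
    exact (algebraMap K E).injective.comp (IsFractionRing.injective R K)
  have hfree : Module.Free R ↥(integralClosure R E) := by
    refine hFree R ϖ x hreg _ ?_ ?_
    · intro a m ham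
      by_cases ha : a = 0
      · exact Or.inl ha
      · right
        have h1 : algebraMap R E a * (m : E) = 0 := by
          have := congrArg (Subtype.val) ham
          simpa [Algebra.smul_def] using this
        rcases mul_eq_zero.1 h1 with h2 | h2
        · exact absurd (hinjRE (by simpa using h2)) ha
        · exact Subtype.ext h2
    · intro m m' hmm
      have h1 : algebraMap R E x * (m : E) = algebraMap R E ϖ * (m' : E) := by
        have := congrArg (Subtype.val) hmm
        simpa [Algebra.smul_def] using this
      obtain ⟨y, hy, hby⟩ := hd1 m m' m.2 m'.2 h1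
      refine ⟨⟨y, hy⟩, Subtype.ext ?_⟩
      simpa [Algebra.smul_def] using hby
  obtain ⟨r, ⟨e⟩⟩ : ∃ r : ℕ, Nonempty (Module.Basis (Fin r) R ↥(integralClosure R E)) := by
    let b := Module.Free.chooseBasis R ↥(integralClosure R E)
    exact ⟨_, ⟨b.reindex (Fintype.equivFin _)⟩⟩
  have hdisc := hDisc R K E hU r e
  have hred := hRed R ↥(integralClosure R E) r e hdisc
  refine ⟨hd1, ?_, hnoeth⟩
  intro z hz
  obtain ⟨c, hc⟩ := hred ⟨z, hz⟩
  rw [hreg.1, Ideal.map_span, Set.image_pair, Ideal.mem_span_pair] at hc
  obtain ⟨b₁, b₂, h⟩ := hc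
  refine ⟨c, b₁, b₂, c.2, b₁.2, b₂.2, ?_⟩
  have h2 := congrArg (Subtype.val) h
  simp only [Subalgebra.coe_add, Subalgebra.coe_mul, Subalgebra.coe_sub, Subalgebra.coe_pow,
    Subalgebra.coe_algebraMap] at h2
  rw [← h2]
  ring

end Fermat.Agent.S18
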