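/-
S18 — block Purity (twin B), package P-D1 (sub-lead's copy): `x` is a nonzerodivisor modulo `ϖ` on the
integral closure of an integrally closed domain in which `ϖ` is prime and `ϖ ∤ x`.
-/
import Fermat.Agent.S18.PUBInterfaces

set_option autoImplicit false

open Polynomial

namespace Fermat.Agent.S18

/-- Scaling of minimal polynomials over a field. -/
theorem pub_d1b_minpoly_scale {K E : Type} [Field K] [Field E] [Algebra K E] (c : K) (hc : c ≠ 0)
    (y : E) (hy : IsIntegral K y) :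
    minpoly K (algebraMap K E c * y) = scaleRoots (minpoly K y) c := by
  symm
  refine minpoly.unique K _ ?_ ?_ ?_
  · exact (monic_scaleRoots_iff c).2 (minpoly.monic hy)
  · exact scaleRoots_aeval_eq_zero (minpoly.aeval K y)
  · intro q hq hq0
    have h1 : aeval y (scaleRoots q c⁻¹) = 0 := by
      have h := scaleRoots_aeval_eq_zero (r := c⁻¹) hq0
      have h2 : algebraMap K E c⁻¹ * (algebraMap K E c * y) = y := by
        rw [← mul_assoc, ← map_mul, inv_mul_cancel₀ hc, map_one, one_mul]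
      rwa [h2] at h
    have h2 : degree (minpoly K y) ≤ degree (scaleRoots q c⁻¹) :=
      minpoly.min K y ((monic_scaleRoots_iff c⁻¹).2 hq) h1
    rw [degree_scaleRoots] at h2 ⊢
    exact h2

/-- Key lemma (B3): an element of the fraction field whose multiples by `ϖ ^ n` and `x ^ n` lie in
`R` lies in `R`. -/
theorem pub_d1b_key {R K : Type} [CommRing R] [IsDomain R] [Field K] [Algebra R K]
    [IsFractionRing R K] (ϖ x : R) (hϖ : Prime ϖ) (hx : ¬ ϖ ∣ x) (m : K) (n : ℕ) (r₁ r₂ : R)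
    (h1 : m * algebraMap R K ϖ ^ n = algebraMap R K r₁)
    (h2 : m * algebraMap R K x ^ n = algebraMap R K r₂) : m ∈ Set.range (algebraMap R K) := by
  have hinj := IsFractionRing.injective R K
  have h3 : x ^ n * r₁ = ϖ ^ n * r₂ := by
    apply hinj
    simp only [map_mul, map_pow]
    rw [← h1, ← h2]; ring
  have hxn : ¬ ϖ ∣ x ^ n := fun h => hx (hϖ.dvd_of_dvd_pow h)
  have h4 : ϖ ^ n ∣ r₁ := hϖ.pow_dvd_of_dvd_mul_left n hxn ⟨r₂, h3⟩
  obtain ⟨r₃, rfl⟩ := h4
  refine ⟨r₃, ?_⟩
  have hϖ0 : algebraMap R K ϖ ^ n ≠ 0 :=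
    pow_ne_zero _ ((map_ne_zero_iff _ hinj).2 hϖ.ne_zero)
  apply mul_right_cancel₀ hϖ0
  rw [h1]; simp only [map_mul, map_pow]; ring

theorem pub_d1b_main : pub_D1Statement := by
  intro R K E _ _ _ _ _ _ _ _ _ _ _ ϖ x hϖ hx b b' hb hb' hbb
  have hinjK := IsFractionRing.injective R K
  have hinjE : Function.Injective (algebraMap R E) := by
    rw [IsScalarTower.algebraMap_eq R K E]
    exact (algebraMap K E).injective.comp hinjK
  have hϖ0 : algebraMap R E ϖ ≠ 0 := (map_ne_zero_iff _ hinjE).2 hϖ.ne_zero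
  have hx0 : x ≠ 0 := fun h => hx (h ▸ dvd_zero ϖ)
  set y : E := b / algebraMap R E ϖ with hy
  have hϖy : algebraMap R E ϖ * y = b := by rw [hy]; field_simp
  have hxy : algebraMap R E x * y = b' := by
    rw [hy, ← mul_div_assoc, hbb]; field_simp
  have hyK : IsIntegral K y := IsIntegral.of_finite K y
  set μ := minpoly K y with hμ
  have hμmonic : μ.Monic := minpoly.monic hyK
  -- coefficients
  have hcoef : ∀ (t : R), t ≠ 0 → IsIntegral R (algebraMap R E t * y) →
      ∀ i, ∃ r : R, μ.coeff i * algebraMap R K t ^ (μ.natDegree - i) = algebraMap R K r := by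
    intro t ht hint i
    have h1 := minpoly.isIntegrallyClosed_eq_field_fractions' K hint
    have h2 := pub_d1b_minpoly_scale (algebraMap R K t) ((map_ne_zero_iff _ hinjK).2 ht) y hyK
    rw [← IsScalarTower.algebraMap_apply R K E] at h2
    rw [h2] at h1
    have h3 := congrArg (fun p => p.coeff i) h1
    simp only [coeff_scaleRoots, coeff_map] at h3
    exact ⟨_, h3⟩
  have hc1 := hcoef ϖ hϖ.ne_zero (hϖy ▸ hb)
  have hc2 := hcoef x hx0 (hxy ▸ hb')
  have hlift : μ ∈ lifts (algebraMap R K) := by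
    rw [lifts_iff_coeff_lifts]
    intro i
    obtain ⟨r₁, hr₁⟩ := hc1 i
    obtain ⟨r₂, hr₂⟩ := hc2 i
    exact pub_d1b_key ϖ x hϖ hx _ _ r₁ r₂ hr₁ hr₂
  obtain ⟨P, hPmap, -, hPmonic⟩ := lifts_and_natDegree_eq_and_monic hlift hμmonic
  refine ⟨y, ⟨P, hPmonic, ?_⟩, hϖy.symm⟩
  have h5 : aeval y (P.map (algebraMap R K)) = 0 := by rw [hPmap]; exact minpoly.aeval K y
  rw [aeval_map_algebraMap] at h5
  exact h5

end Fermat.Agent.S18
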