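/-
S18 — block Purity (twin B), package P-Disc: purity in discriminant form over a UFD.
If `E / K` is unramified (in discriminant form) at every prime element of the UFD `R` and the
integral closure of `R` in `E` is free with basis `e`, then `discr(e)` is a unit of `R`.
-/
import Fermat.Agent.S18.PUBInterfaces

set_option autoImplicit false

namespace Fermat.Agent.S18

open scoped Matrix

/-- The discriminant of the diagonally rescaled family `sᵢ • cᵢ`. -/
theorem pub_disc_discr_diag {K E : Type} [Field K] [Field E] [Algebra K E] {r : ℕ}
    (c : Fin r → E) (t : Fin r → K) :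
    Algebra.discr K (fun i => algebraMap K E (t i) * c i) =
      (∏ i, t i) ^ 2 * Algebra.discr K c := by
  have h : (fun i => algebraMap K E (t i) * c i) =
      (Matrix.diagonal t).map (algebraMap K E) *ᵥ c := by
    funext i
    rw [Matrix.mulVec, dotProduct, Finset.sum_eq_single i]
    · simp [Matrix.map_apply]
    · intro j _ hji
      simp [Matrix.map_apply, Matrix.diagonal_apply_ne _ hji.symm]
    · intro hi
      exact absurd (Finset.mem_univ i) hi
  rw [h, Algebra.discr_of_matrix_mulVec, Matrix.det_diagonal]

/-- The discriminant of a family obtained from `b` by a matrix with entries in `R`. -/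
theorem pub_disc_discr_mat {R K E : Type} [CommRing R] [Field K] [Field E] [Algebra R K]
    [Algebra K E] [Algebra R E] [IsScalarTower R K E] {r : ℕ}
    (b w : Fin r → E) (m : Fin r → Fin r → R)
    (hw : ∀ i, w i = ∑ j, algebraMap R E (m i j) * b j) :
    Algebra.discr K w = (algebraMap R K (Matrix.of m).det) ^ 2 * Algebra.discr K b := by
  have h : w = ((Matrix.of m).map (algebraMap R K)).map (algebraMap K E) *ᵥ b := by
    funext i
    rw [hw i, Matrix.mulVec, dotProduct]
    refine Finset.sum_congr rfl fun j _ => ?_
    simp [Matrix.map_apply, IsScalarTower.algebraMap_apply R K E]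
  rw [h, Algebra.discr_of_matrix_mulVec, RingHom.map_det, RingHom.mapMatrix_apply]

theorem pub_disc_main : pub_DiscStatement := by
  intro R K E _ _ _ _ _ _ _ _ _ _ _ _ hU r e
  have : Algebra.IsSeparable K E := inferInstance
  have : Algebra.IsAlgebraic K E := inferInstance
  have hloc : IsLocalization
      (Algebra.algebraMapSubmonoid ↥(integralClosure R E) (nonZeroDivisors R)) E :=
    IsIntegralClosure.isLocalization R K E ↥(integralClosure R E)
  have hdisc : Algebra.discr K (e.localizationLocalization K (nonZeroDivisors R) E) =
      algebraMap R K (Algebra.discr R e) :=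
    Algebra.discr_localizationLocalization R (nonZeroDivisors R) E e
  have hfun : (⇑(e.localizationLocalization K (nonZeroDivisors R) E) : Fin r → E) =
      fun j => ((e j : ↥(integralClosure R E)) : E) := by
    funext j
    rw [Module.Basis.localizationLocalization_apply]
    rfl
  have hdK : Algebra.discr K (fun j => ((e j : ↥(integralClosure R E)) : E)) =
      algebraMap R K (Algebra.discr R e) := by
    rw [← hfun]; exact hdisc
  have hinj : Function.Injective (algebraMap R K) := IsFractionRing.injective R K
  have hd0 : Algebra.discr R e ≠ 0 := by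
    intro h0
    have h1 := Algebra.discr_not_zero_of_basis K (e.localizationLocalization K (nonZeroDivisors R) E)
    rw [hdisc, h0, map_zero] at h1
    exact h1 rfl
  by_contra hnu
  obtain ⟨p, hpirr, hpd⟩ := WfDvdMonoid.exists_irreducible_factor hnu hd0
  have hp : Prime p := UniqueFactorizationMonoid.irreducible_iff_prime.mp hpirr
  obtain ⟨r', c, hli, hsp, hint, a₀, s₀, ha₀, hs₀, heq⟩ := hU p hp
  have hr : r' = r := by
    have h1 := Module.finrank_eq_card_basis (Module.Basis.mk hli hsp.ge)
    have h2 := Module.finrank_eq_card_basis (e.localizationLocalization K (nonZeroDivisors R) E)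
    rw [Fintype.card_fin] at h1 h2
    omega
  subst hr
  choose s hs hsint using hint
  -- the coordinates of `sᵢ cᵢ` in the basis `e`
  have hw : ∀ i, algebraMap R E (s i) * c i =
      ∑ j, algebraMap R E (e.repr ⟨algebraMap R E (s i) * c i, hsint i⟩ j) *
        ((e j : ↥(integralClosure R E)) : E) := by
    intro i
    have h1 := congrArg (Subtype.val : ↥(integralClosure R E) → E)
      (e.sum_repr ⟨algebraMap R E (s i) * c i, hsint i⟩)
    rw [AddSubmonoidClass.coe_finsetSum] at h1
    refine h1.symm.trans (Finset.sum_congr rfl fun j _ => ?_)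
    rw [Algebra.smul_def]
    rfl
  have e1 := pub_disc_discr_mat (K := K) (fun j => ((e j : ↥(integralClosure R E)) : E))
    (fun i => algebraMap R E (s i) * c i)
    (fun i j => e.repr ⟨algebraMap R E (s i) * c i, hsint i⟩ j) hw
  have e2 := pub_disc_discr_diag c (fun i => algebraMap R K (s i))
  simp only [← IsScalarTower.algebraMap_apply R K E] at e2
  rw [e2, hdK] at e1
  -- the discriminant relation from unramifiedness
  have e3 : algebraMap R K s₀ * Algebra.discr K c = algebraMap R K a₀ := by
    apply (algebraMap K E).injective
    rw [map_mul, ← IsScalarTower.algebraMap_apply R K E, ← IsScalarTower.algebraMap_apply R K E]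
    exact heq
  set D := (Matrix.of fun i j => e.repr ⟨algebraMap R E (s i) * c i, hsint i⟩ j).det with hD
  have e4 : (∏ i, s i) ^ 2 * a₀ = s₀ * D ^ 2 * Algebra.discr R e := by
    apply hinj
    simp only [map_mul, map_pow, map_prod]
    rw [← e3]
    linear_combination (algebraMap R K s₀) * e1
  have h5 : p ∣ (∏ i, s i) ^ 2 * a₀ := by
    rw [e4]; exact Dvd.dvd.mul_left hpd _
  rcases hp.dvd_or_dvd h5 with h6 | h6
  · have h7 := hp.dvd_of_dvd_pow h6
    obtain ⟨i, _, hi⟩ := (Prime.dvd_finsetProd_iff hp _).mp h7
    exact hs i hi
  · exact ha₀ h6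

end Fermat.Agent.S18
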