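/-
S18 — block Purity (twin B), package P-Disc: purity in discriminant form over a UFD.
If `E / K` is unramified (in discriminant form) at every prime element of the UFD `R` and the
integral closure of `R` in `E` is free with basis `e`, then `discr(e)` is a unit of `R`.
-/
import Fermat.Agent.S18.PUBInterfaces

set_option autoImplicit false

namespace Fermat.Agent.S18

open scoped Matrix

/-- The relation between the discriminant of a family `c` rescaled by scalars `s i` of the base
field and the discriminant of `c`. -/
theorem pub_disc2_discr_smul {K E : Type} [Field K] [Field E] [Algebra K E] {r : ℕ}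
    (t : Fin r → K) (c : Fin r → E) :
    Algebra.discr K (fun i => algebraMap K E (t i) * c i) = (∏ i, t i) ^ 2 * Algebra.discr K c := by
  classical
  have h : (fun i => algebraMap K E (t i) * c i) =
      (Matrix.diagonal t).map (algebraMap K E) *ᵥ c := by
    funext i
    rw [Matrix.diagonal_map (map_zero _), Matrix.mulVec_diagonal]
  rw [h, Algebra.discr_of_matrix_mulVec, Matrix.det_diagonal]

/-- (P-Disc) Purity in discriminant form over a UFD. -/
theorem pub_disc2_main : pub_DiscStatement := by
  intro R K E _ _ _ _ _ _ _ _ _ _ _ _ hU r e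
  classical
  have hsep : Algebra.IsSeparable K E := inferInstance
  have halg : Algebra.IsAlgebraic K E := inferInstance
  have hloc : IsLocalization
      (Algebra.algebraMapSubmonoid ↥(integralClosure R E) (nonZeroDivisors R)) E :=
    IsIntegralClosure.isLocalization R K E ↥(integralClosure R E)
  -- the induced `K`-basis of `E`
  let eK : Module.Basis (Fin r) K E := e.localizationLocalization K (nonZeroDivisors R) E
  have heK : (⇑eK : Fin r → E) = fun j => ((e j : ↥(integralClosure R E)) : E) := by
    funext j
    exact Module.Basis.localizationLocalization_apply K (nonZeroDivisors R) E e j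
  have hdK : Algebra.discr K (⇑eK : Fin r → E) = algebraMap R K (Algebra.discr R e) :=
    Algebra.discr_localizationLocalization R (nonZeroDivisors R) E e
  have hne : Algebra.discr K (⇑eK : Fin r → E) ≠ 0 := Algebra.discr_not_zero_of_basis K eK
  have hinj : Function.Injective (algebraMap R K) := IsFractionRing.injective R K
  have hd0 : Algebra.discr R e ≠ 0 := by
    intro h0
    apply hne
    rw [hdK, h0, map_zero]
  by_contra hnu
  obtain ⟨p, hpirr, hpd⟩ := WfDvdMonoid.exists_irreducible_factor hnu hd0
  have hp : Prime p := UniqueFactorizationMonoid.irreducible_iff_prime.mp hpirr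
  obtain ⟨r', c, hli, hsp, hint, a₀, s₀, ha₀, hs₀, heq⟩ := hU p hp
  -- `c` is a basis, hence `r' = r`
  let cb : Module.Basis (Fin r') K E := Module.Basis.mk hli (le_of_eq hsp.symm)
  have hr : r' = r := by
    have h1 := Module.finrank_eq_card_basis cb
    have h2 := Module.finrank_eq_card_basis eK
    rw [Fintype.card_fin] at h1 h2
    rw [← h1, ← h2]
  subst hr
  choose s hs hw using hint
  -- the rescaled family `w` and its coordinates in the basis `e`
  have hm : ∀ i, algebraMap R E (s i) * c i =
      ∑ j, algebraMap K E (algebraMap R K (e.repr ⟨algebraMap R E (s i) * c i, hw i⟩ j)) *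
        ((e j : ↥(integralClosure R E)) : E) := by
    intro i
    have h := congrArg (Subtype.val : ↥(integralClosure R E) → E)
      (e.sum_repr ⟨algebraMap R E (s i) * c i, hw i⟩)
    refine h.symm.trans ?_
    rw [AddSubmonoidClass.coe_finsetSum]
    refine Finset.sum_congr rfl fun j _ => ?_
    rw [← IsScalarTower.algebraMap_apply R K E]
    exact Algebra.smul_def _ _
  let m : Matrix (Fin r') (Fin r') R :=
    Matrix.of fun i j => e.repr ⟨algebraMap R E (s i) * c i, hw i⟩ j
  have hw1 : (fun i => algebraMap R E (s i) * c i) =
      (m.map (algebraMap R K)).map (algebraMap K E) *ᵥ (⇑eK : Fin r' → E) := by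
    funext i
    rw [hm i, heK]
    rfl
  have hw2 : (fun i => algebraMap R E (s i) * c i) =
      fun i => algebraMap K E (algebraMap R K (s i)) * c i := by
    funext i
    rw [← IsScalarTower.algebraMap_apply R K E]
  have hD1 : Algebra.discr K (fun i => algebraMap R E (s i) * c i) =
      (algebraMap R K m.det) ^ 2 * algebraMap R K (Algebra.discr R e) := by
    rw [hw1, Algebra.discr_of_matrix_mulVec, hdK, RingHom.map_det, RingHom.mapMatrix_apply]
  have hD2 : Algebra.discr K (fun i => algebraMap R E (s i) * c i) =
      (∏ i, algebraMap R K (s i)) ^ 2 * Algebra.discr K c := by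
    rw [hw2, pub_disc2_discr_smul]
  -- the unramifiedness equation, in `K`
  have heqK : algebraMap R K s₀ * Algebra.discr K c = algebraMap R K a₀ := by
    apply (algebraMap K E).injective
    rw [map_mul, ← IsScalarTower.algebraMap_apply R K E, ← IsScalarTower.algebraMap_apply R K E]
    exact heq
  -- combine in `R`
  have hR : a₀ * (∏ i, s i) ^ 2 = s₀ * m.det ^ 2 * Algebra.discr R e := by
    apply hinj
    rw [map_mul, map_pow, map_prod, map_mul, map_mul, map_pow, ← heqK, mul_assoc, mul_assoc,
      ← hD1, hD2]
    ring
  have hdvd : p ∣ a₀ * (∏ i, s i) ^ 2 := by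
    rw [hR]
    exact Dvd.dvd.mul_left hpd _
  rcases hp.dvd_or_dvd hdvd with h | h
  · exact ha₀ h
  · obtain ⟨i, _, hi⟩ := (Prime.dvd_finsetProd_iff hp _).mp (hp.dvd_of_dvd_pow h)
    exact hs i hi

end Fermat.Agent.S18
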