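/-
S18 — block Purity (twin B): assembly `pub_final` of the concrete side (from the package statements).
-/
import Fermat.Agent.S18.PUBInterfaces

set_option autoImplicit false

namespace Fermat.Agent.S18

/-- `locSub Λ 𝔫 ⊆ K₁` when `Λ ⊆ K₁`. -/
theorem pub_locSub_le {E : Type} [Field E] (Λ : Subring E) (K₁ : Subfield E)
    (hΛK : Λ ≤ K₁.toSubring) (𝔫 : Ideal ↥Λ) [h𝔫 : 𝔫.IsPrime] : locSub Λ 𝔫 ≤ K₁.toSubring := by
  rintro y ⟨a, s, hs, h⟩
  have hs0 : (s : E) ≠ 0 := by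
    intro h0
    apply hs
    have : s = 0 := Subtype.ext h0
    rw [this]; exact 𝔫.zero_mem
  have hy : y = (a : E) / (s : E) := by rw [← h, mul_div_assoc, div_self hs0, mul_one]
  rw [hy]
  exact K₁.div_mem (hΛK a.2) (hΛK s.2)

/-- Final assembly of the block from the package statements. -/
theorem pub_final (hA : pub_AStatement) (hU : pub_UStatement) (hAbs : pub_AbsStatement)
    (hG : pub_GStatement) (hLS : LocSubStatement) : PurityStatement := by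
  intro E _ _ Λ K₁ hΛK hfrac hfin hnoeth 𝔫 _ ϖ x hϖ0 hϖprime hx h𝔫 hUn M _ ϖB hϖB hM
  obtain ⟨hloc, hnoeR, hreg⟩ := hA E Λ hnoeth 𝔫 ϖ x hϖ0 hϖprime hx h𝔫
  have hRK : locSub Λ 𝔫 ≤ K₁.toSubring := pub_locSub_le Λ K₁ hΛK 𝔫
  let algRK : Algebra ↥(locSub Λ 𝔫) ↥K₁ := (Subring.inclusion hRK).toAlgebra
  have htower : IsScalarTower ↥(locSub Λ 𝔫) ↥K₁ E := IsScalarTower.of_algebraMap_eq (fun _ => rfl)
  have hinj : Function.Injective (algebraMap ↥(locSub Λ 𝔫) ↥K₁) :=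
    Subring.inclusion_injective hRK
  have hfaith : FaithfulSMul ↥(locSub Λ 𝔫) ↥K₁ :=
    (faithfulSMul_iff_algebraMap_injective _ _).2 hinj
  have hfr : IsFractionRing ↥(locSub Λ 𝔫) ↥K₁ := by
    refine IsFractionRing.of_field _ _ ?_
    intro z
    obtain ⟨a, ha, b, hb, hb0, hab⟩ := hfrac (z : E) z.2
    refine ⟨⟨a, le_locSub Λ 𝔫 ha⟩, ⟨b, le_locSub Λ 𝔫 hb⟩, ?_⟩
    apply Subtype.ext
    show (z : E) = a / b
    rw [← hab, mul_div_assoc, div_self hb0, mul_one]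
  have hchar : CharZero ↥K₁ :=
    ⟨fun a b h => by
      have h2 := congrArg K₁.subtype h
      simpa using h2⟩
  have hU' := hU E Λ K₁ hΛK hnoeth 𝔫 ϖ x hϖ0 hϖprime hx h𝔫 hUn
  have hgood := hAbs ↥(locSub Λ 𝔫) ↥K₁ E _ _ hreg hU'
  have hdvr := hG E Λ 𝔫 ϖ x h𝔫 hgood M ϖB hϖB hM
  exact (hLS E (integralClosure ↥Λ E).toSubring M ϖB (le_locSub _ M ϖB.2)).2 hdvr

end Fermat.Agent.S18
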