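/-
S18 — block Purity (twin B), package P-Free (worker file `PUBFree2`).

A finite torsion-free module `M` over a noetherian local domain `R` with maximal ideal `(ϖ, x)`,
`ϖ ≠ 0`, on which `ϖ, x` is a regular sequence (`x m ∈ ϖ M ⟹ m ∈ ϖ M`), is free.

Proof: Mathlib's local criterion of freeness "`𝔪 ⊗ M → M` injective implies `M` free"
(`Module.free_of_maximalIdeal_rTensor_injective`).  Every element of `𝔪 ⊗ M` has the form
`ϖ ⊗ a + x ⊗ b` since `𝔪 = (ϖ, x)`; if its image `ϖ a + x b` vanishes, then `b = ϖ t` by regularity,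
`a = - x t` by torsion-freeness, and `ϖ ⊗ (- x t) + x ⊗ ϖ t = 0`.
(The structure statement `pub_RStatement` is not needed on this route.)
-/
import Fermat.Agent.S18.PUBInterfaces

set_option autoImplicit false

namespace Fermat.Agent.S18

open scoped TensorProduct

/-- If the ideal `I` is generated by two of its elements `p, y`, every element of `I ⊗ M` is of the
form `p ⊗ a + y ⊗ b`. -/
theorem pub_free2_tensor_pair {R M : Type} [CommRing R] [AddCommGroup M] [Module R M]
    (I : Ideal R) (p y : ↥I) (hI : I = Ideal.span {(p : R), (y : R)}) (t : ↥I ⊗[R] M) :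
    ∃ a b : M, t = p ⊗ₜ[R] a + y ⊗ₜ[R] b := by
  induction t using TensorProduct.induction_on with
  | zero => exact ⟨0, 0, by simp⟩
  | tmul c m =>
    have hc : (c : R) ∈ Ideal.span {(p : R), (y : R)} := hI ▸ c.2
    obtain ⟨r, r', hr⟩ := Ideal.mem_span_pair.mp hc
    have hc' : c = r • p + r' • y := Subtype.ext (by simp [← hr])
    refine ⟨r • m, r' • m, ?_⟩
    rw [hc', TensorProduct.add_tmul, TensorProduct.smul_tmul, TensorProduct.smul_tmul]
  | add t₁ t₂ h₁ h₂ =>
    obtain ⟨a₁, b₁, rfl⟩ := h₁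
    obtain ⟨a₂, b₂, rfl⟩ := h₂
    refine ⟨a₁ + a₂, b₁ + b₂, ?_⟩
    rw [TensorProduct.tmul_add, TensorProduct.tmul_add]
    abel

/-- If `p` is a nonzerodivisor on `M`, `y` is a nonzerodivisor on `M / p M` (elementwise form) and
`p • a + y • b = 0`, then `p ⊗ a + y ⊗ b = 0` in `I ⊗ M`, for any ideal `I` containing `p, y`. -/
theorem pub_free2_tensor_vanish {R M : Type} [CommRing R] [AddCommGroup M] [Module R M]
    (I : Ideal R) (p y : ↥I)
    (h1 : ∀ m : M, (p : R) • m = 0 → m = 0)
    (h2 : ∀ m m' : M, (y : R) • m = (p : R) • m' → ∃ m'' : M, m = (p : R) • m'')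
    (a b : M) (hab : (p : R) • a + (y : R) • b = 0) :
    p ⊗ₜ[R] a + y ⊗ₜ[R] b = (0 : ↥I ⊗[R] M) := by
  have hb : (y : R) • b = (p : R) • (-a) := by
    rw [smul_neg]
    exact eq_neg_of_add_eq_zero_right hab
  obtain ⟨t, rfl⟩ := h2 b (-a) hb
  have h0 : (p : R) • (a + (y : R) • t) = 0 := by
    rw [smul_add, smul_comm (p : R) (y : R) t]
    exact hab
  have ha : a = -((y : R) • t) := eq_neg_of_add_eq_zero_left (h1 _ h0)
  subst ha
  have hcomm : (y : R) • p = (p : R) • y := Subtype.ext (by simp [mul_comm])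
  rw [TensorProduct.tmul_neg, ← TensorProduct.smul_tmul, ← TensorProduct.smul_tmul, hcomm]
  exact neg_add_cancel _

/-- A finite module `M` over a noetherian local ring with maximal ideal `(ϖ, x)` such that `ϖ, x` is
an `M`-regular sequence (elementwise form) is free. -/
theorem pub_free2_of_regular {R M : Type} [CommRing R] [IsLocalRing R] [IsNoetherianRing R]
    [AddCommGroup M] [Module R M] [Module.Finite R M] (ϖ x : R)
    (hmax : IsLocalRing.maximalIdeal R = Ideal.span {ϖ, x})
    (h1 : ∀ m : M, ϖ • m = 0 → m = 0)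
    (h2 : ∀ m m' : M, x • m = ϖ • m' → ∃ m'' : M, m = ϖ • m'') :
    Module.Free R M := by
  have hfp : Module.FinitePresentation R M := Module.finitePresentation_of_finite R M
  have hϖ : ϖ ∈ IsLocalRing.maximalIdeal R := by
    rw [hmax]; exact Ideal.subset_span (by simp)
  have hx : x ∈ IsLocalRing.maximalIdeal R := by
    rw [hmax]; exact Ideal.subset_span (by simp)
  apply Module.free_of_maximalIdeal_rTensor_injective
  rw [injective_iff_map_eq_zero]
  intro t ht
  obtain ⟨a, b, rfl⟩ :=
    pub_free2_tensor_pair (IsLocalRing.maximalIdeal R) ⟨ϖ, hϖ⟩ ⟨x, hx⟩ hmax t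
  apply pub_free2_tensor_vanish (IsLocalRing.maximalIdeal R) ⟨ϖ, hϖ⟩ ⟨x, hx⟩ h1 h2 a b
  have h3 := congrArg (TensorProduct.lid R M) ht
  simpa using h3

/-- (P-Free) A finite torsion-free module over a 2-dimensional regular local ring on which `ϖ, x` is
a regular sequence is free. -/
theorem pub_free2_main : pub_RStatement → pub_FreeStatement := by
  intro _ R _ _ _ _ ϖ x hreg M _ _ _ htf hxreg
  exact pub_free2_of_regular ϖ x hreg.1
    (fun m hm => (htf ϖ m hm).resolve_left hreg.2.1.ne_zero) hxreg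

end Fermat.Agent.S18
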