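/-
S18 — block Purity (twin B), package P-G (concrete side): from the abstract output `pub_Good` for
`R = locSub Λ 𝔫` to the DVR property of `(locSub B M) / ϖ`, `B` the integral closure of `Λ` in `E`.
Prefix `pub_g_`.
-/
import Fermat.Agent.S18.PUBInterfaces
import Fermat.Agent.S18.LocSubB

set_option autoImplicit false

namespace Fermat.Agent.S18

/-- Step 1: integral over `Λ` implies integral over `locSub Λ 𝔫`. -/
theorem pub_g_isIntegral_loc {E : Type} [Field E] (Λ : Subring E) (𝔫 : Ideal ↥Λ) [𝔫.IsPrime]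
    {z : E} (hz : IsIntegral ↥Λ z) : IsIntegral ↥(locSub Λ 𝔫) z := by
  let _ : Algebra ↥Λ ↥(locSub Λ 𝔫) := (Subring.inclusion (le_locSub Λ 𝔫)).toAlgebra
  have : IsScalarTower ↥Λ ↥(locSub Λ 𝔫) E := IsScalarTower.of_algebraMap_eq (fun _ => rfl)
  exact hz.tower_top

/-- Elements of a subring are integral over it. -/
theorem pub_g_isIntegral_coe {E : Type} [Field E] (A : Subring E) (a : ↥A) :
    IsIntegral ↥A (a : E) :=
  isIntegral_algebraMap (R := ↥A) (A := E) (x := a)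

/-- Step 2: clearing denominators. -/
theorem pub_g_clear {E : Type} [Field E] (Λ : Subring E) (𝔫 : Ideal ↥Λ) [𝔫.IsPrime]
    {z : E} (hz : IsIntegral ↥(locSub Λ 𝔫) z) :
    ∃ t : ↥Λ, t ∉ 𝔫 ∧ IsIntegral ↥Λ ((t : E) * z) := by
  let _ : Algebra ↥Λ ↥(locSub Λ 𝔫) := (Subring.inclusion (le_locSub Λ 𝔫)).toAlgebra
  have : IsScalarTower ↥Λ ↥(locSub Λ 𝔫) E := IsScalarTower.of_algebraMap_eq (fun _ => rfl)
  have : IsLocalization.AtPrime ↥(locSub Λ 𝔫) 𝔫 := locSubB_isLocalization Λ 𝔫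
  obtain ⟨m, hm⟩ := IsIntegral.exists_multiple_integral_of_isLocalization 𝔫.primeCompl z hz
  refine ⟨m.1, m.2, ?_⟩
  rw [Submonoid.smul_def, Algebra.smul_def] at hm
  exact hm

/-- Step 3: an element of `Λ` outside `𝔫` is outside `M`. -/
theorem pub_g_not_mem {E : Type} [Field E] (Λ : Subring E) (𝔫 : Ideal ↥Λ) [h𝔫 : 𝔫.IsMaximal]
    (M : Ideal ↥(integralClosure ↥Λ E).toSubring) [hMmax : M.IsMaximal]
    (hM : ∀ (a : ↥Λ) (b : ↥(integralClosure ↥Λ E).toSubring), a ∈ 𝔫 → (b : E) = (a : E) → b ∈ M)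
    (t : ↥Λ) (ht : t ∉ 𝔫) (tB : ↥(integralClosure ↥Λ E).toSubring) (htB : (tB : E) = (t : E)) :
    tB ∉ M := by
  obtain ⟨t', n, hn, h⟩ := h𝔫.exists_inv ht
  intro htM
  have hnB : (⟨(n : E), pub_g_isIntegral_coe Λ n⟩ : ↥(integralClosure ↥Λ E).toSubring) ∈ M :=
    hM n _ hn rfl
  have h1 : (1 : ↥(integralClosure ↥Λ E).toSubring) =
      ⟨(t' : E), pub_g_isIntegral_coe Λ t'⟩ * tB + ⟨(n : E), pub_g_isIntegral_coe Λ n⟩ := by
    apply Subtype.ext
    have := congrArg (fun w : ↥Λ => (w : E)) h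
    simp only [Subring.coe_add, Subring.coe_mul, Subring.coe_one] at this
    simp only [Subring.coe_add, Subring.coe_mul, Subring.coe_one, htB]
    exact this.symm
  have h2 : (1 : ↥(integralClosure ↥Λ E).toSubring) ∈ M := by
    rw [h1]
    exact M.add_mem (M.mul_mem_left _ htM) hnB
  exact hMmax.ne_top ((Ideal.eq_top_iff_one M).2 h2)

/-- Step 4: the integral closure of `locSub Λ 𝔫` is contained in `locSub B M`. -/
theorem pub_g_mem_O {E : Type} [Field E] (Λ : Subring E) (𝔫 : Ideal ↥Λ) [h𝔫 : 𝔫.IsMaximal]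
    (M : Ideal ↥(integralClosure ↥Λ E).toSubring) [hMmax : M.IsMaximal]
    (hM : ∀ (a : ↥Λ) (b : ↥(integralClosure ↥Λ E).toSubring), a ∈ 𝔫 → (b : E) = (a : E) → b ∈ M)
    {z : E} (hz : IsIntegral ↥(locSub Λ 𝔫) z) :
    z ∈ locSub (integralClosure ↥Λ E).toSubring M := by
  obtain ⟨t, ht, hint⟩ := pub_g_clear Λ 𝔫 hz
  refine ⟨⟨(t : E) * z, hint⟩, ⟨(t : E), pub_g_isIntegral_coe Λ t⟩,
    pub_g_not_mem Λ 𝔫 M hM t ht _ rfl, ?_⟩
  exact mul_comm _ _

/-- An element of `B` outside `M` is a unit of `locSub B M`. -/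
theorem pub_g_isUnit {E : Type} [Field E] (B : Subring E) (M : Ideal ↥B) [hMp : M.IsPrime]
    (s : ↥B) (hs : s ∉ M) (hs' : (s : E) ∈ locSub B M) :
    IsUnit (⟨(s : E), hs'⟩ : ↥(locSub B M)) := by
  rw [locSubB_isUnit_iff]
  exact ⟨s, 1, hs, fun h1 => hMp.ne_top ((Ideal.eq_top_iff_one M).2 h1), by simp⟩

/-- An element of `M` lies in the maximal ideal of `locSub B M`. -/
theorem pub_g_mem_max {E : Type} [Field E] (B : Subring E) (M : Ideal ↥B) [hMp : M.IsPrime]
    (a : ↥B) (ha : a ∈ M) (ha' : (a : E) ∈ locSub B M) :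
    (⟨(a : E), ha'⟩ : ↥(locSub B M)) ∈
      @IsLocalRing.maximalIdeal ↥(locSub B M) _ (locSubB_isLocalRing B M) := by
  rw [locSubB_mem_maximalIdeal_iff]
  exact ⟨a, 1, ha, fun h1 => hMp.ne_top ((Ideal.eq_top_iff_one M).2 h1), by simp⟩

/-- Step 5: `locSub B M` is noetherian. -/
theorem pub_g_noeth {E : Type} [Field E] (Λ : Subring E) (𝔫 : Ideal ↥Λ) [h𝔫 : 𝔫.IsMaximal]
    (M : Ideal ↥(integralClosure ↥Λ E).toSubring) [hMmax : M.IsMaximal]
    (hM : ∀ (a : ↥Λ) (b : ↥(integralClosure ↥Λ E).toSubring), a ∈ 𝔫 → (b : E) = (a : E) → b ∈ M)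
    (hN : IsNoetherianRing ↥(integralClosure ↥(locSub Λ 𝔫) E)) :
    IsNoetherianRing ↥(locSub (integralClosure ↥Λ E).toSubring M) := by
  have h4 : (integralClosure ↥(locSub Λ 𝔫) E).toSubring ≤
      locSub (integralClosure ↥Λ E).toSubring M := fun z hz => pub_g_mem_O Λ 𝔫 M hM hz
  have hN' : IsNoetherianRing ↥(integralClosure ↥(locSub Λ 𝔫) E).toSubring := hN
  rw [isNoetherianRing_iff_ideal_fg]
  intro I
  have hJ : (I.comap (Subring.inclusion h4)).FG := (isNoetherianRing_iff_ideal_fg _).1 hN' _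
  have hIJ : I = (I.comap (Subring.inclusion h4)).map (Subring.inclusion h4) := by
    apply le_antisymm
    · intro y hy
      obtain ⟨a, s, hs, h⟩ := y.2
      have hsu := pub_g_isUnit (integralClosure ↥Λ E).toSubring M s hs (le_locSub _ M s.2)
      have hys : (⟨(s : E), le_locSub _ M s.2⟩ : ↥(locSub (integralClosure ↥Λ E).toSubring M)) * y
          = Subring.inclusion h4 ⟨(a : E), pub_g_isIntegral_loc Λ 𝔫 a.2⟩ := by
        apply Subtype.ext
        simp only [Subring.coe_mul, Subring.coe_inclusion]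
        rw [mul_comm]; exact h
      have hmem : Subring.inclusion h4 ⟨(a : E), pub_g_isIntegral_loc Λ 𝔫 a.2⟩ ∈
          (I.comap (Subring.inclusion h4)).map (Subring.inclusion h4) := by
        apply Ideal.mem_map_of_mem
        rw [Ideal.mem_comap, ← hys]
        exact I.mul_mem_left _ hy
      rw [← hys] at hmem
      exact (Ideal.unit_mul_mem_iff_mem _ hsu).1 hmem
    · exact Ideal.map_comap_le
  rw [hIJ]
  exact hJ.map _

/-- Induction for (G2): if `x ^ n * w = ϖ * b` with `w, b` integral, then `ϖ ∣ w` in the integral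
closure. -/
theorem pub_g_pow {R E : Type} [CommRing R] [Field E] [Algebra R E] (ϖ x : R)
    (hD1 : ∀ b b' : E, IsIntegral R b → IsIntegral R b' →
      algebraMap R E x * b = algebraMap R E ϖ * b' →
      ∃ y : E, IsIntegral R y ∧ b = algebraMap R E ϖ * y) :
    ∀ (n : ℕ) (w b : E), IsIntegral R w → IsIntegral R b →
      algebraMap R E x ^ n * w = algebraMap R E ϖ * b →
      ∃ w' : E, IsIntegral R w' ∧ w = algebraMap R E ϖ * w' := by
  intro n
  induction n with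
  | zero =>
    intro w b _ hb h
    exact ⟨b, hb, by simpa using h⟩
  | succ n ih =>
    intro w b hw hb h
    have hxw : IsIntegral R (algebraMap R E x ^ n * w) :=
      (isIntegral_algebraMap.pow n).mul hw
    obtain ⟨y, hy, hyw⟩ := hD1 (algebraMap R E x ^ n * w) b hxw hb (by rw [← h]; ring)
    exact ih w y hw hy hyw

/-- (P-G) -/
theorem pub_g_main : pub_GStatement := by
  intro E _ Λ 𝔫 _ ϖ x h𝔫 hgood M hMmax ϖB hϖB hM
  obtain ⟨hD1, hvN, hN⟩ := hgood
  have hloc : IsLocalRing ↥(locSub (integralClosure ↥Λ E).toSubring M) := locSubB_isLocalRing _ M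
  have hnoeth : IsNoetherianRing ↥(locSub (integralClosure ↥Λ E).toSubring M) :=
    pub_g_noeth Λ 𝔫 M hM hN
  have hBO : ∀ z : E, IsIntegral ↥(locSub Λ 𝔫) z → z ∈ locSub (integralClosure ↥Λ E).toSubring M :=
    fun z hz => pub_g_mem_O Λ 𝔫 M hM hz
  have hϖ𝔫 : ϖ ∈ 𝔫 := by rw [h𝔫]; exact Ideal.subset_span (by simp)
  have hx𝔫 : x ∈ 𝔫 := by rw [h𝔫]; exact Ideal.subset_span (by simp)
  have hϖM : ϖB ∈ M := hM ϖ ϖB hϖ𝔫 hϖB
  have hxM : (⟨(x : E), pub_g_isIntegral_coe Λ x⟩ : ↥(integralClosure ↥Λ E).toSubring) ∈ M :=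
    hM x _ hx𝔫 rfl
  have hxO : (x : E) ∈ locSub (integralClosure ↥Λ E).toSubring M :=
    le_locSub _ M (pub_g_isIntegral_coe Λ x)
  have hϖmax := pub_g_mem_max _ M ϖB hϖM (le_locSub _ M ϖB.2)
  have hxmax := pub_g_mem_max _ M ⟨(x : E), pub_g_isIntegral_coe Λ x⟩ hxM hxO
  refine locSubB_crit (O := ↥(locSub (integralClosure ↥Λ E).toSubring M))
    ⟨(ϖB : E), le_locSub _ M ϖB.2⟩ ⟨(x : E), hxO⟩ ?_ ?_
  · -- (G1)
    apply le_antisymm
    · intro y hy
      obtain ⟨a, s, ha, hs, h⟩ := (locSubB_mem_maximalIdeal_iff _ M y).1 hy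
      have haR : IsIntegral ↥(locSub Λ 𝔫) (a : E) := pub_g_isIntegral_loc Λ 𝔫 a.2
      obtain ⟨c, b₁, b₂, hc, hb₁, hb₂, hcb⟩ := hvN (a : E) haR
      have hamax := pub_g_mem_max _ M a ha (le_locSub _ M a.2)
      have hsu := pub_g_isUnit _ M s hs (le_locSub _ M s.2)
      have hu : IsUnit ((1 : ↥(locSub (integralClosure ↥Λ E).toSubring M)) -
          ⟨(a : E), le_locSub _ M a.2⟩ * ⟨c, hBO c hc⟩) := by
        by_contra hnu
        have h1 : (1 : ↥(locSub (integralClosure ↥Λ E).toSubring M)) -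
            ⟨(a : E), le_locSub _ M a.2⟩ * ⟨c, hBO c hc⟩ ∈
            IsLocalRing.maximalIdeal ↥(locSub (integralClosure ↥Λ E).toSubring M) := by
          rwa [IsLocalRing.mem_maximalIdeal, mem_nonunits_iff]
        have h2 : (1 : ↥(locSub (integralClosure ↥Λ E).toSubring M)) ∈
            IsLocalRing.maximalIdeal ↥(locSub (integralClosure ↥Λ E).toSubring M) := by
          have := Ideal.add_mem _ h1 (Ideal.mul_mem_right ⟨c, hBO c hc⟩ _ hamax)
          rwa [sub_add_cancel] at this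
        exact (IsLocalRing.maximalIdeal.isMaximal _).ne_top ((Ideal.eq_top_iff_one _).2 h2)
      have hspan : ((1 : ↥(locSub (integralClosure ↥Λ E).toSubring M)) -
          ⟨(a : E), le_locSub _ M a.2⟩ * ⟨c, hBO c hc⟩) * ⟨(a : E), le_locSub _ M a.2⟩ ∈
          Ideal.span {(⟨(ϖB : E), le_locSub _ M ϖB.2⟩ :
            ↥(locSub (integralClosure ↥Λ E).toSubring M)), ⟨(x : E), hxO⟩} := by
        rw [Ideal.mem_span_pair]
        refine ⟨⟨b₁, hBO b₁ hb₁⟩, ⟨b₂, hBO b₂ hb₂⟩, ?_⟩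
        apply Subtype.ext
        simp only [Subring.coe_add, Subring.coe_mul, AddSubgroupClass.coe_sub, Subring.coe_one]
        have hcb' : (a : E) - (a : E) ^ 2 * c = (ϖ : E) * b₁ + (x : E) * b₂ := hcb
        rw [hϖB]
        linear_combination -hcb'
      have haspan := (Ideal.unit_mul_mem_iff_mem _ hu).1 hspan
      have hys : (⟨(s : E), le_locSub _ M s.2⟩ : ↥(locSub (integralClosure ↥Λ E).toSubring M)) * y
          = ⟨(a : E), le_locSub _ M a.2⟩ := by
        apply Subtype.ext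
        simp only [Subring.coe_mul]
        rw [mul_comm]; exact h
      rw [← hys] at haspan
      exact (Ideal.unit_mul_mem_iff_mem _ hsu).1 haspan
    · rw [Ideal.span_le]
      intro y hy
      rcases hy with rfl | rfl
      · exact hϖmax
      · exact hxmax
  · -- (G2)
    intro n hn
    rw [Ideal.mem_span_singleton'] at hn
    obtain ⟨o, ho⟩ := hn
    obtain ⟨b, w, hw, hob⟩ := o.2
    have ho' : (o : E) * (ϖ : E) = (x : E) ^ n := by
      have := congrArg (fun v : ↥(locSub (integralClosure ↥Λ E).toSubring M) => (v : E)) ho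
      simp only [Subring.coe_mul, Subring.coe_pow] at this
      rw [← hϖB]; exact this
    have hwR : IsIntegral ↥(locSub Λ 𝔫) (w : E) := pub_g_isIntegral_loc Λ 𝔫 w.2
    have hbR : IsIntegral ↥(locSub Λ 𝔫) (b : E) := pub_g_isIntegral_loc Λ 𝔫 b.2
    have key : (x : E) ^ n * (w : E) = (ϖ : E) * (b : E) := by
      rw [← ho', ← hob]; ring
    obtain ⟨w', hw', hww'⟩ := pub_g_pow (R := ↥(locSub Λ 𝔫)) (E := E)
      (Subring.inclusion (le_locSub Λ 𝔫) ϖ) (Subring.inclusion (le_locSub Λ 𝔫) x) hD1 n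
      (w : E) (b : E) hwR hbR key
    have hwu := pub_g_isUnit _ M w hw (le_locSub _ M w.2)
    have hwmax : (⟨(w : E), le_locSub _ M w.2⟩ : ↥(locSub (integralClosure ↥Λ E).toSubring M)) ∈
        IsLocalRing.maximalIdeal ↥(locSub (integralClosure ↥Λ E).toSubring M) := by
      have heq : (⟨(w : E), le_locSub _ M w.2⟩ : ↥(locSub (integralClosure ↥Λ E).toSubring M)) =
          ⟨(ϖB : E), le_locSub _ M ϖB.2⟩ * ⟨w', hBO w' hw'⟩ := by
        apply Subtype.ext
        simp only [Subring.coe_mul]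
        rw [hϖB]; exact hww'
      rw [heq]
      exact Ideal.mul_mem_right _ _ hϖmax
    rw [IsLocalRing.mem_maximalIdeal, mem_nonunits_iff] at hwmax
    exact hwmax hwu

end Fermat.Agent.S18
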