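/-
S18 — block Purity (twin B), package P-R (key S18/PUB/R2): a 2-dimensional regular local ring
`R` with regular system of parameters `ϖ, x` is a UFD, `R / ϖ` is a DVR, and every element not
divisible by `ϖ` is congruent modulo `ϖ` to a unit times a power of `x`.  Prefix `pub_r2_`.
-/
import Fermat.Agent.S18.PUBInterfaces
import Fermat.Agent.S18.LocSubB

set_option autoImplicit false

namespace Fermat.Agent.S18

/-- Part (2): `R / ϖ` is a discrete valuation ring. -/
theorem pub_r2_dvr {R : Type} [CommRing R] [IsLocalRing R] [IsNoetherianRing R]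
    (ϖ x : R) (h : pub_Reg2 R ϖ x) : IsDVRQuot R ϖ := by
  obtain ⟨hmax, hϖ, hx⟩ := h
  refine locSubB_crit ϖ x hmax ?_
  intro n hn
  rw [Ideal.mem_span_singleton] at hn
  exact hx (hϖ.dvd_of_dvd_pow hn)

/-- Part (3): every `a` not divisible by `ϖ` is congruent modulo `ϖ` to a unit times a power of
`x`. -/
theorem pub_r2_rep {R : Type} [CommRing R] [IsLocalRing R] [IsNoetherianRing R]
    (ϖ x : R) (h : pub_Reg2 R ϖ x) (a : R) (ha : ¬ ϖ ∣ a) :
    ∃ (s : ℕ) (u : Rˣ), ϖ ∣ a - (u : R) * x ^ s := by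
  obtain ⟨hmax, hϖ, hx⟩ := h
  have hne : (Ideal.span {ϖ} : Ideal R) ≠ ⊤ := by
    intro htop
    rw [Ideal.span_singleton_eq_top] at htop
    exact hϖ.not_isUnit htop
  have hnt : Nontrivial (R ⧸ Ideal.span {ϖ}) := Ideal.Quotient.nontrivial_iff.2 hne
  have hloc : IsLocalRing (R ⧸ Ideal.span {ϖ}) :=
    IsLocalRing.of_surjective' (Ideal.Quotient.mk _) Ideal.Quotient.mk_surjective
  have hlh : IsLocalHom (Ideal.Quotient.mk (Ideal.span {ϖ})) :=
    IsLocalHom.of_surjective _ Ideal.Quotient.mk_surjective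
  have hxm : x ∈ IsLocalRing.maximalIdeal R := by
    rw [hmax]; exact Ideal.subset_span (by simp)
  have hmaxq : IsLocalRing.maximalIdeal (R ⧸ Ideal.span {ϖ}) =
      Ideal.span {Ideal.Quotient.mk (Ideal.span {ϖ}) x} := by
    apply le_antisymm
    · intro y hy
      obtain ⟨b, rfl⟩ := Ideal.Quotient.mk_surjective y
      have hb : b ∈ IsLocalRing.maximalIdeal R := by
        rw [IsLocalRing.mem_maximalIdeal, mem_nonunits_iff] at hy ⊢
        exact fun hu => hy (hu.map _)
      rw [hmax, Ideal.mem_span_pair] at hb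
      obtain ⟨c, d, rfl⟩ := hb
      rw [Ideal.mem_span_singleton]
      refine ⟨Ideal.Quotient.mk _ d, ?_⟩
      rw [map_add, map_mul, map_mul,
        Ideal.Quotient.eq_zero_iff_mem.2 (Ideal.mem_span_singleton_self ϖ)]
      ring
    · rw [Ideal.span_le, Set.singleton_subset_iff, SetLike.mem_coe]
      exact map_nonunit _ x hxm
  have hane : Ideal.Quotient.mk (Ideal.span {ϖ}) a ≠ 0 := by
    intro h0
    rw [Ideal.Quotient.eq_zero_iff_mem, Ideal.mem_span_singleton] at h0
    exact ha h0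
  obtain ⟨n, ū, hū, hmk⟩ := locSubB_unit_mul_pow _ hmaxq _ hane
  obtain ⟨u, rfl⟩ := Ideal.Quotient.mk_surjective ū
  have hu : IsUnit u := (isUnit_map_iff (Ideal.Quotient.mk (Ideal.span {ϖ})) u).1 hū
  refine ⟨n, hu.unit, ?_⟩
  rw [← Ideal.mem_span_singleton, ← Ideal.Quotient.eq_zero_iff_mem, map_sub, map_mul, map_pow,
    IsUnit.unit_spec, hmk, sub_self]

/-- Part (1): `R` is a unique factorisation domain (Kaplansky's criterion and Nakayama). -/
theorem pub_r2_ufd {R : Type} [CommRing R] [IsDomain R] [IsLocalRing R] [IsNoetherianRing R]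
    (ϖ x : R) (h : pub_Reg2 R ϖ x) : UniqueFactorizationMonoid R := by
  classical
  have hrep := pub_r2_rep ϖ x h
  obtain ⟨hmax, hϖ, hx⟩ := h
  have hϖm : ϖ ∈ IsLocalRing.maximalIdeal R := by
    rw [hmax]; exact Ideal.subset_span (by simp)
  have hjac : Ideal.span {ϖ} ≤ Ideal.jacobson (⊥ : Ideal R) := by
    rw [IsLocalRing.jacobson_eq_maximalIdeal ⊥ bot_ne_top, Ideal.span_le,
      Set.singleton_subset_iff]
    exact hϖm
  rw [UniqueFactorizationMonoid.iff_exists_prime_mem_of_isPrime]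
  intro P hP0 hPprime
  by_cases hϖP : ϖ ∈ P
  · exact ⟨ϖ, hϖP, hϖ⟩
  -- an element of `P` divisible by `ϖ` lies in `ϖ P`
  have hdiv : ∀ a ∈ P, ϖ ∣ a → a ∈ Ideal.span {ϖ} • P := by
    rintro a ha ⟨a₁, rfl⟩
    have ha₁ : a₁ ∈ P := (hPprime.mem_or_mem ha).resolve_left hϖP
    rw [smul_eq_mul]
    exact Ideal.mul_mem_mul (Ideal.mem_span_singleton_self ϖ) ha₁
  -- (a), (b): some element of `P` is not divisible by `ϖ`; choose one with minimal exponent
  have hex : ∃ s : ℕ, ∃ f ∈ P, ¬ ϖ ∣ f ∧ ∃ u : Rˣ, ϖ ∣ f - (u : R) * x ^ s := by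
    by_contra hcon
    apply hP0
    refine Submodule.eq_bot_of_le_smul_of_le_jacobson_bot (Ideal.span {ϖ}) P
      (IsNoetherian.noetherian P) ?_ hjac
    intro a ha
    apply hdiv a ha
    by_contra hna
    obtain ⟨s, u, hsu⟩ := hrep a hna
    exact hcon ⟨s, a, ha, hna, u, hsu⟩
  obtain ⟨f, hfP, hf, u, hu⟩ := Nat.find_spec hex
  have hmin := fun m (hm : m < Nat.find hex) => Nat.find_min hex hm
  set s := Nat.find hex
  -- (c)
  have hle : P ≤ Ideal.span {f} ⊔ Ideal.span {ϖ} • P := by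
    intro a ha
    by_cases hna : ϖ ∣ a
    · exact Submodule.mem_sup_right (hdiv a ha hna)
    · obtain ⟨t, u', hu'⟩ := hrep a hna
      have hst : s ≤ t := by
        by_contra hlt
        exact hmin t (by omega) ⟨a, ha, hna, u', hu'⟩
      obtain ⟨d, rfl⟩ := Nat.exists_eq_add_of_le hst
      have hmem : a - f * ((u' : R) * ((u⁻¹ : Rˣ) : R) * x ^ d) ∈ Ideal.span {ϖ} • P := by
        apply hdiv
        · exact P.sub_mem ha (P.mul_mem_right _ hfP)
        · have huu : (u : R) * ((u⁻¹ : Rˣ) : R) = 1 := Units.mul_inv u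
          have heq : a - f * ((u' : R) * ((u⁻¹ : Rˣ) : R) * x ^ d) =
              (a - (u' : R) * x ^ (s + d)) -
                (f - (u : R) * x ^ s) * ((u' : R) * ((u⁻¹ : Rˣ) : R) * x ^ d) := by
            rw [pow_add]
            linear_combination (-(u' : R) * x ^ s * x ^ d) * huu
          rw [heq]
          exact dvd_sub hu' (Dvd.dvd.mul_right hu _)
      have hsplit : a = f * ((u' : R) * ((u⁻¹ : Rˣ) : R) * x ^ d) +
          (a - f * ((u' : R) * ((u⁻¹ : Rˣ) : R) * x ^ d)) := by ring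
      rw [hsplit]
      exact Submodule.add_mem_sup (Ideal.mem_span_singleton.2 (Dvd.intro _ rfl)) hmem
  -- (d)
  have hPf : P ≤ Ideal.span {f} :=
    Submodule.le_of_le_smul_of_le_jacobson_bot (IsNoetherian.noetherian P) hjac hle
  have hPeq : P = Ideal.span {f} :=
    le_antisymm hPf (by rw [Ideal.span_le, Set.singleton_subset_iff]; exact hfP)
  have hf0 : f ≠ 0 := by
    rintro rfl
    exact hf (dvd_zero ϖ)
  exact ⟨f, hfP, (Ideal.span_singleton_prime hf0).1 (hPeq ▸ hPprime)⟩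

/-- (P-R) Structure of a 2-dimensional regular local ring. -/
theorem pub_r2_main : pub_RStatement := by
  intro R _ _ _ _ ϖ x h
  exact ⟨pub_r2_ufd ϖ x h, pub_r2_dvr ϖ x h, pub_r2_rep ϖ x h⟩

end Fermat.Agent.S18
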