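/-
S18 — block Purity (twin B), package P-Red: a finite free algebra `S` with unit discriminant over a
local ring `R` is reduced and von Neumann regular modulo the maximal ideal (`pub_RedStatement`).

Proof.  In coordinates with respect to the basis `e`, membership in `𝔪 S` means that all coordinates
lie in `𝔪`.  If `w ^ 2 ∈ 𝔪 S`, the matrix of multiplication by `w` is nilpotent modulo `𝔪`, hence its
trace lies in `𝔪`.  Applied to `w = b * e j` this shows that `β G` has entries in `𝔪`, where `β` is the
coordinate vector of `b` and `G` the trace matrix; as `det G` is a unit, `β` has entries in `𝔪`: the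
ideal `𝔪 S` is radical.  Finally, by Cayley–Hamilton `z` is a root of a monic polynomial `χ`; if `m`
is the least index of a unit coefficient of `χ`, then `z ^ m * (1 - z * c) ∈ 𝔪 S` for a suitable `c`,
so `(z - z ^ 2 * c) ^ (m + 1) ∈ 𝔪 S` and `z - z ^ 2 * c ∈ 𝔪 S`.
-/
import Fermat.Agent.S18.PUBInterfaces

set_option autoImplicit false

namespace Fermat.Agent.S18

/-- (Step 0) Coordinates with respect to a basis `e` of the `R`-algebra `S`: an element of `S` lies
in the extended ideal `I S` iff all its coordinates lie in `I`. -/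
theorem pub_red_mem_map_iff {R S : Type} [CommRing R] [CommRing S] [Algebra R S] {ι : Type}
    (e : Module.Basis ι R S) (I : Ideal R) (s : S) :
    s ∈ I.map (algebraMap R S) ↔ ∀ i, e.repr s i ∈ I := by
  have h1 : s ∈ I.map (algebraMap R S) ↔ s ∈ I • (⊤ : Submodule R S) := by
    rw [Ideal.smul_top_eq_map]; rfl
  rw [h1, ← e.span_eq, Submodule.mem_ideal_smul_span_iff_exists_sum]
  constructor
  · rintro ⟨a, ha, rfl⟩ i
    have h2 : e.repr (a.sum fun i c => c • e i) = a := e.repr_linearCombination a
    rw [h2]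
    exact ha i
  · intro h
    exact ⟨e.repr s, h, e.linearCombination_repr s⟩

/-- (Step 1) If `w ^ 2 ∈ 𝔪 S` then the trace of `w` lies in `𝔪`. -/
theorem pub_red_trace_mem {R S : Type} [CommRing R] [IsLocalRing R] [CommRing S] [Algebra R S]
    {ι : Type} [Fintype ι] [DecidableEq ι] (e : Module.Basis ι R S) (w : S)
    (hw : w ^ 2 ∈ (IsLocalRing.maximalIdeal R).map (algebraMap R S)) :
    Algebra.trace R S w ∈ IsLocalRing.maximalIdeal R := by
  have hN2 : ∀ i j, ((Algebra.leftMulMatrix e w) ^ 2) i j ∈ IsLocalRing.maximalIdeal R := by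
    intro i j
    have h : (Algebra.leftMulMatrix e w) ^ 2 = Algebra.leftMulMatrix e (w ^ 2) :=
      (map_pow _ _ _).symm
    rw [h, Algebra.leftMulMatrix_eq_repr_mul]
    exact (pub_red_mem_map_iff e _ _).1 (Ideal.mul_mem_right _ _ hw) i
  have hNbar : ((Algebra.leftMulMatrix e w).map
      (Ideal.Quotient.mk (IsLocalRing.maximalIdeal R))) ^ 2 = 0 := by
    have h : ((Algebra.leftMulMatrix e w).map
        (Ideal.Quotient.mk (IsLocalRing.maximalIdeal R))) ^ 2
        = ((Algebra.leftMulMatrix e w) ^ 2).map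
          (Ideal.Quotient.mk (IsLocalRing.maximalIdeal R)) := by
      rw [← RingHom.mapMatrix_apply, ← RingHom.mapMatrix_apply, map_pow]
    rw [h]
    ext i j
    simp only [Matrix.map_apply, Matrix.zero_apply]
    exact Ideal.Quotient.eq_zero_iff_mem.2 (hN2 i j)
  have hnil : IsNilpotent ((Algebra.leftMulMatrix e w).map
      (Ideal.Quotient.mk (IsLocalRing.maximalIdeal R))) := ⟨2, hNbar⟩
  have h0 : Matrix.trace ((Algebra.leftMulMatrix e w).map
      (Ideal.Quotient.mk (IsLocalRing.maximalIdeal R))) = 0 :=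
    (Matrix.isNilpotent_trace_of_isNilpotent hnil).eq_zero
  have h1 : Matrix.trace ((Algebra.leftMulMatrix e w).map
      (Ideal.Quotient.mk (IsLocalRing.maximalIdeal R)))
      = Ideal.Quotient.mk (IsLocalRing.maximalIdeal R)
        (Matrix.trace (Algebra.leftMulMatrix e w)) := by
    simp [Matrix.trace, map_sum]
  rw [Algebra.trace_eq_matrix_trace e w, ← Ideal.Quotient.eq_zero_iff_mem, ← h1, h0]

/-- (Step 2) A finite free algebra `S` with unit discriminant over a local ring `R` is reduced
modulo the maximal ideal of `R`: if `b ^ 2 ∈ 𝔪 S` then `b ∈ 𝔪 S`. -/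
theorem pub_red_sq_mem {R S : Type} [CommRing R] [IsLocalRing R] [CommRing S] [Algebra R S]
    {ι : Type} [Fintype ι] [DecidableEq ι] (e : Module.Basis ι R S)
    (hd : IsUnit (Algebra.discr R e)) (b : S)
    (hb : b ^ 2 ∈ (IsLocalRing.maximalIdeal R).map (algebraMap R S)) :
    b ∈ (IsLocalRing.maximalIdeal R).map (algebraMap R S) := by
  -- the traces `τ j = Tr (b * e j)` lie in `𝔪`
  have hτ : ∀ j, Algebra.trace R S (b * e j) ∈ IsLocalRing.maximalIdeal R := by
    intro j
    apply pub_red_trace_mem e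
    rw [mul_pow]
    exact Ideal.mul_mem_right _ _ hb
  have hG : IsUnit (Algebra.traceMatrix R e).det := hd
  -- `τ = β G` (row vector times matrix)
  have hτ' : (fun j => Algebra.trace R S (b * e j))
      = Matrix.vecMul (fun i => e.repr b i) (Algebra.traceMatrix R e) := by
    funext j
    conv_lhs => rw [← e.sum_repr b]
    rw [Finset.sum_mul, map_sum]
    simp only [Matrix.vecMul, dotProduct]
    refine Finset.sum_congr rfl fun i _ => ?_
    rw [smul_mul_assoc, map_smul, smul_eq_mul, Algebra.traceMatrix_apply, Algebra.traceForm_apply]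
  -- `β = τ G⁻¹`
  have hβ : (fun i => e.repr b i)
      = Matrix.vecMul (fun j => Algebra.trace R S (b * e j)) (Algebra.traceMatrix R e)⁻¹ := by
    rw [hτ', Matrix.vecMul_vecMul, Matrix.mul_nonsing_inv _ hG, Matrix.vecMul_one]
  rw [pub_red_mem_map_iff e]
  intro i
  have hi := congrFun hβ i
  simp only [Matrix.vecMul, dotProduct] at hi
  rw [hi]
  exact Ideal.sum_mem _ fun j _ => Ideal.mul_mem_right _ _ (hτ j)

/-- (Corollary of Step 2) The ideal `𝔪 S` is radical. -/
theorem pub_red_isRadical {R S : Type} [CommRing R] [IsLocalRing R] [CommRing S] [Algebra R S]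
    {ι : Type} [Fintype ι] [DecidableEq ι] (e : Module.Basis ι R S)
    (hd : IsUnit (Algebra.discr R e)) :
    ((IsLocalRing.maximalIdeal R).map (algebraMap R S)).IsRadical :=
  (Ideal.isRadical_iff_pow_one_lt 2 one_lt_two).2 fun b hb => pub_red_sq_mem e hd b hb

/-- (Step 3a, Cayley–Hamilton) Every element of a finite free `R`-algebra is a root of a monic
polynomial with coefficients in `R`. -/
theorem pub_red_exists_monic {R S : Type} [CommRing R] [CommRing S] [Algebra R S]
    {ι : Type} [Fintype ι] [DecidableEq ι] (e : Module.Basis ι R S) (z : S) :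
    ∃ χ : Polynomial R, χ.Monic ∧ Polynomial.aeval z χ = 0 := by
  refine ⟨(Algebra.leftMulMatrix e z).charpoly, Matrix.charpoly_monic _, ?_⟩
  apply Algebra.leftMulMatrix_injective e
  rw [← Polynomial.aeval_algHom_apply, map_zero]
  exact Matrix.aeval_self_charpoly _

/-- (Step 3b) If `z` is a root of a monic polynomial over the local ring `R`, then
`z ^ m * (1 - z * c) ∈ 𝔪 S` for some `m` and `c`. -/
theorem pub_red_pow_mul_mem {R S : Type} [CommRing R] [IsLocalRing R] [CommRing S] [Algebra R S]
    (z : S) (χ : Polynomial R) (hmonic : χ.Monic) (hzero : Polynomial.aeval z χ = 0) :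
    ∃ (m : ℕ) (c : S),
      z ^ m * (1 - z * c) ∈ (IsLocalRing.maximalIdeal R).map (algebraMap R S) := by
  classical
  -- the least index `m` of a coefficient outside `𝔪`
  have hex : ∃ i, χ.coeff i ∉ IsLocalRing.maximalIdeal R := by
    refine ⟨χ.natDegree, ?_⟩
    rw [hmonic.coeff_natDegree]
    exact fun h => (IsLocalRing.maximalIdeal.isMaximal R).ne_top
      ((Ideal.eq_top_iff_one _).2 h)
  have hm : χ.coeff (Nat.find hex) ∉ IsLocalRing.maximalIdeal R := Nat.find_spec hex
  have hlt : ∀ i < Nat.find hex, χ.coeff i ∈ IsLocalRing.maximalIdeal R :=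
    fun i hi => not_not.1 (Nat.find_min hex hi)
  have hmn : Nat.find hex ≤ χ.natDegree := Nat.find_min' hex (by
    rw [hmonic.coeff_natDegree]
    exact fun h => (IsLocalRing.maximalIdeal.isMaximal R).ne_top
      ((Ideal.eq_top_iff_one _).2 h))
  generalize Nat.find hex = m at hm hlt hmn
  have hu : IsUnit (χ.coeff m) := by
    by_contra hnu
    exact hm ((IsLocalRing.mem_maximalIdeal _).2 hnu)
  obtain ⟨v, hv⟩ := hu.exists_left_inv
  -- splitting of the sum
  have hsum := Polynomial.aeval_eq_sum_range (p := χ) z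
  rw [hzero] at hsum
  obtain ⟨k, hk⟩ : ∃ k, χ.natDegree + 1 = m + (k + 1) := ⟨χ.natDegree - m, by omega⟩
  rw [hk, Finset.sum_range_add, Finset.sum_range_succ'] at hsum
  -- the lower part lies in `𝔪 S`
  have hA : ∑ x ∈ Finset.range m, χ.coeff x • z ^ x
      ∈ (IsLocalRing.maximalIdeal R).map (algebraMap R S) := by
    refine Ideal.sum_mem _ fun i hi => ?_
    rw [Algebra.smul_def]
    exact Ideal.mul_mem_right _ _ (Ideal.mem_map_of_mem _ (hlt i (Finset.mem_range.1 hi)))
  -- the upper part is a multiple of `z ^ (m + 1)`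
  have hB : ∑ x ∈ Finset.range k, χ.coeff (m + (x + 1)) • z ^ (m + (x + 1))
      = z ^ (m + 1) * ∑ x ∈ Finset.range k, χ.coeff (m + (x + 1)) • z ^ x := by
    rw [Finset.mul_sum]
    refine Finset.sum_congr rfl fun i _ => ?_
    rw [Algebra.smul_def, Algebra.smul_def]
    ring
  rw [hB, add_zero, Algebra.smul_def] at hsum
  refine ⟨m, -(algebraMap R S v * ∑ x ∈ Finset.range k, χ.coeff (m + (x + 1)) • z ^ x), ?_⟩
  have hv' : algebraMap R S v * algebraMap R S (χ.coeff m) = 1 := by
    rw [← map_mul, hv, map_one]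
  have key : z ^ m * (1 - z * -(algebraMap R S v *
        ∑ x ∈ Finset.range k, χ.coeff (m + (x + 1)) • z ^ x))
      = -(algebraMap R S v * ∑ x ∈ Finset.range m, χ.coeff x • z ^ x) := by
    have h2 : ∑ x ∈ Finset.range m, χ.coeff x • z ^ x
        = -(z ^ (m + 1) * ∑ x ∈ Finset.range k, χ.coeff (m + (x + 1)) • z ^ x
          + algebraMap R S (χ.coeff m) * z ^ m) := by
      rw [eq_neg_iff_add_eq_zero]
      exact hsum.symm
    rw [h2]
    generalize (∑ x ∈ Finset.range k, χ.coeff (m + (x + 1)) • z ^ x) = q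
    linear_combination (-(z ^ m)) * hv'
  rw [key]
  exact neg_mem (Ideal.mul_mem_left _ _ hA)

/-- (P-Red) A finite free algebra `S` with unit discriminant over a local ring `R`: every `z : S`
is of the form `z ^ 2 * c` modulo `𝔪 S`. -/
theorem pub_red_main : pub_RedStatement := by
  intro R S _ _ _ _ r e hd z
  obtain ⟨χ, hmonic, hzero⟩ := pub_red_exists_monic e z
  obtain ⟨m, c, hmc⟩ := pub_red_pow_mul_mem z χ hmonic hzero
  refine ⟨c, pub_red_isRadical e hd ⟨m + 1, ?_⟩⟩
  have h : (z - z ^ 2 * c) ^ (m + 1) = z ^ m * (1 - z * c) * (z * (1 - z * c) ^ m) := by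
    have h0 : z - z ^ 2 * c = z * (1 - z * c) := by ring
    rw [h0, mul_pow]
    ring
  rw [h]
  exact Ideal.mul_mem_right _ _ hmc

end Fermat.Agent.S18
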