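/-
S18 — block Purity (twin B), package P-Red (worker Red2): a finite free algebra `S` with unit
discriminant over a local ring `R` is reduced and von Neumann regular modulo the maximal ideal
(`pub_RedStatement`).

Notation: `𝔪` the maximal ideal of `R`, `𝔪S` its extension to `S`.
* Step 0: membership in `𝔪S` is coordinatewise membership in `𝔪`.
* Step 1: if `w ^ 2 ∈ 𝔪S`, the matrix of multiplication by `w` is nilpotent modulo `𝔪`, so the trace
  of `w` lies in `𝔪`.
* Step 2: if `b ^ 2 ∈ 𝔪S` then all `Tr (b * e j)` lie in `𝔪`; the trace matrix is invertible, so the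
  coordinates of `b` lie in `𝔪`.
* Step 3: Cayley–Hamilton gives a monic polynomial killing `z`; splitting it at its first
  coefficient outside `𝔪` gives `z ^ m * (1 - z * c) ∈ 𝔪S`, and Step 2 finishes.
-/
import Fermat.Agent.S18.PUBInterfaces

set_option autoImplicit false

namespace Fermat.Agent.S18

/-- Step 0 (coordinates): an element of `S` lies in the extended ideal `I S` iff all its
coordinates with respect to the basis `e` lie in `I`. -/
theorem pub_red2_mem_map_iff {R S : Type} [CommRing R] [CommRing S] [Algebra R S] {ι : Type}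
    [Fintype ι] (e : Module.Basis ι R S) (I : Ideal R) (t : S) :
    t ∈ Ideal.map (algebraMap R S) I ↔ ∀ i, e.repr t i ∈ I := by
  constructor
  · intro ht i
    have ht' : t ∈ (I • ⊤ : Submodule R S) := by
      rw [Ideal.smul_top_eq_map]
      exact ht
    refine Submodule.smul_induction_on ht' ?_ ?_
    · intro a ha s _
      rw [map_smul, Finsupp.smul_apply, smul_eq_mul]
      exact I.mul_mem_right _ ha
    · intro x y hx hy
      rw [map_add, Finsupp.add_apply]
      exact I.add_mem hx hy
  · intro h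
    rw [← e.sum_repr t]
    refine Ideal.sum_mem _ fun i _ => ?_
    rw [Algebra.smul_def]
    exact Ideal.mul_mem_right _ _ (Ideal.mem_map_of_mem _ (h i))

/-- Step 1 (trace): if `w ^ 2 ∈ 𝔪S` then the trace of `w` lies in `𝔪`. -/
theorem pub_red2_trace_mem {R S : Type} [CommRing R] [IsLocalRing R] [CommRing S] [Algebra R S]
    {r : ℕ} (e : Module.Basis (Fin r) R S) (w : S)
    (hw : w ^ 2 ∈ Ideal.map (algebraMap R S) (IsLocalRing.maximalIdeal R)) :
    Algebra.trace R S w ∈ IsLocalRing.maximalIdeal R := by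
  have hsq : (Algebra.leftMulMatrix e w) ^ 2 = Algebra.leftMulMatrix e (w ^ 2) :=
    (map_pow _ _ _).symm
  have hentries : ∀ i j, ((Algebra.leftMulMatrix e w) ^ 2) i j ∈ IsLocalRing.maximalIdeal R := by
    intro i j
    rw [hsq, Algebra.leftMulMatrix_eq_repr_mul]
    exact (pub_red2_mem_map_iff e _ _).1 (Ideal.mul_mem_right _ _ hw) i
  have hmap : ((IsLocalRing.residue R).mapMatrix (Algebra.leftMulMatrix e w)) ^ 2 = 0 := by
    rw [← map_pow]
    ext i j
    rw [RingHom.mapMatrix_apply, Matrix.map_apply, Matrix.zero_apply]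
    exact (IsLocalRing.residue_eq_zero_iff _).2 (hentries i j)
  have htr0 : Matrix.trace ((IsLocalRing.residue R).mapMatrix (Algebra.leftMulMatrix e w)) = 0 :=
    (Matrix.isNilpotent_trace_of_isNilpotent ⟨2, hmap⟩).eq_zero
  have htr : Matrix.trace ((IsLocalRing.residue R).mapMatrix (Algebra.leftMulMatrix e w))
      = IsLocalRing.residue R (Matrix.trace (Algebra.leftMulMatrix e w)) := by
    simp [Matrix.trace, map_sum]
  rw [Algebra.trace_eq_matrix_trace e w, ← IsLocalRing.residue_eq_zero_iff, ← htr, htr0]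

/-- Step 2 (reduced): if `b ^ 2 ∈ 𝔪S` then `b ∈ 𝔪S`. -/
theorem pub_red2_sq_mem {R S : Type} [CommRing R] [IsLocalRing R] [CommRing S] [Algebra R S]
    {r : ℕ} (e : Module.Basis (Fin r) R S) (hd : IsUnit (Algebra.discr R e)) (b : S)
    (hb : b ^ 2 ∈ Ideal.map (algebraMap R S) (IsLocalRing.maximalIdeal R)) :
    b ∈ Ideal.map (algebraMap R S) (IsLocalRing.maximalIdeal R) := by
  have hτ : ∀ j, Algebra.trace R S (b * e j) ∈ IsLocalRing.maximalIdeal R := by
    intro j
    refine pub_red2_trace_mem e _ ?_
    rw [mul_pow]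
    exact Ideal.mul_mem_right _ _ hb
  have hdet : IsUnit (Algebra.traceMatrix R e).det := by
    rw [← Algebra.discr_def]
    exact hd
  have hvec : (fun j => Algebra.trace R S (b * e j))
      = Matrix.vecMul (fun i => e.repr b i) (Algebra.traceMatrix R e) := by
    funext j
    have hbj : b * e j = ∑ i, e.repr b i • (e i * e j) := by
      conv_lhs => rw [← e.sum_repr b]
      rw [Finset.sum_mul]
      exact Finset.sum_congr rfl fun i _ => smul_mul_assoc _ _ _
    rw [hbj, map_sum]
    simp only [Matrix.vecMul, dotProduct]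
    refine Finset.sum_congr rfl fun i _ => ?_
    rw [map_smul, smul_eq_mul, Algebra.traceMatrix_apply, Algebra.traceForm_apply]
  have hrepr : (fun i => e.repr b i)
      = Matrix.vecMul (fun j => Algebra.trace R S (b * e j)) (Algebra.traceMatrix R e)⁻¹ := by
    rw [hvec, Matrix.vecMul_vecMul, Matrix.mul_nonsing_inv _ hdet, Matrix.vecMul_one]
  rw [pub_red2_mem_map_iff e]
  intro i
  have hi : e.repr b i
      = ∑ j, Algebra.trace R S (b * e j) * (Algebra.traceMatrix R e)⁻¹ j i := congrFun hrepr i
  rw [hi]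
  exact Ideal.sum_mem _ fun j _ => Ideal.mul_mem_right _ _ (hτ j)

/-- Corollary of Step 2: if `w ^ (2 ^ k) ∈ 𝔪S` then `w ∈ 𝔪S`. -/
theorem pub_red2_two_pow_mem {R S : Type} [CommRing R] [IsLocalRing R] [CommRing S] [Algebra R S]
    {r : ℕ} (e : Module.Basis (Fin r) R S) (hd : IsUnit (Algebra.discr R e)) (k : ℕ) (w : S)
    (hw : w ^ (2 ^ k) ∈ Ideal.map (algebraMap R S) (IsLocalRing.maximalIdeal R)) :
    w ∈ Ideal.map (algebraMap R S) (IsLocalRing.maximalIdeal R) := by
  induction k with
  | zero => simpa using hw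
  | succ k ih =>
    refine ih (pub_red2_sq_mem e hd _ ?_)
    rw [← pow_mul, ← pow_succ]
    exact hw

/-- Corollary of Step 2: `𝔪S` is a radical ideal: if `w ^ n ∈ 𝔪S` then `w ∈ 𝔪S`. -/
theorem pub_red2_pow_mem {R S : Type} [CommRing R] [IsLocalRing R] [CommRing S] [Algebra R S]
    {r : ℕ} (e : Module.Basis (Fin r) R S) (hd : IsUnit (Algebra.discr R e)) (n : ℕ) (w : S)
    (hw : w ^ n ∈ Ideal.map (algebraMap R S) (IsLocalRing.maximalIdeal R)) :
    w ∈ Ideal.map (algebraMap R S) (IsLocalRing.maximalIdeal R) := by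
  refine pub_red2_two_pow_mem e hd n w ?_
  have hn : n ≤ 2 ^ n := Nat.lt_two_pow_self.le
  have hsplit : w ^ (2 ^ n) = w ^ n * w ^ (2 ^ n - n) := by
    rw [← pow_add, Nat.add_sub_cancel' hn]
  rw [hsplit]
  exact Ideal.mul_mem_right _ _ hw

/-- Splitting a polynomial at the index `m`: if the coefficients of `p` of index `< m` lie in `I`,
then `p(z) ≡ z ^ m * (p_m + z * q)` modulo `I S` for some `q : S`. -/
theorem pub_red2_aeval_split {R S : Type} [CommRing R] [CommRing S] [Algebra R S] (I : Ideal R)
    (z : S) (m : ℕ) :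
    ∀ p : Polynomial R, (∀ i, i < m → p.coeff i ∈ I) →
      ∃ q : S, Polynomial.aeval z p - z ^ m * (algebraMap R S (p.coeff m) + z * q)
        ∈ Ideal.map (algebraMap R S) I := by
  induction m with
  | zero =>
    intro p _
    refine ⟨Polynomial.aeval z p.divX, ?_⟩
    have h : Polynomial.aeval z p
        = Polynomial.aeval z p.divX * z + algebraMap R S (p.coeff 0) := by
      conv_lhs => rw [← Polynomial.divX_mul_X_add p]
      simp
    have h0 : Polynomial.aeval z p
        - z ^ 0 * (algebraMap R S (p.coeff 0) + z * Polynomial.aeval z p.divX) = 0 := by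
      rw [h]; ring
    rw [h0]
    exact Ideal.zero_mem _
  | succ m ih =>
    intro p hp
    obtain ⟨q, hq⟩ := ih p.divX (fun i hi => by
      rw [Polynomial.coeff_divX]
      exact hp (i + 1) (Nat.succ_lt_succ hi))
    refine ⟨q, ?_⟩
    have h : Polynomial.aeval z p
        = Polynomial.aeval z p.divX * z + algebraMap R S (p.coeff 0) := by
      conv_lhs => rw [← Polynomial.divX_mul_X_add p]
      simp
    have hc : p.divX.coeff m = p.coeff (m + 1) := Polynomial.coeff_divX
    have h1 : Polynomial.aeval z p - z ^ (m + 1) * (algebraMap R S (p.coeff (m + 1)) + z * q)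
        = (Polynomial.aeval z p.divX - z ^ m * (algebraMap R S (p.divX.coeff m) + z * q)) * z
          + algebraMap R S (p.coeff 0) := by
      rw [h, hc]; ring
    rw [h1]
    exact Ideal.add_mem _ (Ideal.mul_mem_right _ _ hq)
      (Ideal.mem_map_of_mem _ (hp 0 (Nat.succ_pos m)))

/-- Cayley–Hamilton for the algebra `S`: `z` is a root of the characteristic polynomial of the
matrix of multiplication by `z`. -/
theorem pub_red2_aeval_charpoly {R S : Type} [CommRing R] [CommRing S] [Algebra R S]
    {r : ℕ} (e : Module.Basis (Fin r) R S) (z : S) :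
    Polynomial.aeval z (Algebra.leftMulMatrix e z).charpoly = 0 := by
  apply Algebra.leftMulMatrix_injective e
  rw [← Polynomial.aeval_algHom_apply, Matrix.aeval_self_charpoly, map_zero]

/-- Step 3 (von Neumann regularity), first half: `z ^ m * (1 - z * c) ∈ 𝔪S` for some `m`, `c`. -/
theorem pub_red2_exists_pow_mul {R S : Type} [CommRing R] [IsLocalRing R] [CommRing S]
    [Algebra R S] {r : ℕ} (e : Module.Basis (Fin r) R S) (z : S) :
    ∃ (m : ℕ) (c : S),
      z ^ m * (1 - z * c) ∈ Ideal.map (algebraMap R S) (IsLocalRing.maximalIdeal R) := by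
  classical
  have hex : ∃ i, (Algebra.leftMulMatrix e z).charpoly.coeff i ∉ IsLocalRing.maximalIdeal R := by
    refine ⟨(Algebra.leftMulMatrix e z).charpoly.natDegree, ?_⟩
    have hmonic : (Algebra.leftMulMatrix e z).charpoly.Monic := Matrix.charpoly_monic _
    rw [Polynomial.coeff_natDegree, hmonic.leadingCoeff]
    exact fun h => (Ideal.ne_top_iff_one _).1 (IsLocalRing.maximalIdeal.isMaximal R).ne_top h
  have hlt : ∀ i, i < Nat.find hex →
      (Algebra.leftMulMatrix e z).charpoly.coeff i ∈ IsLocalRing.maximalIdeal R :=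
    fun i hi => not_not.1 (Nat.find_min hex hi)
  have hunit : IsUnit ((Algebra.leftMulMatrix e z).charpoly.coeff (Nat.find hex)) :=
    IsLocalRing.notMem_maximalIdeal.1 (Nat.find_spec hex)
  obtain ⟨q, hq⟩ := pub_red2_aeval_split (IsLocalRing.maximalIdeal R) z (Nat.find hex)
    (Algebra.leftMulMatrix e z).charpoly hlt
  obtain ⟨v, hv⟩ := hunit.exists_right_inv
  refine ⟨Nat.find hex, -(algebraMap R S v * q), ?_⟩
  rw [pub_red2_aeval_charpoly e z, zero_sub] at hq
  have hval : z ^ Nat.find hex * (1 - z * -(algebraMap R S v * q))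
      = -(algebraMap R S v) * -(z ^ Nat.find hex * (algebraMap R S
          ((Algebra.leftMulMatrix e z).charpoly.coeff (Nat.find hex)) + z * q)) := by
    have h1 : algebraMap R S v
        * algebraMap R S ((Algebra.leftMulMatrix e z).charpoly.coeff (Nat.find hex)) = 1 := by
      rw [← map_mul, mul_comm, hv, map_one]
    linear_combination (-(z ^ Nat.find hex)) * h1
  rw [hval]
  exact Ideal.mul_mem_left _ _ hq

/-- (P-Red) A finite free algebra `S` with unit discriminant over a local ring `R` is von Neumann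
regular modulo the maximal ideal of `R`: every `z` is `z ^ 2 * c` modulo `𝔪S`. -/
theorem pub_red2_main : pub_RedStatement := by
  intro R S _ _ _ _ r e hd z
  obtain ⟨m, c, hmc⟩ := pub_red2_exists_pow_mul e z
  refine ⟨c, pub_red2_pow_mem e hd (m + 1) _ ?_⟩
  have h : (z - z ^ 2 * c) ^ (m + 1) = z ^ m * (1 - z * c) * (z * (1 - z * c) ^ m) := by
    have hz : z - z ^ 2 * c = z * (1 - z * c) := by ring
    rw [hz, mul_pow, pow_succ, pow_succ]
    ring
  rw [h]
  exact Ideal.mul_mem_right _ _ hmc

end Fermat.Agent.S18
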