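/-
S18 — block Purity (twin B): the toolkit statements `pub_LocStatement`, `pub_CritStatement`
from the landed LocSub toolkit.
-/
import Fermat.Agent.S18.PUBInterfaces
import Fermat.Agent.S18.LocSubB

set_option autoImplicit false

namespace Fermat.Agent.S18

theorem pub_loc_main : pub_LocStatement := fun _ _ A P _ =>
  ⟨locSubB_isLocalRing A P, fun y => locSubB_mem_maximalIdeal_iff A P y,
    fun _ => locSubB_isNoetherianRing A P⟩

theorem pub_crit_main : pub_CritStatement := fun _ _ _ _ ϖ x h1 h2 => locSubB_crit ϖ x h1 h2

end Fermat.Agent.S18
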