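/-
S18 — block Purity (twin B), package P-U: hypothesis (U) of `PurityStatement` passes to the prime
elements of `R = locSub Λ 𝔫`.  Prefix `pub_u_`.
-/
import Fermat.Agent.S18.PUBInterfaces
import Fermat.Agent.S18.LocSubB
import Fermat.Agent.S18.PUBA

set_option autoImplicit false

namespace Fermat.Agent.S18

/-- Integrality over `A` implies integrality over `locSub A P ⊇ A`. -/
theorem pub_u_isIntegral {E : Type} [Field E] (A : Subring E) (P : Ideal ↥A) [P.IsPrime] (z : E)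
    (hz : IsIntegral ↥A z) : IsIntegral ↥(locSub A P) z := by
  obtain ⟨q, hq, hq0⟩ := hz
  refine ⟨q.map (Subring.inclusion (le_locSub A P)), hq.map _, ?_⟩
  rw [Polynomial.eval₂_map]
  exact hq0

/-- The contraction to `A` of the ideal generated by a prime element `p` of `locSub A P`:
membership. -/
theorem pub_u_mem_comap {E : Type} [Field E] (A : Subring E) (P : Ideal ↥A) [P.IsPrime]
    (p : ↥(locSub A P)) (a : ↥A) :
    a ∈ Ideal.comap (Subring.inclusion (le_locSub A P)) (Ideal.span {p}) ↔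
      p ∣ Subring.inclusion (le_locSub A P) a := by
  rw [Ideal.mem_comap, Ideal.mem_span_singleton]

/-- The contraction of `(p)` is nonzero, for `p ≠ 0`. -/
theorem pub_u_comap_ne_bot {E : Type} [Field E] (A : Subring E) (P : Ideal ↥A) [P.IsPrime]
    (p : ↥(locSub A P)) (hp0 : p ≠ 0) :
    Ideal.comap (Subring.inclusion (le_locSub A P)) (Ideal.span {p}) ≠ ⊥ := by
  obtain ⟨a, s, hs, h⟩ := p.2
  intro hbot
  have ha : a ∈ Ideal.comap (Subring.inclusion (le_locSub A P)) (Ideal.span {p}) := by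
    rw [pub_u_mem_comap]
    exact ⟨Subring.inclusion (le_locSub A P) s, Subtype.ext h.symm⟩
  rw [hbot, Ideal.mem_bot] at ha
  have hs0 : (s : E) ≠ 0 := pub_a_coe_ne_zero A P s hs
  have hpE : (p : E) = 0 := by
    have h2 : (p : E) * (s : E) = 0 := by rw [h, ha]; rfl
    exact (mul_eq_zero.1 h2).resolve_right hs0
  exact hp0 (Subtype.ext hpE)

/-- The contraction of `(p)` is contained in `P`, for a non-unit `p`. -/
theorem pub_u_comap_le {E : Type} [Field E] (A : Subring E) (P : Ideal ↥A) [P.IsPrime]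
    (p : ↥(locSub A P)) (hpu : ¬ IsUnit p) :
    Ideal.comap (Subring.inclusion (le_locSub A P)) (Ideal.span {p}) ≤ P := by
  intro a ha
  rw [pub_u_mem_comap] at ha
  by_contra haP
  apply hpu
  refine isUnit_of_dvd_unit ha ?_
  rw [locSubB_isUnit_iff]
  exact ⟨a, 1, haP, pub_a_one_not_mem A P, by simp⟩

/-- (P-U) -/
theorem pub_u_main : pub_UStatement := by
  intro E _ Λ K₁ hΛK hnoeth 𝔫 _ ϖ x hϖ0 hϖprime hxϖ h𝔫 hU p hp
  obtain ⟨hloc, hnoeR, hreg⟩ := pub_a_main E Λ hnoeth 𝔫 ϖ x hϖ0 hϖprime hxϖ h𝔫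
  have hspanprime : (Ideal.span {p} : Ideal ↥(locSub Λ 𝔫)).IsPrime :=
    (Ideal.span_singleton_prime hp.ne_zero).2 hp
  have h𝔭prime : (Ideal.comap (Subring.inclusion (le_locSub Λ 𝔫)) (Ideal.span {p})).IsPrime :=
    Ideal.comap_isPrime _ _
  have h𝔭bot : Ideal.comap (Subring.inclusion (le_locSub Λ 𝔫)) (Ideal.span {p}) ≠ ⊥ :=
    pub_u_comap_ne_bot Λ 𝔫 p hp.ne_zero
  have h𝔭le : Ideal.comap (Subring.inclusion (le_locSub Λ 𝔫)) (Ideal.span {p}) ≤ 𝔫 :=
    pub_u_comap_le Λ 𝔫 p hp.not_isUnit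
  have h𝔭ne : Ideal.comap (Subring.inclusion (le_locSub Λ 𝔫)) (Ideal.span {p}) ≠ 𝔫 := by
    intro heq
    have hϖ𝔭 : ϖ ∈ Ideal.comap (Subring.inclusion (le_locSub Λ 𝔫)) (Ideal.span {p}) := by
      rw [heq, h𝔫]; exact Ideal.subset_span (by simp)
    have hx𝔭 : x ∈ Ideal.comap (Subring.inclusion (le_locSub Λ 𝔫)) (Ideal.span {p}) := by
      rw [heq, h𝔫]; exact Ideal.subset_span (by simp)
    rw [Ideal.mem_comap] at hϖ𝔭 hx𝔭
    apply pub_reg2_span_ne hreg p hp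
    apply le_antisymm
    · rw [Ideal.span_le, Set.singleton_subset_iff, SetLike.mem_coe, IsLocalRing.mem_maximalIdeal,
        mem_nonunits_iff]
      exact hp.not_isUnit
    · rw [hreg.1, Ideal.span_le]
      rintro z (rfl | rfl)
      · exact hϖ𝔭
      · exact hx𝔭
  obtain ⟨r, c, hli, hspan, hint, a, s, ha, hs, hdisc⟩ :=
    hU _ h𝔭prime h𝔭bot (lt_of_le_of_ne h𝔭le h𝔭ne)
  refine ⟨r, c, hli, hspan, ?_, Subring.inclusion (le_locSub Λ 𝔫) a,
    Subring.inclusion (le_locSub Λ 𝔫) s, fun h => ha ((pub_u_mem_comap Λ 𝔫 p a).2 h),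
    fun h => hs ((pub_u_mem_comap Λ 𝔫 p s).2 h), hdisc⟩
  intro i
  obtain ⟨t, ht, hti⟩ := hint i
  exact ⟨Subring.inclusion (le_locSub Λ 𝔫) t, fun h => ht ((pub_u_mem_comap Λ 𝔫 p t).2 h),
    pub_u_isIntegral Λ 𝔫 _ hti⟩

end Fermat.Agent.S18
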