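/-
S18 — block Purity (twin B), package P-U (twin): hypothesis (U) of `PurityStatement` passes to the
prime elements of `R = locSub Λ 𝔫`.  Prefix `pub_u2_`.
-/
import Fermat.Agent.S18.PUBInterfaces
import Fermat.Agent.S18.LocSubB

set_option autoImplicit false

namespace Fermat.Agent.S18

/-- (P-U) Hypothesis (U) of `PurityStatement` gives unramifiedness at every prime element of
`R = locSub Λ 𝔫`. -/
theorem pub_u2_main : pub_AStatement → pub_UStatement := by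
  intro hA E _ Λ K₁ hΛK hnoeth 𝔫 _ ϖ x hϖ0 hϖprime hxϖ h𝔫 hU p hp
  obtain ⟨hloc, hnoethR, hreg⟩ := hA E Λ hnoeth 𝔫 ϖ x hϖ0 hϖprime hxϖ h𝔫
  have h𝔫prime : 𝔫.IsPrime := inferInstance
  have hone : (1 : ↥Λ) ∉ 𝔫 := fun h => h𝔫prime.ne_top ((Ideal.eq_top_iff_one 𝔫).2 h)
  have hmem𝔭 : ∀ a : ↥Λ, a ∈ Ideal.comap (Subring.inclusion (le_locSub Λ 𝔫)) (Ideal.span {p}) ↔
      p ∣ Subring.inclusion (le_locSub Λ 𝔫) a := fun a => by
    rw [Ideal.mem_comap, Ideal.mem_span_singleton]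
  have hspanprime : (Ideal.span {p} : Ideal ↥(locSub Λ 𝔫)).IsPrime :=
    (Ideal.span_singleton_prime hp.ne_zero).2 hp
  have h𝔭prime : (Ideal.comap (Subring.inclusion (le_locSub Λ 𝔫)) (Ideal.span {p})).IsPrime :=
    Ideal.comap_isPrime _ _
  have h𝔭bot : Ideal.comap (Subring.inclusion (le_locSub Λ 𝔫)) (Ideal.span {p}) ≠ ⊥ := by
    obtain ⟨a, s, hs, h⟩ := p.2
    intro hbot
    have ha : a ∈ Ideal.comap (Subring.inclusion (le_locSub Λ 𝔫)) (Ideal.span {p}) := by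
      rw [hmem𝔭]
      exact ⟨Subring.inclusion (le_locSub Λ 𝔫) s, Subtype.ext h.symm⟩
    rw [hbot, Ideal.mem_bot] at ha
    rw [ha] at h
    have hs0 : s ≠ 0 := fun h0 => hs (h0 ▸ 𝔫.zero_mem)
    have hs0' : (s : E) ≠ 0 := fun h0 => hs0 (Subtype.ext h0)
    have hp0 : (p : E) = 0 := by
      rcases mul_eq_zero.1 h with h1 | h1
      · exact h1
      · exact absurd h1 hs0'
    exact hp.ne_zero (Subtype.ext hp0)
  have h𝔭le : Ideal.comap (Subring.inclusion (le_locSub Λ 𝔫)) (Ideal.span {p}) ≤ 𝔫 := by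
    intro a ha
    rw [hmem𝔭] at ha
    have hnu : ¬ IsUnit (Subring.inclusion (le_locSub Λ 𝔫) a) :=
      fun hu => hp.not_isUnit (isUnit_of_dvd_unit ha hu)
    by_contra han
    apply hnu
    rw [locSubB_isUnit_iff]
    exact ⟨a, 1, han, hone, by simp⟩
  have h𝔭ne : Ideal.comap (Subring.inclusion (le_locSub Λ 𝔫)) (Ideal.span {p}) ≠ 𝔫 := by
    intro heq
    have hϖ𝔭 : ϖ ∈ Ideal.comap (Subring.inclusion (le_locSub Λ 𝔫)) (Ideal.span {p}) := by
      rw [heq, h𝔫]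
      exact Ideal.subset_span (by simp)
    have hx𝔭 : x ∈ Ideal.comap (Subring.inclusion (le_locSub Λ 𝔫)) (Ideal.span {p}) := by
      rw [heq, h𝔫]
      exact Ideal.subset_span (by simp)
    rw [hmem𝔭] at hϖ𝔭 hx𝔭
    apply pub_reg2_span_ne hreg p hp
    apply le_antisymm
    · rw [Ideal.span_le, Set.singleton_subset_iff, SetLike.mem_coe, IsLocalRing.mem_maximalIdeal,
        mem_nonunits_iff]
      exact hp.not_isUnit
    · rw [hreg.1, Ideal.span_le]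
      rintro z (rfl | rfl)
      · exact Ideal.mem_span_singleton.2 hϖ𝔭
      · exact Ideal.mem_span_singleton.2 hx𝔭
  obtain ⟨r, c, hli, hspan, hint, a, s, ha, hs, hdisc⟩ :=
    hU _ h𝔭prime h𝔭bot (lt_of_le_of_ne h𝔭le h𝔭ne)
  refine ⟨r, c, hli, hspan, ?_, Subring.inclusion (le_locSub Λ 𝔫) a,
    Subring.inclusion (le_locSub Λ 𝔫) s, fun h => ha ((hmem𝔭 a).2 h),
    fun h => hs ((hmem𝔭 s).2 h), hdisc⟩
  intro i
  obtain ⟨t, ht, hti⟩ := hint i
  refine ⟨Subring.inclusion (le_locSub Λ 𝔫) t, fun h => ht ((hmem𝔭 t).2 h), ?_⟩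
  obtain ⟨q, hq, hq0⟩ := hti
  refine ⟨q.map (Subring.inclusion (le_locSub Λ 𝔫)), hq.map _, ?_⟩
  rw [Polynomial.eval₂_map]
  exact hq0

end Fermat.Agent.S18
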