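/-
S18 — block "Quotient lemma" (P3), twin A: INTERNAL INTERFACE FILE (definitions and statement-`Prop`s).

Setting: `E / F₀` finite Galois with group `G = (E ≃ₐ[F₀] E)`, `B ⊆ E` a `G`-stable subring, integrally
closed in `E`, with fraction field `E`; `C := B.comap (algebraMap F₀ E) ⊆ F₀` (`= B ∩ F₀`), `n` a maximal
ideal of `C`, `ϖ ∈ n`.  Objects:
* `qa_incl B : C →+* B` the inclusion;
* `locSub C n ⊆ F₀` (`= C_n`, SInterfaces) and `qa_Bn B n ⊆ E` (`= B_n`, the `x` with `x * s ∈ B` for some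
  `s ∈ C ∖ n`);
* for a maximal ideal `M` of `B` over `n`: `locSub B M ⊆ E` (`= O`, the local ring of `B` at `M`);
* `qa_IsParam F₀ B M ϖ x`: `x ∈ M` generates `M O` modulo `ϖ`, `x` lies in no conjugate `σ⁻¹ M ≠ M`, and
  `ϖ O` is a prime ideal of `O` different from `M O`.

Plan (all packages are independent, they communicate through the statements below):
  Gal   : norms of elements of `B` lie in `C`; `B` is integral over `C`.
  Res   : `B = C + M` (the residue field of `M` is `C / n`).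
  Param : from `IsDVRQuot O ϖ` construct `x` with `qa_IsParam`.
  Gen   : `B_n = C_n + (ϖ, x) B_n` and `n C_n ⊆ (ϖ, x) B_n`.
  Nil   : `N(x) ^ m ∉ ϖ C_n`.
  Fin   : `B_n` is a finite `C_n`-module containing `[E : F₀]` linearly independent elements.
  Core  : (abstract) length count + Nakayama: `𝔪 = (ϖ, N(x))` in `C_n`.
  Crit / Loc : toolkit facts (DVR criterion; `locSub` is local, noetherian).
-/
import Fermat.Agent.S18.SInterfaces

set_option autoImplicit false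

namespace Fermat.Agent.S18

noncomputable section

section QA

variable {F₀ E : Type} [Field F₀] [Field E] [Algebra F₀ E]

/-- The inclusion `C = B ∩ F₀ → B`. -/
def qa_incl (B : Subring E) : ↥(B.comap (algebraMap F₀ E)) →+* ↥B :=
  ((algebraMap F₀ E).comp (B.comap (algebraMap F₀ E)).subtype).codRestrict B (fun c => c.2)

@[simp] theorem qa_incl_coe (B : Subring E) (c : ↥(B.comap (algebraMap F₀ E))) :
    ((qa_incl B c : ↥B) : E) = algebraMap F₀ E (c : F₀) := rfl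

/-- `B_n ⊆ E`: the `x` with `x * s ∈ B` for some `s ∈ C ∖ n`. -/
def qa_Bn (B : Subring E) (n : Ideal ↥(B.comap (algebraMap F₀ E))) [hn : n.IsPrime] : Subring E where
  carrier := {x | ∃ s : ↥(B.comap (algebraMap F₀ E)), s ∉ n ∧ x * algebraMap F₀ E (s : F₀) ∈ B}
  mul_mem' := by
    rintro x y ⟨s, hs, h⟩ ⟨s', hs', h'⟩
    refine ⟨s * s', fun hmem => (hn.mem_or_mem hmem).elim hs hs', ?_⟩
    have := B.mul_mem h h'
    have e : x * y * algebraMap F₀ E ((s * s' : ↥(B.comap (algebraMap F₀ E))) : F₀) =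
        x * algebraMap F₀ E (s : F₀) * (y * algebraMap F₀ E (s' : F₀)) := by
      rw [Subring.coe_mul, map_mul]; ring
    rw [e]; exact this
  one_mem' := ⟨1, fun h => hn.ne_top ((Ideal.eq_top_iff_one n).2 h), by simp⟩
  add_mem' := by
    rintro x y ⟨s, hs, h⟩ ⟨s', hs', h'⟩
    refine ⟨s * s', fun hmem => (hn.mem_or_mem hmem).elim hs hs', ?_⟩
    have := B.add_mem (B.mul_mem h s'.2) (B.mul_mem h' s.2)
    have e : (x + y) * algebraMap F₀ E ((s * s' : ↥(B.comap (algebraMap F₀ E))) : F₀) =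
        x * algebraMap F₀ E (s : F₀) * algebraMap F₀ E (s' : F₀) +
          y * algebraMap F₀ E (s' : F₀) * algebraMap F₀ E (s : F₀) := by
      rw [Subring.coe_mul, map_mul]; ring
    rw [e]; exact this
  zero_mem' := ⟨1, fun h => hn.ne_top ((Ideal.eq_top_iff_one n).2 h), by simp⟩
  neg_mem' := by
    rintro x ⟨s, hs, h⟩
    refine ⟨s, hs, ?_⟩
    rw [neg_mul]; exact B.neg_mem h

theorem qa_mem_Bn_iff (B : Subring E) (n : Ideal ↥(B.comap (algebraMap F₀ E))) [n.IsPrime] (x : E) :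
    x ∈ qa_Bn B n ↔
      ∃ s : ↥(B.comap (algebraMap F₀ E)), s ∉ n ∧ x * algebraMap F₀ E (s : F₀) ∈ B := Iff.rfl

theorem qa_le_Bn (B : Subring E) (n : Ideal ↥(B.comap (algebraMap F₀ E))) [hn : n.IsPrime] :
    B ≤ qa_Bn B n := fun x hx =>
  ⟨1, fun h => hn.ne_top ((Ideal.eq_top_iff_one n).2 h), by simpa using hx⟩

theorem qa_map_mem_Bn (B : Subring E) (n : Ideal ↥(B.comap (algebraMap F₀ E))) [n.IsPrime]
    (c : F₀) (hc : c ∈ locSub (B.comap (algebraMap F₀ E)) n) : algebraMap F₀ E c ∈ qa_Bn B n := by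
  obtain ⟨a, s, hs, h⟩ := hc
  exact ⟨s, hs, by rw [← map_mul, h]; exact a.2⟩

/-- The inclusion `C_n → B_n`. -/
def qa_inclN (B : Subring E) (n : Ideal ↥(B.comap (algebraMap F₀ E))) [n.IsPrime] :
    ↥(locSub (B.comap (algebraMap F₀ E)) n) →+* ↥(qa_Bn B n) :=
  ((algebraMap F₀ E).comp (locSub (B.comap (algebraMap F₀ E)) n).subtype).codRestrict (qa_Bn B n)
    (fun c => qa_map_mem_Bn B n c c.2)

@[simp] theorem qa_inclN_coe (B : Subring E) (n : Ideal ↥(B.comap (algebraMap F₀ E))) [n.IsPrime]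
    (c : ↥(locSub (B.comap (algebraMap F₀ E)) n)) :
    ((qa_inclN B n c : ↥(qa_Bn B n)) : E) = algebraMap F₀ E (c : F₀) := rfl

variable (F₀) in
/-- `x` is a good parameter at the maximal ideal `M` of `B` (with local ring `O = locSub B M ⊆ E`):
`x ∈ M`; `M ⊆ ϖ O + x O`; if `σ x ∈ M` then `σ⁻¹ M = M` (elementwise: `σ z ∈ M ↔ z ∈ M`);
`ϖ O` is a prime ideal of `O`; `M ⊄ ϖ O`. -/
structure qa_IsParam (B : Subring E) (M : Ideal ↥B) [M.IsPrime] (ϖ x : ↥B) : Prop where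
  mem : x ∈ M
  gen : ∀ y ∈ M, ∃ u ∈ locSub B M, ∃ w ∈ locSub B M, (y : E) = (ϖ : E) * u + (x : E) * w
  conj : ∀ (σ : E ≃ₐ[F₀] E) (y : ↥B), (y : E) = σ (x : E) → y ∈ M →
    ∀ z z' : ↥B, (z' : E) = σ (z : E) → (z' ∈ M ↔ z ∈ M)
  prime : ∀ u ∈ locSub B M, ∀ w ∈ locSub B M, (∃ t ∈ locSub B M, u * w = (ϖ : E) * t) →
    (∃ t ∈ locSub B M, u = (ϖ : E) * t) ∨ (∃ t ∈ locSub B M, w = (ϖ : E) * t)
  notfield : ∃ y ∈ M, ¬ ∃ t ∈ locSub B M, (y : E) = (ϖ : E) * t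

end QA

/-! ## Package statements -/

/-- (Gal) Norms of elements of `B` lie in `C`, and `B` is integral over `C`
(the coefficients of `∏_σ (X - σ b)` are `G`-invariant elements of `B`). -/
def qa_GalStatement : Prop :=
  ∀ (F₀ E : Type) [Field F₀] [Field E] [Algebra F₀ E] [FiniteDimensional F₀ E] [IsGalois F₀ E]
    (B : Subring E), (∀ (σ : E ≃ₐ[F₀] E), ∀ x ∈ B, σ x ∈ B) →
    (∀ b : ↥B, ∃ c : ↥(B.comap (algebraMap F₀ E)),
      algebraMap F₀ E (c : F₀) = ∏ σ : E ≃ₐ[F₀] E, σ (b : E)) ∧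
    (qa_incl (F₀ := F₀) B).IsIntegral

/-- (Res) If `B` is integral over `C`, every monic non-constant polynomial over `C` has a root modulo
`n`, and `M` is a prime ideal of `B` containing `n`, then `B = C + M`. -/
def qa_ResStatement : Prop :=
  ∀ (F₀ E : Type) [Field F₀] [Field E] [Algebra F₀ E] (B : Subring E), (qa_incl (F₀ := F₀) B).IsIntegral →
    ∀ (n : Ideal ↥(B.comap (algebraMap F₀ E))),
      (∀ p : Polynomial ↥(B.comap (algebraMap F₀ E)), p.Monic → 0 < p.natDegree →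
        ∃ a : ↥(B.comap (algebraMap F₀ E)), p.eval a ∈ n) →
      ∀ (M : Ideal ↥B) [M.IsPrime], (∀ c ∈ n, qa_incl B c ∈ M) →
        ∀ b : ↥B, ∃ c : ↥(B.comap (algebraMap F₀ E)), b - qa_incl B c ∈ M

/-- (Param) If `O / ϖ` is a DVR (`O = locSub B M`, `M` maximal), there is a good parameter `x`. -/
def qa_ParamStatement : Prop :=
  ∀ (F₀ E : Type) [Field F₀] [Field E] [Algebra F₀ E] [FiniteDimensional F₀ E] (B : Subring E),
    (∀ (σ : E ≃ₐ[F₀] E), ∀ x ∈ B, σ x ∈ B) →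
    ∀ (M : Ideal ↥B) [M.IsMaximal] (ϖ : ↥B), ϖ ∈ M →
      IsDVRQuot ↥(locSub B M) ⟨(ϖ : E), le_locSub B M ϖ.2⟩ →
      ∃ x : ↥B, qa_IsParam F₀ B M ϖ x

/-- (Gen) For a good parameter `x` at `M` (over `n`, with residue field `C / n`):
`B_n = C_n + (ϖ, x) B_n` and `n C_n ⊆ (ϖ, x) B_n`. -/
def qa_GenStatement : Prop :=
  ∀ (F₀ E : Type) [Field F₀] [Field E] [Algebra F₀ E] [FiniteDimensional F₀ E] (B : Subring E),
    (∀ (σ : E ≃ₐ[F₀] E), ∀ x ∈ B, σ x ∈ B) →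
    (∀ b : ↥B, ∃ c : ↥(B.comap (algebraMap F₀ E)),
      algebraMap F₀ E (c : F₀) = ∏ σ : E ≃ₐ[F₀] E, σ (b : E)) →
    ∀ (n : Ideal ↥(B.comap (algebraMap F₀ E))) [n.IsMaximal] (ϖ : ↥(B.comap (algebraMap F₀ E)))
      (M : Ideal ↥B) [M.IsMaximal], M.comap (qa_incl B) = n →
      (∀ b : ↥B, ∃ c : ↥(B.comap (algebraMap F₀ E)), b - qa_incl B c ∈ M) →
      ∀ x : ↥B, qa_IsParam F₀ B M (qa_incl B ϖ) x →
        (∀ b ∈ qa_Bn B n, ∃ c ∈ locSub (B.comap (algebraMap F₀ E)) n,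
          ∃ u ∈ qa_Bn B n, ∃ w ∈ qa_Bn B n,
            b - algebraMap F₀ E c = algebraMap F₀ E (ϖ : F₀) * u + (x : E) * w) ∧
        (∀ a s : ↥(B.comap (algebraMap F₀ E)), a ∈ n → s ∉ n →
          ∃ u ∈ qa_Bn B n, ∃ w ∈ qa_Bn B n,
            algebraMap F₀ E (a : F₀) / algebraMap F₀ E (s : F₀) =
              algebraMap F₀ E (ϖ : F₀) * u + (x : E) * w)

/-- (Nil) For a good parameter `x` at `M` (over `n`), no power of the norm of `x` lies in `ϖ C_n`. -/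
def qa_NilStatement : Prop :=
  ∀ (F₀ E : Type) [Field F₀] [Field E] [Algebra F₀ E] [FiniteDimensional F₀ E] (B : Subring E),
    (∀ (σ : E ≃ₐ[F₀] E), ∀ x ∈ B, σ x ∈ B) →
    ∀ (n : Ideal ↥(B.comap (algebraMap F₀ E))) [n.IsMaximal] (ϖ : ↥(B.comap (algebraMap F₀ E)))
      (M : Ideal ↥B) [M.IsMaximal], M.comap (qa_incl B) = n → ϖ ∈ n →
      ∀ x : ↥B, qa_IsParam F₀ B M (qa_incl B ϖ) x →
        ∀ (m : ℕ) (c : F₀), c ∈ locSub (B.comap (algebraMap F₀ E)) n →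
          (∏ σ : E ≃ₐ[F₀] E, σ (x : E)) ^ m ≠ algebraMap F₀ E (ϖ : F₀) * algebraMap F₀ E c

/-- (Fin) `B_n` is generated over `C_n` by finitely many elements, and `B` contains `[E : F₀]` elements
linearly independent over `F₀`. -/
def qa_FinStatement : Prop :=
  ∀ (F₀ E : Type) [Field F₀] [Field E] [CharZero F₀] [Algebra F₀ E] [FiniteDimensional F₀ E]
    [IsGalois F₀ E] (B : Subring E),
    (∀ x : E, IsIntegral ↥B x → x ∈ B) → (∀ x : E, ∃ a ∈ B, ∃ b ∈ B, b ≠ 0 ∧ x * b = a) →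
    (∀ (σ : E ≃ₐ[F₀] E), ∀ x ∈ B, σ x ∈ B) →
    IsNoetherianRing ↥(B.comap (algebraMap F₀ E)) →
    (∀ b : ↥B, ∃ c : ↥(B.comap (algebraMap F₀ E)),
      algebraMap F₀ E (c : F₀) = ∏ σ : E ≃ₐ[F₀] E, σ (b : E)) →
    (qa_incl (F₀ := F₀) B).IsIntegral →
    (∃ v : Fin (Module.finrank F₀ E) → E, (∀ i, v i ∈ B) ∧ LinearIndependent F₀ v) ∧
    ∀ (n : Ideal ↥(B.comap (algebraMap F₀ E))) [n.IsPrime],
      ∃ (m : ℕ) (g : Fin m → E), (∀ i, g i ∈ qa_Bn B n) ∧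
        ∀ b ∈ qa_Bn B n, ∃ c : Fin m → F₀,
          (∀ i, c i ∈ locSub (B.comap (algebraMap F₀ E)) n) ∧
            b = ∑ i, algebraMap F₀ E (c i) * g i

/-- (Core) ABSTRACT.  `R` a local ring, `S` an `R`-algebra, finite as an `R`-module, containing a
linearly independent family `v` indexed by `ι ≠ ∅`; `ϖ, T ∈ 𝔪_R`; `x : κ → S` with `|κ| ≤ |ι|`,
`∏ x j = T`, and for every `j`: `S = R + (ϖ, x j) S`, `𝔪_R S ⊆ (ϖ, x j) S`.  Then `𝔪_R = (ϖ, T)`. -/
def qa_CoreStatement : Prop :=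
  ∀ (R S : Type) [CommRing R] [IsLocalRing R] [CommRing S] [Algebra R S] [Module.Finite R S]
    (ι κ : Type) [Fintype ι] [Fintype κ] [Nonempty ι], Fintype.card κ ≤ Fintype.card ι →
    ∀ (v : ι → S), LinearIndependent R v →
    ∀ (ϖ T : R), ϖ ∈ IsLocalRing.maximalIdeal R → T ∈ IsLocalRing.maximalIdeal R →
    ∀ (x : κ → S), ∏ j, x j = algebraMap R S T →
    (∀ (j : κ) (b : S), ∃ c : R, b - algebraMap R S c ∈ Ideal.span {algebraMap R S ϖ, x j}) →
    (∀ (j : κ), ∀ c ∈ IsLocalRing.maximalIdeal R,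
      algebraMap R S c ∈ Ideal.span {algebraMap R S ϖ, x j}) →
    IsLocalRing.maximalIdeal R = Ideal.span {ϖ, T}

/-- (Crit) toolkit: a noetherian local ring with maximal ideal `(ϖ, x)`, `x` not nilpotent modulo `ϖ`,
has `O / ϖ` a DVR. -/
def qa_CritStatement : Prop :=
  ∀ (O : Type) [CommRing O] [IsLocalRing O] [IsNoetherianRing O] (ϖ x : O),
    IsLocalRing.maximalIdeal O = Ideal.span {ϖ, x} → (∀ m : ℕ, x ^ m ∉ Ideal.span {ϖ}) →
    IsDVRQuot O ϖ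

/-- (Loc) toolkit: `locSub A P` is a local ring with maximal ideal `{a / s : a ∈ P, s ∉ P}`, noetherian
if `A` is. -/
def qa_LocStatement : Prop :=
  ∀ (F : Type) [Field F] (A : Subring F) (P : Ideal ↥A) [P.IsPrime],
    ∃ _ : IsLocalRing ↥(locSub A P),
      (∀ y : ↥(locSub A P), y ∈ IsLocalRing.maximalIdeal ↥(locSub A P) ↔
        ∃ a s : ↥A, a ∈ P ∧ s ∉ P ∧ (y : F) * (s : F) = (a : F)) ∧
      (IsNoetherianRing ↥A → IsNoetherianRing ↥(locSub A P))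

end

end Fermat.Agent.S18
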