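/-
S18 — block "Quotient lemma" (P3), twin A: ASSEMBLY (from the package statements).

`qa_asm_main`: the quotient lemma `QuotientStatement` from the package statements of
`QAInterfaces.lean` (Gal, Res, Param, Gen, Nil, Fin, Core) and `LocSubStatement`, using the landed
toolkit `LocSubB.lean` (`locSub` is local noetherian, DVR criterion).
-/
import Fermat.Agent.S18.QAInterfaces
import Fermat.Agent.S18.LocSubB

set_option autoImplicit false

namespace Fermat.Agent.S18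

open Polynomial

section

variable {F₀ E : Type} [Field F₀] [Field E] [Algebra F₀ E]

/-- `B_n` is stable under the Galois group. -/
theorem qa_asm_Bn_stab (B : Subring E) (hstab : ∀ (σ : E ≃ₐ[F₀] E), ∀ x ∈ B, σ x ∈ B)
    (n : Ideal ↥(B.comap (algebraMap F₀ E))) [n.IsPrime] (σ : E ≃ₐ[F₀] E) (y : E)
    (hy : y ∈ qa_Bn B n) : σ y ∈ qa_Bn B n := by
  obtain ⟨s, hs, h⟩ := hy
  refine ⟨s, hs, ?_⟩
  have := hstab σ _ h
  rwa [map_mul, AlgEquiv.commutes] at this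

/-- Existence of a maximal ideal of `B` over `n` (lying over, `B` integral over `C`). -/
theorem qa_asm_exists_max (B : Subring E) (hint : (qa_incl (F₀ := F₀) B).IsIntegral)
    (n : Ideal ↥(B.comap (algebraMap F₀ E))) [n.IsMaximal] :
    ∃ M : Ideal ↥B, M.IsMaximal ∧ M.comap (qa_incl B) = n := by
  letI : Algebra ↥(B.comap (algebraMap F₀ E)) ↥B := (qa_incl B).toAlgebra
  haveI : Algebra.IsIntegral ↥(B.comap (algebraMap F₀ E)) ↥B := ⟨hint⟩
  have hker : RingHom.ker (algebraMap ↥(B.comap (algebraMap F₀ E)) ↥B) ≤ n := by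
    intro c hc
    have h0 : qa_incl B c = 0 := hc
    have h1 : algebraMap F₀ E (c : F₀) = 0 := congrArg Subtype.val h0
    have h2 : (c : F₀) = 0 := (map_eq_zero_iff _ (algebraMap F₀ E).injective).1 h1
    have h3 : c = 0 := Subtype.ext h2
    rw [h3]; exact n.zero_mem
  exact Ideal.exists_ideal_over_maximal_of_isIntegral n hker

/-- The norm of an element of `M` lies in `n`. -/
theorem qa_asm_norm_mem [FiniteDimensional F₀ E] (B : Subring E)
    (hstab : ∀ (σ : E ≃ₐ[F₀] E), ∀ x ∈ B, σ x ∈ B)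
    (n : Ideal ↥(B.comap (algebraMap F₀ E))) (M : Ideal ↥B) (hMn : M.comap (qa_incl B) = n)
    (x : ↥B) (hxM : x ∈ M) (T₀ : ↥(B.comap (algebraMap F₀ E)))
    (hT₀ : algebraMap F₀ E (T₀ : F₀) = ∏ σ : E ≃ₐ[F₀] E, σ (x : E)) : T₀ ∈ n := by
  classical
  rw [← hMn, Ideal.mem_comap]
  have hprod : qa_incl B T₀ = ∏ σ : E ≃ₐ[F₀] E, (⟨σ (x : E), hstab σ _ x.2⟩ : ↥B) := by
    apply Subtype.ext
    rw [qa_incl_coe, hT₀]
    exact (map_prod B.subtype (fun σ : E ≃ₐ[F₀] E => (⟨σ (x : E), hstab σ _ x.2⟩ : ↥B))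
      Finset.univ).symm
  rw [hprod, ← Finset.mul_prod_erase Finset.univ _ (Finset.mem_univ (1 : E ≃ₐ[F₀] E))]
  refine M.mul_mem_right _ ?_
  have : (⟨(1 : E ≃ₐ[F₀] E) (x : E), hstab 1 _ x.2⟩ : ↥B) = x := Subtype.ext rfl
  rw [this]; exact hxM

/-- Application of the abstract core statement to `R = C_n`, `S = B_n`. -/
theorem qa_asm_core [FiniteDimensional F₀ E] [IsGalois F₀ E] (hCore : qa_CoreStatement)
    (B : Subring E) (hstab : ∀ (σ : E ≃ₐ[F₀] E), ∀ x ∈ B, σ x ∈ B)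
    (n : Ideal ↥(B.comap (algebraMap F₀ E))) [hnmax : n.IsMaximal]
    (ϖ T₀ : ↥(B.comap (algebraMap F₀ E))) (hϖn : ϖ ∈ n) (hT₀n : T₀ ∈ n) (x : ↥B)
    (hT₀ : algebraMap F₀ E (T₀ : F₀) = ∏ σ : E ≃ₐ[F₀] E, σ (x : E))
    (hX1 : ∀ b ∈ qa_Bn B n, ∃ c ∈ locSub (B.comap (algebraMap F₀ E)) n,
      ∃ u ∈ qa_Bn B n, ∃ w ∈ qa_Bn B n,
        b - algebraMap F₀ E c = algebraMap F₀ E (ϖ : F₀) * u + (x : E) * w)
    (hX2 : ∀ a s : ↥(B.comap (algebraMap F₀ E)), a ∈ n → s ∉ n →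
      ∃ u ∈ qa_Bn B n, ∃ w ∈ qa_Bn B n,
        algebraMap F₀ E (a : F₀) / algebraMap F₀ E (s : F₀) =
          algebraMap F₀ E (ϖ : F₀) * u + (x : E) * w)
    (v : Fin (Module.finrank F₀ E) → E) (hvB : ∀ i, v i ∈ B) (hvli : LinearIndependent F₀ v)
    (m : ℕ) (g : Fin m → E) (hgB : ∀ i, g i ∈ qa_Bn B n)
    (hgspan : ∀ b ∈ qa_Bn B n, ∃ c : Fin m → F₀,
      (∀ i, c i ∈ locSub (B.comap (algebraMap F₀ E)) n) ∧ b = ∑ i, algebraMap F₀ E (c i) * g i) :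
    @IsLocalRing.maximalIdeal ↥(locSub (B.comap (algebraMap F₀ E)) n) _
        (locSubB_isLocalRing (B.comap (algebraMap F₀ E)) n) =
      Ideal.span {⟨(ϖ : F₀), le_locSub _ n ϖ.2⟩, ⟨(T₀ : F₀), le_locSub _ n T₀.2⟩} := by
  have hloc : IsLocalRing ↥(locSub (B.comap (algebraMap F₀ E)) n) := locSubB_isLocalRing _ n
  have hmaxiff := locSubB_mem_maximalIdeal_iff (B.comap (algebraMap F₀ E)) n
  letI : Algebra ↥(locSub (B.comap (algebraMap F₀ E)) n) ↥(qa_Bn B n) := (qa_inclN B n).toAlgebra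
  have halg : ∀ c : ↥(locSub (B.comap (algebraMap F₀ E)) n),
      ((algebraMap ↥(locSub (B.comap (algebraMap F₀ E)) n) ↥(qa_Bn B n) c : ↥(qa_Bn B n)) : E) =
        algebraMap F₀ E (c : F₀) := fun c => rfl
  have hsmul : ∀ (c : ↥(locSub (B.comap (algebraMap F₀ E)) n)) (y : ↥(qa_Bn B n)),
      ((c • y : ↥(qa_Bn B n)) : E) = algebraMap F₀ E (c : F₀) * (y : E) := fun c y => rfl
  have hfinite : Module.Finite ↥(locSub (B.comap (algebraMap F₀ E)) n) ↥(qa_Bn B n) := by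
    refine Module.Finite.of_surjective
      (Fintype.linearCombination ↥(locSub (B.comap (algebraMap F₀ E)) n)
        (fun i => (⟨g i, hgB i⟩ : ↥(qa_Bn B n)))) ?_
    intro b
    obtain ⟨c, hc, hb⟩ := hgspan b b.2
    refine ⟨fun i => ⟨c i, hc i⟩, Subtype.ext ?_⟩
    rw [Fintype.linearCombination_apply, hb]
    refine (map_sum (qa_Bn B n).subtype _ Finset.univ).trans ?_
    refine Finset.sum_congr rfl (fun i _ => ?_)
    rw [Subring.subtype_apply, hsmul]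
  have h1n : (1 : ↥(B.comap (algebraMap F₀ E))) ∉ n := fun h =>
    hnmax.ne_top ((Ideal.eq_top_iff_one n).2 h)
  have hcard : Fintype.card (E ≃ₐ[F₀] E) ≤ Fintype.card (Fin (Module.finrank F₀ E)) := by
    rw [Fintype.card_fin, ← IsGalois.card_aut_eq_finrank F₀ E, Nat.card_eq_fintype_card]
  haveI : Nonempty (Fin (Module.finrank F₀ E)) := ⟨⟨0, Module.finrank_pos⟩⟩
  have hli : LinearIndependent ↥(locSub (B.comap (algebraMap F₀ E)) n)
      (fun i => (⟨v i, qa_le_Bn B n (hvB i)⟩ : ↥(qa_Bn B n))) := by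
    rw [Fintype.linearIndependent_iff]
    intro c hc i
    have h1 : ∑ j, ((c j : ↥(locSub (B.comap (algebraMap F₀ E)) n)) : F₀) • v j = 0 := by
      have h2 := congrArg (Subring.subtype (qa_Bn B n)) hc
      rw [map_sum, map_zero] at h2
      rw [← h2]
      refine Finset.sum_congr rfl (fun j _ => ?_)
      rw [Subring.subtype_apply, hsmul, Algebra.smul_def]
    have h3 := Fintype.linearIndependent_iff.1 hvli
      (fun j => ((c j : ↥(locSub (B.comap (algebraMap F₀ E)) n)) : F₀)) h1 i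
    exact Subtype.ext h3
  have hprod : ∏ σ : E ≃ₐ[F₀] E,
        (⟨σ (x : E), qa_le_Bn B n (hstab σ _ x.2)⟩ : ↥(qa_Bn B n)) =
      algebraMap ↥(locSub (B.comap (algebraMap F₀ E)) n) ↥(qa_Bn B n)
        ⟨(T₀ : F₀), le_locSub _ n T₀.2⟩ := by
    apply Subtype.ext
    rw [halg]
    refine (map_prod (qa_Bn B n).subtype _ Finset.univ).trans ?_
    exact hT₀.symm
  have h1 : ∀ (σ : E ≃ₐ[F₀] E) (b : ↥(qa_Bn B n)),
      ∃ c : ↥(locSub (B.comap (algebraMap F₀ E)) n),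
        b - algebraMap ↥(locSub (B.comap (algebraMap F₀ E)) n) ↥(qa_Bn B n) c ∈
          Ideal.span {algebraMap ↥(locSub (B.comap (algebraMap F₀ E)) n) ↥(qa_Bn B n)
            ⟨(ϖ : F₀), le_locSub _ n ϖ.2⟩,
            (⟨σ (x : E), qa_le_Bn B n (hstab σ _ x.2)⟩ : ↥(qa_Bn B n))} := by
    intro σ b
    obtain ⟨c, hc, u, hu, w, hw, h⟩ :=
      hX1 (σ.symm (b : E)) (qa_asm_Bn_stab B hstab n σ.symm _ b.2)
    refine ⟨⟨c, hc⟩, ?_⟩
    rw [Ideal.mem_span_pair]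
    refine ⟨⟨σ u, qa_asm_Bn_stab B hstab n σ _ hu⟩, ⟨σ w, qa_asm_Bn_stab B hstab n σ _ hw⟩,
      Subtype.ext ?_⟩
    have h' := congrArg σ h
    rw [map_sub, map_add, map_mul, map_mul, AlgEquiv.apply_symm_apply, AlgEquiv.commutes,
      AlgEquiv.commutes] at h'
    show σ u * algebraMap F₀ E (ϖ : F₀) + σ w * σ (x : E) = (b : E) - algebraMap F₀ E c
    rw [h']; ring
  have h2 : ∀ (σ : E ≃ₐ[F₀] E),
      ∀ c ∈ IsLocalRing.maximalIdeal ↥(locSub (B.comap (algebraMap F₀ E)) n),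
        algebraMap ↥(locSub (B.comap (algebraMap F₀ E)) n) ↥(qa_Bn B n) c ∈
          Ideal.span {algebraMap ↥(locSub (B.comap (algebraMap F₀ E)) n) ↥(qa_Bn B n)
            ⟨(ϖ : F₀), le_locSub _ n ϖ.2⟩,
            (⟨σ (x : E), qa_le_Bn B n (hstab σ _ x.2)⟩ : ↥(qa_Bn B n))} := by
    intro σ c hc
    obtain ⟨a, s, ha, hs, has⟩ := (hmaxiff c).1 hc
    obtain ⟨u, hu, w, hw, h⟩ := hX2 a s ha hs
    rw [Ideal.mem_span_pair]
    refine ⟨⟨σ u, qa_asm_Bn_stab B hstab n σ _ hu⟩, ⟨σ w, qa_asm_Bn_stab B hstab n σ _ hw⟩,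
      Subtype.ext ?_⟩
    have hs0 : (s : F₀) ≠ 0 := by
      intro h0
      apply hs
      have : s = 0 := Subtype.ext h0
      rw [this]; exact n.zero_mem
    have hc' : algebraMap F₀ E (c : F₀) =
        algebraMap F₀ E (a : F₀) / algebraMap F₀ E (s : F₀) := by
      rw [← map_div₀, ← has, mul_div_assoc, div_self hs0, mul_one]
    have h' := congrArg σ h
    rw [← hc', map_add, map_mul, map_mul, AlgEquiv.commutes, AlgEquiv.commutes] at h'
    show σ u * algebraMap F₀ E (ϖ : F₀) + σ w * σ (x : E) = algebraMap F₀ E (c : F₀)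
    rw [h']; ring
  exact hCore ↥(locSub (B.comap (algebraMap F₀ E)) n) ↥(qa_Bn B n)
    (Fin (Module.finrank F₀ E)) (E ≃ₐ[F₀] E) hcard
    (fun i => ⟨v i, qa_le_Bn B n (hvB i)⟩) hli
    ⟨(ϖ : F₀), le_locSub _ n ϖ.2⟩ ⟨(T₀ : F₀), le_locSub _ n T₀.2⟩
    ((hmaxiff _).2 ⟨ϖ, 1, hϖn, h1n, by simp⟩)
    ((hmaxiff _).2 ⟨T₀, 1, hT₀n, h1n, by simp⟩)
    (fun σ => ⟨σ (x : E), qa_le_Bn B n (hstab σ _ x.2)⟩) hprod h1 h2

end

/-- The quotient lemma from the package statements. -/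
theorem qa_asm_main (hGal : qa_GalStatement) (hRes : qa_ResStatement) (hParam : qa_ParamStatement)
    (hGen : qa_GenStatement) (hNil : qa_NilStatement) (hFin : qa_FinStatement)
    (hCore : qa_CoreStatement) (hLS : LocSubStatement) : QuotientStatement := by
  intro F₀ E _ _ _ _ _ _ B hIC hFrac hstab hNoeth n hnmax ϖ hϖ0 hϖn hRF hH
  obtain ⟨hnorm, hint⟩ := hGal F₀ E B hstab
  -- a maximal ideal of `B` over `n`
  obtain ⟨M, hMmax, hMn⟩ := qa_asm_exists_max B hint n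
  have hres := hRes F₀ E B hint n hRF M (fun c hc => by rw [← hMn] at hc; exact hc)
  -- (H) at `M`
  have hDVR1 := hH M (qa_incl B ϖ) rfl (fun c b hc hb => by
    have : b = qa_incl B c := Subtype.ext hb
    rw [this]; rw [← hMn] at hc; exact hc)
  have hDVR2 := (hLS E B M (qa_incl B ϖ) (le_locSub B M (qa_incl B ϖ).2)).1 hDVR1
  have hϖM : qa_incl B ϖ ∈ M := by
    have : ϖ ∈ M.comap (qa_incl B) := by rw [hMn]; exact hϖn
    exact this
  obtain ⟨x, hx⟩ := hParam F₀ E B hstab M (qa_incl B ϖ) hϖM hDVR2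
  obtain ⟨hX1, hX2⟩ := hGen F₀ E B hstab hnorm n ϖ M hMn hres x hx
  have hX3 := hNil F₀ E B hstab n ϖ M hMn hϖn x hx
  obtain ⟨⟨v, hvB, hvli⟩, hfin⟩ := hFin F₀ E B hIC hFrac hstab hNoeth hnorm hint
  obtain ⟨m, g, hgB, hgspan⟩ := hfin n
  obtain ⟨T₀, hT₀⟩ := hnorm x
  have hT₀n : T₀ ∈ n := qa_asm_norm_mem B hstab n M hMn x hx.mem T₀ hT₀
  have hcore := qa_asm_core hCore B hstab n ϖ T₀ hϖn hT₀n x hT₀ hX1 hX2 v hvB hvli m g hgB hgspan
  have hloc : IsLocalRing ↥(locSub (B.comap (algebraMap F₀ E)) n) := locSubB_isLocalRing _ n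
  have hnoeth' : IsNoetherianRing ↥(locSub (B.comap (algebraMap F₀ E)) n) :=
    locSubB_isNoetherianRing _ n
  have hcrit : IsDVRQuot ↥(locSub (B.comap (algebraMap F₀ E)) n)
      ⟨(ϖ : F₀), le_locSub _ n ϖ.2⟩ := by
    refine locSubB_crit (O := ↥(locSub (B.comap (algebraMap F₀ E)) n))
      ⟨(ϖ : F₀), le_locSub _ n ϖ.2⟩ ⟨(T₀ : F₀), le_locSub _ n T₀.2⟩ hcore ?_
    intro k hk
    obtain ⟨a, ha⟩ := Ideal.mem_span_singleton'.1 hk
    have ha' : (a : F₀) * (ϖ : F₀) = (T₀ : F₀) ^ k :=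
      congrArg (Subring.subtype (locSub (B.comap (algebraMap F₀ E)) n)) ha
    refine hX3 k (a : F₀) a.2 ?_
    rw [← hT₀, ← map_pow, ← ha', map_mul, mul_comm]
  exact (hLS F₀ (B.comap (algebraMap F₀ E)) n ϖ (le_locSub _ n ϖ.2)).2 hcrit

end Fermat.Agent.S18
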