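import Fermat.Agent.S18.QAInterfaces

set_option autoImplicit false

/-
S18 — block "Quotient lemma", package QA/Core (twin T): abstract commutative algebra
(length count + Nakayama + Orzech):  `𝔪_R = (ϖ, T)`.
-/

namespace Fermat.Agent.S18

/-- Subadditivity of the length along a "right exact" pair: if `g` is surjective and
`ker g ≤ range f`, then `length M ≤ length N + length P`. -/
theorem qa_coreT_length_le_add {R M N P : Type} [Ring R] [AddCommGroup M] [AddCommGroup N]
    [AddCommGroup P] [Module R M] [Module R N] [Module R P]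
    (f : N →ₗ[R] M) (g : M →ₗ[R] P) (hg : Function.Surjective g)
    (H : LinearMap.ker g ≤ LinearMap.range f) :
    Module.length R M ≤ Module.length R N + Module.length R P := by
  rw [Module.length_eq_add_of_exact (LinearMap.ker g).subtype g (Submodule.subtype_injective _) hg
    (LinearMap.exact_subtype_ker_map g)]
  gcongr
  calc Module.length R (LinearMap.ker g)
      ≤ Module.length R (LinearMap.range f) :=
        Module.length_le_of_injective (Submodule.inclusion H) (Submodule.inclusion_injective H)
    _ ≤ Module.length R N :=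
        Module.length_le_of_surjective f.rangeRestrict f.surjective_rangeRestrict

/-- STEP A: the chain bound `length_R (S ⧸ (ϖ, ∏_{j ∈ s} x j)) ≤ |s|`. -/
theorem qa_coreT_stepA (R S : Type) [CommRing R] [IsLocalRing R] [CommRing S] [Algebra R S]
    (κ : Type) (ϖ : R) (x : κ → S)
    (h1 : ∀ (j : κ) (b : S), ∃ c : R, b - algebraMap R S c ∈ Ideal.span {algebraMap R S ϖ, x j})
    (h2 : ∀ (j : κ), ∀ c ∈ IsLocalRing.maximalIdeal R,
      algebraMap R S c ∈ Ideal.span {algebraMap R S ϖ, x j})
    (s : Finset κ) :
    Module.length R (S ⧸ (Ideal.span {algebraMap R S ϖ, ∏ j ∈ s, x j}).restrictScalars R) ≤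
      s.card := by
  classical
  induction s using Finset.induction_on with
  | empty =>
    have htop : (Ideal.span {algebraMap R S ϖ, ∏ j ∈ (∅ : Finset κ), x j}).restrictScalars R
        = ⊤ := by
      rw [Finset.prod_empty, eq_top_iff]
      intro z _
      rw [Submodule.restrictScalars_mem, Ideal.mem_span_pair]
      exact ⟨0, z, by ring⟩
    have hsub : Subsingleton
        (S ⧸ (Ideal.span {algebraMap R S ϖ, ∏ j ∈ (∅ : Finset κ), x j}).restrictScalars R) :=
      Submodule.Quotient.subsingleton_iff.mpr htop
    rw [Module.length_eq_zero_iff.mpr hsub]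
    exact bot_le
  | insert a s ha ih =>
    rw [Finset.prod_insert ha, Finset.card_insert_of_notMem ha]
    generalize (∏ j ∈ s, x j) = y at ih ⊢
    have hle : (Ideal.span {algebraMap R S ϖ, x a * y}).restrictScalars R ≤
        (Ideal.span {algebraMap R S ϖ, y}).restrictScalars R := by
      intro z hz
      rw [Submodule.restrictScalars_mem, Ideal.mem_span_pair] at hz
      obtain ⟨u, w, rfl⟩ := hz
      rw [Submodule.restrictScalars_mem, Ideal.mem_span_pair]
      exact ⟨u, w * x a, by ring⟩
    have hker : IsLocalRing.maximalIdeal R ≤ LinearMap.ker (LinearMap.toSpanSingleton R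
        (S ⧸ (Ideal.span {algebraMap R S ϖ, x a * y}).restrictScalars R)
        (((Ideal.span {algebraMap R S ϖ, x a * y}).restrictScalars R).mkQ y)) := by
      intro c hc
      rw [LinearMap.mem_ker, LinearMap.toSpanSingleton_apply, ← map_smul, Submodule.mkQ_apply,
        Submodule.Quotient.mk_eq_zero]
      obtain ⟨u, w, huw⟩ := Ideal.mem_span_pair.mp (h2 a c hc)
      rw [Submodule.restrictScalars_mem, Ideal.mem_span_pair]
      refine ⟨u * y, w, ?_⟩
      rw [Algebra.smul_def, ← huw]; ring
    have hexact : LinearMap.ker (Submodule.factor hle) ≤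
        LinearMap.range (Submodule.liftQ _ _ hker) := by
      intro q hq
      obtain ⟨z, rfl⟩ := Submodule.mkQ_surjective _ q
      rw [LinearMap.mem_ker, Submodule.factor_mk, Submodule.mkQ_apply,
        Submodule.Quotient.mk_eq_zero, Submodule.restrictScalars_mem, Ideal.mem_span_pair] at hq
      obtain ⟨u, w, rfl⟩ := hq
      obtain ⟨c, hc⟩ := h1 a w
      obtain ⟨u', w', hc'⟩ := Ideal.mem_span_pair.mp hc
      refine ⟨Submodule.Quotient.mk c, ?_⟩
      rw [Submodule.liftQ_apply, LinearMap.toSpanSingleton_apply, ← map_smul, ← sub_eq_zero,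
        ← map_sub, Submodule.mkQ_apply, Submodule.Quotient.mk_eq_zero,
        Submodule.restrictScalars_mem, Ideal.mem_span_pair]
      refine ⟨-(u + u' * y), -w', ?_⟩
      rw [Algebra.smul_def]
      linear_combination (-y) * hc'
    have hlen := qa_coreT_length_le_add _ _ (Submodule.factor_surjective hle) hexact
    have hsimple : Module.length R (R ⧸ IsLocalRing.maximalIdeal R) = 1 :=
      Module.length_eq_one_iff.mpr
        (isSimpleModule_iff_isCoatom.mpr (Ideal.isMaximal_def.mp inferInstance))
    rw [hsimple] at hlen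
    calc _ ≤ _ := hlen
      _ ≤ 1 + (s.card : ℕ∞) := by gcongr
      _ = ((s.card + 1 : ℕ) : ℕ∞) := by push_cast; ring

/-- Generators from a length bound: if `length_R (M ⧸ N) ≤ n`, then `M` is generated modulo `N`
by `n` elements. -/
theorem qa_coreT_exists_gen {R M : Type} [Ring R] [AddCommGroup M] [Module R M] :
    ∀ (n : ℕ) (N : Submodule R M), Module.length R (M ⧸ N) ≤ n →
      ∃ w : Fin n → M, Submodule.span R (Set.range w) ⊔ N = ⊤ := by
  intro n
  induction n with
  | zero =>
    intro N hN
    refine ⟨fun _ => 0, ?_⟩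
    have h0 : Module.length R (M ⧸ N) = 0 := le_antisymm (by simpa using hN) bot_le
    rw [Module.length_eq_zero_iff, Submodule.Quotient.subsingleton_iff] at h0
    rw [h0]; simp
  | succ n ih =>
    intro N hN
    by_cases hN' : N = ⊤
    · exact ⟨fun _ => 0, by rw [hN']; simp⟩
    · obtain ⟨q, hq⟩ : ∃ q, q ∉ N := by
        by_contra hcon
        exact hN' (eq_top_iff.mpr fun z _ => by_contra fun hz => hcon ⟨z, hz⟩)
      have hlt : N < N ⊔ Submodule.span R {q} := by
        refine lt_of_le_of_ne le_sup_left fun heq => hq ?_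
        rw [heq]
        exact Submodule.mem_sup_right (Submodule.mem_span_singleton_self q)
      have h1 := Order.coheight_add_one_le hlt
      rw [← Module.length_quotient, ← Module.length_quotient] at h1
      have h2 : Module.length R (M ⧸ (N ⊔ Submodule.span R {q})) ≤ n := by
        have h3 := h1.trans hN
        push_cast at h3
        exact (ENat.add_le_add_iff_right (by simp)).mp h3
      obtain ⟨w, hw⟩ := ih _ h2
      refine ⟨Fin.cons q w, ?_⟩
      rw [Fin.range_cons, Submodule.span_insert, ← hw]
      ac_rfl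

/-- STEP B (Nakayama + Orzech): `R` local, `M` a finite `R`-module containing a linearly independent
family indexed by `ι ≠ ∅`, `I` a proper ideal with `length_R (M ⧸ I M) ≤ |ι|`.  Then `I = 𝔪_R`. -/
theorem qa_coreT_stepB (R M : Type) [CommRing R] [IsLocalRing R] [AddCommGroup M] [Module R M]
    [Module.Finite R M] (ι : Type) [Fintype ι] [Nonempty ι] (v : ι → M)
    (hv : LinearIndependent R v) (I : Ideal R) (hI : I ≠ ⊤)
    (hlen : Module.length R (M ⧸ (I • ⊤ : Submodule R M)) ≤ Fintype.card ι) :
    I = IsLocalRing.maximalIdeal R := by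
  classical
  obtain ⟨w, hw⟩ := qa_coreT_exists_gen (Fintype.card ι) (I • ⊤ : Submodule R M) hlen
  -- Nakayama
  have hIJ : I ≤ Ideal.jacobson ⊥ := by
    rw [IsLocalRing.jacobson_eq_maximalIdeal ⊥ bot_ne_top]
    exact IsLocalRing.le_maximalIdeal hI
  have htop : Submodule.span R (Set.range w) = ⊤ := by
    rw [eq_top_iff]
    exact Submodule.le_of_le_smul_of_le_jacobson_bot Module.Finite.fg_top hIJ (by rw [hw])
  -- reindex by `ι`
  have hg : Function.Surjective (Fintype.linearCombination R (w ∘ Fintype.equivFin ι)) := by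
    rw [← LinearMap.range_eq_top, Fintype.range_linearCombination,
      (Fintype.equivFin ι).surjective.range_comp, htop]
  have hi : Function.Injective (Fintype.linearCombination R v) := by
    rw [injective_iff_map_eq_zero]
    intro c hc
    funext j
    exact Fintype.linearIndependent_iff.mp hv c hc j
  -- Orzech
  have hginj : Function.Injective (Fintype.linearCombination R (w ∘ Fintype.equivFin ι)) :=
    OrzechProperty.injective_of_surjective_of_injective _ _ hi hg
  let E : (ι → R) ≃ₗ[R] M := LinearEquiv.ofBijective _ ⟨hginj, hg⟩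
  -- the map `M → (ι → R ⧸ I)`
  let φ : M →ₗ[R] (ι → R ⧸ I) := ((Submodule.mkQ I).compLeft ι) ∘ₗ E.symm.toLinearMap
  have hφ : Function.Surjective φ := by
    intro t
    choose c hc using fun j => Submodule.mkQ_surjective I (t j)
    refine ⟨E c, ?_⟩
    funext j
    simp [φ, hc]
  have hker : (I • ⊤ : Submodule R M) ≤ LinearMap.ker φ := by
    rw [Submodule.smul_le]
    intro a ha m _
    rw [LinearMap.mem_ker, map_smul]
    funext j
    obtain ⟨c, hc⟩ := Submodule.mkQ_surjective I (φ m j)
    rw [Pi.smul_apply, ← hc, ← map_smul, Pi.zero_apply, Submodule.mkQ_apply,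
      Submodule.Quotient.mk_eq_zero, smul_eq_mul]
    exact I.mul_mem_right c ha
  have hψ : Function.Surjective (Submodule.liftQ _ φ hker) := by
    intro t
    obtain ⟨m, hm⟩ := hφ t
    exact ⟨Submodule.Quotient.mk m, by rw [Submodule.liftQ_apply, hm]⟩
  have h3 := Module.length_le_of_surjective _ hψ
  rw [Module.length_pi, ENat.card_eq_coe_fintype_card] at h3
  have h4 : (Fintype.card ι : ℕ∞) * Module.length R (R ⧸ I) ≤ Fintype.card ι := h3.trans hlen
  have hr : 0 < Fintype.card ι := Fintype.card_pos
  have hL0 : Module.length R (R ⧸ I) ≠ 0 := by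
    rw [Ne, Module.length_eq_zero_iff, Submodule.Quotient.subsingleton_iff]
    exact hI
  have h5 : Module.length R (R ⧸ I) = 1 := by
    generalize Module.length R (R ⧸ I) = L at h4 hL0 ⊢
    induction L using ENat.recTopCoe with
    | top =>
      rw [ENat.mul_top (by exact_mod_cast hr.ne')] at h4
      exact absurd h4 (by simp)
    | coe n =>
      have h6 : Fintype.card ι * n ≤ Fintype.card ι := by exact_mod_cast h4
      have hn : n ≤ 1 := by nlinarith
      have hn0 : n ≠ 0 := by exact_mod_cast hL0
      have hn1 : n = 1 := by omega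
      rw [hn1]; rfl
  have hmax : I.IsMaximal :=
    Ideal.isMaximal_def.mpr (isSimpleModule_iff_isCoatom.mp (Module.length_eq_one_iff.mp h5))
  exact IsLocalRing.eq_maximalIdeal hmax

/-- **QA/Core**: `𝔪_R = (ϖ, T)`. -/
theorem qa_coreT_main : qa_CoreStatement := by
  intro R S _ _ _ _ _ ι κ _ _ _ hcard v hv ϖ T hϖ hT x hx h1 h2
  have hIle : Ideal.span {ϖ, T} ≤ IsLocalRing.maximalIdeal R := by
    rw [Ideal.span_le]
    intro z hz
    rcases hz with rfl | rfl
    · exact hϖ
    · exact hT
  have hI : Ideal.span {ϖ, T} ≠ ⊤ := fun h =>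
    (IsLocalRing.maximalIdeal.isMaximal R).ne_top (top_le_iff.mp (h ▸ hIle))
  have hA := qa_coreT_stepA R S κ ϖ x h1 h2 Finset.univ
  rw [hx, Finset.card_univ] at hA
  have hsm : ((Ideal.span {ϖ, T} : Ideal R) • ⊤ : Submodule R S) =
      (Ideal.span {algebraMap R S ϖ, algebraMap R S T}).restrictScalars R := by
    rw [Ideal.smul_top_eq_map, Ideal.map_span, Set.image_pair]
  have hlen : Module.length R (S ⧸ ((Ideal.span {ϖ, T} : Ideal R) • ⊤ : Submodule R S)) ≤
      Fintype.card ι := by
    rw [hsm]
    exact hA.trans (by exact_mod_cast hcard)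
  exact (qa_coreT_stepB R S ι v hv _ hI hlen).symm

end Fermat.Agent.S18
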