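/-
S18 — block "Quotient lemma", twin A, package QA/Fin (twin T).

`B ⊆ E` a `G`-stable subring, integrally closed in `E`, with fraction field `E`, integral over
`C := B.comap (algebraMap F₀ E)` (noetherian), norms of elements of `B` in `C`.  Then:
* (F1) every `x : E` has a nonzero denominator in `C`;
* (F2) `B` contains `[E : F₀]` elements linearly independent over `F₀`;
* (F3) `B` is a finite `C`-module (`IsIntegralClosure.finite`);
* (F4) `B_n` is generated over `C_n` by finitely many elements.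
Deliverable: `qa_finT_main : qa_FinStatement`.
-/
import Fermat.Agent.S18.QAInterfaces

set_option autoImplicit false

namespace Fermat.Agent.S18

section QAFinT

variable {F₀ E : Type} [Field F₀] [Field E] [Algebra F₀ E]

/-- (F1) Denominators in `C`: every `x : E` satisfies `x * ι c ∈ B` for some nonzero `c ∈ C`
(take for `c` the norm of a denominator of `x` in `B`). -/
theorem qa_finT_denom [FiniteDimensional F₀ E] (B : Subring E)
    (hFrac : ∀ x : E, ∃ a ∈ B, ∃ b ∈ B, b ≠ 0 ∧ x * b = a)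
    (hstab : ∀ (σ : E ≃ₐ[F₀] E), ∀ x ∈ B, σ x ∈ B)
    (hnorm : ∀ b : ↥B, ∃ c : ↥(B.comap (algebraMap F₀ E)),
      algebraMap F₀ E (c : F₀) = ∏ σ : E ≃ₐ[F₀] E, σ (b : E)) (x : E) :
    ∃ c : ↥(B.comap (algebraMap F₀ E)), c ≠ 0 ∧ x * algebraMap F₀ E (c : F₀) ∈ B := by
  classical
  obtain ⟨a, ha, b, hb, hb0, hxb⟩ := hFrac x
  obtain ⟨c, hc⟩ := hnorm ⟨b, hb⟩
  have hc' : algebraMap F₀ E (c : F₀) = ∏ σ : E ≃ₐ[F₀] E, σ b := hc
  have hprod : ∏ σ : E ≃ₐ[F₀] E, σ b =
      b * ∏ σ ∈ (Finset.univ.erase (1 : E ≃ₐ[F₀] E)), σ b := by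
    rw [← Finset.mul_prod_erase Finset.univ (fun σ : E ≃ₐ[F₀] E => σ b) (Finset.mem_univ 1)]
    rfl
  refine ⟨c, ?_, ?_⟩
  · intro hc0
    have h0 : ∏ σ : E ≃ₐ[F₀] E, σ b = 0 := by
      rw [← hc', hc0, Subring.coe_zero, map_zero]
    rw [Finset.prod_eq_zero_iff] at h0
    obtain ⟨σ, -, hσ⟩ := h0
    exact hb0 ((map_eq_zero_iff σ σ.injective).1 hσ)
  · rw [hc', hprod, ← mul_assoc, hxb]
    exact B.mul_mem ha (Subring.prod_mem _ (fun σ _ => hstab σ b hb))

/-- (F2) `B` contains `[E : F₀]` elements linearly independent over `F₀`. -/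
theorem qa_finT_indep [FiniteDimensional F₀ E] (B : Subring E)
    (hden : ∀ x : E, ∃ c : ↥(B.comap (algebraMap F₀ E)),
      c ≠ 0 ∧ x * algebraMap F₀ E (c : F₀) ∈ B) :
    ∃ v : Fin (Module.finrank F₀ E) → E, (∀ i, v i ∈ B) ∧ LinearIndependent F₀ v := by
  classical
  choose c hc0 hc using fun i => hden (Module.finBasis F₀ E i)
  have hc0' : ∀ i, (c i : F₀) ≠ 0 := fun i h => hc0 i (Subtype.ext h)
  refine ⟨fun i => Module.finBasis F₀ E i * algebraMap F₀ E (c i : F₀), hc, ?_⟩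
  have h := (Module.finBasis F₀ E).linearIndependent.units_smul
    (fun i => Units.mk0 (c i : F₀) (hc0' i))
  have e : (fun i => Module.finBasis F₀ E i * algebraMap F₀ E (c i : F₀)) =
      (fun i => Units.mk0 (c i : F₀) (hc0' i)) • ⇑(Module.finBasis F₀ E) := by
    funext i
    rw [Pi.smul_apply', Units.smul_def, Units.val_mk0, Algebra.smul_def, mul_comm]
  rw [e]
  exact h

/-- (F3) `B` is a finite `C`-module, elementwise. -/
theorem qa_finT_finite [CharZero F₀] [FiniteDimensional F₀ E] (B : Subring E)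
    (hIC : ∀ x : E, IsIntegral ↥B x → x ∈ B)
    (hden : ∀ x : E, ∃ c : ↥(B.comap (algebraMap F₀ E)),
      c ≠ 0 ∧ x * algebraMap F₀ E (c : F₀) ∈ B)
    (hNoeth : IsNoetherianRing ↥(B.comap (algebraMap F₀ E)))
    (hint : (qa_incl (F₀ := F₀) B).IsIntegral) :
    ∃ (m : ℕ) (g₀ : Fin m → ↥B), ∀ b : ↥B, ∃ c : Fin m → ↥(B.comap (algebraMap F₀ E)),
      (b : E) = ∑ i, algebraMap F₀ E (c i : F₀) * (g₀ i : E) := by
  let _ : Algebra ↥(B.comap (algebraMap F₀ E)) ↥B := (qa_incl B).toAlgebra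
  have _ : IsScalarTower ↥(B.comap (algebraMap F₀ E)) ↥B E :=
    IsScalarTower.of_algebraMap_eq (fun c => rfl)
  have _ : IsFractionRing ↥(B.comap (algebraMap F₀ E)) F₀ := by
    apply IsFractionRing.of_field
    intro z
    obtain ⟨c, hc0, hc⟩ := hden (algebraMap F₀ E z)
    refine ⟨⟨z * c, ?_⟩, c, ?_⟩
    · show algebraMap F₀ E (z * c) ∈ B
      rw [map_mul]; exact hc
    · show z = z * c / c
      have : (c : F₀) ≠ 0 := fun h => hc0 (Subtype.ext h)
      field_simp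
  have _ : IsIntegrallyClosed ↥(B.comap (algebraMap F₀ E)) := by
    rw [isIntegrallyClosed_iff F₀]
    intro y hy
    have h1 : IsIntegral ↥(B.comap (algebraMap F₀ E)) (algebraMap F₀ E y) :=
      hy.algebraMap
    have h2 : IsIntegral ↥B (algebraMap F₀ E y) := h1.tower_top
    exact ⟨⟨y, hIC _ h2⟩, rfl⟩
  have _ : IsIntegralClosure ↥B ↥(B.comap (algebraMap F₀ E)) E := by
    refine ⟨Subtype.val_injective, ?_⟩
    intro x
    constructor
    · intro hx
      exact ⟨⟨x, hIC x hx.tower_top⟩, rfl⟩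
    · rintro ⟨y, rfl⟩
      obtain ⟨p, hp, hpy⟩ := hint y
      refine ⟨p, hp, ?_⟩
      have h := congrArg B.subtype hpy
      rw [Polynomial.hom_eval₂, map_zero] at h
      exact h
  have _ : Module.Finite ↥(B.comap (algebraMap F₀ E)) ↥B :=
    IsIntegralClosure.finite ↥(B.comap (algebraMap F₀ E)) F₀ E ↥B
  obtain ⟨m, g₀, hg₀⟩ := Module.Finite.exists_fin (R := ↥(B.comap (algebraMap F₀ E))) (M := ↥B)
  refine ⟨m, g₀, fun b => ?_⟩
  have hb : b ∈ Submodule.span ↥(B.comap (algebraMap F₀ E)) (Set.range g₀) := by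
    rw [hg₀]; trivial
  rw [Submodule.mem_span_range_iff_exists_fun] at hb
  obtain ⟨c, hc⟩ := hb
  refine ⟨c, ?_⟩
  rw [← hc]
  show B.subtype (∑ i, c i • g₀ i) = _
  rw [map_sum]
  rfl

end QAFinT

/-- (Fin) `B_n` is generated over `C_n` by finitely many elements, and `B` contains `[E : F₀]`
elements linearly independent over `F₀`. -/
theorem qa_finT_main : qa_FinStatement := by
  intro F₀ E _ _ _ _ _ _ B hIC hFrac hstab hNoeth hnorm hint
  have hden := qa_finT_denom B hFrac hstab hnorm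
  refine ⟨qa_finT_indep B hden, ?_⟩
  intro n hn
  obtain ⟨m, g₀, hg₀⟩ := qa_finT_finite B hIC hden hNoeth hint
  refine ⟨m, fun i => (g₀ i : E), fun i => qa_le_Bn B n (g₀ i).2, ?_⟩
  rintro b ⟨s, hs, hbs⟩
  obtain ⟨c, hc⟩ := hg₀ ⟨_, hbs⟩
  have hc' : b * algebraMap F₀ E (s : F₀) = ∑ i, algebraMap F₀ E (c i : F₀) * (g₀ i : E) := hc
  have hs0 : (s : F₀) ≠ 0 := by
    intro h
    apply hs
    have hs' : s = 0 := Subtype.ext h
    rw [hs']; exact n.zero_mem
  have hs0' : algebraMap F₀ E (s : F₀) ≠ 0 := by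
    intro h
    exact hs0 ((map_eq_zero_iff _ (algebraMap F₀ E).injective).1 h)
  refine ⟨fun i => (c i : F₀) / (s : F₀), fun i => ⟨c i, s, hs, ?_⟩, ?_⟩
  · exact div_mul_cancel₀ _ hs0
  · have hb : b = (∑ i, algebraMap F₀ E (c i : F₀) * (g₀ i : E)) / algebraMap F₀ E (s : F₀) := by
      rw [← hc']; exact (mul_div_cancel_right₀ b hs0').symm
    rw [hb, Finset.sum_div]
    refine Finset.sum_congr rfl (fun i _ => ?_)
    rw [map_div₀]; ring

end Fermat.Agent.S18
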