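/-
S18 — block "Quotient lemma", twin A, package Gal:
norms of elements of a `G`-stable subring `B ⊆ E` lie in `C = B ∩ F₀`, and `B` is integral over `C`
(the coefficients of `∏_σ (X - σ b)` are `G`-invariant elements of `B`).
-/
import Fermat.Agent.S18.QAInterfaces

set_option autoImplicit false

namespace Fermat.Agent.S18

section QAGal

variable {F₀ E : Type} [Field F₀] [Field E] [Algebra F₀ E] [FiniteDimensional F₀ E]

/-- A `G`-fixed element of `B` is the image of an element of `C = B ∩ F₀`. -/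
theorem qa_gal_fixed_mem [IsGalois F₀ E] (B : Subring E) (x : E) (hx : x ∈ B)
    (hfix : ∀ τ : E ≃ₐ[F₀] E, τ x = x) :
    ∃ c : ↥(B.comap (algebraMap F₀ E)), algebraMap F₀ E (c : F₀) = x := by
  obtain ⟨c₀, hc₀⟩ := (IsGalois.mem_range_algebraMap_iff_fixed (F := F₀) (E := E) x).2 hfix
  exact ⟨⟨c₀, by rw [Subring.mem_comap, hc₀]; exact hx⟩, hc₀⟩

/-- The norm `∏ σ, σ b` is fixed by every `τ`. -/
theorem qa_gal_norm_fixed (b : E) (τ : E ≃ₐ[F₀] E) :
    τ (∏ σ : E ≃ₐ[F₀] E, σ b) = ∏ σ : E ≃ₐ[F₀] E, σ b := by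
  rw [map_prod]
  exact Fintype.prod_equiv (Equiv.mulLeft τ) _ _ (fun σ => rfl)

/-- The polynomial `∏ σ, (X - σ b)` is fixed (coefficientwise) by every `τ`. -/
theorem qa_gal_poly_fixed (b : E) (τ : E ≃ₐ[F₀] E) :
    (∏ σ : E ≃ₐ[F₀] E, (Polynomial.X - Polynomial.C (σ b))).map (τ : E →+* E) =
      ∏ σ : E ≃ₐ[F₀] E, (Polynomial.X - Polynomial.C (σ b)) := by
  rw [Polynomial.map_prod]
  simp only [Polynomial.map_sub, Polynomial.map_X, Polynomial.map_C]
  exact Fintype.prod_equiv (Equiv.mulLeft τ) _ _ (fun σ => rfl)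

/-- The coefficients of `∏ σ, (X - σ b)` lie in `B` for `b ∈ B`. -/
theorem qa_gal_poly_coeff_mem (B : Subring E) (hstab : ∀ (σ : E ≃ₐ[F₀] E), ∀ x ∈ B, σ x ∈ B)
    (b : ↥B) (n : ℕ) :
    (∏ σ : E ≃ₐ[F₀] E, (Polynomial.X - Polynomial.C (σ (b : E)))).coeff n ∈ B := by
  have h : (∏ σ : E ≃ₐ[F₀] E, (Polynomial.X - Polynomial.C (σ (b : E)))) =
      (∏ σ : E ≃ₐ[F₀] E,
        (Polynomial.X - Polynomial.C (⟨σ (b : E), hstab σ b b.2⟩ : ↥B))).map B.subtype := by
    rw [Polynomial.map_prod]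
    simp only [Polynomial.map_sub, Polynomial.map_X, Polynomial.map_C, Subring.coe_subtype]
  rw [h, Polynomial.coeff_map]
  exact Subtype.property _

/-- (Gal) Norms of elements of `B` lie in `C`, and `B` is integral over `C`. -/
theorem qa_gal_main : qa_GalStatement := by
  intro F₀ E _ _ _ _ _ B hstab
  refine ⟨fun b => ?_, fun b => ?_⟩
  · exact qa_gal_fixed_mem B _ (Subring.prod_mem _ (fun σ _ => hstab σ b b.2))
      (qa_gal_norm_fixed (b : E))
  · -- integrality
    have hlift : (∏ σ : E ≃ₐ[F₀] E, (Polynomial.X - Polynomial.C (σ (b : E)))) ∈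
        Polynomial.lifts ((algebraMap F₀ E).comp (B.comap (algebraMap F₀ E)).subtype) := by
      rw [Polynomial.lifts_iff_coeff_lifts]
      intro n
      obtain ⟨c, hc⟩ := qa_gal_fixed_mem (F₀ := F₀) B _ (qa_gal_poly_coeff_mem B hstab b n)
        (fun τ => by
          have h := congrArg (fun Q => Polynomial.coeff Q n) (qa_gal_poly_fixed (b : E) τ)
          simpa only [Polynomial.coeff_map, RingHom.coe_coe] using h)
      exact ⟨c, hc⟩
    have hmonic : (∏ σ : E ≃ₐ[F₀] E, (Polynomial.X - Polynomial.C (σ (b : E)))).Monic :=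
      Polynomial.monic_prod_of_monic _ _ (fun σ _ => Polynomial.monic_X_sub_C _)
    obtain ⟨p, hp, -, hpm⟩ := Polynomial.lifts_and_natDegree_eq_and_monic hlift hmonic
    refine ⟨p, hpm, ?_⟩
    apply Subtype.ext
    have h1 : ((p.eval₂ (qa_incl B) b : ↥B) : E) =
        p.eval₂ ((algebraMap F₀ E).comp (B.comap (algebraMap F₀ E)).subtype) (b : E) :=
      Polynomial.hom_eval₂ p (qa_incl B) B.subtype b
    rw [h1, ← Polynomial.eval_map, hp, Polynomial.eval_prod]
    refine Finset.prod_eq_zero (Finset.mem_univ (1 : E ≃ₐ[F₀] E)) ?_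
    simp

end QAGal

end Fermat.Agent.S18
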