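/-
S18 — block "Quotient lemma" (twin A), package QA/Gen (twin T):
`B_n = C_n + (ϖ, x) B_n` and `n C_n ⊆ (ϖ, x) B_n` for a good parameter `x` at `M`.

Main result: `qa_genT_main : qa_GenStatement`.
-/
import Fermat.Agent.S18.QAInterfaces

set_option autoImplicit false

namespace Fermat.Agent.S18

section QAGenT

variable {F₀ E : Type} [Field F₀] [Field E] [Algebra F₀ E]

/-- The action of `σ ∈ G` on the `G`-stable subring `B`, as a ring endomorphism of `↥B`. -/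
noncomputable def qa_genT_act (B : Subring E) (hstab : ∀ (σ : E ≃ₐ[F₀] E), ∀ x ∈ B, σ x ∈ B)
    (σ : E ≃ₐ[F₀] E) : ↥B →+* ↥B :=
  (((σ : E ≃+* E) : E →+* E).comp B.subtype).codRestrict B (fun z => hstab σ z z.2)

theorem qa_genT_act_coe (B : Subring E) (hstab : ∀ (σ : E ≃ₐ[F₀] E), ∀ x ∈ B, σ x ∈ B)
    (σ : E ≃ₐ[F₀] E) (z : ↥B) : ((qa_genT_act B hstab σ z : ↥B) : E) = σ (z : E) := rfl

/-- STEP 1 (key lemma): every `b ∈ M` satisfies `ι c * b = ϖ β₁ + x β₂` with `c ∈ C ∖ n` and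
`β₁, β₂ ∈ B`. -/
theorem qa_genT_key [FiniteDimensional F₀ E] (B : Subring E)
    (hstab : ∀ (σ : E ≃ₐ[F₀] E), ∀ x ∈ B, σ x ∈ B)
    (hnorm : ∀ b : ↥B, ∃ c : ↥(B.comap (algebraMap F₀ E)),
      algebraMap F₀ E (c : F₀) = ∏ σ : E ≃ₐ[F₀] E, σ (b : E))
    (n : Ideal ↥(B.comap (algebraMap F₀ E))) (ϖ : ↥(B.comap (algebraMap F₀ E)))
    (M : Ideal ↥B) [M.IsMaximal] (hMn : M.comap (qa_incl B) = n)
    (x : ↥B) (hx : qa_IsParam F₀ B M (qa_incl B ϖ) x)
    (b : ↥B) (hb : b ∈ M) :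
    ∃ c : ↥(B.comap (algebraMap F₀ E)), c ∉ n ∧ ∃ β₁ β₂ : ↥B,
      algebraMap F₀ E (c : F₀) * (b : E) =
        algebraMap F₀ E (ϖ : F₀) * (β₁ : E) + (x : E) * (β₂ : E) := by
  classical
  have hMp : M.IsPrime := inferInstance
  -- (a) clear denominators in `b = ϖ u + x w`
  obtain ⟨u, ⟨a₁, s₁, hs₁, hu⟩, w, ⟨a₂, s₂, hs₂, hw⟩, hbe⟩ := hx.gen b hb
  have hbe' : (b : E) = algebraMap F₀ E (ϖ : F₀) * u + (x : E) * w := hbe
  obtain ⟨s, hs_def⟩ : ∃ s : ↥B, s = s₁ * s₂ := ⟨_, rfl⟩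
  have hs : s ∉ M := fun h => (hMp.mem_or_mem (hs_def ▸ h)).elim hs₁ hs₂
  have hsb : (s : E) * (b : E) =
      algebraMap F₀ E (ϖ : F₀) * ((a₁ : E) * (s₂ : E)) + (x : E) * ((a₂ : E) * (s₁ : E)) := by
    rw [hbe', hs_def, Subring.coe_mul, ← hu, ← hw]; ring
  -- (b) the element `α`
  obtain ⟨act, hact⟩ : ∃ act : (E ≃ₐ[F₀] E) → ↥B →+* ↥B,
      ∀ σ z, ((act σ z : ↥B) : E) = σ (z : E) :=
    ⟨qa_genT_act B hstab, fun σ z => rfl⟩
  obtain ⟨U, hU⟩ : ∃ U : Finset (E ≃ₐ[F₀] E), ∀ σ, σ ∈ U ↔ act σ x ∉ M :=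
    ⟨Finset.univ.filter (fun σ => act σ x ∉ M), fun σ => by simp⟩
  obtain ⟨α, hα⟩ : ∃ α : ↥B, α = ∏ σ ∈ U, act σ.symm x := ⟨_, rfl⟩
  have hαM : α ∉ M := by
    intro h
    rw [hα, Ideal.IsPrime.prod_mem_iff] at h
    obtain ⟨σ, hσU, hσ⟩ := h
    have hσ' : act σ x ∉ M := (hU σ).1 hσU
    have hxe : ((x : ↥B) : E) = σ.symm ((act σ x : ↥B) : E) := by
      rw [hact]; simp
    have := hx.conj σ.symm (act σ.symm x) (hact _ _) hσ (act σ x) x hxe
    exact hσ' (this.1 hx.mem)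
  have hταM : ∀ τ ∈ U, act τ α ∈ M := by
    intro τ hτ
    rw [hα, map_prod, Ideal.IsPrime.prod_mem_iff]
    refine ⟨τ, hτ, ?_⟩
    have : act τ (act τ.symm x) = x := Subtype.ext (by rw [hact, hact]; simp)
    rw [this]; exact hx.mem
  -- (c) the element `s''`, no conjugate of which lies in `M`
  obtain ⟨s'', hs''⟩ : ∃ s'' : ↥B, s'' = α * s + x := ⟨_, rfl⟩
  have hτs'' : ∀ τ : E ≃ₐ[F₀] E, act τ s'' ∉ M := by
    intro τ hmem
    have hexp : act τ s'' = act τ α * act τ s + act τ x := by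
      rw [hs'', map_add, map_mul]
    by_cases hτ : τ ∈ U
    · have hτx : act τ x ∉ M := (hU τ).1 hτ
      apply hτx
      have : act τ x = act τ s'' - act τ α * act τ s := by rw [hexp]; ring
      rw [this]
      exact M.sub_mem hmem (M.mul_mem_right _ (hταM τ hτ))
    · have hτx : act τ x ∈ M := by
        by_contra h
        exact hτ ((hU τ).2 h)
      have hconj := hx.conj τ (act τ x) (hact _ _) hτx
      have h1 : act τ α ∉ M := fun h => hαM ((hconj α (act τ α) (hact _ _)).1 h)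
      have h2 : act τ s ∉ M := fun h => hs ((hconj s (act τ s) (hact _ _)).1 h)
      have h3 : act τ α * act τ s ∈ M := by
        have : act τ α * act τ s = act τ s'' - act τ x := by rw [hexp]; ring
        rw [this]
        exact M.sub_mem hmem hτx
      exact (hMp.mem_or_mem h3).elim h1 h2
  -- (d) the norm of `s''`
  obtain ⟨c, hc⟩ := hnorm s''
  have hcB : qa_incl B c = ∏ τ : E ≃ₐ[F₀] E, act τ s'' := by
    apply Subtype.ext
    rw [qa_incl_coe, hc]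
    change _ = B.subtype (∏ τ : E ≃ₐ[F₀] E, act τ s'')
    rw [map_prod]
    exact Finset.prod_congr rfl (fun τ _ => (hact τ s'').symm)
  have hcn : c ∉ n := by
    intro h
    rw [← hMn, Ideal.mem_comap, hcB, Ideal.IsPrime.prod_mem_iff] at h
    obtain ⟨τ, -, hτ⟩ := h
    exact hτs'' τ hτ
  refine ⟨c, hcn, ?_⟩
  obtain ⟨P, hP⟩ : ∃ P : ↥B,
      P = ∏ τ ∈ (Finset.univ : Finset (E ≃ₐ[F₀] E)).erase 1, act τ s'' := ⟨_, rfl⟩
  have hprod : ∏ τ : E ≃ₐ[F₀] E, act τ s'' = s'' * P := by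
    rw [hP, ← Finset.mul_prod_erase Finset.univ (fun τ => act τ s'')
      (Finset.mem_univ (1 : E ≃ₐ[F₀] E))]
    congr 1
    exact Subtype.ext (by rw [hact]; simp)
  refine ⟨P * α * a₁ * s₂, P * (α * a₂ * s₁ + b), ?_⟩
  have hcE : algebraMap F₀ E (c : F₀) = (s'' : E) * (P : E) := by
    have := congrArg (fun z : ↥B => (z : E)) (hcB.trans hprod)
    simpa using this
  rw [hcE, hs'']
  push_cast
  linear_combination (P : E) * (α : E) * hsb

/-- (Gen) `B_n = C_n + (ϖ, x) B_n` and `n C_n ⊆ (ϖ, x) B_n`. -/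
theorem qa_genT_main : qa_GenStatement := by
  intro F₀ E _ _ _ _ B hstab hnorm n _ ϖ M _ hMn hres x hx
  have hnp : n.IsPrime := inferInstance
  have hinj : Function.Injective (algebraMap F₀ E) := (algebraMap F₀ E).injective
  have hne : ∀ s : ↥(B.comap (algebraMap F₀ E)), s ∉ n → algebraMap F₀ E (s : F₀) ≠ 0 := by
    intro s hs h0
    apply hs
    have : s = 0 := Subtype.ext (hinj (by rw [h0]; simp))
    rw [this]; exact n.zero_mem
  have hBn : ∀ (β : ↥B) (c s : ↥(B.comap (algebraMap F₀ E))), c ∉ n → s ∉ n →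
      (β : E) / (algebraMap F₀ E (c : F₀) * algebraMap F₀ E (s : F₀)) ∈ qa_Bn B n := by
    intro β c s hc hs
    have hc0 := hne c hc
    have hs0 := hne s hs
    refine ⟨c * s, fun h => (hnp.mem_or_mem h).elim hc hs, ?_⟩
    have : (β : E) / (algebraMap F₀ E (c : F₀) * algebraMap F₀ E (s : F₀)) *
        algebraMap F₀ E ((c * s : ↥(B.comap (algebraMap F₀ E))) : F₀) = (β : E) := by
      rw [Subring.coe_mul, map_mul]; field_simp
    rw [this]; exact β.2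
  constructor
  · rintro b ⟨s, hs, hbs⟩
    obtain ⟨c₀, hc₀⟩ := hres ⟨_, hbs⟩
    obtain ⟨c, hc, β₁, β₂, hβ⟩ := qa_genT_key B hstab hnorm n ϖ M hMn x hx _ hc₀
    have hs0 := hne s hs
    have hc0 := hne c hc
    have hsF : (s : F₀) ≠ 0 := fun h => hs0 (by rw [h, map_zero])
    refine ⟨(c₀ : F₀) / (s : F₀), ⟨c₀, s, hs, by field_simp⟩,
      (β₁ : E) / (algebraMap F₀ E (c : F₀) * algebraMap F₀ E (s : F₀)), hBn β₁ c s hc hs,
      (β₂ : E) / (algebraMap F₀ E (c : F₀) * algebraMap F₀ E (s : F₀)), hBn β₂ c s hc hs, ?_⟩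
    have hβ' : algebraMap F₀ E (c : F₀) *
        (b * algebraMap F₀ E (s : F₀) - algebraMap F₀ E (c₀ : F₀)) =
        algebraMap F₀ E (ϖ : F₀) * (β₁ : E) + (x : E) * (β₂ : E) := hβ
    rw [map_div₀]
    field_simp
    linear_combination hβ'
  · intro a s ha hs
    have haM : qa_incl B a ∈ M := by
      rw [← hMn] at ha; exact ha
    obtain ⟨c, hc, β₁, β₂, hβ⟩ := qa_genT_key B hstab hnorm n ϖ M hMn x hx _ haM
    have hs0 := hne s hs
    have hc0 := hne c hc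
    refine ⟨(β₁ : E) / (algebraMap F₀ E (c : F₀) * algebraMap F₀ E (s : F₀)), hBn β₁ c s hc hs,
      (β₂ : E) / (algebraMap F₀ E (c : F₀) * algebraMap F₀ E (s : F₀)), hBn β₂ c s hc hs, ?_⟩
    have hβ' : algebraMap F₀ E (c : F₀) * algebraMap F₀ E (a : F₀) =
        algebraMap F₀ E (ϖ : F₀) * (β₁ : E) + (x : E) * (β₂ : E) := hβ
    field_simp
    linear_combination hβ'

end QAGenT

end Fermat.Agent.S18
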