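/-
S18 — block "Quotient lemma" (twin A), package QA/Nil.

For a good parameter `x` at a maximal ideal `M` of `B` lying over `n`, no power of the norm
`∏ σ, σ x` lies in `ϖ C_n`.

Proof.  Write `O = locSub B M` and `P u :⟺ ∃ t ∈ O, u = ϖ * t`.  If `N(x) ^ m = ϖ * c` with `c ∈ C_n`,
then `P (N(x) ^ m)`; since `ϖ O` is a prime ideal of `O` (and `1 ∉ ϖ O`), some conjugate `σ x` lies in
`ϖ O`, hence in `M`; by the conjugation property `σ⁻¹ M = M`, so `x ∈ ϖ O`, and then `M ⊆ ϖ O + x O ⊆ ϖ O`,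
contradicting `M ⊄ ϖ O`.
-/
import Fermat.Agent.S18.QAInterfaces

set_option autoImplicit false

namespace Fermat.Agent.S18

noncomputable section

section QANil

/-- If `p O` is "prime" and `1 ∉ p O`, then `u ^ m ∈ p O` implies `u ∈ p O` (`u ∈ O`). -/
theorem qa_nil_pow {E : Type} [Field E] (O : Subring E) (p : E)
    (hprime : ∀ u ∈ O, ∀ w ∈ O, (∃ t ∈ O, u * w = p * t) →
      (∃ t ∈ O, u = p * t) ∨ (∃ t ∈ O, w = p * t))
    (hone : ¬ ∃ t ∈ O, (1 : E) = p * t) (u : E) (hu : u ∈ O) (m : ℕ)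
    (h : ∃ t ∈ O, u ^ m = p * t) : ∃ t ∈ O, u = p * t := by
  induction m with
  | zero => exact absurd (by simpa using h) hone
  | succ k ih =>
    rw [pow_succ] at h
    rcases hprime (u ^ k) (pow_mem hu k) u hu h with h1 | h1
    · exact ih h1
    · exact h1

/-- If `p O` is "prime" and `1 ∉ p O`, then a finite product of elements of `O` lying in `p O` has a
factor in `p O`. -/
theorem qa_nil_prod {E : Type} [Field E] (O : Subring E) (p : E)
    (hprime : ∀ u ∈ O, ∀ w ∈ O, (∃ t ∈ O, u * w = p * t) →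
      (∃ t ∈ O, u = p * t) ∨ (∃ t ∈ O, w = p * t))
    (hone : ¬ ∃ t ∈ O, (1 : E) = p * t) {ι : Type} (s : Finset ι) (f : ι → E)
    (hf : ∀ i ∈ s, f i ∈ O) (h : ∃ t ∈ O, ∏ i ∈ s, f i = p * t) :
    ∃ i ∈ s, ∃ t ∈ O, f i = p * t := by
  classical
  induction s using Finset.induction_on with
  | empty => exact absurd (by simpa using h) hone
  | insert a s ha ih =>
    rw [Finset.prod_insert ha] at h
    rcases hprime (f a) (hf a (Finset.mem_insert_self a s)) _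
      (prod_mem fun i hi => hf i (Finset.mem_insert_of_mem hi)) h with h1 | h1
    · exact ⟨a, Finset.mem_insert_self a s, h1⟩
    · obtain ⟨i, hi, hi'⟩ := ih (fun i hi => hf i (Finset.mem_insert_of_mem hi)) h1
      exact ⟨i, Finset.mem_insert_of_mem hi, hi'⟩

/-- (Nil) For a good parameter `x` at `M` (over `n`), no power of the norm of `x` lies in `ϖ C_n`. -/
theorem qa_nil_main : qa_NilStatement := by
  intro F₀ E _ _ _ _ B hstab n _ ϖ M _ hMn hϖ x hx m c hc heq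
  -- notation
  have hBO : B ≤ locSub B M := le_locSub B M
  -- `qa_incl B ϖ ∈ M`
  have hϖM : qa_incl B ϖ ∈ M := by
    have : ϖ ∈ M.comap (qa_incl B) := by rw [hMn]; exact hϖ
    exact Ideal.mem_comap.1 this
  -- (0) `ι c ∈ O`
  have hcO : algebraMap F₀ E c ∈ locSub B M := by
    obtain ⟨a, s, hs, h⟩ := hc
    refine ⟨qa_incl B a, qa_incl B s, fun hmem => hs ?_, ?_⟩
    · rw [← hMn]; exact Ideal.mem_comap.2 hmem
    · rw [qa_incl_coe, qa_incl_coe, ← map_mul, h]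
  -- (1) `1 ∉ ϖ O`
  have hone : ¬ ∃ t ∈ locSub B M, (1 : E) = ((qa_incl B ϖ : ↥B) : E) * t := by
    rintro ⟨t, ht, h1⟩
    obtain ⟨y, hyM, hy⟩ := hx.notfield
    refine hy ⟨t * (y : E), mul_mem ht (hBO y.2), ?_⟩
    rw [← mul_assoc, ← h1, one_mul]
  -- (2) some conjugate of `x` lies in `ϖ O`
  have hpow : ∃ t ∈ locSub B M,
      (∏ σ : E ≃ₐ[F₀] E, σ (x : E)) = ((qa_incl B ϖ : ↥B) : E) * t := by
    refine qa_nil_pow (locSub B M) _ hx.prime hone _ ?_ m ⟨algebraMap F₀ E c, hcO, ?_⟩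
    · exact prod_mem fun σ _ => hBO (hstab σ _ x.2)
    · rw [heq, qa_incl_coe]
  obtain ⟨σ, -, t, ht, hσ⟩ := qa_nil_prod (locSub B M) _ hx.prime hone Finset.univ
    (fun σ : E ≃ₐ[F₀] E => σ (x : E)) (fun σ _ => hBO (hstab σ _ x.2)) hpow
  -- (3) `σ x ∈ M`
  obtain ⟨a, s, hs, hts⟩ := ht
  have hσs : σ (x : E) * (s : E) = ((qa_incl B ϖ : ↥B) : E) * (a : E) := by
    rw [hσ, mul_assoc, hts]
  have hσM : (⟨σ (x : E), hstab σ _ x.2⟩ : ↥B) ∈ M := by
    have hmem : (⟨σ (x : E), hstab σ _ x.2⟩ : ↥B) * s ∈ M := by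
      have e : (⟨σ (x : E), hstab σ _ x.2⟩ : ↥B) * s = qa_incl B ϖ * a := Subtype.ext hσs
      rw [e]
      exact M.mul_mem_right _ hϖM
    rcases Ideal.IsPrime.mem_or_mem inferInstance hmem with h1 | h1
    · exact h1
    · exact absurd h1 hs
  -- (4) `σ⁻¹ M = M`
  have hconj := hx.conj σ ⟨σ (x : E), hstab σ _ x.2⟩ rfl hσM
  -- (5) `x ∈ ϖ O`
  have hs' : (⟨σ.symm (s : E), hstab σ.symm _ s.2⟩ : ↥B) ∉ M := fun hmem =>
    hs ((hconj ⟨σ.symm (s : E), hstab σ.symm _ s.2⟩ s (σ.apply_symm_apply (s : E)).symm).2 hmem)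
  have hs0 : σ.symm (s : E) ≠ 0 := by
    intro h0
    apply hs'
    have e : (⟨σ.symm (s : E), hstab σ.symm _ s.2⟩ : ↥B) = 0 := Subtype.ext h0
    rw [e]
    exact M.zero_mem
  have hxs : (x : E) * σ.symm (s : E) = ((qa_incl B ϖ : ↥B) : E) * σ.symm (a : E) := by
    have := congrArg σ.symm hσs
    rw [map_mul, map_mul, σ.symm_apply_apply, qa_incl_coe, AlgEquiv.commutes] at this
    rw [qa_incl_coe]
    exact this
  have ht' : σ.symm (a : E) / σ.symm (s : E) ∈ locSub B M :=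
    ⟨⟨σ.symm (a : E), hstab σ.symm _ a.2⟩, ⟨σ.symm (s : E), hstab σ.symm _ s.2⟩, hs',
      div_mul_cancel₀ _ hs0⟩
  have hxt : (x : E) = ((qa_incl B ϖ : ↥B) : E) * (σ.symm (a : E) / σ.symm (s : E)) := by
    rw [← mul_div_assoc, ← hxs, mul_div_cancel_right₀ _ hs0]
  -- (6) `M ⊆ ϖ O`: contradiction
  obtain ⟨y, hyM, hy⟩ := hx.notfield
  obtain ⟨u, hu, w, hw, e⟩ := hx.gen y hyM
  refine hy ⟨u + σ.symm (a : E) / σ.symm (s : E) * w, add_mem hu (mul_mem ht' hw), ?_⟩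
  rw [e, hxt]
  ring

end QANil

end

end Fermat.Agent.S18
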