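/-
S18 — block "Quotient lemma" (P3), twin A: package Nil (backup copy by the sub-lead).
No power of the norm of a good parameter lies in `ϖ C_n`.
-/
import Fermat.Agent.S18.QAInterfaces

set_option autoImplicit false

namespace Fermat.Agent.S18

section

variable {F₀ E : Type} [Field F₀] [Field E] [Algebra F₀ E]

/-- `u ∈ ϖ O`. -/
def qa_nilT_P (B : Subring E) (M : Ideal ↥B) [M.IsPrime] (ϖ : E) (u : E) : Prop :=
  ∃ t ∈ locSub B M, u = ϖ * t

theorem qa_nilT_not_one (B : Subring E) (M : Ideal ↥B) [M.IsPrime] (ϖ x : ↥B)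
    (hx : qa_IsParam F₀ B M ϖ x) : ¬ qa_nilT_P B M (ϖ : E) 1 := by
  rintro ⟨t, ht, h1⟩
  obtain ⟨y, hyM, hy⟩ := hx.notfield
  apply hy
  refine ⟨t * (y : E), (locSub B M).mul_mem ht (le_locSub B M y.2), ?_⟩
  rw [← mul_assoc, ← h1, one_mul]

theorem qa_nilT_pow (B : Subring E) (M : Ideal ↥B) [M.IsPrime] (ϖ x : ↥B)
    (hx : qa_IsParam F₀ B M ϖ x) (u : E) (hu : u ∈ locSub B M) (m : ℕ)
    (h : qa_nilT_P B M (ϖ : E) (u ^ m)) : qa_nilT_P B M (ϖ : E) u := by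
  induction m with
  | zero => rw [pow_zero] at h; exact absurd h (qa_nilT_not_one B M ϖ x hx)
  | succ k ih =>
    rw [pow_succ] at h
    rcases hx.prime (u ^ k) ((locSub B M).pow_mem hu k) u hu h with h1 | h1
    · exact ih h1
    · exact h1

theorem qa_nilT_prod [FiniteDimensional F₀ E] (B : Subring E)
    (hstab : ∀ (σ : E ≃ₐ[F₀] E), ∀ x ∈ B, σ x ∈ B) (M : Ideal ↥B) [M.IsPrime] (ϖ x : ↥B)
    (hx : qa_IsParam F₀ B M ϖ x) (s : Finset (E ≃ₐ[F₀] E))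
    (h : qa_nilT_P B M (ϖ : E) (∏ σ ∈ s, σ (x : E))) :
    ∃ σ : E ≃ₐ[F₀] E, qa_nilT_P B M (ϖ : E) (σ (x : E)) := by
  classical
  induction s using Finset.induction_on with
  | empty => rw [Finset.prod_empty] at h; exact absurd h (qa_nilT_not_one B M ϖ x hx)
  | insert a s ha ih =>
    rw [Finset.prod_insert ha] at h
    have h1 : a (x : E) ∈ locSub B M := le_locSub B M (hstab a _ x.2)
    have h2 : (∏ σ ∈ s, σ (x : E)) ∈ locSub B M :=
      (locSub B M).prod_mem (fun σ _ => le_locSub B M (hstab σ _ x.2))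
    rcases hx.prime _ h1 _ h2 h with h3 | h3
    · exact ⟨a, h3⟩
    · exact ih h3

end

/-- (Nil) -/
theorem qa_nilT_main : qa_NilStatement := by
  intro F₀ E _ _ _ _ B hstab n hnmax ϖ M hMmax hMn hϖn x hx m c hc heq
  have hMprime : M.IsPrime := hMmax.isPrime
  -- (0) `ι c ∈ O`
  have hcO : algebraMap F₀ E c ∈ locSub B M := by
    obtain ⟨a, s, hs, h⟩ := hc
    refine ⟨qa_incl B a, qa_incl B s, ?_, ?_⟩
    · intro hsM
      apply hs
      rw [← hMn]; exact hsM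
    · rw [qa_incl_coe, qa_incl_coe, ← map_mul, h]
  have hϖM : qa_incl B ϖ ∈ M := by
    have : ϖ ∈ M.comap (qa_incl B) := by rw [hMn]; exact hϖn
    exact this
  have hP : qa_nilT_P B M ((qa_incl B ϖ : ↥B) : E) ((∏ σ : E ≃ₐ[F₀] E, σ (x : E)) ^ m) :=
    ⟨algebraMap F₀ E c, hcO, heq⟩
  have hprodO : (∏ σ : E ≃ₐ[F₀] E, σ (x : E)) ∈ locSub B M :=
    (locSub B M).prod_mem (fun σ _ => le_locSub B M (hstab σ _ x.2))
  obtain ⟨σ, t, ht, hσ⟩ := qa_nilT_prod B hstab M _ x hx Finset.univ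
    (qa_nilT_pow B M _ x hx _ hprodO m hP)
  obtain ⟨a, s, hs, hts⟩ := ht
  -- (3) `σ x ∈ M`
  have hσx : (⟨σ (x : E), hstab σ _ x.2⟩ : ↥B) ∈ M := by
    have h1 : (⟨σ (x : E), hstab σ _ x.2⟩ : ↥B) * s = qa_incl B ϖ * a := by
      apply Subtype.ext
      show σ (x : E) * (s : E) = ((qa_incl B ϖ : ↥B) : E) * (a : E)
      rw [hσ, mul_assoc, hts]
    have h2 : (⟨σ (x : E), hstab σ _ x.2⟩ : ↥B) * s ∈ M := by
      rw [h1]; exact M.mul_mem_right _ hϖM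
    exact (hMprime.mem_or_mem h2).resolve_right hs
  -- (4)
  have hconj := hx.conj σ ⟨σ (x : E), hstab σ _ x.2⟩ rfl hσx
  -- (5) `P x`
  have hs' : (⟨σ.symm (s : E), hstab σ.symm _ s.2⟩ : ↥B) ∉ M := by
    intro h
    exact hs ((hconj ⟨σ.symm (s : E), hstab σ.symm _ s.2⟩ s
      (by simp)).2 h)
  have hs0 : σ.symm (s : E) ≠ 0 := by
    intro h0
    apply hs'
    have : (⟨σ.symm (s : E), hstab σ.symm _ s.2⟩ : ↥B) = 0 := Subtype.ext h0
    rw [this]; exact M.zero_mem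
  have hxeq : (x : E) * σ.symm (s : E) = ((qa_incl B ϖ : ↥B) : E) * σ.symm (a : E) := by
    have h1 : σ (x : E) * (s : E) = ((qa_incl B ϖ : ↥B) : E) * (a : E) := by
      rw [hσ, mul_assoc, hts]
    have h2 := congrArg σ.symm h1
    rw [map_mul, map_mul, AlgEquiv.symm_apply_apply, qa_incl_coe, AlgEquiv.commutes] at h2
    rw [qa_incl_coe]; exact h2
  have ht' : σ.symm (a : E) / σ.symm (s : E) ∈ locSub B M :=
    ⟨⟨σ.symm (a : E), hstab σ.symm _ a.2⟩, ⟨σ.symm (s : E), hstab σ.symm _ s.2⟩, hs', by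
      show σ.symm (a : E) / σ.symm (s : E) * σ.symm (s : E) = σ.symm (a : E)
      field_simp⟩
  have hxP : (x : E) = ((qa_incl B ϖ : ↥B) : E) * (σ.symm (a : E) / σ.symm (s : E)) := by
    rw [← mul_div_assoc, ← hxeq, mul_div_assoc, div_self hs0, mul_one]
  -- (6)
  obtain ⟨y, hyM, hy⟩ := hx.notfield
  apply hy
  obtain ⟨u, hu, w, hw, hyeq⟩ := hx.gen y hyM
  refine ⟨u + σ.symm (a : E) / σ.symm (s : E) * w,
    (locSub B M).add_mem hu ((locSub B M).mul_mem ht' hw), ?_⟩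
  rw [hyeq]
  conv_lhs => rw [hxP]
  ring

end Fermat.Agent.S18
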