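/-
S18 — block "Quotient lemma", package QA/Param (twin T): construction of a good parameter at a maximal
ideal `M` of `B` from the hypothesis that `O / ϖ` is a discrete valuation ring (`O = locSub B M`).
Prefix `qa_paramT_`.
-/
import Fermat.Agent.S18.QAInterfaces
import Fermat.Agent.S18.LocSubB

set_option autoImplicit false

namespace Fermat.Agent.S18

section QAParamT

/-! ## Basic facts about `O = locSub B M` -/

/-- (O1) the inverse of an element of `B` outside `M` lies in `O`. -/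
theorem qa_paramT_inv_mem {E : Type} [Field E] (B : Subring E) (M : Ideal ↥B) [M.IsPrime]
    (s : ↥B) (hs : s ∉ M) : (s : E)⁻¹ ∈ locSub B M := by
  have hs0 : (s : E) ≠ 0 := by
    intro h0
    apply hs
    have : s = 0 := Subtype.ext h0
    rw [this]; exact M.zero_mem
  exact ⟨1, s, hs, by simp [inv_mul_cancel₀ hs0]⟩

/-- Elementwise description of the ideal `ϖ O`. -/
theorem qa_paramT_mem_span_iff {E : Type} [Field E] (B : Subring E) (M : Ideal ↥B) [M.IsPrime]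
    (ϖ : ↥B) (z : ↥(locSub B M)) :
    z ∈ Ideal.span {(⟨(ϖ : E), le_locSub B M ϖ.2⟩ : ↥(locSub B M))} ↔
      ∃ t ∈ locSub B M, (z : E) = (ϖ : E) * t := by
  rw [Ideal.mem_span_singleton']
  constructor
  · rintro ⟨t, ht⟩
    refine ⟨(t : E), t.2, ?_⟩
    have := congrArg (fun w : ↥(locSub B M) => (w : E)) ht
    simp only [Subring.coe_mul] at this
    rw [← this, mul_comm]
  · rintro ⟨t, ht, h⟩
    exact ⟨⟨t, ht⟩, Subtype.ext (by simp [h, mul_comm])⟩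

/-- The image in `O` of an element of `M` lies in the maximal ideal of `O`. -/
theorem qa_paramT_mem_max {E : Type} [Field E] (B : Subring E) (M : Ideal ↥B) [hM : M.IsPrime]
    (y : ↥B) (hy : y ∈ M) :
    (⟨(y : E), le_locSub B M y.2⟩ : ↥(locSub B M)) ∈
      @IsLocalRing.maximalIdeal ↥(locSub B M) _ (locSubB_isLocalRing B M) := by
  rw [locSubB_mem_maximalIdeal_iff]
  exact ⟨y, 1, hy, fun h1 => hM.ne_top ((Ideal.eq_top_iff_one M).2 h1), by simp⟩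

/-! ## Step 1: `prime`, `notfield` and a first generator -/

/-- Step 1: from the DVR hypothesis, `ϖ O` is prime, and there is `x₁ ∈ M`, `x₁ ∉ ϖ O`, with
`M ⊆ ϖ O + x₁ O`. -/
theorem qa_paramT_step1 {E : Type} [Field E] (B : Subring E) (M : Ideal ↥B) [hM : M.IsMaximal]
    (ϖ : ↥B) (hϖ : ϖ ∈ M)
    (hdvr : IsDVRQuot ↥(locSub B M) ⟨(ϖ : E), le_locSub B M ϖ.2⟩) :
    (∀ u ∈ locSub B M, ∀ w ∈ locSub B M, (∃ t ∈ locSub B M, u * w = (ϖ : E) * t) →
      (∃ t ∈ locSub B M, u = (ϖ : E) * t) ∨ (∃ t ∈ locSub B M, w = (ϖ : E) * t)) ∧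
    ∃ x₁ : ↥B, x₁ ∈ M ∧ (¬ ∃ t ∈ locSub B M, (x₁ : E) = (ϖ : E) * t) ∧
      ∀ y ∈ M, ∃ u ∈ locSub B M, ∃ w ∈ locSub B M, (y : E) = (ϖ : E) * u + (x₁ : E) * w := by
  obtain ⟨hdom, hdvr'⟩ := hdvr
  have hloc : IsLocalRing ↥(locSub B M) := locSubB_isLocalRing B M
  have hspan : ∀ z : ↥(locSub B M),
      z ∈ Ideal.span {(⟨(ϖ : E), le_locSub B M ϖ.2⟩ : ↥(locSub B M))} ↔
        ∃ t ∈ locSub B M, (z : E) = (ϖ : E) * t :=
    qa_paramT_mem_span_iff B M ϖ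
  constructor
  · intro u hu w hw huw
    have h0 : Ideal.Quotient.mk
          (Ideal.span {(⟨(ϖ : E), le_locSub B M ϖ.2⟩ : ↥(locSub B M))}) ⟨u, hu⟩ *
        Ideal.Quotient.mk
          (Ideal.span {(⟨(ϖ : E), le_locSub B M ϖ.2⟩ : ↥(locSub B M))}) ⟨w, hw⟩ = 0 := by
      rw [← map_mul, Ideal.Quotient.eq_zero_iff_mem, hspan]
      exact huw
    rcases mul_eq_zero.1 h0 with h | h
    · left
      rw [Ideal.Quotient.eq_zero_iff_mem, hspan] at h
      exact h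
    · right
      rw [Ideal.Quotient.eq_zero_iff_mem, hspan] at h
      exact h
  · obtain ⟨πb, hπb⟩ := IsDiscreteValuationRing.exists_irreducible
      (↥(locSub B M) ⧸ Ideal.span {(⟨(ϖ : E), le_locSub B M ϖ.2⟩ : ↥(locSub B M))})
    have hmaxQ := hπb.maximalIdeal_eq
    obtain ⟨π, rfl⟩ := Ideal.Quotient.mk_surjective πb
    have hπnu : ¬ IsUnit π := fun hu => hπb.not_isUnit (hu.map _)
    have hπmem : π ∈ IsLocalRing.maximalIdeal ↥(locSub B M) := by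
      rwa [IsLocalRing.mem_maximalIdeal, mem_nonunits_iff]
    obtain ⟨a, s, ha, hs, has⟩ := (locSubB_mem_maximalIdeal_iff B M π).1 hπmem
    have hs0 : (s : E) ≠ 0 := by
      intro h0
      apply hs
      have : s = 0 := Subtype.ext h0
      rw [this]; exact M.zero_mem
    have hsinv : (s : E)⁻¹ ∈ locSub B M := qa_paramT_inv_mem B M s hs
    have hπ_eq : (π : E) = (a : E) * (s : E)⁻¹ := by
      rw [← has]; field_simp
    refine ⟨a, ha, ?_, ?_⟩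
    · rintro ⟨t, ht, hat⟩
      apply hπb.ne_zero
      rw [Ideal.Quotient.eq_zero_iff_mem, hspan]
      exact ⟨t * (s : E)⁻¹, Subring.mul_mem _ ht hsinv, by rw [hπ_eq, hat]; ring⟩
    · intro y hy
      have hyO : (⟨(y : E), le_locSub B M y.2⟩ : ↥(locSub B M)) ∈
          IsLocalRing.maximalIdeal ↥(locSub B M) := qa_paramT_mem_max B M y hy
      have hϖmem : (⟨(ϖ : E), le_locSub B M ϖ.2⟩ : ↥(locSub B M)) ∈
          IsLocalRing.maximalIdeal ↥(locSub B M) := qa_paramT_mem_max B M ϖ hϖ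
      have hyQ : Ideal.Quotient.mk
            (Ideal.span {(⟨(ϖ : E), le_locSub B M ϖ.2⟩ : ↥(locSub B M))})
            ⟨(y : E), le_locSub B M y.2⟩ ∈
          IsLocalRing.maximalIdeal
            (↥(locSub B M) ⧸ Ideal.span {(⟨(ϖ : E), le_locSub B M ϖ.2⟩ : ↥(locSub B M))}) := by
        rw [IsLocalRing.mem_maximalIdeal, mem_nonunits_iff]
        intro hu
        obtain ⟨z, hz⟩ := isUnit_iff_exists_inv.1 hu
        obtain ⟨t, rfl⟩ := Ideal.Quotient.mk_surjective z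
        rw [← map_mul, ← map_one (Ideal.Quotient.mk
          (Ideal.span {(⟨(ϖ : E), le_locSub B M ϖ.2⟩ : ↥(locSub B M))})),
          Ideal.Quotient.eq] at hz
        have hle : (Ideal.span {(⟨(ϖ : E), le_locSub B M ϖ.2⟩ : ↥(locSub B M))} :
            Ideal ↥(locSub B M)) ≤ IsLocalRing.maximalIdeal ↥(locSub B M) := by
          rw [Ideal.span_le, Set.singleton_subset_iff]; exact hϖmem
        have h1 := hle hz
        have h2 : (⟨(y : E), le_locSub B M y.2⟩ : ↥(locSub B M)) * t ∈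
            IsLocalRing.maximalIdeal ↥(locSub B M) := Ideal.mul_mem_right _ _ hyO
        have h3 : (1 : ↥(locSub B M)) ∈ IsLocalRing.maximalIdeal ↥(locSub B M) := by
          have := Ideal.sub_mem _ h2 h1
          rwa [sub_sub_cancel] at this
        exact (IsLocalRing.maximalIdeal.isMaximal ↥(locSub B M)).ne_top
          ((Ideal.eq_top_iff_one _).2 h3)
      rw [hmaxQ, Ideal.mem_span_singleton'] at hyQ
      obtain ⟨c, hc⟩ := hyQ
      obtain ⟨w', rfl⟩ := Ideal.Quotient.mk_surjective c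
      rw [← map_mul, Ideal.Quotient.eq, hspan] at hc
      obtain ⟨t, ht, hct⟩ := hc
      refine ⟨-t, Subring.neg_mem _ ht, (w' : E) * (s : E)⁻¹, Subring.mul_mem _ w'.2 hsinv, ?_⟩
      have hct' : (w' : E) * (π : E) - (y : E) = (ϖ : E) * t := by simpa using hct
      rw [hπ_eq] at hct'
      linear_combination (-1 : E) * hct'

/-! ## Step 2: the element `e` -/

/-- If `σ⁻¹ M ≠ M`, there is `a ∈ B ∖ M` with `σ a ∈ M`. -/
theorem qa_paramT_dichotomy (F₀ : Type) {E : Type} [Field F₀] [Field E] [Algebra F₀ E]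
    (B : Subring E) (hstab : ∀ (σ : E ≃ₐ[F₀] E), ∀ x ∈ B, σ x ∈ B)
    (M : Ideal ↥B) [hM : M.IsMaximal] (σ : E ≃ₐ[F₀] E)
    (hD : ¬ ∀ z : ↥B, ((⟨σ (z : E), hstab σ z z.2⟩ : ↥B) ∈ M ↔ z ∈ M)) :
    ∃ a : ↥B, (⟨σ (a : E), hstab σ a a.2⟩ : ↥B) ∈ M ∧ a ∉ M := by
  by_contra hcon
  apply hD
  let f : ↥B →+* ↥B :=
    ((σ : E →+* E).comp B.subtype).codRestrict B (fun z => hstab σ z z.2)
  have hsurj : Function.Surjective f := by
    intro y
    refine ⟨⟨σ.symm (y : E), hstab σ.symm y y.2⟩, Subtype.ext ?_⟩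
    exact σ.apply_symm_apply (y : E)
  have hmax : (M.comap f).IsMaximal := Ideal.comap_isMaximal_of_surjective f hsurj
  have hle : M.comap f ≤ M := fun z hz => by_contra fun hzM => hcon ⟨z, hz, hzM⟩
  have heq : M.comap f = M := hmax.eq_of_le hM.ne_top hle
  intro z
  have : z ∈ M.comap f ↔ z ∈ M := by rw [heq]
  exact this

/-- Step 2: there is `e ∈ B` with `e ≡ 1 mod M` and `τ e ∈ M` for all `τ` with `τ⁻¹ M ≠ M`. -/
theorem qa_paramT_step2 (F₀ : Type) {E : Type} [Field F₀] [Field E] [Algebra F₀ E]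
    [FiniteDimensional F₀ E] (B : Subring E) (hstab : ∀ (σ : E ≃ₐ[F₀] E), ∀ x ∈ B, σ x ∈ B)
    (M : Ideal ↥B) [hM : M.IsMaximal] :
    ∃ e : ↥B, e - 1 ∈ M ∧ ∀ (τ : E ≃ₐ[F₀] E),
      (¬ ∀ z : ↥B, ((⟨τ (z : E), hstab τ z z.2⟩ : ↥B) ∈ M ↔ z ∈ M)) →
        (⟨τ (e : E), hstab τ e e.2⟩ : ↥B) ∈ M := by
  classical
  have hex : ∀ σ : E ≃ₐ[F₀] E, ∃ a : ↥B,
      (¬ ∀ z : ↥B, ((⟨σ (z : E), hstab σ z z.2⟩ : ↥B) ∈ M ↔ z ∈ M)) →
        ((⟨σ (a : E), hstab σ a a.2⟩ : ↥B) ∈ M ∧ a ∉ M) := by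
    intro σ
    by_cases hD : ∀ z : ↥B, ((⟨σ (z : E), hstab σ z z.2⟩ : ↥B) ∈ M ↔ z ∈ M)
    · exact ⟨1, fun h => absurd hD h⟩
    · obtain ⟨a, ha⟩ := qa_paramT_dichotomy F₀ B hstab M σ hD
      exact ⟨a, fun _ => ha⟩
  choose a ha using hex
  let S : Finset (E ≃ₐ[F₀] E) := Finset.univ.filter
    (fun σ => ¬ ∀ z : ↥B, ((⟨σ (z : E), hstab σ z z.2⟩ : ↥B) ∈ M ↔ z ∈ M))
  have hpM : (∏ σ ∈ S, a σ) ∉ M := by
    rw [Ideal.IsPrime.prod_mem_iff]
    rintro ⟨σ, hσS, hσ⟩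
    exact (ha σ (Finset.mem_filter.1 hσS).2).2 hσ
  obtain ⟨p', i, hi, hpi⟩ := hM.exists_inv hpM
  refine ⟨p' * ∏ σ ∈ S, a σ, ?_, ?_⟩
  · have : p' * ∏ σ ∈ S, a σ - 1 = -i := by rw [← hpi]; ring
    rw [this]; exact M.neg_mem hi
  · intro τ hτ
    have hτp : (⟨τ ((∏ σ ∈ S, a σ : ↥B) : E), hstab τ _ (∏ σ ∈ S, a σ).2⟩ : ↥B) ∈ M := by
      have h1 : (⟨τ ((∏ σ ∈ S, a σ : ↥B) : E), hstab τ _ (∏ σ ∈ S, a σ).2⟩ : ↥B) =
          ∏ σ ∈ S, (⟨τ (a σ : E), hstab τ (a σ) (a σ).2⟩ : ↥B) := by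
        apply Subtype.ext
        push_cast
        rw [map_prod]
      rw [h1, Ideal.IsPrime.prod_mem_iff]
      exact ⟨τ, Finset.mem_filter.2 ⟨Finset.mem_univ τ, hτ⟩, (ha τ hτ).1⟩
    have h2 : (⟨τ ((p' * ∏ σ ∈ S, a σ : ↥B) : E), hstab τ _ (p' * ∏ σ ∈ S, a σ).2⟩ : ↥B) =
        ⟨τ (p' : E), hstab τ p' p'.2⟩ *
          ⟨τ ((∏ σ ∈ S, a σ : ↥B) : E), hstab τ _ (∏ σ ∈ S, a σ).2⟩ := by
      apply Subtype.ext
      simp
    rw [h2]
    exact M.mul_mem_left _ hτp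

/-! ## Step 3: the parameter `x = e x₁ + (1 - e)²` -/

/-- (Param) If `O / ϖ` is a DVR (`O = locSub B M`, `M` maximal), there is a good parameter `x`. -/
theorem qa_paramT_main : qa_ParamStatement := by
  intro F₀ E _ _ _ _ B hstab M hM ϖ hϖ hdvr
  obtain ⟨hprime, x₁, hx₁M, hx₁n, hgen₁⟩ := qa_paramT_step1 B M ϖ hϖ hdvr
  obtain ⟨e, he1, heτ⟩ := qa_paramT_step2 F₀ B hstab M
  have hloc : IsLocalRing ↥(locSub B M) := locSubB_isLocalRing B M
  have h1e : 1 - e ∈ M := by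
    have : 1 - e = -(e - 1) := by ring
    rw [this]; exact M.neg_mem he1
  refine ⟨e * x₁ + (1 - e) ^ 2, ⟨?_, ?_, ?_, hprime, ⟨x₁, hx₁M, hx₁n⟩⟩⟩
  · -- `mem`
    refine M.add_mem (M.mul_mem_left _ hx₁M) ?_
    rw [pow_two]; exact M.mul_mem_left _ h1e
  · -- `gen`
    obtain ⟨α, hα, β, hβ, hαβ⟩ := hgen₁ (1 - e) h1e
    have hfO : ((1 - e : ↥B) : E) ∈ locSub B M := le_locSub B M (1 - e).2
    have hβ1 : (1 : E) - β ∈ locSub B M := Subring.sub_mem _ (Subring.one_mem _) hβ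
    have hmmem : (⟨((1 - e : ↥B) : E), hfO⟩ : ↥(locSub B M)) * ⟨1 - β, hβ1⟩ ∈
        IsLocalRing.maximalIdeal ↥(locSub B M) :=
      Ideal.mul_mem_right _ _ (qa_paramT_mem_max B M (1 - e) h1e)
    have hunit : IsUnit (1 - (⟨((1 - e : ↥B) : E), hfO⟩ : ↥(locSub B M)) * ⟨1 - β, hβ1⟩) :=
      IsLocalRing.isUnit_one_sub_self_of_mem_nonunits _ hmmem
    obtain ⟨v, hv⟩ := isUnit_iff_exists_inv.1 hunit
    have hv' : (1 - ((1 - e : ↥B) : E) * (1 - β)) * (v : E) = 1 := by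
      have := congrArg (fun w : ↥(locSub B M) => (w : E)) hv
      simpa using this
    intro y hy
    obtain ⟨u, hu, w, hw, hy'⟩ := hgen₁ y hy
    refine ⟨u - ((1 - e : ↥B) : E) * α * v * w, ?_, v * w, ?_, ?_⟩
    · exact Subring.sub_mem _ hu
        (Subring.mul_mem _ (Subring.mul_mem _ (Subring.mul_mem _ hfO hα) v.2) hw)
    · exact Subring.mul_mem _ v.2 hw
    · push_cast at hαβ hv' ⊢
      linear_combination hy' - (x₁ : E) * w * hv' - (v : E) * w * (1 - (e : E)) * hαβ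
  · -- `conj`
    intro σ y hy hyM z z' hz
    have hD : ∀ z : ↥B, ((⟨σ (z : E), hstab σ z z.2⟩ : ↥B) ∈ M ↔ z ∈ M) := by
      by_contra hD
      have hf := heτ σ hD
      have hy2 : y = (⟨σ (e : E), hstab σ e e.2⟩ : ↥B) * ⟨σ (x₁ : E), hstab σ x₁ x₁.2⟩ +
          (1 - (⟨σ (e : E), hstab σ e e.2⟩ : ↥B)) ^ 2 := by
        apply Subtype.ext
        rw [hy]
        push_cast
        simp only [map_add, map_mul, map_pow, map_sub, map_one]
      have h1 : (1 : ↥B) = y -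
          (⟨σ (e : E), hstab σ e e.2⟩ : ↥B) * ⟨σ (x₁ : E), hstab σ x₁ x₁.2⟩ +
          (⟨σ (e : E), hstab σ e e.2⟩ : ↥B) * (2 - (⟨σ (e : E), hstab σ e e.2⟩ : ↥B)) := by
        rw [hy2]; ring
      have h1M : (1 : ↥B) ∈ M := by
        rw [h1]
        exact M.add_mem (M.sub_mem hyM (M.mul_mem_right _ hf)) (M.mul_mem_right _ hf)
      exact hM.ne_top ((Ideal.eq_top_iff_one M).2 h1M)
    have hz' : z' = ⟨σ (z : E), hstab σ z z.2⟩ := Subtype.ext hz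
    rw [hz']
    exact hD z

end QAParamT

end Fermat.Agent.S18
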