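/-
S18 — block "Quotient lemma" (P3), twin A, package Res: the residue field of `M` is `C / n`, i.e.
`B = C + M`.

Abstract form (`qa_res_claim`, `qa_res_abstract`): let `f : C →+* B` be a homomorphism of commutative
rings, `n` an ideal of `C` such that every monic non-constant polynomial over `C` has a root modulo `n`,
and `M` a prime ideal of `B` with `f n ⊆ M`.  Then every `b : B` which is a root modulo `M` of a monic
polynomial over `C` is congruent modulo `M` to some `f c`.  (Induction on the degree: split off a root
modulo `n` by division with remainder and use that `M` is prime.)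
-/
import Fermat.Agent.S18.QAInterfaces

set_option autoImplicit false

namespace Fermat.Agent.S18

/-- Inductive claim: if `b` is a root modulo the prime `M` of a monic polynomial `p` over `C` of degree
`d`, then `b ≡ f c` modulo `M` for some `c : C`. -/
theorem qa_res_claim {C B : Type} [CommRing C] [CommRing B] (f : C →+* B) (n : Ideal C)
    (hRF : ∀ p : Polynomial C, p.Monic → 0 < p.natDegree → ∃ a : C, p.eval a ∈ n)
    (M : Ideal B) [hM : M.IsPrime] (hnM : ∀ c ∈ n, f c ∈ M) (b : B) :
    ∀ (d : ℕ) (p : Polynomial C), p.Monic → p.natDegree = d → p.eval₂ f b ∈ M →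
      ∃ c : C, b - f c ∈ M := by
  have hBnt : Nontrivial B := by
    refine ⟨⟨0, 1, fun h01 => hM.ne_top ((Ideal.eq_top_iff_one M).2 ?_)⟩⟩
    rw [← h01]
    exact M.zero_mem
  have hCnt : Nontrivial C := f.domain_nontrivial
  intro d
  induction d with
  | zero =>
    intro p hp hd hpb
    have h1 : p = 1 := Polynomial.eq_one_of_monic_natDegree_zero hp hd
    rw [h1, Polynomial.eval₂_one] at hpb
    exact absurd ((Ideal.eq_top_iff_one M).2 hpb) hM.ne_top
  | succ d ih =>
    intro p hp hd hpb
    obtain ⟨a, ha⟩ := hRF p hp (by omega)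
    have hmon : (Polynomial.X - Polynomial.C a).Monic := Polynomial.monic_X_sub_C a
    have hdiv : Polynomial.C (p.eval a) +
        (Polynomial.X - Polynomial.C a) * (p /ₘ (Polynomial.X - Polynomial.C a)) = p := by
      have h := Polynomial.modByMonic_add_div p (Polynomial.X - Polynomial.C a)
      rwa [Polynomial.modByMonic_X_sub_C_eq_C_eval] at h
    have hqdeg : (p /ₘ (Polynomial.X - Polynomial.C a)).natDegree = d := by
      rw [Polynomial.natDegree_divByMonic p hmon, Polynomial.natDegree_X_sub_C, hd]
      omega
    have hqmon : (p /ₘ (Polynomial.X - Polynomial.C a)).Monic := by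
      have hle : (Polynomial.X - Polynomial.C a).degree ≤ p.degree := by
        rw [Polynomial.degree_X_sub_C, Polynomial.degree_eq_natDegree hp.ne_zero, hd]
        exact_mod_cast Nat.succ_le_succ (Nat.zero_le d)
      have h := Polynomial.leadingCoeff_divByMonic_of_monic hmon hle
      rw [Polynomial.Monic, h]
      exact hp
    have hev : p.eval₂ f b =
        f (p.eval a) + (b - f a) * (p /ₘ (Polynomial.X - Polynomial.C a)).eval₂ f b := by
      conv_lhs => rw [← hdiv]
      rw [Polynomial.eval₂_add, Polynomial.eval₂_mul, Polynomial.eval₂_sub, Polynomial.eval₂_X,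
        Polynomial.eval₂_C, Polynomial.eval₂_C]
    have hprod : (b - f a) * (p /ₘ (Polynomial.X - Polynomial.C a)).eval₂ f b ∈ M := by
      have h := M.sub_mem hpb (hnM _ ha)
      rwa [hev, add_sub_cancel_left] at h
    rcases hM.mem_or_mem hprod with h | h
    · exact ⟨a, h⟩
    · exact ih _ hqmon hqdeg h

/-- Abstract form of (Res): if `f : C →+* B` is integral, every monic non-constant polynomial over `C`
has a root modulo `n`, and `M` is a prime ideal of `B` with `f n ⊆ M`, then `B = f C + M`. -/
theorem qa_res_abstract {C B : Type} [CommRing C] [CommRing B] (f : C →+* B) (hf : f.IsIntegral)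
    (n : Ideal C)
    (hRF : ∀ p : Polynomial C, p.Monic → 0 < p.natDegree → ∃ a : C, p.eval a ∈ n)
    (M : Ideal B) [M.IsPrime] (hnM : ∀ c ∈ n, f c ∈ M) (b : B) :
    ∃ c : C, b - f c ∈ M := by
  obtain ⟨p, hp, hpb⟩ := hf b
  exact qa_res_claim f n hRF M hnM b p.natDegree p hp rfl (by rw [hpb]; exact M.zero_mem)

/-- (Res) `B = C + M`. -/
theorem qa_res_main : qa_ResStatement := by
  intro F₀ E _ _ _ B hint n hRF M _ hnM b
  exact qa_res_abstract (qa_incl B) hint n hRF M hnM b

end Fermat.Agent.S18
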