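/-
S18, block "Quotient lemma" (P3), twin B — package KCore.

`qb_kcore_main : qb_GalStatement → qb_KCoreStatement`:
if `x` lies in no maximal ideal of `B` over `n` other than `M₁` and `M₁ O_{M₁} = (ϖ, x) O_{M₁}`, then every
`m ∈ M₁` satisfies `s m ∈ (ϖ, x) B` for some `s ∈ C ∖ n` (clearing denominators with a norm).
-/
import Fermat.Agent.S18.QBInterfaces

set_option autoImplicit false

namespace Fermat.Agent.S18

noncomputable section

/-- Restriction of `σ ∈ Gal(E / F₀)` to the Galois-stable subring `B`. -/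
def qb_kcore_res {F₀ E : Type} [Field F₀] [Field E] [Algebra F₀ E] (B : Subring E)
    (hS : qb_Setup F₀ B) (σ : E ≃ₐ[F₀] E) : ↥B →+* ↥B :=
  ((σ : E →+* E).comp B.subtype).codRestrict B (fun b => hS.stab σ b b.2)

theorem qb_kcore_res_coe {F₀ E : Type} [Field F₀] [Field E] [Algebra F₀ E] (B : Subring E)
    (hS : qb_Setup F₀ B) (σ : E ≃ₐ[F₀] E) (b : ↥B) :
    ((qb_kcore_res B hS σ b : ↥B) : E) = σ (b : E) := rfl

theorem qb_kcore_res_incl {F₀ E : Type} [Field F₀] [Field E] [Algebra F₀ E] (B : Subring E)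
    (hS : qb_Setup F₀ B) (σ : E ≃ₐ[F₀] E) (c : ↥(qb_C F₀ B)) :
    qb_kcore_res B hS σ (qb_incl F₀ B c) = qb_incl F₀ B c :=
  Subtype.ext (by rw [qb_kcore_res_coe, qb_incl_coe, AlgEquiv.commutes])

theorem qb_kcore_res_one {F₀ E : Type} [Field F₀] [Field E] [Algebra F₀ E] (B : Subring E)
    (hS : qb_Setup F₀ B) (b : ↥B) :
    qb_kcore_res B hS (1 : E ≃ₐ[F₀] E) b = b :=
  Subtype.ext rfl

/-- The coercion to `E` of the "norm" `∏ σ, res σ t`. -/
theorem qb_kcore_coe_prod {F₀ E : Type} [Field F₀] [Field E] [Algebra F₀ E]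
    [FiniteDimensional F₀ E] (B : Subring E) (hS : qb_Setup F₀ B) (t : ↥B) :
    (((∏ σ : E ≃ₐ[F₀] E, qb_kcore_res B hS σ t : ↥B)) : E) = ∏ σ : E ≃ₐ[F₀] E, σ (t : E) := by
  rw [← Subring.coe_subtype, map_prod]
  rfl

/-- (KCore) `M₁ B_n = (ϖ, x) B_n`, elementwise with denominators in `C ∖ n`. -/
theorem qb_kcore_main : qb_GalStatement → qb_KCoreStatement := by
  intro hG F₀ E _ _ _ _ _ _ B hS n hn ϖ M₁ hM₁max hM₁ x h1 h2 m hm
  classical
  obtain ⟨hG1, -, -⟩ := hG F₀ E B hS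
  -- (0) the ideal `𝔞 = (J : m)`, `J = (ϖ, x)`
  set J : Ideal ↥B := Ideal.span {qb_incl F₀ B ϖ, x} with hJ
  have hϖJ : qb_incl F₀ B ϖ ∈ J := Ideal.subset_span (Set.mem_insert _ _)
  have hxJ : x ∈ J := Ideal.subset_span (Set.mem_insert_of_mem _ rfl)
  let 𝔞 : Ideal ↥B :=
    { carrier := {t | t * m ∈ J}
      add_mem' := fun {a b} ha hb => by
        show (a + b) * m ∈ J
        rw [add_mul]; exact J.add_mem ha hb
      zero_mem' := by
        show (0 : ↥B) * m ∈ J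
        rw [zero_mul]; exact J.zero_mem
      smul_mem' := fun c a ha => by
        show (c • a) * m ∈ J
        rw [smul_eq_mul, mul_assoc]; exact J.mul_mem_left c ha }
  have h𝔞 : ∀ t : ↥B, t ∈ 𝔞 ↔ t * m ∈ J := fun t => Iff.rfl
  have hx𝔞 : x ∈ 𝔞 := (h𝔞 x).2 (J.mul_mem_right m hxJ)
  obtain ⟨s, hsM, a, b, hsab⟩ := h2 m hm
  have hs𝔞 : s ∈ 𝔞 := by
    rw [h𝔞, hsab]
    exact J.add_mem (J.mul_mem_right a hϖJ) (J.mul_mem_right b hxJ)
  -- (1) `𝔞 + n B = B`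
  have htop : 𝔞 ⊔ Ideal.map (qb_incl F₀ B) n = ⊤ := by
    by_contra hne
    obtain ⟨M, hMmax, hle⟩ := Ideal.exists_le_maximal _ hne
    have hover : qb_Over F₀ B n M := fun c hc =>
      hle (Ideal.mem_sup_right (Ideal.mem_map_of_mem _ hc))
    have hxM : x ∈ M := hle (Ideal.mem_sup_left hx𝔞)
    have hMM₁ : M = M₁ := h1 M hMmax hover hxM
    exact hsM (hMM₁ ▸ hle (Ideal.mem_sup_left hs𝔞))
  obtain ⟨t, ht, w, hw, htw⟩ := Submodule.mem_sup.1 ((Ideal.eq_top_iff_one _).1 htop)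
  -- (2) no conjugate of `t` lies in `M₁`
  have hres : ∀ σ : E ≃ₐ[F₀] E, qb_kcore_res B hS σ t ∉ M₁ := by
    intro σ hσ
    have hle : Ideal.map (qb_incl F₀ B) n ≤ M₁.comap (qb_kcore_res B hS σ) := by
      rw [Ideal.map_le_iff_le_comap]
      intro c hc
      rw [Ideal.mem_comap, Ideal.mem_comap, qb_kcore_res_incl]
      exact hM₁ c hc
    have hw' : qb_kcore_res B hS σ w ∈ M₁ := hle hw
    have h1mem : qb_kcore_res B hS σ (t + w) ∈ M₁ := by
      rw [map_add]; exact M₁.add_mem hσ hw'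
    rw [htw, map_one] at h1mem
    exact hM₁max.ne_top ((Ideal.eq_top_iff_one _).2 h1mem)
  -- (3) the norm of `t`
  have hNtM : (∏ σ : E ≃ₐ[F₀] E, qb_kcore_res B hS σ t) ∉ M₁ := by
    intro h
    obtain ⟨σ, -, hσ⟩ := (hM₁max.isPrime.prod_mem_iff).1 h
    exact hres σ hσ
  have hNt𝔞 : (∏ σ : E ≃ₐ[F₀] E, qb_kcore_res B hS σ t) ∈ 𝔞 := by
    rw [← Finset.mul_prod_erase Finset.univ _ (Finset.mem_univ (1 : E ≃ₐ[F₀] E)),
      qb_kcore_res_one]
    exact 𝔞.mul_mem_right _ ht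
  obtain ⟨c, hc⟩ := hG1 t
  have hcN : qb_incl F₀ B c = ∏ σ : E ≃ₐ[F₀] E, qb_kcore_res B hS σ t := by
    apply Subtype.ext
    rw [qb_incl_coe, hc, qb_kcore_coe_prod]
  refine ⟨c, ?_, ?_⟩
  · intro hcn
    exact hNtM (hcN ▸ hM₁ c hcn)
  · have hmem : qb_incl F₀ B c * m ∈ J := by
      rw [hcN]; exact (h𝔞 _).1 hNt𝔞
    obtain ⟨a', b', hab⟩ := Ideal.mem_span_pair.1 hmem
    exact ⟨a', b', by rw [← hab]; ring⟩

end

end Fermat.Agent.S18
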