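/-
S18 — block S-I (twin A), INTERNAL INTERFACE FILE: the smoothness engine on a cover.

Generic setting ("`Λ`-setting"): `L` a field, `W : ValuationSubring L` a DVR with uniformiser `ϖ`,
`res : ↥W →+* k` surjective with kernel `(ϖ)`, `E` a field with `[Algebra L E]`, `t : E` transcendental
over `L`, `h ∈ W[X]` with `h mod ϖ ≠ 0` (`sIA_LamData`).
* `sIA_c W E : ↥W →+* E` the constants, `sIA_ev W E t : W[X] →+* E`, `P ↦ P(t)`;
* `sIA_lam W E t h = W[t, 1/h(t)] ⊆ E` (`= coverRing W N E t h` when `E` is an `F`-algebra, see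
  `sIA_coverRing_eq`);
* `sIA_K1 L E t = L(t)` as a `Subfield E`.
Shared definitions, a few proved basic lemmas, and one statement-`Prop` per work package.
-/
import Fermat.Agent.S18.SInterfaces2
import Fermat.Agent.S18.LocSubB

set_option autoImplicit false

open ModularCurve AlgebraicCurve Polynomial

namespace Fermat.Agent.S18

noncomputable section

/-! ## Generic definitions -/

section Generic

variable {L : Type} [Field L] (W : ValuationSubring L) (E : Type) [Field E] [Algebra L E]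

/-- Constants `W → L → E`. -/
def sIA_c : ↥W →+* E := (algebraMap L E).comp W.subtype

/-- `P ↦ P(t)` for `P ∈ W[X]`, `t ∈ E`. -/
def sIA_ev (t : E) : (↥W)[X] →+* E := Polynomial.eval₂RingHom (sIA_c W E) t

/-- `Λ = W[t, 1/h(t)] ⊆ E`. -/
def sIA_lam (t : E) (h : (↥W)[X]) : Subring E :=
  Subring.closure (Set.range (sIA_c W E) ∪ {t, (sIA_ev W E t h)⁻¹})

theorem sIA_c_apply (w : ↥W) : sIA_c W E w = algebraMap L E (w : L) := rfl

theorem sIA_ev_apply (t : E) (P : (↥W)[X]) : sIA_ev W E t P = P.eval₂ (sIA_c W E) t := rfl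

@[simp] theorem sIA_ev_C (t : E) (w : ↥W) : sIA_ev W E t (C w) = sIA_c W E w := by
  simp [sIA_ev_apply]

@[simp] theorem sIA_ev_X (t : E) : sIA_ev W E t X = t := by
  simp [sIA_ev_apply]

/-- `P(t) = aeval t (P.map W.subtype)`. -/
theorem sIA_ev_eq_aeval (t : E) (P : (↥W)[X]) :
    sIA_ev W E t P = aeval t (P.map W.subtype) := by
  rw [sIA_ev_apply, aeval_def, eval₂_map]
  rfl

theorem sIA_c_injective : Function.Injective (sIA_c W E) :=
  (algebraMap L E).injective.comp Subtype.val_injective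

/-- If `t` is transcendental over `L`, then `P ↦ P(t)` is injective on `W[X]`. -/
theorem sIA_ev_injective (t : E) (htr : ∀ p : L[X], aeval t p = 0 → p = 0) :
    Function.Injective (sIA_ev W E t) := by
  rw [injective_iff_map_eq_zero]
  intro P hP
  rw [sIA_ev_eq_aeval] at hP
  have h0 := htr _ hP
  exact (Polynomial.map_eq_zero_iff (f := W.subtype) Subtype.val_injective).1 h0

theorem sIA_c_mem (t : E) (h : (↥W)[X]) (w : ↥W) : sIA_c W E w ∈ sIA_lam W E t h :=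
  Subring.subset_closure (Or.inl ⟨w, rfl⟩)

theorem sIA_t_mem (t : E) (h : (↥W)[X]) : t ∈ sIA_lam W E t h :=
  Subring.subset_closure (Or.inr (Or.inl rfl))

theorem sIA_hinv_mem (t : E) (h : (↥W)[X]) : (sIA_ev W E t h)⁻¹ ∈ sIA_lam W E t h :=
  Subring.subset_closure (Or.inr (Or.inr rfl))

theorem sIA_ev_mem (t : E) (h : (↥W)[X]) (P : (↥W)[X]) : sIA_ev W E t P ∈ sIA_lam W E t h := by
  rw [sIA_ev_apply, eval₂_eq_sum_range]
  exact Subring.sum_mem _ fun i _ =>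
    Subring.mul_mem _ (sIA_c_mem W E t h _) (Subring.pow_mem _ (sIA_t_mem W E t h) _)

end Generic

/-- `K₁ = L(t) ⊆ E`, as a `Subfield E`. -/
abbrev sIA_K1 (L : Type) [Field L] (E : Type) [Field E] [Algebra L E] (t : E) : Subfield E :=
  (IntermediateField.adjoin L {t}).toSubfield

/-- The data of the generic `Λ`-setting. -/
structure sIA_LamData {L : Type} [Field L] (W : ValuationSubring L) {k : Type} [Field k]
    (res : ↥W →+* k) (ϖ : ↥W) (E : Type) [Field E] [Algebra L E] (t : E) (h : (↥W)[X]) : Prop where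
  irreducible : Irreducible ϖ
  res_surjective : Function.Surjective res
  ker_res : RingHom.ker res = Ideal.span {ϖ}
  h_res : h.map res ≠ 0
  transc : ∀ p : L[X], aeval t p = 0 → p = 0

/-! ## Bridge to the cover objects of `SInterfaces.lean` -/

section Bridge

variable {L : Type} [Field L] [Algebra ℚ L] (W : ValuationSubring L) (N : ℕ)
  (E : Type) [Field E] [Algebra L E] [Algebra ↥(FL L N) E] [IsScalarTower L ↥(FL L N) E]

theorem sIA_cWE_eq : cWE W N E = sIA_c W E := by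
  ext w
  simp only [cWE, cW, sIA_c, RingHom.comp_apply]
  exact (IsScalarTower.algebraMap_apply L ↥(FL L N) E _).symm

theorem sIA_evWE_eq (t : E) : evWE W N E t = sIA_ev W E t := by
  unfold evWE sIA_ev
  rw [sIA_cWE_eq]

theorem sIA_coverRing_eq (t : E) (h : (↥W)[X]) : coverRing W N E t h = sIA_lam W E t h := by
  unfold coverRing baseRingE sIA_lam
  rw [sIA_cWE_eq, sIA_evWE_eq]

/-- `algebraMap F E (P(x)) = P(algebraMap F E x)` for `P ∈ W[X]`, `x ∈ F`. -/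
theorem sIA_algebraMap_evW (x : ↥(FL L N)) (P : (↥W)[X]) :
    algebraMap ↥(FL L N) E (evW W N x P) = sIA_ev W E (algebraMap ↥(FL L N) E x) P := by
  rw [← sIA_evWE_eq W N E]
  simp only [evW, evWE, coe_eval₂RingHom]
  rw [hom_eval₂]
  rfl

end Bridge

/-! ## Package statements -/

/-- (Λ2)+(Λ3) Structure of `Λ`: elementwise description, noetherian, reduction criterion, `ϖ Λ` is a
nonzero prime ideal. -/
def sIA_LamStructStatement : Prop :=
  ∀ (L : Type) [Field L] (W : ValuationSubring L) [IsDiscreteValuationRing ↥W] (k : Type) [Field k]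
    (res : ↥W →+* k) (ϖ : ↥W) (E : Type) [Field E] [Algebra L E] (t : E) (h : (↥W)[X]),
    sIA_LamData W res ϖ E t h →
    (∀ x : E, x ∈ sIA_lam W E t h ↔
      ∃ (P : (↥W)[X]) (n : ℕ), x * (sIA_ev W E t h) ^ n = sIA_ev W E t P) ∧
    IsNoetherianRing ↥(sIA_lam W E t h) ∧
    (∀ (ϖΛ x : ↥(sIA_lam W E t h)) (P : (↥W)[X]) (n : ℕ), (ϖΛ : E) = sIA_c W E ϖ →
      (x : E) * (sIA_ev W E t h) ^ n = sIA_ev W E t P →
      (x ∈ (Ideal.span {ϖΛ} : Ideal ↥(sIA_lam W E t h)) ↔ P.map res = 0)) ∧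
    (∀ ϖΛ : ↥(sIA_lam W E t h), (ϖΛ : E) = sIA_c W E ϖ →
      ϖΛ ≠ 0 ∧ (Ideal.span {ϖΛ} : Ideal ↥(sIA_lam W E t h)).IsPrime)

/-- (Λ4) Maximal ideals of `Λ` containing `ϖ` are of the form `(ϖ, x)` with `x ∉ ϖ Λ`, and the only
prime ideal containing `ϖ` strictly inside such a maximal ideal is `ϖ Λ`. -/
def sIA_LamMaxStatement : Prop :=
  ∀ (L : Type) [Field L] (W : ValuationSubring L) [IsDiscreteValuationRing ↥W] (k : Type) [Field k]
    [IsAlgClosed k] (res : ↥W →+* k) (ϖ : ↥W) (E : Type) [Field E] [Algebra L E] (t : E)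
    (h : (↥W)[X]), sIA_LamData W res ϖ E t h →
    ∀ (𝔫 : Ideal ↥(sIA_lam W E t h)) [𝔫.IsMaximal] (ϖΛ : ↥(sIA_lam W E t h)),
      (ϖΛ : E) = sIA_c W E ϖ → ϖΛ ∈ 𝔫 →
      ∃ x : ↥(sIA_lam W E t h), x ∉ (Ideal.span {ϖΛ} : Ideal ↥(sIA_lam W E t h)) ∧
        𝔫 = Ideal.span {ϖΛ, x} ∧
        ∀ 𝔭 : Ideal ↥(sIA_lam W E t h), 𝔭.IsPrime → ϖΛ ∈ 𝔭 → 𝔭 < 𝔫 → 𝔭 = Ideal.span {ϖΛ}

/-- Clearing denominators: every `p ∈ L[X]` has a multiple `ϖ ^ m * p` in `W[X]`. -/
def sIA_ClearDenStatement : Prop :=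
  ∀ (L : Type) [Field L] (W : ValuationSubring L) [IsDiscreteValuationRing ↥W] (ϖ : ↥W),
    Irreducible ϖ →
    ∀ p : L[X], ∃ (m : ℕ) (P : (↥W)[X]), P.map W.subtype = C ((ϖ : L) ^ m) * p

/-- (Λ5) `Λ ⊆ K₁ = L(t)` and `K₁` is the fraction field of `Λ` (elementwise). -/
def sIA_K1Statement : Prop :=
  ∀ (L : Type) [Field L] (W : ValuationSubring L) [IsDiscreteValuationRing ↥W] (E : Type) [Field E]
    [Algebra L E] (t : E) (h : (↥W)[X]),
    sIA_lam W E t h ≤ (sIA_K1 L E t).toSubring ∧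
    ∀ x ∈ sIA_K1 L E t, ∃ a ∈ sIA_lam W E t h, ∃ b ∈ sIA_lam W E t h, b ≠ 0 ∧ x * b = a

/-- (Λ1)+(Λ6) Field theory of `E = F(t)` over `K₁ = L(t)` when `j ∈ K₁`: `t` is transcendental over
`L`, `E / K₁` is finite, and a primitive element of `F / L(j)` is a primitive element of `E / K₁`. -/
def sIA_FieldStatement : Prop :=
  ∀ (N : ℕ) [NeZero N] (L : Type) [Field L] [Algebra ℚ L] (E : Type) [Field E] [Algebra L E]
    [Algebra ↥(FL L N) E] [IsScalarTower L ↥(FL L N) E] (t : E),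
    Transcendental L (jF L N) →
    FiniteDimensional ↥(IntermediateField.adjoin L {jF L N}) ↥(FL L N) →
    IntermediateField.adjoin ↥(FL L N) {t} = ⊤ →
    jE L N E ∈ sIA_K1 L E t →
    (∀ p : L[X], aeval t p = 0 → p = 0) ∧
    FiniteDimensional ↥(sIA_K1 L E t) E ∧
    ∀ θ : ↥(FL L N), IntermediateField.adjoin ↥(IntermediateField.adjoin L {jF L N}) {θ} = ⊤ →
      IntermediateField.adjoin ↥(sIA_K1 L E t) {algebraMap ↥(FL L N) E θ} = ⊤

/-- (V1) Fractions `f₀(j)/g₀(j)` with `g₀ mod ϖ ≠ 0` lie in `Λ_(ϖ)`, when `j = p(t)/q(t)` with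
non-constant reduction. -/
def sIA_GaussLocStatement : Prop :=
  ∀ (L : Type) [Field L] (W : ValuationSubring L) [IsDiscreteValuationRing ↥W] (k : Type) [Field k]
    [IsAlgClosed k] (res : ↥W →+* k) (ϖ : ↥W) (E : Type) [Field E] [Algebra L E] (t : E)
    (h : (↥W)[X]), sIA_LamData W res ϖ E t h →
    ∀ (p q : (↥W)[X]) (j : E), q.map res ≠ 0 → (∀ c : k, p.map res ≠ C c * q.map res) →
      sIA_ev W E t q * j = sIA_ev W E t p →
      ∀ (ϖΛ : ↥(sIA_lam W E t h)) [(Ideal.span {ϖΛ} : Ideal ↥(sIA_lam W E t h)).IsPrime],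
        (ϖΛ : E) = sIA_c W E ϖ →
        ∀ (f₀ g₀ : (↥W)[X]) (c : E), g₀.map res ≠ 0 → sIA_ev W E j g₀ * c = sIA_ev W E j f₀ →
          c ∈ locSub (sIA_lam W E t h) (Ideal.span {ϖΛ})

/-- (V2) The localisation of a noetherian domain at a nonzero principal prime is integrally closed in
the fraction field; integral elements over the localisation become integral over the ring after
multiplication by an element outside the prime. -/
def sIA_LocClosedStatement : Prop :=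
  ∀ (E : Type) [Field E] (A : Subring E) (K : Subfield E), A ≤ K.toSubring →
    (∀ x ∈ K, ∃ a ∈ A, ∃ b ∈ A, b ≠ 0 ∧ x * b = a) → IsNoetherianRing ↥A →
    ∀ (ϖ : ↥A) [(Ideal.span {ϖ} : Ideal ↥A).IsPrime], ϖ ≠ 0 →
      (∀ x ∈ K, IsIntegral ↥(locSub A (Ideal.span {ϖ})) x → x ∈ locSub A (Ideal.span {ϖ})) ∧
      (∀ x : E, IsIntegral ↥(locSub A (Ideal.span {ϖ})) x →
        ∃ s : ↥A, s ∉ (Ideal.span {ϖ} : Ideal ↥A) ∧ IsIntegral ↥A ((s : E) * x))

/-- (V3)+(V4) Abstract étale-discriminant lemma: `R ⊆ K₁ ⊆ E`, `R` local and integrally closed in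
`K₁`, `ϖ` a non-unit of `R`, `E = K₁(θ)` finite over `K₁` (characteristic 0), `f, B, C ∈ R[X]`, `f`
monic, `f(θ) = 0`, `B(θ) f'(θ) = 1 + ϖ C(θ)`.  Then the powers of `θ` form a `K₁`-basis of `E` of
elements integral over `R` whose discriminant is a unit of `R`. -/
def sIA_EtaleDiscrStatement : Prop :=
  ∀ (E : Type) [Field E] [CharZero E] (R : Subring E) (K₁ : Subfield E), R ≤ K₁.toSubring →
    (∀ x ∈ K₁, IsIntegral ↥R x → x ∈ R) → FiniteDimensional ↥K₁ E → IsLocalRing ↥R →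
    ∀ ϖ : ↥R, ¬ IsUnit ϖ →
    ∀ (θ : E) (f B C : E[X]), (∀ n, f.coeff n ∈ R) → (∀ n, B.coeff n ∈ R) → (∀ n, C.coeff n ∈ R) →
      f.Monic → f.eval θ = 0 → IntermediateField.adjoin ↥K₁ {θ} = ⊤ →
      B.eval θ * (derivative f).eval θ = 1 + (ϖ : E) * C.eval θ →
      ∃ (r : ℕ) (c : Fin r → E), LinearIndependent ↥K₁ c ∧
        Submodule.span ↥K₁ (Set.range c) = ⊤ ∧ (∀ i, IsIntegral ↥R (c i)) ∧
        ∃ d e : ↥R, d * e = 1 ∧ (d : E) = ((Algebra.discr ↥K₁ c : ↥K₁) : E)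

/-- (V) Vertical unramifiedness: `E / K₁` is unramified at the prime `ϖ Λ`. -/
def sIA_VertStatement : Prop :=
  ∀ (N : ℕ) [NeZero N] (ℓ : ℕ) [Fact ℓ.Prime] (L : Type) [Field L] [Algebra ℚ L]
    (W : ValuationSubring L) [IsDiscreteValuationRing ↥W] (k : Type) [Field k] [IsAlgClosed k]
    [CharP k ℓ] (res : ↥W →+* k) (ϖ : ↥W), BaseData N ℓ W res ϖ →
    ∀ (E : Type) [Field E] [Algebra L E] [Algebra ↥(FL L N) E] [IsScalarTower L ↥(FL L N) E]
      (t : E) (h : (↥W)[X]), sIA_LamData W res ϖ E t h →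
      IntermediateField.adjoin ↥(FL L N) {t} = ⊤ →
      (∃ p q : (↥W)[X], q.map res ≠ 0 ∧ (∀ c : k, p.map res ≠ C c * q.map res) ∧
        sIA_ev W E t q * jE L N E = sIA_ev W E t p) →
      ∀ ϖΛ : ↥(sIA_lam W E t h), (ϖΛ : E) = sIA_c W E ϖ →
        UnramAtPrime (sIA_lam W E t h) (sIA_K1 L E t) (Ideal.span {ϖΛ})

/-- (H1) A nonzero prime `𝔭` of `Λ` not containing `ϖ` is cut out by an irreducible `g ∈ L[X]`,
`g ∤ h`. -/
def sIA_HorizPrimeStatement : Prop :=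
  ∀ (L : Type) [Field L] (W : ValuationSubring L) [IsDiscreteValuationRing ↥W] (k : Type) [Field k]
    (res : ↥W →+* k) (ϖ : ↥W) (E : Type) [Field E] [Algebra L E] (t : E) (h : (↥W)[X]),
    sIA_LamData W res ϖ E t h →
    ∀ (𝔭 : Ideal ↥(sIA_lam W E t h)) (ϖΛ : ↥(sIA_lam W E t h)), 𝔭.IsPrime → 𝔭 ≠ ⊥ →
      (ϖΛ : E) = sIA_c W E ϖ → ϖΛ ∉ 𝔭 →
      ∃ g : L[X], Irreducible g ∧ ¬ g ∣ h.map W.subtype ∧
        ∀ (P : (↥W)[X]) (x : ↥(sIA_lam W E t h)), (x : E) = sIA_ev W E t P →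
          (x ∈ 𝔭 ↔ g ∣ P.map W.subtype)

/-- (H4) Transfer: unramified at the place `g` of `L(t)` implies unramified at the prime `𝔭` of `Λ`
cut out by `g`. -/
def sIA_HorizTransferStatement : Prop :=
  ∀ (L : Type) [Field L] (W : ValuationSubring L) [IsDiscreteValuationRing ↥W] (k : Type) [Field k]
    (res : ↥W →+* k) (ϖ : ↥W) (E : Type) [Field E] [Algebra L E] (t : E) (h : (↥W)[X]),
    sIA_LamData W res ϖ E t h →
    ∀ (𝔭 : Ideal ↥(sIA_lam W E t h)) (ϖΛ : ↥(sIA_lam W E t h)), 𝔭.IsPrime →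
      (ϖΛ : E) = sIA_c W E ϖ → ϖΛ ∉ 𝔭 →
      ∀ g : L[X], (∀ (P : (↥W)[X]) (x : ↥(sIA_lam W E t h)), (x : E) = sIA_ev W E t P →
          (x ∈ 𝔭 ↔ g ∣ P.map W.subtype)) →
        UnramAtPoly t g → UnramAtPrime (sIA_lam W E t h) (sIA_K1 L E t) 𝔭

/-- (H2)+(H3) The local factorisation hypotheses of `HorizUnramStatement` at every irreducible
`g ∤ h`, for both cover types. -/
def sIA_HorizLocStatement : Prop :=
  ∀ (N : ℕ) [NeZero N] (L : Type) [Field L] [Algebra ℚ L] (W : ValuationSubring L)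
    [IsDiscreteValuationRing ↥W] (k : Type) [Field k] (res : ↥W →+* k) (ϖ : ↥W)
    (E : Type) [Field E] [Algebra L E] [Algebra ↥(FL L N) E] [IsScalarTower L ↥(FL L N) E]
    (t : E) (h : (↥W)[X]), sIA_LamData W res ϖ E t h →
    (IsCover1 W res N E t h ∨ IsCover2 W res N E t h) → Transcendental L (jF L N) →
    ∀ g : L[X], Irreducible g → ¬ g ∣ h.map W.subtype →
      (RegAt t g (jE L N E) → ∃ a u v : E, RegAt t g a ∧ RegAt t g u ∧ RegAt t g v ∧ u * v = 1 ∧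
        jE L N E = u * a ^ 3) ∧
      (RegAt t g (jE L N E) → ∃ b u v : E, RegAt t g b ∧ RegAt t g u ∧ RegAt t g v ∧ u * v = 1 ∧
        jE L N E - 1728 = u * b ^ 2) ∧
      (¬ RegAt t g (jE L N E) → ∃ a u v : E, RegAt t g a ∧ RegAt t g u ∧ RegAt t g v ∧ u * v = 1 ∧
        (jE L N E)⁻¹ = u * a ^ N)

end

end Fermat.Agent.S18
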