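/-
S18 — block S-I (twin A): the ENGINE.  From the package statements of `SIAInterfaces.lean` and
`PurityStatement`, `HorizUnramStatement`, `FinLStatement`: for a cover of type 1 or 2 and every maximal
ideal `M ∋ ϖ` of the integral closure `B` of `Λ = W[t, 1/h(t)]` in `E`, the ring `B_M / ϖ` is a DVR.
-/
import Fermat.Agent.S18.SIAInterfaces

set_option autoImplicit false

open ModularCurve AlgebraicCurve Polynomial

namespace Fermat.Agent.S18

noncomputable section

/-- The engine, in the generic form (`E` an `L`-algebra compatibly with its `F`-algebra structure,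
`Λ = sIA_lam W E t h`). -/
theorem sIA_engine (hPur : PurityStatement) (hHU : HorizUnramStatement) (hFin : FinLStatement)
    (hLS : sIA_LamStructStatement) (hLM : sIA_LamMaxStatement) (hK : sIA_K1Statement)
    (hFld : sIA_FieldStatement) (hV : sIA_VertStatement) (hHP : sIA_HorizPrimeStatement)
    (hHT : sIA_HorizTransferStatement) (hHL : sIA_HorizLocStatement)
    (N : ℕ) [NeZero N] (ℓ : ℕ) [Fact ℓ.Prime] (L : Type) [Field L] [Algebra ℚ L]
    (W : ValuationSubring L) [IsDiscreteValuationRing ↥W] (k : Type) [Field k] [IsAlgClosed k]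
    [CharP k ℓ] (res : ↥W →+* k) (ϖ : ↥W) (hD : BaseData N ℓ W res ϖ) (hH : HorizAt L N)
    (E : Type) [Field E] [Algebra L E] [Algebra ↥(FL L N) E] [IsScalarTower L ↥(FL L N) E]
    (t : E) (h : (↥W)[X]) (hC : IsCover1 W res N E t h ∨ IsCover2 W res N E t h)
    (M : Ideal ↥(integralClosure ↥(sIA_lam W E t h) E).toSubring) [M.IsMaximal]
    (ϖB : ↥(integralClosure ↥(sIA_lam W E t h) E).toSubring) (hϖB : (ϖB : E) = sIA_c W E ϖ)
    (hϖM : ϖB ∈ M) :
    IsDVRQuot (Localization.AtPrime M)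
      (algebraMap ↥(integralClosure ↥(sIA_lam W E t h) E).toSubring (Localization.AtPrime M) ϖB) := by
  have hCB : IsCoverBase W res N E t h :=
    hC.elim (fun h1 => h1.toIsCoverBase) (fun h2 => h2.toIsCoverBase)
  obtain ⟨hKle, hKfrac⟩ := hK L W E t h
  obtain ⟨hjtr, hfin⟩ := hFin N L
  -- `j ∈ K₁`
  have hjK : jE L N E ∈ sIA_K1 L E t := by
    rcases hC with h1 | h2
    · have h3 := h1.j_mem
      rw [sIA_coverRing_eq] at h3
      exact hKle h3
    · have h3 := h2.jinv_mem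
      rw [sIA_coverRing_eq] at h3
      have h4 := (sIA_K1 L E t).inv_mem (hKle h3)
      rwa [inv_inv] at h4
  obtain ⟨htr, hfinK, -⟩ := hFld N L E t hjtr hfin hCB.gen hjK
  have hLD : sIA_LamData W res ϖ E t h :=
    ⟨hD.irreducible, hD.res_surjective, hD.ker_res, hCB.h_res, htr⟩
  obtain ⟨-, hnoeth, -, hprime⟩ := hLS L W k res ϖ E t h hLD
  -- `j = p(t)/q(t)`
  have hjrat : ∃ p q : (↥W)[X], q.map res ≠ 0 ∧ (∀ c : k, p.map res ≠ C c * q.map res) ∧
      sIA_ev W E t q * jE L N E = sIA_ev W E t p := by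
    simpa only [sIA_evWE_eq] using hCB.jrat
  have hjrat' : ∃ p q : L[X], q ≠ 0 ∧
      aeval t q * algebraMap ↥(FL L N) E (jF L N) = aeval t p := by
    obtain ⟨p, q, hq, -, hpq⟩ := hjrat
    refine ⟨p.map W.subtype, q.map W.subtype, ?_, ?_⟩
    · intro h0
      apply hq
      have : q = 0 := (Polynomial.map_eq_zero_iff (f := W.subtype) Subtype.val_injective).1 h0
      rw [this, Polynomial.map_zero]
    · rw [← sIA_ev_eq_aeval, ← sIA_ev_eq_aeval]
      exact hpq
  -- the element `ϖ` of `Λ`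
  let ϖΛ : ↥(sIA_lam W E t h) := ⟨sIA_c W E ϖ, sIA_c_mem W E t h ϖ⟩
  obtain ⟨hϖ0, hϖprime⟩ := hprime ϖΛ rfl
  -- the inclusion `Λ → B` and the contraction of `M`
  have hle : sIA_lam W E t h ≤ (integralClosure ↥(sIA_lam W E t h) E).toSubring := by
    intro x hx
    exact isIntegral_algebraMap (R := ↥(sIA_lam W E t h)) (A := E) (x := ⟨x, hx⟩)
  let ι : ↥(sIA_lam W E t h) →+* ↥(integralClosure ↥(sIA_lam W E t h) E).toSubring :=
    Subring.inclusion hle
  have hιint : ι.IsIntegral := by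
    intro b
    obtain ⟨p, hp, hpe⟩ := (b.2 : IsIntegral ↥(sIA_lam W E t h) (b : E))
    refine ⟨p, hp, ?_⟩
    apply Subtype.ext
    have h1 := Polynomial.hom_eval₂ p ι
      (Subring.subtype (integralClosure ↥(sIA_lam W E t h) E).toSubring) b
    rw [Subring.coe_zero]
    exact h1.trans hpe
  have h𝔫max : (M.comap ι).IsMaximal :=
    Ideal.isMaximal_comap_of_isIntegral_of_isMaximal' ι hιint M
  have hϖ𝔫 : ϖΛ ∈ M.comap ι := by
    rw [Ideal.mem_comap]
    have h1 : ι ϖΛ = ϖB := Subtype.ext hϖB.symm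
    rw [h1]
    exact hϖM
  obtain ⟨x, hx, h𝔫eq, h𝔭⟩ := hLM L W k res ϖ E t h hLD (M.comap ι) ϖΛ rfl hϖ𝔫
  have : CharZero L := algebraRat.charZero L
  have : CharZero E := charZero_of_injective_algebraMap (algebraMap L E).injective
  refine hPur E (sIA_lam W E t h) (sIA_K1 L E t) hKle hKfrac hfinK hnoeth (M.comap ι) ϖΛ x hϖ0
    hϖprime hx h𝔫eq ?_ M ϖB hϖB ?_
  · intro 𝔭 h𝔭prime h𝔭ne h𝔭lt
    by_cases hϖ𝔭 : ϖΛ ∈ 𝔭
    · rw [h𝔭 𝔭 h𝔭prime hϖ𝔭 h𝔭lt]
      exact hV N ℓ L W k res ϖ hD E t h hLD hCB.gen hjrat ϖΛ rfl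
    · obtain ⟨g, hgirr, hgh, hg⟩ := hHP L W k res ϖ E t h hLD 𝔭 ϖΛ h𝔭prime h𝔭ne rfl hϖ𝔭
      obtain ⟨hl1, hl2, hl3⟩ := hHL N L W k res ϖ E t h hLD hC hjtr g hgirr hgh
      have hU : UnramAtPoly t g := hHU N L hH E t hCB.gen htr hjrat' g hgirr hl1 hl2 hl3
      exact hHT L W k res ϖ E t h hLD 𝔭 ϖΛ h𝔭prime rfl hϖ𝔭 g hg hU
  · intro a b ha hb
    have h1 : ι a = b := Subtype.ext hb.symm
    rw [← h1]
    exact ha

/-- The engine for a subring `Λ` equal to `sIA_lam W E t h` (to transport along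
`sIA_coverRing_eq`). -/
theorem sIA_engine' (hPur : PurityStatement) (hHU : HorizUnramStatement) (hFin : FinLStatement)
    (hLS : sIA_LamStructStatement) (hLM : sIA_LamMaxStatement) (hK : sIA_K1Statement)
    (hFld : sIA_FieldStatement) (hV : sIA_VertStatement) (hHP : sIA_HorizPrimeStatement)
    (hHT : sIA_HorizTransferStatement) (hHL : sIA_HorizLocStatement)
    (N : ℕ) [NeZero N] (ℓ : ℕ) [Fact ℓ.Prime] (L : Type) [Field L] [Algebra ℚ L]
    (W : ValuationSubring L) [IsDiscreteValuationRing ↥W] (k : Type) [Field k] [IsAlgClosed k]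
    [CharP k ℓ] (res : ↥W →+* k) (ϖ : ↥W) (hD : BaseData N ℓ W res ϖ) (hH : HorizAt L N)
    (E : Type) [Field E] [Algebra L E] [Algebra ↥(FL L N) E] [IsScalarTower L ↥(FL L N) E]
    (t : E) (h : (↥W)[X]) (hC : IsCover1 W res N E t h ∨ IsCover2 W res N E t h)
    (Λ : Subring E) (hΛ : Λ = sIA_lam W E t h)
    (M : Ideal ↥(integralClosure ↥Λ E).toSubring) [M.IsMaximal]
    (ϖB : ↥(integralClosure ↥Λ E).toSubring) (hϖB : (ϖB : E) = sIA_c W E ϖ)
    (hϖM : ϖB ∈ M) :
    IsDVRQuot (Localization.AtPrime M)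
      (algebraMap ↥(integralClosure ↥Λ E).toSubring (Localization.AtPrime M) ϖB) := by
  subst hΛ
  exact sIA_engine hPur hHU hFin hLS hLM hK hFld hV hHP hHT hHL N ℓ L W k res ϖ hD hH E t h hC
    M ϖB hϖB hϖM

/-- The block statement from the package statements. -/
theorem sIA_main_of (hPur : PurityStatement) (hHU : HorizUnramStatement) (hFin : FinLStatement)
    (hLS : sIA_LamStructStatement) (hLM : sIA_LamMaxStatement) (hK : sIA_K1Statement)
    (hFld : sIA_FieldStatement) (hV : sIA_VertStatement) (hHP : sIA_HorizPrimeStatement)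
    (hHT : sIA_HorizTransferStatement) (hHL : sIA_HorizLocStatement) :
    SmB1Statement ∧ SmB2Statement := by
  constructor
  · intro N _ ℓ _ L _ _ W _ k _ _ _ res ϖ hD hH E _ _ t h hC M _ ϖB h1 h2
    let _ : Algebra L E := ((algebraMap ↥(FL L N) E).comp (algebraMap L ↥(FL L N))).toAlgebra
    have : IsScalarTower L ↥(FL L N) E := IsScalarTower.of_algebraMap_eq (fun _ => rfl)
    rw [sIA_cWE_eq W N E] at h1
    exact sIA_engine' hPur hHU hFin hLS hLM hK hFld hV hHP hHT hHL N ℓ L W k res ϖ hD hH E t h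
      (Or.inl hC) (coverRing W N E t h) (sIA_coverRing_eq W N E t h) M ϖB h1 h2
  · intro N _ ℓ _ L _ _ W _ k _ _ _ res ϖ hD hH E _ _ t h hC M _ ϖB h1 h2
    let _ : Algebra L E := ((algebraMap ↥(FL L N) E).comp (algebraMap L ↥(FL L N))).toAlgebra
    have : IsScalarTower L ↥(FL L N) E := IsScalarTower.of_algebraMap_eq (fun _ => rfl)
    rw [sIA_cWE_eq W N E] at h1
    exact sIA_engine' hPur hHU hFin hLS hLM hK hFld hV hHP hHT hHL N ℓ L W k res ϖ hD hH E t h
      (Or.inr hC) (coverRing W N E t h) (sIA_coverRing_eq W N E t h) M ϖB h1 h2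

end

end Fermat.Agent.S18
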