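/-
S18 — block S-I (twin A), package SIA/EtaleDiscr: the abstract étale-discriminant lemma
(`sIA_EtaleDiscrStatement` of `SIAInterfaces.lean`).

`R ⊆ K₁ ⊆ E`, `R` local and integrally closed in `K₁`, `ϖ` a non-unit of `R`, `E = K₁(θ)` finite
over `K₁` (characteristic 0), `f, B, C ∈ R[X]`, `f` monic, `f(θ) = 0`, `B(θ) f'(θ) = 1 + ϖ C(θ)`.
Then the power basis `θ^i` consists of elements integral over `R` and its discriminant
`± N_{E/K₁}(f₁'(θ))` (`f₁ = minpoly K₁ θ`) is a unit of `R`.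
-/
import Fermat.Agent.S18.SIAInterfaces
set_option autoImplicit false
open ModularCurve AlgebraicCurve Polynomial

namespace Fermat.Agent.S18

/-- Step 5: `1 + ϖ y` is a unit of the integral closure when `ϖ` is a non-unit of the local ring
`R` and `y` is integral over `R`. -/
theorem sIA_etaleDiscr_unit {R E : Type*} [CommRing R] [IsLocalRing R] [CommRing E] [Algebra R E]
    (ϖ : R) (hϖ : ¬ IsUnit ϖ) (y : E) (hy : IsIntegral R y) :
    ∃ v : E, IsIntegral R v ∧ (1 + algebraMap R E ϖ * y) * v = 1 := by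
  let S := integralClosure R E
  let yS : ↥S := ⟨y, hy⟩
  let uS : ↥S := 1 + algebraMap R ↥S ϖ * yS
  have hu : IsUnit uS := by
    by_contra hnu
    obtain ⟨𝔐, h𝔐, huM⟩ := exists_max_ideal_of_mem_nonunits (mem_nonunits_iff.2 hnu)
    have := h𝔐
    have hmax : (𝔐.comap (algebraMap R ↥S)).IsMaximal :=
      Ideal.isMaximal_comap_of_isIntegral_of_isMaximal 𝔐
    have heq := IsLocalRing.eq_maximalIdeal hmax
    have hϖm : ϖ ∈ 𝔐.comap (algebraMap R ↥S) := by
      rw [heq]
      exact (IsLocalRing.mem_maximalIdeal ϖ).2 (mem_nonunits_iff.2 hϖ)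
    have h1 : algebraMap R ↥S ϖ * yS ∈ 𝔐 := 𝔐.mul_mem_right _ (Ideal.mem_comap.1 hϖm)
    have h2 : (1 : ↥S) ∈ 𝔐 := by
      have h3 : (1 : ↥S) = uS - algebraMap R ↥S ϖ * yS := by simp [uS]
      rw [h3]
      exact 𝔐.sub_mem huM h1
    exact h𝔐.ne_top ((Ideal.eq_top_iff_one 𝔐).2 h2)
  obtain ⟨v, hv⟩ := hu.exists_right_inv
  refine ⟨(v : E), v.2, ?_⟩
  have h4 := congrArg (fun s : ↥S => (s : E)) hv
  simpa [uS, yS] using h4

/-- Evaluating at an integral element a polynomial with integral coefficients gives an integral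
element. -/
theorem sIA_etaleDiscr_aeval_integral {R K E : Type*} [CommRing R] [Field K] [Field E]
    [Algebra R K] [Algebra K E] [Algebra R E] [IsScalarTower R K E] (θ : E) (hθ : IsIntegral R θ)
    (g : K[X]) (hg : g ∈ lifts (algebraMap ↥(integralClosure R K) K)) :
    IsIntegral R (aeval θ g) := by
  rw [aeval_eq_sum_range]
  refine IsIntegral.sum _ fun i _ => ?_
  rw [Algebra.smul_def]
  refine IsIntegral.mul ?_ (hθ.pow i)
  obtain ⟨c, hc⟩ := (lifts_iff_coeff_lifts g).1 hg i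
  rw [← hc]
  exact IsIntegral.algebraMap c.2

theorem sIA_etaleDiscr_derivative_lifts {A B : Type*} [Semiring A] [Semiring B] (φ : A →+* B)
    (g : B[X]) (hg : g ∈ lifts φ) : derivative g ∈ lifts φ := by
  obtain ⟨q, rfl⟩ := (mem_lifts g).1 hg
  rw [derivative_map]
  exact (mem_lifts _).2 ⟨_, rfl⟩

/-- Abstract form of the étale-discriminant lemma. -/
theorem sIA_etaleDiscr_abs {R K E : Type*} [CommRing R] [IsLocalRing R] [Field K] [Field E]
    [Algebra R K] [Algebra K E] [Algebra R E] [IsScalarTower R K E] [FiniteDimensional K E]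
    [Algebra.IsSeparable K E]
    (hclosed : ∀ x : K, IsIntegral R x → ∃ r : R, algebraMap R K r = x)
    (ϖ : R) (hϖ : ¬ IsUnit ϖ) (pb : PowerBasis K E) (fR BR CR : R[X]) (hf : fR.Monic)
    (hroot : aeval pb.gen fR = 0)
    (hcert : aeval pb.gen BR * aeval pb.gen (derivative fR) =
      1 + algebraMap R E ϖ * aeval pb.gen CR) :
    ∃ d e : R, algebraMap R K (d * e) = 1 ∧ algebraMap R K d = Algebra.discr K pb.basis := by
  set θ := pb.gen with hθdef
  have hθR : IsIntegral R θ := ⟨fR, hf, by rw [← aeval_def]; exact hroot⟩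
  have hθK : IsIntegral K θ := IsIntegral.of_finite K θ
  -- polynomial evaluations are integral
  have hint : ∀ P : R[X], IsIntegral R (aeval θ P) := by
    intro P
    rw [aeval_eq_sum_range]
    exact IsIntegral.sum _ fun i _ => by
      rw [Algebra.smul_def]
      exact isIntegral_algebraMap.mul (hθR.pow i)
  -- factorisation of `f` over `K`
  have hf₁m : (minpoly K θ).Monic := minpoly.monic hθK
  have hfKm : (fR.map (algebraMap R K)).Monic := hf.map _
  have hfKroot : aeval θ (fR.map (algebraMap R K)) = 0 := by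
    rw [aeval_map_algebraMap]; exact hroot
  obtain ⟨f₂, hf₂⟩ : minpoly K θ ∣ fR.map (algebraMap R K) := minpoly.dvd K θ hfKroot
  have hf₂m : f₂.Monic := hf₁m.of_mul_monic_left (hf₂ ▸ hfKm)
  have hl₁ : minpoly K θ ∈ lifts (algebraMap ↥(integralClosure R K) K) :=
    integralClosure.mem_lifts_of_monic_of_dvd_map K hf hf₁m ⟨f₂, hf₂⟩
  have hl₂ : f₂ ∈ lifts (algebraMap ↥(integralClosure R K) K) :=
    integralClosure.mem_lifts_of_monic_of_dvd_map K hf hf₂m ⟨minpoly K θ, by rw [hf₂, mul_comm]⟩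
  have hx₁int : IsIntegral R (aeval θ (derivative (minpoly K θ))) :=
    sIA_etaleDiscr_aeval_integral θ hθR _ (sIA_etaleDiscr_derivative_lifts _ _ hl₁)
  have hf₂int : IsIntegral R (aeval θ f₂) := sIA_etaleDiscr_aeval_integral θ hθR _ hl₂
  have hder : aeval θ (derivative fR) = aeval θ (derivative (minpoly K θ)) * aeval θ f₂ := by
    rw [← aeval_map_algebraMap K θ (derivative fR), ← derivative_map, hf₂, derivative_mul,
      map_add, map_mul, map_mul, minpoly.aeval, zero_mul, add_zero]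
  obtain ⟨v, hvint, hv⟩ := sIA_etaleDiscr_unit (E := E) ϖ hϖ (aeval θ CR) (hint CR)
  have hwint : IsIntegral R (aeval θ f₂ * aeval θ BR * v) := (hf₂int.mul (hint BR)).mul hvint
  have hxw : aeval θ (derivative (minpoly K θ)) * (aeval θ f₂ * aeval θ BR * v) = 1 := by
    rw [← hv, ← hcert, hder]; ring
  obtain ⟨d₀, hd₀⟩ := hclosed _ (Algebra.isIntegral_norm K hx₁int)
  obtain ⟨e₀, he₀⟩ := hclosed _ (Algebra.isIntegral_norm K hwint)
  have hde : algebraMap R K (d₀ * e₀) = 1 := by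
    rw [map_mul, hd₀, he₀, ← map_mul, hxw, map_one]
  refine ⟨(-1) ^ (Module.finrank K E * (Module.finrank K E - 1) / 2) * d₀,
    (-1) ^ (Module.finrank K E * (Module.finrank K E - 1) / 2) * e₀, ?_, ?_⟩
  · have h1 : ∀ m : ℕ, (-1 : R) ^ m * d₀ * ((-1) ^ m * e₀) = d₀ * e₀ := by
      intro m
      have h2 : ((-1 : R) ^ m) * ((-1) ^ m) = 1 := by rw [← mul_pow]; simp
      calc (-1 : R) ^ m * d₀ * ((-1) ^ m * e₀) = ((-1 : R) ^ m * (-1) ^ m) * (d₀ * e₀) := by ring
        _ = d₀ * e₀ := by rw [h2, one_mul]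
    rw [h1, hde]
  · rw [Algebra.discr_powerBasis_eq_norm K pb, map_mul, hd₀, map_pow, map_neg, map_one]

theorem sIA_etaleDiscr_main : sIA_EtaleDiscrStatement := by
  intro E _ _ R K₁ hRK hclosed hfin hloc ϖ hϖ θ f B C hfc hBc hCc hfm hroot hgen hcert
  let _ : Algebra ↥R ↥K₁ := (Subring.inclusion hRK).toAlgebra
  have : IsScalarTower ↥R ↥K₁ E := IsScalarTower.of_algebraMap_eq (fun _ => rfl)
  have : Algebra.IsSeparable ↥K₁ E := inferInstance
  have hθK : IsIntegral ↥K₁ θ := IsIntegral.of_finite ↥K₁ θ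
  let pb₀ := IntermediateField.adjoin.powerBasis hθK
  let pb : PowerBasis ↥K₁ E :=
    pb₀.map ((IntermediateField.equivOfEq hgen).trans IntermediateField.topEquiv)
  have hpbgen : pb.gen = θ := by
    simp [pb, pb₀, IntermediateField.adjoin.powerBasis_gen]
  -- lifts of the polynomials to `R[X]`
  have hlift : ∀ P : E[X], (∀ n, P.coeff n ∈ R) →
      ∃ PR : (↥R)[X], PR.map (algebraMap ↥R E) = P ∧ (P.Monic → PR.Monic) := by
    intro P hP
    have hP' : (↑P.coeffs : Set E) ⊆ R := by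
      intro x hx
      obtain ⟨n, -, rfl⟩ := Polynomial.mem_coeffs_iff.1 hx
      exact hP n
    exact ⟨P.toSubring R hP', Polynomial.map_toSubring P R hP',
      (Polynomial.monic_toSubring P R hP').2⟩
  obtain ⟨fR, rfl, hfR⟩ := hlift f hfc
  obtain ⟨BR, rfl, -⟩ := hlift B hBc
  obtain ⟨CR, rfl, -⟩ := hlift C hCc
  have hfRm : fR.Monic := hfR hfm
  rw [derivative_map] at hcert
  simp only [eval_map_algebraMap] at hcert hroot
  rw [← hpbgen] at hcert hroot
  have hclosed' : ∀ x : ↥K₁, IsIntegral ↥R x → ∃ r : ↥R, algebraMap ↥R ↥K₁ r = x := by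
    intro x hx
    exact ⟨⟨(x : E), hclosed (x : E) x.2 (IsIntegral.algebraMap (B := E) hx)⟩, Subtype.ext rfl⟩
  obtain ⟨d, e, hde, hd⟩ := sIA_etaleDiscr_abs hclosed' ϖ hϖ pb fR BR CR hfRm hroot hcert
  refine ⟨pb.dim, ⇑pb.basis, pb.basis.linearIndependent, pb.basis.span_eq, ?_, d, e, ?_, ?_⟩
  · intro i
    rw [pb.coe_basis, hpbgen]
    exact IsIntegral.pow ⟨fR, hfRm, by rw [← aeval_def, ← hpbgen]; exact hroot⟩ _
  · have h1 := congrArg (fun x : ↥K₁ => (x : E)) hde
    exact Subtype.ext h1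
  · rw [← hd]
    rfl

end Fermat.Agent.S18
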