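/-
S18 — block S-I (twin A), package SIA/Field: field theory of `E = F(t)` over `K₁ = L(t)`.

Generic lemmas (for a tower `L ⊆ F`, `E` an `F`-algebra field, `j : F`, `t : E`, `K₁` a subfield
of `E` containing the constants, `t` and the image of `j`), then the deliverable
`sIA_field_main : sIA_FieldStatement`.
-/
import Fermat.Agent.S18.SIAInterfaces

set_option autoImplicit false

open ModularCurve AlgebraicCurve Polynomial

namespace Fermat.Agent.S18

section Generic

variable {L F E : Type} [Field L] [Field F] [Field E] [Algebra L F] [Algebra L E] [Algebra F E]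
  [IsScalarTower L F E]

/-- (1) If `j : F` is transcendental over `L` and its image in `E` lies in `L(t)`, then `t` is
transcendental over `L`. -/
theorem sIA_field_transc (j : F) (t : E) (hjtr : Transcendental L j)
    (hjK : algebraMap F E j ∈ IntermediateField.adjoin L {t}) :
    ∀ p : L[X], aeval t p = 0 → p = 0 := by
  intro p hp
  by_contra hne
  have halg : IsAlgebraic L t := ⟨p, hne, hp⟩
  have hint : IsIntegral L t := halg.isIntegral
  have : Algebra.IsAlgebraic L ↥(IntermediateField.adjoin L {t}) :=
    IntermediateField.isAlgebraic_adjoin_simple hint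
  have h1 : IsAlgebraic L (⟨algebraMap F E j, hjK⟩ : ↥(IntermediateField.adjoin L {t})) :=
    Algebra.IsAlgebraic.isAlgebraic _
  have h2 : IsAlgebraic L (algebraMap F E j) := IntermediateField.isAlgebraic_iff.1 h1
  have h3 : IsAlgebraic L j := (isAlgebraic_algebraMap_iff (algebraMap F E).injective).1 h2
  exact hjtr h3

/-- The image of `L(j)` in `E` lies in any subfield of `E` containing the constants and the image
of `j`. -/
theorem sIA_field_Lj_mem (j : F) (K₁ : Subfield E) (hL : ∀ x : L, algebraMap L E x ∈ K₁)
    (hj : algebraMap F E j ∈ K₁) (c : F) (hc : c ∈ IntermediateField.adjoin L {j}) :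
    algebraMap F E c ∈ K₁ := by
  let T₁ : IntermediateField L F := (K₁.comap (algebraMap F E)).toIntermediateField (fun x => by
    show algebraMap F E (algebraMap L F x) ∈ K₁
    rw [← IsScalarTower.algebraMap_apply]
    exact hL x)
  have hLj : IntermediateField.adjoin L {j} ≤ T₁ := by
    rw [IntermediateField.adjoin_le_iff, Set.singleton_subset_iff]
    exact hj
  exact hLj hc

/-- (3) A primitive element of `F / L(j)` is a primitive element of `E / K₁` when `E = F(t)` and
`K₁` is a subfield of `E` containing the constants, `t` and the image of `j`. -/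
theorem sIA_field_prim (j : F) (t : E) (K₁ : Subfield E)
    (hL : ∀ x : L, algebraMap L E x ∈ K₁) (ht : t ∈ K₁) (hj : algebraMap F E j ∈ K₁)
    (hgen : IntermediateField.adjoin F {t} = ⊤)
    (θ : F) (hθ : IntermediateField.adjoin ↥(IntermediateField.adjoin L {j}) {θ} = ⊤) :
    IntermediateField.adjoin ↥K₁ {algebraMap F E θ} = ⊤ := by
  have hK : ∀ x ∈ K₁, x ∈ IntermediateField.adjoin ↥K₁ {algebraMap F E θ} := fun x hx =>
    (IntermediateField.adjoin ↥K₁ {algebraMap F E θ}).algebraMap_mem ⟨x, hx⟩
  have hθS : algebraMap F E θ ∈ IntermediateField.adjoin ↥K₁ {algebraMap F E θ} :=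
    IntermediateField.mem_adjoin_simple_self _ _
  -- Claim A: the image of `F` lies in `S = K₁(φ θ)`.
  have hA : ∀ y : F, algebraMap F E y ∈
      (IntermediateField.adjoin ↥K₁ {algebraMap F E θ}).toSubfield := by
    have hLj : ∀ c : ↥(IntermediateField.adjoin L {j}),
        algebraMap ↥(IntermediateField.adjoin L {j}) F c ∈
          (IntermediateField.adjoin ↥K₁ {algebraMap F E θ}).toSubfield.comap (algebraMap F E) :=
      fun c => hK _ (sIA_field_Lj_mem j K₁ hL hj c.1 c.2)
    let T₂ : IntermediateField ↥(IntermediateField.adjoin L {j}) F :=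
      ((IntermediateField.adjoin ↥K₁ {algebraMap F E θ}).toSubfield.comap
        (algebraMap F E)).toIntermediateField hLj
    have h2 : IntermediateField.adjoin ↥(IntermediateField.adjoin L {j}) {θ} ≤ T₂ := by
      rw [IntermediateField.adjoin_le_iff, Set.singleton_subset_iff]
      exact hθS
    rw [hθ] at h2
    intro y
    exact h2 IntermediateField.mem_top
  -- Claim B: everything lies in `S`.
  let S₂ : IntermediateField F E :=
    (IntermediateField.adjoin ↥K₁ {algebraMap F E θ}).toSubfield.toIntermediateField hA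
  have h3 : IntermediateField.adjoin F {t} ≤ S₂ := by
    rw [IntermediateField.adjoin_le_iff, Set.singleton_subset_iff]
    exact hK _ ht
  rw [hgen] at h3
  rw [eq_top_iff]
  intro e _
  exact h3 IntermediateField.mem_top

/-- The image of an element of `F` integral over `L(j)` is integral over `K₁`. -/
theorem sIA_field_isIntegral (j : F) (K₁ : Subfield E)
    (hL : ∀ x : L, algebraMap L E x ∈ K₁) (hj : algebraMap F E j ∈ K₁)
    (θ : F) (hθ : IsIntegral ↥(IntermediateField.adjoin L {j}) θ) :
    IsIntegral ↥K₁ (algebraMap F E θ) := by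
  obtain ⟨P, hPm, hP0⟩ := hθ
  let ψ : ↥(IntermediateField.adjoin L {j}) →+* ↥K₁ :=
    ((algebraMap F E).comp (algebraMap ↥(IntermediateField.adjoin L {j}) F)).codRestrict K₁
      (fun c => sIA_field_Lj_mem j K₁ hL hj c.1 c.2)
  have hψ : (algebraMap ↥K₁ E).comp ψ =
      (algebraMap F E).comp (algebraMap ↥(IntermediateField.adjoin L {j}) F) :=
    RingHom.ext fun _ => rfl
  refine ⟨P.map ψ, hPm.map ψ, ?_⟩
  rw [eval₂_map, hψ, ← hom_eval₂, hP0, map_zero]

/-- (2) `E / K₁` is finite when `F / L(j)` is finite (characteristic 0), `E = F(t)` and `K₁` is a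
subfield of `E` containing the constants, `t` and the image of `j`. -/
theorem sIA_field_fin [CharZero L] (j : F) (t : E) (K₁ : Subfield E)
    (hL : ∀ x : L, algebraMap L E x ∈ K₁) (ht : t ∈ K₁) (hj : algebraMap F E j ∈ K₁)
    (hfin : FiniteDimensional ↥(IntermediateField.adjoin L {j}) F)
    (hgen : IntermediateField.adjoin F {t} = ⊤) :
    FiniteDimensional ↥K₁ E := by
  have : CharZero ↥(IntermediateField.adjoin L {j}) :=
    charZero_of_injective_algebraMap (algebraMap L ↥(IntermediateField.adjoin L {j})).injective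
  have := hfin
  obtain ⟨θ, hθ⟩ := Field.exists_primitive_element ↥(IntermediateField.adjoin L {j}) F
  have htop : IntermediateField.adjoin ↥K₁ {algebraMap F E θ} = ⊤ :=
    sIA_field_prim j t K₁ hL ht hj hgen θ hθ
  have hint : IsIntegral ↥K₁ (algebraMap F E θ) :=
    sIA_field_isIntegral j K₁ hL hj θ (IsIntegral.of_finite _ θ)
  have hfd : FiniteDimensional ↥K₁ ↥(IntermediateField.adjoin ↥K₁ {algebraMap F E θ}) :=
    IntermediateField.adjoin.finiteDimensional hint
  rw [htop] at hfd
  have := hfd
  exact (IntermediateField.topEquiv (F := ↥K₁) (E := E)).toLinearEquiv.finiteDimensional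

end Generic

/-- Package SIA/Field: field theory of `E = F(t)` over `K₁ = L(t)` when `j ∈ K₁`. -/
theorem sIA_field_main : sIA_FieldStatement := by
  intro N _ L _ _ E _ _ _ _ t hjtr hfin hgen hjK
  have : CharZero L := algebraRat.charZero L
  have hL : ∀ x : L, algebraMap L E x ∈ sIA_K1 L E t := fun x =>
    (IntermediateField.adjoin L {t}).algebraMap_mem x
  have ht : t ∈ sIA_K1 L E t := IntermediateField.mem_adjoin_simple_self L t
  exact ⟨sIA_field_transc (jF L N) t hjtr hjK,
    sIA_field_fin (jF L N) t (sIA_K1 L E t) hL ht hjK hfin hgen,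
    fun θ hθ => sIA_field_prim (jF L N) t (sIA_K1 L E t) hL ht hjK hgen θ hθ⟩

end Fermat.Agent.S18
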