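/-
S18 — block S-I (twin A), package GaussLoc: Gauss fractions `f₀(j)/g₀(j)` with `g₀ mod ϖ ≠ 0` lie in
the localisation `Λ_(ϖ)`, when `j = p(t)/q(t)` has non-constant reduction (homogenisation argument).
-/
import Fermat.Agent.S18.SIAInterfaces
set_option autoImplicit false
open ModularCurve AlgebraicCurve Polynomial
namespace Fermat.Agent.S18

noncomputable section

/-- Homogenisation of `u` of degree `≤ D` with respect to the fraction `p / q`:
`∑ i ≤ D, u_i p^i q^(D-i)`. -/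
def sIA_gaussLoc_hom {R : Type} [CommRing R] (p q : R[X]) (D : ℕ) (u : R[X]) : R[X] :=
  ∑ i ∈ Finset.range (D + 1), C (u.coeff i) * p ^ i * q ^ (D - i)

theorem sIA_gaussLoc_hom_map {R S : Type} [CommRing R] [CommRing S] (f : R →+* S) (p q : R[X])
    (D : ℕ) (u : R[X]) :
    (sIA_gaussLoc_hom p q D u).map f = sIA_gaussLoc_hom (p.map f) (q.map f) D (u.map f) := by
  simp [sIA_gaussLoc_hom, Polynomial.map_sum]

/-- Key identity: if `φ q * ρ = φ p` and `deg u ≤ D` then `φ (hom D u) = (φ q)^D * u(ρ)`. -/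
theorem sIA_gaussLoc_hom_eval {R K : Type} [CommRing R] [CommRing K] (φ : R[X] →+* K)
    (p q : R[X]) (ρ : K) (hρ : φ q * ρ = φ p) (D : ℕ) (u : R[X]) (hu : u.natDegree ≤ D) :
    φ (sIA_gaussLoc_hom p q D u) = (φ q) ^ D * u.eval₂ (φ.comp C) ρ := by
  rw [eval₂_eq_sum_range' (φ.comp C) (Nat.lt_succ_of_le hu), sIA_gaussLoc_hom, map_sum,
    Finset.mul_sum]
  refine Finset.sum_congr rfl fun i hi => ?_
  have hi' : i ≤ D := Nat.lt_succ_iff.mp (Finset.mem_range.mp hi)
  obtain ⟨e, rfl⟩ := Nat.exists_eq_add_of_le hi'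
  rw [map_mul, map_mul, map_pow, map_pow, ← hρ, Nat.add_sub_cancel_left, RingHom.comp_apply]
  ring

/-- (1) Evaluation of the homogenisation at `t` when `q(t) j = p(t)`. -/
theorem sIA_gaussLoc_ev {L : Type} [Field L] (W : ValuationSubring L) (E : Type) [Field E]
    [Algebra L E] (t j : E) (p q : (↥W)[X]) (hj : sIA_ev W E t q * j = sIA_ev W E t p)
    (D : ℕ) (u : (↥W)[X]) (hu : u.natDegree ≤ D) :
    sIA_ev W E t (sIA_gaussLoc_hom p q D u) = (sIA_ev W E t q) ^ D * sIA_ev W E j u := by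
  rw [sIA_gaussLoc_hom_eval (sIA_ev W E t) p q j hj D u hu]
  have hc : (sIA_ev W E t).comp C = sIA_c W E := by
    ext w
    simp
  rw [hc]
  rfl

/-- (2) Over an algebraically closed field: if `P̄` is not a constant multiple of `Q̄ ≠ 0` and
`ū ≠ 0` has degree `≤ D`, then the homogenisation of `ū` is nonzero. -/
theorem sIA_gaussLoc_hom_ne_zero {k : Type} [Field k] [IsAlgClosed k] (P Q : k[X]) (hQ : Q ≠ 0)
    (hPQ : ∀ c : k, P ≠ C c * Q) (D : ℕ) (u : k[X]) (hu : u.natDegree ≤ D) (hu0 : u ≠ 0) :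
    sIA_gaussLoc_hom P Q D u ≠ 0 := by
  intro h0
  have haQ : algebraMap k[X] (RatFunc k) Q ≠ 0 := by
    intro h
    exact hQ (RatFunc.algebraMap_injective k (by rw [h, map_zero]))
  set ρ : RatFunc k := algebraMap k[X] (RatFunc k) P / algebraMap k[X] (RatFunc k) Q with hρdef
  have hρ : algebraMap k[X] (RatFunc k) Q * ρ = algebraMap k[X] (RatFunc k) P := by
    rw [hρdef, mul_div_cancel₀ _ haQ]
  have key := sIA_gaussLoc_hom_eval (algebraMap k[X] (RatFunc k)) P Q ρ hρ D u hu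
  rw [h0, map_zero] at key
  have hc : (algebraMap k[X] (RatFunc k)).comp C = algebraMap k (RatFunc k) := by
    ext x
    simp
  rw [hc] at key
  have hev : aeval ρ u = 0 := by
    rw [aeval_def]
    rcases mul_eq_zero.mp key.symm with h | h
    · exact absurd h (pow_ne_zero D haQ)
    · exact h
  have halg : IsAlgebraic k ρ := ⟨u, hu0, hev⟩
  have hint : IsIntegral k ρ := halg.isIntegral
  have hdeg : (minpoly k ρ).degree = 1 :=
    IsAlgClosed.degree_eq_one_of_irreducible k (minpoly.irreducible hint)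
  obtain ⟨c₀, hc₀⟩ := minpoly.mem_range_of_degree_eq_one k ρ hdeg
  apply hPQ c₀
  apply RatFunc.algebraMap_injective k
  rw [← hρ, ← hc₀, map_mul, mul_comm]
  congr 1

theorem sIA_gaussLoc_main : sIA_LamStructStatement → sIA_GaussLocStatement := by
  intro hLS L _ W _ k _ _ res ϖ E _ _ t h hLD p q j hq hpq hj ϖΛ _ hϖΛ f₀ g₀ c hg₀ hc
  obtain ⟨hdesc, hnoeth, hred, hprime⟩ := hLS L W k res ϖ E t h hLD
  set D := max g₀.natDegree f₀.natDegree with hD
  have hgD : g₀.natDegree ≤ D := le_max_left _ _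
  have hfD : f₀.natDegree ≤ D := le_max_right _ _
  have hG := sIA_gaussLoc_ev W E t j p q hj D g₀ hgD
  have hF := sIA_gaussLoc_ev W E t j p q hj D f₀ hfD
  rw [mem_locSub_iff]
  refine ⟨⟨sIA_ev W E t (sIA_gaussLoc_hom p q D f₀), sIA_ev_mem W E t h _⟩,
    ⟨sIA_ev W E t (sIA_gaussLoc_hom p q D g₀), sIA_ev_mem W E t h _⟩, ?_, ?_⟩
  · rw [hred ϖΛ _ (sIA_gaussLoc_hom p q D g₀) 0 hϖΛ (by simp), sIA_gaussLoc_hom_map]
    exact sIA_gaussLoc_hom_ne_zero _ _ hq hpq D _ (le_trans (natDegree_map_le) hgD) hg₀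
  · show c * sIA_ev W E t (sIA_gaussLoc_hom p q D g₀) = sIA_ev W E t (sIA_gaussLoc_hom p q D f₀)
    rw [hG, hF, ← hc]
    ring

end

end Fermat.Agent.S18
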