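/-
S18 — block S-I (twin A), package HorizLoc: the local factorisation hypotheses of
`HorizUnramStatement` at every irreducible `g ∤ h`, for both cover types.

Main result: `sIA_horizLoc_main : sIA_LamStructStatement → sIA_HorizLocStatement`.
-/
import Fermat.Agent.S18.SIAInterfaces
set_option autoImplicit false
open ModularCurve AlgebraicCurve Polynomial
namespace Fermat.Agent.S18

/-- (R1) Every element of `Λ = W[t, 1/h(t)]` is regular at an irreducible `g` with `g ∤ h`. -/
theorem sIA_horizLoc_regAt_of_mem (hLS : sIA_LamStructStatement)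
    {L : Type} [Field L] (W : ValuationSubring L) [IsDiscreteValuationRing ↥W] {k : Type}
    [Field k] (res : ↥W →+* k) (ϖ : ↥W) (E : Type) [Field E] [Algebra L E] (t : E) (h : (↥W)[X])
    (hLD : sIA_LamData W res ϖ E t h) (g : L[X]) (hg : Irreducible g)
    (hgh : ¬ g ∣ h.map W.subtype) (x : E) (hx : x ∈ sIA_lam W E t h) : RegAt t g x := by
  obtain ⟨hdesc, -, -, -⟩ := hLS L W k res ϖ E t h hLD
  obtain ⟨P, n, hP⟩ := (hdesc x).1 hx
  refine ⟨P.map W.subtype, (h.map W.subtype) ^ n,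
    fun hdvd => hgh (hg.prime.dvd_of_dvd_pow hdvd), ?_⟩
  rw [map_pow, ← sIA_ev_eq_aeval, ← sIA_ev_eq_aeval, mul_comm]
  exact hP

/-- (R2) Regularity at `g` is stable under `x ↦ x - 1728`. -/
theorem sIA_horizLoc_regAt_sub {L E : Type} [Field L] [Field E] [Algebra L E] (t : E)
    (g : L[X]) (x : E) (hx : RegAt t g x) : RegAt t g (x - 1728) := by
  obtain ⟨p, q, hq, hpq⟩ := hx
  refine ⟨p - C (1728 : L) * q, q, hq, ?_⟩
  rw [map_sub, map_mul, aeval_C, mul_sub, hpq, map_ofNat, mul_comm]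

/-- (R3) `j ≠ 0` and `j - 1728 ≠ 0` in `E`, since `j` is transcendental over `L`. -/
theorem sIA_horizLoc_j_ne (N : ℕ) [NeZero N] (L : Type) [Field L] [Algebra ℚ L] (E : Type)
    [Field E] [Algebra ↥(FL L N) E] (hjtr : Transcendental L (jF L N)) :
    jE L N E ≠ 0 ∧ jE L N E - 1728 ≠ 0 := by
  have h0 : jF L N ≠ 0 := by
    intro h0
    apply hjtr
    rw [h0]
    exact isAlgebraic_zero
  have h1 : jF L N ≠ 1728 := by
    intro h1
    apply hjtr
    rw [h1]
    have h1728 : (1728 : ↥(FL L N)) = algebraMap L ↥(FL L N) 1728 := (map_ofNat _ 1728).symm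
    rw [h1728]
    exact isAlgebraic_algebraMap _
  constructor
  · unfold jE
    exact (map_ne_zero_iff _ (algebraMap ↥(FL L N) E).injective).2 h0
  · unfold jE
    intro h
    apply h1
    apply (algebraMap ↥(FL L N) E).injective
    rw [map_ofNat]
    exact sub_eq_zero.1 h

/-- (H2)+(H3) The local factorisation hypotheses of `HorizUnramStatement` at every irreducible
`g ∤ h`, for both cover types. -/
theorem sIA_horizLoc_main : sIA_LamStructStatement → sIA_HorizLocStatement := by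
  intro hLS N _ L _ _ W _ k _ res ϖ E _ _ _ _ t h hLD hC hjtr g hg hgh
  have R1 : ∀ x ∈ coverRing W N E t h, RegAt t g x := by
    intro x hx
    rw [sIA_coverRing_eq] at hx
    exact sIA_horizLoc_regAt_of_mem hLS W res ϖ E t h hLD g hg hgh x hx
  obtain ⟨hj0, hj1⟩ := sIA_horizLoc_j_ne N L E hjtr
  rcases hC with h1 | h2
  · refine ⟨fun _ => ?_, fun _ => ?_, fun hn => absurd (R1 _ h1.j_mem) hn⟩
    · obtain ⟨a, ha, u, hu, v, hv, huv, hj⟩ := h1.ram0
      exact ⟨a, u, v, R1 a ha, R1 u hu, R1 v hv, huv, hj⟩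
    · obtain ⟨b, hb, u, hu, v, hv, huv, hj⟩ := h1.ram1728
      exact ⟨b, u, v, R1 b hb, R1 u hu, R1 v hv, huv, hj⟩
  · have hone : RegAt t g (1 : E) := R1 1 (Subring.one_mem _)
    refine ⟨fun hreg => ?_, fun hreg => ?_, fun _ => ?_⟩
    · exact ⟨1, jE L N E, (jE L N E)⁻¹, hone, hreg, R1 _ h2.jinv_mem, mul_inv_cancel₀ hj0,
        by ring⟩
    · refine ⟨1, jE L N E - 1728, (jE L N E - 1728)⁻¹, hone,
        sIA_horizLoc_regAt_sub t g _ hreg, ?_, mul_inv_cancel₀ hj1, by ring⟩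
      have hinv : (jE L N E - 1728)⁻¹ = (jE L N E / (jE L N E - 1728)) * (jE L N E)⁻¹ := by
        field_simp
      rw [hinv]
      exact R1 _ (Subring.mul_mem _ h2.jfrac_mem h2.jinv_mem)
    · obtain ⟨a, ha, u, hu, v, hv, huv, hj⟩ := h2.raminf
      exact ⟨a, u, v, R1 a ha, R1 u hu, R1 v hv, huv, hj⟩

end Fermat.Agent.S18
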