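/-
S18 — block S-I (twin A), package HorizPrime.

A nonzero prime `𝔭` of `Λ = W[t, 1/h(t)]` not containing `ϖ` is cut out by an irreducible
`g ∈ L[X]` with `g ∤ h`:  for `P ∈ W[X]`, `P(t) ∈ 𝔭 ↔ g ∣ P` in `L[X]`.

Main theorem: `sIA_horizPrime_main :
  sIA_LamStructStatement → sIA_ClearDenStatement → sIA_HorizPrimeStatement`.
-/
import Fermat.Agent.S18.SIAInterfaces

set_option autoImplicit false

open ModularCurve AlgebraicCurve Polynomial

namespace Fermat.Agent.S18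

noncomputable section

/-- `ι : W[X] → Λ`, `P ↦ P(t)`. -/
def sIA_horizPrime_iota {L : Type} [Field L] (W : ValuationSubring L) (E : Type) [Field E]
    [Algebra L E] (t : E) (h : (↥W)[X]) : (↥W)[X] →+* ↥(sIA_lam W E t h) :=
  (sIA_ev W E t).codRestrict (sIA_lam W E t h) (sIA_ev_mem W E t h)

theorem sIA_horizPrime_iota_coe {L : Type} [Field L] (W : ValuationSubring L) (E : Type) [Field E]
    [Algebra L E] (t : E) (h P : (↥W)[X]) :
    ((sIA_horizPrime_iota W E t h P : ↥(sIA_lam W E t h)) : E) = sIA_ev W E t P := rfl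

/-- The purely polynomial core: a nonzero prime ideal `I` of `W[X]` not containing `ϖ` is the
contraction of a principal prime ideal `(g)` of `L[X]`, `g` irreducible (given that denominators
can be cleared by powers of `ϖ`). -/
theorem sIA_horizPrime_key {L : Type} [Field L] (W : ValuationSubring L) (ϖ : ↥W)
    (hCD : ∀ p : L[X], ∃ (m : ℕ) (P : (↥W)[X]), P.map W.subtype = C ((ϖ : L) ^ m) * p)
    (hϖ0 : ϖ ≠ 0) (I : Ideal (↥W)[X]) (hI : I.IsPrime) (hϖI : C ϖ ∉ I) (hI0 : I ≠ ⊥) :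
    ∃ g : L[X], Irreducible g ∧ ∀ P : (↥W)[X], P ∈ I ↔ g ∣ P.map W.subtype := by
  classical
  have hϖL : (ϖ : L) ≠ 0 := fun h => hϖ0 (Subtype.ext h)
  have hσinj : Function.Injective (Polynomial.map W.subtype : (↥W)[X] → L[X]) :=
    Polynomial.map_injective _ Subtype.val_injective
  have hσC : ∀ m : ℕ, (C (ϖ ^ m) : (↥W)[X]).map W.subtype = C ((ϖ : L) ^ m) := by
    intro m
    simp
  -- (a) `ϖ ^ m * P ∈ I → P ∈ I`
  have ha : ∀ (m : ℕ) (P : (↥W)[X]), C (ϖ ^ m) * P ∈ I → P ∈ I := by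
    intro m P hP
    rcases hI.mem_or_mem hP with h1 | h1
    · exfalso
      rw [C_pow] at h1
      exact hϖI (hI.mem_of_pow_mem m h1)
    · exact h1
  -- (c) the extended ideal and its contraction
  let J : Ideal L[X] := Ideal.span ((Polynomial.map W.subtype) '' (I : Set (↥W)[X]))
  have hc1 : ∀ y ∈ J, ∃ (m : ℕ) (Q : (↥W)[X]),
      Q ∈ I ∧ Q.map W.subtype = C ((ϖ : L) ^ m) * y := by
    intro y hy
    refine Submodule.span_induction ?_ ?_ ?_ ?_ hy
    · rintro _ ⟨Q, hQ, rfl⟩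
      exact ⟨0, Q, hQ, by simp⟩
    · exact ⟨0, 0, I.zero_mem, by simp⟩
    · rintro y₁ y₂ _ _ ⟨m₁, Q₁, hQ₁, e₁⟩ ⟨m₂, Q₂, hQ₂, e₂⟩
      refine ⟨m₁ + m₂, C (ϖ ^ m₂) * Q₁ + C (ϖ ^ m₁) * Q₂,
        I.add_mem (I.mul_mem_left _ hQ₁) (I.mul_mem_left _ hQ₂), ?_⟩
      rw [Polynomial.map_add, Polynomial.map_mul, Polynomial.map_mul, hσC, hσC, e₁, e₂, pow_add,
        C_mul]
      ring
    · rintro a y _ ⟨m, Q, hQ, e⟩
      obtain ⟨m', A, hA⟩ := hCD a
      refine ⟨m' + m, A * Q, I.mul_mem_left _ hQ, ?_⟩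
      rw [Polynomial.map_mul, hA, e, smul_eq_mul, pow_add, C_mul]
      ring
  have hc : ∀ P : (↥W)[X], P.map W.subtype ∈ J ↔ P ∈ I := by
    intro P
    constructor
    · intro hP
      obtain ⟨m, Q, hQ, e⟩ := hc1 _ hP
      have hQP : Q = C (ϖ ^ m) * P := by
        apply hσinj
        rw [e, Polynomial.map_mul, hσC]
      rw [hQP] at hQ
      exact ha m P hQ
    · intro hP
      exact Ideal.subset_span ⟨P, hP, rfl⟩
  -- (d) `J` is a nonzero prime ideal
  have hJtop : J ≠ ⊤ := by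
    intro hJ
    have h1 : (1 : (↥W)[X]).map W.subtype ∈ J := by
      rw [hJ]
      trivial
    exact hI.ne_top ((Ideal.eq_top_iff_one I).2 ((hc 1).1 h1))
  have hunit : ∀ (m : ℕ) (a : L[X]), C ((ϖ : L) ^ m) * a ∈ J → a ∈ J := by
    intro m a ha'
    have haa : a = C (((ϖ : L) ^ m)⁻¹) * (C ((ϖ : L) ^ m) * a) := by
      rw [← mul_assoc, ← C_mul, inv_mul_cancel₀ (pow_ne_zero m hϖL), C_1, one_mul]
    rw [haa]
    exact J.mul_mem_left _ ha'
  have hJprime : J.IsPrime := by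
    rw [Ideal.isPrime_iff]
    refine ⟨hJtop, ?_⟩
    intro a b hab
    obtain ⟨m, A, hA⟩ := hCD a
    obtain ⟨m', B, hB⟩ := hCD b
    have hAB : (A * B).map W.subtype ∈ J := by
      rw [Polynomial.map_mul, hA, hB]
      have hrw : C ((ϖ : L) ^ m) * a * (C ((ϖ : L) ^ m') * b)
          = (C ((ϖ : L) ^ m) * C ((ϖ : L) ^ m')) * (a * b) := by ring
      rw [hrw]
      exact J.mul_mem_left _ hab
    rcases hI.mem_or_mem ((hc _).1 hAB) with h1 | h1
    · left
      apply hunit m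
      rw [← hA]
      exact (hc A).2 h1
    · right
      apply hunit m'
      rw [← hB]
      exact (hc B).2 h1
  have hJbot : J ≠ ⊥ := by
    intro hJ
    apply hI0
    rw [eq_bot_iff]
    intro P hP
    have h1 : P.map W.subtype ∈ J := (hc P).2 hP
    rw [hJ, Ideal.mem_bot] at h1
    rw [Ideal.mem_bot]
    apply hσinj
    rw [h1, Polynomial.map_zero]
  -- (e) `L[X]` is a PID
  have hJg : Ideal.span {Submodule.IsPrincipal.generator J} = J :=
    Ideal.span_singleton_generator J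
  have hg0 : Submodule.IsPrincipal.generator J ≠ 0 := by
    intro h0
    apply hJbot
    rw [← hJg, h0]
    exact Ideal.span_singleton_eq_bot.2 rfl
  have hgprime : Prime (Submodule.IsPrincipal.generator J) := by
    rw [← Ideal.span_singleton_prime hg0, hJg]
    exact hJprime
  refine ⟨Submodule.IsPrincipal.generator J, hgprime.irreducible, ?_⟩
  intro P
  rw [← hc P, ← Ideal.mem_span_singleton, hJg]

/-- (H1) A nonzero prime `𝔭` of `Λ` not containing `ϖ` is cut out by an irreducible `g ∈ L[X]`,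
`g ∤ h`. -/
theorem sIA_horizPrime_main :
    sIA_LamStructStatement → sIA_ClearDenStatement → sIA_HorizPrimeStatement := by
  intro hLS hCD L _ W _ k _ res ϖ E _ _ t h hLD 𝔭 ϖΛ h𝔭 h𝔭0 hϖΛ hϖ𝔭
  obtain ⟨hdesc, -, -, -⟩ := hLS L W k res ϖ E t h hLD
  have hCD' := hCD L W ϖ hLD.irreducible
  have hh0 : h ≠ 0 := by
    intro h0
    apply hLD.h_res
    rw [h0, Polynomial.map_zero]
  have hH0 : sIA_ev W E t h ≠ 0 := by
    intro h0
    apply hh0
    apply sIA_ev_injective W E t hLD.transc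
    rw [h0, map_zero]
  have hI : (𝔭.comap (sIA_horizPrime_iota W E t h)).IsPrime :=
    Ideal.comap_isPrime (sIA_horizPrime_iota W E t h) 𝔭
  have hmemI : ∀ P : (↥W)[X], P ∈ 𝔭.comap (sIA_horizPrime_iota W E t h) ↔
      sIA_horizPrime_iota W E t h P ∈ 𝔭 := fun P => Ideal.mem_comap
  -- (a) `ϖ ∉ I`
  have hϖI : C ϖ ∉ 𝔭.comap (sIA_horizPrime_iota W E t h) := by
    intro hC
    apply hϖ𝔭
    have hιC : sIA_horizPrime_iota W E t h (C ϖ) = ϖΛ :=
      Subtype.ext (by rw [hϖΛ]; exact sIA_ev_C W E t ϖ)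
    rw [← hιC]
    exact (hmemI _).1 hC
  -- (b) `h ∉ I`, `I ≠ ⊥`
  have hunit : sIA_horizPrime_iota W E t h h *
      (⟨(sIA_ev W E t h)⁻¹, sIA_hinv_mem W E t h⟩ : ↥(sIA_lam W E t h)) = 1 :=
    Subtype.ext (by
      show sIA_ev W E t h * (sIA_ev W E t h)⁻¹ = 1
      exact mul_inv_cancel₀ hH0)
  have hhI : h ∉ 𝔭.comap (sIA_horizPrime_iota W E t h) := by
    intro hh
    apply h𝔭.ne_top
    rw [Ideal.eq_top_iff_one, ← hunit]
    exact 𝔭.mul_mem_right _ ((hmemI _).1 hh)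
  have hI0 : 𝔭.comap (sIA_horizPrime_iota W E t h) ≠ ⊥ := by
    obtain ⟨x, hx, hx0⟩ := Submodule.exists_mem_ne_zero_of_ne_bot h𝔭0
    obtain ⟨P, n, hP⟩ := (hdesc (x : E)).1 x.2
    intro hI0
    have hιP : sIA_horizPrime_iota W E t h P = x * (sIA_horizPrime_iota W E t h h) ^ n :=
      Subtype.ext (by
        show sIA_ev W E t P = (x : E) * (sIA_ev W E t h) ^ n
        exact hP.symm)
    have hPI : P ∈ 𝔭.comap (sIA_horizPrime_iota W E t h) := by
      rw [hmemI, hιP]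
      exact 𝔭.mul_mem_right _ hx
    rw [hI0, Ideal.mem_bot] at hPI
    rw [hPI, map_zero] at hP
    rcases mul_eq_zero.1 hP with h1 | h1
    · exact hx0 (Subtype.ext h1)
    · exact pow_ne_zero n hH0 h1
  obtain ⟨g, hg, hgI⟩ := sIA_horizPrime_key W ϖ hCD' hLD.irreducible.ne_zero _ hI hϖI hI0
  refine ⟨g, hg, fun hgh => hhI ((hgI h).2 hgh), ?_⟩
  intro P x hx
  have hxP : x = sIA_horizPrime_iota W E t h P := Subtype.ext hx
  rw [hxP, ← hgI P, hmemI]

end

end Fermat.Agent.S18
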