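/-
S18 — block S-I (twin A), package HorizTransfer:
from `UnramAtPoly t g` (unramified at the place `g` of `L(t)`) to `UnramAtPrime Λ K₁ 𝔭`
(unramified at the prime `𝔭` of `Λ = W[t, 1/h(t)]` cut out by `g`).

Main theorem: `sIA_horizTransfer_main : sIA_ClearDenStatement → sIA_HorizTransferStatement`.
-/
import Fermat.Agent.S18.SIAInterfaces
set_option autoImplicit false
open ModularCurve AlgebraicCurve Polynomial
namespace Fermat.Agent.S18

/-- A monic polynomial over `E` with all coefficients in a subring `Λ` and with root `z` witnesses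
the integrality of `z` over `Λ`. -/
theorem sIA_horizTransfer_isIntegral_of_coeff_mem {E : Type} [Field E] (Λ : Subring E) (Q : E[X])
    (hQ : Q.Monic) (hcoeff : ∀ n, Q.coeff n ∈ Λ) (z : E) (hz : Q.eval z = 0) :
    IsIntegral ↥Λ z := by
  have hsub : (↑Q.coeffs : Set E) ⊆ Λ := by
    intro x hx
    obtain ⟨n, -, rfl⟩ := Polynomial.mem_coeffs_iff.1 hx
    exact hcoeff n
  refine ⟨Q.toSubring Λ hsub, (Polynomial.monic_toSubring Q Λ hsub).2 hQ, ?_⟩
  have hmap : (Q.toSubring Λ hsub).map (algebraMap ↥Λ E) = Q :=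
    Polynomial.map_toSubring Q Λ hsub
  rw [Polynomial.eval₂_eq_eval_map, hmap, hz]

/-- Clearing denominators with any sufficiently large exponent. -/
theorem sIA_horizTransfer_clear (hCD : sIA_ClearDenStatement) {L : Type} [Field L]
    (W : ValuationSubring L) [IsDiscreteValuationRing ↥W] (ϖ : ↥W) (hϖ : Irreducible ϖ)
    (p : L[X]) :
    ∃ m₀ : ℕ, ∀ m, m₀ ≤ m → ∃ P : (↥W)[X], P.map W.subtype = C ((ϖ : L) ^ m) * p := by
  obtain ⟨m₀, P, hP⟩ := hCD L W ϖ hϖ p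
  refine ⟨m₀, fun m hm => ⟨C (ϖ ^ (m - m₀)) * P, ?_⟩⟩
  rw [Polynomial.map_mul, hP, Polynomial.map_C, ← mul_assoc, ← C_mul]
  congr 2
  have h1 : W.subtype (ϖ ^ (m - m₀)) = (ϖ : L) ^ (m - m₀) := by
    rw [map_pow]
    rfl
  rw [h1, ← pow_add]
  congr 1
  omega

/-- Key fact (N): a polynomial `s ∈ L[X]` not divisible by `g` gives, after multiplication by a
large power of `ϖ`, an element of `Λ` outside `𝔭`. -/
theorem sIA_horizTransfer_notMem (hCD : sIA_ClearDenStatement) {L : Type} [Field L]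
    (W : ValuationSubring L) [IsDiscreteValuationRing ↥W] {k : Type} [Field k] (res : ↥W →+* k)
    (ϖ : ↥W) (E : Type) [Field E] [Algebra L E] (t : E) (h : (↥W)[X])
    (hLD : sIA_LamData W res ϖ E t h) (𝔭 : Ideal ↥(sIA_lam W E t h)) (g : L[X])
    (hg : ∀ (P : (↥W)[X]) (x : ↥(sIA_lam W E t h)), (x : E) = sIA_ev W E t P →
      (x ∈ 𝔭 ↔ g ∣ P.map W.subtype)) (s : L[X]) (hs : ¬ g ∣ s) :
    ∃ m₀ : ℕ, ∀ m, m₀ ≤ m → ∃ sΛ : ↥(sIA_lam W E t h), sΛ ∉ 𝔭 ∧
      (sΛ : E) = algebraMap L E ((ϖ : L) ^ m) * aeval t s := by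
  obtain ⟨m₀, hm₀⟩ := sIA_horizTransfer_clear hCD W ϖ hLD.irreducible s
  refine ⟨m₀, fun m hm => ?_⟩
  obtain ⟨S, hS⟩ := hm₀ m hm
  refine ⟨⟨sIA_ev W E t S, sIA_ev_mem W E t h S⟩, ?_, ?_⟩
  · rw [hg S _ rfl, hS]
    intro hdvd
    apply hs
    have hϖ0 : (ϖ : L) ≠ 0 := by
      intro h0
      exact hLD.irreducible.ne_zero (Subtype.ext h0)
    have hu : IsUnit (C ((ϖ : L) ^ m) : L[X]) :=
      Polynomial.isUnit_C.2 (IsUnit.mk0 _ (pow_ne_zero _ hϖ0))
    exact (hu.dvd_mul_left).1 hdvd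
  · show sIA_ev W E t S = _
    rw [sIA_ev_eq_aeval, hS, map_mul, aeval_C]

/-- Claim of step (3): an element integral over `L[t]` becomes integral over `Λ` after
multiplication by a power of `ϖ`. -/
theorem sIA_horizTransfer_integral (hCD : sIA_ClearDenStatement) {L : Type} [Field L]
    (W : ValuationSubring L) [IsDiscreteValuationRing ↥W] (ϖ : ↥W) (hϖ : Irreducible ϖ)
    (E : Type) [Field E] [Algebra L E] (t : E) (h : (↥W)[X])
    (y : E) (hy : IsIntegral ↥(Algebra.adjoin L {t}) y) :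
    ∃ m : ℕ, IsIntegral ↥(sIA_lam W E t h) (algebraMap L E ((ϖ : L) ^ m) * y) := by
  obtain ⟨Q, hQmonic, hQy⟩ := hy
  have hrange : ∀ x : E, x ∈ Algebra.adjoin L {t} → ∃ q : L[X], aeval t q = x := by
    intro x hx
    rw [Algebra.adjoin_singleton_eq_range_aeval] at hx
    exact hx
  have hcoef : ∀ i : ℕ, ∃ q : L[X], aeval t q = ((Q.coeff i : ↥(Algebra.adjoin L {t})) : E) :=
    fun i => hrange _ (Q.coeff i).2
  choose q hq using hcoef
  have hclear : ∀ i : ℕ, ∃ m₀ : ℕ, ∀ m, m₀ ≤ m →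
      ∃ P : (↥W)[X], P.map W.subtype = C ((ϖ : L) ^ m) * q i :=
    fun i => sIA_horizTransfer_clear hCD W ϖ hϖ (q i)
  choose m₀ hm₀ using hclear
  have hm : ∀ i, i < Q.natDegree → m₀ i ≤ (Finset.range Q.natDegree).sup m₀ :=
    fun i hi => Finset.le_sup (Finset.mem_range.2 hi)
  refine ⟨(Finset.range Q.natDegree).sup m₀, ?_⟩
  generalize (Finset.range Q.natDegree).sup m₀ = m at hm
  have hr : algebraMap L E ((ϖ : L) ^ m) ∈ sIA_lam W E t h := by
    have h1 : algebraMap L E ((ϖ : L) ^ m) = sIA_c W E (ϖ ^ m) := by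
      rw [sIA_c_apply]
      rfl
    rw [h1]
    exact sIA_c_mem W E t h _
  have hQ'monic : (Q.map (algebraMap ↥(Algebra.adjoin L {t}) E)).Monic := hQmonic.map _
  have hQ'y : (Q.map (algebraMap ↥(Algebra.adjoin L {t}) E)).eval y = 0 := by
    rw [eval_map]
    exact hQy
  have hd : (Q.map (algebraMap ↥(Algebra.adjoin L {t}) E)).natDegree = Q.natDegree :=
    hQmonic.natDegree_map _
  apply sIA_horizTransfer_isIntegral_of_coeff_mem (sIA_lam W E t h)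
    ((Q.map (algebraMap ↥(Algebra.adjoin L {t}) E)).scaleRoots (algebraMap L E ((ϖ : L) ^ m)))
    ((monic_scaleRoots_iff _).2 hQ'monic)
  · intro n
    rw [coeff_scaleRoots, hd]
    rcases lt_trichotomy n Q.natDegree with hn | hn | hn
    · obtain ⟨P, hP⟩ := hm₀ n m (hm n hn)
      have h1 : (Q.map (algebraMap ↥(Algebra.adjoin L {t}) E)).coeff n *
          algebraMap L E ((ϖ : L) ^ m) = sIA_ev W E t P := by
        rw [sIA_ev_eq_aeval, hP, map_mul, aeval_C, coeff_map, hq n, mul_comm]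
        rfl
      have h2 : Q.natDegree - n = (Q.natDegree - n - 1) + 1 := by omega
      rw [h2, pow_succ, ← mul_assoc, mul_right_comm, h1]
      exact Subring.mul_mem _ (sIA_ev_mem W E t h P) (Subring.pow_mem _ hr _)
    · rw [hn, Nat.sub_self, pow_zero, mul_one, ← hd, hQ'monic.coeff_natDegree]
      exact Subring.one_mem _
    · rw [coeff_eq_zero_of_natDegree_lt (by omega), zero_mul]
      exact Subring.zero_mem _
  · rw [scaleRoots_eval_mul, hQ'y, mul_zero]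

/-- (H4) Transfer: unramified at the place `g` of `L(t)` implies unramified at the prime `𝔭` of `Λ`
cut out by `g`. -/
theorem sIA_horizTransfer_main : sIA_ClearDenStatement → sIA_HorizTransferStatement := by
  intro hCD L _ W _ k _ res ϖ E _ _ t h hLD 𝔭 ϖΛ h𝔭 hϖΛ hϖ𝔭 g hg hU
  obtain ⟨r, c, hli, hspan, hint, a, s, ha, hs, hdisc⟩ := hU
  have hϖpow : ∀ m : ℕ, ϖΛ ^ m ∉ 𝔭 := fun m hmem => hϖ𝔭 (h𝔭.mem_of_pow_mem m hmem)
  have hϖcoe : ∀ m : ℕ,
      ((ϖΛ ^ m : ↥(sIA_lam W E t h)) : E) = algebraMap L E ((ϖ : L) ^ m) := by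
    intro m
    rw [Subring.coe_pow, hϖΛ, sIA_c_apply, map_pow]
  refine ⟨r, c, hli, hspan, ?_, ?_⟩
  · intro i
    obtain ⟨s, hs, hsint⟩ := hint i
    obtain ⟨m, hm⟩ := sIA_horizTransfer_integral hCD W ϖ hLD.irreducible E t h _ hsint
    obtain ⟨m₀, hm₀⟩ := sIA_horizTransfer_notMem hCD W res ϖ E t h hLD 𝔭 g hg s hs
    obtain ⟨sΛ, hsΛ, hsΛe⟩ := hm₀ m₀ le_rfl
    refine ⟨ϖΛ ^ m * sΛ, fun hmem => (h𝔭.mem_or_mem hmem).elim (hϖpow m) hsΛ, ?_⟩
    have h1 : ((ϖΛ ^ m * sΛ : ↥(sIA_lam W E t h)) : E) * c i =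
        ((ϖΛ ^ m₀ : ↥(sIA_lam W E t h)) : E) *
          (algebraMap L E ((ϖ : L) ^ m) * (aeval t s * c i)) := by
      rw [Subring.coe_mul, hϖcoe, hϖcoe, hsΛe]
      ring
    rw [h1]
    exact IsIntegral.mul
      (isIntegral_algebraMap (R := ↥(sIA_lam W E t h)) (A := E) (x := ϖΛ ^ m₀)) hm
  · obtain ⟨m₁, hm₁⟩ := sIA_horizTransfer_notMem hCD W res ϖ E t h hLD 𝔭 g hg a ha
    obtain ⟨m₂, hm₂⟩ := sIA_horizTransfer_notMem hCD W res ϖ E t h hLD 𝔭 g hg s hs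
    obtain ⟨aΛ, haΛ, haΛe⟩ := hm₁ (max m₁ m₂) (le_max_left _ _)
    obtain ⟨sΛ, hsΛ, hsΛe⟩ := hm₂ (max m₁ m₂) (le_max_right _ _)
    refine ⟨aΛ, sΛ, haΛ, hsΛ, ?_⟩
    rw [hsΛe, haΛe, mul_assoc]
    congr 1

end Fermat.Agent.S18
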