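/-
S18 — block S-I (twin A), package K1: clearing denominators, and `K₁ = L(t)` is the fraction field
of `Λ = W[t, 1/h(t)]` (elementwise).
-/
import Fermat.Agent.S18.SIAInterfaces
set_option autoImplicit false
open ModularCurve AlgebraicCurve Polynomial
namespace Fermat.Agent.S18

/-- The uniformiser is nonzero in `L`. -/
theorem sIA_k1_coe_ne_zero {L : Type} [Field L] (W : ValuationSubring L) (ϖ : ↥W)
    (hϖ : Irreducible ϖ) : (ϖ : L) ≠ 0 := by
  intro h0
  exact hϖ.ne_zero (Subtype.ext h0)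

/-- Clearing the denominator of a scalar. -/
theorem sIA_k1_scalar {L : Type} [Field L] (W : ValuationSubring L) [IsDiscreteValuationRing ↥W]
    (ϖ : ↥W) (hϖ : Irreducible ϖ) (x : L) : ∃ (n : ℕ) (w : ↥W), (w : L) = (ϖ : L) ^ n * x := by
  rcases W.mem_or_inv_mem x with hx | hx
  · exact ⟨0, ⟨x, hx⟩, by simp⟩
  · by_cases hx0 : x = 0
    · exact ⟨0, 0, by simp [hx0]⟩
    · have hy : (⟨x⁻¹, hx⟩ : ↥W) ≠ 0 := by
        intro h0
        have h1 : (x⁻¹ : L) = 0 := congrArg Subtype.val h0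
        exact hx0 (inv_eq_zero.1 h1)
      obtain ⟨n, u, hu⟩ := IsDiscreteValuationRing.eq_unit_mul_pow_irreducible hy hϖ
      refine ⟨n, ((u⁻¹ : (↥W)ˣ) : ↥W), ?_⟩
      have h1 : (x⁻¹ : L) = ((u : ↥W) : L) * (ϖ : L) ^ n := by
        have h2 := congrArg W.subtype hu
        rw [map_mul, map_pow] at h2
        exact h2
      have h3 : ((u : ↥W) : L) * (((u⁻¹ : (↥W)ˣ) : ↥W) : L) = 1 := by
        have h2 := congrArg W.subtype (Units.mul_inv u)
        rw [map_mul, map_one] at h2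
        exact h2
      have hu0 : ((u : ↥W) : L) ≠ 0 := left_ne_zero_of_mul_eq_one h3
      have h4 : x * (((u : ↥W) : L) * (ϖ : L) ^ n) = 1 := by
        rw [← h1]
        exact mul_inv_cancel₀ hx0
      have h5 : ((u : ↥W) : L) * (((u⁻¹ : (↥W)ˣ) : ↥W) : L)
          = ((u : ↥W) : L) * ((ϖ : L) ^ n * x) := by
        rw [h3, ← h4]
        ring
      exact mul_left_cancel₀ hu0 h5

/-- The image in `L[X]` of the constant polynomial `ϖ ^ n`. -/
theorem sIA_k1_map_C_pow {L : Type} [Field L] (W : ValuationSubring L) (ϖ : ↥W) (n : ℕ) :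
    (C (ϖ ^ n) : (↥W)[X]).map W.subtype = C ((ϖ : L) ^ n) := by
  rw [Polynomial.map_C, map_pow]
  rfl

/-- Clearing denominators: every `p ∈ L[X]` has a multiple `ϖ ^ m * p` in `W[X]`. -/
theorem sIA_k1_clearDen : sIA_ClearDenStatement := by
  intro L _ W _ ϖ hϖ p
  induction p using Polynomial.induction_on' with
  | add p q hp hq =>
    obtain ⟨m₁, P₁, h₁⟩ := hp
    obtain ⟨m₂, P₂, h₂⟩ := hq
    refine ⟨m₁ + m₂, C (ϖ ^ m₂) * P₁ + C (ϖ ^ m₁) * P₂, ?_⟩
    rw [Polynomial.map_add, Polynomial.map_mul, Polynomial.map_mul, sIA_k1_map_C_pow,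
      sIA_k1_map_C_pow, h₁, h₂, pow_add, C_mul]
    ring
  | monomial i x =>
    obtain ⟨n, w, hw⟩ := sIA_k1_scalar W ϖ hϖ x
    refine ⟨n, monomial i w, ?_⟩
    rw [Polynomial.map_monomial, Polynomial.C_mul_monomial]
    congr 1

/-- Clearing denominators of two polynomials simultaneously. -/
theorem sIA_k1_clearDen₂ {L : Type} [Field L] (W : ValuationSubring L)
    [IsDiscreteValuationRing ↥W] (ϖ : ↥W) (hϖ : Irreducible ϖ) (p q : L[X]) :
    ∃ (m : ℕ) (P Q : (↥W)[X]), P.map W.subtype = C ((ϖ : L) ^ m) * p ∧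
      Q.map W.subtype = C ((ϖ : L) ^ m) * q := by
  obtain ⟨m₁, P₁, h₁⟩ := sIA_k1_clearDen L W ϖ hϖ p
  obtain ⟨m₂, P₂, h₂⟩ := sIA_k1_clearDen L W ϖ hϖ q
  refine ⟨m₁ + m₂, C (ϖ ^ m₂) * P₁, C (ϖ ^ m₁) * P₂, ?_, ?_⟩
  · rw [Polynomial.map_mul, sIA_k1_map_C_pow, h₁, pow_add, C_mul]
    ring
  · rw [Polynomial.map_mul, sIA_k1_map_C_pow, h₂, pow_add, C_mul]
    ring

/-- `P(t) ∈ L(t)` for `P ∈ W[X]`. -/
theorem sIA_k1_ev_mem {L : Type} [Field L] (W : ValuationSubring L) (E : Type) [Field E]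
    [Algebra L E] (t : E) (P : (↥W)[X]) : sIA_ev W E t P ∈ IntermediateField.adjoin L {t} := by
  rw [sIA_ev_eq_aeval, aeval_eq_sum_range]
  refine sum_mem fun i _ => ?_
  rw [Algebra.smul_def]
  exact mul_mem (IntermediateField.algebraMap_mem _ _)
    (pow_mem (IntermediateField.mem_adjoin_simple_self L t) _)

/-- (Λ5) `Λ ⊆ K₁ = L(t)` and `K₁` is the fraction field of `Λ` (elementwise). -/
theorem sIA_k1_main : sIA_K1Statement := by
  intro L _ W _ E _ _ t h
  refine ⟨?_, ?_⟩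
  · -- (A) the generators of `Λ` lie in `L(t)`
    unfold sIA_lam
    rw [Subring.closure_le]
    rintro x (⟨w, rfl⟩ | hx | hx)
    · show sIA_c W E w ∈ IntermediateField.adjoin L {t}
      rw [sIA_c_apply]
      exact IntermediateField.algebraMap_mem _ _
    · rw [hx]
      show t ∈ IntermediateField.adjoin L {t}
      exact IntermediateField.mem_adjoin_simple_self L t
    · rw [Set.mem_singleton_iff] at hx
      rw [hx]
      show (sIA_ev W E t h)⁻¹ ∈ IntermediateField.adjoin L {t}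
      exact inv_mem (sIA_k1_ev_mem W E t h)
  · -- (B) every element of `L(t)` is a fraction of elements of `Λ`
    intro x hx
    obtain ⟨ϖ, hϖ⟩ := IsDiscreteValuationRing.exists_irreducible ↥W
    have hϖ0 : (ϖ : L) ≠ 0 := sIA_k1_coe_ne_zero W ϖ hϖ
    have hx' : x ∈ IntermediateField.adjoin L {t} := hx
    rw [IntermediateField.mem_adjoin_simple_iff] at hx'
    obtain ⟨r, s, hrs⟩ := hx'
    by_cases hs : aeval t s = 0
    · refine ⟨0, Subring.zero_mem _, 1, Subring.one_mem _, one_ne_zero, ?_⟩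
      rw [hrs, hs, div_zero, zero_mul]
    · obtain ⟨m, R, S, hR, hS⟩ := sIA_k1_clearDen₂ W ϖ hϖ r s
      have hc : algebraMap L E ((ϖ : L) ^ m) ≠ 0 := by
        intro h0
        exact pow_ne_zero m hϖ0 ((map_eq_zero (algebraMap L E)).1 h0)
      have ha : sIA_ev W E t R = algebraMap L E ((ϖ : L) ^ m) * aeval t r := by
        rw [sIA_ev_eq_aeval, hR, map_mul, aeval_C]
      have hb : sIA_ev W E t S = algebraMap L E ((ϖ : L) ^ m) * aeval t s := by
        rw [sIA_ev_eq_aeval, hS, map_mul, aeval_C]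
      refine ⟨sIA_ev W E t R, sIA_ev_mem W E t h R, sIA_ev W E t S, sIA_ev_mem W E t h S, ?_, ?_⟩
      · rw [hb]
        exact mul_ne_zero hc hs
      · rw [ha, hb, hrs]
        field_simp

end Fermat.Agent.S18
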