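/-
S18 — block S-I (twin A), package SIA/LamMax: maximal ideals of `Λ = W[t, 1/h(t)]` containing `ϖ`.

Main result: `sIA_lamMax_main : sIA_LamStructStatement → sIA_LamMaxStatement`.
Every maximal ideal `𝔫 ∋ ϖ` of `Λ` is `(ϖ, x)` with `x ∉ ϖ Λ`, and the only prime ideal containing `ϖ`
strictly inside `𝔫` is `ϖ Λ`.  The proof transports ideals of `Λ` containing `ϖ` to ideals of `k[X]`
along `W[X] → Λ`, `P ↦ P(t)` and `W[X] → k[X]`, `P ↦ P mod ϖ`.
-/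
import Fermat.Agent.S18.SIAInterfaces
set_option autoImplicit false
open ModularCurve AlgebraicCurve Polynomial
namespace Fermat.Agent.S18

noncomputable section

section LamMax

variable {L : Type} [Field L] (W : ValuationSubring L) {k : Type} [Field k]
  (res : ↥W →+* k) (ϖ : ↥W) (E : Type) [Field E] [Algebra L E] (t : E) (h : (↥W)[X])

/-- `ι : W[X] → Λ`, `P ↦ P(t)`. -/
def sIA_lamMax_iota : (↥W)[X] →+* ↥(sIA_lam W E t h) :=
  (sIA_ev W E t).codRestrict (sIA_lam W E t h) (sIA_ev_mem W E t h)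

theorem sIA_lamMax_iota_coe (P : (↥W)[X]) :
    ((sIA_lamMax_iota W E t h P : ↥(sIA_lam W E t h)) : E) = sIA_ev W E t P := rfl

variable {W res ϖ E t h}

/-- `res ϖ = 0`. -/
theorem sIA_lamMax_res_pi (hLD : sIA_LamData W res ϖ E t h) : res ϖ = 0 := by
  have h1 : ϖ ∈ RingHom.ker res := by
    rw [hLD.ker_res]; exact Ideal.mem_span_singleton_self ϖ
  exact (RingHom.mem_ker).1 h1

/-- (K) A polynomial with zero reduction is divisible by `ϖ`. -/
theorem sIA_lamMax_K (hLD : sIA_LamData W res ϖ E t h) (P : (↥W)[X]) (hP : P.map res = 0) :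
    ∃ P₁ : (↥W)[X], P = C ϖ * P₁ := by
  have hdvd : C ϖ ∣ P := by
    rw [Polynomial.C_dvd_iff_dvd_coeff]
    intro i
    have h1 : res (P.coeff i) = 0 := by
      have h0 := congrArg (fun Q => Q.coeff i) hP
      simpa [Polynomial.coeff_map] using h0
    have h2 : P.coeff i ∈ RingHom.ker res := (RingHom.mem_ker).2 h1
    rw [hLD.ker_res] at h2
    exact Ideal.mem_span_singleton.1 h2
  exact hdvd

/-- `h(t) ≠ 0`. -/
theorem sIA_lamMax_H_ne_zero (hLD : sIA_LamData W res ϖ E t h) : sIA_ev W E t h ≠ 0 := by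
  intro h0
  have hh : h = 0 := sIA_ev_injective W E t hLD.transc (by rw [h0, map_zero])
  exact hLD.h_res (by rw [hh, Polynomial.map_zero])

/-- `ι (C ϖ) = ϖΛ`. -/
theorem sIA_lamMax_iota_C_pi (ϖΛ : ↥(sIA_lam W E t h)) (hϖ : (ϖΛ : E) = sIA_c W E ϖ) :
    sIA_lamMax_iota W E t h (C ϖ) = ϖΛ := by
  apply Subtype.ext
  rw [sIA_lamMax_iota_coe, sIA_ev_C, hϖ]

/-- (ii) Membership of `x = P(t)/h(t)^n` in an ideal of `Λ` is membership of `P(t)`. -/
theorem sIA_lamMax_mem_iff (hLD : sIA_LamData W res ϖ E t h) (𝔞 : Ideal ↥(sIA_lam W E t h))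
    (x : ↥(sIA_lam W E t h)) (P : (↥W)[X]) (n : ℕ)
    (hx : (x : E) * (sIA_ev W E t h) ^ n = sIA_ev W E t P) :
    x ∈ 𝔞 ↔ sIA_lamMax_iota W E t h P ∈ 𝔞 := by
  have hH := sIA_lamMax_H_ne_zero hLD
  have e1 : sIA_lamMax_iota W E t h P = x * (sIA_lamMax_iota W E t h h) ^ n := by
    apply Subtype.ext
    simp only [Subring.coe_mul, Subring.coe_pow, sIA_lamMax_iota_coe]
    exact hx.symm
  have e2 : x = sIA_lamMax_iota W E t h P *
      (⟨(sIA_ev W E t h)⁻¹, sIA_hinv_mem W E t h⟩ : ↥(sIA_lam W E t h)) ^ n := by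
    apply Subtype.ext
    simp only [Subring.coe_mul, Subring.coe_pow, sIA_lamMax_iota_coe]
    rw [← hx, mul_assoc, ← mul_pow, mul_inv_cancel₀ hH, one_pow, mul_one]
  constructor
  · intro hxa; rw [e1]; exact 𝔞.mul_mem_right _ hxa
  · intro hPa; rw [e2]; exact 𝔞.mul_mem_right _ hPa

/-- (i) The kernel of reduction lies in the preimage of any ideal containing `ϖ`. -/
theorem sIA_lamMax_ker_le (hLD : sIA_LamData W res ϖ E t h) (𝔞 : Ideal ↥(sIA_lam W E t h))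
    (ϖΛ : ↥(sIA_lam W E t h)) (hϖ : (ϖΛ : E) = sIA_c W E ϖ) (hmem : ϖΛ ∈ 𝔞) :
    RingHom.ker (Polynomial.mapRingHom res) ≤ 𝔞.comap (sIA_lamMax_iota W E t h) := by
  intro P hP
  rw [RingHom.mem_ker, Polynomial.coe_mapRingHom] at hP
  obtain ⟨P₁, rfl⟩ := sIA_lamMax_K hLD P hP
  rw [Ideal.mem_comap, map_mul, sIA_lamMax_iota_C_pi ϖΛ hϖ]
  exact 𝔞.mul_mem_right _ hmem

/-- (i) `P mod ϖ ∈ 𝔮(𝔞) ↔ P(t) ∈ 𝔞`. -/
theorem sIA_lamMax_map_mem_iff (hLD : sIA_LamData W res ϖ E t h) (𝔞 : Ideal ↥(sIA_lam W E t h))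
    (ϖΛ : ↥(sIA_lam W E t h)) (hϖ : (ϖΛ : E) = sIA_c W E ϖ) (hmem : ϖΛ ∈ 𝔞) (P : (↥W)[X]) :
    P.map res ∈ (𝔞.comap (sIA_lamMax_iota W E t h)).map (Polynomial.mapRingHom res) ↔
      sIA_lamMax_iota W E t h P ∈ 𝔞 := by
  have hsurj : Function.Surjective (Polynomial.mapRingHom res) :=
    Polynomial.map_surjective res hLD.res_surjective
  have hker := sIA_lamMax_ker_le hLD 𝔞 ϖΛ hϖ hmem
  constructor
  · intro hP
    rw [Ideal.mem_map_iff_of_surjective _ hsurj] at hP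
    obtain ⟨Q, hQ, hQP⟩ := hP
    have h1 : P - Q ∈ RingHom.ker (Polynomial.mapRingHom res) := by
      rw [RingHom.mem_ker, map_sub, hQP, Polynomial.coe_mapRingHom, sub_self]
    have h2 := hker h1
    rw [Ideal.mem_comap] at h2 hQ
    have h3 : sIA_lamMax_iota W E t h P =
        sIA_lamMax_iota W E t h (P - Q) + sIA_lamMax_iota W E t h Q := by
      rw [← map_add, sub_add_cancel]
    rw [h3]
    exact 𝔞.add_mem h2 hQ
  · intro hP
    exact Ideal.mem_map_of_mem _ (Ideal.mem_comap.2 hP)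

/-- (i) `𝔮(𝔞)` is prime when `𝔞` is a prime containing `ϖ`. -/
theorem sIA_lamMax_map_isPrime (hLD : sIA_LamData W res ϖ E t h) (𝔞 : Ideal ↥(sIA_lam W E t h))
    (h𝔞 : 𝔞.IsPrime) (ϖΛ : ↥(sIA_lam W E t h)) (hϖ : (ϖΛ : E) = sIA_c W E ϖ) (hmem : ϖΛ ∈ 𝔞) :
    ((𝔞.comap (sIA_lamMax_iota W E t h)).map (Polynomial.mapRingHom res)).IsPrime := by
  have hsurj : Function.Surjective (Polynomial.mapRingHom res) :=
    Polynomial.map_surjective res hLD.res_surjective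
  have : (𝔞.comap (sIA_lamMax_iota W E t h)).IsPrime := Ideal.comap_isPrime _ 𝔞
  exact Ideal.map_isPrime_of_surjective hsurj (sIA_lamMax_ker_le hLD 𝔞 ϖΛ hϖ hmem)

/-- (iii) If `𝔮(𝔞) = 0` then `𝔞 = ϖ Λ`. -/
theorem sIA_lamMax_eq_span_of_bot [IsDiscreteValuationRing ↥W] (hLS : sIA_LamStructStatement)
    (hLD : sIA_LamData W res ϖ E t h) (𝔞 : Ideal ↥(sIA_lam W E t h))
    (ϖΛ : ↥(sIA_lam W E t h)) (hϖ : (ϖΛ : E) = sIA_c W E ϖ) (hmem : ϖΛ ∈ 𝔞)
    (hbot : (𝔞.comap (sIA_lamMax_iota W E t h)).map (Polynomial.mapRingHom res) = ⊥) :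
    𝔞 = Ideal.span {ϖΛ} := by
  obtain ⟨hdesc, -, hred, -⟩ := hLS L W k res ϖ E t h hLD
  apply le_antisymm
  · intro x hx
    obtain ⟨P, n, hP⟩ := (hdesc x).1 x.2
    have h1 := (sIA_lamMax_mem_iff hLD 𝔞 x P n hP).1 hx
    have h2 := (sIA_lamMax_map_mem_iff hLD 𝔞 ϖΛ hϖ hmem P).2 h1
    rw [hbot, Ideal.mem_bot] at h2
    exact (hred ϖΛ x P n hϖ hP).2 h2
  · rw [Ideal.span_le, Set.singleton_subset_iff]; exact hmem

/-- A point of `k` where `h mod ϖ` does not vanish. -/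
theorem sIA_lamMax_exists_eval_ne [Infinite k] (hLD : sIA_LamData W res ϖ E t h) :
    ∃ c : k, (h.map res).eval c ≠ 0 := by
  by_contra hcon
  simp only [not_exists, not_not] at hcon
  exact hLD.h_res (Polynomial.funext (fun r => by rw [hcon r, Polynomial.eval_zero]))

/-- `ι (X - C ĉ) ∉ ϖ Λ`. -/
theorem sIA_lamMax_linear_notMem [IsDiscreteValuationRing ↥W] (hLS : sIA_LamStructStatement)
    (hLD : sIA_LamData W res ϖ E t h) (ϖΛ : ↥(sIA_lam W E t h)) (hϖ : (ϖΛ : E) = sIA_c W E ϖ)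
    (ĉ : ↥W) :
    sIA_lamMax_iota W E t h (X - C ĉ) ∉ (Ideal.span {ϖΛ} : Ideal ↥(sIA_lam W E t h)) := by
  obtain ⟨-, -, hred, -⟩ := hLS L W k res ϖ E t h hLD
  intro hyin
  have h1 := (hred ϖΛ (sIA_lamMax_iota W E t h (X - C ĉ)) (X - C ĉ) 0 hϖ
    (by rw [pow_zero, mul_one]; rfl)).1 hyin
  rw [Polynomial.map_sub, Polynomial.map_X, Polynomial.map_C] at h1
  exact Polynomial.X_sub_C_ne_zero (res ĉ) h1

/-- (iv) `ϖ Λ` is not a maximal ideal. -/
theorem sIA_lamMax_not_maximal [IsDiscreteValuationRing ↥W] [Infinite k]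
    (hLS : sIA_LamStructStatement) (hLD : sIA_LamData W res ϖ E t h)
    (ϖΛ : ↥(sIA_lam W E t h)) (hϖ : (ϖΛ : E) = sIA_c W E ϖ) :
    ¬ (Ideal.span {ϖΛ} : Ideal ↥(sIA_lam W E t h)).IsMaximal := by
  obtain ⟨hdesc, -, -, -⟩ := hLS L W k res ϖ E t h hLD
  intro hmax
  obtain ⟨c, hc⟩ := sIA_lamMax_exists_eval_ne hLD
  obtain ⟨ĉ, hĉ⟩ := hLD.res_surjective c
  have hy_notin := sIA_lamMax_linear_notMem hLS hLD ϖΛ hϖ ĉ
  obtain ⟨b, i, hi, hbi⟩ := hmax.exists_inv hy_notin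
  obtain ⟨a, rfl⟩ := Ideal.mem_span_singleton.1 hi
  obtain ⟨A, n, hA⟩ := (hdesc a).1 a.2
  obtain ⟨B, m, hB⟩ := (hdesc b).1 b.2
  have hE : (b : E) * sIA_ev W E t (X - C ĉ) + sIA_c W E ϖ * (a : E) = 1 := by
    have h0 := congrArg (Subtype.val) hbi
    simp only [Subring.coe_add, Subring.coe_mul, Subring.coe_one, sIA_lamMax_iota_coe, hϖ] at h0
    exact h0
  have key : sIA_ev W E t (h ^ (n + m)) =
      sIA_ev W E t (B * (X - C ĉ) * h ^ n + C ϖ * A * h ^ m) := by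
    rw [map_add, map_mul, map_mul, map_mul, map_mul, map_pow, map_pow, map_pow, sIA_ev_C,
      ← hA, ← hB]
    have h1 : (sIA_ev W E t h) ^ (n + m) =
        ((b : E) * sIA_ev W E t (X - C ĉ) + sIA_c W E ϖ * (a : E)) *
          (sIA_ev W E t h) ^ (n + m) := by rw [hE, one_mul]
    rw [h1]; ring
  have key2 := sIA_ev_injective W E t hLD.transc key
  have key3 := congrArg (fun Q => (Q.map res).eval c) key2
  simp only [Polynomial.map_pow, Polynomial.map_add, Polynomial.map_mul, Polynomial.map_sub,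
    Polynomial.map_X, Polynomial.map_C, hĉ, sIA_lamMax_res_pi hLD, Polynomial.eval_pow,
    Polynomial.eval_add, Polynomial.eval_mul, Polynomial.eval_sub, Polynomial.eval_X,
    Polynomial.eval_C, sub_self, mul_zero, zero_mul, add_zero] at key3
  exact pow_ne_zero _ hc key3

/-- A nonzero prime ideal of `k[X]`, `k` algebraically closed, is `(X - c)`. -/
theorem sIA_lamMax_prime_kX [IsAlgClosed k] (𝔮 : Ideal k[X]) (h𝔮 : 𝔮.IsPrime) (h0 : 𝔮 ≠ ⊥) :
    ∃ c : k, 𝔮 = Ideal.span {X - C c} := by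
  have hmax : 𝔮.IsMaximal := Ideal.IsPrime.isMaximal h𝔮 h0
  have hspan : Ideal.span {Submodule.IsPrincipal.generator 𝔮} = 𝔮 :=
    Ideal.span_singleton_generator 𝔮
  have hprime : Prime (Submodule.IsPrincipal.generator 𝔮) :=
    Submodule.IsPrincipal.prime_generator_of_isPrime 𝔮 h0
  have hdeg := IsAlgClosed.degree_eq_one_of_irreducible k hprime.irreducible
  obtain ⟨c, hc⟩ := IsAlgClosed.exists_root (Submodule.IsPrincipal.generator 𝔮)
    (by rw [hdeg]; exact one_ne_zero)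
  have hdvd : X - C c ∣ Submodule.IsPrincipal.generator 𝔮 := Polynomial.dvd_iff_isRoot.2 hc
  refine ⟨c, ?_⟩
  have hle : 𝔮 ≤ Ideal.span {X - C c} := by
    rw [← hspan, Ideal.span_singleton_le_span_singleton]; exact hdvd
  have hne : Ideal.span {X - C c} ≠ (⊤ : Ideal k[X]) := by
    rw [Ne, Ideal.span_singleton_eq_top]; exact Polynomial.not_isUnit_X_sub_C c
  exact hmax.eq_of_le hne hle

end LamMax

/-- (Λ4) Maximal ideals of `Λ` containing `ϖ`. -/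
theorem sIA_lamMax_main : sIA_LamStructStatement → sIA_LamMaxStatement := by
  intro hLS L _ W _ k _ _ res ϖ E _ _ t h hLD 𝔫 h𝔫 ϖΛ hϖ hmem
  obtain ⟨hdesc, -, hred, -⟩ := hLS L W k res ϖ E t h hLD
  have hsurj : Function.Surjective (Polynomial.mapRingHom res) :=
    Polynomial.map_surjective res hLD.res_surjective
  -- the prime `𝔮(𝔫)` of `k[X]`
  have hq𝔫_prime := sIA_lamMax_map_isPrime hLD 𝔫 h𝔫.isPrime ϖΛ hϖ hmem
  have hq𝔫_ne_bot : (𝔫.comap (sIA_lamMax_iota W E t h)).map (Polynomial.mapRingHom res) ≠ ⊥ := by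
    intro hbot
    have h1 := sIA_lamMax_eq_span_of_bot hLS hLD 𝔫 ϖΛ hϖ hmem hbot
    exact sIA_lamMax_not_maximal hLS hLD ϖΛ hϖ (h1 ▸ h𝔫)
  obtain ⟨c, hc⟩ := sIA_lamMax_prime_kX _ hq𝔫_prime hq𝔫_ne_bot
  obtain ⟨ĉ, hĉ⟩ := hLD.res_surjective c
  have hmapx : (X - C ĉ : (↥W)[X]).map res = X - C c := by
    rw [Polynomial.map_sub, Polynomial.map_X, Polynomial.map_C, hĉ]
  have hx𝔫 : sIA_lamMax_iota W E t h (X - C ĉ) ∈ 𝔫 := by
    rw [← sIA_lamMax_map_mem_iff hLD 𝔫 ϖΛ hϖ hmem, hc, hmapx]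
    exact Ideal.mem_span_singleton_self _
  refine ⟨sIA_lamMax_iota W E t h (X - C ĉ), sIA_lamMax_linear_notMem hLS hLD ϖΛ hϖ ĉ, ?_, ?_⟩
  · -- `𝔫 = (ϖ, x)`
    apply le_antisymm
    · intro a ha
      obtain ⟨P, n, hP⟩ := (hdesc a).1 a.2
      have h1 := (sIA_lamMax_mem_iff hLD 𝔫 a P n hP).1 ha
      have h2 := (sIA_lamMax_map_mem_iff hLD 𝔫 ϖΛ hϖ hmem P).2 h1
      rw [hc, Ideal.mem_span_singleton] at h2
      obtain ⟨Qbar, hQbar⟩ := h2
      obtain ⟨Q, hQ⟩ := hsurj Qbar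
      rw [Polynomial.coe_mapRingHom] at hQ
      have h3 : (P - (X - C ĉ) * Q).map res = 0 := by
        rw [Polynomial.map_sub, Polynomial.map_mul, hmapx, hQ, hQbar, sub_self]
      obtain ⟨P₁, hP₁⟩ := sIA_lamMax_K hLD _ h3
      have hPeq : P = C ϖ * P₁ + (X - C ĉ) * Q := by
        rw [← hP₁, sub_add_cancel]
      have hH := sIA_lamMax_H_ne_zero hLD
      rw [Ideal.mem_span_pair]
      refine ⟨sIA_lamMax_iota W E t h P₁ *
          (⟨(sIA_ev W E t h)⁻¹, sIA_hinv_mem W E t h⟩ : ↥(sIA_lam W E t h)) ^ n,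
        sIA_lamMax_iota W E t h Q *
          (⟨(sIA_ev W E t h)⁻¹, sIA_hinv_mem W E t h⟩ : ↥(sIA_lam W E t h)) ^ n, ?_⟩
      apply Subtype.ext
      simp only [Subring.coe_add, Subring.coe_mul, Subring.coe_pow, sIA_lamMax_iota_coe, hϖ]
      have h4 : (a : E) = sIA_ev W E t P * ((sIA_ev W E t h)⁻¹) ^ n := by
        rw [← hP, mul_assoc, ← mul_pow, mul_inv_cancel₀ hH, one_pow, mul_one]
      rw [h4, hPeq, map_add, map_mul, map_mul, sIA_ev_C]
      ring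
    · rw [Ideal.span_le]
      intro z hz
      rcases hz with rfl | rfl
      · exact hmem
      · exact hx𝔫
  · -- primes containing `ϖ` strictly below `𝔫`
    intro 𝔭 h𝔭 hmem𝔭 hlt
    by_cases hbot : (𝔭.comap (sIA_lamMax_iota W E t h)).map (Polynomial.mapRingHom res) = ⊥
    · exact sIA_lamMax_eq_span_of_bot hLS hLD 𝔭 ϖΛ hϖ hmem𝔭 hbot
    · exfalso
      have hq𝔭_prime := sIA_lamMax_map_isPrime hLD 𝔭 h𝔭 ϖΛ hϖ hmem𝔭
      have hq𝔭_max : ((𝔭.comap (sIA_lamMax_iota W E t h)).map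
          (Polynomial.mapRingHom res)).IsMaximal := Ideal.IsPrime.isMaximal hq𝔭_prime hbot
      have hle : (𝔭.comap (sIA_lamMax_iota W E t h)).map (Polynomial.mapRingHom res) ≤
          (𝔫.comap (sIA_lamMax_iota W E t h)).map (Polynomial.mapRingHom res) :=
        Ideal.map_mono (Ideal.comap_mono hlt.le)
      have heq := hq𝔭_max.eq_of_le hq𝔫_prime.ne_top hle
      have h𝔫le : 𝔫 ≤ 𝔭 := by
        intro a ha
        obtain ⟨P, n, hP⟩ := (hdesc a).1 a.2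
        have h1 := (sIA_lamMax_mem_iff hLD 𝔫 a P n hP).1 ha
        have h2 := (sIA_lamMax_map_mem_iff hLD 𝔫 ϖΛ hϖ hmem P).2 h1
        rw [← heq] at h2
        have h3 := (sIA_lamMax_map_mem_iff hLD 𝔭 ϖΛ hϖ hmem𝔭 P).1 h2
        exact (sIA_lamMax_mem_iff hLD 𝔭 a P n hP).2 h3
      exact lt_irrefl _ (lt_of_lt_of_le hlt h𝔫le)

end

end Fermat.Agent.S18
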