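/-
S18 — block S-I (twin A), package LamStruct (Λ2)+(Λ3): structure of `Λ = W[t, 1/h(t)] ⊆ E`:
(a) elementwise description `x ∈ Λ ↔ ∃ P n, x * h(t) ^ n = P(t)`;
(b) `Λ` is noetherian;
(c) reduction criterion `x ∈ ϖ Λ ↔ P mod ϖ = 0`;
(d) `ϖ Λ` is a nonzero prime ideal.
Prefix `sIA_lamStruct_`.
-/
import Fermat.Agent.S18.SIAInterfaces

set_option autoImplicit false

open ModularCurve AlgebraicCurve Polynomial

namespace Fermat.Agent.S18

/-- `P.map res = 0 ↔ ∃ P₁, P = C ϖ * P₁` when `ker res = (ϖ)`. -/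
theorem sIA_lamStruct_map_eq_zero_iff {R : Type} [CommRing R] {k : Type} [Field k]
    (res : R →+* k) (ϖ : R) (hker : RingHom.ker res = Ideal.span {ϖ}) (P : Polynomial R) :
    P.map res = 0 ↔ ∃ P₁ : Polynomial R, P = C ϖ * P₁ := by
  constructor
  · intro hP
    have hdvd : C ϖ ∣ P := by
      rw [Polynomial.C_dvd_iff_dvd_coeff]
      intro i
      have h1 : P.coeff i ∈ RingHom.ker res := by
        rw [RingHom.mem_ker, ← Polynomial.coeff_map, hP, Polynomial.coeff_zero]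
      rw [hker] at h1
      exact Ideal.mem_span_singleton.1 h1
    obtain ⟨P₁, hP₁⟩ := hdvd
    exact ⟨P₁, hP₁⟩
  · rintro ⟨P₁, rfl⟩
    have h1 : res ϖ = 0 := by
      have hmem : ϖ ∈ RingHom.ker res := by
        rw [hker]
        exact Ideal.mem_span_singleton_self ϖ
      exact hmem
    rw [Polynomial.map_mul, Polynomial.map_C, h1, map_zero, zero_mul]

section Generic

variable {L : Type} [Field L] (W : ValuationSubring L) (E : Type) [Field E] [Algebra L E]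

/-- (a) "⟸": `x * h(t) ^ n = P(t)` implies `x ∈ Λ`. -/
theorem sIA_lamStruct_desc_mpr (t : E) (h : (↥W)[X]) (hH : sIA_ev W E t h ≠ 0) (x : E)
    (P : (↥W)[X]) (n : ℕ) (hx : x * (sIA_ev W E t h) ^ n = sIA_ev W E t P) :
    x ∈ sIA_lam W E t h := by
  have hHn : sIA_ev W E t h ^ n ≠ 0 := pow_ne_zero n hH
  have hx' : x = sIA_ev W E t P * ((sIA_ev W E t h)⁻¹) ^ n := by
    rw [← hx, inv_pow, mul_assoc, mul_inv_cancel₀ hHn, mul_one]
  rw [hx']
  exact Subring.mul_mem _ (sIA_ev_mem W E t h P) (Subring.pow_mem _ (sIA_hinv_mem W E t h) n)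

/-- (a) "⟹": every element of `Λ` is of the form `P(t) / h(t) ^ n`. -/
theorem sIA_lamStruct_desc_mp (t : E) (h : (↥W)[X]) (hH : sIA_ev W E t h ≠ 0) (x : E)
    (hx : x ∈ sIA_lam W E t h) :
    ∃ (P : (↥W)[X]) (n : ℕ), x * (sIA_ev W E t h) ^ n = sIA_ev W E t P := by
  unfold sIA_lam at hx
  induction hx using Subring.closure_induction with
  | mem y hy =>
    rcases hy with ⟨w, rfl⟩ | hy
    · exact ⟨C w, 0, by rw [pow_zero, mul_one, sIA_ev_C]⟩
    · rcases hy with rfl | hy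
      · exact ⟨X, 0, by rw [pow_zero, mul_one, sIA_ev_X]⟩
      · rw [Set.mem_singleton_iff] at hy
        subst hy
        exact ⟨1, 1, by rw [pow_one, inv_mul_cancel₀ hH, map_one]⟩
  | zero => exact ⟨0, 0, by rw [zero_mul, map_zero]⟩
  | one => exact ⟨1, 0, by rw [pow_zero, mul_one, map_one]⟩
  | add y z _ _ hy hz =>
    obtain ⟨P, n, hP⟩ := hy
    obtain ⟨Q, m, hQ⟩ := hz
    refine ⟨P * h ^ m + Q * h ^ n, n + m, ?_⟩
    rw [map_add, map_mul, map_mul, map_pow, map_pow, ← hP, ← hQ, pow_add]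
    ring
  | neg y _ hy =>
    obtain ⟨P, n, hP⟩ := hy
    exact ⟨-P, n, by rw [map_neg, ← hP, neg_mul]⟩
  | mul y z _ _ hy hz =>
    obtain ⟨P, n, hP⟩ := hy
    obtain ⟨Q, m, hQ⟩ := hz
    refine ⟨P * Q, n + m, ?_⟩
    rw [map_mul, ← hP, ← hQ, pow_add]
    ring

/-- (a) Elementwise description of `Λ = W[t, 1/h(t)]`. -/
theorem sIA_lamStruct_desc (t : E) (h : (↥W)[X]) (hH : sIA_ev W E t h ≠ 0) (x : E) :
    x ∈ sIA_lam W E t h ↔
      ∃ (P : (↥W)[X]) (n : ℕ), x * (sIA_ev W E t h) ^ n = sIA_ev W E t P :=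
  ⟨sIA_lamStruct_desc_mp W E t h hH x,
    fun ⟨P, n, hx⟩ => sIA_lamStruct_desc_mpr W E t h hH x P n hx⟩

/-- `Λ` is the range of the evaluation `W[X₀, X₁] → E`, `X₀ ↦ t`, `X₁ ↦ 1/h(t)`. -/
theorem sIA_lamStruct_range (t : E) (h : (↥W)[X]) :
    (MvPolynomial.eval₂Hom (sIA_c W E) ![t, (sIA_ev W E t h)⁻¹]).range = sIA_lam W E t h := by
  apply le_antisymm
  · rintro _ ⟨p, rfl⟩
    induction p using MvPolynomial.induction_on with
    | C a =>
      rw [MvPolynomial.coe_eval₂Hom, MvPolynomial.eval₂_C]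
      exact sIA_c_mem W E t h a
    | add p q hp hq =>
      rw [map_add]
      exact Subring.add_mem _ hp hq
    | mul_X p i hp =>
      rw [map_mul]
      refine Subring.mul_mem _ hp ?_
      rw [MvPolynomial.coe_eval₂Hom, MvPolynomial.eval₂_X]
      fin_cases i
      · exact sIA_t_mem W E t h
      · exact sIA_hinv_mem W E t h
  · unfold sIA_lam
    rw [Subring.closure_le]
    rintro y (⟨w, rfl⟩ | hy)
    · exact ⟨MvPolynomial.C w, by rw [MvPolynomial.coe_eval₂Hom, MvPolynomial.eval₂_C]⟩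
    · rcases hy with rfl | hy
      · exact ⟨MvPolynomial.X 0, by rw [MvPolynomial.coe_eval₂Hom, MvPolynomial.eval₂_X]; rfl⟩
      · rw [Set.mem_singleton_iff] at hy
        subst hy
        exact ⟨MvPolynomial.X 1, by rw [MvPolynomial.coe_eval₂Hom, MvPolynomial.eval₂_X]; rfl⟩

/-- (b) `Λ = W[t, 1/h(t)]` is noetherian. -/
theorem sIA_lamStruct_noeth [IsDiscreteValuationRing ↥W] (t : E) (h : (↥W)[X]) :
    IsNoetherianRing ↥(sIA_lam W E t h) := by
  rw [← sIA_lamStruct_range W E t h]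
  exact isNoetherianRing_of_surjective _ _
    (MvPolynomial.eval₂Hom (sIA_c W E) ![t, (sIA_ev W E t h)⁻¹]).rangeRestrict
    (MvPolynomial.eval₂Hom (sIA_c W E) ![t, (sIA_ev W E t h)⁻¹]).rangeRestrict_surjective

variable {k : Type} [Field k] (res : ↥W →+* k) (ϖ : ↥W)

/-- `h(t) ≠ 0` in the `Λ`-setting. -/
theorem sIA_lamStruct_H_ne_zero (t : E) (h : (↥W)[X]) (hLD : sIA_LamData W res ϖ E t h) :
    sIA_ev W E t h ≠ 0 := by
  intro h0
  apply hLD.h_res
  have hh : h = 0 := sIA_ev_injective W E t hLD.transc (by rw [h0, map_zero])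
  rw [hh, Polynomial.map_zero]

/-- (c) Reduction criterion: for `x ∈ Λ` with `x * h(t) ^ n = P(t)`: `x ∈ ϖ Λ ↔ P mod ϖ = 0`. -/
theorem sIA_lamStruct_red (t : E) (h : (↥W)[X]) (hLD : sIA_LamData W res ϖ E t h)
    (ϖΛ x : ↥(sIA_lam W E t h)) (P : (↥W)[X]) (n : ℕ) (hϖ : (ϖΛ : E) = sIA_c W E ϖ)
    (hx : (x : E) * (sIA_ev W E t h) ^ n = sIA_ev W E t P) :
    x ∈ (Ideal.span {ϖΛ} : Ideal ↥(sIA_lam W E t h)) ↔ P.map res = 0 := by
  have hH : sIA_ev W E t h ≠ 0 := sIA_lamStruct_H_ne_zero W E res ϖ t h hLD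
  have hresϖ : res ϖ = 0 := by
    have hmem : ϖ ∈ RingHom.ker res := by
      rw [hLD.ker_res]
      exact Ideal.mem_span_singleton_self ϖ
    exact hmem
  constructor
  · intro hxmem
    rw [Ideal.mem_span_singleton] at hxmem
    obtain ⟨y, hy⟩ := hxmem
    obtain ⟨Q, m, hQ⟩ := sIA_lamStruct_desc_mp W E t h hH (y : E) y.2
    have hy' : (x : E) = sIA_c W E ϖ * (y : E) := by
      have h2 := congrArg Subtype.val hy
      rw [Subring.coe_mul, hϖ] at h2
      exact h2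
    have heq : sIA_ev W E t (P * h ^ m) = sIA_ev W E t (C ϖ * Q * h ^ n) := by
      rw [map_mul, map_mul, map_mul, map_pow, map_pow, ← hx, ← hQ, hy', sIA_ev_C]
      ring
    have heq' := sIA_ev_injective W E t hLD.transc heq
    have hmap := congrArg (Polynomial.map res) heq'
    rw [Polynomial.map_mul, Polynomial.map_mul, Polynomial.map_mul, Polynomial.map_C, hresϖ,
      map_zero, zero_mul, zero_mul, Polynomial.map_pow] at hmap
    rcases mul_eq_zero.1 hmap with h1 | h1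
    · exact h1
    · exact absurd (eq_zero_of_pow_eq_zero h1) hLD.h_res
  · intro hP
    obtain ⟨P₁, rfl⟩ := (sIA_lamStruct_map_eq_zero_iff res ϖ hLD.ker_res P).1 hP
    rw [Ideal.mem_span_singleton]
    refine ⟨⟨sIA_ev W E t P₁ * ((sIA_ev W E t h)⁻¹) ^ n,
      Subring.mul_mem _ (sIA_ev_mem W E t h P₁)
        (Subring.pow_mem _ (sIA_hinv_mem W E t h) n)⟩, ?_⟩
    apply Subtype.ext
    rw [Subring.coe_mul, hϖ]
    rw [map_mul, sIA_ev_C] at hx
    have hHn : sIA_ev W E t h ^ n ≠ 0 := pow_ne_zero n hH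
    have hxE : (x : E) = sIA_c W E ϖ * sIA_ev W E t P₁ * ((sIA_ev W E t h)⁻¹) ^ n := by
      rw [← hx, inv_pow, mul_assoc, mul_inv_cancel₀ hHn, mul_one]
    rw [hxE]
    exact mul_assoc _ _ _

/-- (d) `ϖ Λ` is a nonzero prime ideal. -/
theorem sIA_lamStruct_prime (t : E) (h : (↥W)[X]) (hLD : sIA_LamData W res ϖ E t h)
    (ϖΛ : ↥(sIA_lam W E t h)) (hϖ : (ϖΛ : E) = sIA_c W E ϖ) :
    ϖΛ ≠ 0 ∧ (Ideal.span {ϖΛ} : Ideal ↥(sIA_lam W E t h)).IsPrime := by
  have hH : sIA_ev W E t h ≠ 0 := sIA_lamStruct_H_ne_zero W E res ϖ t h hLD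
  constructor
  · intro h0
    have h1 : sIA_c W E ϖ = 0 := by
      rw [← hϖ, h0, Subring.coe_zero]
    have h3 : ϖ = 0 := sIA_c_injective W E (by rw [h1, map_zero])
    exact hLD.irreducible.ne_zero h3
  · rw [Ideal.isPrime_iff]
    constructor
    · intro htop
      have h1 : (1 : ↥(sIA_lam W E t h)) ∈ (Ideal.span {ϖΛ} : Ideal ↥(sIA_lam W E t h)) := by
        rw [htop]
        exact Submodule.mem_top
      have h2 := (sIA_lamStruct_red W E res ϖ t h hLD ϖΛ 1 1 0 hϖ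
        (by rw [pow_zero, mul_one, map_one, Subring.coe_one])).1 h1
      rw [Polynomial.map_one] at h2
      exact one_ne_zero h2
    · intro a b hab
      obtain ⟨P, n, hP⟩ := sIA_lamStruct_desc_mp W E t h hH (a : E) a.2
      obtain ⟨Q, m, hQ⟩ := sIA_lamStruct_desc_mp W E t h hH (b : E) b.2
      have hPQ : ((a * b : ↥(sIA_lam W E t h)) : E) * sIA_ev W E t h ^ (n + m)
          = sIA_ev W E t (P * Q) := by
        rw [map_mul, ← hP, ← hQ, Subring.coe_mul, pow_add]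
        ring
      have h1 := (sIA_lamStruct_red W E res ϖ t h hLD ϖΛ (a * b) (P * Q) (n + m) hϖ hPQ).1 hab
      rw [Polynomial.map_mul] at h1
      rcases mul_eq_zero.1 h1 with h2 | h2
      · exact Or.inl ((sIA_lamStruct_red W E res ϖ t h hLD ϖΛ a P n hϖ hP).2 h2)
      · exact Or.inr ((sIA_lamStruct_red W E res ϖ t h hLD ϖΛ b Q m hϖ hQ).2 h2)

end Generic

/-- (Λ2)+(Λ3) Structure of `Λ = W[t, 1/h(t)]`. -/
theorem sIA_lamStruct_main : sIA_LamStructStatement := by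
  intro L _ W _ k _ res ϖ E _ _ t h hLD
  have hH : sIA_ev W E t h ≠ 0 := sIA_lamStruct_H_ne_zero W E res ϖ t h hLD
  refine ⟨fun x => sIA_lamStruct_desc W E t h hH x, sIA_lamStruct_noeth W E t h, ?_, ?_⟩
  · intro ϖΛ x P n hϖ hx
    exact sIA_lamStruct_red W E res ϖ t h hLD ϖΛ x P n hϖ hx
  · intro ϖΛ hϖ
    exact sIA_lamStruct_prime W E res ϖ t h hLD ϖΛ hϖ

end Fermat.Agent.S18
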