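/-
S18 — block S-I (twin A), package LocClosed (V2): the localisation of a noetherian domain at a nonzero
principal prime is integrally closed in the fraction field, and integral elements over the localisation
become integral over the ring after multiplication by an element outside the prime.
Prefix `sIA_locClosed_`.
-/
import Fermat.Agent.S18.SIAInterfaces
set_option autoImplicit false
open ModularCurve AlgebraicCurve Polynomial
namespace Fermat.Agent.S18

/-- `locSub A P ⊆ K` when `A ⊆ K`. -/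
theorem sIA_locClosed_le {E : Type} [Field E] (A : Subring E) (K : Subfield E)
    (hAK : A ≤ K.toSubring) (P : Ideal ↥A) [P.IsPrime] : locSub A P ≤ K.toSubring := by
  rintro x ⟨a, s, hs, h⟩
  have hs0 : (s : E) ≠ 0 := by
    intro h0
    apply hs
    have : s = 0 := Subtype.ext h0
    rw [this]; exact P.zero_mem
  have hx : x = (a : E) / (s : E) := by
    rw [eq_div_iff hs0]; exact h
  have ha : (a : E) ∈ K := hAK a.2
  have hsK : (s : E) ∈ K := hAK s.2
  show x ∈ K
  rw [hx]
  exact K.div_mem ha hsK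

/-- The localisation of a noetherian subring of a field at a nonzero principal prime is a discrete
valuation ring, hence integrally closed. -/
theorem sIA_locClosed_isIntegrallyClosed {E : Type} [Field E] (A : Subring E)
    [IsNoetherianRing ↥A] (ϖ : ↥A) [(Ideal.span {ϖ} : Ideal ↥A).IsPrime] (hϖ : ϖ ≠ 0) :
    IsIntegrallyClosed ↥(locSub A (Ideal.span {ϖ})) := by
  have hloc : IsLocalRing ↥(locSub A (Ideal.span {ϖ})) := locSubB_isLocalRing A (Ideal.span {ϖ})
  have hnoeth : IsNoetherianRing ↥(locSub A (Ideal.span {ϖ})) :=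
    locSubB_isNoetherianRing A (Ideal.span {ϖ})
  have hmax : IsLocalRing.maximalIdeal ↥(locSub A (Ideal.span {ϖ})) =
      Ideal.span {(⟨(ϖ : E), le_locSub A (Ideal.span {ϖ}) ϖ.2⟩ : ↥(locSub A (Ideal.span {ϖ})))} := by
    rw [locSubB_maximalIdeal_eq_map, Ideal.map_span, Set.image_singleton]
    rfl
  have hnil : ¬ IsNilpotent
      (⟨(ϖ : E), le_locSub A (Ideal.span {ϖ}) ϖ.2⟩ : ↥(locSub A (Ideal.span {ϖ}))) := by
    intro hn
    have h0 := hn.eq_zero
    apply hϖ
    apply Subtype.ext
    have := congrArg (fun w : ↥(locSub A (Ideal.span {ϖ})) => (w : E)) h0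
    simpa using this
  obtain ⟨hdom, hdvr⟩ := locSubB_dvr _ hmax hnil
  infer_instance

/-- (V2), part 1. -/
theorem sIA_locClosed_part1 {E : Type} [Field E] (A : Subring E) (K : Subfield E)
    (hAK : A ≤ K.toSubring) (hfrac : ∀ x ∈ K, ∃ a ∈ A, ∃ b ∈ A, b ≠ 0 ∧ x * b = a)
    [IsNoetherianRing ↥A] (ϖ : ↥A) [(Ideal.span {ϖ} : Ideal ↥A).IsPrime] (hϖ : ϖ ≠ 0)
    (x : E) (hxK : x ∈ K) (hx : IsIntegral ↥(locSub A (Ideal.span {ϖ})) x) :
    x ∈ locSub A (Ideal.span {ϖ}) := by
  have hRK : locSub A (Ideal.span {ϖ}) ≤ K.toSubring := sIA_locClosed_le A K hAK _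
  have hic : IsIntegrallyClosed ↥(locSub A (Ideal.span {ϖ})) :=
    sIA_locClosed_isIntegrallyClosed A ϖ hϖ
  let alg : Algebra ↥(locSub A (Ideal.span {ϖ})) ↥K :=
    (RingHom.codRestrict (locSub A (Ideal.span {ϖ})).subtype K (fun y => hRK y.2)).toAlgebra
  have tower : IsScalarTower ↥(locSub A (Ideal.span {ϖ})) ↥K E :=
    IsScalarTower.of_algebraMap_eq (fun _ => rfl)
  have hinj : Function.Injective (algebraMap ↥(locSub A (Ideal.span {ϖ})) ↥K) := by
    intro y z hyz
    apply Subtype.ext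
    exact congrArg (fun w : ↥K => (w : E)) hyz
  have hfaith : FaithfulSMul ↥(locSub A (Ideal.span {ϖ})) ↥K :=
    (faithfulSMul_iff_algebraMap_injective _ _).2 hinj
  have hfr : IsFractionRing ↥(locSub A (Ideal.span {ϖ})) ↥K := by
    refine IsFractionRing.of_field _ _ ?_
    intro z
    obtain ⟨a, ha, b, hb, hb0, hab⟩ := hfrac (z : E) z.2
    refine ⟨⟨a, le_locSub A _ ha⟩, ⟨b, le_locSub A _ hb⟩, ?_⟩
    apply Subtype.ext
    show (z : E) = a / b
    rw [eq_div_iff hb0]
    exact hab
  have hxK' : IsIntegral ↥(locSub A (Ideal.span {ϖ})) (⟨x, hxK⟩ : ↥K) :=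
    (isIntegral_algebraMap_iff (algebraMap ↥K E).injective).1 hx
  obtain ⟨r, hr⟩ := (IsIntegrallyClosed.isIntegral_iff (K := ↥K)).1 hxK'
  have hrx : (r : E) = x := congrArg (fun w : ↥K => (w : E)) hr
  rw [← hrx]
  exact r.2

/-- (V2), part 2. -/
theorem sIA_locClosed_part2 {E : Type} [Field E] (A : Subring E)
    (ϖ : ↥A) [(Ideal.span {ϖ} : Ideal ↥A).IsPrime]
    (x : E) (hx : IsIntegral ↥(locSub A (Ideal.span {ϖ})) x) :
    ∃ s : ↥A, s ∉ (Ideal.span {ϖ} : Ideal ↥A) ∧ IsIntegral ↥A ((s : E) * x) := by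
  let alg : Algebra ↥A ↥(locSub A (Ideal.span {ϖ})) :=
    (Subring.inclusion (le_locSub A (Ideal.span {ϖ}))).toAlgebra
  have hloc : IsLocalization.AtPrime ↥(locSub A (Ideal.span {ϖ})) (Ideal.span {ϖ}) :=
    locSubB_isLocalization A (Ideal.span {ϖ})
  have tower : IsScalarTower ↥A ↥(locSub A (Ideal.span {ϖ})) E :=
    IsScalarTower.of_algebraMap_eq (fun _ => rfl)
  obtain ⟨m, hm⟩ := IsIntegral.exists_multiple_integral_of_isLocalization
    (Ideal.span {ϖ} : Ideal ↥A).primeCompl (Rₘ := ↥(locSub A (Ideal.span {ϖ}))) x hx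
  refine ⟨(m : ↥A), m.2, ?_⟩
  exact hm

/-- (V2) The localisation of a noetherian domain at a nonzero principal prime is integrally closed in
the fraction field; integral elements over the localisation become integral over the ring after
multiplication by an element outside the prime. -/
theorem sIA_locClosed_main : sIA_LocClosedStatement := by
  intro E _ A K hAK hfrac hnoeth ϖ hprime hϖ
  exact ⟨fun x hxK hx => sIA_locClosed_part1 A K hAK hfrac ϖ hϖ x hxK hx,
    fun x hx => sIA_locClosed_part2 A ϖ x hx⟩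

end Fermat.Agent.S18
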