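/-
S18 — block S-I (twin A), package Vert: vertical unramifiedness of `E / K₁` at the prime `ϖ Λ`
(integration of the Gauss-ring monogenicity, the localisation lemmas and the étale-discriminant
lemma).  Prefix `sIA_vert_`.
-/
import Fermat.Agent.S18.SIAInterfaces
set_option autoImplicit false
open ModularCurve AlgebraicCurve Polynomial
namespace Fermat.Agent.S18

/-- (V) Vertical unramifiedness of `E / K₁` at `ϖ Λ`, from the package statements. -/
theorem sIA_vert_main : MonogenicStatement → FinLStatement → sIA_LamStructStatement →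
    sIA_K1Statement → sIA_FieldStatement → sIA_GaussLocStatement → sIA_LocClosedStatement →
    sIA_EtaleDiscrStatement → sIA_VertStatement := by
  intro hMono hFin hLS hK hFld hGL hLC hED N _ ℓ _ L _ _ W _ k _ _ _ res ϖ hD E _ _ _ _ t h hLD
    hgen hjrat ϖΛ hϖΛ
  obtain ⟨θ, f, A, B, C, hf, hA, hB, hC, hfm, hfθ, hθgen, hcert⟩ := hMono N ℓ L W k res ϖ hD
  obtain ⟨hjtr, hfin⟩ := hFin N L
  obtain ⟨hKle, hKfrac⟩ := hK L W E t h
  obtain ⟨hdesc, hnoeth, hred, hprime⟩ := hLS L W k res ϖ E t h hLD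
  obtain ⟨hϖ0, hϖprime⟩ := hprime ϖΛ hϖΛ
  have := hϖprime
  obtain ⟨p, q, hq, hpq, hj⟩ := hjrat
  -- (1) `j ∈ K₁`
  have hq0 : q ≠ 0 := by
    rintro rfl
    exact hq (Polynomial.map_zero _)
  have hqt : sIA_ev W E t q ≠ 0 := fun h0 =>
    hq0 (sIA_ev_injective W E t hLD.transc (h0.trans (map_zero _).symm))
  have hjK : jE L N E ∈ sIA_K1 L E t := by
    have hjdiv : jE L N E = sIA_ev W E t p / sIA_ev W E t q := by
      rw [eq_div_iff hqt, mul_comm]
      exact hj
    rw [hjdiv]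
    exact div_mem (hKle (sIA_ev_mem W E t h p)) (hKle (sIA_ev_mem W E t h q))
  -- (2) field theory
  obtain ⟨htr, hfinK, hθE⟩ := hFld N L E t hjtr hfin hgen hjK
  -- (3) `O₀` maps into `R = Λ_(ϖ)`
  have hO : ∀ x ∈ gaussO W res N,
      algebraMap ↥(FL L N) E x ∈ locSub (sIA_lam W E t h) (Ideal.span {ϖΛ}) := by
    have hle : gaussO W res N ≤
        (locSub (sIA_lam W E t h) (Ideal.span {ϖΛ})).comap (algebraMap ↥(FL L N) E) := by
      unfold gaussO
      rw [Subring.closure_le]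
      rintro c ⟨f₀, g₀, hg₀, hc⟩
      show algebraMap ↥(FL L N) E c ∈ locSub (sIA_lam W E t h) (Ideal.span {ϖΛ})
      have hc' := congrArg (algebraMap ↥(FL L N) E) hc
      rw [map_mul, sIA_algebraMap_evW, sIA_algebraMap_evW] at hc'
      exact hGL L W k res ϖ E t h hLD p q (jE L N E) hq hpq hj ϖΛ hϖΛ f₀ g₀ _ hg₀ hc'
    exact fun x hx => hle hx
  -- (4) `R` is integrally closed in `K₁`
  obtain ⟨hclosed, hmult⟩ :=
    hLC E (sIA_lam W E t h) (sIA_K1 L E t) hKle hKfrac hnoeth ϖΛ hϖ0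
  -- (5) `R ⊆ K₁`, `R` local, `ϖ` not a unit of `R`
  have hRK : locSub (sIA_lam W E t h) (Ideal.span {ϖΛ}) ≤ (sIA_K1 L E t).toSubring := by
    rintro x ⟨a, s, hs, hxs⟩
    have hs0 : (s : E) ≠ 0 := by
      intro h0
      apply hs
      have hs' : s = 0 := Subtype.ext h0
      rw [hs']
      exact Ideal.zero_mem _
    have hx : x = (a : E) / (s : E) := by
      rw [eq_div_iff hs0]
      exact hxs
    rw [hx]
    show (a : E) / (s : E) ∈ sIA_K1 L E t
    exact div_mem (hKle a.2) (hKle s.2)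
  have hloc : IsLocalRing ↥(locSub (sIA_lam W E t h) (Ideal.span {ϖΛ})) :=
    locSubB_isLocalRing _ _
  have hϖR : ¬ IsUnit (⟨(ϖΛ : E), le_locSub _ _ ϖΛ.2⟩ :
      ↥(locSub (sIA_lam W E t h) (Ideal.span {ϖΛ}))) := by
    intro hu
    obtain ⟨a, s, ha, hs, has⟩ := (locSubB_isUnit_iff _ _ _).1 hu
    apply ha
    have ha' : a = ϖΛ * s := Subtype.ext (by push_cast; exact has.symm)
    rw [ha']
    exact Ideal.mul_mem_right _ _ (Ideal.mem_span_singleton_self _)
  -- (6) the étale-discriminant lemma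
  have : CharZero L := algebraRat.charZero L
  have : CharZero E := charZero_of_injective_algebraMap (algebraMap L E).injective
  have hfθ' : (f.map (algebraMap ↥(FL L N) E)).eval (algebraMap ↥(FL L N) E θ) = 0 := by
    rw [Polynomial.eval_map, Polynomial.eval₂_at_apply, hfθ, map_zero]
  have hϖE : algebraMap ↥(FL L N) E (cW W N ϖ) = (ϖΛ : E) := by
    rw [hϖΛ, ← sIA_cWE_eq W N E]
    rfl
  have hcert' : (B.map (algebraMap ↥(FL L N) E)).eval (algebraMap ↥(FL L N) E θ) *
      (derivative (f.map (algebraMap ↥(FL L N) E))).eval (algebraMap ↥(FL L N) E θ) =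
      1 + (ϖΛ : E) * (C.map (algebraMap ↥(FL L N) E)).eval (algebraMap ↥(FL L N) E θ) := by
    have h1 := congrArg (fun P : (↥(FL L N))[X] =>
      (P.map (algebraMap ↥(FL L N) E)).eval (algebraMap ↥(FL L N) E θ)) hcert
    simp only [Polynomial.map_add, Polynomial.map_mul, Polynomial.map_one, Polynomial.map_C,
      Polynomial.eval_add, Polynomial.eval_mul, Polynomial.eval_one, Polynomial.eval_C, hfθ',
      mul_zero, zero_add, ← Polynomial.derivative_map, hϖE] at h1
    exact h1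
  obtain ⟨r, c, hli, hsp, hint, d, e, hde, hd⟩ :=
    hED E (locSub (sIA_lam W E t h) (Ideal.span {ϖΛ})) (sIA_K1 L E t) hRK hclosed hfinK hloc
      ⟨(ϖΛ : E), le_locSub _ _ ϖΛ.2⟩ hϖR (algebraMap ↥(FL L N) E θ)
      (f.map (algebraMap ↥(FL L N) E)) (B.map (algebraMap ↥(FL L N) E))
      (C.map (algebraMap ↥(FL L N) E))
      (fun n => by rw [Polynomial.coeff_map]; exact hO _ (hf n))
      (fun n => by rw [Polynomial.coeff_map]; exact hO _ (hB n))
      (fun n => by rw [Polynomial.coeff_map]; exact hO _ (hC n))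
      (hfm.map _) hfθ' (hθE θ hθgen) hcert'
  -- (7) conclusion
  refine ⟨r, c, hli, hsp, fun i => hmult (c i) (hint i), ?_⟩
  have hdu : IsUnit d := IsUnit.of_mul_eq_one e hde
  obtain ⟨a, s, ha, hs, has⟩ := (locSubB_isUnit_iff _ _ d).1 hdu
  exact ⟨a, s, ha, hs, by rw [← hd, mul_comm]; exact has⟩

end Fermat.Agent.S18
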