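/-
S18 — block S-I (twin A): MAIN THEOREM of the block.
`sIA_main : PurityStatement → HorizUnramStatement → MonogenicStatement → FinLStatement →
  SmB1Statement ∧ SmB2Statement`
(assembly of the packages of `SIAInterfaces.lean` through the engine `SIAEngine.lean`).
-/
import Fermat.Agent.S18.SIAEngine
import Fermat.Agent.S18.SIALamStruct
import Fermat.Agent.S18.SIALamMax
import Fermat.Agent.S18.SIAK1
import Fermat.Agent.S18.SIAField
import Fermat.Agent.S18.SIAGaussLoc
import Fermat.Agent.S18.SIALocClosed
import Fermat.Agent.S18.SIAEtaleDiscr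
import Fermat.Agent.S18.SIAVert
import Fermat.Agent.S18.SIAHorizPrime
import Fermat.Agent.S18.SIAHorizTransfer
import Fermat.Agent.S18.SIAHorizLoc

set_option autoImplicit false

namespace Fermat.Agent.S18

/-- Block S-I: smoothness of the integral closure of `Λ = W[t, 1/h(t)]` in `E` along `ϖ`, for covers
of both types. -/
theorem sIA_main : PurityStatement → HorizUnramStatement → MonogenicStatement → FinLStatement →
    SmB1Statement ∧ SmB2Statement := by
  intro hPur hHU hMono hFin
  have hLS : sIA_LamStructStatement := sIA_lamStruct_main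
  have hK : sIA_K1Statement := sIA_k1_main
  have hCD : sIA_ClearDenStatement := sIA_k1_clearDen
  have hFld : sIA_FieldStatement := sIA_field_main
  have hV : sIA_VertStatement :=
    sIA_vert_main hMono hFin hLS hK hFld (sIA_gaussLoc_main hLS) sIA_locClosed_main
      sIA_etaleDiscr_main
  exact sIA_main_of hPur hHU hFin hLS (sIA_lamMax_main hLS) hK hFld hV
    (sIA_horizPrime_main hLS hCD) (sIA_horizTransfer_main hCD) (sIA_horizLoc_main hLS)

end Fermat.Agent.S18
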