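/-
S18 — block S-I (twin B): internal interface file.  Prefix `sIB_`.

The smoothness engine on a cover: structure of `Λ = W[t, 1/h(t)] ⊆ E` (`coverRing W N E t h`),
`K₁ = L(t) ⊆ E` (`sIB_K1 L N E t`), vertical unramifiedness (from the monogenic certificate),
horizontal unramifiedness (from `HorizUnramStatement`), then purity.

Conventions fixed here ONCE:
* `sIB_algLE L N E : Algebra L E` — the `L`-algebra structure of `E` through `F = ↥(FL L N)`; it is NOT an
  instance: write `letI := sIB_algLE L N E` where needed (then `sIB_isScalarTower L N E`).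
* `sIB_K1 L N E t : Subfield E` is `(IntermediateField.adjoin L {t}).toSubfield` for that structure.
* `sIB_pi W N E t h ϖ : ↥(coverRing W N E t h)` is the constant `ϖ` as an element of `Λ`.
* "`t` is transcendental over `L`" is used in the form `Function.Injective (evWE W N E t)` (on `W[X]`)
  or `∀ p : L[X], aeval t p = 0 → p = 0` (lemma `sIB_evWE_injective` goes from the second to the first).
-/
import Fermat.Agent.S18.SInterfaces2
import Fermat.Agent.S18.LocSubB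

set_option autoImplicit false

open ModularCurve AlgebraicCurve Polynomial

namespace Fermat.Agent.S18

noncomputable section

/-! ## Shared definitions and glue lemmas -/

/-- The `L`-algebra structure on `E` (through `F`).  NOT an instance. -/
@[reducible] def sIB_algLE (L : Type) [Field L] [Algebra ℚ L] (N : ℕ) (E : Type) [Field E]
    [Algebra ↥(FL L N) E] : Algebra L E :=
  ((algebraMap ↥(FL L N) E).comp (algebraMap L ↥(FL L N))).toAlgebra

theorem sIB_isScalarTower (L : Type) [Field L] [Algebra ℚ L] (N : ℕ) (E : Type) [Field E]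
    [Algebra ↥(FL L N) E] :
    letI := sIB_algLE L N E
    IsScalarTower L ↥(FL L N) E :=
  letI := sIB_algLE L N E
  IsScalarTower.of_algebraMap_eq (fun _ => rfl)

/-- `K₁ = L(t) ⊆ E`. -/
abbrev sIB_K1 (L : Type) [Field L] [Algebra ℚ L] (N : ℕ) (E : Type) [Field E]
    [Algebra ↥(FL L N) E] (t : E) : Subfield E :=
  letI := sIB_algLE L N E
  (IntermediateField.adjoin L {t}).toSubfield

section Glue

variable {L : Type} [Field L] [Algebra ℚ L] (W : ValuationSubring L) (N : ℕ)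
  (E : Type) [Field E] [Algebra ↥(FL L N) E] (t : E) (h : Polynomial ↥W)

theorem sIB_cWE_apply (w : ↥W) :
    cWE W N E w = (letI := sIB_algLE L N E; algebraMap L E (w : L)) := rfl

theorem sIB_evWE_eq_aeval (P : Polynomial ↥W) :
    evWE W N E t P = (letI := sIB_algLE L N E; aeval t (P.map W.subtype)) := by
  letI := sIB_algLE L N E
  rw [aeval_def, eval₂_map]
  rfl

theorem sIB_evWE_injective
    (ht : letI := sIB_algLE L N E; ∀ p : L[X], aeval t p = 0 → p = 0) :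
    Function.Injective (evWE W N E t) := by
  letI := sIB_algLE L N E
  rw [injective_iff_map_eq_zero]
  intro P hP
  rw [sIB_evWE_eq_aeval] at hP
  have h0 := ht _ hP
  exact (Polynomial.map_eq_zero_iff W.subtype_injective).1 h0

theorem sIB_cWE_mem (w : ↥W) : cWE W N E w ∈ coverRing W N E t h :=
  Subring.subset_closure (Or.inl ⟨w, rfl⟩)

theorem sIB_t_mem : t ∈ coverRing W N E t h :=
  Subring.subset_closure (Or.inr (Or.inl rfl))

theorem sIB_hinv_mem : (evWE W N E t h)⁻¹ ∈ coverRing W N E t h :=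
  Subring.subset_closure (Or.inr (Or.inr rfl))

theorem sIB_evWE_mem (P : Polynomial ↥W) : evWE W N E t P ∈ coverRing W N E t h := by
  rw [evWE, coe_eval₂RingHom, eval₂_eq_sum_range]
  refine Subring.sum_mem _ fun i _ => ?_
  exact Subring.mul_mem _ (sIB_cWE_mem W N E t h _) (Subring.pow_mem _ (sIB_t_mem W N E t h) _)

/-- The constant `ϖ` as an element of `Λ = coverRing W N E t h`. -/
def sIB_pi (ϖ : ↥W) : ↥(coverRing W N E t h) := ⟨cWE W N E ϖ, sIB_cWE_mem W N E t h ϖ⟩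

@[simp] theorem sIB_coe_pi (ϖ : ↥W) : ((sIB_pi W N E t h ϖ : ↥(coverRing W N E t h)) : E) = cWE W N E ϖ :=
  rfl

end Glue

/-! ## Package statements -/

/-- (Λ1) `t` is transcendental over `L` (because `j` is, and `j ∈ Λ` or `1/j ∈ Λ`). -/
def sIB_TranscStatement : Prop :=
  ∀ (N : ℕ) [NeZero N] (L : Type) [Field L] [Algebra ℚ L] (W : ValuationSubring L)
    (E : Type) [Field E] [Algebra ↥(FL L N) E] (t : E) (h : Polynomial ↥W),
    Transcendental L (jF L N) →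
    (jE L N E ∈ coverRing W N E t h ∨ (jE L N E)⁻¹ ∈ coverRing W N E t h) →
    letI := sIB_algLE L N E
    ∀ p : L[X], aeval t p = 0 → p = 0

/-- (Λ5) `Λ ⊆ K₁` and `K₁ = Frac Λ` (elementwise). -/
def sIB_K1FracStatement : Prop :=
  ∀ (N : ℕ) [NeZero N] (L : Type) [Field L] [Algebra ℚ L] (W : ValuationSubring L)
    (E : Type) [Field E] [Algebra ↥(FL L N) E] (t : E) (h : Polynomial ↥W),
    coverRing W N E t h ≤ (sIB_K1 L N E t).toSubring ∧
    ∀ x ∈ sIB_K1 L N E t, ∃ a ∈ coverRing W N E t h, ∃ b ∈ coverRing W N E t h, b ≠ 0 ∧ x * b = a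

/-- (Λ6) `E` is finite over `K₁ = L(t)`; also `j ∈ K₁`. -/
def sIB_K1FinStatement : Prop :=
  ∀ (N : ℕ) [NeZero N] (L : Type) [Field L] [Algebra ℚ L] (W : ValuationSubring L)
    (k : Type) [Field k] (res : ↥W →+* k)
    (E : Type) [Field E] [Algebra ↥(FL L N) E] (t : E) (h : Polynomial ↥W),
    IsCoverBase W res N E t h → Function.Injective (evWE W N E t) →
    FiniteDimensional ↥(IntermediateField.adjoin L {jF L N}) ↥(FL L N) →
    jE L N E ∈ sIB_K1 L N E t ∧ FiniteDimensional ↥(sIB_K1 L N E t) E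

/-- (Λ2) Elementwise description of `Λ = W[t, 1/h(t)]`; `Λ` is noetherian. -/
def sIB_LamStructStatement : Prop :=
  ∀ (N : ℕ) [NeZero N] (L : Type) [Field L] [Algebra ℚ L] (W : ValuationSubring L)
    [IsDiscreteValuationRing ↥W] (E : Type) [Field E] [Algebra ↥(FL L N) E] (t : E)
    (h : Polynomial ↥W), evWE W N E t h ≠ 0 →
    (∀ x : E, x ∈ coverRing W N E t h ↔
      ∃ (P : Polynomial ↥W) (n : ℕ), x * evWE W N E t h ^ n = evWE W N E t P) ∧
    IsNoetherianRing ↥(coverRing W N E t h)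

/-- (Λ3) Reduction: `P(t)/h(t)^n ∈ ϖ Λ ⟺ P mod ϖ = 0`; `ϖ Λ` is a nonzero prime ideal. -/
def sIB_LamRedStatement : Prop :=
  ∀ (N : ℕ) [NeZero N] (ℓ : ℕ) [Fact ℓ.Prime] (L : Type) [Field L] [Algebra ℚ L]
    (W : ValuationSubring L) [IsDiscreteValuationRing ↥W] (k : Type) [Field k] [IsAlgClosed k]
    [CharP k ℓ] (res : ↥W →+* k) (ϖ : ↥W), BaseData N ℓ W res ϖ →
    ∀ (E : Type) [Field E] [Algebra ↥(FL L N) E] (t : E) (h : Polynomial ↥W),
      Function.Injective (evWE W N E t) → h.map res ≠ 0 →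
      (∀ (a : ↥(coverRing W N E t h)) (P : Polynomial ↥W) (n : ℕ),
        (a : E) * evWE W N E t h ^ n = evWE W N E t P →
        (a ∈ Ideal.span {sIB_pi W N E t h ϖ} ↔ P.map res = 0)) ∧
      sIB_pi W N E t h ϖ ≠ 0 ∧ (Ideal.span {sIB_pi W N E t h ϖ}).IsPrime

/-- (Λ4) Maximal ideals of `Λ` containing `ϖ` are of the form `(ϖ, x)` with `x ∉ ϖ Λ`; a prime ideal
containing `ϖ` and contained in such a maximal ideal is `ϖ Λ` or the maximal ideal itself. -/
def sIB_LamMaxStatement : Prop :=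
  ∀ (N : ℕ) [NeZero N] (ℓ : ℕ) [Fact ℓ.Prime] (L : Type) [Field L] [Algebra ℚ L]
    (W : ValuationSubring L) [IsDiscreteValuationRing ↥W] (k : Type) [Field k] [IsAlgClosed k]
    [CharP k ℓ] (res : ↥W →+* k) (ϖ : ↥W), BaseData N ℓ W res ϖ →
    ∀ (E : Type) [Field E] [Algebra ↥(FL L N) E] (t : E) (h : Polynomial ↥W),
      Function.Injective (evWE W N E t) → h.map res ≠ 0 →
      (∀ 𝔫 : Ideal ↥(coverRing W N E t h), 𝔫.IsMaximal → sIB_pi W N E t h ϖ ∈ 𝔫 →
        ∃ x : ↥(coverRing W N E t h), x ∉ Ideal.span {sIB_pi W N E t h ϖ} ∧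
          𝔫 = Ideal.span {sIB_pi W N E t h ϖ, x}) ∧
      (∀ 𝔭 𝔫 : Ideal ↥(coverRing W N E t h), 𝔭.IsPrime → 𝔫.IsMaximal →
        sIB_pi W N E t h ϖ ∈ 𝔭 → 𝔭 ≤ 𝔫 → 𝔭 = Ideal.span {sIB_pi W N E t h ϖ} ∨ 𝔭 = 𝔫)

/-- (T-loc) A `K₁`-basis of `E` of elements integral over `Λ_𝔭 = locSub Λ 𝔭` whose discriminant is a unit
of `Λ_𝔭` gives `UnramAtPrime Λ K₁ 𝔭`. -/
def sIB_LocUnramStatement : Prop :=
  ∀ (E : Type) [Field E] (Λ : Subring E) (K₁ : Subfield E) (𝔭 : Ideal ↥Λ) [𝔭.IsPrime]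
    (r : ℕ) (c : Fin r → E), LinearIndependent ↥K₁ c → Submodule.span ↥K₁ (Set.range c) = ⊤ →
    (∀ i, IsIntegral ↥(locSub Λ 𝔭) (c i)) →
    (∃ u ∈ locSub Λ 𝔭, ∃ v ∈ locSub Λ 𝔭, u * v = 1 ∧
      ((Algebra.discr ↥K₁ c : ↥K₁) : E) = u) →
    UnramAtPrime Λ K₁ 𝔭

/-- (V2) `Λ_ϖ = locSub Λ (ϖ) ⊆ K₁` is integrally closed in `K₁` and `ϖ` is not a unit of it
(it is a DVR with uniformiser `ϖ`). -/
def sIB_LocVertStatement : Prop :=
  ∀ (N : ℕ) [NeZero N] (ℓ : ℕ) [Fact ℓ.Prime] (L : Type) [Field L] [Algebra ℚ L]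
    (W : ValuationSubring L) [IsDiscreteValuationRing ↥W] (k : Type) [Field k] [IsAlgClosed k]
    [CharP k ℓ] (res : ↥W →+* k) (ϖ : ↥W), BaseData N ℓ W res ϖ →
    ∀ (E : Type) [Field E] [Algebra ↥(FL L N) E] (t : E) (h : Polynomial ↥W),
      Function.Injective (evWE W N E t) → h.map res ≠ 0 →
      ∀ [hp : (Ideal.span {sIB_pi W N E t h ϖ}).IsPrime],
        locSub (coverRing W N E t h) (Ideal.span {sIB_pi W N E t h ϖ}) ≤
          (sIB_K1 L N E t).toSubring ∧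
        (∀ x ∈ sIB_K1 L N E t,
          IsIntegral ↥(locSub (coverRing W N E t h) (Ideal.span {sIB_pi W N E t h ϖ})) x →
          x ∈ locSub (coverRing W N E t h) (Ideal.span {sIB_pi W N E t h ϖ})) ∧
        (cWE W N E ϖ)⁻¹ ∉ locSub (coverRing W N E t h) (Ideal.span {sIB_pi W N E t h ϖ})

/-- (V-abs) ABSTRACT ÉTALE CRITERION.  `R ⊆ K₁ = Frac R ⊆ E`, `R` local and integrally closed in `K₁`,
`E / K₁` finite (characteristic 0), `ϖ ∈ R` a non-unit, `E = K₁(θ)`, `f, A, B, C ∈ R[X]`, `f` monic,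
`f(θ) = 0`, `A f + B f' = 1 + ϖ C`.  Then a power basis `1, θ, …` of `E / K₁` consists of elements
integral over `R` and its discriminant is a unit of `R`. -/
def sIB_EtaleStatement : Prop :=
  ∀ (E : Type) [Field E] [CharZero E] (R : Subring E) (K₁ : Subfield E),
    R ≤ K₁.toSubring →
    (∀ x ∈ K₁, ∃ a ∈ R, ∃ b ∈ R, b ≠ 0 ∧ x * b = a) →
    (∀ x ∈ K₁, IsIntegral ↥R x → x ∈ R) →
    IsLocalRing ↥R →
    FiniteDimensional ↥K₁ E →
    ∀ (ϖ : E), ϖ ∈ R → ϖ⁻¹ ∉ R →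
    ∀ (θ : E) (f A B C : Polynomial E),
      (∀ n, f.coeff n ∈ R) → (∀ n, A.coeff n ∈ R) → (∀ n, B.coeff n ∈ R) → (∀ n, C.coeff n ∈ R) →
      f.Monic → f.eval θ = 0 →
      Subfield.closure ((K₁ : Set E) ∪ {θ}) = ⊤ →
      A * f + B * derivative f = 1 + Polynomial.C ϖ * C →
      ∃ (r : ℕ) (c : Fin r → E), LinearIndependent ↥K₁ c ∧ Submodule.span ↥K₁ (Set.range c) = ⊤ ∧
        (∀ i, IsIntegral ↥R (c i)) ∧
        ∃ u ∈ R, ∃ v ∈ R, u * v = 1 ∧ ((Algebra.discr ↥K₁ c : ↥K₁) : E) = u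

/-- (V1) The image in `E` of the Gauss ring `O₀` lies in `Λ_ϖ = locSub Λ (ϖ)`. -/
def sIB_GaussLocStatement : Prop :=
  ∀ (N : ℕ) [NeZero N] (ℓ : ℕ) [Fact ℓ.Prime] (L : Type) [Field L] [Algebra ℚ L]
    (W : ValuationSubring L) [IsDiscreteValuationRing ↥W] (k : Type) [Field k] [IsAlgClosed k]
    [CharP k ℓ] (res : ↥W →+* k) (ϖ : ↥W), BaseData N ℓ W res ϖ →
    ∀ (E : Type) [Field E] [Algebra ↥(FL L N) E] (t : E) (h : Polynomial ↥W),
      IsCoverBase W res N E t h → Function.Injective (evWE W N E t) →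
      ∀ [hp : (Ideal.span {sIB_pi W N E t h ϖ}).IsPrime],
        ∀ x ∈ gaussO W res N, algebraMap ↥(FL L N) E x ∈
          locSub (coverRing W N E t h) (Ideal.span {sIB_pi W N E t h ϖ})

/-- (V) VERTICAL unramifiedness: `E / K₁` is unramified at the prime `ϖ Λ`. -/
def sIB_VertStatement : Prop :=
  ∀ (N : ℕ) [NeZero N] (ℓ : ℕ) [Fact ℓ.Prime] (L : Type) [Field L] [Algebra ℚ L]
    (W : ValuationSubring L) [IsDiscreteValuationRing ↥W] (k : Type) [Field k] [IsAlgClosed k]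
    [CharP k ℓ] (res : ↥W →+* k) (ϖ : ↥W), BaseData N ℓ W res ϖ →
    ∀ (E : Type) [Field E] [Algebra ↥(FL L N) E] (t : E) (h : Polynomial ↥W),
      IsCoverBase W res N E t h → Function.Injective (evWE W N E t) →
      FiniteDimensional ↥(sIB_K1 L N E t) E →
      (Ideal.span {sIB_pi W N E t h ϖ}).IsPrime →
      UnramAtPrime (coverRing W N E t h) (sIB_K1 L N E t) (Ideal.span {sIB_pi W N E t h ϖ})

/-- (H1+H4) HORIZONTAL unramifiedness at the primes of `Λ` not containing `ϖ`, from unramifiedness at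
the places `g ∤ h` of `L(t)`. -/
def sIB_HorizStatement : Prop :=
  ∀ (N : ℕ) [NeZero N] (ℓ : ℕ) [Fact ℓ.Prime] (L : Type) [Field L] [Algebra ℚ L]
    (W : ValuationSubring L) [IsDiscreteValuationRing ↥W] (k : Type) [Field k] [IsAlgClosed k]
    [CharP k ℓ] (res : ↥W →+* k) (ϖ : ↥W), BaseData N ℓ W res ϖ →
    ∀ (E : Type) [Field E] [Algebra ↥(FL L N) E] (t : E) (h : Polynomial ↥W),
      h.map res ≠ 0 →
      letI := sIB_algLE L N E
      (∀ p : L[X], aeval t p = 0 → p = 0) →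
      (∀ g : L[X], Irreducible g → ¬ g ∣ h.map W.subtype → UnramAtPoly t g) →
      ∀ 𝔭 : Ideal ↥(coverRing W N E t h), 𝔭.IsPrime → 𝔭 ≠ ⊥ → sIB_pi W N E t h ϖ ∉ 𝔭 →
        UnramAtPrime (coverRing W N E t h) (sIB_K1 L N E t) 𝔭

/-- (H2+H3) for a cover of type 1: `E / L(t)` is unramified at every place `g ∤ h` of `L(t)`. -/
def sIB_HorizPoly1Statement : Prop :=
  ∀ (N : ℕ) [NeZero N] (ℓ : ℕ) [Fact ℓ.Prime] (L : Type) [Field L] [Algebra ℚ L]
    (W : ValuationSubring L) [IsDiscreteValuationRing ↥W] (k : Type) [Field k] [IsAlgClosed k]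
    [CharP k ℓ] (res : ↥W →+* k) (ϖ : ↥W), BaseData N ℓ W res ϖ → HorizAt L N →
    ∀ (E : Type) [Field E] [Algebra ↥(FL L N) E] (t : E) (h : Polynomial ↥W),
      IsCover1 W res N E t h →
      letI := sIB_algLE L N E
      (∀ p : L[X], aeval t p = 0 → p = 0) →
      ∀ g : L[X], Irreducible g → ¬ g ∣ h.map W.subtype → UnramAtPoly t g

/-- (H2+H3) for a cover of type 2. -/
def sIB_HorizPoly2Statement : Prop :=
  ∀ (N : ℕ) [NeZero N] (ℓ : ℕ) [Fact ℓ.Prime] (L : Type) [Field L] [Algebra ℚ L]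
    (W : ValuationSubring L) [IsDiscreteValuationRing ↥W] (k : Type) [Field k] [IsAlgClosed k]
    [CharP k ℓ] (res : ↥W →+* k) (ϖ : ↥W), BaseData N ℓ W res ϖ → HorizAt L N →
    ∀ (E : Type) [Field E] [Algebra ↥(FL L N) E] (t : E) (h : Polynomial ↥W),
      IsCover2 W res N E t h →
      letI := sIB_algLE L N E
      (∀ p : L[X], aeval t p = 0 → p = 0) →
      ∀ g : L[X], Irreducible g → ¬ g ∣ h.map W.subtype → UnramAtPoly t g

end

end Fermat.Agent.S18
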