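/-
S18 — block S-I (twin B): the ENGINE.  From the package statements of `SIBInterfaces.lean` and
`PurityStatement`: for a cover (`IsCoverBase`) with `t` transcendental over `L` and `E / L(t)` unramified
at all places `g ∤ h`, `B_M / ϖ` is a DVR for every maximal ideal `M ∋ ϖ` of the integral closure `B` of
`Λ = W[t, 1/h(t)]` in `E`.  Prefix `sIB_`.
-/
import Fermat.Agent.S18.SIBInterfaces

set_option autoImplicit false

open ModularCurve AlgebraicCurve Polynomial

namespace Fermat.Agent.S18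

theorem sIB_engine (hPur : PurityStatement) (hFrac : sIB_K1FracStatement)
    (hFin : sIB_K1FinStatement) (hStruct : sIB_LamStructStatement) (hRed : sIB_LamRedStatement)
    (hMax : sIB_LamMaxStatement) (hVert : sIB_VertStatement) (hHoriz : sIB_HorizStatement)
    (N : ℕ) [NeZero N] (ℓ : ℕ) [Fact ℓ.Prime] (L : Type) [Field L] [Algebra ℚ L]
    (W : ValuationSubring L) [IsDiscreteValuationRing ↥W] (k : Type) [Field k] [IsAlgClosed k]
    [CharP k ℓ] (res : ↥W →+* k) (ϖ : ↥W) (hD : BaseData N ℓ W res ϖ)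
    (E : Type) [Field E] [Algebra ↥(FL L N) E] (t : E) (h : Polynomial ↥W)
    (hcov : IsCoverBase W res N E t h)
    (hfinF : FiniteDimensional ↥(IntermediateField.adjoin L {jF L N}) ↥(FL L N))
    (ht : letI := sIB_algLE L N E; ∀ p : L[X], aeval t p = 0 → p = 0)
    (hpoly : letI := sIB_algLE L N E;
      ∀ g : L[X], Irreducible g → ¬ g ∣ h.map W.subtype → UnramAtPoly t g)
    (M : Ideal ↥(integralClosure ↥(coverRing W N E t h) E).toSubring) [M.IsMaximal]
    (ϖB : ↥(integralClosure ↥(coverRing W N E t h) E).toSubring)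
    (hϖB : (ϖB : E) = cWE W N E ϖ) (hϖM : ϖB ∈ M) :
    IsDVRQuot (Localization.AtPrime M)
      (algebraMap ↥(integralClosure ↥(coverRing W N E t h) E).toSubring
        (Localization.AtPrime M) ϖB) := by
  have hinj : Function.Injective (evWE W N E t) := sIB_evWE_injective W N E t ht
  have hh0 : evWE W N E t h ≠ 0 := by
    intro h0
    have : h = 0 := hinj (by rw [h0, map_zero])
    exact hcov.h_res (by rw [this, Polynomial.map_zero])
  obtain ⟨hle, hfrac⟩ := hFrac N L W E t h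
  obtain ⟨-, hfin⟩ := hFin N L W k res E t h hcov hinj hfinF
  obtain ⟨-, hnoeth⟩ := hStruct N L W E t h hh0
  obtain ⟨-, hπ0, hπprime⟩ := hRed N ℓ L W k res ϖ hD E t h hinj hcov.h_res
  obtain ⟨hmax1, hmax2⟩ := hMax N ℓ L W k res ϖ hD E t h hinj hcov.h_res
  -- characteristic zero
  haveI : CharZero L := algebraRat.charZero L
  haveI : CharZero E :=
    charZero_of_injective_ringHom
      ((algebraMap ↥(FL L N) E).comp (algebraMap L ↥(FL L N))).injective
  -- the inclusion `Λ → B`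
  have hΛB : coverRing W N E t h ≤ (integralClosure ↥(coverRing W N E t h) E).toSubring :=
    fun x hx => (isIntegral_algebraMap (R := ↥(coverRing W N E t h)) (x := ⟨x, hx⟩) :
      IsIntegral ↥(coverRing W N E t h) (algebraMap ↥(coverRing W N E t h) E ⟨x, hx⟩))
  have hι : (Subring.inclusion hΛB).IsIntegral := by
    intro b
    obtain ⟨p, hpm, hp0⟩ := (b.2 : IsIntegral ↥(coverRing W N E t h) (b : E))
    refine ⟨p, hpm, ?_⟩
    apply Subtype.ext
    have := Polynomial.hom_eval₂ p (Subring.inclusion hΛB)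
      ((integralClosure ↥(coverRing W N E t h) E).toSubring.subtype) b
    rw [Subring.coe_zero, ← Subring.subtype_apply, this]
    exact hp0
  haveI h𝔫 : (M.comap (Subring.inclusion hΛB)).IsMaximal :=
    Ideal.isMaximal_comap_of_isIntegral_of_isMaximal' _ hι M
  have hπ𝔫 : sIB_pi W N E t h ϖ ∈ M.comap (Subring.inclusion hΛB) := by
    rw [Ideal.mem_comap]
    have : Subring.inclusion hΛB (sIB_pi W N E t h ϖ) = ϖB := Subtype.ext hϖB.symm
    rw [this]; exact hϖM
  obtain ⟨x, hx, h𝔫eq⟩ := hmax1 _ h𝔫 hπ𝔫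
  refine hPur E (coverRing W N E t h) (sIB_K1 L N E t) hle hfrac hfin hnoeth
    (M.comap (Subring.inclusion hΛB)) (sIB_pi W N E t h ϖ) x hπ0 hπprime hx h𝔫eq ?_ M ϖB hϖB ?_
  · intro 𝔭 h𝔭 h𝔭0 h𝔭lt
    by_cases hπ𝔭 : sIB_pi W N E t h ϖ ∈ 𝔭
    · rcases hmax2 𝔭 _ h𝔭 h𝔫 hπ𝔭 h𝔭lt.le with h1 | h1
      · rw [h1]; exact hVert N ℓ L W k res ϖ hD E t h hcov hinj hfin hπprime
      · exact absurd h1 h𝔭lt.ne
    · exact hHoriz N ℓ L W k res ϖ hD E t h hcov.h_res ht hpoly 𝔭 h𝔭 h𝔭0 hπ𝔭
  · intro a b ha hb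
    have : b = Subring.inclusion hΛB a := Subtype.ext hb
    rw [this]; exact ha

/-- Assembly of the block from the package statements. -/
theorem sIB_assembly (hPur : PurityStatement) (hFinL : FinLStatement)
    (hTr : sIB_TranscStatement) (hFrac : sIB_K1FracStatement)
    (hFin : sIB_K1FinStatement) (hStruct : sIB_LamStructStatement) (hRed : sIB_LamRedStatement)
    (hMax : sIB_LamMaxStatement) (hVert : sIB_VertStatement) (hHoriz : sIB_HorizStatement)
    (hP1 : sIB_HorizPoly1Statement) (hP2 : sIB_HorizPoly2Statement) :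
    SmB1Statement ∧ SmB2Statement := by
  constructor
  · intro N _ ℓ _ L _ _ W _ k _ _ _ res ϖ hD hH E _ _ t h hcov M _ ϖB hϖB hϖM
    obtain ⟨htrj, hfinF⟩ := hFinL N L
    have ht := hTr N L W E t h htrj (Or.inl hcov.j_mem)
    exact sIB_engine hPur hFrac hFin hStruct hRed hMax hVert hHoriz N ℓ L W k res ϖ hD E t h
      hcov.toIsCoverBase hfinF ht (hP1 N ℓ L W k res ϖ hD hH E t h hcov ht) M ϖB hϖB hϖM
  · intro N _ ℓ _ L _ _ W _ k _ _ _ res ϖ hD hH E _ _ t h hcov M _ ϖB hϖB hϖM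
    obtain ⟨htrj, hfinF⟩ := hFinL N L
    have ht := hTr N L W E t h htrj (Or.inr hcov.jinv_mem)
    exact sIB_engine hPur hFrac hFin hStruct hRed hMax hVert hHoriz N ℓ L W k res ϖ hD E t h
      hcov.toIsCoverBase hfinF ht (hP2 N ℓ L W k res ϖ hD hH E t h hcov ht) M ϖB hϖB hϖM

end Fermat.Agent.S18
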