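/-
S18 — block S-I (twin B), package HP (H2+H3).  Prefix `sIB_hp_`.

`E / L(t)` is unramified at every place `g ∤ h` of `L(t)`, for covers of type 1 and 2, from
`HorizUnramStatement`: every element of `Λ = W[t, 1/h(t)]` is regular at such a place `g`, so the
"unit times power" decompositions of `j`, `j - 1728`, `1/j` in `Λ` are decompositions at `g`.
-/
import Fermat.Agent.S18.SIBInterfaces

set_option autoImplicit false

open ModularCurve AlgebraicCurve Polynomial

namespace Fermat.Agent.S18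

section RegAtClosure

variable {L E : Type} [Field L] [Field E] [Algebra L E] (t : E) (g : L[X])

/-- Constants are regular at `g`. -/
theorem sIB_hp_regAt_algebraMap (hg : ¬ IsUnit g) (c : L) : RegAt t g (algebraMap L E c) :=
  ⟨C c, 1, fun hd => hg (isUnit_of_dvd_one hd), by simp⟩

/-- `1` is regular at `g`. -/
theorem sIB_hp_regAt_one (hg : ¬ IsUnit g) : RegAt t g (1 : E) :=
  ⟨1, 1, fun hd => hg (isUnit_of_dvd_one hd), by simp⟩

/-- Regularity at `g` is closed under products. -/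
theorem sIB_hp_regAt_mul (hg : Prime g) {x y : E} (hx : RegAt t g x) (hy : RegAt t g y) :
    RegAt t g (x * y) := by
  obtain ⟨p₁, q₁, hq₁, h₁⟩ := hx
  obtain ⟨p₂, q₂, hq₂, h₂⟩ := hy
  refine ⟨p₁ * p₂, q₁ * q₂, fun hd => (hg.dvd_or_dvd hd).elim hq₁ hq₂, ?_⟩
  rw [map_mul, map_mul, ← h₁, ← h₂]
  ring

/-- Regularity at `g` is closed under sums. -/
theorem sIB_hp_regAt_add (hg : Prime g) {x y : E} (hx : RegAt t g x) (hy : RegAt t g y) :
    RegAt t g (x + y) := by
  obtain ⟨p₁, q₁, hq₁, h₁⟩ := hx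
  obtain ⟨p₂, q₂, hq₂, h₂⟩ := hy
  refine ⟨p₁ * q₂ + p₂ * q₁, q₁ * q₂, fun hd => (hg.dvd_or_dvd hd).elim hq₁ hq₂, ?_⟩
  rw [map_add, map_mul, map_mul, map_mul, ← h₁, ← h₂]
  ring

/-- Regularity at `g` is closed under differences. -/
theorem sIB_hp_regAt_sub (hg : Prime g) {x y : E} (hx : RegAt t g x) (hy : RegAt t g y) :
    RegAt t g (x - y) := by
  obtain ⟨p₁, q₁, hq₁, h₁⟩ := hx
  obtain ⟨p₂, q₂, hq₂, h₂⟩ := hy
  refine ⟨p₁ * q₂ - p₂ * q₁, q₁ * q₂, fun hd => (hg.dvd_or_dvd hd).elim hq₁ hq₂, ?_⟩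
  rw [map_sub, map_mul, map_mul, map_mul, ← h₁, ← h₂]
  ring

end RegAtClosure

section Cover

variable {L : Type} [Field L] [Algebra ℚ L] (W : ValuationSubring L) (N : ℕ)
  (E : Type) [Field E] [Algebra ↥(FL L N) E] (t : E) (h : Polynomial ↥W)

/-- (H2) Every element of `Λ = W[t, 1/h(t)]` is regular at a place `g ∤ h`. -/
theorem sIB_hp_regAt_of_mem
    (helt : ∀ x : E, x ∈ coverRing W N E t h ↔
      ∃ (P : Polynomial ↥W) (n : ℕ), x * evWE W N E t h ^ n = evWE W N E t P)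
    (g : L[X]) (hg : Prime g) (hgh : ¬ g ∣ h.map W.subtype) {x : E}
    (hx : x ∈ coverRing W N E t h) :
    letI := sIB_algLE L N E
    RegAt t g x := by
  letI := sIB_algLE L N E
  obtain ⟨P, n, hPn⟩ := (helt x).1 hx
  refine ⟨P.map W.subtype, (h.map W.subtype) ^ n, fun hd => hgh (hg.dvd_of_dvd_pow hd), ?_⟩
  rw [map_pow, ← sIB_evWE_eq_aeval, ← sIB_evWE_eq_aeval, mul_comm]
  exact hPn

/-- `j = p(t)/q(t)` over `L`, from the cover data. -/
theorem sIB_hp_jrat [NeZero N] {k : Type} [Field k] (res : ↥W →+* k)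
    (hcov : IsCoverBase W res N E t h) :
    letI := sIB_algLE L N E
    ∃ p q : L[X], q ≠ 0 ∧ aeval t q * algebraMap ↥(FL L N) E (jF L N) = aeval t p := by
  letI := sIB_algLE L N E
  obtain ⟨p, q, hq, -, hpq⟩ := hcov.jrat
  refine ⟨p.map W.subtype, q.map W.subtype, ?_, ?_⟩
  · intro h0
    rw [Polynomial.map_eq_zero_iff W.subtype_injective] at h0
    exact hq (by rw [h0, Polynomial.map_zero])
  · rw [← sIB_evWE_eq_aeval, ← sIB_evWE_eq_aeval]
    exact hpq

end Cover

/-- (H2+H3) for a cover of type 1. -/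
theorem sIB_hp_one : HorizUnramStatement → FinLStatement → sIB_LamStructStatement →
    sIB_HorizPoly1Statement := by
  intro hHU _ hLam N _ ℓ _ L _ _ W _ k _ _ _ res ϖ hD hH E _ _ t h hcov ht g hg hgh
  letI := sIB_algLE L N E
  haveI := sIB_isScalarTower L N E
  have hinj := sIB_evWE_injective W N E t ht
  have hh0 : h ≠ 0 := fun h0 => hcov.h_res (by rw [h0, Polynomial.map_zero])
  have hH0 : evWE W N E t h ≠ 0 := fun h0 => hh0 (hinj (by rw [h0, map_zero]))
  obtain ⟨helt, -⟩ := hLam N L W E t h hH0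
  have hreg : ∀ x ∈ coverRing W N E t h, RegAt t g x := fun x hx =>
    sIB_hp_regAt_of_mem W N E t h helt g hg.prime hgh hx
  refine hHU N L hH E t hcov.gen ht (sIB_hp_jrat W N E t h res hcov.toIsCoverBase) g hg ?_ ?_ ?_
  · intro _
    obtain ⟨a, ha, u, hu, v, hv, huv, hj⟩ := hcov.ram0
    exact ⟨a, u, v, hreg a ha, hreg u hu, hreg v hv, huv, hj⟩
  · intro _
    obtain ⟨b, hb, u, hu, v, hv, huv, hj⟩ := hcov.ram1728
    exact ⟨b, u, v, hreg b hb, hreg u hu, hreg v hv, huv, hj⟩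
  · intro hn
    exact absurd (hreg _ hcov.j_mem) hn

/-- (H2+H3) for a cover of type 2. -/
theorem sIB_hp_two : HorizUnramStatement → FinLStatement → sIB_LamStructStatement →
    sIB_HorizPoly2Statement := by
  intro hHU hFin hLam N _ ℓ _ L _ _ W _ k _ _ _ res ϖ hD hH E _ _ t h hcov ht g hg hgh
  letI := sIB_algLE L N E
  haveI := sIB_isScalarTower L N E
  have hinj := sIB_evWE_injective W N E t ht
  have hh0 : h ≠ 0 := fun h0 => hcov.h_res (by rw [h0, Polynomial.map_zero])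
  have hH0 : evWE W N E t h ≠ 0 := fun h0 => hh0 (hinj (by rw [h0, map_zero]))
  obtain ⟨helt, -⟩ := hLam N L W E t h hH0
  have hgp : Prime g := hg.prime
  have hgu : ¬ IsUnit g := hg.not_isUnit
  have hreg : ∀ x ∈ coverRing W N E t h, RegAt t g x := fun x hx =>
    sIB_hp_regAt_of_mem W N E t h helt g hgp hgh hx
  -- `j ≠ 0` and `j ≠ 1728` since `j` is transcendental over `L`
  have htr : Transcendental L (jF L N) := (hFin N L).1
  have hjF0 : jF L N ≠ 0 := fun h0 => htr (h0 ▸ isAlgebraic_zero)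
  have hjF1728 : jF L N ≠ 1728 := fun h0 => htr (by
    have h1 : IsAlgebraic L (algebraMap L ↥(FL L N) 1728) := isAlgebraic_algebraMap _
    rw [map_ofNat] at h1
    rw [h0]
    exact h1)
  have hj0 : algebraMap ↥(FL L N) E (jF L N) ≠ 0 := fun h0 =>
    hjF0 ((algebraMap ↥(FL L N) E).injective (by rw [h0, map_zero]))
  have hj1728 : algebraMap ↥(FL L N) E (jF L N) - 1728 ≠ 0 := fun h0 =>
    hjF1728 ((algebraMap ↥(FL L N) E).injective (by rw [sub_eq_zero.1 h0, map_ofNat]))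
  have hjinv : (algebraMap ↥(FL L N) E (jF L N))⁻¹ ∈ coverRing W N E t h := hcov.jinv_mem
  have hjfrac : algebraMap ↥(FL L N) E (jF L N) / (algebraMap ↥(FL L N) E (jF L N) - 1728) ∈
      coverRing W N E t h := hcov.jfrac_mem
  refine hHU N L hH E t hcov.gen ht (sIB_hp_jrat W N E t h res hcov.toIsCoverBase) g hg ?_ ?_ ?_
  · intro hr
    exact ⟨1, algebraMap ↥(FL L N) E (jF L N), (algebraMap ↥(FL L N) E (jF L N))⁻¹,
      sIB_hp_regAt_one t g hgu, hr, hreg _ hjinv, mul_inv_cancel₀ hj0, by rw [one_pow, mul_one]⟩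
  · intro hr
    have h1728 : RegAt t g (1728 : E) := by
      have h1 := sIB_hp_regAt_algebraMap (E := E) t g hgu (1728 : L)
      rwa [map_ofNat] at h1
    refine ⟨1, algebraMap ↥(FL L N) E (jF L N) - 1728,
      (algebraMap ↥(FL L N) E (jF L N) / (algebraMap ↥(FL L N) E (jF L N) - 1728)) *
        (algebraMap ↥(FL L N) E (jF L N))⁻¹,
      sIB_hp_regAt_one t g hgu, sIB_hp_regAt_sub t g hgp hr h1728,
      hreg _ (Subring.mul_mem _ hjfrac hjinv), ?_, by rw [one_pow, mul_one]⟩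
    field_simp
  · intro _
    obtain ⟨a, ha, u, hu, v, hv, huv, hj⟩ := hcov.raminf
    exact ⟨a, u, v, hreg a ha, hreg u hu, hreg v hv, huv, hj⟩

/-- (H2+H3) `E / L(t)` is unramified at every place `g ∤ h` of `L(t)`, for covers of type 1 and 2. -/
theorem sIB_hp_main : HorizUnramStatement → FinLStatement → sIB_LamStructStatement →
    sIB_HorizPoly1Statement ∧ sIB_HorizPoly2Statement :=
  fun hHU hFin hLam => ⟨sIB_hp_one hHU hFin hLam, sIB_hp_two hHU hFin hLam⟩

end Fermat.Agent.S18
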