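/-
S18 — block S-I (twin B), package H (backup copy by the sub-lead): horizontal unramifiedness at the primes
`𝔭 ∌ ϖ` of `Λ`, from unramifiedness at the places `g ∤ h` of `L(t)`.  Prefix `sIB_hS_`.
-/
import Fermat.Agent.S18.SIBInterfaces

set_option autoImplicit false

open ModularCurve AlgebraicCurve Polynomial

namespace Fermat.Agent.S18

section

variable {L : Type} [Field L] [Algebra ℚ L] (W : ValuationSubring L) [IsDiscreteValuationRing ↥W]
  (N : ℕ) (E : Type) [Field E] [Algebra ↥(FL L N) E] (t : E) (h : Polynomial ↥W)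

/-- (a) nonzero constants of `W` are outside a prime `𝔭 ∌ ϖ`. -/
theorem sIB_hS_const_notMem {ϖ : ↥W} (hirr : Irreducible ϖ)
    (𝔭 : Ideal ↥(coverRing W N E t h)) [h𝔭 : 𝔭.IsPrime]
    (hπ : sIB_pi W N E t h ϖ ∉ 𝔭) (w : ↥W) (hw : w ≠ 0) :
    (⟨cWE W N E w, sIB_cWE_mem W N E t h w⟩ : ↥(coverRing W N E t h)) ∉ 𝔭 := by
  obtain ⟨n, hn⟩ := IsDiscreteValuationRing.associated_pow_irreducible hw hirr
  obtain ⟨u, hu⟩ := hn
  intro hmem
  have h1 : (⟨cWE W N E (ϖ ^ n), sIB_cWE_mem W N E t h _⟩ : ↥(coverRing W N E t h)) ∈ 𝔭 := by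
    have : (⟨cWE W N E (ϖ ^ n), sIB_cWE_mem W N E t h _⟩ : ↥(coverRing W N E t h)) =
        ⟨cWE W N E w, sIB_cWE_mem W N E t h w⟩ *
          ⟨cWE W N E (u : ↥W), sIB_cWE_mem W N E t h _⟩ := by
      apply Subtype.ext
      simp only [Subring.coe_mul, ← map_mul, hu]
    rw [this]
    exact 𝔭.mul_mem_right _ hmem
  have h2 : (⟨cWE W N E (ϖ ^ n), sIB_cWE_mem W N E t h _⟩ : ↥(coverRing W N E t h)) =
      sIB_pi W N E t h ϖ ^ n := by
    apply Subtype.ext
    simp [map_pow]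
  rw [h2] at h1
  exact hπ (h𝔭.mem_of_pow_mem n h1)

/-- constants of `L` lie in `locSub Λ 𝔭`. -/
theorem sIB_hS_algebraMap_mem {ϖ : ↥W} (hirr : Irreducible ϖ)
    (𝔭 : Ideal ↥(coverRing W N E t h)) [h𝔭 : 𝔭.IsPrime]
    (hπ : sIB_pi W N E t h ϖ ∉ 𝔭) (x : L) :
    (letI := sIB_algLE L N E; algebraMap L E x) ∈ locSub (coverRing W N E t h) 𝔭 := by
  letI := sIB_algLE L N E
  obtain ⟨a, b, hb, rfl⟩ := IsFractionRing.div_surjective (A := ↥W) x
  have hb0 : b ≠ 0 := nonZeroDivisors.ne_zero hb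
  refine ⟨⟨cWE W N E a, sIB_cWE_mem W N E t h a⟩, ⟨cWE W N E b, sIB_cWE_mem W N E t h b⟩,
    sIB_hS_const_notMem W N E t h hirr 𝔭 hπ b hb0, ?_⟩
  have hbL : (algebraMap ↥W L b) ≠ 0 := by
    intro h0
    exact hb0 (Subtype.ext h0)
  show algebraMap L E (algebraMap ↥W L a / algebraMap ↥W L b) * algebraMap L E (b : L) =
    algebraMap L E (a : L)
  rw [← map_mul]
  congr 1
  exact div_mul_cancel₀ _ hbL

/-- values of polynomials over `L` at `t` lie in `locSub Λ 𝔭`. -/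
theorem sIB_hS_aeval_mem {ϖ : ↥W} (hirr : Irreducible ϖ)
    (𝔭 : Ideal ↥(coverRing W N E t h)) [h𝔭 : 𝔭.IsPrime]
    (hπ : sIB_pi W N E t h ϖ ∉ 𝔭) (Q : L[X]) :
    (letI := sIB_algLE L N E; aeval t Q) ∈ locSub (coverRing W N E t h) 𝔭 := by
  letI := sIB_algLE L N E
  rw [aeval_eq_sum_range]
  refine Subring.sum_mem _ fun i _ => ?_
  rw [Algebra.smul_def]
  exact Subring.mul_mem _ (sIB_hS_algebraMap_mem W N E t h hirr 𝔭 hπ _)
    (Subring.pow_mem _ (le_locSub _ _ (sIB_t_mem W N E t h)) _)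

end

/-- (H1+H4), backup proof. -/
theorem sIB_hS_main (hStruct : sIB_LamStructStatement) (hLoc : sIB_LocUnramStatement) :
    sIB_HorizStatement := by
  intro N _ ℓ _ L _ _ W _ k _ _ _ res ϖ hD E _ _ t h hres ht hpoly 𝔭 h𝔭 h𝔭0 hπ
  letI := sIB_algLE L N E
  haveI := h𝔭
  have hinj : Function.Injective (evWE W N E t) := sIB_evWE_injective W N E t ht
  have hh0 : evWE W N E t h ≠ 0 := by
    intro h0
    have : h = 0 := hinj (by rw [h0, map_zero])
    exact hres (by rw [this, Polynomial.map_zero])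
  obtain ⟨helt, -⟩ := hStruct N L W E t h hh0
  haveI hloc : IsLocalRing ↥(locSub (coverRing W N E t h) 𝔭) :=
    locSubB_isLocalRing (coverRing W N E t h) 𝔭
  have hmemR : ∀ Q : L[X], (aeval t : L[X] →ₐ[L] E).toRingHom Q ∈ locSub (coverRing W N E t h) 𝔭 :=
    fun Q => sIB_hS_aeval_mem W N E t h hD.irreducible 𝔭 hπ Q
  -- the ring hom `φ : L[X] → Λ_𝔭`
  let φ : L[X] →+* ↥(locSub (coverRing W N E t h) 𝔭) :=
    RingHom.codRestrict (aeval t : L[X] →ₐ[L] E).toRingHom (locSub (coverRing W N E t h) 𝔭) hmemR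
  have hφ : ∀ Q : L[X], ((φ Q : ↥(locSub (coverRing W N E t h) 𝔭)) : E) = aeval t Q := fun Q => rfl
  let I : Ideal L[X] := Ideal.comap φ (IsLocalRing.maximalIdeal ↥(locSub (coverRing W N E t h) 𝔭))
  haveI hIprime : I.IsPrime := Ideal.comap_isPrime φ _
  have hI_iff : ∀ Q : L[X], Q ∈ I ↔ ∃ a s : ↥(coverRing W N E t h), a ∈ 𝔭 ∧ s ∉ 𝔭 ∧
      aeval t Q * (s : E) = (a : E) := by
    intro Q
    exact locSubB_mem_maximalIdeal_iff (coverRing W N E t h) 𝔭 (φ Q)
  have hI_W : ∀ P : Polynomial ↥W, P.map W.subtype ∈ I ↔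
      (⟨evWE W N E t P, sIB_evWE_mem W N E t h P⟩ : ↥(coverRing W N E t h)) ∈ 𝔭 := by
    intro P
    rw [hI_iff]
    constructor
    · rintro ⟨a, s, ha, hs, hEq⟩
      have h1 : (⟨evWE W N E t P, sIB_evWE_mem W N E t h P⟩ : ↥(coverRing W N E t h)) * s = a := by
        apply Subtype.ext
        show evWE W N E t P * (s : E) = (a : E)
        rw [sIB_evWE_eq_aeval]
        exact hEq
      have h2 : (⟨evWE W N E t P, sIB_evWE_mem W N E t h P⟩ : ↥(coverRing W N E t h)) * s ∈ 𝔭 :=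
        h1 ▸ ha
      exact (h𝔭.mem_or_mem h2).resolve_right hs
    · intro hP
      refine ⟨_, 1, hP, fun h1 => h𝔭.ne_top ((Ideal.eq_top_iff_one 𝔭).2 h1), ?_⟩
      show aeval t (P.map W.subtype) * ((1 : ↥(coverRing W N E t h)) : E) = evWE W N E t P
      rw [Subring.coe_one, mul_one, sIB_evWE_eq_aeval]
  -- values of polynomials outside `I` are units of `Λ_𝔭`
  have hunit : ∀ Q : L[X], Q ∉ I →
      (aeval t Q)⁻¹ ∈ locSub (coverRing W N E t h) 𝔭 ∧ aeval t Q ≠ 0 := by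
    intro Q hQ
    have hu : IsUnit (φ Q) := by
      by_contra hnu
      exact hQ ((IsLocalRing.mem_maximalIdeal _).2 hnu)
    obtain ⟨v, hv⟩ := isUnit_iff_exists_inv.1 hu
    have hv' : aeval t Q * (v : E) = 1 := by
      have := congrArg (fun w : ↥(locSub (coverRing W N E t h) 𝔭) => (w : E)) hv
      simpa [hφ] using this
    have hne : aeval t Q ≠ 0 := left_ne_zero_of_mul_eq_one hv'
    refine ⟨?_, hne⟩
    have h3 : (aeval t Q)⁻¹ = (v : E) := by
      rw [inv_eq_iff_eq_inv]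
      exact eq_inv_of_mul_eq_one_left hv'
    rw [h3]; exact v.2
  -- `I ≠ ⊥`
  have hI0 : I ≠ ⊥ := by
    obtain ⟨a, ha, ha0⟩ := Submodule.exists_mem_ne_zero_of_ne_bot h𝔭0
    obtain ⟨P, n, hP⟩ := (helt (a : E)).1 a.2
    have hPmem : (⟨evWE W N E t P, sIB_evWE_mem W N E t h P⟩ : ↥(coverRing W N E t h)) ∈ 𝔭 := by
      have h1 : (⟨evWE W N E t P, sIB_evWE_mem W N E t h P⟩ : ↥(coverRing W N E t h)) =
          a * ⟨evWE W N E t h, sIB_evWE_mem W N E t h h⟩ ^ n := by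
        apply Subtype.ext
        rw [Subring.coe_mul, Subring.coe_pow]
        exact hP.symm
      rw [h1]
      exact 𝔭.mul_mem_right _ ha
    have hP0 : P ≠ 0 := by
      rintro rfl
      rw [map_zero] at hP
      have h1 : (a : E) = 0 := by
        rcases mul_eq_zero.1 hP with h1 | h1
        · exact h1
        · exact absurd h1 (pow_ne_zero n hh0)
      exact ha0 (Subtype.ext h1)
    intro hbot
    have h1 : P.map W.subtype ∈ I := (hI_W P).2 hPmem
    rw [hbot, Ideal.mem_bot] at h1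
    exact hP0 ((Polynomial.map_eq_zero_iff W.subtype_injective).1 h1)
  -- the generator `g` of `I`
  have hIg : I = Ideal.span {Submodule.IsPrincipal.generator I} :=
    (Ideal.span_singleton_generator I).symm
  have hg0 : Submodule.IsPrincipal.generator I ≠ 0 := by
    intro h0
    apply hI0
    rw [hIg, h0]
    simp
  have hgprime : Prime (Submodule.IsPrincipal.generator I) := by
    rw [← Ideal.span_singleton_prime hg0, ← hIg]; exact hIprime
  have hI_dvd : ∀ Q : L[X], Q ∈ I ↔ Submodule.IsPrincipal.generator I ∣ Q := by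
    intro Q
    constructor
    · intro hQ
      rw [hIg] at hQ
      exact Ideal.mem_span_singleton.1 hQ
    · intro hQ
      rw [hIg]
      exact Ideal.mem_span_singleton.2 hQ
  have hgh : ¬ Submodule.IsPrincipal.generator I ∣ h.map W.subtype := by
    intro hdvd
    have h1 := (hI_W h).1 ((hI_dvd _).2 hdvd)
    apply h𝔭.ne_top
    rw [Ideal.eq_top_iff_one]
    have h2 : (1 : ↥(coverRing W N E t h)) = ⟨evWE W N E t h, sIB_evWE_mem W N E t h h⟩ *
        ⟨(evWE W N E t h)⁻¹, sIB_hinv_mem W N E t h⟩ := by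
      apply Subtype.ext
      rw [Subring.coe_mul, Subring.coe_one]
      exact (mul_inv_cancel₀ hh0).symm
    rw [h2]
    exact 𝔭.mul_mem_right _ h1
  obtain ⟨r, c, hli, hsp, hint, a, s, ha, hs, hdisc⟩ := hpoly _ hgprime.irreducible hgh
  refine hLoc E (coverRing W N E t h) (sIB_K1 L N E t) 𝔭 r c hli hsp ?_ ?_
  · intro i
    obtain ⟨s, hs, hint_i⟩ := hint i
    obtain ⟨hsinv, hs0⟩ := hunit s (fun hmem => hs ((hI_dvd s).1 hmem))
    have hy : IsIntegral ↥(locSub (coverRing W N E t h) 𝔭) (aeval t s * c i) := by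
      obtain ⟨p, hpm, hp0⟩ := hint_i
      have hAR : ∀ z : ↥(Algebra.adjoin L {t}),
          (algebraMap ↥(Algebra.adjoin L {t}) E) z ∈ locSub (coverRing W N E t h) 𝔭 := by
        intro z
        have hz : (z : E) ∈ (aeval t : L[X] →ₐ[L] E).range := by
          rw [← Algebra.adjoin_singleton_eq_range_aeval]; exact z.2
        obtain ⟨Q, hQ⟩ := hz
        have := hmemR Q
        rw [show (algebraMap ↥(Algebra.adjoin L {t}) E) z = (z : E) from rfl, ← hQ]
        exact this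
      let ψ : ↥(Algebra.adjoin L {t}) →+* ↥(locSub (coverRing W N E t h) 𝔭) :=
        RingHom.codRestrict (algebraMap ↥(Algebra.adjoin L {t}) E)
          (locSub (coverRing W N E t h) 𝔭) hAR
      refine ⟨p.map ψ, hpm.map ψ, ?_⟩
      rw [Polynomial.eval₂_map]
      exact hp0
    have h1 : c i = (aeval t s)⁻¹ * (aeval t s * c i) := by
      rw [← mul_assoc, inv_mul_cancel₀ hs0, one_mul]
    rw [h1]
    exact IsIntegral.mul (isIntegral_algebraMap (R := ↥(locSub (coverRing W N E t h) 𝔭))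
      (x := ⟨_, hsinv⟩)) hy
  · obtain ⟨hsinv, hs0⟩ := hunit s (fun hmem => hs ((hI_dvd s).1 hmem))
    obtain ⟨hainv, ha0⟩ := hunit a (fun hmem => ha ((hI_dvd a).1 hmem))
    refine ⟨aeval t a * (aeval t s)⁻¹, Subring.mul_mem _ (hmemR a) hsinv,
      aeval t s * (aeval t a)⁻¹, Subring.mul_mem _ (hmemR s) hainv, ?_, ?_⟩
    · field_simp
    · rw [eq_mul_inv_iff_mul_eq₀ hs0, mul_comm]
      exact hdisc

end Fermat.Agent.S18
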