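/-
S18 — block S-I (twin B), package KA.  Prefix `sIB_kA_`.

(Λ5) `Λ = W[t, 1/h(t)] ⊆ K₁ = L(t)` and `K₁ = Frac Λ` (elementwise);
(Λ1) `t` is transcendental over `L` (because `j` is, and `j ∈ Λ` or `1/j ∈ Λ`).
-/
import Fermat.Agent.S18.SIBInterfaces

set_option autoImplicit false
set_option linter.style.haveILetI false

open ModularCurve AlgebraicCurve Polynomial

namespace Fermat.Agent.S18

noncomputable section

/-- Clearing denominators: every `p ∈ L[X]` has a nonzero `W`-multiple with coefficients in `W`. -/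
theorem sIB_kA_clear {L : Type} [Field L] (W : ValuationSubring L) (p : L[X]) :
    ∃ (w : ↥W) (P : Polynomial ↥W), w ≠ 0 ∧ P.map W.subtype = C (w : L) * p := by
  obtain ⟨b, hb, hP⟩ := IsLocalization.integerNormalization_spec (nonZeroDivisors ↥W) p
  refine ⟨b, IsLocalization.integerNormalization (nonZeroDivisors ↥W) p,
    nonZeroDivisors.ne_zero hb, ?_⟩
  rw [← Polynomial.smul_eq_C_mul]
  exact hP

/-- (Λ5a) `Λ ⊆ K₁`. -/
theorem sIB_kA_le {L : Type} [Field L] [Algebra ℚ L] (W : ValuationSubring L) (N : ℕ)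
    (E : Type) [Field E] [Algebra ↥(FL L N) E] (t : E) (h : Polynomial ↥W) :
    coverRing W N E t h ≤ (sIB_K1 L N E t).toSubring := by
  letI := sIB_algLE L N E
  rw [coverRing, baseRingE]
  refine Subring.closure_le.2 ?_
  have ht : t ∈ IntermediateField.adjoin L {t} := IntermediateField.mem_adjoin_simple_self L t
  rintro x (⟨w, rfl⟩ | hx | hx)
  · exact IntermediateField.algebraMap_mem _ (w : L)
  · rw [hx]
    exact ht
  · rw [Set.mem_singleton_iff] at hx
    rw [hx, sIB_evWE_eq_aeval]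
    have h1 : aeval t (h.map W.subtype) ∈ IntermediateField.adjoin L {t} :=
      IntermediateField.algebra_adjoin_le_adjoin L {t}
        (Polynomial.aeval_mem_adjoin_singleton L t)
    exact (inv_mem h1 : (aeval t (h.map W.subtype))⁻¹ ∈ IntermediateField.adjoin L {t})

/-- (Λ5b) every element of `K₁` is a quotient of elements of `Λ`. -/
theorem sIB_kA_frac {L : Type} [Field L] [Algebra ℚ L] (W : ValuationSubring L) (N : ℕ)
    (E : Type) [Field E] [Algebra ↥(FL L N) E] (t : E) (h : Polynomial ↥W)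
    (x : E) (hx : x ∈ sIB_K1 L N E t) :
    ∃ a ∈ coverRing W N E t h, ∃ b ∈ coverRing W N E t h, b ≠ 0 ∧ x * b = a := by
  letI := sIB_algLE L N E
  obtain ⟨r, s, rfl⟩ := (IntermediateField.mem_adjoin_simple_iff L x).1 hx
  by_cases hs : aeval t s = 0
  · refine ⟨0, Subring.zero_mem _, 1, Subring.one_mem _, one_ne_zero, ?_⟩
    rw [hs, div_zero, zero_mul]
  · obtain ⟨w₁, R, hw₁, hR⟩ := sIB_kA_clear W r
    obtain ⟨w₂, S, hw₂, hS⟩ := sIB_kA_clear W s
    have hRe : evWE W N E t R = algebraMap L E (w₁ : L) * aeval t r := by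
      rw [sIB_evWE_eq_aeval, hR, map_mul, aeval_C]
    have hSe : evWE W N E t S = algebraMap L E (w₂ : L) * aeval t s := by
      rw [sIB_evWE_eq_aeval, hS, map_mul, aeval_C]
    have hne : ∀ w : ↥W, w ≠ 0 → algebraMap L E (w : L) ≠ 0 := by
      intro w hw h0
      apply hw
      have := (algebraMap L E).injective (h0.trans (map_zero _).symm)
      exact Subtype.ext this
    refine ⟨cWE W N E w₂ * evWE W N E t R,
      Subring.mul_mem _ (sIB_cWE_mem W N E t h w₂) (sIB_evWE_mem W N E t h R),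
      cWE W N E w₁ * evWE W N E t S,
      Subring.mul_mem _ (sIB_cWE_mem W N E t h w₁) (sIB_evWE_mem W N E t h S), ?_, ?_⟩
    · rw [hSe, sIB_cWE_apply]
      exact mul_ne_zero (hne w₁ hw₁) (mul_ne_zero (hne w₂ hw₂) hs)
    · rw [hRe, hSe, sIB_cWE_apply, sIB_cWE_apply]
      field_simp

/-- (Λ5) `Λ ⊆ K₁` and `K₁ = Frac Λ` (elementwise). -/
theorem sIB_kA_main : sIB_K1FracStatement := by
  intro N _ L _ _ W E _ _ t h
  exact ⟨sIB_kA_le W N E t h, fun x hx => sIB_kA_frac W N E t h x hx⟩

/-- (Λ1) `t` is transcendental over `L`. -/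
theorem sIB_kA_transc : sIB_TranscStatement := by
  intro N _ L _ _ W E _ _ t h htr hj
  letI := sIB_algLE L N E
  haveI := sIB_isScalarTower L N E
  intro p hp
  by_contra hp0
  have halg : IsAlgebraic L t := ⟨p, hp0, hp⟩
  have hall : ∀ x ∈ IntermediateField.adjoin L {t}, IsAlgebraic L x := by
    intro x hx
    haveI := IntermediateField.isAlgebraic_adjoin_simple halg.isIntegral
    have h1 := Algebra.IsAlgebraic.isAlgebraic (R := L)
      (⟨x, hx⟩ : ↥(IntermediateField.adjoin L {t}))
    exact (isAlgebraic_algebraMap_iff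
      (algebraMap ↥(IntermediateField.adjoin L {t}) E).injective).2 h1
  have hjE : IsAlgebraic L (jE L N E) := by
    rcases hj with hj | hj
    · exact hall _ (sIB_kA_le W N E t h hj)
    · have h1 := (hall _ (sIB_kA_le W N E t h hj)).inv
      rwa [inv_inv] at h1
  have hjF : IsAlgebraic L (jF L N) :=
    (isAlgebraic_algebraMap_iff (algebraMap ↥(FL L N) E).injective).1 hjE
  exact htr hjF

end

end Fermat.Agent.S18
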