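/-
S18 — block S-I (twin B), package KB (Λ6): `j ∈ K₁ = L(t)` and `E` is finite over `K₁`.
Prefix `sIB_kB_`.
-/
import Fermat.Agent.S18.SIBInterfaces

set_option autoImplicit false

open ModularCurve AlgebraicCurve Polynomial

namespace Fermat.Agent.S18

noncomputable section

/-- (1) `j = p(t)/q(t) ∈ K₁ = L(t)`. -/
theorem sIB_kB_jE_mem (hfrac : sIB_K1FracStatement) (N : ℕ) [NeZero N] (L : Type) [Field L]
    [Algebra ℚ L] (W : ValuationSubring L) (k : Type) [Field k] (res : ↥W →+* k)
    (E : Type) [Field E] [Algebra ↥(FL L N) E] (t : E) (h : Polynomial ↥W)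
    (hcov : IsCoverBase W res N E t h) (hinj : Function.Injective (evWE W N E t)) :
    jE L N E ∈ sIB_K1 L N E t := by
  obtain ⟨hle, -⟩ := hfrac N L W E t h
  obtain ⟨p, q, hq, -, hpq⟩ := hcov.jrat
  have hq0 : q ≠ 0 := by
    rintro rfl
    exact hq (Polynomial.map_zero _)
  have hq1 : evWE W N E t q ≠ 0 := by
    intro h0
    exact hq0 (hinj (h0.trans (map_zero _).symm))
  have hp_mem : evWE W N E t p ∈ sIB_K1 L N E t := hle (sIB_evWE_mem W N E t h p)
  have hq_mem : evWE W N E t q ∈ sIB_K1 L N E t := hle (sIB_evWE_mem W N E t h q)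
  have hj : jE L N E = evWE W N E t p / evWE W N E t q := by
    rw [eq_div_iff hq1, mul_comm]
    exact hpq
  rw [hj]
  exact div_mem hp_mem hq_mem

/-- (2) `E = F(t)` is finite over `F` (`E / F` is Galois, so `t` is algebraic over `F`). -/
theorem sIB_kB_finite_F (N : ℕ) [NeZero N] (L : Type) [Field L]
    [Algebra ℚ L] (W : ValuationSubring L) (k : Type) [Field k] (res : ↥W →+* k)
    (E : Type) [Field E] [Algebra ↥(FL L N) E] (t : E) (h : Polynomial ↥W)
    (hcov : IsCoverBase W res N E t h) :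
    FiniteDimensional ↥(FL L N) E := by
  have := hcov.galois
  have hint : IsIntegral ↥(FL L N) t :=
    (IsGalois.to_normal (F := ↥(FL L N)) (E := E)).isIntegral t
  have hfin : FiniteDimensional ↥(FL L N) ↥(IntermediateField.adjoin ↥(FL L N) {t}) :=
    IntermediateField.adjoin.finiteDimensional hint
  rw [hcov.gen] at hfin
  exact Module.Finite.equiv
    (IntermediateField.topEquiv : (⊤ : IntermediateField ↥(FL L N) E) ≃ₐ[↥(FL L N)] E).toLinearEquiv

/-- (4) The image of `L(j) ⊆ F` in `E` lies in `K₁ = L(t)`. -/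
theorem sIB_kB_image_mem (N : ℕ) [NeZero N] (L : Type) [Field L]
    [Algebra ℚ L] (E : Type) [Field E] [Algebra ↥(FL L N) E] (t : E)
    (hj : jE L N E ∈ sIB_K1 L N E t)
    (x : ↥(FL L N)) (hx : x ∈ IntermediateField.adjoin L {jF L N}) :
    algebraMap ↥(FL L N) E x ∈ sIB_K1 L N E t := by
  let _ := sIB_algLE L N E
  have hle : Subfield.closure (Set.range (algebraMap L ↥(FL L N)) ∪ {jF L N}) ≤
      (sIB_K1 L N E t).comap (algebraMap ↥(FL L N) E) := by
    rw [Subfield.closure_le]
    rintro y (⟨c, rfl⟩ | hy)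
    · show algebraMap ↥(FL L N) E (algebraMap L ↥(FL L N) c) ∈ sIB_K1 L N E t
      exact (IntermediateField.adjoin L {t}).algebraMap_mem c
    · rw [Set.mem_singleton_iff] at hy
      subst hy
      exact hj
  exact hle hx

theorem sIB_kB_main : sIB_K1FracStatement → sIB_K1FinStatement := by
  intro hfrac N _ L _ _ W k _ res E _ _ t h hcov hinj hfin
  have hj : jE L N E ∈ sIB_K1 L N E t := sIB_kB_jE_mem hfrac N L W k res E t h hcov hinj
  refine ⟨hj, ?_⟩
  have hFE : FiniteDimensional ↥(FL L N) E := sIB_kB_finite_F N L W k res E t h hcov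
  have : Module.Finite ↥(IntermediateField.adjoin L {jF L N}) ↥(FL L N) := hfin
  have hLjE : Module.Finite ↥(IntermediateField.adjoin L {jF L N}) E :=
    Module.Finite.trans ↥(FL L N) E
  let ψ : ↥(IntermediateField.adjoin L {jF L N}) →+* ↥(sIB_K1 L N E t) :=
    RingHom.codRestrict (algebraMap ↥(IntermediateField.adjoin L {jF L N}) E) (sIB_K1 L N E t)
      (fun x => sIB_kB_image_mem N L E t hj (x : ↥(FL L N)) x.2)
  let algLK : Algebra ↥(IntermediateField.adjoin L {jF L N}) ↥(sIB_K1 L N E t) := ψ.toAlgebra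
  let smulLK : SMul ↥(IntermediateField.adjoin L {jF L N}) ↥(sIB_K1 L N E t) := algLK.toSMul
  have : IsScalarTower ↥(IntermediateField.adjoin L {jF L N}) ↥(sIB_K1 L N E t) E :=
    IsScalarTower.of_algebraMap_eq fun _ => rfl
  exact Module.Finite.of_restrictScalars_finite ↥(IntermediateField.adjoin L {jF L N})
    ↥(sIB_K1 L N E t) E

end

end Fermat.Agent.S18
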