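/-
S18 — block S-I (twin B), package LamA (Λ2): elementwise description of `Λ = W[t, 1/h(t)] ⊆ E`
(`coverRing W N E t h`) and noetherianity of `Λ`.  Prefix `sIB_lamA_`.

* `sIB_lamA_mem_iff`: for `h(t) ≠ 0`, `x ∈ Λ ↔ ∃ P n, x * h(t) ^ n = P(t)`.
* `sIB_lamA_noeth`: `Λ` is noetherian (a quotient of `W[X][Y]`).
* `sIB_lamA_main : sIB_LamStructStatement`.
-/
import Fermat.Agent.S18.SIBInterfaces

set_option autoImplicit false

open ModularCurve AlgebraicCurve Polynomial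

namespace Fermat.Agent.S18

noncomputable section

section

variable {L : Type} [Field L] [Algebra ℚ L] (W : ValuationSubring L) (N : ℕ)
  (E : Type) [Field E] [Algebra ↥(FL L N) E] (t : E) (h : Polynomial ↥W)

/-- The subring `{x | ∃ P n, x * h(t) ^ n = P(t)}` of `E`. -/
def sIB_lamA_sub : Subring E where
  carrier := {x | ∃ (P : Polynomial ↥W) (n : ℕ), x * evWE W N E t h ^ n = evWE W N E t P}
  mul_mem' := by
    rintro x y ⟨P, n, hP⟩ ⟨Q, m, hQ⟩
    refine ⟨P * Q, n + m, ?_⟩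
    rw [map_mul, ← hP, ← hQ, pow_add]
    ring
  one_mem' := ⟨1, 0, by rw [pow_zero, mul_one, map_one]⟩
  add_mem' := by
    rintro x y ⟨P, n, hP⟩ ⟨Q, m, hQ⟩
    refine ⟨P * h ^ m + Q * h ^ n, n + m, ?_⟩
    rw [map_add, map_mul, map_mul, map_pow, map_pow, ← hP, ← hQ, pow_add]
    ring
  zero_mem' := ⟨0, 0, by rw [zero_mul, map_zero]⟩
  neg_mem' := by
    rintro x ⟨P, n, hP⟩
    exact ⟨-P, n, by rw [map_neg, ← hP, neg_mul]⟩

theorem sIB_lamA_mem_sub_iff (x : E) :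
    x ∈ sIB_lamA_sub W N E t h ↔
      ∃ (P : Polynomial ↥W) (n : ℕ), x * evWE W N E t h ^ n = evWE W N E t P :=
  Iff.rfl

theorem sIB_lamA_evWE_C (w : ↥W) : evWE W N E t (C w) = cWE W N E w := by
  rw [evWE, coe_eval₂RingHom, eval₂_C]

theorem sIB_lamA_evWE_X : evWE W N E t X = t := by
  rw [evWE, coe_eval₂RingHom, eval₂_X]

/-- `Λ ⊆ {x | ∃ P n, x * h(t) ^ n = P(t)}` (for `h(t) ≠ 0`). -/
theorem sIB_lamA_le_sub (hH : evWE W N E t h ≠ 0) :
    coverRing W N E t h ≤ sIB_lamA_sub W N E t h := by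
  unfold coverRing baseRingE
  rw [Subring.closure_le]
  rintro y (⟨w, rfl⟩ | hy | hy)
  · exact ⟨C w, 0, by rw [pow_zero, mul_one, sIB_lamA_evWE_C]⟩
  · rw [hy]
    exact ⟨X, 0, by rw [pow_zero, mul_one, sIB_lamA_evWE_X]⟩
  · rw [Set.mem_singleton_iff] at hy
    rw [hy]
    exact ⟨1, 1, by rw [pow_one, inv_mul_cancel₀ hH, map_one]⟩

/-- (Λ2)(a): elementwise description of `Λ = W[t, 1/h(t)]`. -/
theorem sIB_lamA_mem_iff (hH : evWE W N E t h ≠ 0) (x : E) :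
    x ∈ coverRing W N E t h ↔
      ∃ (P : Polynomial ↥W) (n : ℕ), x * evWE W N E t h ^ n = evWE W N E t P := by
  constructor
  · intro hx
    exact sIB_lamA_le_sub W N E t h hH hx
  · rintro ⟨P, n, hP⟩
    have hx : x = evWE W N E t P * ((evWE W N E t h)⁻¹) ^ n := by
      rw [← hP, mul_assoc, ← mul_pow, mul_inv_cancel₀ hH, one_pow, mul_one]
    rw [hx]
    exact Subring.mul_mem _ (sIB_evWE_mem W N E t h P)
      (Subring.pow_mem _ (sIB_hinv_mem W N E t h) n)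

/-- The evaluation `W[X][Y] → E`, `X ↦ t`, `Y ↦ 1/h(t)`. -/
def sIB_lamA_phi : Polynomial (Polynomial ↥W) →+* E :=
  Polynomial.eval₂RingHom (evWE W N E t) (evWE W N E t h)⁻¹

theorem sIB_lamA_phi_mem (Q : Polynomial (Polynomial ↥W)) :
    sIB_lamA_phi W N E t h Q ∈ coverRing W N E t h := by
  rw [sIB_lamA_phi, coe_eval₂RingHom, eval₂_eq_sum_range]
  refine Subring.sum_mem _ fun i _ => ?_
  exact Subring.mul_mem _ (sIB_evWE_mem W N E t h _)
    (Subring.pow_mem _ (sIB_hinv_mem W N E t h) _)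

theorem sIB_lamA_phi_C_mul_X_pow (P : Polynomial ↥W) (n : ℕ) :
    sIB_lamA_phi W N E t h (C P * X ^ n) = evWE W N E t P * ((evWE W N E t h)⁻¹) ^ n := by
  rw [sIB_lamA_phi, coe_eval₂RingHom, eval₂_mul, eval₂_C, eval₂_X_pow]

/-- (Λ2)(b): `Λ = W[t, 1/h(t)]` is noetherian. -/
theorem sIB_lamA_noeth [IsDiscreteValuationRing ↥W] (hH : evWE W N E t h ≠ 0) :
    IsNoetherianRing ↥(coverRing W N E t h) := by
  let φ' : Polynomial (Polynomial ↥W) →+* ↥(coverRing W N E t h) :=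
    (sIB_lamA_phi W N E t h).codRestrict (coverRing W N E t h) (sIB_lamA_phi_mem W N E t h)
  have hsurj : Function.Surjective φ' := by
    rintro ⟨x, hx⟩
    obtain ⟨P, n, hP⟩ := (sIB_lamA_mem_iff W N E t h hH x).1 hx
    refine ⟨C P * X ^ n, Subtype.ext ?_⟩
    show sIB_lamA_phi W N E t h (C P * X ^ n) = x
    rw [sIB_lamA_phi_C_mul_X_pow, ← hP, mul_assoc, ← mul_pow, mul_inv_cancel₀ hH, one_pow,
      mul_one]
  exact isNoetherianRing_of_surjective _ _ φ' hsurj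

end

/-- (Λ2) Elementwise description of `Λ = W[t, 1/h(t)]`; `Λ` is noetherian. -/
theorem sIB_lamA_main : sIB_LamStructStatement := by
  intro N _ L _ _ W _ E _ _ t h hH
  exact ⟨sIB_lamA_mem_iff W N E t h hH, sIB_lamA_noeth W N E t h hH⟩

end

end Fermat.Agent.S18
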