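/-
S18 — block S-I (twin B), package LamB (Λ3): reduction mod `ϖ` on `Λ = W[t, 1/h(t)]`;
`ϖ Λ` is a nonzero prime ideal.  Prefix `sIB_lamB_`.
-/
import Fermat.Agent.S18.SIBInterfaces

set_option autoImplicit false

open ModularCurve AlgebraicCurve Polynomial

namespace Fermat.Agent.S18

/-- Key fact (R): `P.map res = 0 ↔ ∃ P₁, P = C ϖ * P₁` when `ker res = (ϖ)`. -/
theorem sIB_lamB_map_eq_zero_iff {R : Type} [CommRing R] {k : Type} [Field k]
    (res : R →+* k) (ϖ : R) (hker : RingHom.ker res = Ideal.span {ϖ}) (P : Polynomial R) :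
    P.map res = 0 ↔ ∃ P₁ : Polynomial R, P = C ϖ * P₁ := by
  have h1 : P.map res = 0 ↔ P ∈ RingHom.ker (Polynomial.mapRingHom res) := by
    rw [RingHom.mem_ker, Polynomial.coe_mapRingHom]
  rw [h1, Polynomial.ker_mapRingHom, hker, Ideal.map_span, Set.image_singleton,
    Ideal.mem_span_singleton']
  constructor
  · rintro ⟨a, ha⟩
    exact ⟨a, by rw [← ha, mul_comm]⟩
  · rintro ⟨a, ha⟩
    exact ⟨a, by rw [ha, mul_comm]⟩

/-- `evWE` of a constant polynomial. -/
theorem sIB_lamB_evWE_C {L : Type} [Field L] [Algebra ℚ L] (W : ValuationSubring L) (N : ℕ)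
    (E : Type) [Field E] [Algebra ↥(FL L N) E] (t : E) (w : ↥W) :
    evWE W N E t (C w) = cWE W N E w := by
  rw [evWE, coe_eval₂RingHom, eval₂_C]

/-- `cWE` is injective. -/
theorem sIB_lamB_cWE_injective {L : Type} [Field L] [Algebra ℚ L] (W : ValuationSubring L) (N : ℕ)
    (E : Type) [Field E] [Algebra ↥(FL L N) E] :
    Function.Injective (cWE W N E) := by
  intro x y hxy
  have h1 : algebraMap ↥(FL L N) E (cW W N x) = algebraMap ↥(FL L N) E (cW W N y) := hxy
  have h2 : cW W N x = cW W N y := (algebraMap ↥(FL L N) E).injective h1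
  have h3 : algebraMap L ↥(FL L N) (x : L) = algebraMap L ↥(FL L N) (y : L) := h2
  exact Subtype.ext ((algebraMap L ↥(FL L N)).injective h3)

/-- (Λ3) Reduction mod `ϖ` on `Λ`; `ϖ Λ` is a nonzero prime ideal. -/
theorem sIB_lamB_main : sIB_LamStructStatement → sIB_LamRedStatement := by
  intro hS N _ ℓ _ L _ _ W _ k _ _ _ res ϖ hD E _ _ t h hinj hres
  have hh : h ≠ 0 := by
    rintro rfl
    exact hres (Polynomial.map_zero _)
  have hH0 : evWE W N E t h ≠ 0 := by
    intro h0
    apply hh
    apply hinj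
    rw [h0, map_zero]
  obtain ⟨helt, -⟩ := hS N L W E t h hH0
  have hresϖ : res ϖ = 0 := by
    have hmem : ϖ ∈ RingHom.ker res := by
      rw [hD.ker_res]
      exact Ideal.mem_span_singleton_self ϖ
    exact hmem
  have key : ∀ (a : ↥(coverRing W N E t h)) (P : Polynomial ↥W) (n : ℕ),
      (a : E) * evWE W N E t h ^ n = evWE W N E t P →
      (a ∈ Ideal.span {sIB_pi W N E t h ϖ} ↔ P.map res = 0) := by
    intro a P n haP
    constructor
    · intro ha
      rw [Ideal.mem_span_singleton'] at ha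
      obtain ⟨b, hb⟩ := ha
      obtain ⟨Q, m, hQ⟩ := (helt (b : E)).1 b.2
      have hb' : (b : E) * cWE W N E ϖ = (a : E) := by
        have hb2 := congrArg Subtype.val hb
        simpa using hb2
      have heq : evWE W N E t (P * h ^ m) = evWE W N E t (C ϖ * Q * h ^ n) := by
        rw [map_mul, map_mul, map_mul, map_pow, map_pow, ← haP, ← hQ, ← hb',
          sIB_lamB_evWE_C]
        ring
      have heq' := hinj heq
      have hmap := congrArg (Polynomial.map res) heq'
      simp only [Polynomial.map_mul, Polynomial.map_pow, Polynomial.map_C, hresϖ, map_zero,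
        zero_mul] at hmap
      rcases mul_eq_zero.1 hmap with h1 | h1
      · exact h1
      · exact absurd (eq_zero_of_pow_eq_zero h1) hres
    · intro hP
      obtain ⟨P₁, rfl⟩ := (sIB_lamB_map_eq_zero_iff res ϖ hD.ker_res P).1 hP
      rw [Ideal.mem_span_singleton']
      refine ⟨⟨evWE W N E t P₁ * ((evWE W N E t h)⁻¹) ^ n,
        Subring.mul_mem _ (sIB_evWE_mem W N E t h P₁)
          (Subring.pow_mem _ (sIB_hinv_mem W N E t h) n)⟩, ?_⟩
      apply Subtype.ext
      rw [Subring.coe_mul, sIB_coe_pi]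
      rw [map_mul, sIB_lamB_evWE_C] at haP
      have hHn : evWE W N E t h ^ n ≠ 0 := pow_ne_zero n hH0
      have ha : (a : E) = cWE W N E ϖ * evWE W N E t P₁ * ((evWE W N E t h)⁻¹) ^ n := by
        rw [← haP, inv_pow, mul_assoc, mul_inv_cancel₀ hHn, mul_one]
      rw [ha]
      ring
  refine ⟨key, ?_, ?_⟩
  · intro h0
    have h1 : cWE W N E ϖ = 0 := by
      have h2 := congrArg Subtype.val h0
      simpa using h2
    have h3 : ϖ = 0 := sIB_lamB_cWE_injective W N E (by rw [h1, map_zero])
    exact hD.irreducible.ne_zero h3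
  · rw [Ideal.isPrime_iff]
    constructor
    · intro htop
      have h1 : (1 : ↥(coverRing W N E t h)) ∈ Ideal.span {sIB_pi W N E t h ϖ} := by
        rw [htop]
        exact Submodule.mem_top
      have h2 := (key 1 1 0 (by simp)).1 h1
      rw [Polynomial.map_one] at h2
      exact one_ne_zero h2
    · intro a b hab
      obtain ⟨P, n, hP⟩ := (helt (a : E)).1 a.2
      obtain ⟨Q, m, hQ⟩ := (helt (b : E)).1 b.2
      have hPQ : ((a * b : ↥(coverRing W N E t h)) : E) * evWE W N E t h ^ (n + m)
          = evWE W N E t (P * Q) := by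
        rw [map_mul, ← hP, ← hQ, Subring.coe_mul, pow_add]
        ring
      have h1 := (key (a * b) (P * Q) (n + m) hPQ).1 hab
      rw [Polynomial.map_mul] at h1
      rcases mul_eq_zero.1 h1 with h2 | h2
      · exact Or.inl ((key a P n hP).2 h2)
      · exact Or.inr ((key b Q m hQ).2 h2)

end Fermat.Agent.S18
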