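/-
S18 — block S-I (twin B), package SIB/LamC (Λ4): the maximal ideals of `Λ = W[t, 1/h(t)]` containing `ϖ`.
Prefix `sIB_lamC_`.

The argument is carried out in an abstract setting: `R` a commutative ring (`= W`), `res : R →+* k`
surjective onto an algebraically closed field with kernel `(ϖ)`, `ev : R[X] →+* A` an injective ring
homomorphism (`P ↦ P(t)`), `ev h` a unit of `A`, every element of `A` of the form `ev P / ev h ^ n`, and
`ev P / ev h ^ n ∈ ϖ A ↔ P mod ϖ = 0`.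
-/
import Fermat.Agent.S18.SIBInterfaces

set_option autoImplicit false

open ModularCurve AlgebraicCurve Polynomial

namespace Fermat.Agent.S18

section Abstract

variable {R k A : Type} [CommRing R] [Field k] [CommRing A]
  (res : R →+* k) (ϖ : R) (ev : R[X] →+* A) (h : R[X])

/-- (R) `P mod ϖ = 0` iff `P` is divisible by `ϖ`. -/
theorem sIB_lamC_map_eq_zero_iff (hker : RingHom.ker res = Ideal.span {ϖ}) (P : R[X]) :
    P.map res = 0 ↔ ∃ P₁ : R[X], P = C ϖ * P₁ := by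
  have h1 : P.map res = 0 ↔ P ∈ RingHom.ker (mapRingHom res) := by
    rw [RingHom.mem_ker, coe_mapRingHom]
  rw [h1, ker_mapRingHom, hker, Ideal.map_span, Set.image_singleton, Ideal.mem_span_singleton']
  constructor
  · rintro ⟨a, ha⟩
    exact ⟨a, by rw [← ha, mul_comm]⟩
  · rintro ⟨a, ha⟩
    exact ⟨a, by rw [ha, mul_comm]⟩

/-- `ev h` is a unit, so `a = ev P / ev h ^ n` lies in an ideal iff `ev P` does. -/
theorem sIB_lamC_mem_iff (hH : IsUnit (ev h)) (I : Ideal A) {a : A} {P : R[X]} {n : ℕ}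
    (haP : a * ev h ^ n = ev P) : a ∈ I ↔ ev P ∈ I := by
  rw [← haP]
  exact (I.mul_unit_mem_iff_mem (hH.pow n)).symm

/-- A proper ideal containing `ϖ` contains no constant which is a unit mod `ϖ`. -/
theorem sIB_lamC_res_eq_zero (hsurj : Function.Surjective res)
    (hker : RingHom.ker res = Ideal.span {ϖ}) {I : Ideal A} (hI : I ≠ ⊤) (hπ : ev (C ϖ) ∈ I)
    {r : R} (hr : ev (C r) ∈ I) : res r = 0 := by
  by_contra hne
  obtain ⟨s, hs⟩ := hsurj (res r)⁻¹
  have h1 : r * s - 1 ∈ RingHom.ker res := by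
    rw [RingHom.mem_ker, map_sub, map_mul, hs, mul_inv_cancel₀ hne, map_one, sub_self]
  rw [hker, Ideal.mem_span_singleton'] at h1
  obtain ⟨w, hw⟩ := h1
  apply hI
  rw [Ideal.eq_top_iff_one]
  have h2 : (1 : A) = ev (C r) * ev (C s) - ev (C w) * ev (C ϖ) := by
    have h3 : (1 : R[X]) = C r * C s - C w * C ϖ := by
      rw [← C_mul, ← C_mul, ← C_sub, hw, sub_sub_cancel, C_1]
    have h4 := congrArg ev h3
    simp only [map_one, map_sub, map_mul] at h4
    exact h4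
  rw [h2]
  exact I.sub_mem (I.mul_mem_right _ hr) (I.mul_mem_left _ hπ)

/-- A proper ideal containing `ϖ` and `t - ĉ` is contained in `(ϖ, t - ĉ)`. -/
theorem sIB_lamC_le_span (hsurj : Function.Surjective res)
    (hker : RingHom.ker res = Ideal.span {ϖ}) (hH : IsUnit (ev h))
    (helt : ∀ a : A, ∃ (P : R[X]) (n : ℕ), a * ev h ^ n = ev P)
    {I : Ideal A} (hI : I ≠ ⊤) (hπ : ev (C ϖ) ∈ I) {ĉ : R} (hx : ev (X - C ĉ) ∈ I) :
    I ≤ Ideal.span {ev (C ϖ), ev (X - C ĉ)} := by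
  intro a ha
  obtain ⟨P, n, haP⟩ := helt a
  rw [sIB_lamC_mem_iff ev h hH _ haP] at ha ⊢
  have hdiv : C (P.eval ĉ) + (X - C ĉ) * (P /ₘ (X - C ĉ)) = P := by
    have := modByMonic_add_div P (X - C ĉ)
    rwa [modByMonic_X_sub_C_eq_C_eval] at this
  have hr : ev (C (P.eval ĉ)) ∈ I := by
    have h3 : ev (C (P.eval ĉ)) = ev P - ev (X - C ĉ) * ev (P /ₘ (X - C ĉ)) := by
      rw [← map_mul, ← map_sub]
      congr 1
      rw [eq_sub_iff_add_eq]
      exact hdiv
    rw [h3]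
    exact I.sub_mem ha (I.mul_mem_right _ hx)
  have h0 := sIB_lamC_res_eq_zero res ϖ ev hsurj hker hI hπ hr
  have h1 : P.eval ĉ ∈ RingHom.ker res := h0
  rw [hker, Ideal.mem_span_singleton'] at h1
  obtain ⟨w, hw⟩ := h1
  have h5 : ev P = ev (C w) * ev (C ϖ) + ev (X - C ĉ) * ev (P /ₘ (X - C ĉ)) := by
    have h6 : P = C w * C ϖ + (X - C ĉ) * (P /ₘ (X - C ĉ)) := by
      rw [← C_mul, hw]
      exact hdiv.symm
    have h7 := congrArg ev h6
    simp only [map_add, map_mul] at h7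
    exact h7
  rw [h5]
  exact Ideal.add_mem _
    (Ideal.mul_mem_left _ _ (Ideal.subset_span (Set.mem_insert _ _)))
    (Ideal.mul_mem_right _ _ (Ideal.subset_span (Set.mem_insert_of_mem _ rfl)))

/-- Induction on the degree: a prime ideal containing `ϖ` and some `ev P` with `P mod ϖ ≠ 0` contains
some `t - ĉ`. -/
theorem sIB_lamC_exists_linear_aux [IsAlgClosed k] (hsurj : Function.Surjective res)
    (hker : RingHom.ker res = Ideal.span {ϖ}) {𝔭 : Ideal A} (hp : 𝔭.IsPrime)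
    (hπ : ev (C ϖ) ∈ 𝔭) :
    ∀ (n : ℕ) (P : R[X]), (P.map res).natDegree = n → P.map res ≠ 0 → ev P ∈ 𝔭 →
      ∃ ĉ : R, ev (X - C ĉ) ∈ 𝔭 := by
  intro n
  induction n with
  | zero =>
    intro P hdeg hne hP
    exfalso
    rw [natDegree_eq_zero] at hdeg
    obtain ⟨a, ha⟩ := hdeg
    obtain ⟨â, hâ⟩ := hsurj a
    have h1 : (P - C â).map res = 0 := by
      rw [Polynomial.map_sub, map_C, hâ, ha, sub_self]
    obtain ⟨P₁, hP₁⟩ := (sIB_lamC_map_eq_zero_iff res ϖ hker _).1 h1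
    have hmem : ev (C â) ∈ 𝔭 := by
      have h2 : ev (C â) = ev P - ev (C ϖ) * ev P₁ := by
        rw [← map_mul, ← hP₁, ← map_sub]
        simp
      rw [h2]
      exact 𝔭.sub_mem hP (𝔭.mul_mem_right _ hπ)
    have h3 := sIB_lamC_res_eq_zero res ϖ ev hsurj hker hp.ne_top hπ hmem
    apply hne
    rw [← ha, ← hâ, h3, C_0]
  | succ n ih =>
    intro P hdeg hne hP
    obtain ⟨c, hc⟩ := IsAlgClosed.exists_root (P.map res) (by
      rw [degree_eq_natDegree hne, hdeg]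
      exact_mod_cast Nat.succ_ne_zero n)
    rw [← dvd_iff_isRoot] at hc
    obtain ⟨Qb, hQb⟩ := hc
    obtain ⟨Q, hQ⟩ := Polynomial.map_surjective res hsurj Qb
    obtain ⟨ĉ, hĉ⟩ := hsurj c
    have hQb0 : Qb ≠ 0 := by
      rintro rfl
      apply hne
      rw [hQb, mul_zero]
    have h1 : (P - (X - C ĉ) * Q).map res = 0 := by
      rw [Polynomial.map_sub, Polynomial.map_mul, Polynomial.map_sub, map_X, map_C, hĉ, hQ, hQb,
        sub_self]
    obtain ⟨P₁, hP₁⟩ := (sIB_lamC_map_eq_zero_iff res ϖ hker _).1 h1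
    have hmem : ev (X - C ĉ) * ev Q ∈ 𝔭 := by
      have h2 : ev (X - C ĉ) * ev Q = ev P - ev (C ϖ) * ev P₁ := by
        rw [← map_mul, ← map_mul, ← hP₁, ← map_sub]
        simp
      rw [h2]
      exact 𝔭.sub_mem hP (𝔭.mul_mem_right _ hπ)
    rcases hp.mem_or_mem hmem with h3 | h3
    · exact ⟨ĉ, h3⟩
    · refine ih Q ?_ ?_ h3
      · rw [hQ]
        have h4 := congrArg natDegree hQb
        rw [natDegree_mul (X_sub_C_ne_zero c) hQb0, natDegree_X_sub_C, hdeg] at h4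
        omega
      · rw [hQ]
        exact hQb0

/-- A prime ideal containing `ϖ` and different from `(ϖ)` contains some `t - ĉ`. -/
theorem sIB_lamC_exists_linear [IsAlgClosed k] (hsurj : Function.Surjective res)
    (hker : RingHom.ker res = Ideal.span {ϖ}) (hH : IsUnit (ev h))
    (helt : ∀ a : A, ∃ (P : R[X]) (n : ℕ), a * ev h ^ n = ev P)
    (hred : ∀ (a : A) (P : R[X]) (n : ℕ), a * ev h ^ n = ev P →
      (a ∈ Ideal.span {ev (C ϖ)} ↔ P.map res = 0))
    {𝔭 : Ideal A} (hp : 𝔭.IsPrime) (hπ : ev (C ϖ) ∈ 𝔭) (hne : 𝔭 ≠ Ideal.span {ev (C ϖ)}) :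
    ∃ ĉ : R, ev (X - C ĉ) ∈ 𝔭 := by
  have hle : Ideal.span {ev (C ϖ)} ≤ 𝔭 := (Ideal.span_singleton_le_iff_mem _).2 hπ
  have hnle : ¬ 𝔭 ≤ Ideal.span {ev (C ϖ)} := fun hle' => hne (le_antisymm hle' hle)
  obtain ⟨a, ha, ha'⟩ := SetLike.not_le_iff_exists.1 hnle
  obtain ⟨P, n, haP⟩ := helt a
  exact sIB_lamC_exists_linear_aux res ϖ ev hsurj hker hp hπ _ P rfl
    (fun h0 => ha' ((hred a P n haP).2 h0)) ((sIB_lamC_mem_iff ev h hH _ haP).1 ha)

/-- `t - ĉ` is not in `(ϖ)`. -/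
theorem sIB_lamC_linear_not_mem
    (hred : ∀ (a : A) (P : R[X]) (n : ℕ), a * ev h ^ n = ev P →
      (a ∈ Ideal.span {ev (C ϖ)} ↔ P.map res = 0)) (ĉ : R) :
    ev (X - C ĉ) ∉ Ideal.span {ev (C ϖ)} := by
  intro hmem
  have h1 := (hred (ev (X - C ĉ)) (X - C ĉ) 0 (by rw [pow_zero, mul_one])).1 hmem
  rw [Polynomial.map_sub, map_X, map_C] at h1
  exact X_sub_C_ne_zero _ h1

/-- (iii) `(ϖ)` is not a maximal ideal. -/
theorem sIB_lamC_not_isMaximal [IsAlgClosed k] (hsurj : Function.Surjective res)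
    (hker : RingHom.ker res = Ideal.span {ϖ})
    (helt : ∀ a : A, ∃ (P : R[X]) (n : ℕ), a * ev h ^ n = ev P)
    (hred : ∀ (a : A) (P : R[X]) (n : ℕ), a * ev h ^ n = ev P →
      (a ∈ Ideal.span {ev (C ϖ)} ↔ P.map res = 0))
    (hinj : Function.Injective ev) (hres : h.map res ≠ 0) :
    ¬ (Ideal.span {ev (C ϖ)}).IsMaximal := by
  intro hmax
  obtain ⟨c, hc⟩ : ∃ c : k, (h.map res).eval c ≠ 0 := by
    by_contra hcon
    apply hres
    apply Polynomial.funext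
    intro c
    rw [eval_zero]
    by_contra hc
    exact hcon ⟨c, hc⟩
  obtain ⟨ĉ, hĉ⟩ := hsurj c
  have hx := sIB_lamC_linear_not_mem res ϖ ev h hred ĉ
  have htop : Ideal.span {ev (C ϖ), ev (X - C ĉ)} = ⊤ := by
    by_contra hntop
    have h1 := hmax.eq_of_le hntop (Ideal.span_mono (Set.singleton_subset_iff.2 (Set.mem_insert _ _)))
    apply hx
    rw [h1]
    exact Ideal.subset_span (Set.mem_insert_of_mem _ rfl)
  have hone : (1 : A) ∈ Ideal.span {ev (C ϖ), ev (X - C ĉ)} := by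
    rw [htop]
    exact Submodule.mem_top
  rw [Ideal.mem_span_pair] at hone
  obtain ⟨a, b, hab⟩ := hone
  obtain ⟨P₁, n₁, h1⟩ := helt a
  obtain ⟨P₂, n₂, h2⟩ := helt b
  have hev : ev (h ^ n₁ * h ^ n₂) = ev (P₁ * h ^ n₂ * C ϖ + P₂ * h ^ n₁ * (X - C ĉ)) := by
    rw [map_add, map_mul, map_mul, map_mul, map_mul, map_mul, map_pow, map_pow, ← h1, ← h2]
    calc ev h ^ n₁ * ev h ^ n₂ = (a * ev (C ϖ) + b * ev (X - C ĉ)) * (ev h ^ n₁ * ev h ^ n₂) := by
          rw [hab, one_mul]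
      _ = _ := by ring
  have hpoly := hinj hev
  have hϖ : res ϖ = 0 := by
    have : ϖ ∈ RingHom.ker res := by
      rw [hker]
      exact Ideal.subset_span rfl
    exact this
  have h3 := congrArg (fun P : R[X] => (P.map res).eval c) hpoly
  simp only [Polynomial.map_mul, Polynomial.map_add, Polynomial.map_pow, Polynomial.map_sub, map_X,
    map_C, eval_mul, eval_add, eval_pow, eval_sub, eval_X, eval_C, hϖ, hĉ, sub_self, mul_zero,
    add_zero] at h3
  exact mul_ne_zero (pow_ne_zero _ hc) (pow_ne_zero _ hc) h3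

/-- (Λ4), abstract form. -/
theorem sIB_lamC_abstract [IsAlgClosed k] (hsurj : Function.Surjective res)
    (hker : RingHom.ker res = Ideal.span {ϖ}) (hH : IsUnit (ev h))
    (helt : ∀ a : A, ∃ (P : R[X]) (n : ℕ), a * ev h ^ n = ev P)
    (hred : ∀ (a : A) (P : R[X]) (n : ℕ), a * ev h ^ n = ev P →
      (a ∈ Ideal.span {ev (C ϖ)} ↔ P.map res = 0))
    (hinj : Function.Injective ev) (hres : h.map res ≠ 0) :
    (∀ 𝔫 : Ideal A, 𝔫.IsMaximal → ev (C ϖ) ∈ 𝔫 →
      ∃ x : A, x ∉ Ideal.span {ev (C ϖ)} ∧ 𝔫 = Ideal.span {ev (C ϖ), x}) ∧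
    (∀ 𝔭 𝔫 : Ideal A, 𝔭.IsPrime → 𝔫.IsMaximal → ev (C ϖ) ∈ 𝔭 → 𝔭 ≤ 𝔫 →
      𝔭 = Ideal.span {ev (C ϖ)} ∨ 𝔭 = 𝔫) := by
  have hpair : ∀ (I : Ideal A) (ĉ : R), ev (C ϖ) ∈ I → ev (X - C ĉ) ∈ I →
      Ideal.span {ev (C ϖ), ev (X - C ĉ)} ≤ I := by
    intro I ĉ h1 h2
    rw [Ideal.span_le]
    intro y hy
    rcases hy with rfl | hy
    · exact h1
    · rw [Set.mem_singleton_iff] at hy
      rw [hy]
      exact h2
  constructor
  · intro 𝔫 hmax hπ
    have hne : 𝔫 ≠ Ideal.span {ev (C ϖ)} := by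
      intro heq
      rw [heq] at hmax
      exact sIB_lamC_not_isMaximal res ϖ ev h hsurj hker helt hred hinj hres hmax
    obtain ⟨ĉ, hĉ⟩ :=
      sIB_lamC_exists_linear res ϖ ev h hsurj hker hH helt hred hmax.isPrime hπ hne
    exact ⟨ev (X - C ĉ), sIB_lamC_linear_not_mem res ϖ ev h hred ĉ,
      le_antisymm (sIB_lamC_le_span res ϖ ev h hsurj hker hH helt hmax.ne_top hπ hĉ)
        (hpair 𝔫 ĉ hπ hĉ)⟩
  · intro 𝔭 𝔫 hp hmax hπ hle
    by_cases hne : 𝔭 = Ideal.span {ev (C ϖ)}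
    · exact Or.inl hne
    · right
      obtain ⟨ĉ, hĉ⟩ := sIB_lamC_exists_linear res ϖ ev h hsurj hker hH helt hred hp hπ hne
      exact le_antisymm hle
        ((sIB_lamC_le_span res ϖ ev h hsurj hker hH helt hmax.ne_top (hle hπ) (hle hĉ)).trans
          (hpair 𝔭 ĉ hπ hĉ))

end Abstract

/-- (Λ4) The maximal ideals of `Λ` containing `ϖ`. -/
theorem sIB_lamC_main : sIB_LamStructStatement → sIB_LamRedStatement → sIB_LamMaxStatement := by
  intro hstruct hredS N _ ℓ _ L _ _ W _ k _ _ _ res ϖ hD E _ _ t h hinj hres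
  have hh0 : evWE W N E t h ≠ 0 := by
    intro h0
    apply hres
    have h1 : h = 0 := hinj (by rw [h0, map_zero])
    rw [h1, Polynomial.map_zero]
  obtain ⟨helt, -⟩ := hstruct N L W E t h hh0
  obtain ⟨hred, -, -⟩ := hredS N ℓ L W k res ϖ hD E t h hinj hres
  have hev : ∃ ev : Polynomial ↥W →+* ↥(coverRing W N E t h),
      ∀ P, ((ev P : ↥(coverRing W N E t h)) : E) = evWE W N E t P :=
    ⟨(evWE W N E t).codRestrict (coverRing W N E t h) (sIB_evWE_mem W N E t h), fun _ => rfl⟩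
  obtain ⟨ev, hevP⟩ := hev
  have hπ : ev (C ϖ) = sIB_pi W N E t h ϖ := by
    apply Subtype.ext
    rw [hevP, sIB_coe_pi, evWE, coe_eval₂RingHom, eval₂_C]
  have hH : IsUnit (ev h) := by
    refine IsUnit.of_mul_eq_one ⟨(evWE W N E t h)⁻¹, sIB_hinv_mem W N E t h⟩ ?_
    apply Subtype.ext
    rw [Subring.coe_mul, hevP, Subring.coe_one]
    exact mul_inv_cancel₀ hh0
  have helt' : ∀ a : ↥(coverRing W N E t h), ∃ (P : Polynomial ↥W) (n : ℕ),
      a * ev h ^ n = ev P := by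
    intro a
    obtain ⟨P, n, hP⟩ := (helt (a : E)).1 a.2
    refine ⟨P, n, Subtype.ext ?_⟩
    rw [Subring.coe_mul, Subring.coe_pow, hevP, hevP]
    exact hP
  have hred' : ∀ (a : ↥(coverRing W N E t h)) (P : Polynomial ↥W) (n : ℕ),
      a * ev h ^ n = ev P → (a ∈ Ideal.span {ev (C ϖ)} ↔ P.map res = 0) := by
    intro a P n haP
    rw [hπ]
    refine hred a P n ?_
    have h1 := congrArg Subtype.val haP
    rw [Subring.coe_mul, Subring.coe_pow, hevP, hevP] at h1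
    exact h1
  have hinj' : Function.Injective ev := by
    intro P Q hPQ
    apply hinj
    rw [← hevP, ← hevP, hPQ]
  have key := sIB_lamC_abstract res ϖ ev h hD.res_surjective hD.ker_res hH helt' hred' hinj' hres
  rw [hπ] at key
  exact key

end Fermat.Agent.S18
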