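/-
S18 — block S-I (twin B), package Loc, part (T-loc): a `K₁`-basis of `E` integral over
`Λ_𝔭 = locSub Λ 𝔭` with unit discriminant gives `UnramAtPrime Λ K₁ 𝔭`.  Prefix `sIB_loc_`.
-/
import Fermat.Agent.S18.SIBInterfaces

set_option autoImplicit false

open ModularCurve AlgebraicCurve Polynomial

namespace Fermat.Agent.S18

/-- An element integral over `locSub Λ 𝔭` becomes integral over `Λ` after multiplication by some
`s ∉ 𝔭`. -/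
theorem sIB_loc_clear_denom {E : Type} [Field E] (Λ : Subring E) (𝔭 : Ideal ↥Λ) [𝔭.IsPrime]
    (x : E) (hx : IsIntegral ↥(locSub Λ 𝔭) x) :
    ∃ s : ↥Λ, s ∉ 𝔭 ∧ IsIntegral ↥Λ ((s : E) * x) := by
  let _ : Algebra ↥Λ ↥(locSub Λ 𝔭) := (Subring.inclusion (le_locSub Λ 𝔭)).toAlgebra
  have : IsScalarTower ↥Λ ↥(locSub Λ 𝔭) E := IsScalarTower.of_algebraMap_eq fun _ => rfl
  have : IsLocalization.AtPrime ↥(locSub Λ 𝔭) 𝔭 := locSubB_isLocalization Λ 𝔭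
  obtain ⟨m, hm⟩ := IsIntegral.exists_multiple_integral_of_isLocalization 𝔭.primeCompl
    (Rₘ := ↥(locSub Λ 𝔭)) x hx
  refine ⟨m.1, m.2, ?_⟩
  have h1 : m • x = ((m.1 : ↥Λ) : E) * x := rfl
  rw [← h1]
  exact hm

/-- (T-loc) -/
theorem sIB_loc_unram : sIB_LocUnramStatement := by
  intro E _ Λ K₁ 𝔭 _ r c hli hsp hint hdisc
  refine ⟨r, c, hli, hsp, fun i => sIB_loc_clear_denom Λ 𝔭 (c i) (hint i), ?_⟩
  obtain ⟨u, hu, v, hv, huv, hd⟩ := hdisc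
  have hunit : IsUnit (⟨u, hu⟩ : ↥(locSub Λ 𝔭)) :=
    IsUnit.of_mul_eq_one ⟨v, hv⟩ (Subtype.ext huv)
  obtain ⟨a, s, ha, hs, h⟩ := (locSubB_isUnit_iff Λ 𝔭 _).1 hunit
  refine ⟨a, s, ha, hs, ?_⟩
  rw [hd, mul_comm]
  exact h

end Fermat.Agent.S18
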