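/-
S18 — block S-I (twin B), package Loc, part (V2): `Λ_ϖ = locSub Λ (ϖ)` is contained in `K₁`,
integrally closed in `K₁`, and `ϖ` is not a unit of it.  Prefix `sIB_loc_`.
-/
import Fermat.Agent.S18.SIBInterfaces

set_option autoImplicit false

open ModularCurve AlgebraicCurve Polynomial

namespace Fermat.Agent.S18

/-- Abstract form of (V2): `Λ ⊆ K₁ = Frac Λ ⊆ E` noetherian, `π ≠ 0` with `(π)` prime.  Then
`R = locSub Λ (π)` lies in `K₁`, is integrally closed in `K₁`, and `π⁻¹ ∉ R`. -/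
theorem sIB_loc_abs {E : Type} [Field E] (Λ : Subring E) (K₁ : Subfield E) [IsNoetherianRing ↥Λ]
    (π : ↥Λ) (hπ : π ≠ 0) [hp : (Ideal.span {π}).IsPrime]
    (hle : Λ ≤ K₁.toSubring)
    (hfrac : ∀ x ∈ K₁, ∃ a ∈ Λ, ∃ b ∈ Λ, b ≠ 0 ∧ x * b = a) :
    locSub Λ (Ideal.span {π}) ≤ K₁.toSubring ∧
    (∀ x ∈ K₁, IsIntegral ↥(locSub Λ (Ideal.span {π})) x → x ∈ locSub Λ (Ideal.span {π})) ∧
    (π : E)⁻¹ ∉ locSub Λ (Ideal.span {π}) := by
  have hπ0 : (π : E) ≠ 0 := fun h0 => hπ (Subtype.ext h0)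
  -- (a)
  have hRK : locSub Λ (Ideal.span {π}) ≤ K₁.toSubring := by
    rintro x ⟨a, s, hs, hxs⟩
    have hs0 : (s : E) ≠ 0 := by
      intro h0
      apply hs
      have : s = 0 := Subtype.ext h0
      rw [this]; exact Ideal.zero_mem _
    have hx : x = (a : E) / (s : E) := by rw [eq_div_iff hs0]; exact hxs
    rw [hx]
    exact K₁.div_mem (hle a.2) (hle s.2)
  refine ⟨hRK, ?_, ?_⟩
  · -- (b)
    intro x hx hint
    have hloc : IsLocalRing ↥(locSub Λ (Ideal.span {π})) := locSubB_isLocalRing _ _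
    have hnoeth : IsNoetherianRing ↥(locSub Λ (Ideal.span {π})) := locSubB_isNoetherianRing _ _
    have hmax : IsLocalRing.maximalIdeal ↥(locSub Λ (Ideal.span {π})) =
        Ideal.span {(⟨(π : E), le_locSub _ _ π.2⟩ : ↥(locSub Λ (Ideal.span {π})))} := by
      rw [locSubB_maximalIdeal_eq_map, Ideal.map_span, Set.image_singleton]; rfl
    have hnil : ¬ IsNilpotent (⟨(π : E), le_locSub _ _ π.2⟩ : ↥(locSub Λ (Ideal.span {π}))) := by
      intro hn
      have h0 := hn.eq_zero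
      exact hπ0 (congrArg Subtype.val h0)
    obtain ⟨hdom, hdvr⟩ := locSubB_dvr _ hmax hnil
    have hic : IsIntegrallyClosed ↥(locSub Λ (Ideal.span {π})) := inferInstance
    let _ : Algebra ↥(locSub Λ (Ideal.span {π})) ↥K₁ :=
      (RingHom.codRestrict (locSub Λ (Ideal.span {π})).subtype K₁ (fun x => hRK x.2)).toAlgebra
    have htower : IsScalarTower ↥(locSub Λ (Ideal.span {π})) ↥K₁ E :=
      IsScalarTower.of_algebraMap_eq fun _ => rfl
    have hfaith : FaithfulSMul ↥(locSub Λ (Ideal.span {π})) ↥K₁ :=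
      (faithfulSMul_iff_algebraMap_injective _ _).2
        (fun a b hab => Subtype.ext (congrArg (fun z : ↥K₁ => (z : E)) hab))
    have hfr : IsFractionRing ↥(locSub Λ (Ideal.span {π})) ↥K₁ := by
      refine IsFractionRing.of_field _ _ (fun z => ?_)
      obtain ⟨a, ha, b, hb, hb0, hab⟩ := hfrac z z.2
      refine ⟨⟨a, le_locSub _ _ ha⟩, ⟨b, le_locSub _ _ hb⟩, ?_⟩
      apply Subtype.ext
      have h1 : ((algebraMap ↥(locSub Λ (Ideal.span {π})) ↥K₁ ⟨a, le_locSub _ _ ha⟩ /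
          algebraMap ↥(locSub Λ (Ideal.span {π})) ↥K₁ ⟨b, le_locSub _ _ hb⟩ : ↥K₁) : E) = a / b := rfl
      rw [h1, eq_div_iff hb0]
      exact hab
    have hint' : IsIntegral ↥(locSub Λ (Ideal.span {π})) (⟨x, hx⟩ : ↥K₁) :=
      (isIntegral_algebraMap_iff (A := ↥K₁) (B := E) (algebraMap ↥K₁ E).injective).1 hint
    obtain ⟨y, hy⟩ := (isIntegrallyClosed_iff ↥K₁).1 hic hint'
    have hyx : (y : E) = x := congrArg (fun z : ↥K₁ => (z : E)) hy
    rw [← hyx]; exact y.2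
  · -- (c)
    rintro ⟨a, s, hs, hxs⟩
    apply hs
    rw [Ideal.mem_span_singleton']
    refine ⟨a, Subtype.ext ?_⟩
    push_cast
    rw [← hxs]
    field_simp

/-- (V2) -/
theorem sIB_loc_main : sIB_LamStructStatement → sIB_LamRedStatement → sIB_K1FracStatement →
    sIB_LocVertStatement := by
  intro hStruct hRed hFrac N _ ℓ _ L _ _ W _ k _ _ _ res ϖ hD E _ _ t h hinj hres hp
  have hH : evWE W N E t h ≠ 0 := by
    intro h0
    apply hres
    have h1 : h = 0 := hinj (by rw [h0, map_zero])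
    rw [h1, Polynomial.map_zero]
  have hnoeth : IsNoetherianRing ↥(coverRing W N E t h) := (hStruct N L W E t h hH).2
  have hπ : sIB_pi W N E t h ϖ ≠ 0 := (hRed N ℓ L W k res ϖ hD E t h hinj hres).2.1
  obtain ⟨hle, hfrac⟩ := hFrac N L W E t h
  exact sIB_loc_abs (coverRing W N E t h) (sIB_K1 L N E t) (sIB_pi W N E t h ϖ) hπ hle hfrac

end Fermat.Agent.S18
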