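/-
S18 — block S-I (twin B), package VGauss (V1): the image in `E` of the Gauss ring
`O₀ = gaussO W res N` lies in `Λ_ϖ = locSub Λ (ϖ)`.  Prefix `sIB_vgauss_`.

Homogenisation: for `G ∈ W[X]` and `d ≥ deg G` put `hom d G = ∑ i ≤ d, G_i p^i q^(d-i)`; then
`(hom d G)(t) = q(t)^d G(j)` (where `j = p(t)/q(t)`), and `hom d G ≢ 0` modulo `ϖ` when `G ≢ 0`
modulo `ϖ` (because `p/q` modulo `ϖ` is not a constant and `k` is algebraically closed).
-/
import Fermat.Agent.S18.SIBInterfaces

set_option autoImplicit false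

open ModularCurve AlgebraicCurve Polynomial

namespace Fermat.Agent.S18

noncomputable section

/-- The homogenisation `∑ i ≤ d, G_i p^i q^(d-i)` of `G` with respect to `(p, q)`. -/
def sIB_vgauss_hom {R : Type} [CommRing R] (p q : R[X]) (d : ℕ) (G : R[X]) : R[X] :=
  ∑ i ∈ Finset.range (d + 1), C (G.coeff i) * p ^ i * q ^ (d - i)

/-- (i), abstract form: if `e : R[X] →+* S` restricts to `φ` on constants and `e q * jv = e p`, then
`e (hom d G) = (e q)^d * G(jv)` for `d ≥ deg G`. -/
theorem sIB_vgauss_hom_eval {R S : Type} [CommRing R] [CommRing S] (φ : R →+* S)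
    (e : R[X] →+* S) (he : ∀ r, e (C r) = φ r) (p q G : R[X]) (jv : S) (hj : e q * jv = e p)
    (d : ℕ) (hd : G.natDegree ≤ d) :
    e (sIB_vgauss_hom p q d G) = e q ^ d * eval₂ φ jv G := by
  rw [sIB_vgauss_hom, map_sum, eval₂_eq_sum_range' φ (Nat.lt_succ_of_le hd), Finset.mul_sum]
  refine Finset.sum_congr rfl fun i hi => ?_
  have hi' : i ≤ d := Nat.lt_succ_iff.1 (Finset.mem_range.1 hi)
  rw [map_mul, map_mul, map_pow, map_pow, he, ← hj]
  have hpow : e q ^ d = e q ^ i * e q ^ (d - i) := by rw [← pow_add, Nat.add_sub_cancel' hi']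
  rw [hpow]
  ring

/-- Compatibility of the homogenisation with a coefficient ring homomorphism. -/
theorem sIB_vgauss_hom_map {R S : Type} [CommRing R] [CommRing S] (φ : R →+* S)
    (p q : R[X]) (d : ℕ) (G : R[X]) :
    (sIB_vgauss_hom p q d G).map φ = sIB_vgauss_hom (p.map φ) (q.map φ) d (G.map φ) := by
  rw [sIB_vgauss_hom, sIB_vgauss_hom, Polynomial.map_sum]
  refine Finset.sum_congr rfl fun i _ => ?_
  rw [Polynomial.map_mul, Polynomial.map_mul, Polynomial.map_pow, Polynomial.map_pow,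
    Polynomial.map_C, coeff_map]

/-- (ii) over an algebraically closed field: if `P / Q` is not a constant and `G ≠ 0`, then the
homogenisation of `G` with respect to `(P, Q)` is nonzero. -/
theorem sIB_vgauss_hom_ne_zero {k : Type} [Field k] [IsAlgClosed k] (P Q G : k[X]) (hQ : Q ≠ 0)
    (hPQ : ∀ c : k, P ≠ C c * Q) (hG : G ≠ 0) (d : ℕ) (hd : G.natDegree ≤ d) :
    sIB_vgauss_hom P Q d G ≠ 0 := by
  intro h0
  have hιinj : Function.Injective (algebraMap k[X] (RatFunc k)) := RatFunc.algebraMap_injective k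
  have hQ' : algebraMap k[X] (RatFunc k) Q ≠ 0 := by
    intro hz
    exact hQ (hιinj (by rw [hz, map_zero]))
  have hj : algebraMap k[X] (RatFunc k) Q *
      (algebraMap k[X] (RatFunc k) P / algebraMap k[X] (RatFunc k) Q) =
      algebraMap k[X] (RatFunc k) P := mul_div_cancel₀ _ hQ'
  have he : ∀ r : k, algebraMap k[X] (RatFunc k) (C r) = algebraMap k (RatFunc k) r := fun r => by
    rw [IsScalarTower.algebraMap_apply k k[X] (RatFunc k), Polynomial.algebraMap_eq]
  have key := sIB_vgauss_hom_eval (algebraMap k (RatFunc k)) (algebraMap k[X] (RatFunc k)) he P Q G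
    _ hj d hd
  rw [h0, map_zero] at key
  have hroot : eval₂ (algebraMap k (RatFunc k))
      (algebraMap k[X] (RatFunc k) P / algebraMap k[X] (RatFunc k) Q) G = 0 := by
    rcases mul_eq_zero.1 key.symm with h1 | h1
    · exact absurd h1 (pow_ne_zero d hQ')
    · exact h1
  have halg : IsAlgebraic k (algebraMap k[X] (RatFunc k) P / algebraMap k[X] (RatFunc k) Q) :=
    ⟨G, hG, hroot⟩
  obtain ⟨c, hc⟩ : (algebraMap k[X] (RatFunc k) P / algebraMap k[X] (RatFunc k) Q) ∈
      (algebraMap k (RatFunc k)).range :=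
    minpoly.mem_range_of_degree_eq_one k _
      (IsAlgClosed.degree_eq_one_of_irreducible k (minpoly.irreducible halg.isIntegral))
  apply hPQ c
  apply hιinj
  rw [map_mul, ← hj, he, hc, mul_comm]

/-- (V1) The image in `E` of the Gauss ring `O₀` lies in `Λ_ϖ = locSub Λ (ϖ)`. -/
theorem sIB_vgauss_main : sIB_LamRedStatement → sIB_GaussLocStatement := by
  intro hred N _ ℓ _ L _ _ W _ k _ _ _ res ϖ hD E _ _ t h hcov hinj hp
  obtain ⟨hred1, -, -⟩ := hred N ℓ L W k res ϖ hD E t h hinj hcov.h_res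
  -- (★)
  have hstar : ∀ P : Polynomial ↥W, P.map res ≠ 0 →
      (⟨evWE W N E t P, sIB_evWE_mem W N E t h P⟩ : ↥(coverRing W N E t h)) ∉
        Ideal.span {sIB_pi W N E t h ϖ} := by
    intro P hP hmem
    exact hP ((hred1 ⟨evWE W N E t P, sIB_evWE_mem W N E t h P⟩ P 0 (by rw [pow_zero, mul_one])).1
      hmem)
  obtain ⟨p, q, hq, hpq, hjrat⟩ := hcov.jrat
  have hq0 : evWE W N E t q ≠ 0 := by
    intro hz
    have : q = 0 := hinj (by rw [hz, map_zero])
    exact hq (by rw [this, Polynomial.map_zero])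
  have hqres : q.map res ≠ 0 := hq
  have heC : ∀ r : ↥W, evWE W N E t (C r) = cWE W N E r := fun r => by
    rw [evWE, coe_eval₂RingHom, eval₂_C]
  suffices hle : gaussO W res N ≤
      (locSub (coverRing W N E t h) (Ideal.span {sIB_pi W N E t h ϖ})).comap
        (algebraMap ↥(FL L N) E) from fun x hx => hle hx
  rw [gaussO, Subring.closure_le]
  rintro c ⟨f₀, g₀, hg₀, hc⟩
  -- transport the relation to `E`
  have hcE : eval₂ (cWE W N E) (jE L N E) g₀ * algebraMap ↥(FL L N) E c =
      eval₂ (cWE W N E) (jE L N E) f₀ := by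
    have h1 := congrArg (algebraMap ↥(FL L N) E) hc
    rw [map_mul, evW, coe_eval₂RingHom, hom_eval₂, hom_eval₂] at h1
    exact h1
  set D : ℕ := max f₀.natDegree g₀.natDegree with hD'
  have hf := sIB_vgauss_hom_eval (cWE W N E) (evWE W N E t) heC p q f₀ (jE L N E) hjrat D
    (le_max_left _ _)
  have hg := sIB_vgauss_hom_eval (cWE W N E) (evWE W N E t) heC p q g₀ (jE L N E) hjrat D
    (le_max_right _ _)
  have hgres : (sIB_vgauss_hom p q D g₀).map res ≠ 0 := by
    rw [sIB_vgauss_hom_map]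
    exact sIB_vgauss_hom_ne_zero _ _ _ hqres hpq hg₀ D
      ((natDegree_map_le).trans (le_max_right _ _))
  refine ⟨⟨evWE W N E t (sIB_vgauss_hom p q D f₀), sIB_evWE_mem W N E t h _⟩,
    ⟨evWE W N E t (sIB_vgauss_hom p q D g₀), sIB_evWE_mem W N E t h _⟩, hstar _ hgres, ?_⟩
  show algebraMap ↥(FL L N) E c * evWE W N E t (sIB_vgauss_hom p q D g₀) =
    evWE W N E t (sIB_vgauss_hom p q D f₀)
  rw [hf, hg, ← hcE]
  ring

end

end Fermat.Agent.S18
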