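/-
S18 — block S-I (twin B), package VMain: vertical unramifiedness `UnramAtPrime Λ K₁ (ϖΛ)`, assembled
from the monogenic certificate and the V-packages.  Prefix `sIB_vmain_`.
-/
import Fermat.Agent.S18.SIBInterfaces

set_option autoImplicit false

open ModularCurve AlgebraicCurve Polynomial

namespace Fermat.Agent.S18

/-- Generation: `E = K₁(θ)` from `E = F(t)`, `F = L(j)(θ)`, `j ∈ K₁ = L(t)`. -/
theorem sIB_vmain_gen (N : ℕ) [NeZero N] (L : Type) [Field L] [Algebra ℚ L]
    (E : Type) [Field E] [Algebra ↥(FL L N) E] (t : E) (θ : ↥(FL L N))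
    (hgen : IntermediateField.adjoin ↥(FL L N) {t} = ⊤)
    (hj : jE L N E ∈ sIB_K1 L N E t)
    (hθgen : IntermediateField.adjoin ↥(IntermediateField.adjoin L {jF L N}) {θ} = ⊤) :
    Subfield.closure ((sIB_K1 L N E t : Set E) ∪ {algebraMap ↥(FL L N) E θ}) = ⊤ := by
  let _ := sIB_algLE L N E
  have hK : (sIB_K1 L N E t : Set E) ⊆
      Subfield.closure ((sIB_K1 L N E t : Set E) ∪ {algebraMap ↥(FL L N) E θ}) :=
    fun x hx => Subfield.subset_closure (Or.inl hx)
  have hθ : algebraMap ↥(FL L N) E θ ∈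
      Subfield.closure ((sIB_K1 L N E t : Set E) ∪ {algebraMap ↥(FL L N) E θ}) :=
    Subfield.subset_closure (Or.inr rfl)
  -- (b) the image of `F` lies in `S`
  have h1 : (IntermediateField.adjoin L {jF L N}).toSubfield ≤
      (Subfield.closure ((sIB_K1 L N E t : Set E) ∪ {algebraMap ↥(FL L N) E θ})).comap
        (algebraMap ↥(FL L N) E) := by
    rw [IntermediateField.adjoin_toSubfield, Subfield.closure_le]
    rintro x (⟨y, rfl⟩ | hx)
    · refine hK ?_
      exact IntermediateField.algebraMap_mem (IntermediateField.adjoin L {t}) y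
    · rw [Set.mem_singleton_iff] at hx
      subst hx
      exact hK hj
  have h2 : (IntermediateField.adjoin ↥(IntermediateField.adjoin L {jF L N}) {θ}).toSubfield ≤
      (Subfield.closure ((sIB_K1 L N E t : Set E) ∪ {algebraMap ↥(FL L N) E θ})).comap
        (algebraMap ↥(FL L N) E) := by
    rw [IntermediateField.adjoin_toSubfield, Subfield.closure_le]
    rintro x (⟨y, rfl⟩ | hx)
    · exact h1 y.2
    · rw [Set.mem_singleton_iff] at hx
      subst hx
      exact hθ
  have h3 : ∀ x : ↥(FL L N), algebraMap ↥(FL L N) E x ∈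
      Subfield.closure ((sIB_K1 L N E t : Set E) ∪ {algebraMap ↥(FL L N) E θ}) := by
    intro x
    have hx : x ∈ (IntermediateField.adjoin ↥(IntermediateField.adjoin L {jF L N}) {θ}).toSubfield := by
      rw [hθgen]
      trivial
    exact h2 hx
  -- (c)
  have h4 : (IntermediateField.adjoin ↥(FL L N) {t}).toSubfield ≤
      Subfield.closure ((sIB_K1 L N E t : Set E) ∪ {algebraMap ↥(FL L N) E θ}) := by
    rw [IntermediateField.adjoin_toSubfield, Subfield.closure_le]
    rintro x (⟨y, rfl⟩ | hx)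
    · exact h3 y
    · rw [Set.mem_singleton_iff] at hx
      subst hx
      exact hK (IntermediateField.mem_adjoin_simple_self L x)
  rw [hgen] at h4
  rw [eq_top_iff]
  intro x _
  exact h4 (IntermediateField.mem_top (F := ↥(FL L N)) (E := E))

theorem sIB_vmain_main : MonogenicStatement → sIB_EtaleStatement → sIB_LocUnramStatement →
    sIB_LocVertStatement → sIB_GaussLocStatement → sIB_K1FracStatement → sIB_VertStatement := by
  intro hMono hEtale hLocUnram hLocVert hGaussLoc hK1Frac N _ ℓ _ L _ _ W _ k _ _ _ res ϖ hD E _ _ t h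
    hcov hinj hfin hp
  have := hp
  obtain ⟨θ, f, A, B, C, hf, hA, hB, hC, hmonic, hroot, hθgen, hcert⟩ := hMono N ℓ L W k res ϖ hD
  obtain ⟨hRK, hRint, hϖinv⟩ := hLocVert N ℓ L W k res ϖ hD E t h hinj hcov.h_res
  have hGL := hGaussLoc N ℓ L W k res ϖ hD E t h hcov hinj
  obtain ⟨hΛK, hfrac⟩ := hK1Frac N L W E t h
  -- `CharZero E`
  have : CharZero L := algebraRat.charZero L
  have : CharZero E :=
    charZero_of_injective_ringHom
      ((algebraMap ↥(FL L N) E).comp (algebraMap L ↥(FL L N))).injective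
  have hΛR := le_locSub (coverRing W N E t h) (Ideal.span {sIB_pi W N E t h ϖ})
  -- `K₁ = Frac R`
  have hfracR : ∀ x ∈ sIB_K1 L N E t,
      ∃ a ∈ locSub (coverRing W N E t h) (Ideal.span {sIB_pi W N E t h ϖ}),
      ∃ b ∈ locSub (coverRing W N E t h) (Ideal.span {sIB_pi W N E t h ϖ}), b ≠ 0 ∧ x * b = a := by
    intro x hx
    obtain ⟨a, ha, b, hb, hb0, hab⟩ := hfrac x hx
    exact ⟨a, hΛR ha, b, hΛR hb, hb0, hab⟩
  have hlocal : IsLocalRing ↥(locSub (coverRing W N E t h) (Ideal.span {sIB_pi W N E t h ϖ})) :=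
    locSubB_isLocalRing _ _
  have hϖR : cWE W N E ϖ ∈ locSub (coverRing W N E t h) (Ideal.span {sIB_pi W N E t h ϖ}) :=
    hΛR (sIB_cWE_mem W N E t h ϖ)
  -- `j ∈ K₁`
  have hj : jE L N E ∈ sIB_K1 L N E t := by
    obtain ⟨p, q, hq, -, hpq⟩ := hcov.jrat
    have hq0 : q ≠ 0 := by
      rintro rfl
      exact hq (Polynomial.map_zero res)
    have hq1 : evWE W N E t q ≠ 0 := by
      intro h0
      exact hq0 (hinj (h0.trans (map_zero _).symm))
    have hjeq : jE L N E = evWE W N E t p * (evWE W N E t q)⁻¹ := by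
      rw [← hpq, mul_comm (evWE W N E t q), mul_assoc, mul_inv_cancel₀ hq1, mul_one]
    rw [hjeq]
    exact (sIB_K1 L N E t).mul_mem (hΛK (sIB_evWE_mem W N E t h p))
      ((sIB_K1 L N E t).inv_mem (hΛK (sIB_evWE_mem W N E t h q)))
  have hgenE := sIB_vmain_gen N L E t θ hcov.gen hj hθgen
  -- certificate mapped to `E`
  have hcertE : A.map (algebraMap ↥(FL L N) E) * f.map (algebraMap ↥(FL L N) E) +
      B.map (algebraMap ↥(FL L N) E) * derivative (f.map (algebraMap ↥(FL L N) E)) =
      1 + Polynomial.C (cWE W N E ϖ) * C.map (algebraMap ↥(FL L N) E) := by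
    have h0 := congrArg (Polynomial.map (algebraMap ↥(FL L N) E)) hcert
    simp only [Polynomial.map_add, Polynomial.map_mul, Polynomial.map_one, Polynomial.map_C,
      ← Polynomial.derivative_map] at h0
    exact h0
  have hcoef : ∀ (P : Polynomial ↥(FL L N)), (∀ n, P.coeff n ∈ gaussO W res N) →
      ∀ n, (P.map (algebraMap ↥(FL L N) E)).coeff n ∈
        locSub (coverRing W N E t h) (Ideal.span {sIB_pi W N E t h ϖ}) := by
    intro P hP n
    rw [Polynomial.coeff_map]
    exact hGL _ (hP n)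
  have hrootE : (f.map (algebraMap ↥(FL L N) E)).eval (algebraMap ↥(FL L N) E θ) = 0 := by
    rw [Polynomial.eval_map, Polynomial.eval₂_at_apply, hroot, map_zero]
  obtain ⟨r, c, hli, hspan, hint, hdisc⟩ :=
    hEtale E (locSub (coverRing W N E t h) (Ideal.span {sIB_pi W N E t h ϖ})) (sIB_K1 L N E t)
      hRK hfracR hRint hlocal hfin (cWE W N E ϖ) hϖR hϖinv (algebraMap ↥(FL L N) E θ)
      (f.map (algebraMap ↥(FL L N) E)) (A.map (algebraMap ↥(FL L N) E))
      (B.map (algebraMap ↥(FL L N) E)) (C.map (algebraMap ↥(FL L N) E))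
      (hcoef f hf) (hcoef A hA) (hcoef B hB) (hcoef C hC)
      (hmonic.map _) hrootE hgenE hcertE
  exact hLocUnram E (coverRing W N E t h) (sIB_K1 L N E t) (Ideal.span {sIB_pi W N E t h ϖ})
    r c hli hspan hint hdisc

end Fermat.Agent.S18
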