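/-
S18 — block S-I (twin B): assembly of the block from the landed packages, modulo the abstract étale
criterion `sIB_EtaleStatement`.  Prefix `sIB_`.
-/
import Fermat.Agent.S18.SIBEngine
import Fermat.Agent.S18.SIBLamA
import Fermat.Agent.S18.SIBLamB
import Fermat.Agent.S18.SIBLamC
import Fermat.Agent.S18.SIBKA
import Fermat.Agent.S18.SIBKB
import Fermat.Agent.S18.SIBLoc
import Fermat.Agent.S18.SIBLocV
import Fermat.Agent.S18.SIBVGauss
import Fermat.Agent.S18.SIBVMain
import Fermat.Agent.S18.SIBHS
import Fermat.Agent.S18.SIBHP

set_option autoImplicit false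

open ModularCurve AlgebraicCurve Polynomial

namespace Fermat.Agent.S18

/-- The block S-I, modulo the abstract étale criterion. -/
theorem sIB_main_of_etale (hEt : sIB_EtaleStatement) :
    PurityStatement → HorizUnramStatement → MonogenicStatement → FinLStatement →
      SmB1Statement ∧ SmB2Statement := by
  intro hPur hHU hMono hFinL
  have hStruct : sIB_LamStructStatement := sIB_lamA_main
  have hRed : sIB_LamRedStatement := sIB_lamB_main hStruct
  have hMax : sIB_LamMaxStatement := sIB_lamC_main hStruct hRed
  have hTr : sIB_TranscStatement := sIB_kA_transc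
  have hFrac : sIB_K1FracStatement := sIB_kA_main
  have hFin : sIB_K1FinStatement := sIB_kB_main hFrac
  have hLocU : sIB_LocUnramStatement := sIB_loc_unram
  have hLocV : sIB_LocVertStatement := sIB_loc_main hStruct hRed hFrac
  have hGauss : sIB_GaussLocStatement := sIB_vgauss_main hRed
  have hVert : sIB_VertStatement := sIB_vmain_main hMono hEt hLocU hLocV hGauss hFrac
  have hHoriz : sIB_HorizStatement := sIB_hS_main hStruct hLocU
  obtain ⟨hP1, hP2⟩ := sIB_hp_main hHU hFinL hStruct
  exact sIB_assembly hPur hFinL hTr hFrac hFin hStruct hRed hMax hVert hHoriz hP1 hP2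

end Fermat.Agent.S18
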