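/-
S18 — block S-I (twin B), package VAbs (twin 2): the abstract étale criterion `sIB_EtaleStatement`.
Prefix `sIB_vabsT_`.
-/
import Fermat.Agent.S18.SIBInterfaces

set_option autoImplicit false

open ModularCurve AlgebraicCurve Polynomial

namespace Fermat.Agent.S18

noncomputable section

/-- In an integral extension `S` of a local ring `R`, `1 + ϖ z` is a unit for a non-unit `ϖ` of `R`. -/
theorem sIB_vabsT_isUnit_one_add {R S : Type} [CommRing R] [IsLocalRing R] [CommRing S] [Algebra R S]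
    [Algebra.IsIntegral R S] (ϖ : R) (hϖ : ¬ IsUnit ϖ) (z : S) :
    IsUnit (1 + algebraMap R S ϖ * z) := by
  by_contra hu
  obtain ⟨𝔐, h𝔐, hmem⟩ := exists_max_ideal_of_mem_nonunits hu
  have := h𝔐
  have hmax : (𝔐.comap (algebraMap R S)).IsMaximal :=
    Ideal.isMaximal_comap_of_isIntegral_of_isMaximal (R := R) 𝔐
  have heq := IsLocalRing.eq_maximalIdeal hmax
  have hϖm : ϖ ∈ 𝔐.comap (algebraMap R S) := by
    rw [heq]
    exact (IsLocalRing.mem_maximalIdeal ϖ).2 hϖ
  have h1 : (1 : S) ∈ 𝔐 := by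
    have h2 : algebraMap R S ϖ * z ∈ 𝔐 := 𝔐.mul_mem_right z (Ideal.mem_comap.1 hϖm)
    have h3 := 𝔐.sub_mem hmem h2
    simpa using h3
  exact h𝔐.ne_top ((Ideal.eq_top_iff_one 𝔐).2 h1)

/-- Abstract core: the norm of `m'(θ)` (with `m` the minimal polynomial of `θ` over the fraction field)
is a unit of `R`. -/
theorem sIB_vabsT_core {R K E : Type} [CommRing R] [IsDomain R] [IsIntegrallyClosed R] [IsLocalRing R]
    [Field K] [Field E] [Algebra R K] [IsFractionRing R K] [Algebra K E] [Algebra R E]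
    [IsScalarTower R K E]
    (ϖ : R) (hϖ : ¬ IsUnit ϖ) (θ : E) (f A B C : Polynomial R) (hf : f.Monic)
    (hθ : aeval θ f = 0)
    (hcert : A * f + B * derivative f = 1 + Polynomial.C ϖ * C) :
    ∃ n₁ n₂ : R, n₁ * n₂ = 1 ∧
      algebraMap R K n₁ = Algebra.norm K (aeval θ (derivative (minpoly K θ))) := by
  have hint : IsIntegral R θ := ⟨f, hf, hθ⟩
  have hinj : Function.Injective (algebraMap R E) := by
    rw [IsScalarTower.algebraMap_eq R K E]
    exact (algebraMap K E).injective.comp (IsFractionRing.injective R K)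
  have : Module.IsTorsionFree R E := Module.isTorsionFree_iff_algebraMap_injective.2 hinj
  have hmK : minpoly K θ = (minpoly R θ).map (algebraMap R K) :=
    minpoly.isIntegrallyClosed_eq_field_fractions' K hint
  obtain ⟨g, hg⟩ : minpoly R θ ∣ f := minpoly.isIntegrallyClosed_dvd hint hθ
  -- work in the integral closure
  let θS : integralClosure R E := ⟨θ, hint⟩
  have hcoe : ∀ P : Polynomial R, ((aeval θS P : integralClosure R E) : E) = aeval θ P :=
    fun P => (Subalgebra.aeval_coe _ _ _).symm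
  have hmS : aeval θS (minpoly R θ) = 0 := Subtype.ext (by rw [hcoe, minpoly.aeval]; rfl)
  have hfS : aeval θS f = 0 := Subtype.ext (by rw [hcoe, hθ]; rfl)
  have hder : aeval θS (derivative f) = aeval θS (derivative (minpoly R θ)) * aeval θS g := by
    rw [hg, derivative_mul, map_add, map_mul, map_mul, hmS, zero_mul, add_zero]
  have hev := congrArg (aeval θS) hcert
  rw [map_add, map_mul, map_mul, hfS, mul_zero, zero_add, hder, map_add, map_one, map_mul,
    aeval_C] at hev
  have hu : IsUnit (aeval θS B * (aeval θS (derivative (minpoly R θ)) * aeval θS g)) := by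
    rw [hev]
    exact sIB_vabsT_isUnit_one_add ϖ hϖ _
  have hu' : IsUnit (aeval θS (derivative (minpoly R θ))) :=
    isUnit_of_mul_isUnit_left (isUnit_of_mul_isUnit_right hu)
  obtain ⟨y, hy⟩ := hu'.exists_right_inv
  have hyE : aeval θ (derivative (minpoly R θ)) * (y : E) = 1 := by
    rw [← hcoe]
    exact congrArg Subtype.val hy
  have hn1 : IsIntegral R (Algebra.norm K (aeval θ (derivative (minpoly R θ)))) :=
    Algebra.isIntegral_norm K (by rw [← hcoe]; exact (aeval θS (derivative (minpoly R θ))).2)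
  have hn2 : IsIntegral R (Algebra.norm K (y : E)) := Algebra.isIntegral_norm K y.2
  obtain ⟨n₁, hn₁⟩ := IsIntegrallyClosed.isIntegral_iff.1 hn1
  obtain ⟨n₂, hn₂⟩ := IsIntegrallyClosed.isIntegral_iff.1 hn2
  refine ⟨n₁, n₂, ?_, ?_⟩
  · apply IsFractionRing.injective R K
    rw [map_mul, hn₁, hn₂, ← map_mul, hyE, map_one, map_one]
  · rw [hn₁, hmK, derivative_map, aeval_map_algebraMap]

/-- A power basis of `E / K` with generator `θ` when `E = K(θ)`. -/
theorem sIB_vabsT_powerBasis {K E : Type} [Field K] [Field E] [Algebra K E] [FiniteDimensional K E]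
    (θ : E) (hadj : IntermediateField.adjoin K {θ} = ⊤) : ∃ pb : PowerBasis K E, pb.gen = θ := by
  have hint : IsIntegral K θ := Algebra.IsIntegral.isIntegral θ
  refine ⟨(IntermediateField.adjoin.powerBasis hint).map
    ((IntermediateField.equivOfEq hadj).trans IntermediateField.topEquiv), ?_⟩
  simp

/-- A polynomial all of whose coefficients lie in a subring has its coefficient set in the subring. -/
theorem sIB_vabsT_coeffs {E : Type} [Field E] (R : Subring E) (f : Polynomial E)
    (hf : ∀ n, f.coeff n ∈ R) : (↑f.coeffs : Set E) ⊆ ↑R := by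
  intro x hx
  rw [Finset.mem_coe, Polynomial.mem_coeffs_iff] at hx
  obtain ⟨n, _, rfl⟩ := hx
  exact hf n

/-- (V-abs) The abstract étale criterion. -/
theorem sIB_vabsT_main : sIB_EtaleStatement := by
  intro E _ _ R K₁ hRK hfrac hic _ _ ϖ hϖ hϖinv θ f A B C hf hA hB hC hmonic hroot hgen hcert
  let algRK : Algebra ↥R ↥K₁ := (RingHom.codRestrict R.subtype K₁ (fun x => hRK x.2)).toAlgebra
  have : IsScalarTower ↥R ↥K₁ E := IsScalarTower.of_algebraMap_eq (fun _ => rfl)
  have hinjRK : Function.Injective (algebraMap ↥R ↥K₁) :=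
    fun a b hab => Subtype.ext (congrArg (Subtype.val : ↥K₁ → E) hab)
  have : FaithfulSMul ↥R ↥K₁ := (faithfulSMul_iff_algebraMap_injective ↥R ↥K₁).2 hinjRK
  have : IsFractionRing ↥R ↥K₁ := IsFractionRing.of_field ↥R ↥K₁ (fun z => by
    obtain ⟨a, ha, b, hb, hb0, hab⟩ := hfrac z z.2
    refine ⟨⟨a, ha⟩, ⟨b, hb⟩, Subtype.ext ?_⟩
    show (z : E) = a / b
    rw [eq_div_iff hb0]
    exact hab)
  have : IsIntegrallyClosed ↥R := (isIntegrallyClosed_iff ↥K₁).2 (fun {x} hx =>
    ⟨⟨x, hic x x.2 (hx.map (IsScalarTower.toAlgHom ↥R ↥K₁ E))⟩, Subtype.ext rfl⟩)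
  have : CharZero ↥K₁ := RingHom.charZero K₁.subtype
  have : Algebra.IsSeparable ↥K₁ E := inferInstance
  -- polynomials over `R`
  have hfR : (f.toSubring R (sIB_vabsT_coeffs R f hf)).map R.subtype = f :=
    Polynomial.map_toSubring _ _ _
  have hAR : (A.toSubring R (sIB_vabsT_coeffs R A hA)).map R.subtype = A :=
    Polynomial.map_toSubring _ _ _
  have hBR : (B.toSubring R (sIB_vabsT_coeffs R B hB)).map R.subtype = B :=
    Polynomial.map_toSubring _ _ _
  have hCR : (C.toSubring R (sIB_vabsT_coeffs R C hC)).map R.subtype = C :=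
    Polynomial.map_toSubring _ _ _
  generalize f.toSubring R (sIB_vabsT_coeffs R f hf) = fR at hfR
  generalize A.toSubring R (sIB_vabsT_coeffs R A hA) = AR at hAR
  generalize B.toSubring R (sIB_vabsT_coeffs R B hB) = BR at hBR
  generalize C.toSubring R (sIB_vabsT_coeffs R C hC) = CR at hCR
  have hmonicR : fR.Monic :=
    Polynomial.monic_of_injective R.subtype_injective (by rw [hfR]; exact hmonic)
  have hcertR : AR * fR + BR * derivative fR = 1 + Polynomial.C (⟨ϖ, hϖ⟩ : ↥R) * CR := by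
    apply Polynomial.map_injective R.subtype R.subtype_injective
    rw [Polynomial.map_add, Polynomial.map_mul, Polynomial.map_mul, ← Polynomial.derivative_map,
      Polynomial.map_add, Polynomial.map_one, Polynomial.map_mul, Polynomial.map_C, hAR, hfR, hBR,
      hCR]
    exact hcert
  have hϖu : ¬ IsUnit (⟨ϖ, hϖ⟩ : ↥R) := by
    intro hu
    obtain ⟨v, hv⟩ := hu.exists_right_inv
    apply hϖinv
    have hv' : ϖ * (v : E) = 1 := congrArg (Subtype.val : ↥R → E) hv
    rw [← eq_inv_of_mul_eq_one_right hv']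
    exact v.2
  have hθR : aeval θ fR = 0 := by
    have h0 : eval θ (fR.map R.subtype) = 0 := by rw [hfR]; exact hroot
    rw [aeval_def, ← Polynomial.eval_map]
    exact h0
  have hint : IsIntegral ↥R θ := ⟨fR, hmonicR, hθR⟩
  have hadj : IntermediateField.adjoin ↥K₁ {θ} = ⊤ := by
    apply IntermediateField.toSubfield_injective
    rw [IntermediateField.adjoin_toSubfield, IntermediateField.top_toSubfield]
    have hrange : Set.range (algebraMap ↥K₁ E) = (K₁ : Set E) := Subtype.range_coe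
    rw [hrange]
    exact hgen
  obtain ⟨pb, hpb⟩ := sIB_vabsT_powerBasis θ hadj
  obtain ⟨n₁, n₂, h12, hn₁⟩ :=
    sIB_vabsT_core (R := ↥R) (K := ↥K₁) (E := E) ⟨ϖ, hϖ⟩ hϖu θ fR AR BR CR hmonicR hθR hcertR
  have hc : (fun i : Fin pb.dim => θ ^ (i : ℕ)) = ⇑pb.basis := by
    rw [pb.coe_basis, hpb]
  refine ⟨pb.dim, fun i => θ ^ (i : ℕ), ?_, ?_, ?_, ?_⟩
  · rw [hc]
    exact pb.basis.linearIndependent
  · rw [hc]
    exact pb.basis.span_eq
  · intro i
    exact hint.pow _
  · rw [hc, Algebra.discr_powerBasis_eq_norm ↥K₁ pb, hpb, ← hn₁]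
    have huv : ((-1) ^ (Module.finrank ↥K₁ E * (Module.finrank ↥K₁ E - 1) / 2) * n₁) *
        ((-1) ^ (Module.finrank ↥K₁ E * (Module.finrank ↥K₁ E - 1) / 2) * n₂) = (1 : ↥R) := by
      rw [mul_mul_mul_comm, h12, ← mul_pow, neg_one_mul, neg_neg, one_pow, one_mul]
    refine ⟨_, ((-1) ^ (Module.finrank ↥K₁ E * (Module.finrank ↥K₁ E - 1) / 2) * n₁ : ↥R).2,
      _, ((-1) ^ (Module.finrank ↥K₁ E * (Module.finrank ↥K₁ E - 1) / 2) * n₂ : ↥R).2,
      congrArg (Subtype.val : ↥R → E) huv, ?_⟩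
    rfl

end

end Fermat.Agent.S18
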