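/-
S18 — block S-II (twin A): descent from the cover to the charts (quotient lemma) and glueing of the two
charts.  INTERNAL INTERFACE FILE of the block: a small proved toolkit about `baseRing` / `chart`, and
one statement-`Prop` per work package.  Name prefix `sIIA_`.

Setting: `F = ↥(FL L N)`, `W[S] = baseRing W N S ⊆ F`, `chart W N S` = integral closure of `W[S]` in `F`.
-/
import Fermat.Agent.S18.SInterfaces2

set_option autoImplicit false

open ModularCurve AlgebraicCurve Polynomial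

namespace Fermat.Agent.S18

noncomputable section

/-! ## Toolkit (proved here) -/

section Toolkit

variable {L : Type} [Field L] [Algebra ℚ L] (W : ValuationSubring L) (N : ℕ)

theorem sIIA_cW_mem_baseRing (S : Set ↥(FL L N)) (w : ↥W) : cW W N w ∈ baseRing W N S :=
  Subring.subset_closure (Or.inl ⟨w, rfl⟩)

theorem sIIA_mem_baseRing {S : Set ↥(FL L N)} {s : ↥(FL L N)} (hs : s ∈ S) :
    s ∈ baseRing W N S :=
  Subring.subset_closure (Or.inr hs)

theorem sIIA_baseRing_mono {S S' : Set ↥(FL L N)} (h : S ⊆ S') :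
    baseRing W N S ≤ baseRing W N S' :=
  Subring.closure_mono (Set.union_subset_union_right _ h)

theorem sIIA_baseRing_le_chart (S : Set ↥(FL L N)) : baseRing W N S ≤ chart W N S := by
  intro x hx
  rw [mem_chart_iff]
  exact isIntegral_algebraMap (R := ↥(baseRing W N S)) (x := ⟨x, hx⟩)

theorem sIIA_cW_mem_chart (S : Set ↥(FL L N)) (w : ↥W) : cW W N w ∈ chart W N S :=
  sIIA_baseRing_le_chart W N S (sIIA_cW_mem_baseRing W N S w)

theorem sIIA_mem_chart {S : Set ↥(FL L N)} {s : ↥(FL L N)} (hs : s ∈ S) : s ∈ chart W N S :=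
  sIIA_baseRing_le_chart W N S (sIIA_mem_baseRing W N hs)

/-- Integrality over a subring passes to a bigger subring. -/
theorem sIIA_isIntegral_of_le {A : Type*} [CommRing A] {R R' : Subring A} (h : R ≤ R') {x : A}
    (hx : IsIntegral ↥R x) : IsIntegral ↥R' x := by
  let _ : Algebra ↥R ↥R' := (Subring.inclusion h).toAlgebra
  have : IsScalarTower ↥R ↥R' A := IsScalarTower.of_algebraMap_eq (fun _ => rfl)
  exact hx.tower_top

theorem sIIA_chart_mono {S S' : Set ↥(FL L N)} (h : S ⊆ S') : chart W N S ≤ chart W N S' := by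
  intro x hx
  rw [mem_chart_iff] at hx ⊢
  exact sIIA_isIntegral_of_le (sIIA_baseRing_mono W N h) hx

theorem sIIA_cW_injective : Function.Injective (cW W N : ↥W →+* ↥(FL L N)) := by
  intro a b hab
  have h1 : algebraMap L ↥(FL L N) (a : L) = algebraMap L ↥(FL L N) (b : L) := hab
  exact Subtype.ext ((algebraMap L ↥(FL L N)).injective h1)

theorem sIIA_charZero : CharZero ↥(FL L N) :=
  haveI : CharZero L := algebraRat.charZero L
  charZero_of_injective_algebraMap (algebraMap L ↥(FL L N)).injective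

/-- `W[S] ⊆ F` maps into a subring `Λ ⊆ E` as soon as the constants and the elements of `S` do. -/
theorem sIIA_baseRing_le_comap (E : Type) [Field E] [Algebra ↥(FL L N) E] (S : Set ↥(FL L N))
    (Λ : Subring E) (hW : ∀ w : ↥W, cWE W N E w ∈ Λ)
    (hS : ∀ s ∈ S, algebraMap ↥(FL L N) E s ∈ Λ) :
    baseRing W N S ≤ Λ.comap (algebraMap ↥(FL L N) E) := by
  refine Subring.closure_le.2 ?_
  rintro x (⟨w, rfl⟩ | hx)
  · exact hW w
  · exact hS x hx

theorem sIIA_cWE_mem_coverRing (E : Type) [Field E] [Algebra ↥(FL L N) E] (t : E)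
    (h : Polynomial ↥W) (w : ↥W) : cWE W N E w ∈ coverRing W N E t h :=
  Subring.subset_closure (Or.inl ⟨w, rfl⟩)

/-- Transport of a property of subrings along an equality. -/
theorem sIIA_transport {F : Type} [Field F] (P : Subring F → Prop) {C C' : Subring F} (h : C = C')
    (hP : P C) : P C' := h ▸ hP

end Toolkit

/-! ## Package statements -/

/-- (Poly) For `u` transcendental over `L`: `W[u] ≅ W[X]` is noetherian and integrally closed, it is
contained in `L(u)` and every element of `L(u)` is a fraction of elements of `W[u]`. -/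
def sIIA_PolyStatement : Prop :=
  ∀ (N : ℕ) (L : Type) [Field L] [Algebra ℚ L] (W : ValuationSubring L)
    [IsDiscreteValuationRing ↥W] (u : ↥(FL L N)), Transcendental L u →
    IsNoetherianRing ↥(baseRing W N {u}) ∧ IsIntegrallyClosed ↥(baseRing W N {u}) ∧
    (∀ x ∈ baseRing W N {u}, x ∈ IntermediateField.adjoin L {u}) ∧
    (∀ x ∈ IntermediateField.adjoin L {u}, ∃ a ∈ baseRing W N {u}, ∃ b ∈ baseRing W N {u},
      b ≠ 0 ∧ x * b = a)

/-- (Noeth, D0) For `u` transcendental over `L` with `F / L(u)` finite: the chart `chart W N {u}` is a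
noetherian ring, and `F` is algebraic over `W[u]`. -/
def sIIA_NoethStatement : Prop :=
  ∀ (N : ℕ) (L : Type) [Field L] [Algebra ℚ L] (W : ValuationSubring L)
    [IsDiscreteValuationRing ↥W] (u : ↥(FL L N)), Transcendental L u →
    FiniteDimensional ↥(IntermediateField.adjoin L {u}) ↥(FL L N) →
    IsNoetherianRing ↥(chart W N {u}) ∧ Algebra.IsAlgebraic ↥(baseRing W N {u}) ↥(FL L N)

/-- (Inv) `1/j` is transcendental over `L` and `F` is finite over `L(1/j) = L(j)`. -/
def sIIA_InvStatement : Prop :=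
  ∀ (N : ℕ) [NeZero N] (L : Type) [Field L] [Algebra ℚ L],
    Transcendental L (jF L N)⁻¹ ∧
      FiniteDimensional ↥(IntermediateField.adjoin L {(jF L N)⁻¹}) ↥(FL L N)

/-- (Res, RF) For a finite set `S` and a maximal ideal `n ∋ ϖ` of `chart W N S`: `W → chart / n` is
surjective, and every monic polynomial of positive degree over the chart has a root modulo `n`. -/
def sIIA_ResStatement : Prop :=
  ∀ (N : ℕ) (ℓ : ℕ) [Fact ℓ.Prime] (L : Type) [Field L] [Algebra ℚ L]
    (W : ValuationSubring L) [IsDiscreteValuationRing ↥W] (k : Type) [Field k] [IsAlgClosed k]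
    [CharP k ℓ] (res : ↥W →+* k) (ϖ : ↥W), BaseData N ℓ W res ϖ →
    ∀ (S : Set ↥(FL L N)), S.Finite →
    ∀ (n : Ideal ↥(chart W N S)) [n.IsMaximal] (ϖc : ↥(chart W N S)),
      (ϖc : ↥(FL L N)) = cW W N ϖ → ϖc ∈ n →
      (∀ a : ↥(chart W N S), ∃ (w : ↥W) (wc : ↥(chart W N S)),
        (wc : ↥(FL L N)) = cW W N w ∧ a - wc ∈ n) ∧
      (∀ p : Polynomial ↥(chart W N S), p.Monic → 0 < p.natDegree →
        ∃ a : ↥(chart W N S), p.eval a ∈ n)

/-- (Glue, GL) `A ≤ A'` subrings of a field, `σ ∈ A`, `σ ≠ 0`, `σ⁻¹ ∈ A'`, `A' ⊆ A[1/σ]`.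
(a) every maximal ideal `m` of `A` not containing `σ` is the contraction of a maximal ideal of `A'`;
(b) for a prime `n` of `A'` with contraction `m`, the local rings `A_m` and `A'_n` coincide, so
`IsDVRQuot` transfers (for elements with the same underlying element of `F`). -/
def sIIA_GlueStatement : Prop :=
  ∀ (F : Type) [Field F] (A A' : Subring F), A ≤ A' → ∀ σ : F, σ ≠ 0 → σ ∈ A → σ⁻¹ ∈ A' →
    (∀ a' ∈ A', ∃ n : ℕ, σ ^ n * a' ∈ A) →
    (∀ (m : Ideal ↥A) [m.IsMaximal] (σA : ↥A), (σA : F) = σ → σA ∉ m →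
      ∃ n : Ideal ↥A', n.IsMaximal ∧
        ∀ (a : ↥A) (a' : ↥A'), (a' : F) = (a : F) → (a' ∈ n ↔ a ∈ m)) ∧
    (∀ (n : Ideal ↥A') [n.IsPrime] (m : Ideal ↥A) [m.IsPrime],
      (∀ (a : ↥A) (a' : ↥A'), (a' : F) = (a : F) → (a' ∈ n ↔ a ∈ m)) →
      ∀ (x : ↥A) (x' : ↥A'), (x' : F) = (x : F) →
        (IsDVRQuot (Localization.AtPrime m) (algebraMap ↥A (Localization.AtPrime m) x) ↔
          IsDVRQuot (Localization.AtPrime n) (algebraMap ↥A' (Localization.AtPrime n) x')))

/-- (Clear) Clearing denominators: if `x` is integral over `W[S, 1/σ]` with `σ ∈ W[S]`, then `σ ^ n * x`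
is integral over `W[S]` for some `n`. -/
def sIIA_ClearStatement : Prop :=
  ∀ (N : ℕ) (L : Type) [Field L] [Algebra ℚ L] (W : ValuationSubring L) (S : Set ↥(FL L N))
    (σ : ↥(FL L N)), σ ∈ baseRing W N S →
    ∀ x ∈ chart W N (insert σ⁻¹ S), ∃ n : ℕ, σ ^ n * x ∈ chart W N S

/-- (LocNoeth) `A' = A[1/σ]` is noetherian if `A` is. -/
def sIIA_LocNoethStatement : Prop :=
  ∀ (F : Type) [Field F] (A A' : Subring F), A ≤ A' → ∀ σ : F, σ ≠ 0 → σ ∈ A → σ⁻¹ ∈ A' →
    (∀ a' ∈ A', ∃ n : ℕ, σ ^ n * a' ∈ A) → IsNoetherianRing ↥A → IsNoetherianRing ↥A'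

/-- (Id, D1/D2) `B ∩ F = chart W N S`, where `B` is the integral closure of the cover ring `Λ` in `E`,
as soon as the image of `S` lies in `Λ` and the generators of `Λ` are integral over the image of
`W[S]`. -/
def sIIA_IdStatement : Prop :=
  ∀ (N : ℕ) (L : Type) [Field L] [Algebra ℚ L] (W : ValuationSubring L) (E : Type) [Field E]
    [Algebra ↥(FL L N) E] (t : E) (h : Polynomial ↥W) (S : Set ↥(FL L N)),
    (∀ s ∈ S, algebraMap ↥(FL L N) E s ∈ coverRing W N E t h) →
    IsIntegral ↥(baseRingE W N E (algebraMap ↥(FL L N) E '' S)) t →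
    IsIntegral ↥(baseRingE W N E (algebraMap ↥(FL L N) E '' S)) (evWE W N E t h)⁻¹ →
    (integralClosure ↥(coverRing W N E t h) E).toSubring.comap (algebraMap ↥(FL L N) E) =
      chart W N S

/-- (Q-i) The integral closure `B` of `Λ` in `E` is integrally closed in `E`. -/
def sIIA_QClosedStatement : Prop :=
  ∀ (E : Type) [Field E] (Λ : Subring E) (x : E),
    IsIntegral ↥(integralClosure ↥Λ E).toSubring x → x ∈ (integralClosure ↥Λ E).toSubring

/-- (Q-ii) If `E` is algebraic over `Λ`, every element of `E` is a fraction of elements of `B`. -/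
def sIIA_QFracStatement : Prop :=
  ∀ (E : Type) [Field E] (Λ : Subring E), Algebra.IsAlgebraic ↥Λ E →
    ∀ x : E, ∃ a ∈ (integralClosure ↥Λ E).toSubring, ∃ b ∈ (integralClosure ↥Λ E).toSubring,
      b ≠ 0 ∧ x * b = a

/-- (Q-iii) If `σ` preserves `Λ`, it preserves the integral closure `B` of `Λ` in `E`. -/
def sIIA_QStabStatement : Prop :=
  ∀ (F E : Type) [Field F] [Field E] [Algebra F E] (Λ : Subring E) (σ : E ≃ₐ[F] E),
    (∀ x ∈ Λ, σ x ∈ Λ) →
    ∀ x ∈ (integralClosure ↥Λ E).toSubring, σ x ∈ (integralClosure ↥Λ E).toSubring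

/-- (Q-alg) Transitivity: `F` algebraic over `R ⊆ F`, `E` algebraic over `F`, the image of `R` in `E`
contained in `Λ`; then `E` is algebraic over `Λ`. -/
def sIIA_QAlgStatement : Prop :=
  ∀ (F E : Type) [Field F] [Field E] [Algebra F E] (R : Subring F) (Λ : Subring E),
    Algebra.IsAlgebraic ↥R F → Algebra.IsAlgebraic F E → (∀ r ∈ R, algebraMap F E r ∈ Λ) →
    Algebra.IsAlgebraic ↥Λ E

end

end Fermat.Agent.S18
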