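/-
S18 — block S-II (twin A), package SII-Clear: clearing denominators for integral closures
(`chart W N (insert σ⁻¹ S) ⊆ chart W N S [1/σ]`), and `A[1/σ]` noetherian.  Name prefix `sIIA_clear_`.
-/
import Fermat.Agent.S18.SIIAInterfaces

set_option autoImplicit false

open ModularCurve AlgebraicCurve Polynomial

namespace Fermat.Agent.S18

/-! ## General lemmas -/

/-- If `σ ^ n * r ∈ R` and `σ ∈ R`, then `σ ^ n' * r ∈ R` for every `n' ≥ n`. -/
theorem sIIA_clear_pow_mono {F : Type*} [CommRing F] (R : Subring F) {σ : F} (hσ : σ ∈ R) {r : F}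
    {n n' : ℕ} (h : σ ^ n * r ∈ R) (hn : n ≤ n') : σ ^ n' * r ∈ R := by
  obtain ⟨k, rfl⟩ := Nat.exists_eq_add_of_le hn
  have h1 : σ ^ (n + k) * r = σ ^ k * (σ ^ n * r) := by ring
  rw [h1]
  exact R.mul_mem (R.pow_mem hσ k) h

/-- Step 1 (general form): if the generators of a subring can be multiplied into `R` by a power of
`σ ∈ R`, so can every element of the subring generated. -/
theorem sIIA_clear_closure {F : Type*} [CommRing F] (R : Subring F) {σ : F} (hσ : σ ∈ R)
    (T : Set F) (hT : ∀ t ∈ T, ∃ n : ℕ, σ ^ n * t ∈ R) :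
    ∀ r ∈ Subring.closure T, ∃ n : ℕ, σ ^ n * r ∈ R := by
  intro r hr
  induction hr using Subring.closure_induction with
  | mem x hx => exact hT x hx
  | zero => exact ⟨0, by rw [mul_zero]; exact R.zero_mem⟩
  | one => exact ⟨0, by rw [pow_zero, mul_one]; exact R.one_mem⟩
  | add x y _ _ hx hy =>
    obtain ⟨n, hn⟩ := hx
    obtain ⟨m, hm⟩ := hy
    refine ⟨n + m, ?_⟩
    have h1 : σ ^ (n + m) * (x + y) = σ ^ m * (σ ^ n * x) + σ ^ n * (σ ^ m * y) := by ring
    rw [h1]
    exact R.add_mem (R.mul_mem (R.pow_mem hσ m) hn) (R.mul_mem (R.pow_mem hσ n) hm)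
  | neg x _ hx =>
    obtain ⟨n, hn⟩ := hx
    refine ⟨n, ?_⟩
    rw [mul_neg]
    exact R.neg_mem hn
  | mul x y _ _ hx hy =>
    obtain ⟨n, hn⟩ := hx
    obtain ⟨m, hm⟩ := hy
    refine ⟨n + m, ?_⟩
    have h1 : σ ^ (n + m) * (x * y) = (σ ^ n * x) * (σ ^ m * y) := by ring
    rw [h1]
    exact R.mul_mem hn hm

/-- Step 2 (general form): clearing denominators in an integral dependence relation. -/
theorem sIIA_clear_integral {F : Type*} [CommRing F] (R R' : Subring F) (σ : F) (hσ : σ ∈ R)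
    (h1 : ∀ r' ∈ R', ∃ n : ℕ, σ ^ n * r' ∈ R) (x : F) (hx : IsIntegral ↥R' x) :
    ∃ n : ℕ, IsIntegral ↥R (σ ^ n * x) := by
  obtain ⟨p, hpm, hpx⟩ := hx
  have hPm : (p.map R'.subtype).Monic := hpm.map _
  have hPx : (p.map R'.subtype).eval x = 0 := by
    rw [Polynomial.eval_map]
    exact hpx
  have hPc : ∀ i, (p.map R'.subtype).coeff i ∈ R' := by
    intro i
    rw [Polynomial.coeff_map]
    exact (p.coeff i).2
  generalize p.map R'.subtype = P at hPm hPx hPc
  -- a uniform exponent for all coefficients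
  have hex : ∃ n : ℕ, ∀ i, σ ^ n * P.coeff i ∈ R := by
    choose! f hf using h1
    refine ⟨P.support.sup (fun i => f (P.coeff i)), fun i => ?_⟩
    by_cases hi : i ∈ P.support
    · exact sIIA_clear_pow_mono R hσ (hf _ (hPc i))
        (Finset.le_sup (f := fun i => f (P.coeff i)) hi)
    · rw [Polynomial.notMem_support_iff.1 hi, mul_zero]
      exact R.zero_mem
  obtain ⟨n, hn⟩ := hex
  refine ⟨n, ?_⟩
  have hQm : (P.scaleRoots (σ ^ n)).Monic := (Polynomial.monic_scaleRoots_iff _).2 hPm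
  have hQx : (P.scaleRoots (σ ^ n)).eval (σ ^ n * x) = 0 := by
    rw [Polynomial.scaleRoots_eval_mul, hPx, mul_zero]
  have hQc : ∀ i, (P.scaleRoots (σ ^ n)).coeff i ∈ R := by
    intro i
    rw [Polynomial.coeff_scaleRoots]
    rcases lt_trichotomy i P.natDegree with hi | hi | hi
    · have h2 : P.natDegree - i = (P.natDegree - i - 1) + 1 := by omega
      have h3 : P.coeff i * (σ ^ n) ^ (P.natDegree - i) =
          (σ ^ n) ^ (P.natDegree - i - 1) * (σ ^ n * P.coeff i) := by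
        conv_lhs => rw [h2, pow_succ]
        ring
      rw [h3]
      exact R.mul_mem (R.pow_mem (R.pow_mem hσ n) _) (hn i)
    · rw [hi, Nat.sub_self, pow_zero, mul_one, hPm.coeff_natDegree]
      exact R.one_mem
    · rw [Polynomial.coeff_eq_zero_of_natDegree_lt hi, zero_mul]
      exact R.zero_mem
  generalize P.scaleRoots (σ ^ n) = Q at hQm hQx hQc
  have hsub : (↑Q.coeffs : Set F) ⊆ ↑R := by
    intro c hc
    obtain ⟨i, -, rfl⟩ := Polynomial.mem_coeffs_iff.1 hc
    exact hQc i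
  refine ⟨Q.toSubring R hsub, (Polynomial.monic_toSubring Q R hsub).2 hQm, ?_⟩
  have h4 : Polynomial.eval₂ R.subtype (σ ^ n * x) (Q.toSubring R hsub) = 0 := by
    rw [← Polynomial.eval_map, Polynomial.map_toSubring]
    exact hQx
  exact h4

/-! ## The two deliverables -/

theorem sIIA_clear_main : sIIA_ClearStatement := by
  intro N L _ _ W S σ hσ x hx
  rw [mem_chart_iff] at hx
  have h1 : ∀ r' ∈ baseRing W N (insert σ⁻¹ S), ∃ n : ℕ, σ ^ n * r' ∈ baseRing W N S := by
    refine sIIA_clear_closure (baseRing W N S) hσ _ ?_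
    rintro t (⟨w, rfl⟩ | ht)
    · exact ⟨0, by rw [pow_zero, one_mul]; exact sIIA_cW_mem_baseRing W N S w⟩
    · rcases Set.mem_insert_iff.1 ht with rfl | ht
      · refine ⟨1, ?_⟩
        rw [pow_one]
        by_cases h0 : σ = 0
        · rw [h0, zero_mul]
          exact Subring.zero_mem _
        · rw [mul_inv_cancel₀ h0]
          exact Subring.one_mem _
      · exact ⟨0, by rw [pow_zero, one_mul]; exact sIIA_mem_baseRing W N ht⟩
  obtain ⟨n, hn⟩ := sIIA_clear_integral (baseRing W N S) (baseRing W N (insert σ⁻¹ S)) σ hσ h1 x hx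
  exact ⟨n, (mem_chart_iff W N S _).2 hn⟩

theorem sIIA_clear_locnoeth : sIIA_LocNoethStatement := by
  intro F _ A A' hAA' σ hσ0 hσA hσA' hclear hA
  have : IsNoetherianRing ↥A := hA
  let Φ : Polynomial ↥A →+* ↥A' :=
    Polynomial.eval₂RingHom (Subring.inclusion hAA') ⟨σ⁻¹, hσA'⟩
  have hsurj : Function.Surjective Φ := by
    intro a'
    obtain ⟨n, hn⟩ := hclear a'.1 a'.2
    refine ⟨Polynomial.C ⟨σ ^ n * a'.1, hn⟩ * Polynomial.X ^ n, ?_⟩
    apply Subtype.ext
    have h1 : Φ (Polynomial.C ⟨σ ^ n * a'.1, hn⟩ * Polynomial.X ^ n) =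
        Subring.inclusion hAA' ⟨σ ^ n * a'.1, hn⟩ * (⟨σ⁻¹, hσA'⟩ : ↥A') ^ n := by
      simp [Φ]
    rw [h1]
    show σ ^ n * a'.1 * (σ⁻¹) ^ n = a'.1
    have h2 : σ ^ n ≠ 0 := pow_ne_zero n hσ0
    rw [inv_pow]
    field_simp
  exact isNoetherianRing_of_surjective (Polynomial ↥A) ↥A' Φ hsurj

end Fermat.Agent.S18
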