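/-
S18 — block S-II (twin A): assemblies (D1) `SmCover1Statement` and (D2) `SmCover2Statement` from the
quotient lemma and the package statements.  Prefix `sIIA_`.
-/
import Fermat.Agent.S18.SIIAInterfaces

set_option autoImplicit false

open ModularCurve AlgebraicCurve Polynomial

namespace Fermat.Agent.S18

/-- The quotient lemma with the contraction `B ∩ F₀` given as a subring `C` of `F₀`. -/
theorem sIIA_quot (hQ : QuotientStatement) (F₀ E : Type) [Field F₀] [Field E] [CharZero F₀]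
    [Algebra F₀ E] [FiniteDimensional F₀ E] [IsGalois F₀ E] (B : Subring E) (C : Subring F₀)
    (hC : B.comap (algebraMap F₀ E) = C)
    (h1 : ∀ x : E, IsIntegral ↥B x → x ∈ B)
    (h2 : ∀ x : E, ∃ a ∈ B, ∃ b ∈ B, b ≠ 0 ∧ x * b = a)
    (h3 : ∀ (σ : E ≃ₐ[F₀] E), ∀ x ∈ B, σ x ∈ B)
    (h4 : IsNoetherianRing ↥C)
    (n : Ideal ↥C) [n.IsMaximal] (ϖ : ↥C) (h5 : ϖ ≠ 0) (h6 : ϖ ∈ n)
    (h7 : ∀ p : Polynomial ↥C, p.Monic → 0 < p.natDegree → ∃ a : ↥C, p.eval a ∈ n)
    (h8 : ∀ (M : Ideal ↥B) [M.IsMaximal] (ϖB : ↥B), (ϖB : E) = algebraMap F₀ E (ϖ : F₀) →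
        (∀ (c : ↥C) (b : ↥B), c ∈ n → (b : E) = algebraMap F₀ E (c : F₀) → b ∈ M) →
        IsDVRQuot (Localization.AtPrime M) (algebraMap ↥B (Localization.AtPrime M) ϖB)) :
    IsDVRQuot (Localization.AtPrime n) (algebraMap ↥C (Localization.AtPrime n) ϖ) := by
  subst hC
  exact hQ F₀ E B h1 h2 h3 h4 n ϖ h5 h6 h7 h8

/-- Common core of (D1) and (D2): descent of smoothness from the cover to `chart W N S`. -/
theorem sIIA_descent (hQ : QuotientStatement) (hRes : sIIA_ResStatement) (hId : sIIA_IdStatement)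
    (hQC : sIIA_QClosedStatement) (hQF : sIIA_QFracStatement) (hQS : sIIA_QStabStatement)
    (hQA : sIIA_QAlgStatement)
    (N : ℕ) [NeZero N] (ℓ : ℕ) [Fact ℓ.Prime] (L : Type) [Field L] [Algebra ℚ L]
    (W : ValuationSubring L) [IsDiscreteValuationRing ↥W] (k : Type) [Field k] [IsAlgClosed k]
    [CharP k ℓ] (res : ↥W →+* k) (ϖ : ↥W) (hD : BaseData N ℓ W res ϖ)
    (E : Type) [Field E] [Algebra ↥(FL L N) E] (t : E) (h : Polynomial ↥W)
    (hgen : IntermediateField.adjoin ↥(FL L N) {t} = ⊤) (hgal : IsGalois ↥(FL L N) E)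
    (hstab : ∀ (σ : E ≃ₐ[↥(FL L N)] E), ∀ x ∈ coverRing W N E t h, σ x ∈ coverRing W N E t h)
    (S : Set ↥(FL L N)) (hSfin : S.Finite)
    (hS : ∀ s ∈ S, algebraMap ↥(FL L N) E s ∈ coverRing W N E t h)
    (hint_t : IsIntegral ↥(baseRingE W N E (algebraMap ↥(FL L N) E '' S)) t)
    (hint_h : IsIntegral ↥(baseRingE W N E (algebraMap ↥(FL L N) E '' S)) (evWE W N E t h)⁻¹)
    (u : ↥(FL L N)) (hu : u ∈ S) (hualg : Algebra.IsAlgebraic ↥(baseRing W N {u}) ↥(FL L N))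
    (hNoeth : IsNoetherianRing ↥(chart W N S))
    (hB : ∀ (M : Ideal ↥(integralClosure ↥(coverRing W N E t h) E).toSubring) [M.IsMaximal]
        (ϖB : ↥(integralClosure ↥(coverRing W N E t h) E).toSubring),
        (ϖB : E) = cWE W N E ϖ → ϖB ∈ M →
        IsDVRQuot (Localization.AtPrime M)
          (algebraMap ↥(integralClosure ↥(coverRing W N E t h) E).toSubring
            (Localization.AtPrime M) ϖB))
    (n : Ideal ↥(chart W N S)) [n.IsMaximal] (ϖc : ↥(chart W N S))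
    (hϖ : (ϖc : ↥(FL L N)) = cW W N ϖ) (hn : ϖc ∈ n) :
    IsDVRQuot (Localization.AtPrime n) (algebraMap ↥(chart W N S) (Localization.AtPrime n) ϖc) := by
  have : CharZero ↥(FL L N) := sIIA_charZero N
  have : IsGalois ↥(FL L N) E := hgal
  have htint : IsIntegral ↥(FL L N) t := Algebra.IsIntegral.isIntegral t
  have : FiniteDimensional ↥(FL L N) E := by
    have h1 : FiniteDimensional ↥(FL L N) ↥(IntermediateField.adjoin ↥(FL L N) {t}) :=
      IntermediateField.adjoin.finiteDimensional htint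
    rw [hgen] at h1
    exact (IntermediateField.topEquiv (F := ↥(FL L N)) (E := E)).toLinearEquiv.finiteDimensional
  have hC := hId N L W E t h S hS hint_t hint_h
  have halgE : Algebra.IsAlgebraic ↥(coverRing W N E t h) E := by
    refine hQA ↥(FL L N) E (baseRing W N {u}) (coverRing W N E t h) hualg inferInstance ?_
    intro r hr
    exact sIIA_baseRing_le_comap W N E {u} (coverRing W N E t h)
      (sIIA_cWE_mem_coverRing W N E t h)
      (fun s hs => hS s (by rw [Set.mem_singleton_iff.1 hs]; exact hu)) hr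
  refine sIIA_quot hQ ↥(FL L N) E (integralClosure ↥(coverRing W N E t h) E).toSubring
    (chart W N S) hC (hQC E _) (hQF E _ halgE) (fun σ => hQS _ E _ σ (hstab σ)) hNoeth n ϖc ?_ hn
    (hRes N ℓ L W k res ϖ hD S hSfin n ϖc hϖ hn).2 ?_
  · intro h0
    have h1 : cW W N ϖ = 0 := by rw [← hϖ, h0]; rfl
    have h2 : ϖ = 0 := sIIA_cW_injective W N (by rw [h1, map_zero])
    exact hD.irreducible.ne_zero h2
  · intro M _ ϖB hϖB hM
    refine hB M ϖB ?_ (hM ϖc ϖB hn hϖB)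
    rw [hϖB, hϖ]
    rfl

/-- (Inv) `1/j` is transcendental over `L` and `F` is finite over `L(1/j) = L(j)`. -/
theorem sIIA_inv_main : FinLStatement → sIIA_InvStatement := by
  intro hFin N _ L _ _
  obtain ⟨hT, hfd⟩ := hFin N L
  refine ⟨?_, ?_⟩
  · intro halg
    apply hT
    have h1 : IsIntegral L (jF L N)⁻¹ := isAlgebraic_iff_isIntegral.1 halg
    have h2 := h1.inv
    rw [inv_inv] at h2
    exact isAlgebraic_iff_isIntegral.2 h2
  · have heq : IntermediateField.adjoin L {jF L N} = IntermediateField.adjoin L {(jF L N)⁻¹} := by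
      apply le_antisymm
      · rw [IntermediateField.adjoin_simple_le_iff]
        have := inv_mem (IntermediateField.mem_adjoin_simple_self L (jF L N)⁻¹)
        rwa [inv_inv] at this
      · rw [IntermediateField.adjoin_simple_le_iff]
        exact inv_mem (IntermediateField.mem_adjoin_simple_self L (jF L N))
    exact heq ▸ hfd

/-- (D1) `SmCover1Statement`. -/
theorem sIIA_d1_main (hQ : QuotientStatement) (hFin : FinLStatement) (hB1 : SmB1Statement)
    (hNoeth : sIIA_NoethStatement) (hRes : sIIA_ResStatement) (hId : sIIA_IdStatement)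
    (hQC : sIIA_QClosedStatement) (hQF : sIIA_QFracStatement) (hQS : sIIA_QStabStatement)
    (hQA : sIIA_QAlgStatement) : SmCover1Statement := by
  intro N _ ℓ _ L _ _ W _ k _ _ _ res ϖ hD hH E _ _ t h hc m _ ϖc hϖ hm
  obtain ⟨hT, hfd⟩ := hFin N L
  obtain ⟨hN, hA⟩ := hNoeth N L W (jF L N) hT hfd
  have himg : algebraMap ↥(FL L N) E '' {jF L N} = {jE L N E} := by
    rw [Set.image_singleton]; rfl
  exact sIIA_descent hQ hRes hId hQC hQF hQS hQA N ℓ L W k res ϖ hD E t h hc.gen hc.galois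
    hc.stab {jF L N} (Set.finite_singleton _)
    (by intro s hs; rw [Set.mem_singleton_iff.1 hs]; exact hc.j_mem)
    (by rw [himg]; exact hc.int_t) (by rw [himg]; exact hc.int_h)
    (jF L N) rfl hA hN (hB1 N ℓ L W k res ϖ hD hH E t h hc) m ϖc hϖ hm

/-- (D2) `SmCover2Statement`. -/
theorem sIIA_d2_main (hQ : QuotientStatement) (hFin : FinLStatement) (hB2 : SmB2Statement)
    (hNoeth : sIIA_NoethStatement) (hInv : sIIA_InvStatement) (hRes : sIIA_ResStatement)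
    (hId : sIIA_IdStatement) (hQC : sIIA_QClosedStatement) (hQF : sIIA_QFracStatement)
    (hQS : sIIA_QStabStatement) (hQA : sIIA_QAlgStatement) (hGlue : sIIA_GlueStatement)
    (hClear : sIIA_ClearStatement) (hLN : sIIA_LocNoethStatement) : SmCover2Statement := by
  intro N _ ℓ _ L _ _ W _ k _ _ _ res ϖ hD hH E _ _ t h hc m hmmax ϖc ji hϖ hm hji hjim
  obtain ⟨hT, hfd⟩ := hFin N L
  obtain ⟨hTi, hfdi⟩ := hInv N L
  obtain ⟨hN2, hA2⟩ := hNoeth N L W (jF L N)⁻¹ hTi hfdi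
  have hj0 : jF L N ≠ 0 := fun h0 => hT (h0 ▸ isAlgebraic_zero)
  have hj1728 : jF L N - 1728 ≠ 0 := by
    intro h0
    apply hT
    have h1 : jF L N = algebraMap L ↥(FL L N) 1728 := by
      rw [map_ofNat]; exact sub_eq_zero.1 h0
    rw [h1]
    exact isAlgebraic_algebraMap _
  have hσ0 : (1 - 1728 * (jF L N)⁻¹ : ↥(FL L N)) ≠ 0 := by
    have : (1 - 1728 * (jF L N)⁻¹ : ↥(FL L N)) = (jF L N - 1728) / jF L N := by
      field_simp
    rw [this]
    exact div_ne_zero hj1728 hj0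
  have hσinv : (1 - 1728 * (jF L N)⁻¹ : ↥(FL L N))⁻¹ = jF L N / (jF L N - 1728) := by
    have : (1 - 1728 * (jF L N)⁻¹ : ↥(FL L N)) = (jF L N - 1728) / jF L N := by
      field_simp
    rw [this, inv_div]
  have hS₂ : insert (1 - 1728 * (jF L N)⁻¹ : ↥(FL L N))⁻¹ {(jF L N)⁻¹} =
      ({(jF L N)⁻¹, jF L N / (jF L N - 1728)} : Set ↥(FL L N)) := by
    rw [hσinv]; exact Set.pair_comm _ _
  have hle : chart2 W N ≤ chart W N {(jF L N)⁻¹, jF L N / (jF L N - 1728)} :=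
    sIIA_chart_mono W N (by simp)
  have h1728 : (1728 : ↥(FL L N)) ∈ baseRing W N {(jF L N)⁻¹} := by
    have := sIIA_cW_mem_baseRing W N {(jF L N)⁻¹} 1728
    rwa [map_ofNat] at this
  have hσR : (1 - 1728 * (jF L N)⁻¹ : ↥(FL L N)) ∈ baseRing W N {(jF L N)⁻¹} :=
    sub_mem (one_mem _) (mul_mem h1728 (sIIA_mem_baseRing W N rfl))
  have hcl : ∀ a' ∈ chart W N {(jF L N)⁻¹, jF L N / (jF L N - 1728)},
      ∃ n : ℕ, (1 - 1728 * (jF L N)⁻¹ : ↥(FL L N)) ^ n * a' ∈ chart2 W N := by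
    have := hClear N L W {(jF L N)⁻¹} _ hσR
    rw [hS₂] at this
    exact this
  have hσ2 : (1 - 1728 * (jF L N)⁻¹ : ↥(FL L N)) ∈ chart2 W N :=
    sIIA_baseRing_le_chart W N _ hσR
  have hσinv' : (1 - 1728 * (jF L N)⁻¹ : ↥(FL L N))⁻¹ ∈
      chart W N {(jF L N)⁻¹, jF L N / (jF L N - 1728)} := by
    rw [hσinv]; exact sIIA_mem_chart W N (by simp)
  have hNS₂ : IsNoetherianRing ↥(chart W N {(jF L N)⁻¹, jF L N / (jF L N - 1728)}) :=
    hLN _ (chart2 W N) _ hle _ hσ0 hσ2 hσinv' hcl hN2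
  obtain ⟨hGa, hGb⟩ := hGlue _ (chart2 W N) _ hle _ hσ0 hσ2 hσinv' hcl
  have hσm : (⟨_, hσ2⟩ : ↥(chart2 W N)) ∉ m := by
    intro hmem
    apply hmmax.ne_top
    rw [Ideal.eq_top_iff_one]
    have h1 : (1 : ↥(chart2 W N)) =
        ⟨_, hσ2⟩ + ⟨1728, sIIA_baseRing_le_chart W N _ h1728⟩ * ji := by
      apply Subtype.ext
      push_cast
      rw [hji]
      ring
    rw [h1]
    exact m.add_mem hmem (m.mul_mem_left _ hjim)
  obtain ⟨n, hnmax, hn⟩ := hGa m ⟨_, hσ2⟩ rfl hσm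
  have hϖ'n : (⟨cW W N ϖ, sIIA_cW_mem_chart W N _ ϖ⟩ :
      ↥(chart W N {(jF L N)⁻¹, jF L N / (jF L N - 1728)})) ∈ n :=
    (hn ϖc ⟨cW W N ϖ, sIIA_cW_mem_chart W N _ ϖ⟩ hϖ.symm).2 hm
  have himg : algebraMap ↥(FL L N) E '' {(jF L N)⁻¹, jF L N / (jF L N - 1728)} =
      {(jE L N E)⁻¹, jE L N E / (jE L N E - 1728)} := by
    rw [Set.image_pair, map_inv₀, map_div₀, map_sub, map_ofNat]
    rfl
  have key := sIIA_descent hQ hRes hId hQC hQF hQS hQA N ℓ L W k res ϖ hD E t h hc.gen hc.galois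
    hc.stab {(jF L N)⁻¹, jF L N / (jF L N - 1728)} (Set.toFinite _)
    (by
      intro s hs
      rcases hs with rfl | hs
      · rw [map_inv₀]; exact hc.jinv_mem
      · rw [Set.mem_singleton_iff.1 hs, map_div₀, map_sub, map_ofNat]; exact hc.jfrac_mem)
    (by rw [himg]; exact hc.int_t) (by rw [himg]; exact hc.int_h)
    (jF L N)⁻¹ (by simp) hA2 hNS₂ (hB2 N ℓ L W k res ϖ hD hH E t h hc) n
    ⟨cW W N ϖ, sIIA_cW_mem_chart W N _ ϖ⟩ rfl hϖ'n
  exact (hGb n m hn ϖc ⟨cW W N ϖ, sIIA_cW_mem_chart W N _ ϖ⟩ hϖ.symm).2 key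

end Fermat.Agent.S18
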