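/-
S18 — block S-II (twin A), package Glue (GL): glueing lemma for `A ≤ A' ⊆ A[1/σ]` inside a field
(pure commutative algebra).  Prefix `sIIA_glue_`.

(a) every maximal ideal `m` of `A` not containing `σ` is the contraction of a maximal ideal of `A'`;
(b) for a prime `n` of `A'` with contraction `m`, the local rings `A_m` and `A'_n` coincide as subrings
of the ambient field, so `IsDVRQuot` transfers.
-/
import Fermat.Agent.S18.SIIAInterfaces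

set_option autoImplicit false

namespace Fermat.Agent.S18

section

variable {F : Type} [Field F]

/-- Transport of `IsDVRQuot` along an equality of subrings of `F`. -/
theorem sIIA_glue_transport (R R' : Subring F) (h : R = R') (y : F) (hy : y ∈ R) (hy' : y ∈ R') :
    IsDVRQuot ↥R ⟨y, hy⟩ ↔ IsDVRQuot ↥R' ⟨y, hy'⟩ := by
  subst h
  exact Iff.rfl

/-- Exponents can be raised. -/
theorem sIIA_glue_pow_mem {A : Subring F} {σ : F} (hσ : σ ∈ A) {a : F} {n : ℕ}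
    (h : σ ^ n * a ∈ A) (k : ℕ) : σ ^ (n + k) * a ∈ A := by
  have h1 : σ ^ (n + k) * a = σ ^ k * (σ ^ n * a) := by ring
  rw [h1]
  exact A.mul_mem (A.pow_mem hσ k) h

/-- An element of `F` equal to (the value of) an element of the ideal `m` of `A`. -/
theorem sIIA_glue_mem_of_eq {A : Subring F} (m : Ideal ↥A) {y : ↥A} (hy : y ∈ m) {z : F}
    (hz : (y : F) = z) : ∃ h : z ∈ A, (⟨z, h⟩ : ↥A) ∈ m := by
  subst hz
  exact ⟨y.2, hy⟩

/-- `σ` is a unit of `A'`: membership in an ideal of `A'` is insensitive to powers of `σ`. -/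
theorem sIIA_glue_unit {A' : Subring F} {σ : F} (hσ0 : σ ≠ 0) (hσi : σ⁻¹ ∈ A') (n : Ideal ↥A')
    (k : ℕ) {a' : ↥A'} {z : ↥A'} (hz : (z : F) = σ ^ k * (a' : F)) (hzn : z ∈ n) : a' ∈ n := by
  have h2 : a' = (⟨σ⁻¹, hσi⟩ : ↥A') ^ k * z := by
    apply Subtype.ext
    push_cast
    rw [hz, ← mul_assoc, ← mul_pow, inv_mul_cancel₀ hσ0, one_pow, one_mul]
  rw [h2]
  exact n.mul_mem_left _ hzn

/-- (b), key step: the two localisations coincide as subrings of `F`. -/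
theorem sIIA_glue_locSub_eq (A A' : Subring F) (hAA' : A ≤ A') (σ : F) (hσ0 : σ ≠ 0)
    (hσ : σ ∈ A) (hσi : σ⁻¹ ∈ A') (hcl : ∀ a' ∈ A', ∃ n : ℕ, σ ^ n * a' ∈ A)
    (n : Ideal ↥A') [n.IsPrime] (m : Ideal ↥A) [m.IsPrime]
    (hnm : ∀ (a : ↥A) (a' : ↥A'), (a' : F) = (a : F) → (a' ∈ n ↔ a ∈ m)) :
    locSub A m = locSub A' n := by
  apply le_antisymm
  · rintro x ⟨a, s, hs, hxs⟩
    refine ⟨⟨(a : F), hAA' a.2⟩, ⟨(s : F), hAA' s.2⟩, ?_, hxs⟩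
    intro h
    exact hs ((hnm s ⟨(s : F), hAA' s.2⟩ rfl).1 h)
  · rintro x ⟨a', s', hs', hxs⟩
    obtain ⟨k, hk⟩ := hcl (a' : F) a'.2
    obtain ⟨l, hl⟩ := hcl (s' : F) s'.2
    have hk' : σ ^ (k + l) * (a' : F) ∈ A := sIIA_glue_pow_mem hσ hk l
    have hl' : σ ^ (k + l) * (s' : F) ∈ A := by
      rw [add_comm]
      exact sIIA_glue_pow_mem hσ hl k
    refine ⟨⟨_, hk'⟩, ⟨_, hl'⟩, ?_, ?_⟩
    · intro hmem
      have h1 : (⟨σ ^ (k + l) * (s' : F), hAA' hl'⟩ : ↥A') ∈ n :=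
        (hnm ⟨_, hl'⟩ ⟨_, hAA' hl'⟩ rfl).2 hmem
      exact hs' (sIIA_glue_unit hσ0 hσi n (k + l) rfl h1)
    · show x * (σ ^ (k + l) * (s' : F)) = σ ^ (k + l) * (a' : F)
      rw [← hxs]
      ring

/-- (a): the ideal `n = m A[1/σ] ∩ A'` of `A'`. -/
def sIIA_glue_ideal (A A' : Subring F) (σ : F) (hσ : σ ∈ A)
    (hcl : ∀ a' ∈ A', ∃ n : ℕ, σ ^ n * a' ∈ A) (m : Ideal ↥A) : Ideal ↥A' where
  carrier := {a' | ∃ (k : ℕ) (h : σ ^ k * (a' : F) ∈ A), (⟨σ ^ k * (a' : F), h⟩ : ↥A) ∈ m}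
  add_mem' := by
    rintro a' b' ⟨k, hk, hkm⟩ ⟨l, hl, hlm⟩
    have h1 : (⟨σ, hσ⟩ : ↥A) ^ l * ⟨σ ^ k * (a' : F), hk⟩
        + (⟨σ, hσ⟩ : ↥A) ^ k * ⟨σ ^ l * (b' : F), hl⟩ ∈ m :=
      m.add_mem (m.mul_mem_left _ hkm) (m.mul_mem_left _ hlm)
    have h2 : (((⟨σ, hσ⟩ : ↥A) ^ l * ⟨σ ^ k * (a' : F), hk⟩
        + (⟨σ, hσ⟩ : ↥A) ^ k * ⟨σ ^ l * (b' : F), hl⟩ : ↥A) : F)
        = σ ^ (k + l) * ((a' + b' : ↥A') : F) := by
      push_cast
      ring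
    obtain ⟨h, hm⟩ := sIIA_glue_mem_of_eq m h1 h2
    exact ⟨k + l, h, hm⟩
  zero_mem' := by
    refine ⟨0, ?_, ?_⟩
    · simp
    · have h0 : (⟨σ ^ 0 * ((0 : ↥A') : F), by simp⟩ : ↥A) = 0 := by
        apply Subtype.ext
        simp
      rw [h0]
      exact m.zero_mem
  smul_mem' := by
    rintro c' a' ⟨k, hk, hkm⟩
    obtain ⟨l, hl⟩ := hcl (c' : F) c'.2
    have h1 : (⟨σ ^ l * (c' : F), hl⟩ : ↥A) * ⟨σ ^ k * (a' : F), hk⟩ ∈ m :=
      m.mul_mem_left _ hkm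
    have h2 : (((⟨σ ^ l * (c' : F), hl⟩ : ↥A) * ⟨σ ^ k * (a' : F), hk⟩ : ↥A) : F)
        = σ ^ (k + l) * ((c' • a' : ↥A') : F) := by
      rw [smul_eq_mul]
      push_cast
      ring
    obtain ⟨h, hm⟩ := sIIA_glue_mem_of_eq m h1 h2
    exact ⟨k + l, h, hm⟩

theorem sIIA_glue_mem_ideal_iff (A A' : Subring F) (σ : F) (hσ : σ ∈ A)
    (hcl : ∀ a' ∈ A', ∃ n : ℕ, σ ^ n * a' ∈ A) (m : Ideal ↥A) (a' : ↥A') :
    a' ∈ sIIA_glue_ideal A A' σ hσ hcl m ↔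
      ∃ (k : ℕ) (h : σ ^ k * (a' : F) ∈ A), (⟨σ ^ k * (a' : F), h⟩ : ↥A) ∈ m :=
  Iff.rfl

/-- (a): `n ∩ A = m`. -/
theorem sIIA_glue_ideal_contract (A A' : Subring F) (σ : F) (hσ : σ ∈ A)
    (hcl : ∀ a' ∈ A', ∃ n : ℕ, σ ^ n * a' ∈ A) (m : Ideal ↥A) [hm : m.IsPrime]
    (σA : ↥A) (hσA : (σA : F) = σ) (hσm : σA ∉ m) (a : ↥A) (a' : ↥A')
    (haa' : (a' : F) = (a : F)) :
    a' ∈ sIIA_glue_ideal A A' σ hσ hcl m ↔ a ∈ m := by
  rw [sIIA_glue_mem_ideal_iff]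
  constructor
  · rintro ⟨k, hk, hkm⟩
    have h1 : (⟨σ ^ k * (a' : F), hk⟩ : ↥A) = σA ^ k * a := by
      apply Subtype.ext
      push_cast
      rw [hσA, haa']
    rw [h1] at hkm
    rcases hm.mem_or_mem hkm with h | h
    · exact absurd (hm.mem_of_pow_mem k h) hσm
    · exact h
  · intro ham
    have h0 : σ ^ 0 * (a' : F) ∈ A := by
      rw [pow_zero, one_mul, haa']
      exact a.2
    refine ⟨0, h0, ?_⟩
    have h1 : (⟨σ ^ 0 * (a' : F), h0⟩ : ↥A) = a := by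
      apply Subtype.ext
      show σ ^ 0 * (a' : F) = (a : F)
      rw [pow_zero, one_mul, haa']
    rw [h1]
    exact ham

/-- (a): `n` is maximal. -/
theorem sIIA_glue_ideal_isMaximal (A A' : Subring F) (hAA' : A ≤ A') (σ : F) (hσ : σ ∈ A)
    (hcl : ∀ a' ∈ A', ∃ n : ℕ, σ ^ n * a' ∈ A) (m : Ideal ↥A) [hm : m.IsMaximal]
    (σA : ↥A) (hσA : (σA : F) = σ) (hσm : σA ∉ m) :
    (sIIA_glue_ideal A A' σ hσ hcl m).IsMaximal := by
  have hmp : m.IsPrime := hm.isPrime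
  have hc := sIIA_glue_ideal_contract A A' σ hσ hcl m σA hσA hσm
  rw [Ideal.isMaximal_iff]
  refine ⟨?_, ?_⟩
  · intro h1
    have h2 : (1 : ↥A) ∈ m := (hc 1 1 rfl).1 h1
    exact hm.ne_top ((Ideal.eq_top_iff_one m).2 h2)
  · intro J x hnJ hxn hxJ
    obtain ⟨k, hk⟩ := hcl (x : F) x.2
    have ham : (⟨σ ^ k * (x : F), hk⟩ : ↥A) ∉ m := fun h => hxn ⟨k, hk, h⟩
    obtain ⟨y, i, hi, hyi⟩ := hm.exists_inv ham
    have hi' : (⟨(i : F), hAA' i.2⟩ : ↥A') ∈ J := hnJ ((hc i ⟨(i : F), hAA' i.2⟩ rfl).2 hi)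
    have h1 : (1 : ↥A') = (⟨(y : F), hAA' y.2⟩ * ⟨σ, hAA' hσ⟩ ^ k) * x + ⟨(i : F), hAA' i.2⟩ := by
      apply Subtype.ext
      have h2 := congrArg (fun z : ↥A => (z : F)) hyi
      simp only [Subring.coe_add, Subring.coe_mul, Subring.coe_one] at h2
      push_cast
      rw [← h2]
      ring
    rw [h1]
    exact J.add_mem (J.mul_mem_left _ hxJ) hi'

end

/-- Package Glue (GL). -/
theorem sIIA_glue_main : LocSubStatement → sIIA_GlueStatement := by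
  intro hLoc F _ A A' hAA' σ hσ0 hσ hσi hcl
  refine ⟨?_, ?_⟩
  · intro m hm σA hσA hσm
    have : m.IsPrime := hm.isPrime
    exact ⟨sIIA_glue_ideal A A' σ hσ hcl m,
      sIIA_glue_ideal_isMaximal A A' hAA' σ hσ hcl m σA hσA hσm,
      sIIA_glue_ideal_contract A A' σ hσ hcl m σA hσA hσm⟩
  · intro n hn m hm hnm x x' hxx'
    have heq : locSub A m = locSub A' n :=
      sIIA_glue_locSub_eq A A' hAA' σ hσ0 hσ hσi hcl n m hnm
    have hx : (x : F) ∈ locSub A m := le_locSub A m x.2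
    have hx' : (x' : F) ∈ locSub A' n := le_locSub A' n x'.2
    have hx'' : (x : F) ∈ locSub A' n := hxx' ▸ hx'
    have e1 := hLoc F A m x hx
    have e2 := hLoc F A' n x' hx'
    have e3 : IsDVRQuot ↥(locSub A m) ⟨(x : F), hx⟩ ↔ IsDVRQuot ↥(locSub A' n) ⟨(x : F), hx''⟩ :=
      sIIA_glue_transport (locSub A m) (locSub A' n) heq (x : F) hx hx''
    have e4 : (⟨(x : F), hx''⟩ : ↥(locSub A' n)) = ⟨(x' : F), hx'⟩ := Subtype.ext hxx'.symm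
    rw [e4] at e3
    exact e1.trans (e3.trans e2.symm)

end Fermat.Agent.S18
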