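/-
S18 — block S-II (twin A), package SII-Id (D1/D2): `B ∩ F = chart W N S` for the integral closure `B` of
the cover ring `Λ = W[t, 1/h(t)]` in `E`.  Name prefix `sIIA_id_`.
-/
import Fermat.Agent.S18.SIIAInterfaces

set_option autoImplicit false

open ModularCurve AlgebraicCurve Polynomial

namespace Fermat.Agent.S18

noncomputable section

/-- Integrality over a subring is transported by a ring homomorphism to integrality over the image
subring. -/
theorem sIIA_id_isIntegral_map {A B : Type*} [CommRing A] [CommRing B] (f : A →+* B)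
    (R : Subring A) {x : A} (hx : IsIntegral ↥R x) : IsIntegral ↥(R.map f) (f x) := by
  obtain ⟨p, hp, hpx⟩ := hx
  let ρ : ↥R →+* ↥(R.map f) :=
    (f.comp R.subtype).codRestrict (R.map f) (fun r => ⟨r.1, r.2, rfl⟩)
  refine ⟨p.map ρ, hp.map ρ, ?_⟩
  have hcomp : (algebraMap ↥(R.map f) B).comp ρ = f.comp (algebraMap ↥R A) := rfl
  rw [Polynomial.eval₂_map, hcomp, ← Polynomial.hom_eval₂, hpx, map_zero]

/-- Integrality over the image subring descends along an injective ring homomorphism. -/
theorem sIIA_id_isIntegral_of_map {A B : Type*} [CommRing A] [CommRing B] (f : A →+* B)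
    (hf : Function.Injective f) (R : Subring A) {x : A}
    (hx : IsIntegral ↥(R.map f) (f x)) : IsIntegral ↥R x := by
  obtain ⟨q, hq, hqx⟩ := hx
  let ρ : ↥R →+* ↥(R.map f) :=
    (f.comp R.subtype).codRestrict (R.map f) (fun r => ⟨r.1, r.2, rfl⟩)
  have hρs : Function.Surjective ρ := by
    rintro ⟨_, r, hr, rfl⟩
    exact ⟨⟨r, hr⟩, rfl⟩
  have hρi : Function.Injective ρ := by
    intro a b hab
    apply Subtype.ext
    apply hf
    exact congrArg Subtype.val hab
  obtain ⟨p, rfl⟩ := Polynomial.map_surjective ρ hρs q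
  refine ⟨p, Polynomial.monic_of_injective hρi hq, ?_⟩
  apply hf
  have hcomp : (algebraMap ↥(R.map f) B).comp ρ = f.comp (algebraMap ↥R A) := rfl
  rw [Polynomial.eval₂_map, hcomp, ← Polynomial.hom_eval₂] at hqx
  rw [hqx, map_zero]

/-- Transitivity of integrality for subrings `R ≤ R'` of a commutative ring. -/
theorem sIIA_id_isIntegral_trans {A : Type*} [CommRing A] {R R' : Subring A} (hle : R ≤ R')
    (hint : ∀ y ∈ R', IsIntegral ↥R y) {x : A} (hx : IsIntegral ↥R' x) : IsIntegral ↥R x := by
  let _ : Algebra ↥R ↥R' := (Subring.inclusion hle).toAlgebra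
  have : IsScalarTower ↥R ↥R' A := IsScalarTower.of_algebraMap_eq (fun _ => rfl)
  have : Algebra.IsIntegral ↥R ↥R' := ⟨fun y => by
    have h1 : IsIntegral ↥R ((algebraMap ↥R' A) y) := hint y.1 y.2
    exact (isIntegral_algebraMap_iff (R := ↥R) (A := ↥R') (B := A) Subtype.val_injective).1 h1⟩
  exact isIntegral_trans (R := ↥R) (A := ↥R') x hx

/-- (Id, D1/D2) `B ∩ F = chart W N S`. -/
theorem sIIA_id_main : sIIA_IdStatement := by
  intro N L _ _ W E _ _ t h S H1 H2 H3
  have hιinj : Function.Injective (algebraMap ↥(FL L N) E) := (algebraMap ↥(FL L N) E).injective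
  -- (0) `R_E = R.map ι` and `R_E ≤ Λ`
  have hmap : baseRingE W N E (algebraMap ↥(FL L N) E '' S) =
      (baseRing W N S).map (algebraMap ↥(FL L N) E) := by
    unfold baseRingE baseRing
    rw [RingHom.map_closure, Set.image_union, ← Set.range_comp]
    rfl
  have hle : baseRingE W N E (algebraMap ↥(FL L N) E '' S) ≤ coverRing W N E t h := by
    refine Subring.closure_le.2 ?_
    rintro x (⟨w, rfl⟩ | ⟨s, hs, rfl⟩)
    · exact sIIA_cWE_mem_coverRing W N E t h w
    · exact H1 s hs
  -- (i) every element of `Λ` is integral over `R_E`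
  have hint : ∀ y ∈ coverRing W N E t h,
      IsIntegral ↥(baseRingE W N E (algebraMap ↥(FL L N) E '' S)) y := by
    have hcl : coverRing W N E t h ≤
        (integralClosure ↥(baseRingE W N E (algebraMap ↥(FL L N) E '' S)) E).toSubring := by
      refine Subring.closure_le.2 ?_
      rintro x (⟨w, rfl⟩ | hx)
      · exact isIntegral_algebraMap (R := ↥(baseRingE W N E (algebraMap ↥(FL L N) E '' S)))
          (x := ⟨cWE W N E w, Subring.subset_closure (Or.inl ⟨w, rfl⟩)⟩)
      · rcases hx with rfl | rfl
        · exact H2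
        · exact H3
    exact fun y hy => hcl hy
  ext x
  change IsIntegral ↥(coverRing W N E t h) (algebraMap ↥(FL L N) E x) ↔
    IsIntegral ↥(baseRing W N S) x
  constructor
  · intro hx
    have h1 : IsIntegral ↥(baseRingE W N E (algebraMap ↥(FL L N) E '' S))
        (algebraMap ↥(FL L N) E x) := sIIA_id_isIntegral_trans hle hint hx
    rw [hmap] at h1
    exact sIIA_id_isIntegral_of_map (algebraMap ↥(FL L N) E) hιinj _ h1
  · intro hx
    have h1 : IsIntegral ↥((baseRing W N S).map (algebraMap ↥(FL L N) E))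
        (algebraMap ↥(FL L N) E x) := sIIA_id_isIntegral_map (algebraMap ↥(FL L N) E) _ hx
    rw [← hmap] at h1
    exact sIIA_isIntegral_of_le hle h1

end

end Fermat.Agent.S18
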