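/-
S18 — block S-II (twin A), package SII-Noeth (D0), twin file.  Name prefix `sIIA_noethT_`.

For `u` transcendental over `L` with `F / L(u)` finite: the chart `chart W N {u}` (integral closure of
`W[u]` in `F`) is a noetherian ring and `F` is algebraic over `W[u]`.
-/
import Fermat.Agent.S18.SIIAInterfaces

set_option autoImplicit false

open ModularCurve AlgebraicCurve Polynomial

namespace Fermat.Agent.S18

noncomputable section

/-- Abstract form: `R ⊆ K ⊆ F` with `R` a noetherian integrally closed subring, `K = Frac R` an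
intermediate field (characteristic `0`) and `F / K` finite.  Then the integral closure of `R` in `F` is
noetherian and `F` is algebraic over `R`. -/
theorem sIIA_noethT_aux {L F : Type} [Field L] [Field F] [Algebra L F] [CharZero L]
    (R : Subring F) (K : IntermediateField L F)
    (hfin : FiniteDimensional ↥K F)
    (h1 : IsNoetherianRing ↥R) (h2 : IsIntegrallyClosed ↥R)
    (h3 : ∀ x ∈ R, x ∈ K)
    (h4 : ∀ x ∈ K, ∃ a ∈ R, ∃ b ∈ R, b ≠ 0 ∧ x * b = a) :
    IsNoetherianRing ↥(integralClosure ↥R F).toSubring ∧ Algebra.IsAlgebraic ↥R F := by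
  classical
  let ι : ↥R →+* ↥K :=
    { toFun := fun x => ⟨(x : F), h3 x x.2⟩
      map_one' := rfl
      map_mul' := fun _ _ => rfl
      map_zero' := rfl
      map_add' := fun _ _ => rfl }
  let algRK : Algebra ↥R ↥K := ι.toAlgebra
  have tower : IsScalarTower ↥R ↥K F := IsScalarTower.of_algebraMap_eq (fun _ => rfl)
  have hinj : Function.Injective (algebraMap ↥R ↥K) := by
    intro a b hab
    have : ((algebraMap ↥R ↥K a : ↥K) : F) = ((algebraMap ↥R ↥K b : ↥K) : F) := congrArg _ hab
    exact Subtype.ext this
  have : FaithfulSMul ↥R ↥K := (faithfulSMul_iff_algebraMap_injective _ _).2 hinj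
  have frac : IsFractionRing ↥R ↥K := by
    refine IsFractionRing.of_field ↥R ↥K ?_
    intro z
    obtain ⟨a, ha, b, hb, hb0, hab⟩ := h4 z z.2
    refine ⟨⟨a, ha⟩, ⟨b, hb⟩, ?_⟩
    have hb0' : algebraMap ↥R ↥K ⟨b, hb⟩ ≠ 0 := by
      intro h
      apply hb0
      have : ((algebraMap ↥R ↥K ⟨b, hb⟩ : ↥K) : F) = ((0 : ↥K) : F) := congrArg _ h
      exact this
    rw [eq_div_iff hb0']
    exact Subtype.ext hab
  have : CharZero ↥K := charZero_of_injective_algebraMap (algebraMap L ↥K).injective
  have : Algebra.IsAlgebraic ↥K F := Algebra.IsAlgebraic.of_finite ↥K F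
  have : Algebra.IsSeparable ↥K F := Algebra.IsAlgebraic.isSeparable_of_perfectField
  constructor
  · have := IsIntegralClosure.isNoetherianRing ↥R ↥K F ↥(integralClosure ↥R F)
    exact this
  · exact (IsFractionRing.comap_isAlgebraic_iff (A := ↥R) (K := ↥K) (C := F)).2 inferInstance

/-- (Noeth, D0) For `u` transcendental over `L` with `F / L(u)` finite: the chart `chart W N {u}` is a
noetherian ring, and `F` is algebraic over `W[u]`. -/
theorem sIIA_noethT_main : sIIA_PolyStatement → sIIA_NoethStatement := by
  intro hP N L _ _ W _ u hu hfin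
  obtain ⟨h1, h2, h3, h4⟩ := hP N L W u hu
  have : CharZero L := algebraRat.charZero L
  exact sIIA_noethT_aux (baseRing W N {u}) (IntermediateField.adjoin L {u}) hfin h1 h2 h3 h4

end

end Fermat.Agent.S18
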