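/-
S18 — block S-II (twin A), package SII-Poly: for `u ∈ F = ↥(FL L N)` transcendental over `L`, the ring
`W[u] = baseRing W N {u}` is isomorphic to the polynomial ring `W[X]`; hence it is noetherian and
integrally closed; it is contained in `L(u)` and every element of `L(u)` is a fraction of elements
of `W[u]`.  Name prefix `sIIA_poly_`.
-/
import Fermat.Agent.S18.SIIAInterfaces

set_option autoImplicit false

open ModularCurve AlgebraicCurve Polynomial

namespace Fermat.Agent.S18

noncomputable section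

section Poly

variable {L : Type} [Field L] [Algebra ℚ L] (W : ValuationSubring L) (N : ℕ)

/-- `P(u)` for `P ∈ W[X]` is the value at `u` of the image of `P` in `L[X]`. -/
theorem sIIA_poly_evW_eq_aeval (u : ↥(FL L N)) (p : Polynomial ↥W) :
    evW W N u p = Polynomial.aeval u (p.map W.subtype) := by
  rw [Polynomial.aeval_def, Polynomial.eval₂_map]
  rfl

/-- `P(u) ∈ W[u]`. -/
theorem sIIA_poly_evW_mem (u : ↥(FL L N)) (p : Polynomial ↥W) :
    evW W N u p ∈ baseRing W N {u} := by
  change Polynomial.eval₂ (cW W N) u p ∈ baseRing W N {u}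
  rw [Polynomial.eval₂_eq_sum_range]
  refine Subring.sum_mem _ (fun i _ => ?_)
  exact Subring.mul_mem _ (sIIA_cW_mem_baseRing W N _ _)
    (Subring.pow_mem _ (sIIA_mem_baseRing W N (Set.mem_singleton u)) _)

/-- Every element of `W[u]` is of the form `P(u)`. -/
theorem sIIA_poly_exists_evW (u : ↥(FL L N)) {x : ↥(FL L N)} (hx : x ∈ baseRing W N {u}) :
    ∃ p : Polynomial ↥W, evW W N u p = x := by
  have h : baseRing W N {u} ≤ (evW W N u).range := by
    refine Subring.closure_le.2 ?_
    rintro y (⟨w, rfl⟩ | hy)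
    · exact ⟨Polynomial.C w, Polynomial.eval₂_C _ _⟩
    · rw [Set.mem_singleton_iff] at hy
      subst hy
      exact ⟨Polynomial.X, Polynomial.eval₂_X _ _⟩
  exact h hx

/-- For `u` transcendental over `L`, `P ↦ P(u)` is injective on `W[X]`. -/
theorem sIIA_poly_evW_injective (u : ↥(FL L N)) (hu : Transcendental L u) :
    Function.Injective (evW W N u) := by
  rw [injective_iff_map_eq_zero]
  intro p hp
  rw [sIIA_poly_evW_eq_aeval] at hp
  have h0 : p.map W.subtype = 0 := (transcendental_iff.1 hu) _ hp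
  exact Polynomial.map_injective _ Subtype.val_injective (by rw [h0, Polynomial.map_zero])

/-- The isomorphism `W[X] ≃ W[u]` for `u` transcendental over `L`. -/
def sIIA_poly_equiv (u : ↥(FL L N)) (hu : Transcendental L u) :
    Polynomial ↥W ≃+* ↥(baseRing W N {u}) :=
  RingEquiv.ofBijective ((evW W N u).codRestrict (baseRing W N {u}) (sIIA_poly_evW_mem W N u))
    ⟨fun p q hpq => sIIA_poly_evW_injective W N u hu (congrArg Subtype.val hpq),
     fun x => by
      obtain ⟨p, hp⟩ := sIIA_poly_exists_evW W N u x.2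
      exact ⟨p, Subtype.ext hp⟩⟩

/-- `W[u] ⊆ L(u)`. -/
theorem sIIA_poly_le_adjoin (u : ↥(FL L N)) :
    ∀ x ∈ baseRing W N {u}, x ∈ IntermediateField.adjoin L {u} := by
  have h : baseRing W N {u} ≤ (IntermediateField.adjoin L {u}).toSubring := by
    refine Subring.closure_le.2 ?_
    rintro y (⟨w, rfl⟩ | hy)
    · exact (IntermediateField.adjoin L {u}).algebraMap_mem (w : L)
    · rw [Set.mem_singleton_iff] at hy
      subst hy
      exact IntermediateField.mem_adjoin_simple_self L y
  exact fun x hx => h hx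

/-- Clearing denominators: for `p ∈ L[X]` there are `d ∈ W`, `d ≠ 0` and `P ∈ W[X]` with
`P(u) = d * p(u)`. -/
theorem sIIA_poly_clear (u : ↥(FL L N)) (p : Polynomial L) :
    ∃ (d : ↥W) (P : Polynomial ↥W), d ≠ 0 ∧
      evW W N u P = cW W N d * Polynomial.aeval u p := by
  obtain ⟨d, hd, hP⟩ := IsLocalization.integerNormalization_spec (nonZeroDivisors ↥W) p
  refine ⟨d, IsLocalization.integerNormalization (nonZeroDivisors ↥W) p,
    nonZeroDivisors.ne_zero hd, ?_⟩
  rw [sIIA_poly_evW_eq_aeval]
  have h1 : (IsLocalization.integerNormalization (nonZeroDivisors ↥W) p).map W.subtype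
      = d • p := hP
  rw [h1, ← algebraMap_smul L d p, map_smul, Algebra.smul_def]
  rfl

/-- Every element of `L(u)` is a fraction of elements of `W[u]`. -/
theorem sIIA_poly_frac (u : ↥(FL L N)) :
    ∀ x ∈ IntermediateField.adjoin L {u}, ∃ a ∈ baseRing W N {u}, ∃ b ∈ baseRing W N {u},
      b ≠ 0 ∧ x * b = a := by
  intro x hx
  obtain ⟨r, s, rfl⟩ := (IntermediateField.mem_adjoin_simple_iff L x).1 hx
  by_cases hs : Polynomial.aeval u s = 0
  · refine ⟨0, Subring.zero_mem _, 1, Subring.one_mem _, one_ne_zero, ?_⟩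
    rw [hs, div_zero, zero_mul]
  · obtain ⟨dr, Pr, hdr, hPr⟩ := sIIA_poly_clear W N u r
    obtain ⟨ds, Ps, hds, hPs⟩ := sIIA_poly_clear W N u s
    have hcr : cW W N dr ≠ 0 := fun h =>
      hdr (sIIA_cW_injective W N (h.trans (map_zero (cW W N)).symm))
    have hcs : cW W N ds ≠ 0 := fun h =>
      hds (sIIA_cW_injective W N (h.trans (map_zero (cW W N)).symm))
    refine ⟨cW W N ds * evW W N u Pr,
      Subring.mul_mem _ (sIIA_cW_mem_baseRing W N _ _) (sIIA_poly_evW_mem W N u Pr),
      cW W N dr * evW W N u Ps,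
      Subring.mul_mem _ (sIIA_cW_mem_baseRing W N _ _) (sIIA_poly_evW_mem W N u Ps), ?_, ?_⟩
    · rw [hPs]
      exact mul_ne_zero hcr (mul_ne_zero hcs hs)
    · rw [hPr, hPs]
      field_simp

end Poly

/-- (Poly) For `u` transcendental over `L`: `W[u] ≅ W[X]` is noetherian and integrally closed, it is
contained in `L(u)` and every element of `L(u)` is a fraction of elements of `W[u]`. -/
theorem sIIA_poly_main : sIIA_PolyStatement := by
  intro N L _ _ W _ u hu
  refine ⟨?_, ?_, sIIA_poly_le_adjoin W N u, sIIA_poly_frac W N u⟩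
  · exact isNoetherianRing_of_ringEquiv (Polynomial ↥W) (sIIA_poly_equiv W N u hu)
  · exact IsIntegrallyClosed.of_equiv (sIIA_poly_equiv W N u hu)

end

end Fermat.Agent.S18
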