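/-
S18 — block S-II (twin A), package SII-Poly (twin file `SIIAPolyT.lean`, prefix `sIIA_polyT_`).

For `u ∈ F = ↥(FL L N)` transcendental over `L`: `W[u] = baseRing W N {u}` is the isomorphic image of
the polynomial ring `(↥W)[X]` under `evW W N u`; hence it is noetherian and integrally closed, it is
contained in `L(u)`, and every element of `L(u)` is a fraction of elements of `W[u]`.
-/
import Fermat.Agent.S18.SIIAInterfaces

set_option autoImplicit false

open ModularCurve AlgebraicCurve Polynomial

namespace Fermat.Agent.S18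

noncomputable section

section PolyT

variable {L : Type} [Field L] [Algebra ℚ L] (W : ValuationSubring L) (N : ℕ)

/-- `P(u) ∈ W[u]` for `P ∈ W[X]`. -/
theorem sIIA_polyT_evW_mem (u : ↥(FL L N)) (p : Polynomial ↥W) :
    evW W N u p ∈ baseRing W N {u} := by
  induction p using Polynomial.induction_on' with
  | add p q hp hq =>
    rw [map_add]
    exact Subring.add_mem _ hp hq
  | monomial n a =>
    have h : evW W N u (Polynomial.monomial n a) = cW W N a * u ^ n := by
      simp [evW]
    rw [h]
    exact Subring.mul_mem _ (sIIA_cW_mem_baseRing W N _ a)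
      (Subring.pow_mem _ (sIIA_mem_baseRing W N (Set.mem_singleton u)) n)

/-- Every element of `W[u]` is `P(u)` for some `P ∈ W[X]`. -/
theorem sIIA_polyT_exists_evW (u : ↥(FL L N)) {x : ↥(FL L N)} (hx : x ∈ baseRing W N {u}) :
    ∃ p : Polynomial ↥W, evW W N u p = x := by
  have h : baseRing W N {u} ≤ (evW W N u).range := by
    refine Subring.closure_le.2 ?_
    rintro y (⟨w, rfl⟩ | hy)
    · exact ⟨Polynomial.C w, by simp [evW]⟩
    · rw [Set.mem_singleton_iff] at hy
      subst hy
      exact ⟨Polynomial.X, by simp [evW]⟩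
  exact h hx

/-- `P(u)` computed over `L`. -/
theorem sIIA_polyT_evW_eq_aeval (u : ↥(FL L N)) (p : Polynomial ↥W) :
    evW W N u p = Polynomial.aeval u (p.map W.subtype) := by
  rw [Polynomial.aeval_def, Polynomial.eval₂_map]
  rfl

/-- For `u` transcendental over `L`, `P ↦ P(u)` is injective on `W[X]`. -/
theorem sIIA_polyT_evW_injective (u : ↥(FL L N)) (hu : Transcendental L u) :
    Function.Injective (evW W N u) := by
  rw [injective_iff_map_eq_zero]
  intro p hp
  rw [sIIA_polyT_evW_eq_aeval] at hp
  have h1 : p.map W.subtype = 0 := (transcendental_iff.1 hu) _ hp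
  exact Polynomial.map_injective _ Subtype.val_injective (by rw [h1, Polynomial.map_zero])

/-- The isomorphism `W[X] ≃ W[u]` for `u` transcendental over `L`. -/
def sIIA_polyT_equiv (u : ↥(FL L N)) (hu : Transcendental L u) :
    Polynomial ↥W ≃+* ↥(baseRing W N {u}) :=
  RingEquiv.ofBijective ((evW W N u).codRestrict (baseRing W N {u}) (sIIA_polyT_evW_mem W N u))
    ⟨fun _ _ h => sIIA_polyT_evW_injective W N u hu (congrArg Subtype.val h),
     fun x => by
       obtain ⟨p, hp⟩ := sIIA_polyT_exists_evW W N u x.2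
       exact ⟨p, Subtype.ext hp⟩⟩

/-- `W[u] ⊆ L(u)`. -/
theorem sIIA_polyT_le_adjoin (u : ↥(FL L N)) :
    ∀ x ∈ baseRing W N {u}, x ∈ IntermediateField.adjoin L {u} := by
  have h : baseRing W N {u} ≤ (IntermediateField.adjoin L {u}).toSubring := by
    refine Subring.closure_le.2 ?_
    rintro y (⟨w, rfl⟩ | hy)
    · exact (IntermediateField.adjoin L {u}).algebraMap_mem (w : L)
    · rw [Set.mem_singleton_iff] at hy
      subst hy
      exact IntermediateField.mem_adjoin_simple_self L y
  exact fun x hx => h hx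

/-- Clearing denominators of a polynomial over `L`: `d • p` has coefficients in `W`, `d ≠ 0`. -/
theorem sIIA_polyT_clear (u : ↥(FL L N)) (p : Polynomial L) :
    ∃ (d : ↥W) (P : Polynomial ↥W), d ≠ 0 ∧
      evW W N u P = cW W N d * Polynomial.aeval u p := by
  obtain ⟨d, hd, hP⟩ := IsLocalization.integerNormalization_spec (nonZeroDivisors ↥W) p
  refine ⟨d, IsLocalization.integerNormalization (nonZeroDivisors ↥W) p,
    nonZeroDivisors.ne_zero hd, ?_⟩
  rw [sIIA_polyT_evW_eq_aeval]
  have h2 : (IsLocalization.integerNormalization (nonZeroDivisors ↥W) p).map W.subtype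
      = d • p := hP
  rw [h2]
  have h3 : (d • p : Polynomial L) = Polynomial.C (d : L) * p := by
    rw [← Polynomial.smul_eq_C_mul]
    rfl
  rw [h3, map_mul, Polynomial.aeval_C]
  rfl

/-- Every element of `L(u)` is a fraction of elements of `W[u]`. -/
theorem sIIA_polyT_frac (u : ↥(FL L N)) :
    ∀ x ∈ IntermediateField.adjoin L {u}, ∃ a ∈ baseRing W N {u}, ∃ b ∈ baseRing W N {u},
      b ≠ 0 ∧ x * b = a := by
  intro x hx
  obtain ⟨r, s, rfl⟩ := (IntermediateField.mem_adjoin_simple_iff L x).1 hx
  by_cases hs : Polynomial.aeval u s = 0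
  · refine ⟨0, Subring.zero_mem _, 1, Subring.one_mem _, one_ne_zero, ?_⟩
    rw [hs, div_zero, zero_mul]
  · obtain ⟨dr, Pr, hdr, hPr⟩ := sIIA_polyT_clear W N u r
    obtain ⟨ds, Ps, hds, hPs⟩ := sIIA_polyT_clear W N u s
    have hdr' : cW W N dr ≠ 0 := fun h => hdr (sIIA_cW_injective W N (h.trans (map_zero _).symm))
    have hds' : cW W N ds ≠ 0 := fun h => hds (sIIA_cW_injective W N (h.trans (map_zero _).symm))
    refine ⟨evW W N u (Polynomial.C ds * Pr), sIIA_polyT_evW_mem W N u _,
      evW W N u (Polynomial.C dr * Ps), sIIA_polyT_evW_mem W N u _, ?_, ?_⟩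
    · have h : evW W N u (Polynomial.C dr * Ps)
          = cW W N dr * (cW W N ds * Polynomial.aeval u s) := by
        rw [map_mul, hPs]
        simp [evW]
      rw [h]
      exact mul_ne_zero hdr' (mul_ne_zero hds' hs)
    · have h1 : evW W N u (Polynomial.C dr * Ps)
          = cW W N dr * (cW W N ds * Polynomial.aeval u s) := by
        rw [map_mul, hPs]
        simp [evW]
      have h2 : evW W N u (Polynomial.C ds * Pr)
          = cW W N ds * (cW W N dr * Polynomial.aeval u r) := by
        rw [map_mul, hPr]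
        simp [evW]
      rw [h1, h2]
      field_simp

end PolyT

/-- **Package SII-Poly.** -/
theorem sIIA_polyT_main : sIIA_PolyStatement := by
  intro N L _ _ W _ u hu
  refine ⟨?_, ?_, sIIA_polyT_le_adjoin W N u, sIIA_polyT_frac W N u⟩
  · exact isNoetherianRing_of_ringEquiv _ (sIIA_polyT_equiv W N u hu)
  · exact IsIntegrallyClosed.of_equiv (sIIA_polyT_equiv W N u hu)

end

end Fermat.Agent.S18
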