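/-
S18 — block S-II (twin A), package SII-Q: elementary hypotheses of the quotient lemma for the integral
closure `B := (integralClosure ↥Λ E).toSubring` of a subring `Λ` of a field `E` (pure algebra).
Name prefix `sIIA_q_`.
-/
import Fermat.Agent.S18.SIIAInterfaces

set_option autoImplicit false

namespace Fermat.Agent.S18

/-- (Q-i) The integral closure `B` of `Λ` in `E` is integrally closed in `E`. -/
theorem sIIA_q_closed : sIIA_QClosedStatement := by
  intro E _ Λ x hx
  have h1 : IsIntegral ↥(integralClosure ↥Λ E) x := hx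
  show IsIntegral ↥Λ x
  exact isIntegral_trans x h1

/-- (Q-iii) If `σ` preserves `Λ`, it preserves the integral closure `B` of `Λ` in `E`. -/
theorem sIIA_q_stab : sIIA_QStabStatement := by
  intro F E _ _ _ Λ σ hσ x hx
  have hx' : IsIntegral ↥Λ x := hx
  show IsIntegral ↥Λ (σ x)
  exact hx'.map_of_comp_eq
    (((σ : E →+* E).comp Λ.subtype).codRestrict Λ (fun y => hσ y y.2)) (σ : E →+* E) rfl

/-- (Q-ii) If `E` is algebraic over `Λ`, every element of `E` is a fraction of elements of `B`. -/
theorem sIIA_q_frac : sIIA_QFracStatement := by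
  intro E _ Λ hAlg x
  obtain ⟨y, hy0, hy⟩ := (hAlg.isAlgebraic x).exists_integral_multiple
  refine ⟨(y : E) * x, ?_, (y : E), ?_, ?_, mul_comm _ _⟩
  · show IsIntegral ↥Λ ((y : E) * x)
    exact hy
  · show IsIntegral ↥Λ (y : E)
    exact isIntegral_algebraMap (R := ↥Λ) (x := y)
  · exact fun h => hy0 (Subtype.ext h)

/-- (Q-alg) Transitivity: `F` algebraic over `R ⊆ F`, `E` algebraic over `F`, the image of `R` in `E`
contained in `Λ`; then `E` is algebraic over `Λ`. -/
theorem sIIA_q_alg : sIIA_QAlgStatement := by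
  intro F E _ _ _ R Λ hRF hFE h
  let _ : Algebra ↥R E := ((algebraMap F E).comp R.subtype).toAlgebra
  have : IsScalarTower ↥R F E := IsScalarTower.of_algebraMap_eq (fun _ => rfl)
  have : Algebra.IsAlgebraic ↥R E := Algebra.IsAlgebraic.trans ↥R F E
  refine ⟨fun x => ?_⟩
  obtain ⟨p, hp0, hp⟩ := Algebra.IsAlgebraic.isAlgebraic (R := ↥R) x
  have hρ : Function.Injective
      (((algebraMap F E).comp R.subtype).codRestrict Λ (fun r => h r r.2)) := by
    intro a b hab
    have h2 : algebraMap F E (a : F) = algebraMap F E (b : F) := congrArg Subtype.val hab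
    exact Subtype.ext ((algebraMap F E).injective h2)
  refine ⟨p.map (((algebraMap F E).comp R.subtype).codRestrict Λ (fun r => h r r.2)),
    (Polynomial.map_ne_zero_iff hρ).2 hp0, ?_⟩
  rw [Polynomial.aeval_def, Polynomial.eval₂_map]
  exact hp

end Fermat.Agent.S18
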