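/-
S18 — block S-II (twin A), package SII-Res (RF): residue fields of the charts at maximal ideals over
`ϖ` are `k`.  Name prefix `sIIA_res_`.

Abstract core (`sIIA_res_abstract`): `A ⊆ F` a subring integral over `c(W)[S]` with `S` finite,
`res : W → k` surjective onto an algebraically closed field, `n` a maximal ideal of `A` such that
`W → A / n` kills `ker res`.  Then `A / n` is a finitely generated field extension of `k` up to an
integral extension, hence (Zariski's lemma) algebraic over `k`, hence equal to `k`.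
-/
import Fermat.Agent.S18.SIIAInterfaces

set_option autoImplicit false

open ModularCurve AlgebraicCurve Polynomial

namespace Fermat.Agent.S18

noncomputable section

/-- If a ring hom `ψ : k →+* κ` from an algebraically closed field to a field is such that `κ` is
integral over a finitely generated `k`-subalgebra, then `ψ` is surjective.  (Zariski's lemma.) -/
theorem sIIA_res_zariski {k κ : Type} [Field k] [IsAlgClosed k] [Field κ] [Algebra k κ]
    (T : Subalgebra k κ) (hfin : Algebra.FiniteType k ↥T) (hint : ∀ x : κ, IsIntegral ↥T x) :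
    Function.Bijective (algebraMap k κ) := by
  have : Algebra.IsIntegral ↥T κ := ⟨hint⟩
  have hT : IsField ↥T :=
    isField_of_isIntegral_of_isField (R := ↥T) (S := κ) Subtype.val_injective (Field.toIsField κ)
  let : Field ↥T := hT.toField
  have : Module.Finite k ↥T := finite_of_finite_type_of_isJacobsonRing k ↥T
  have : Algebra.IsIntegral k ↥T := Algebra.IsIntegral.of_finite k ↥T
  have : Algebra.IsIntegral k κ := Algebra.IsIntegral.trans (R := k) (B := κ) ↥T
  exact IsAlgClosed.algebraMap_bijective_of_isIntegral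

/-- Abstract form of the package. -/
theorem sIIA_res_abstract {W k F : Type} [CommRing W] [Field k] [IsAlgClosed k] [CommRing F]
    (res : W →+* k) (hres : Function.Surjective res) (c : W →+* F) (S : Set F) (hS : S.Finite)
    (A : Subring F) (hcA : ∀ w, c w ∈ A) (hSA : S ⊆ A)
    (hint : ∀ a ∈ A, IsIntegral ↥(Subring.closure (Set.range c ∪ S)) a)
    (n : Ideal ↥A) [n.IsMaximal] (hker : ∀ w, res w = 0 → (⟨c w, hcA w⟩ : ↥A) ∈ n) :
    (∀ a : ↥A, ∃ w : W, a - ⟨c w, hcA w⟩ ∈ n) ∧
    (∀ p : Polynomial ↥A, p.Monic → 0 < p.natDegree → ∃ a : ↥A, p.eval a ∈ n) := by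
  classical
  let : Field (↥A ⧸ n) := Ideal.Quotient.field n
  let π : ↥A →+* ↥A ⧸ n := Ideal.Quotient.mk n
  have hπ : Function.Surjective π := Ideal.Quotient.mk_surjective
  let cA : W →+* ↥A := c.codRestrict A hcA
  -- `ψ : k → A / n`
  have hker' : RingHom.ker res ≤ RingHom.ker (π.comp cA) := fun w hw =>
    RingHom.mem_ker.2 (Ideal.Quotient.eq_zero_iff_mem.2 (hker w (RingHom.mem_ker.1 hw)))
  let ψ : k →+* ↥A ⧸ n := RingHom.liftOfSurjective res hres ⟨π.comp cA, hker'⟩
  have hψ : ∀ w, ψ (res w) = π (cA w) := fun w =>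
    RingHom.liftOfRightInverse_comp_apply res _ _ ⟨π.comp cA, hker'⟩ w
  let : Algebra k (↥A ⧸ n) := ψ.toAlgebra
  have halg : ∀ x : k, algebraMap k (↥A ⧸ n) x = ψ x := fun _ => rfl
  -- the generators
  let S' : Set ↥A := Subtype.val ⁻¹' S
  have hS' : S'.Finite := hS.preimage Subtype.val_injective.injOn
  let T : Subalgebra k (↥A ⧸ n) := Algebra.adjoin k (π '' S')
  have hTfin : Algebra.FiniteType k ↥T := Algebra.FiniteType.adjoin_of_finite (hS'.image π)
  -- the base ring
  have hRA : Subring.closure (Set.range c ∪ S) ≤ A := by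
    refine Subring.closure_le.2 ?_
    rintro x (⟨w, rfl⟩ | hx)
    · exact hcA w
    · exact hSA hx
  have hRT : Subring.closure (Set.range c ∪ S) ≤ (T.toSubring.comap π).map A.subtype := by
    refine Subring.closure_le.2 ?_
    rintro x (⟨w, rfl⟩ | hx)
    · refine ⟨cA w, ?_, rfl⟩
      show π (cA w) ∈ T
      rw [← hψ w, ← halg]
      exact T.algebraMap_mem (res w)
    · refine ⟨⟨x, hSA hx⟩, ?_, rfl⟩
      show π ⟨x, hSA hx⟩ ∈ T
      exact Algebra.subset_adjoin ⟨⟨x, hSA hx⟩, hx, rfl⟩
  have hRT' : ∀ r : ↥(Subring.closure (Set.range c ∪ S)), π (Subring.inclusion hRA r) ∈ T := by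
    intro r
    obtain ⟨a, ha, har⟩ := hRT r.2
    have : Subring.inclusion hRA r = a := Subtype.ext har.symm
    rw [this]
    exact ha
  let ρ : ↥(Subring.closure (Set.range c ∪ S)) →+* ↥T :=
    (π.comp (Subring.inclusion hRA)).codRestrict T hRT'
  -- integrality
  have hintT : ∀ x : ↥A ⧸ n, IsIntegral ↥T x := by
    intro x
    obtain ⟨a, rfl⟩ := hπ x
    let : Algebra ↥(Subring.closure (Set.range c ∪ S)) ↥A := (Subring.inclusion hRA).toAlgebra
    have h1 : IsIntegral ↥(Subring.closure (Set.range c ∪ S)) a := by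
      have h0 := hint a a.2
      let f : ↥A →ₐ[↥(Subring.closure (Set.range c ∪ S))] F :=
        { A.subtype with commutes' := fun _ => rfl }
      exact (isIntegral_algHom_iff f Subtype.val_injective).1 h0
    exact IsIntegral.map_of_comp_eq ρ π (RingHom.ext fun _ => rfl) h1
  have hbij : Function.Bijective (algebraMap k (↥A ⧸ n)) := sIIA_res_zariski T hTfin hintT
  refine ⟨?_, ?_⟩
  · intro a
    obtain ⟨x, hx⟩ := hbij.2 (π a)
    obtain ⟨w, rfl⟩ := hres x
    refine ⟨w, ?_⟩
    have h2 : π (a - cA w) = 0 := by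
      rw [map_sub, ← hψ w, ← halg, hx, sub_self]
    exact Ideal.Quotient.eq_zero_iff_mem.1 h2
  · intro p hp hdeg
    have : IsAlgClosed (↥A ⧸ n) :=
      IsAlgClosed.of_ringEquiv k (↥A ⧸ n) (RingEquiv.ofBijective (algebraMap k (↥A ⧸ n)) hbij)
    have hq : (p.map π).degree ≠ 0 := by
      rw [Polynomial.degree_eq_natDegree (hp.map π).ne_zero, hp.natDegree_map π]
      exact_mod_cast hdeg.ne'
    obtain ⟨x, hx⟩ := IsAlgClosed.exists_root (p.map π) hq
    obtain ⟨a, rfl⟩ := hπ x
    refine ⟨a, ?_⟩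
    have h3 : π (p.eval a) = 0 := by
      rw [← Polynomial.eval_map_apply]
      exact hx
    exact Ideal.Quotient.eq_zero_iff_mem.1 h3

theorem sIIA_res_main : sIIA_ResStatement := by
  intro N ℓ _ L _ _ W _ k _ _ _ res ϖ hD S hS n _ ϖc hϖc hϖn
  have hker : ∀ w : ↥W, res w = 0 →
      (⟨cW W N w, sIIA_cW_mem_chart W N S w⟩ : ↥(chart W N S)) ∈ n := by
    intro w hw
    have hw' : w ∈ Ideal.span {ϖ} := by
      rw [← hD.ker_res]
      exact RingHom.mem_ker.2 hw
    obtain ⟨v, rfl⟩ := Ideal.mem_span_singleton'.1 hw'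
    have : (⟨cW W N (v * ϖ), sIIA_cW_mem_chart W N S (v * ϖ)⟩ : ↥(chart W N S)) =
        ⟨cW W N v, sIIA_cW_mem_chart W N S v⟩ * ϖc := by
      apply Subtype.ext
      show cW W N (v * ϖ) = cW W N v * (ϖc : ↥(FL L N))
      rw [hϖc, map_mul]
    rw [this]
    exact n.mul_mem_left _ hϖn
  have key := sIIA_res_abstract res hD.res_surjective (cW W N) S hS (chart W N S)
    (sIIA_cW_mem_chart W N S) (fun s hs => sIIA_mem_chart W N hs) (fun a ha => ha) n hker
  refine ⟨?_, key.2⟩
  intro a
  obtain ⟨w, hw⟩ := key.1 a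
  exact ⟨w, ⟨cW W N w, sIIA_cW_mem_chart W N S w⟩, rfl, hw⟩

end

end Fermat.Agent.S18
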