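import Fermat.Agent.S18.SIIBInterfaces
set_option autoImplicit false
open ModularCurve AlgebraicCurve Polynomial
namespace Fermat.Agent.S18

/-!
S18 — block S-II (twin B), package Desc: uniform descent from a cover to a chart by the quotient lemma
(assembly of `QuotientStatement`, `sIIB_IdStatement`, `sIIB_ElemStatement`, `sIIB_FracStatement`,
`sIIB_ResStatement`).  Prefix `sIIB_desc_`.
-/

/-- The quotient lemma, with the subring `B ∩ F` replaced by a variable subring `C` equal to it. -/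
theorem sIIB_desc_aux (hQ : QuotientStatement) (F E : Type) [Field F] [Field E] [CharZero F]
    [Algebra F E] [FiniteDimensional F E] [IsGalois F E] (B : Subring E)
    (h1 : ∀ x : E, IsIntegral ↥B x → x ∈ B)
    (h2 : ∀ x : E, ∃ a ∈ B, ∃ b ∈ B, b ≠ 0 ∧ x * b = a)
    (h3 : ∀ (σ : E ≃ₐ[F] E), ∀ x ∈ B, σ x ∈ B) (C : Subring F)
    (hC : C = B.comap (algebraMap F E)) (hN : IsNoetherianRing ↥C)
    (n : Ideal ↥C) [n.IsMaximal] (ϖ : ↥C) (hϖ0 : ϖ ≠ 0) (hϖn : ϖ ∈ n)
    (hroot : ∀ p : Polynomial ↥C, p.Monic → 0 < p.natDegree → ∃ a : ↥C, p.eval a ∈ n)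
    (hM : ∀ (M : Ideal ↥B) [M.IsMaximal] (ϖB : ↥B), (ϖB : E) = algebraMap F E (ϖ : F) →
      (∀ (c : ↥C) (b : ↥B), c ∈ n → (b : E) = algebraMap F E (c : F) → b ∈ M) →
      IsDVRQuot (Localization.AtPrime M) (algebraMap ↥B (Localization.AtPrime M) ϖB)) :
    IsDVRQuot (Localization.AtPrime n) (algebraMap ↥C (Localization.AtPrime n) ϖ) := by
  subst hC
  exact hQ F E B h1 h2 h3 hN n ϖ hϖ0 hϖn hroot hM

/-- The constant `ϖ` is nonzero in `F`. -/
theorem sIIB_desc_cW_ne_zero {L : Type} [Field L] [Algebra ℚ L] (W : ValuationSubring L) (N : ℕ)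
    (ϖ : ↥W) (hϖ : ϖ ≠ 0) : cW W N ϖ ≠ 0 := by
  intro h0
  apply hϖ
  have h1 : algebraMap L ↥(FL L N) (ϖ : L) = 0 := h0
  have h2 : (ϖ : L) = 0 := (map_eq_zero (algebraMap L ↥(FL L N))).1 h1
  exact Subtype.ext h2

/-- (D1/D2, uniform) Descent from a cover to a chart by the quotient lemma. -/
theorem sIIB_desc_main : QuotientStatement → sIIB_IdStatement → sIIB_ElemStatement →
    sIIB_FracStatement → sIIB_ResStatement → sIIB_DescStatement := by
  intro hQ hId hElem hFrac hRes N _ ℓ _ L _ _ W _ k _ _ _ res ϖ hD E _ _ t h hC S s hSfin hsS hAlg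
    hSΛ hint_t hint_h hNoeth hB n _ ϖc hϖc hϖn
  have : CharZero L := algebraRat.charZero L
  have : CharZero ↥(FL L N) :=
    charZero_of_injective_algebraMap (algebraMap L ↥(FL L N)).injective
  have : IsGalois ↥(FL L N) E := hC.galois
  have ht : IsIntegral ↥(FL L N) t := Algebra.IsIntegral.isIntegral t
  have : FiniteDimensional ↥(FL L N) E :=
    (hElem ↥(FL L N) E (coverRing W N E t h)).2.2 t ht hC.gen
  have hAlgE : Algebra.IsAlgebraic ↥(FL L N) E := Algebra.IsAlgebraic.of_finite _ _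
  have hCeq := hId N L W E t h S hSΛ hint_t hint_h
  have hϖc0 : ϖc ≠ 0 := by
    intro h0
    apply sIIB_desc_cW_ne_zero W N ϖ hD.irreducible.ne_zero
    rw [← hϖc, h0]
    rfl
  refine sIIB_desc_aux hQ ↥(FL L N) E (integralClosure ↥(coverRing W N E t h) E).toSubring
    (hElem ↥(FL L N) E (coverRing W N E t h)).1
    (hFrac N L W E (coverRing W N E t h) s hAlgE hAlg
      (fun w => Subring.subset_closure (Or.inl ⟨w, rfl⟩)) (hSΛ s hsS))
    ((hElem ↥(FL L N) E (coverRing W N E t h)).2.1 hC.stab)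
    (chart W N S) hCeq.symm hNoeth n ϖc hϖc0 hϖn
    (hRes N ℓ L W k res ϖ hD S hSfin n ϖc hϖc hϖn).2 ?_
  intro M _ ϖB h1 hover
  exact hB M ϖB (by rw [h1, hϖc]; rfl) (hover ϖc ϖB hϖn h1)

end Fermat.Agent.S18
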