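/-
S18 — block S-II (twin B), package SIIB-Res (twin A), step (RF): residue fields of the charts at the
maximal ideals containing `ϖ`.  Name prefix `sIIB_resA_`.

For a finite set `S ⊆ F` and a maximal ideal `n ∋ ϖ` of `A = chart W N S`, the field `A / n` is integral
over the finitely generated `k`-algebra generated by the classes of the elements of `S`; by Zariski's
lemma it is algebraic over the algebraically closed field `k`, hence equal to `k`.  So `W → A / n` is
surjective and every monic polynomial of positive degree over `A` has a root modulo `n`.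
-/
import Fermat.Agent.S18.SIIBInterfaces

set_option autoImplicit false

open ModularCurve AlgebraicCurve Polynomial

namespace Fermat.Agent.S18

/-- Zariski's lemma over an algebraically closed field `k`: a field `κ` which is integral over the
`k`-subalgebra generated by a finite set is `k` itself. -/
theorem sIIB_resA_zariski {k κ : Type*} [Field k] [IsAlgClosed k] [Field κ] [Algebra k κ]
    {s : Set κ} (hs : s.Finite) (hint : ∀ x : κ, IsIntegral ↥(Algebra.adjoin k s) x) :
    Function.Bijective (algebraMap k κ) := by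
  have hft : Algebra.FiniteType k ↥(Algebra.adjoin k s) := Algebra.FiniteType.adjoin_of_finite hs
  have hTκ : Algebra.IsIntegral ↥(Algebra.adjoin k s) κ := ⟨hint⟩
  -- a domain over which a field is integral is a field
  have hfld : IsField ↥(Algebra.adjoin k s) :=
    isField_of_isIntegral_of_isField (R := ↥(Algebra.adjoin k s)) (S := κ) Subtype.val_injective
      (Field.toIsField κ)
  let : Field ↥(Algebra.adjoin k s) := hfld.toField
  -- Zariski's lemma
  have hfin : Module.Finite k ↥(Algebra.adjoin k s) :=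
    finite_of_finite_type_of_isJacobsonRing k ↥(Algebra.adjoin k s)
  have hkT : Algebra.IsIntegral k ↥(Algebra.adjoin k s) :=
    Algebra.IsIntegral.of_finite k ↥(Algebra.adjoin k s)
  have hkκ : Algebra.IsIntegral k κ :=
    Algebra.IsIntegral.trans (R := k) (B := κ) ↥(Algebra.adjoin k s)
  exact IsAlgClosed.algebraMap_bijective_of_isIntegral

/-- Abstract form of (RF): `A ⊆ F` a subring containing `c(W)` and the finite set `S`, integral over
`c(W)[S]`; `res : W → k` surjective onto an algebraically closed field with kernel `(ϖ)`; `n` a maximal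
ideal of `A` containing `c ϖ`.  Then `W → A / n` is surjective and every monic polynomial of positive
degree over `A` has a root modulo `n`. -/
theorem sIIB_resA_core {W F k : Type*} [CommRing W] [CommRing F] [Field k] [IsAlgClosed k]
    (res : W →+* k) (hres : Function.Surjective res) (ϖ : W)
    (hker : RingHom.ker res = Ideal.span {ϖ})
    (c : W →+* F) {S : Set F} (hS : S.Finite) (A : Subring F) (hc : ∀ w, c w ∈ A) (hSA : S ⊆ A)
    (hA : ∀ a ∈ A, IsIntegral ↥(Subring.closure (Set.range c ∪ S)) a)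
    (n : Ideal ↥A) [n.IsMaximal] (hϖ : (⟨c ϖ, hc ϖ⟩ : ↥A) ∈ n) :
    (∀ a : ↥A, ∃ w : W, a - ⟨c w, hc w⟩ ∈ n) ∧
    (∀ p : Polynomial ↥A, p.Monic → 0 < p.natDegree → ∃ a : ↥A, p.eval a ∈ n) := by
  classical
  let : Field (↥A ⧸ n) := Ideal.Quotient.field n
  -- the structure map `W → A`, the projection `A → A / n` and their composite `φ`
  let cA : W →+* ↥A := c.codRestrict A hc
  let π : ↥A →+* ↥A ⧸ n := Ideal.Quotient.mk n
  have hπn : ∀ a : ↥A, π a = 0 ↔ a ∈ n := fun a => Ideal.Quotient.eq_zero_iff_mem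
  let φ : W →+* ↥A ⧸ n := π.comp cA
  -- step 1: `φ` factors through `res`
  have hφϖ : φ ϖ = 0 := (hπn _).2 hϖ
  have hφker : RingHom.ker res ≤ RingHom.ker φ := by
    rw [hker, Ideal.span_le, Set.singleton_subset_iff]
    exact RingHom.mem_ker.2 hφϖ
  let ψ : k →+* ↥A ⧸ n := RingHom.liftOfSurjective res hres ⟨φ, hφker⟩
  have hψ : ∀ w : W, ψ (res w) = π (cA w) := fun w =>
    RingHom.liftOfSurjective_comp_apply res hres ⟨φ, hφker⟩ w
  let : Algebra k (↥A ⧸ n) := ψ.toAlgebra
  have hψalg : ∀ x : k, algebraMap k (↥A ⧸ n) x = ψ x := fun _ => rfl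
  -- step 2: `A / n` is integral over the `k`-subalgebra `T` generated by the classes of `S`
  let s : Set (↥A ⧸ n) := π '' (Subtype.val ⁻¹' S)
  have hs : s.Finite := (hS.preimage Subtype.val_injective.injOn).image π
  have hRA : Subring.closure (Set.range c ∪ S) ≤ A := by
    rw [Subring.closure_le]
    rintro x (⟨w, rfl⟩ | hx)
    · exact hc w
    · exact hSA hx
  have hRT : ∀ (x : F) (hx : x ∈ Subring.closure (Set.range c ∪ S)),
      π ⟨x, hRA hx⟩ ∈ Algebra.adjoin k s := by
    intro x hx
    induction hx using Subring.closure_induction with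
    | mem x hx =>
      rcases hx with ⟨w, rfl⟩ | hx
      · have h1 : π ⟨c w, hRA (Subring.subset_closure (Or.inl ⟨w, rfl⟩))⟩ =
            algebraMap k (↥A ⧸ n) (res w) := (hψ w).symm
        rw [h1]
        exact Subalgebra.algebraMap_mem _ _
      · exact Algebra.subset_adjoin ⟨⟨x, hSA hx⟩, hx, rfl⟩
    | zero => exact (map_zero π).symm ▸ Subalgebra.zero_mem _
    | one => exact (map_one π).symm ▸ Subalgebra.one_mem _
    | add x y hx hy ihx ihy =>
      have h1 : π ⟨x + y, hRA (Subring.add_mem _ hx hy)⟩ = π ⟨x, hRA hx⟩ + π ⟨y, hRA hy⟩ :=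
        map_add π ⟨x, hRA hx⟩ ⟨y, hRA hy⟩
      rw [h1]
      exact Subalgebra.add_mem _ ihx ihy
    | neg x hx ihx =>
      have h1 : π ⟨-x, hRA (Subring.neg_mem _ hx)⟩ = -π ⟨x, hRA hx⟩ := map_neg π ⟨x, hRA hx⟩
      rw [h1]
      exact Subalgebra.neg_mem _ ihx
    | mul x y hx hy ihx ihy =>
      have h1 : π ⟨x * y, hRA (Subring.mul_mem _ hx hy)⟩ = π ⟨x, hRA hx⟩ * π ⟨y, hRA hy⟩ :=
        map_mul π ⟨x, hRA hx⟩ ⟨y, hRA hy⟩
      rw [h1]
      exact Subalgebra.mul_mem _ ihx ihy
  let ι : ↥(Subring.closure (Set.range c ∪ S)) →+* ↥A := Subring.inclusion hRA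
  let ρ : ↥(Subring.closure (Set.range c ∪ S)) →+* ↥(Algebra.adjoin k s) :=
    (π.comp ι).codRestrict (Algebra.adjoin k s) (fun r => hRT r r.2)
  have hint : ∀ x : ↥A ⧸ n, IsIntegral ↥(Algebra.adjoin k s) x := by
    intro x
    obtain ⟨a, rfl⟩ := Ideal.Quotient.mk_surjective x
    obtain ⟨p, hp, hpa⟩ := hA a a.2
    have h0 : p.eval₂ ι a = 0 := by
      apply Subtype.val_injective
      have h1 := Polynomial.hom_eval₂ p ι A.subtype a
      exact h1.trans hpa
    refine ⟨p.map ρ, hp.map ρ, ?_⟩
    rw [Polynomial.eval₂_map]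
    have h2 : (algebraMap ↥(Algebra.adjoin k s) (↥A ⧸ n)).comp ρ = π.comp ι := rfl
    rw [h2, ← Polynomial.hom_eval₂, h0, map_zero]
  -- step 3: `k → A / n` is bijective
  have hbij : Function.Bijective (algebraMap k (↥A ⧸ n)) := sIIB_resA_zariski hs hint
  refine ⟨fun a => ?_, fun p hp hdeg => ?_⟩
  · -- first conclusion: `W → A / n` is surjective
    obtain ⟨x, hx⟩ := hbij.2 (π a)
    obtain ⟨w, rfl⟩ := hres x
    refine ⟨w, (hπn _).1 ?_⟩
    rw [map_sub, ← hx, hψalg, hψ w]
    exact sub_self _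
  · -- second conclusion: transport `p mod n` to `k` along `k ≃ A / n` and take a root there
    let e : k ≃+* ↥A ⧸ n := RingEquiv.ofBijective (algebraMap k (↥A ⧸ n)) hbij
    let ε : ↥A ⧸ n →+* k := e.symm.toRingHom
    have hmon : ((p.map π).map ε).Monic := (hp.map π).map ε
    have hq : ((p.map π).map ε).degree ≠ 0 := by
      rw [Polynomial.degree_eq_natDegree hmon.ne_zero, (hp.map π).natDegree_map ε,
        hp.natDegree_map π]
      exact_mod_cast hdeg.ne'
    obtain ⟨y, hy⟩ := IsAlgClosed.exists_root ((p.map π).map ε) hq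
    obtain ⟨a, ha⟩ := Ideal.Quotient.mk_surjective (e y)
    refine ⟨a, (hπn _).1 ?_⟩
    have h1 : ε (e y) = y := e.symm_apply_apply y
    have h2 : ((p.map π).map ε).eval (ε (e y)) = ε ((p.map π).eval (e y)) :=
      Polynomial.eval_map_apply ε (e y)
    rw [h1] at h2
    have h3 : ε ((p.map π).eval (e y)) = 0 := h2.symm.trans hy
    have h4 : (p.map π).eval (e y) = 0 := (map_eq_zero ε).1 h3
    have h5 : (p.map π).eval (π a) = π (p.eval a) := Polynomial.eval_map_apply π a
    rw [← h5]
    exact (congrArg (fun z => (p.map π).eval z) ha).trans h4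

theorem sIIB_resA_main : sIIB_ResStatement := by
  intro N _ ℓ _ L _ _ W _ k _ _ _ res ϖ hD S hS n _ ϖc hϖc hϖn
  have hϖ : (⟨cW W N ϖ, sIIB_cW_mem_chart W N S ϖ⟩ : ↥(chart W N S)) ∈ n := by
    have h1 : (⟨cW W N ϖ, sIIB_cW_mem_chart W N S ϖ⟩ : ↥(chart W N S)) = ϖc :=
      Subtype.ext hϖc.symm
    rw [h1]
    exact hϖn
  have key := sIIB_resA_core res hD.res_surjective ϖ hD.ker_res (cW W N) hS (chart W N S)
    (sIIB_cW_mem_chart W N S) (fun x hx => sIIB_mem_chart W N hx) (fun a ha => ha) n hϖ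
  exact ⟨fun a => (key.1 a).elim fun w hw =>
    ⟨w, ⟨cW W N w, sIIB_cW_mem_chart W N S w⟩, rfl, hw⟩, key.2⟩

end Fermat.Agent.S18
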